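/-
S19 / alternative route for the joint (c) (board #2152): the formal group as the Čech `H¹` of the
units `1 + 𝔪·𝒪` of a two-chart cover.  **Part 1: elementary facts** about extended ideals
`ext C 𝔞 = 𝔞·C`, the elements `beta ε a = ∏ (1 + a_i ε_i)` and products that are `≡ 1`.

Everything here is pure commutative algebra (Mathlib only).
-/
import Mathlib

set_option autoImplicit false

namespace Fermat.Agent.S19.Cech

variable {S : Type*} [CommRing S]

/-- The extension `𝔞·C` of an ideal `𝔞` of `S` to an `S`-algebra `C`. -/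
abbrev ext (C : Type*) [CommRing C] [Algebra S C] (𝔞 : Ideal S) : Ideal C :=
  𝔞.map (algebraMap S C)

section Ext

variable {C : Type*} [CommRing C] [Algebra S C] {C' : Type*} [CommRing C'] [Algebra S C']

theorem ext_mono {𝔞 𝔟 : Ideal S} (h : 𝔞 ≤ 𝔟) : ext C 𝔞 ≤ ext C 𝔟 := Ideal.map_mono h

theorem algebraMap_mem_ext {𝔞 : Ideal S} {r : S} (hr : r ∈ 𝔞) : algebraMap S C r ∈ ext C 𝔞 :=
  Ideal.mem_map_of_mem _ hr

theorem ext_mul (𝔞 𝔟 : Ideal S) : ext C (𝔞 * 𝔟) = ext C 𝔞 * ext C 𝔟 := Ideal.map_mul _ _ _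

theorem mul_mem_ext_mul {𝔞 𝔟 : Ideal S} {x y : C} (hx : x ∈ ext C 𝔞) (hy : y ∈ ext C 𝔟) :
    x * y ∈ ext C (𝔞 * 𝔟) := by
  rw [ext_mul]; exact Ideal.mul_mem_mul hx hy

theorem map_mem_ext (f : C →ₐ[S] C') {𝔞 : Ideal S} {x : C} (hx : x ∈ ext C 𝔞) :
    f x ∈ ext C' 𝔞 := by
  have h : (ext C 𝔞).map (f : C →+* C') = ext C' 𝔞 := by
    unfold ext
    rw [Ideal.map_map]
    congr 1
    exact f.comp_algebraMap
  rw [← h]
  exact Ideal.mem_map_of_mem _ hx

/-- `𝔪·C · 𝔪^d·C ⊆ 𝔪^(d+1)·C` -/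
theorem mul_mem_ext_pow_succ {𝔪 : Ideal S} {d : ℕ} {x y : C} (hx : x ∈ ext C 𝔪)
    (hy : y ∈ ext C (𝔪 ^ d)) : x * y ∈ ext C (𝔪 ^ (d + 1)) := by
  have := mul_mem_ext_mul hx hy
  rwa [← pow_succ'] at this

/-- `𝔪^d·C · 𝔪^d·C ⊆ 𝔪^(d+1)·C` for `d ≥ 1` -/
theorem mul_mem_ext_pow_succ' {𝔪 : Ideal S} {d : ℕ} (hd : 1 ≤ d) {x y : C}
    (hx : x ∈ ext C (𝔪 ^ d)) (hy : y ∈ ext C (𝔪 ^ d)) : x * y ∈ ext C (𝔪 ^ (d + 1)) := by
  have h := mul_mem_ext_mul hx hy
  rw [← pow_add] at h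
  exact ext_mono (Ideal.pow_le_pow_right (by omega)) h

theorem ext_pow_le (𝔪 : Ideal S) {d : ℕ} (hd : 1 ≤ d) : ext C (𝔪 ^ d) ≤ ext C 𝔪 := by
  apply ext_mono
  calc 𝔪 ^ d ≤ 𝔪 ^ 1 := Ideal.pow_le_pow_right hd
    _ = 𝔪 := pow_one _

end Ext

/-! ### a product formula modulo small terms -/

theorem prod_add_of_small {Q : Type*} [CommRing Q] {ι : Type*} [DecidableEq ι] (s : Finset ι)
    (p q : ι → Q) (hqq : ∀ i j, q i * q j = 0) (hpq : ∀ i j, (p i - 1) * q j = 0) :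
    ∏ i ∈ s, (p i + q i) = ∏ i ∈ s, p i + ∑ i ∈ s, q i := by
  have hprod : ∀ (t : Finset ι) (k : ι), (∏ i ∈ t, p i) * q k = q k := by
    intro t k
    induction t using Finset.induction_on with
    | empty => simp
    | insert a t ha ih =>
      rw [Finset.prod_insert ha, mul_assoc, ih]
      have := hpq a k
      linear_combination this
  induction s using Finset.induction_on with
  | empty => simp
  | insert k s hk ih =>
    rw [Finset.prod_insert hk, Finset.prod_insert hk, Finset.sum_insert hk, ih]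
    have h1 : p k * ∑ i ∈ s, q i = ∑ i ∈ s, q i := by
      rw [Finset.mul_sum]
      refine Finset.sum_congr rfl fun i _ => ?_
      have := hpq k i
      linear_combination this
    have h2 : q k * ∏ i ∈ s, p i = q k := by rw [mul_comm]; exact hprod s k
    have h3 : q k * ∑ i ∈ s, q i = 0 := by
      rw [Finset.mul_sum]
      exact Finset.sum_eq_zero fun i _ => hqq k i
    linear_combination h1 + h2 + h3

/-! ### the elements `beta ε a` -/

variable {C0 : Type*} [CommRing C0] [Algebra S C0] {g : ℕ}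

/-- `beta ε a = ∏ (1 + a_i ε_i)` -/
def beta (ε : Fin g → C0) (a : Fin g → S) : C0 := ∏ i, (1 + algebraMap S C0 (a i) * ε i)

theorem prod_sub_one_mem {ι : Type*} (s : Finset ι) (I : Ideal C0) (f : ι → C0)
    (h : ∀ i ∈ s, f i - 1 ∈ I) : ∏ i ∈ s, f i - 1 ∈ I := by
  rw [← Ideal.Quotient.eq_zero_iff_mem, map_sub, map_prod, map_one]
  have : ∀ i ∈ s, Ideal.Quotient.mk I (f i) = 1 := by
    intro i hi
    have := h i hi
    rw [← Ideal.Quotient.eq_zero_iff_mem, map_sub, map_one, sub_eq_zero] at this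
    exact this
  rw [Finset.prod_congr rfl this, Finset.prod_const_one, sub_self]

theorem beta_sub_one_mem (ε : Fin g → C0) {𝔞 : Ideal S} {a : Fin g → S} (ha : ∀ i, a i ∈ 𝔞) :
    beta ε a - 1 ∈ ext C0 𝔞 := by
  unfold beta
  apply prod_sub_one_mem
  intro i _
  have : (1 + algebraMap S C0 (a i) * ε i) - 1 = algebraMap S C0 (a i) * ε i := by ring
  rw [this]
  exact Ideal.mul_mem_right _ _ (algebraMap_mem_ext (ha i))

theorem beta_zero (ε : Fin g → C0) : beta ε (0 : Fin g → S) = 1 := by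
  unfold beta; simp

/-- `beta (a + τ) ≡ beta a + ∑ τ_i ε_i` modulo `𝔪^(d+1)` when `a ∈ 𝔪`, `τ ∈ 𝔪^d`, `d ≥ 1`. -/
theorem beta_add_sub_mem (ε : Fin g → C0) {𝔪 : Ideal S} {d : ℕ} (hd : 1 ≤ d) {a τ : Fin g → S}
    (ha : ∀ i, a i ∈ 𝔪) (hτ : ∀ i, τ i ∈ 𝔪 ^ d) :
    beta ε (a + τ) - beta ε a - ∑ i, algebraMap S C0 (τ i) * ε i ∈ ext C0 (𝔪 ^ (d + 1)) := by
  classical
  set J := ext C0 (𝔪 ^ (d + 1)) with hJ
  rw [← Ideal.Quotient.eq_zero_iff_mem]
  set π := Ideal.Quotient.mk J with hπ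
  have key := prod_add_of_small (Finset.univ : Finset (Fin g))
    (fun i => π (1 + algebraMap S C0 (a i) * ε i)) (fun i => π (algebraMap S C0 (τ i) * ε i))
    (by
      intro i j
      rw [← map_mul, hπ, Ideal.Quotient.eq_zero_iff_mem]
      exact mul_mem_ext_pow_succ' hd (Ideal.mul_mem_right _ _ (algebraMap_mem_ext (hτ i)))
        (Ideal.mul_mem_right _ _ (algebraMap_mem_ext (hτ j))))
    (by
      intro i j
      rw [← map_one π, ← map_sub, ← map_mul, hπ, Ideal.Quotient.eq_zero_iff_mem]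
      have : (1 + algebraMap S C0 (a i) * ε i) - 1 = algebraMap S C0 (a i) * ε i := by ring
      rw [this]
      exact mul_mem_ext_pow_succ (Ideal.mul_mem_right _ _ (algebraMap_mem_ext (ha i)))
        (Ideal.mul_mem_right _ _ (algebraMap_mem_ext (hτ j))))
  have e1 : π (beta ε (a + τ)) = ∏ i, (π (1 + algebraMap S C0 (a i) * ε i)
      + π (algebraMap S C0 (τ i) * ε i)) := by
    unfold beta
    rw [map_prod]
    refine Finset.prod_congr rfl fun i _ => ?_
    rw [← map_add]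
    congr 1
    simp only [Pi.add_apply, map_add]
    ring
  have e2 : π (beta ε a) = ∏ i, π (1 + algebraMap S C0 (a i) * ε i) := by
    unfold beta; rw [map_prod]
  rw [map_sub, map_sub, e1, e2, key, map_sum]
  ring

end Fermat.Agent.S19.Cech
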