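/-
S19 / alternative route for the joint (c) (board #2152), **Part 2: the deformation argument**.

Setting: `S` a commutative ring with a nilpotent ideal `𝔪`; `S`-algebras `Cp, Cm → C0` (the two charts
and their overlap, base-changed to `S`); `ε_1..ε_g ∈ C0`.  Hypotheses `Hyp` (= universal exactness
of `0 → S → Cp ⊕ Cm → C0 → H¹ → 0` with `H¹` free on the classes of the `ε_i`).

Results:
* `exists_decomp`  : every unit `u ≡ 1 (𝔪·C0)` is `beta ε a * ip wp * im wm` with `a ∈ 𝔪^g`,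
  `wp ≡ 1 (𝔪·Cp)`, `wm ≡ 1 (𝔪·Cm)`           (surjectivity of `a ↦ [beta ε a]`);
* `eq_of_rel`      : `beta ε a * im wm = beta ε b * ip wp ⟹ a = b`   (injectivity).
So `𝔪^g → Ĵ(S) = (1+𝔪C0)/((1+𝔪Cp)(1+𝔪Cm))` is a bijection, and the group law of `Ĵ` (multiplication of
units) transported to `𝔪^g` is `exists_unique_add`.
-/
import Fermat.Agent.S19.Cech.Units

set_option autoImplicit false

namespace Fermat.Agent.S19.Cech

variable {S : Type*} [CommRing S]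
variable {Cp Cm C0 : Type*} [CommRing Cp] [CommRing Cm] [CommRing C0]
  [Algebra S Cp] [Algebra S Cm] [Algebra S C0]

/-- The hypotheses of the deformation argument. -/
structure Hyp (𝔪 : Ideal S) (ip : Cp →ₐ[S] C0) (im : Cm →ₐ[S] C0) {g : ℕ} (ε : Fin g → C0) :
    Prop where
  /-- `𝔪` is nilpotent -/
  nil : ∃ N : ℕ, 𝔪 ^ N = ⊥
  /-- `H¹` is generated by the classes of the `ε_i` -/
  gen : ∀ c : C0, ∃ (s : Fin g → S) (x : Cp) (y : Cm),
    c = ∑ i, algebraMap S C0 (s i) * ε i + ip x + im y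
  /-- `H⁰ = S`, modulo every ideal -/
  h0 : ∀ (𝔞 : Ideal S) (x : Cp) (y : Cm), ip x - im y ∈ ext C0 𝔞 →
    ∃ s : S, x - algebraMap S Cp s ∈ ext Cp 𝔞 ∧ y - algebraMap S Cm s ∈ ext Cm 𝔞
  /-- `S/𝔞 → C0/𝔞C0` is injective -/
  h0' : ∀ (𝔞 : Ideal S) (s : S), algebraMap S C0 s ∈ ext C0 𝔞 → s ∈ 𝔞
  /-- the classes of the `ε_i` are independent in `H¹ ⊗ 𝔞/𝔟` -/
  h1 : ∀ (𝔞 𝔟 : Ideal S), 𝔟 ≤ 𝔞 → ∀ τ : Fin g → S, (∀ i, τ i ∈ 𝔞) →
    ∀ x ∈ ext Cp 𝔞, ∀ y ∈ ext Cm 𝔞,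
      (∑ i, algebraMap S C0 (τ i) * ε i + ip x + im y ∈ ext C0 𝔟) → ∀ i, τ i ∈ 𝔟

variable {𝔪 : Ideal S} {ip : Cp →ₐ[S] C0} {im : Cm →ₐ[S] C0} {g : ℕ} {ε : Fin g → C0}

/-- `gen` for elements of `𝔞·C0` with coefficients in `𝔞`. -/
theorem Hyp.gen_ext (H : Hyp 𝔪 ip im ε) (𝔞 : Ideal S) {c : C0} (hc : c ∈ ext C0 𝔞) :
    ∃ (τ : Fin g → S) (x : Cp) (y : Cm), (∀ i, τ i ∈ 𝔞) ∧ x ∈ ext Cp 𝔞 ∧ y ∈ ext Cm 𝔞 ∧
      c = ∑ i, algebraMap S C0 (τ i) * ε i + ip x + im y := by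
  have key : ∀ a : C0, ∃ (τ : Fin g → S) (x : Cp) (y : Cm), (∀ i, τ i ∈ 𝔞) ∧ x ∈ ext Cp 𝔞 ∧
      y ∈ ext Cm 𝔞 ∧ a * c = ∑ i, algebraMap S C0 (τ i) * ε i + ip x + im y := by
    have hc' : c ∈ Submodule.span C0 ((algebraMap S C0) '' (𝔞 : Set S)) := hc
    refine Submodule.span_induction
      (p := fun c _ => ∀ a : C0, ∃ (τ : Fin g → S) (x : Cp) (y : Cm), (∀ i, τ i ∈ 𝔞) ∧
        x ∈ ext Cp 𝔞 ∧ y ∈ ext Cm 𝔞 ∧ a * c = ∑ i, algebraMap S C0 (τ i) * ε i + ip x + im y)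
      ?_ ?_ ?_ ?_ hc'
    · rintro _ ⟨r, hr, rfl⟩ a
      obtain ⟨s, x, y, hsxy⟩ := H.gen a
      refine ⟨fun i => r * s i, algebraMap S Cp r * x, algebraMap S Cm r * y,
        fun i => 𝔞.mul_mem_right _ hr, Ideal.mul_mem_right _ _ (algebraMap_mem_ext hr),
        Ideal.mul_mem_right _ _ (algebraMap_mem_ext hr), ?_⟩
      rw [hsxy]
      simp only [map_mul, AlgHom.commutes, add_mul, Finset.sum_mul]
      congr 1
      · congr 1
        · refine Finset.sum_congr rfl fun i _ => ?_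
          ring
        · ring
      · ring
    · intro a
      exact ⟨0, 0, 0, fun _ => 𝔞.zero_mem, Ideal.zero_mem _, Ideal.zero_mem _, by simp⟩
    · intro c₁ c₂ _ _ h₁ h₂ a
      obtain ⟨τ₁, x₁, y₁, h1, h2, h3, h4⟩ := h₁ a
      obtain ⟨τ₂, x₂, y₂, k1, k2, k3, k4⟩ := h₂ a
      refine ⟨τ₁ + τ₂, x₁ + x₂, y₁ + y₂, fun i => 𝔞.add_mem (h1 i) (k1 i), Ideal.add_mem _ h2 k2,
        Ideal.add_mem _ h3 k3, ?_⟩
      rw [mul_add, h4, k4]
      simp only [Pi.add_apply, map_add, add_mul, Finset.sum_add_distrib]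
      ring
    · intro b c₁ _ h₁ a
      obtain ⟨τ, x, y, h1, h2, h3, h4⟩ := h₁ (a * b)
      exact ⟨τ, x, y, h1, h2, h3, by rw [smul_eq_mul, ← mul_assoc, h4]⟩
  obtain ⟨τ, x, y, h1, h2, h3, h4⟩ := key 1
  exact ⟨τ, x, y, h1, h2, h3, by rw [← h4, one_mul]⟩


theorem step_identity {Q : Type*} [CommRing Q] (A P M E X Y : Q)
    (haX : (A - 1) * X = 0) (haY : (A - 1) * Y = 0) (hpE : (P - 1) * E = 0)
    (hpY : (P - 1) * Y = 0) (hmE : (M - 1) * E = 0) (hmX : (M - 1) * X = 0)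
    (hEX : E * X = 0) (hEY : E * Y = 0) (hXY : X * Y = 0) :
    (A + E) * (P + X) * (M + Y) = A * P * M + E + X + Y := by
  linear_combination M * hpE + hmE + M * haX + hmX + P * haY + hpY + (M + Y) * hEX + P * hEY
    + A * hXY

/-- approximate decomposition modulo `𝔪^d` -/
theorem Hyp.exists_decomp_mod (H : Hyp 𝔪 ip im ε) {u : C0} (hu : u - 1 ∈ ext C0 𝔪) (d : ℕ)
    (hd : 1 ≤ d) :
    ∃ (a : Fin g → S) (wp : Cp) (wm : Cm), (∀ i, a i ∈ 𝔪) ∧ wp - 1 ∈ ext Cp 𝔪 ∧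
      wm - 1 ∈ ext Cm 𝔪 ∧ u - beta ε a * ip wp * im wm ∈ ext C0 (𝔪 ^ d) := by
  induction d, hd using Nat.le_induction with
  | base =>
    refine ⟨0, 1, 1, fun _ => 𝔪.zero_mem, by simp, by simp, ?_⟩
    rw [beta_zero, map_one, map_one, mul_one, mul_one, pow_one]
    exact hu
  | succ d hd ih =>
    obtain ⟨a, wp, wm, ha, hwp, hwm, hδ⟩ := ih
    obtain ⟨τ, x, y, hτ, hx, hy, hdec⟩ := H.gen_ext (𝔪 ^ d) hδ
    have hle : ext C0 (𝔪 ^ d) ≤ ext C0 𝔪 := ext_pow_le 𝔪 hd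
    refine ⟨a + τ, wp + x, wm + y, fun i => 𝔪.add_mem (ha i) ?_, ?_, ?_, ?_⟩
    · have : 𝔪 ^ d ≤ 𝔪 := by
        calc 𝔪 ^ d ≤ 𝔪 ^ 1 := Ideal.pow_le_pow_right hd
          _ = 𝔪 := pow_one _
      exact this (hτ i)
    · have : wp + x - 1 = (wp - 1) + x := by ring
      rw [this]
      exact Ideal.add_mem _ hwp (ext_pow_le 𝔪 hd hx)
    · have : wm + y - 1 = (wm - 1) + y := by ring
      rw [this]
      exact Ideal.add_mem _ hwm (ext_pow_le 𝔪 hd hy)
    · -- compute modulo `J = 𝔪^(d+1)·C0`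
      set J := ext C0 (𝔪 ^ (d + 1)) with hJ
      rw [← Ideal.Quotient.eq_zero_iff_mem]
      set π := Ideal.Quotient.mk J with hπ
      have hX : ip x ∈ ext C0 (𝔪 ^ d) := map_mem_ext ip hx
      have hY : im y ∈ ext C0 (𝔪 ^ d) := map_mem_ext im hy
      have hE : ∑ i, algebraMap S C0 (τ i) * ε i ∈ ext C0 (𝔪 ^ d) :=
        Ideal.sum_mem _ fun i _ => Ideal.mul_mem_right _ _ (algebraMap_mem_ext (hτ i))
      have hA : beta ε a - 1 ∈ ext C0 𝔪 := beta_sub_one_mem ε ha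
      have hP : ip wp - 1 ∈ ext C0 𝔪 := by
        have := map_mem_ext ip hwp
        rwa [map_sub, map_one] at this
      have hM : im wm - 1 ∈ ext C0 𝔪 := by
        have := map_mem_ext im hwm
        rwa [map_sub, map_one] at this
      have zero1 : ∀ {m t : C0}, m ∈ ext C0 𝔪 → t ∈ ext C0 (𝔪 ^ d) → π m * π t = 0 := by
        intro m t hm ht
        rw [← map_mul, hπ, Ideal.Quotient.eq_zero_iff_mem]
        exact mul_mem_ext_pow_succ hm ht
      have zero2 : ∀ {t t' : C0}, t ∈ ext C0 (𝔪 ^ d) → t' ∈ ext C0 (𝔪 ^ d) → π t * π t' = 0 := by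
        intro t t' ht ht'
        rw [← map_mul, hπ, Ideal.Quotient.eq_zero_iff_mem]
        exact mul_mem_ext_pow_succ' hd ht ht'
      have hbeta : π (beta ε (a + τ)) = π (beta ε a) + π (∑ i, algebraMap S C0 (τ i) * ε i) := by
        have := beta_add_sub_mem ε hd ha hτ
        rw [← Ideal.Quotient.eq_zero_iff_mem, map_sub, map_sub] at this
        linear_combination this
      have hu' : π u = π (beta ε a) * π (ip wp) * π (im wm)
          + π (∑ i, algebraMap S C0 (τ i) * ε i) + π (ip x) + π (im y) := by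
        have : u = beta ε a * ip wp * im wm
            + (∑ i, algebraMap S C0 (τ i) * ε i + ip x + im y) := by
          rw [← hdec]; ring
        conv_lhs => rw [this]
        simp only [map_add, map_mul]
        ring
      have key := step_identity (π (beta ε a)) (π (ip wp)) (π (im wm))
        (π (∑ i, algebraMap S C0 (τ i) * ε i)) (π (ip x)) (π (im y))
        (by rw [← map_one π, ← map_sub]; exact zero1 hA hX)
        (by rw [← map_one π, ← map_sub]; exact zero1 hA hY)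
        (by rw [← map_one π, ← map_sub]; exact zero1 hP hE)
        (by rw [← map_one π, ← map_sub]; exact zero1 hP hY)
        (by rw [← map_one π, ← map_sub]; exact zero1 hM hE)
        (by rw [← map_one π, ← map_sub]; exact zero1 hM hX)
        (zero2 hE hX) (zero2 hE hY) (zero2 hX hY)
      rw [map_sub, map_mul, map_mul, hbeta, map_add ip, map_add im, map_add π (ip wp),
        map_add π (im wm), key, hu']
      ring

/-- **Surjectivity**: every `u ≡ 1 (𝔪·C0)` is `beta ε a * ip wp * im wm`. -/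
theorem Hyp.exists_decomp (H : Hyp 𝔪 ip im ε) {u : C0} (hu : u - 1 ∈ ext C0 𝔪) :
    ∃ (a : Fin g → S) (wp : Cp) (wm : Cm), (∀ i, a i ∈ 𝔪) ∧ wp - 1 ∈ ext Cp 𝔪 ∧
      wm - 1 ∈ ext Cm 𝔪 ∧ u = beta ε a * ip wp * im wm := by
  obtain ⟨N, hN⟩ := H.nil
  obtain ⟨a, wp, wm, ha, hwp, hwm, h⟩ := H.exists_decomp_mod hu (max N 1) (le_max_right _ _)
  refine ⟨a, wp, wm, ha, hwp, hwm, ?_⟩
  have hbot : 𝔪 ^ (max N 1) = ⊥ := by
    have : 𝔪 ^ (max N 1) ≤ 𝔪 ^ N := Ideal.pow_le_pow_right (le_max_left _ _)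
    rw [hN] at this
    exact le_bot_iff.mp this
  rw [hbot] at h
  unfold ext at h
  rw [Ideal.map_bot, Ideal.mem_bot, sub_eq_zero] at h
  exact h


/-- elements `≡ 1` modulo `𝔪·C` are units (`𝔪` nilpotent) -/
theorem isUnit_of_sub_one_mem {C : Type*} [CommRing C] [Algebra S C] {N : ℕ} (hN : 𝔪 ^ N = ⊥)
    {u : C} (hu : u - 1 ∈ ext C 𝔪) : IsUnit u := by
  have hnil : IsNilpotent (u - 1) := by
    refine ⟨N, ?_⟩
    have h1 : (u - 1) ^ N ∈ (ext C 𝔪) ^ N := Ideal.pow_mem_pow hu N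
    have h2 : (ext C 𝔪) ^ N = ⊥ := by
      unfold ext
      rw [← Ideal.map_pow, hN, Ideal.map_bot]
    rw [h2, Ideal.mem_bot] at h1
    exact h1
  have := hnil.isUnit_one_add
  have e : 1 + (u - 1) = u := by ring
  rwa [e] at this

theorem inj_identity {Q : Type*} [CommRing Q] (B s E X Y : Q)
    (hBX : (B - 1) * X = 0) (hBY : (B - 1) * Y = 0) (hsE : (s - 1) * E = 0) (hEY : E * Y = 0)
    (h : (B + E) * (s + Y) = B * (s + X)) : E + -X + Y = 0 := by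
  linear_combination h - hBY - hsE - hEY + hBX

/-- **Injectivity**: `beta ε a * im wm = beta ε b * ip wp ⟹ a = b`. -/
theorem Hyp.eq_of_rel (H : Hyp 𝔪 ip im ε) {a b : Fin g → S} (ha : ∀ i, a i ∈ 𝔪)
    (hb : ∀ i, b i ∈ 𝔪) {wp : Cp} {wm : Cm} (hwp : wp - 1 ∈ ext Cp 𝔪) (_hwm : wm - 1 ∈ ext Cm 𝔪)
    (h : beta ε a * im wm = beta ε b * ip wp) : a = b := by
  obtain ⟨N, hN⟩ := H.nil
  have claim : ∀ d : ℕ, 1 ≤ d → ∀ i, a i - b i ∈ 𝔪 ^ d := by
    intro d hd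
    induction d, hd using Nat.le_induction with
    | base => intro i; rw [pow_one]; exact 𝔪.sub_mem (ha i) (hb i)
    | succ d hd ih =>
      set τ : Fin g → S := fun i => a i - b i with hτdef
      have hτ : ∀ i, τ i ∈ 𝔪 ^ d := ih
      have hab : a = b + τ := by funext i; simp [hτdef]
      have hE : ∑ i, algebraMap S C0 (τ i) * ε i ∈ ext C0 (𝔪 ^ d) :=
        Ideal.sum_mem _ fun i _ => Ideal.mul_mem_right _ _ (algebraMap_mem_ext (hτ i))
      have hbeta := beta_add_sub_mem ε hd hb hτ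
      rw [← hab] at hbeta
      -- `beta a - beta b ∈ 𝔪^d`
      have h1 : beta ε a - beta ε b ∈ ext C0 (𝔪 ^ d) := by
        have h2 : ext C0 (𝔪 ^ (d + 1)) ≤ ext C0 (𝔪 ^ d) :=
          ext_mono (Ideal.pow_le_pow_right (Nat.le_succ d))
        have := Ideal.add_mem _ (h2 hbeta) hE
        have e : beta ε a - beta ε b - ∑ i, algebraMap S C0 (τ i) * ε i
            + ∑ i, algebraMap S C0 (τ i) * ε i = beta ε a - beta ε b := by ring
        rwa [e] at this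
      -- `ip wp - im wm ∈ 𝔪^d`
      have hBunit : IsUnit (beta ε b) := isUnit_of_sub_one_mem hN (beta_sub_one_mem ε hb)
      have h3 : ip wp - im wm ∈ ext C0 (𝔪 ^ d) := by
        rw [← Ideal.unit_mul_mem_iff_mem _ hBunit]
        have e : beta ε b * (ip wp - im wm) = (beta ε a - beta ε b) * im wm := by
          linear_combination -h
        rw [e]
        exact Ideal.mul_mem_right _ _ h1
      obtain ⟨s, hsx, hsy⟩ := H.h0 (𝔪 ^ d) wp wm h3
      -- `s ≡ 1 (𝔪)`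
      have hle : ext C0 (𝔪 ^ d) ≤ ext C0 𝔪 := ext_pow_le 𝔪 hd
      have hX : ip (wp - algebraMap S Cp s) ∈ ext C0 (𝔪 ^ d) := map_mem_ext ip hsx
      have hY : im (wm - algebraMap S Cm s) ∈ ext C0 (𝔪 ^ d) := map_mem_ext im hsy
      have hP : ip wp - 1 ∈ ext C0 𝔪 := by
        have := map_mem_ext ip hwp
        rwa [map_sub, map_one] at this
      have hs1 : s - 1 ∈ 𝔪 := by
        apply H.h0' 𝔪
        have e : algebraMap S C0 (s - 1) = (ip wp - 1) - ip (wp - algebraMap S Cp s) := by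
          rw [map_sub, map_sub, map_one, AlgHom.commutes]; ring
        rw [e]
        exact Ideal.sub_mem _ hP (hle hX)
      -- compute modulo `J`
      set J := ext C0 (𝔪 ^ (d + 1)) with hJ
      set π := Ideal.Quotient.mk J with hπ
      have zero1 : ∀ {m t : C0}, m ∈ ext C0 𝔪 → t ∈ ext C0 (𝔪 ^ d) → π m * π t = 0 := by
        intro m t hm ht
        rw [← map_mul, hπ, Ideal.Quotient.eq_zero_iff_mem]
        exact mul_mem_ext_pow_succ hm ht
      have zero2 : ∀ {t t' : C0}, t ∈ ext C0 (𝔪 ^ d) → t' ∈ ext C0 (𝔪 ^ d) → π t * π t' = 0 := by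
        intro t t' ht ht'
        rw [← map_mul, hπ, Ideal.Quotient.eq_zero_iff_mem]
        exact mul_mem_ext_pow_succ' hd ht ht'
      have hbeta' : π (beta ε a) = π (beta ε b) + π (∑ i, algebraMap S C0 (τ i) * ε i) := by
        rw [← Ideal.Quotient.eq_zero_iff_mem, map_sub, map_sub] at hbeta
        linear_combination hbeta
      have hwm' : im wm = algebraMap S C0 s + im (wm - algebraMap S Cm s) := by
        rw [map_sub, AlgHom.commutes]; ring
      have hwp' : ip wp = algebraMap S C0 s + ip (wp - algebraMap S Cp s) := by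
        rw [map_sub, AlgHom.commutes]; ring
      have hrel : (π (beta ε b) + π (∑ i, algebraMap S C0 (τ i) * ε i))
          * (π (algebraMap S C0 s) + π (im (wm - algebraMap S Cm s)))
          = π (beta ε b) * (π (algebraMap S C0 s) + π (ip (wp - algebraMap S Cp s))) := by
        rw [← hbeta', ← map_add, ← map_add, ← hwm', ← hwp', ← map_mul, ← map_mul, h]
      have hs1' : algebraMap S C0 s - 1 ∈ ext C0 𝔪 := by
        have := algebraMap_mem_ext (C := C0) hs1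
        rwa [map_sub, map_one] at this
      have key := inj_identity (π (beta ε b)) (π (algebraMap S C0 s))
        (π (∑ i, algebraMap S C0 (τ i) * ε i)) (π (ip (wp - algebraMap S Cp s)))
        (π (im (wm - algebraMap S Cm s)))
        (by rw [← map_one π, ← map_sub]; exact zero1 (beta_sub_one_mem ε hb) hX)
        (by rw [← map_one π, ← map_sub]; exact zero1 (beta_sub_one_mem ε hb) hY)
        (by rw [← map_one π, ← map_sub]; exact zero1 hs1' hE)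
        (zero2 hE hY) hrel
      have hmem : ∑ i, algebraMap S C0 (τ i) * ε i + ip (-(wp - algebraMap S Cp s))
          + im (wm - algebraMap S Cm s) ∈ J := by
        rw [← Ideal.Quotient.eq_zero_iff_mem, map_add, map_add, map_neg ip, map_neg]
        exact key
      exact H.h1 (𝔪 ^ d) (𝔪 ^ (d + 1)) (Ideal.pow_le_pow_right (Nat.le_succ d)) τ hτ _
        (Ideal.neg_mem_iff _ |>.mpr hsx) _ hsy hmem
  funext i
  have h0 := claim (max N 1) (le_max_right _ _) i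
  have hbot : 𝔪 ^ (max N 1) = ⊥ := by
    have : 𝔪 ^ (max N 1) ≤ 𝔪 ^ N := Ideal.pow_le_pow_right (le_max_left _ _)
    rw [hN] at this
    exact le_bot_iff.mp this
  rw [hbot, Ideal.mem_bot, sub_eq_zero] at h0
  exact h0


/-- the inverse of an element `≡ 1` is `≡ 1` -/
theorem exists_inv_of_sub_one_mem {C : Type*} [CommRing C] [Algebra S C] {N : ℕ} (hN : 𝔪 ^ N = ⊥)
    {u : C} (hu : u - 1 ∈ ext C 𝔪) : ∃ v : C, u * v = 1 ∧ v - 1 ∈ ext C 𝔪 := by
  obtain ⟨v, hv⟩ := (isUnit_of_sub_one_mem hN hu).exists_right_inv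
  refine ⟨v, hv, ?_⟩
  have e : v - 1 = -(v * (u - 1)) := by linear_combination hv
  rw [e]
  exact Ideal.neg_mem_iff _ |>.mpr (Ideal.mul_mem_left _ _ hu)

theorem mul_sub_one_mem {C : Type*} [CommRing C] {I : Ideal C} {u v : C} (hu : u - 1 ∈ I)
    (hv : v - 1 ∈ I) : u * v - 1 ∈ I := by
  have e : u * v - 1 = (u - 1) * v + (v - 1) := by ring
  rw [e]
  exact Ideal.add_mem _ (Ideal.mul_mem_right _ _ hu) hv

/-- **Injectivity, symmetric form.** -/
theorem Hyp.eq_of_rel' (H : Hyp 𝔪 ip im ε) {a b : Fin g → S} (ha : ∀ i, a i ∈ 𝔪)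
    (hb : ∀ i, b i ∈ 𝔪) {p₁ p₂ : Cp} {m₁ m₂ : Cm} (hp₁ : p₁ - 1 ∈ ext Cp 𝔪)
    (hp₂ : p₂ - 1 ∈ ext Cp 𝔪) (hm₁ : m₁ - 1 ∈ ext Cm 𝔪) (hm₂ : m₂ - 1 ∈ ext Cm 𝔪)
    (h : beta ε a * ip p₁ * im m₁ = beta ε b * ip p₂ * im m₂) : a = b := by
  obtain ⟨N, hN⟩ := H.nil
  obtain ⟨p₁', hp₁', hp₁''⟩ := exists_inv_of_sub_one_mem hN hp₁
  obtain ⟨m₂', hm₂', hm₂''⟩ := exists_inv_of_sub_one_mem hN hm₂
  refine H.eq_of_rel ha hb (wp := p₂ * p₁') (wm := m₁ * m₂') (mul_sub_one_mem hp₂ hp₁'')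
    (mul_sub_one_mem hm₁ hm₂'') ?_
  have e1 : ip p₁ * ip p₁' = 1 := by rw [← map_mul, hp₁', map_one]
  have e2 : im m₂ * im m₂' = 1 := by rw [← map_mul, hm₂', map_one]
  rw [map_mul, map_mul]
  linear_combination (ip p₁' * im m₂') * h - (beta ε a * im m₁ * im m₂') * e1
    + (beta ε b * ip p₂ * ip p₁') * e2

/-- **The group law in the coordinates `a ∈ 𝔪^g`**: existence and uniqueness of the sum. -/
theorem Hyp.exists_unique_add (H : Hyp 𝔪 ip im ε) {a b : Fin g → S} (ha : ∀ i, a i ∈ 𝔪)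
    (hb : ∀ i, b i ∈ 𝔪) :
    ∃! c : Fin g → S, (∀ i, c i ∈ 𝔪) ∧ ∃ (wp : Cp) (wm : Cm), wp - 1 ∈ ext Cp 𝔪 ∧
      wm - 1 ∈ ext Cm 𝔪 ∧ beta ε a * beta ε b = beta ε c * ip wp * im wm := by
  have hu : beta ε a * beta ε b - 1 ∈ ext C0 𝔪 :=
    mul_sub_one_mem (beta_sub_one_mem ε ha) (beta_sub_one_mem ε hb)
  obtain ⟨c, wp, wm, hc, hwp, hwm, h⟩ := H.exists_decomp hu
  refine ⟨c, ⟨hc, wp, wm, hwp, hwm, h⟩, ?_⟩
  rintro c' ⟨hc', wp', wm', hwp', hwm', h'⟩
  exact H.eq_of_rel' hc' hc hwp' hwp hwm' hwm (h'.symm.trans h)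

end Fermat.Agent.S19.Cech
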