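/-
S19 / Čech-units route, **Part 3: coordinates, the group law and functoriality.**

* `Rel 𝔪 ip im u v` : `u = v * ip wp * im wm` with `wp ≡ 1`, `wm ≡ 1` (the class of `u` in
  `Ĵ(S) = (1 + 𝔪C0)/((1 + 𝔪Cp)(1 + 𝔪Cm))`);
* `Hyp.coord H u` : the unique `a ∈ 𝔪^g` with `u ~ beta ε a`  (`coord_spec`, `coord_unique`,
  `coord_congr`, `coord_beta`);
* `Hyp.add H a b := coord (beta ε a * beta ε b)` : the group law in coordinates (`coord_mul`,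
  `add_comm'`, `add_assoc'`, `zero_add'`, `exists_neg`);
* `Morph` : a morphism of situations `(S, 𝔪, Cp, Cm, C0, ε) → (S', 𝔪', Cp', Cm', C0', ε')`, and
  `coord_map`, `add_map` : the coordinates and the group law commute with morphisms.
-/
import Fermat.Agent.S19.Cech.Deform

set_option autoImplicit false

namespace Fermat.Agent.S19.Cech

variable {S : Type*} [CommRing S]
variable {Cp Cm C0 : Type*} [CommRing Cp] [CommRing Cm] [CommRing C0]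
  [Algebra S Cp] [Algebra S Cm] [Algebra S C0]

/-- `u` and `v` have the same class modulo the two chart unit groups. -/
def Rel (𝔪 : Ideal S) (ip : Cp →ₐ[S] C0) (im : Cm →ₐ[S] C0) (u v : C0) : Prop :=
  ∃ (wp : Cp) (wm : Cm), wp - 1 ∈ ext Cp 𝔪 ∧ wm - 1 ∈ ext Cm 𝔪 ∧ u = v * ip wp * im wm

variable {𝔪 : Ideal S} {ip : Cp →ₐ[S] C0} {im : Cm →ₐ[S] C0} {g : ℕ} {ε : Fin g → C0}

theorem Rel.refl (u : C0) : Rel 𝔪 ip im u u :=
  ⟨1, 1, by simp, by simp, by simp⟩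

theorem Rel.trans {u v w : C0} (h₁ : Rel 𝔪 ip im u v) (h₂ : Rel 𝔪 ip im v w) :
    Rel 𝔪 ip im u w := by
  obtain ⟨p₁, m₁, hp₁, hm₁, e₁⟩ := h₁
  obtain ⟨p₂, m₂, hp₂, hm₂, e₂⟩ := h₂
  refine ⟨p₂ * p₁, m₂ * m₁, mul_sub_one_mem hp₂ hp₁, mul_sub_one_mem hm₂ hm₁, ?_⟩
  rw [e₁, e₂, map_mul, map_mul]; ring

theorem Rel.mul {u v u' v' : C0} (h₁ : Rel 𝔪 ip im u v) (h₂ : Rel 𝔪 ip im u' v') :
    Rel 𝔪 ip im (u * u') (v * v') := by
  obtain ⟨p₁, m₁, hp₁, hm₁, e₁⟩ := h₁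
  obtain ⟨p₂, m₂, hp₂, hm₂, e₂⟩ := h₂
  refine ⟨p₁ * p₂, m₁ * m₂, mul_sub_one_mem hp₁ hp₂, mul_sub_one_mem hm₁ hm₂, ?_⟩
  rw [e₁, e₂, map_mul, map_mul]; ring

theorem Rel.symm {N : ℕ} (hN : 𝔪 ^ N = ⊥) {u v : C0} (h : Rel 𝔪 ip im u v) :
    Rel 𝔪 ip im v u := by
  obtain ⟨p, m, hp, hm, e⟩ := h
  obtain ⟨p', hp', hp''⟩ := exists_inv_of_sub_one_mem hN hp
  obtain ⟨m', hm', hm''⟩ := exists_inv_of_sub_one_mem hN hm
  refine ⟨p', m', hp'', hm'', ?_⟩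
  have e1 : ip p * ip p' = 1 := by rw [← map_mul, hp', map_one]
  have e2 : im m * im m' = 1 := by rw [← map_mul, hm', map_one]
  rw [e]
  linear_combination (-(v * im m * im m')) * e1 - v * e2

/-- elements related to an element `≡ 1` are `≡ 1` -/
theorem Rel.sub_one_mem {u v : C0} (h : Rel 𝔪 ip im u v) (hv : v - 1 ∈ ext C0 𝔪) :
    u - 1 ∈ ext C0 𝔪 := by
  obtain ⟨p, m, hp, hm, e⟩ := h
  rw [e]
  have h1 : ip p - 1 ∈ ext C0 𝔪 := by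
    have := map_mem_ext ip hp
    rwa [map_sub, map_one] at this
  have h2 : im m - 1 ∈ ext C0 𝔪 := by
    have := map_mem_ext im hm
    rwa [map_sub, map_one] at this
  exact mul_sub_one_mem (mul_sub_one_mem hv h1) h2

/-! ### coordinates -/

open Classical in
/-- The coordinates `a ∈ 𝔪^g` of a unit `u ≡ 1 (𝔪·C0)`: `u ~ beta ε a`. (`0` for other `u`.) -/
noncomputable def Hyp.coord (H : Hyp 𝔪 ip im ε) (u : C0) : Fin g → S :=
  if hu : u - 1 ∈ ext C0 𝔪 then Classical.choose (H.exists_decomp hu) else 0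

theorem Hyp.coord_mem (H : Hyp 𝔪 ip im ε) (u : C0) (i : Fin g) : H.coord u i ∈ 𝔪 := by
  unfold Hyp.coord
  split_ifs with hu
  · obtain ⟨_, _, h, _⟩ := Classical.choose_spec (H.exists_decomp hu)
    exact h i
  · exact 𝔪.zero_mem

theorem Hyp.coord_spec (H : Hyp 𝔪 ip im ε) {u : C0} (hu : u - 1 ∈ ext C0 𝔪) :
    Rel 𝔪 ip im u (beta ε (H.coord u)) := by
  unfold Hyp.coord
  rw [dif_pos hu]
  obtain ⟨wp, wm, _, h2, h3, h4⟩ := Classical.choose_spec (H.exists_decomp hu)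
  exact ⟨wp, wm, h2, h3, h4⟩

theorem Hyp.coord_unique (H : Hyp 𝔪 ip im ε) {u : C0} {a : Fin g → S} (ha : ∀ i, a i ∈ 𝔪)
    (h : Rel 𝔪 ip im u (beta ε a)) : H.coord u = a := by
  have hu : u - 1 ∈ ext C0 𝔪 := h.sub_one_mem (beta_sub_one_mem ε ha)
  obtain ⟨p₁, m₁, hp₁, hm₁, e₁⟩ := H.coord_spec hu
  obtain ⟨p₂, m₂, hp₂, hm₂, e₂⟩ := h
  exact H.eq_of_rel' (H.coord_mem u) ha hp₁ hp₂ hm₁ hm₂ (e₁.symm.trans e₂)

theorem Hyp.coord_beta (H : Hyp 𝔪 ip im ε) {a : Fin g → S} (ha : ∀ i, a i ∈ 𝔪) :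
    H.coord (beta ε a) = a :=
  H.coord_unique ha (Rel.refl _)

theorem Hyp.coord_congr (H : Hyp 𝔪 ip im ε) {u v : C0} (hv : v - 1 ∈ ext C0 𝔪)
    (h : Rel 𝔪 ip im u v) : H.coord u = H.coord v :=
  H.coord_unique (H.coord_mem v) (h.trans (H.coord_spec hv))

theorem Hyp.coord_one (H : Hyp 𝔪 ip im ε) : H.coord (1 : C0) = 0 := by
  have := H.coord_beta (a := 0) (fun _ => 𝔪.zero_mem)
  rwa [beta_zero] at this

/-- units in the chart groups have coordinates `0` -/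
theorem Hyp.coord_chart (H : Hyp 𝔪 ip im ε) {wp : Cp} {wm : Cm} (hwp : wp - 1 ∈ ext Cp 𝔪)
    (hwm : wm - 1 ∈ ext Cm 𝔪) : H.coord (ip wp * im wm) = 0 := by
  refine H.coord_unique (fun _ => 𝔪.zero_mem) ⟨wp, wm, hwp, hwm, ?_⟩
  rw [beta_zero, one_mul]

/-! ### the group law -/

/-- The group law of `Ĵ(S)` in the coordinates `𝔪^g`. -/
noncomputable def Hyp.add (H : Hyp 𝔪 ip im ε) (a b : Fin g → S) : Fin g → S :=
  H.coord (beta ε a * beta ε b)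

theorem Hyp.add_mem (H : Hyp 𝔪 ip im ε) (a b : Fin g → S) (i : Fin g) : H.add a b i ∈ 𝔪 :=
  H.coord_mem _ i

theorem Hyp.coord_mul (H : Hyp 𝔪 ip im ε) {u v : C0} (hu : u - 1 ∈ ext C0 𝔪)
    (hv : v - 1 ∈ ext C0 𝔪) : H.coord (u * v) = H.add (H.coord u) (H.coord v) := by
  unfold Hyp.add
  refine H.coord_congr ?_ ((H.coord_spec hu).mul (H.coord_spec hv))
  exact mul_sub_one_mem (beta_sub_one_mem ε (H.coord_mem u)) (beta_sub_one_mem ε (H.coord_mem v))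

theorem Hyp.add_comm' (H : Hyp 𝔪 ip im ε) (a b : Fin g → S) : H.add a b = H.add b a := by
  unfold Hyp.add; rw [mul_comm]

theorem Hyp.zero_add' (H : Hyp 𝔪 ip im ε) {a : Fin g → S} (ha : ∀ i, a i ∈ 𝔪) :
    H.add 0 a = a := by
  unfold Hyp.add
  rw [beta_zero, one_mul]
  exact H.coord_beta ha

theorem Hyp.add_assoc' (H : Hyp 𝔪 ip im ε) {a b c : Fin g → S} (ha : ∀ i, a i ∈ 𝔪)
    (hb : ∀ i, b i ∈ 𝔪) (hc : ∀ i, c i ∈ 𝔪) :
    H.add (H.add a b) c = H.add a (H.add b c) := by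
  have hA := beta_sub_one_mem ε ha
  have hB := beta_sub_one_mem ε hb
  have hC := beta_sub_one_mem (C0 := C0) ε hc
  have h1 : H.add (H.add a b) c = H.coord (beta ε a * beta ε b * beta ε c) := by
    rw [H.coord_mul (mul_sub_one_mem hA hB) hC, H.coord_beta hc]
    rfl
  have h2 : H.add a (H.add b c) = H.coord (beta ε a * (beta ε b * beta ε c)) := by
    rw [H.coord_mul hA (mul_sub_one_mem hB hC), H.coord_beta ha]
    rfl
  rw [h1, h2, mul_assoc]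

theorem Hyp.exists_neg (H : Hyp 𝔪 ip im ε) {a : Fin g → S} (ha : ∀ i, a i ∈ 𝔪) :
    ∃ b : Fin g → S, (∀ i, b i ∈ 𝔪) ∧ H.add a b = 0 := by
  obtain ⟨N, hN⟩ := H.nil
  obtain ⟨v, hv, hv'⟩ := exists_inv_of_sub_one_mem hN (beta_sub_one_mem ε ha)
  refine ⟨H.coord v, H.coord_mem v, ?_⟩
  have := H.coord_mul (beta_sub_one_mem ε ha) hv'
  rw [hv, H.coord_one, H.coord_beta ha] at this
  exact this.symm

/-! ### functoriality -/

section Functoriality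

variable {S' : Type*} [CommRing S']
variable {Cp' Cm' C0' : Type*} [CommRing Cp'] [CommRing Cm'] [CommRing C0']
  [Algebra S' Cp'] [Algebra S' Cm'] [Algebra S' C0']
variable {𝔪' : Ideal S'} {ip' : Cp' →ₐ[S'] C0'} {im' : Cm' →ₐ[S'] C0'} {ε' : Fin g → C0'}

/-- A morphism of situations. -/
structure Morph (𝔪 : Ideal S) (ip : Cp →ₐ[S] C0) (im : Cm →ₐ[S] C0) (ε : Fin g → C0)
    (𝔪' : Ideal S') (ip' : Cp' →ₐ[S'] C0') (im' : Cm' →ₐ[S'] C0') (ε' : Fin g → C0')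
    (φ : S →+* S') (ψp : Cp →+* Cp') (ψm : Cm →+* Cm') (ψ0 : C0 →+* C0') : Prop where
  map_mem : ∀ s ∈ 𝔪, φ s ∈ 𝔪'
  comm_p : ∀ x, ψ0 (ip x) = ip' (ψp x)
  comm_m : ∀ y, ψ0 (im y) = im' (ψm y)
  alg_p : ∀ s, ψp (algebraMap S Cp s) = algebraMap S' Cp' (φ s)
  alg_m : ∀ s, ψm (algebraMap S Cm s) = algebraMap S' Cm' (φ s)
  alg_0 : ∀ s, ψ0 (algebraMap S C0 s) = algebraMap S' C0' (φ s)
  eps : ∀ i, ψ0 (ε i) = ε' i

theorem map_mem_ext_of_alg {C C' : Type*} [CommRing C] [CommRing C'] [Algebra S C]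
    [Algebra S' C'] {φ : S →+* S'} {ψ : C →+* C'} (hφ : ∀ s ∈ 𝔪, φ s ∈ 𝔪')
    (halg : ∀ s, ψ (algebraMap S C s) = algebraMap S' C' (φ s)) {x : C} (hx : x ∈ ext C 𝔪) :
    ψ x ∈ ext C' 𝔪' := by
  have hle : ext C 𝔪 ≤ (ext C' 𝔪').comap ψ := by
    unfold ext
    rw [Ideal.map_le_iff_le_comap]
    intro s hs
    rw [Ideal.mem_comap, Ideal.mem_comap, halg]
    exact algebraMap_mem_ext (hφ s hs)
  exact hle hx

variable {φ : S →+* S'} {ψp : Cp →+* Cp'} {ψm : Cm →+* Cm'} {ψ0 : C0 →+* C0'}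

theorem Morph.map_beta (M : Morph 𝔪 ip im ε 𝔪' ip' im' ε' φ ψp ψm ψ0) (a : Fin g → S) :
    ψ0 (beta ε a) = beta ε' (fun i => φ (a i)) := by
  unfold beta
  rw [map_prod]
  refine Finset.prod_congr rfl fun i _ => ?_
  rw [map_add, map_one, map_mul, M.alg_0, M.eps]

theorem Morph.map_rel (M : Morph 𝔪 ip im ε 𝔪' ip' im' ε' φ ψp ψm ψ0) {u v : C0}
    (h : Rel 𝔪 ip im u v) : Rel 𝔪' ip' im' (ψ0 u) (ψ0 v) := by
  obtain ⟨p, m, hp, hm, e⟩ := h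
  refine ⟨ψp p, ψm m, ?_, ?_, ?_⟩
  · have := map_mem_ext_of_alg (ψ := ψp) M.map_mem M.alg_p hp
    rwa [map_sub, map_one] at this
  · have := map_mem_ext_of_alg (ψ := ψm) M.map_mem M.alg_m hm
    rwa [map_sub, map_one] at this
  · rw [e, map_mul, map_mul, M.comm_p, M.comm_m]

/-- **Coordinates commute with morphisms.** -/
theorem Morph.coord_map (M : Morph 𝔪 ip im ε 𝔪' ip' im' ε' φ ψp ψm ψ0) (H : Hyp 𝔪 ip im ε)
    (H' : Hyp 𝔪' ip' im' ε') {u : C0} (hu : u - 1 ∈ ext C0 𝔪) :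
    H'.coord (ψ0 u) = fun i => φ (H.coord u i) := by
  refine H'.coord_unique (fun i => M.map_mem _ (H.coord_mem u i)) ?_
  rw [← M.map_beta]
  exact M.map_rel (H.coord_spec hu)

/-- **The group law commutes with morphisms.** -/
theorem Morph.add_map (M : Morph 𝔪 ip im ε 𝔪' ip' im' ε' φ ψp ψm ψ0) (H : Hyp 𝔪 ip im ε)
    (H' : Hyp 𝔪' ip' im' ε') {a b : Fin g → S} (ha : ∀ i, a i ∈ 𝔪) (hb : ∀ i, b i ∈ 𝔪) :
    H'.add (fun i => φ (a i)) (fun i => φ (b i)) = fun i => φ (H.add a b i) := by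
  unfold Hyp.add
  rw [← M.map_beta, ← M.map_beta, ← map_mul]
  exact M.coord_map H H' (mul_sub_one_mem (beta_sub_one_mem ε ha) (beta_sub_one_mem ε hb))

end Functoriality

end Fermat.Agent.S19.Cech
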