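/-
S19 / Čech-units route, **Part 4: base change.**

`O`-level data: `O`-algebras `Ap, Am → A0` (the two charts and their overlap over the base ring `O`),
`ε_1..ε_g ∈ A0`, an `O`-linear coordinate map `cL : A0 → O^g` such that
`0 → O → Ap ⊕ Am → A0 → O^g → 0` is exact (`Base`), and `A0` faithfully flat over `O`.

Result (`Base.hyp`): for EVERY `O`-algebra `S` and every nilpotent ideal `𝔪` of `S` the base-changed
charts `S ⊗[O] Ap, S ⊗[O] Am → S ⊗[O] A0` with `1 ⊗ ε_i` satisfy `Hyp 𝔪`; and every `O`-algebra map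
`φ : S → S'` with `φ 𝔪 ⊆ 𝔪'` induces a `Morph` (`Base.morph`).
-/
import Fermat.Agent.S19.Cech.Law

set_option autoImplicit false

namespace Fermat.Agent.S19.Cech

open TensorProduct

section Generalities

variable {O : Type*} [CommRing O] {S : Type*} [CommRing S] [Algebra O S]
variable {A : Type*} [CommRing A] [Algebra O A]

/-- The reduction map `S ⊗ A → (S/𝔞) ⊗ A`. -/
noncomputable def redMap (A : Type*) [CommRing A] [Algebra O A] (𝔞 : Ideal S) :
    S ⊗[O] A →ₐ[O] (S ⧸ 𝔞) ⊗[O] A :=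
  Algebra.TensorProduct.map (Ideal.Quotient.mkₐ O 𝔞) (AlgHom.id O A)

@[simp] theorem redMap_tmul (𝔞 : Ideal S) (s : S) (x : A) :
    redMap A 𝔞 (s ⊗ₜ[O] x) = (Ideal.Quotient.mk 𝔞 s) ⊗ₜ[O] x := by
  simp [redMap]

theorem redMap_eq_zero_of_mem_ext (𝔞 : Ideal S) {x : S ⊗[O] A} (hx : x ∈ ext (S ⊗[O] A) 𝔞) :
    redMap A 𝔞 x = 0 := by
  have hle : ext (S ⊗[O] A) 𝔞 ≤ RingHom.ker (redMap (O := O) A 𝔞) := by
    unfold ext
    rw [Ideal.map_le_iff_le_comap]
    intro s hs
    rw [Ideal.mem_comap, RingHom.mem_ker, Algebra.TensorProduct.algebraMap_apply]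
    change redMap A 𝔞 (algebraMap S S s ⊗ₜ[O] (1 : A)) = 0
    rw [redMap_tmul]
    have : Ideal.Quotient.mk 𝔞 (algebraMap S S s) = 0 := by
      rw [Ideal.Quotient.eq_zero_iff_mem]; exact hs
    rw [this, zero_tmul]
  exact hle hx

theorem mem_ext_of_redMap_eq_zero (𝔞 : Ideal S) {x : S ⊗[O] A} (hx : redMap A 𝔞 x = 0) :
    x ∈ ext (S ⊗[O] A) 𝔞 := by
  set f : ↥(𝔞.restrictScalars O) →ₗ[O] S := (𝔞.restrictScalars O).subtype with hf
  set q : S →ₗ[O] S ⧸ 𝔞 := (Ideal.Quotient.mkₐ O 𝔞).toLinearMap with hq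
  have hex : Function.Exact f q := by
    intro s
    constructor
    · intro hs
      have : s ∈ 𝔞 := by
        rw [← Ideal.Quotient.eq_zero_iff_mem]; exact hs
      exact ⟨⟨s, this⟩, rfl⟩
    · rintro ⟨⟨t, ht⟩, rfl⟩
      change Ideal.Quotient.mk 𝔞 t = 0
      rw [Ideal.Quotient.eq_zero_iff_mem]; exact ht
  have hsurj : Function.Surjective q := Ideal.Quotient.mk_surjective
  have hex' := rTensor_exact A hex hsurj
  have hmap : ∀ y : S ⊗[O] A, (LinearMap.rTensor A q) y = redMap A 𝔞 y := by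
    intro y
    induction y using TensorProduct.induction_on with
    | zero => simp
    | tmul s a => simp [hq]
    | add x y hx hy => rw [map_add, map_add, hx, hy]
  have hx' : (LinearMap.rTensor A q) x = 0 := by rw [hmap, hx]
  obtain ⟨w, rfl⟩ := (hex' x).1 hx'
  have hrange : ∀ w : ↥(𝔞.restrictScalars O) ⊗[O] A,
      (LinearMap.rTensor A f) w ∈ ext (S ⊗[O] A) 𝔞 := by
    intro w
    induction w using TensorProduct.induction_on with
    | zero => simp
    | tmul s a =>
      rw [LinearMap.rTensor_tmul]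
      have : (f s) ⊗ₜ[O] a = algebraMap S (S ⊗[O] A) (f s) * ((1 : S) ⊗ₜ[O] a) := by
        rw [Algebra.TensorProduct.algebraMap_apply, Algebra.TensorProduct.tmul_mul_tmul]
        simp
      rw [this]
      exact Ideal.mul_mem_right _ _ (algebraMap_mem_ext s.2)
    | add x y hx hy =>
      rw [map_add]
      exact Ideal.add_mem _ hx hy
  exact hrange w

/-- an `S`-linear map to `S` maps `𝔟·C` into `𝔟` -/
theorem linearMap_mem_of_mem_ext {C : Type*} [CommRing C] [Algebra S C] (f : C →ₗ[S] S)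
    (𝔟 : Ideal S) {x : C} (hx : x ∈ ext C 𝔟) : f x ∈ 𝔟 := by
  have hx' : x ∈ Submodule.span C ((algebraMap S C) '' (𝔟 : Set S)) := hx
  have key : ∀ a : C, f (a * x) ∈ 𝔟 := by
    refine Submodule.span_induction (p := fun c _ => ∀ a : C, f (a * c) ∈ 𝔟) ?_ ?_ ?_ ?_ hx'
    · rintro _ ⟨r, hr, rfl⟩ a
      have : a * algebraMap S C r = r • a := by rw [Algebra.smul_def, mul_comm]
      rw [this, map_smul, smul_eq_mul]
      exact 𝔟.mul_mem_right _ hr
    · intro a; simp
    · intro c₁ c₂ _ _ h₁ h₂ a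
      rw [mul_add, map_add]
      exact 𝔟.add_mem (h₁ a) (h₂ a)
    · intro b c _ h a
      rw [smul_eq_mul, ← mul_assoc]
      exact h (a * b)
  simpa using key 1

end Generalities

/-! ### the `O`-level data -/

section BaseData

variable {O : Type*} [CommRing O]
variable {Ap Am A0 : Type*} [CommRing Ap] [CommRing Am] [CommRing A0]
  [Algebra O Ap] [Algebra O Am] [Algebra O A0]

/-- The `O`-level hypotheses: `0 → O → Ap ⊕ Am → A0 → O^g → 0` is exact, where the last map is the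
`O`-linear coordinate map `cL` with `cL (ε i) = e_i`. -/
structure Base (ip : Ap →ₐ[O] A0) (im : Am →ₐ[O] A0) {g : ℕ} (ε : Fin g → A0)
    (cL : A0 →ₗ[O] (Fin g → O)) : Prop where
  cL_eps : ∀ i, cL (ε i) = Pi.single i 1
  cL_ip : ∀ x, cL (ip x) = 0
  cL_im : ∀ y, cL (im y) = 0
  ker_cL : ∀ z, cL z = 0 → ∃ (x : Ap) (y : Am), z = ip x + im y
  h0 : ∀ (x : Ap) (y : Am), ip x = im y → ∃ r : O, x = algebraMap O Ap r ∧ y = algebraMap O Am r

variable {ip : Ap →ₐ[O] A0} {im : Am →ₐ[O] A0} {g : ℕ} {ε : Fin g → A0}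
  {cL : A0 →ₗ[O] (Fin g → O)}

/-- the projector `z ↦ z - ∑ (cL z i) • ε i` onto `ip(Ap) + im(Am)` -/
noncomputable def projZ (ε : Fin g → A0) (cL : A0 →ₗ[O] (Fin g → O)) : A0 →ₗ[O] A0 :=
  LinearMap.id - ∑ i, ((LinearMap.proj i : (Fin g → O) →ₗ[O] O) ∘ₗ cL).smulRight (ε i)

theorem projZ_apply (z : A0) : projZ ε cL z = z - ∑ i, (cL z i) • ε i := by
  simp [projZ, LinearMap.sum_apply]

theorem Base.cL_projZ (B : Base ip im ε cL) (z : A0) : cL (projZ ε cL z) = 0 := by
  rw [projZ_apply, map_sub, map_sum]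
  have : ∑ i, cL ((cL z i) • ε i) = cL z := by
    funext j
    rw [Finset.sum_apply]
    simp only [map_smul, B.cL_eps, Pi.smul_apply, smul_eq_mul]
    rw [Finset.sum_eq_single j]
    · simp
    · intro i _ hij; simp [hij.symm]
    · intro h; exact absurd (Finset.mem_univ j) h
  rw [this, sub_self]

theorem Base.projZ_of_cL_eq_zero {z : A0} (hz : cL z = 0) : projZ ε cL z = z := by
  rw [projZ_apply, hz]; simp

/-- the `O`-level decomposition -/
theorem Base.exists_decomp (B : Base ip im ε cL) (z : A0) :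
    ∃ (x : Ap) (y : Am), z = ∑ i, (cL z i) • ε i + ip x + im y := by
  obtain ⟨x, y, h⟩ := B.ker_cL _ (B.cL_projZ z)
  refine ⟨x, y, ?_⟩
  rw [projZ_apply] at h
  rw [add_assoc, ← h]; ring

/-- **Universal exactness in the middle**: for every `O`-module `N`, a pair
`(wp, wm) ∈ N ⊗ Ap × N ⊗ Am` with the same image in `N ⊗ A0` comes from `N`. -/
theorem Base.exists_const (B : Base ip im ε cL) (N : Type*) [AddCommGroup N] [Module O N]
    (wp : N ⊗[O] Ap) (wm : N ⊗[O] Am)
    (h : (LinearMap.lTensor N ip.toLinearMap) wp = (LinearMap.lTensor N im.toLinearMap) wm) :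
    ∃ n : N, wp = n ⊗ₜ[O] (1 : Ap) ∧ wm = n ⊗ₜ[O] (1 : Am) := by
  -- the maps
  set ι : O →ₗ[O] Ap × Am := LinearMap.prod (Algebra.linearMap O Ap) (Algebra.linearMap O Am)
    with hι
  set d : Ap × Am →ₗ[O] A0 := LinearMap.coprod ip.toLinearMap (-im.toLinearMap) with hd
  have hd_apply : ∀ p : Ap × Am, d p = ip p.1 - im p.2 := by
    intro p; simp [hd, sub_eq_add_neg]
  set Z := LinearMap.range d with hZ
  set d' : Ap × Am →ₗ[O] Z := d.rangeRestrict with hd'
  have hex : Function.Exact ι d' := by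
    intro p
    constructor
    · intro hp
      have hp' : d p = 0 := by
        have := congrArg Subtype.val hp
        simpa [hd'] using this
      rw [hd_apply, sub_eq_zero] at hp'
      obtain ⟨r, h1, h2⟩ := B.h0 _ _ hp'
      refine ⟨r, ?_⟩
      ext <;> simp [hι, h1, h2]
    · rintro ⟨r, rfl⟩
      apply Subtype.ext
      simp [hd', hd_apply, hι]
  have hsurj : Function.Surjective d' := LinearMap.surjective_rangeRestrict d
  have hex' := lTensor_exact N hex hsurj
  -- the retraction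
  have hmem : ∀ z : A0, projZ ε cL z ∈ Z := by
    intro z
    obtain ⟨x, y, hxy⟩ := B.ker_cL _ (B.cL_projZ z)
    refine ⟨(x, -y), ?_⟩
    rw [hd_apply, hxy]; simp
  set ρ : A0 →ₗ[O] Z := LinearMap.codRestrict Z (projZ ε cL) hmem with hρ
  have hρ_comp : ρ ∘ₗ Z.subtype = LinearMap.id := by
    ext ⟨z, hz⟩
    obtain ⟨p, rfl⟩ := hz
    simp only [LinearMap.coe_comp, Function.comp_apply, Submodule.subtype_apply,
      LinearMap.id_coe, id_eq, hρ, LinearMap.codRestrict_apply]
    apply Base.projZ_of_cL_eq_zero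
    rw [hd_apply, map_sub, B.cL_ip, B.cL_im, sub_zero]
  have hd_comp : d = Z.subtype ∘ₗ d' := by
    ext p <;> simp [hd']
  -- the element `w`
  set w : N ⊗[O] (Ap × Am) := LinearMap.lTensor N (LinearMap.inl O Ap Am) wp
    + LinearMap.lTensor N (LinearMap.inr O Ap Am) wm with hw
  have hdw : LinearMap.lTensor N d w = 0 := by
    rw [hw, map_add, ← LinearMap.lTensor_comp_apply, ← LinearMap.lTensor_comp_apply]
    have e1 : d ∘ₗ LinearMap.inl O Ap Am = ip.toLinearMap := by
      ext x; simp [hd]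
    have e2 : d ∘ₗ LinearMap.inr O Ap Am = -im.toLinearMap := by
      ext x; simp [hd]
    rw [e1, e2, LinearMap.lTensor_neg, LinearMap.neg_apply, h, add_neg_cancel]
  have hd'w : LinearMap.lTensor N d' w = 0 := by
    have h1 : LinearMap.lTensor N Z.subtype (LinearMap.lTensor N d' w) = 0 := by
      rw [← LinearMap.lTensor_comp_apply, ← hd_comp, hdw]
    have h2 := congrArg (LinearMap.lTensor N ρ) h1
    rw [← LinearMap.lTensor_comp_apply, hρ_comp, LinearMap.lTensor_id, LinearMap.id_apply,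
      map_zero] at h2
    exact h2
  obtain ⟨v, hv⟩ := (hex' w).1 hd'w
  set n : N := TensorProduct.rid O N v with hn
  have hvn : v = n ⊗ₜ[O] (1 : O) := by
    rw [hn]
    exact ((TensorProduct.rid O N).symm_apply_apply v).symm
  have hw' : w = n ⊗ₜ[O] ((1 : Ap), (1 : Am)) := by
    rw [← hv, hvn, LinearMap.lTensor_tmul]
    simp [hι]
  refine ⟨n, ?_, ?_⟩
  · have := congrArg (LinearMap.lTensor N (LinearMap.fst O Ap Am)) hw'
    rw [hw, map_add, ← LinearMap.lTensor_comp_apply, ← LinearMap.lTensor_comp_apply,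
      LinearMap.fst_comp_inl, LinearMap.fst_comp_inr, LinearMap.lTensor_id, LinearMap.lTensor_zero,
      LinearMap.id_apply, LinearMap.zero_apply, add_zero, LinearMap.lTensor_tmul] at this
    simpa using this
  · have := congrArg (LinearMap.lTensor N (LinearMap.snd O Ap Am)) hw'
    rw [hw, map_add, ← LinearMap.lTensor_comp_apply, ← LinearMap.lTensor_comp_apply,
      LinearMap.snd_comp_inl, LinearMap.snd_comp_inr, LinearMap.lTensor_id, LinearMap.lTensor_zero,
      LinearMap.id_apply, LinearMap.zero_apply, zero_add, LinearMap.lTensor_tmul] at this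
    simpa using this

/-! ### base change to an `O`-algebra `S` -/

variable (S : Type*) [CommRing S] [Algebra O S]

/-- the base-changed chart maps -/
noncomputable abbrev mapS {A A' : Type*} [CommRing A] [CommRing A'] [Algebra O A] [Algebra O A']
    (f : A →ₐ[O] A') : S ⊗[O] A →ₐ[S] S ⊗[O] A' :=
  Algebra.TensorProduct.map (AlgHom.id S S) f

/-- the base-changed `ε` -/
def epsS (ε : Fin g → A0) : Fin g → S ⊗[O] A0 := fun i => (1 : S) ⊗ₜ[O] ε i

/-- the base-changed coordinate maps `S ⊗ A0 → S` -/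
noncomputable def cS (cL : A0 →ₗ[O] (Fin g → O)) (i : Fin g) : S ⊗[O] A0 →ₗ[S] S :=
  (TensorProduct.AlgebraTensorModule.rid O S S).toLinearMap ∘ₗ
    LinearMap.baseChange S ((LinearMap.proj i : (Fin g → O) →ₗ[O] O) ∘ₗ cL)

theorem cS_tmul (i : Fin g) (s : S) (z : A0) : cS S cL i (s ⊗ₜ[O] z) = (cL z i) • s := by
  simp [cS]

theorem mapS_tmul {A A' : Type*} [CommRing A] [CommRing A'] [Algebra O A] [Algebra O A']
    (f : A →ₐ[O] A') (s : S) (x : A) : mapS S f (s ⊗ₜ[O] x) = s ⊗ₜ[O] f x := by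
  simp [mapS]

theorem Base.cS_mapS_ip (B : Base ip im ε cL) (i : Fin g) (x : S ⊗[O] Ap) :
    cS S cL i (mapS S ip x) = 0 := by
  induction x using TensorProduct.induction_on with
  | zero => simp
  | tmul s a => rw [mapS_tmul, cS_tmul, B.cL_ip]; simp
  | add x y hx hy => rw [map_add, map_add, hx, hy, add_zero]

theorem Base.cS_mapS_im (B : Base ip im ε cL) (i : Fin g) (y : S ⊗[O] Am) :
    cS S cL i (mapS S im y) = 0 := by
  induction y using TensorProduct.induction_on with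
  | zero => simp
  | tmul s a => rw [mapS_tmul, cS_tmul, B.cL_im]; simp
  | add x y hx hy => rw [map_add, map_add, hx, hy, add_zero]

theorem Base.cS_epsS (B : Base ip im ε cL) (i j : Fin g) :
    cS S cL i (epsS S ε j) = if i = j then 1 else 0 := by
  unfold epsS
  rw [cS_tmul, B.cL_eps]
  by_cases h : i = j
  · subst h; simp
  · rw [if_neg h, Pi.single_apply, if_neg h, zero_smul]

theorem Base.cS_sum (B : Base ip im ε cL) (i : Fin g) (τ : Fin g → S) :
    cS S cL i (∑ j, algebraMap S (S ⊗[O] A0) (τ j) * epsS S ε j) = τ i := by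
  rw [map_sum]
  have : ∀ j, cS S cL i (algebraMap S (S ⊗[O] A0) (τ j) * epsS S ε j)
      = τ j * (if i = j then 1 else 0) := by
    intro j
    rw [← Algebra.smul_def, map_smul, B.cS_epsS S, smul_eq_mul]
  simp only [this]
  simp

theorem redMap_mapS {A A' : Type*} [CommRing A] [CommRing A'] [Algebra O A] [Algebra O A']
    (𝔞 : Ideal S) (f : A →ₐ[O] A') (t : S ⊗[O] A) :
    redMap A' 𝔞 (mapS S f t) = LinearMap.lTensor (S ⧸ 𝔞) f.toLinearMap (redMap A 𝔞 t) := by
  induction t using TensorProduct.induction_on with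
  | zero => simp
  | tmul s a => simp
  | add x y hx hy => rw [map_add, map_add, map_add, map_add, hx, hy]

/-- **Base change**: the `O`-level data give `Hyp` over every `O`-algebra `S` with a nilpotent
ideal `𝔪`. -/
theorem Base.hyp (B : Base ip im ε cL) [Module.FaithfullyFlat O A0] (𝔪 : Ideal S)
    (hnil : ∃ N : ℕ, 𝔪 ^ N = ⊥) : Hyp 𝔪 (mapS S ip) (mapS S im) (epsS S ε) where
  nil := hnil
  gen := by
    intro c
    induction c using TensorProduct.induction_on with
    | zero => exact ⟨0, 0, 0, by simp⟩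
    | tmul s z =>
      obtain ⟨x, y, hxy⟩ := B.exists_decomp z
      refine ⟨fun i => (cL z i) • s, s ⊗ₜ[O] x, s ⊗ₜ[O] y, ?_⟩
      rw [mapS_tmul, mapS_tmul]
      conv_lhs => rw [hxy]
      rw [TensorProduct.tmul_add, TensorProduct.tmul_add, TensorProduct.tmul_sum]
      congr 2
      refine Finset.sum_congr rfl fun i _ => ?_
      unfold epsS
      rw [Algebra.TensorProduct.algebraMap_apply, Algebra.TensorProduct.tmul_mul_tmul,
        TensorProduct.tmul_smul, TensorProduct.smul_tmul']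
      simp
    | add c₁ c₂ h₁ h₂ =>
      obtain ⟨s₁, x₁, y₁, e₁⟩ := h₁
      obtain ⟨s₂, x₂, y₂, e₂⟩ := h₂
      refine ⟨s₁ + s₂, x₁ + x₂, y₁ + y₂, ?_⟩
      rw [e₁, e₂]
      simp only [Pi.add_apply, map_add, add_mul, Finset.sum_add_distrib]
      ring
  h0 := by
    intro 𝔞 x y hxy
    -- reduce modulo `𝔞`
    have h1 := redMap_eq_zero_of_mem_ext 𝔞 hxy
    rw [map_sub, redMap_mapS, redMap_mapS, sub_eq_zero] at h1
    obtain ⟨n, hn1, hn2⟩ := B.exists_const (S ⧸ 𝔞) _ _ h1
    obtain ⟨s, rfl⟩ := Ideal.Quotient.mk_surjective n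
    refine ⟨s, ?_, ?_⟩
    · apply mem_ext_of_redMap_eq_zero
      rw [map_sub, hn1, Algebra.TensorProduct.algebraMap_apply, redMap_tmul]
      simp
    · apply mem_ext_of_redMap_eq_zero
      rw [map_sub, hn2, Algebra.TensorProduct.algebraMap_apply, redMap_tmul]
      simp
  h0' := by
    intro 𝔞 s hs
    have h1 := redMap_eq_zero_of_mem_ext 𝔞 hs
    rw [Algebra.TensorProduct.algebraMap_apply, redMap_tmul] at h1
    have h2 := congrArg (TensorProduct.comm O (S ⧸ 𝔞) A0) h1
    rw [TensorProduct.comm_tmul, map_zero] at h2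
    have h3 := Module.FaithfullyFlat.tensorProduct_mk_injective (A := O) (B := A0) (S ⧸ 𝔞)
    have h4 : Ideal.Quotient.mk 𝔞 s = 0 := by
      apply h3
      simpa using h2
    rwa [Ideal.Quotient.eq_zero_iff_mem] at h4
  h1 := by
    intro 𝔞 𝔟 _ τ _ x _ y _ hmem i
    have := linearMap_mem_of_mem_ext (cS S cL i) 𝔟 hmem
    rwa [map_add, map_add, B.cS_mapS_ip S, B.cS_mapS_im S, add_zero, add_zero, B.cS_sum S] at this

/-! ### functoriality in `S` -/

variable {S} {S' : Type*} [CommRing S'] [Algebra O S']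

/-- the map `S ⊗ A → S' ⊗ A` induced by `φ : S → S'` -/
noncomputable def chgS (A : Type*) [CommRing A] [Algebra O A] (φ : S →ₐ[O] S') :
    S ⊗[O] A →ₐ[O] S' ⊗[O] A :=
  Algebra.TensorProduct.map φ (AlgHom.id O A)

@[simp] theorem chgS_tmul {A : Type*} [CommRing A] [Algebra O A] (φ : S →ₐ[O] S') (s : S) (x : A) :
    chgS A φ (s ⊗ₜ[O] x) = φ s ⊗ₜ[O] x := by
  simp [chgS]

theorem chgS_mapS {A A' : Type*} [CommRing A] [CommRing A'] [Algebra O A] [Algebra O A']
    (φ : S →ₐ[O] S') (f : A →ₐ[O] A') (t : S ⊗[O] A) :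
    chgS A' φ (mapS S f t) = mapS S' f (chgS A φ t) := by
  induction t using TensorProduct.induction_on with
  | zero => simp
  | tmul s a => simp
  | add x y hx hy => rw [map_add, map_add, map_add, map_add, hx, hy]

/-- **Functoriality of the base change**: an `O`-algebra map `φ : S → S'` with `φ 𝔪 ⊆ 𝔪'` is a
morphism of situations. -/
theorem morph_chgS (ip : Ap →ₐ[O] A0) (im : Am →ₐ[O] A0) (ε : Fin g → A0) {𝔪 : Ideal S}
    {𝔪' : Ideal S'} (φ : S →ₐ[O] S') (hφ : ∀ s ∈ 𝔪, φ s ∈ 𝔪') :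
    Morph 𝔪 (mapS S ip) (mapS S im) (epsS S ε) 𝔪' (mapS S' ip) (mapS S' im) (epsS S' ε)
      (φ : S →+* S') (chgS Ap φ : S ⊗[O] Ap →+* S' ⊗[O] Ap)
      (chgS Am φ : S ⊗[O] Am →+* S' ⊗[O] Am) (chgS A0 φ : S ⊗[O] A0 →+* S' ⊗[O] A0) where
  map_mem := hφ
  comm_p := fun x => chgS_mapS φ ip x
  comm_m := fun y => chgS_mapS φ im y
  alg_p := fun s => by
    change chgS Ap φ (algebraMap S (S ⊗[O] Ap) s) = _
    rw [Algebra.TensorProduct.algebraMap_apply, Algebra.TensorProduct.algebraMap_apply]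
    simp
  alg_m := fun s => by
    change chgS Am φ (algebraMap S (S ⊗[O] Am) s) = _
    rw [Algebra.TensorProduct.algebraMap_apply, Algebra.TensorProduct.algebraMap_apply]
    simp
  alg_0 := fun s => by
    change chgS A0 φ (algebraMap S (S ⊗[O] A0) s) = _
    rw [Algebra.TensorProduct.algebraMap_apply, Algebra.TensorProduct.algebraMap_apply]
    simp
  eps := fun i => by
    change chgS A0 φ (epsS S ε i) = _
    unfold epsS
    simp

end BaseData

/-! ### transport of `Hyp` along isomorphisms of the charts -/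

section Transport

variable {S : Type*} [CommRing S]
variable {Cp Cm C0 : Type*} [CommRing Cp] [CommRing Cm] [CommRing C0]
  [Algebra S Cp] [Algebra S Cm] [Algebra S C0]
variable {Cp' Cm' C0' : Type*} [CommRing Cp'] [CommRing Cm'] [CommRing C0']
  [Algebra S Cp'] [Algebra S Cm'] [Algebra S C0']
variable {𝔪 : Ideal S} {ip : Cp →ₐ[S] C0} {im : Cm →ₐ[S] C0} {g : ℕ} {ε : Fin g → C0}

theorem mem_ext_equiv_iff {C C' : Type*} [CommRing C] [CommRing C'] [Algebra S C] [Algebra S C']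
    (e : C ≃ₐ[S] C') (𝔞 : Ideal S) (x : C) : e x ∈ ext C' 𝔞 ↔ x ∈ ext C 𝔞 := by
  constructor
  · intro h
    have := map_mem_ext (e.symm : C' →ₐ[S] C) h
    simpa using this
  · intro h
    exact map_mem_ext (e : C →ₐ[S] C') h

/-- `Hyp` is invariant under isomorphisms of the three charts. -/
theorem Hyp.of_equiv (H : Hyp 𝔪 ip im ε) (ep : Cp ≃ₐ[S] Cp') (em : Cm ≃ₐ[S] Cm')
    (e0 : C0 ≃ₐ[S] C0') {ip' : Cp' →ₐ[S] C0'} {im' : Cm' →ₐ[S] C0'}
    (hp : ∀ x, ip' (ep x) = e0 (ip x)) (hm : ∀ y, im' (em y) = e0 (im y)) :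
    Hyp 𝔪 ip' im' (fun i => e0 (ε i)) where
  nil := H.nil
  gen := by
    intro c
    obtain ⟨s, x, y, h⟩ := H.gen (e0.symm c)
    refine ⟨s, ep x, em y, ?_⟩
    have := congrArg e0 h
    rw [AlgEquiv.apply_symm_apply] at this
    rw [this, hp, hm]
    simp only [map_add, map_sum, map_mul, AlgEquiv.commutes]
  h0 := by
    intro 𝔞 x y hxy
    obtain ⟨x, rfl⟩ := ep.surjective x
    obtain ⟨y, rfl⟩ := em.surjective y
    rw [hp, hm, ← map_sub, mem_ext_equiv_iff] at hxy
    obtain ⟨s, h1, h2⟩ := H.h0 𝔞 x y hxy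
    refine ⟨s, ?_, ?_⟩
    · rw [← AlgEquiv.commutes ep, ← map_sub, mem_ext_equiv_iff]; exact h1
    · rw [← AlgEquiv.commutes em, ← map_sub, mem_ext_equiv_iff]; exact h2
  h0' := by
    intro 𝔞 s hs
    rw [← AlgEquiv.commutes e0, mem_ext_equiv_iff] at hs
    exact H.h0' 𝔞 s hs
  h1 := by
    intro 𝔞 𝔟 hle τ hτ x hx y hy hmem
    obtain ⟨x, rfl⟩ := ep.surjective x
    obtain ⟨y, rfl⟩ := em.surjective y
    rw [mem_ext_equiv_iff] at hx hy
    refine H.h1 𝔞 𝔟 hle τ hτ x hx y hy ?_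
    rw [← mem_ext_equiv_iff e0]
    rw [hp, hm] at hmem
    simpa only [map_add, map_sum, map_mul, AlgEquiv.commutes] using hmem

/-- the transported situation is isomorphic to the original one (a `Morph` over `id`) -/
theorem morph_of_equiv (ep : Cp ≃ₐ[S] Cp') (em : Cm ≃ₐ[S] Cm')
    (e0 : C0 ≃ₐ[S] C0') {ip' : Cp' →ₐ[S] C0'} {im' : Cm' →ₐ[S] C0'}
    (hp : ∀ x, ip' (ep x) = e0 (ip x)) (hm : ∀ y, im' (em y) = e0 (im y)) :
    Morph 𝔪 ip im ε 𝔪 ip' im' (fun i => e0 (ε i)) (RingHom.id S)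
      (ep : Cp →+* Cp') (em : Cm →+* Cm') (e0 : C0 →+* C0') where
  map_mem := fun _ hs => hs
  comm_p := fun x => (hp x).symm
  comm_m := fun y => (hm y).symm
  alg_p := fun s => AlgEquiv.commutes ep s
  alg_m := fun s => AlgEquiv.commutes em s
  alg_0 := fun s => AlgEquiv.commutes e0 s
  eps := fun _ => rfl

end Transport

end Fermat.Agent.S19.Cech
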