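/-
S19 / Čech-units route, **Part 5: the universal group law (Yoneda).**

Setting: `O`-level charts `Ap, Am → A0`, `ε : Fin g → A0` such that `Hyp` holds after EVERY base
change `S ⊗[O] -` (`HypAll`; supplied by `Base.hyp` of `BaseHyp.lean` or by
`HypBaseChange.hyp_baseChange`).  Then:

* `lawPoly hH d : Fin g → MvPolynomial (Fin g ⊕ Fin g) O`, without constant term
  (`lawPoly_mem`), such that for every `O`-algebra `S` with an ideal `𝔪`, `𝔪 ^ d = 0`, and all
  `a, b ∈ 𝔪^g`:  `a ⊞ b = lawPoly(a, b)`      (`HypAll.add_eq_aeval`);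
* `chgPoly hH hH' d : Fin g → MvPolynomial (Fin g) O` for two families `ε, ε'` (two lifts of a basis
  of `H¹`, or `ε' = σ ε`): `coord' u = chgPoly (coord u)`      (`HypAll.coord_eq_aeval`).

The universal ring is `O[T]/(T)^d` with its nilpotent ideal `(T)`.
-/
import Fermat.Agent.S19.Cech.BaseHyp

set_option autoImplicit false

universe u

namespace Fermat.Agent.S19.Cech

open TensorProduct MvPolynomial

variable {O : Type u} [CommRing O]
variable {Ap Am A0 : Type*} [CommRing Ap] [CommRing Am] [CommRing A0]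
  [Algebra O Ap] [Algebra O Am] [Algebra O A0]

/-- `Hyp` holds after every base change `S ⊗[O] -` and for every nilpotent ideal of `S`. -/
def HypAll (ip : Ap →ₐ[O] A0) (im : Am →ₐ[O] A0) {g : ℕ} (ε : Fin g → A0) : Prop :=
  ∀ (S : Type u) [CommRing S] [Algebra O S] (𝔪 : Ideal S), (∃ N : ℕ, 𝔪 ^ N = ⊥) →
    Hyp 𝔪 (mapS S ip) (mapS S im) (epsS S ε)

theorem Base.hypAll {ip : Ap →ₐ[O] A0} {im : Am →ₐ[O] A0} {g : ℕ} {ε : Fin g → A0}
    {cL : A0 →ₗ[O] (Fin g → O)} (B : Base ip im ε cL) [Module.FaithfullyFlat O A0] :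
    HypAll ip im ε :=
  fun S _ _ 𝔪 hnil => B.hyp S 𝔪 hnil

/-! ### the universal ring `O[T]/(T)^d` -/

section UnivRing

variable (O) (σ : Type) (d : ℕ)

/-- `O[T_σ]/(T)^d` -/
abbrev UnivRing : Type u := MvPolynomial σ O ⧸ (idealOfVars σ O) ^ d

/-- the ideal `(T)` of `O[T]/(T)^d` -/
noncomputable def univIdeal : Ideal (UnivRing O σ d) :=
  (idealOfVars σ O).map (Ideal.Quotient.mk ((idealOfVars σ O) ^ d))

theorem univIdeal_pow : univIdeal O σ d ^ d = ⊥ := by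
  unfold univIdeal
  rw [← Ideal.map_pow, Ideal.map_quotient_self]

theorem univIdeal_nil : ∃ N : ℕ, univIdeal O σ d ^ N = ⊥ := ⟨d, univIdeal_pow O σ d⟩

/-- the class of the variable `T_k` -/
noncomputable def univX (k : σ) : UnivRing O σ d := Ideal.Quotient.mk _ (X k)

theorem univX_mem (k : σ) : univX O σ d k ∈ univIdeal O σ d :=
  Ideal.mem_map_of_mem _ (Ideal.subset_span ⟨k, rfl⟩)

theorem exists_rep_of_mem_univIdeal {x : UnivRing O σ d} (hx : x ∈ univIdeal O σ d) :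
    ∃ p : MvPolynomial σ O, p ∈ idealOfVars σ O ∧ Ideal.Quotient.mk _ p = x := by
  unfold univIdeal at hx
  rw [Ideal.mem_map_iff_of_surjective _ Ideal.Quotient.mk_surjective] at hx
  exact hx

variable {O σ d}
variable {S : Type u} [CommRing S] [Algebra O S]

theorem aeval_mem_of_mem_idealOfVars {𝔪 : Ideal S} {a : σ → S} (ha : ∀ k, a k ∈ 𝔪)
    {p : MvPolynomial σ O} (hp : p ∈ idealOfVars σ O) : aeval a p ∈ 𝔪 := by
  have hle : idealOfVars σ O ≤ 𝔪.comap (aeval a : MvPolynomial σ O →ₐ[O] S) := by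
    unfold idealOfVars
    rw [Ideal.span_le]
    rintro _ ⟨k, rfl⟩
    simp only [SetLike.mem_coe, Ideal.mem_comap, aeval_X]
    exact ha k
  exact hle hp

/-- the evaluation map `O[T]/(T)^d → S`, `T ↦ a`, for `a ∈ 𝔪`, `𝔪^d = 0` -/
noncomputable def univEval {𝔪 : Ideal S} (h𝔪 : 𝔪 ^ d = ⊥) (a : σ → S) (ha : ∀ k, a k ∈ 𝔪) :
    UnivRing O σ d →ₐ[O] S :=
  Ideal.Quotient.liftₐ _ (aeval a) (by
    intro p hp
    have hle : (idealOfVars σ O) ^ d ≤ (𝔪 ^ d).comap (aeval a : MvPolynomial σ O →ₐ[O] S) := by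
      have h1 : idealOfVars σ O ≤ 𝔪.comap (aeval a : MvPolynomial σ O →ₐ[O] S) :=
        fun p hp => aeval_mem_of_mem_idealOfVars ha hp
      calc (idealOfVars σ O) ^ d ≤ (𝔪.comap (aeval a : MvPolynomial σ O →ₐ[O] S)) ^ d :=
            Ideal.pow_right_mono h1 d
        _ ≤ (𝔪 ^ d).comap (aeval a : MvPolynomial σ O →ₐ[O] S) := Ideal.le_comap_pow _ d
    have := hle hp
    rw [h𝔪] at this
    simpa using this)

theorem univEval_mk {𝔪 : Ideal S} (h𝔪 : 𝔪 ^ d = ⊥) (a : σ → S) (ha : ∀ k, a k ∈ 𝔪)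
    (p : MvPolynomial σ O) :
    univEval h𝔪 a ha (Ideal.Quotient.mk _ p) = aeval a p := by
  unfold univEval
  exact Ideal.Quotient.liftₐ_apply _ _ _ _

theorem univEval_univX {𝔪 : Ideal S} (h𝔪 : 𝔪 ^ d = ⊥) (a : σ → S) (ha : ∀ k, a k ∈ 𝔪) (k : σ) :
    univEval h𝔪 a ha (univX O σ d k) = a k := by
  unfold univX
  rw [univEval_mk, aeval_X]

theorem univEval_mem {𝔪 : Ideal S} (h𝔪 : 𝔪 ^ d = ⊥) (a : σ → S) (ha : ∀ k, a k ∈ 𝔪)
    {x : UnivRing O σ d} (hx : x ∈ univIdeal O σ d) : univEval h𝔪 a ha x ∈ 𝔪 := by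
  obtain ⟨p, hp, rfl⟩ := exists_rep_of_mem_univIdeal O σ d hx
  rw [univEval_mk]
  exact aeval_mem_of_mem_idealOfVars ha hp

end UnivRing

/-! ### the universal law -/

section Law

variable {ip : Ap →ₐ[O] A0} {im : Am →ₐ[O] A0} {g : ℕ} {ε : Fin g → A0}

/-- the sum of the two universal points `T, T'` over `O[T,T']/(T,T')^d` -/
noncomputable def univSum (hH : HypAll ip im ε) (d : ℕ) :
    Fin g → UnivRing O (Fin g ⊕ Fin g) d :=
  (hH (UnivRing O (Fin g ⊕ Fin g) d) (univIdeal O _ d) (univIdeal_nil O _ d)).add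
    (fun i => univX O _ d (Sum.inl i)) (fun i => univX O _ d (Sum.inr i))

theorem univSum_mem (hH : HypAll ip im ε) (d : ℕ) (i : Fin g) :
    univSum hH d i ∈ univIdeal O (Fin g ⊕ Fin g) d :=
  Hyp.add_mem _ _ _ i

/-- **The group law polynomials** (truncated at degree `d`). -/
noncomputable def lawPoly (hH : HypAll ip im ε) (d : ℕ) (i : Fin g) :
    MvPolynomial (Fin g ⊕ Fin g) O :=
  Classical.choose (exists_rep_of_mem_univIdeal O _ d (univSum_mem hH d i))

/-- the law polynomials have no constant term -/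
theorem lawPoly_mem (hH : HypAll ip im ε) (d : ℕ) (i : Fin g) :
    lawPoly hH d i ∈ idealOfVars (Fin g ⊕ Fin g) O :=
  (Classical.choose_spec (exists_rep_of_mem_univIdeal O _ d (univSum_mem hH d i))).1

theorem mk_lawPoly (hH : HypAll ip im ε) (d : ℕ) (i : Fin g) :
    Ideal.Quotient.mk _ (lawPoly hH d i) = univSum hH d i :=
  (Classical.choose_spec (exists_rep_of_mem_univIdeal O _ d (univSum_mem hH d i))).2

/-- **The group law is given by the universal polynomials**: over every `O`-algebra `S` with an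
ideal `𝔪`, `𝔪^d = 0`, and for all `a, b ∈ 𝔪^g`:  `a ⊞ b = lawPoly(a, b)`. -/
theorem HypAll.add_eq_aeval (hH : HypAll ip im ε) (d : ℕ) (S : Type u) [CommRing S] [Algebra O S]
    {𝔪 : Ideal S} (h𝔪 : 𝔪 ^ d = ⊥) {a b : Fin g → S} (ha : ∀ i, a i ∈ 𝔪) (hb : ∀ i, b i ∈ 𝔪) :
    (hH S 𝔪 ⟨d, h𝔪⟩).add a b = fun i => aeval (Sum.elim a b) (lawPoly hH d i) := by
  have hab : ∀ k, Sum.elim a b k ∈ 𝔪 := by
    rintro (k | k)
    · exact ha k
    · exact hb k
  set φ := univEval (O := O) h𝔪 (Sum.elim a b) hab with hφ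
  have M := morph_chgS ip im ε (𝔪 := univIdeal O (Fin g ⊕ Fin g) d) (𝔪' := 𝔪) φ
    (fun s hs => univEval_mem h𝔪 _ hab hs)
  have key := M.add_map (hH _ _ (univIdeal_nil O _ d)) (hH S 𝔪 ⟨d, h𝔪⟩)
    (a := fun i => univX O _ d (Sum.inl i)) (b := fun i => univX O _ d (Sum.inr i))
    (fun i => univX_mem O _ d _) (fun i => univX_mem O _ d _)
  have e1 : (fun i => (φ : UnivRing O (Fin g ⊕ Fin g) d →+* S) (univX O _ d (Sum.inl i))) = a := by
    funext i
    change φ (univX O _ d (Sum.inl i)) = a i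
    rw [hφ, univEval_univX]; rfl
  have e2 : (fun i => (φ : UnivRing O (Fin g ⊕ Fin g) d →+* S) (univX O _ d (Sum.inr i))) = b := by
    funext i
    change φ (univX O _ d (Sum.inr i)) = b i
    rw [hφ, univEval_univX]; rfl
  rw [e1, e2] at key
  rw [key]
  funext i
  change φ (univSum hH d i) = _
  rw [← mk_lawPoly, hφ, univEval_mk]

end Law

/-! ### change of the family `ε` -/

section Change

variable {ip : Ap →ₐ[O] A0} {im : Am →ₐ[O] A0} {g : ℕ} {ε ε' : Fin g → A0}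

/-- the `ε'`-coordinates of the universal point `beta ε T` over `O[T]/(T)^d` -/
noncomputable def univChg (ε : Fin g → A0) (hH' : HypAll ip im ε') (d : ℕ) :
    Fin g → UnivRing O (Fin g) d :=
  (hH' (UnivRing O (Fin g) d) (univIdeal O _ d) (univIdeal_nil O _ d)).coord
    (beta (epsS (UnivRing O (Fin g) d) ε) (fun i => univX O (Fin g) d i))

theorem univChg_mem (ε : Fin g → A0) (hH' : HypAll ip im ε') (d : ℕ) (i : Fin g) :
    univChg ε hH' d i ∈ univIdeal O (Fin g) d :=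
  Hyp.coord_mem _ _ i

/-- **The change-of-coordinates polynomials** from `ε` to `ε'` (truncated at degree `d`). -/
noncomputable def chgPoly (ε : Fin g → A0) (hH' : HypAll ip im ε') (d : ℕ) (i : Fin g) :
    MvPolynomial (Fin g) O :=
  Classical.choose (exists_rep_of_mem_univIdeal O _ d (univChg_mem ε hH' d i))

theorem chgPoly_mem (ε : Fin g → A0) (hH' : HypAll ip im ε') (d : ℕ) (i : Fin g) :
    chgPoly ε hH' d i ∈ idealOfVars (Fin g) O :=
  (Classical.choose_spec (exists_rep_of_mem_univIdeal O _ d (univChg_mem ε hH' d i))).1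

theorem mk_chgPoly (ε : Fin g → A0) (hH' : HypAll ip im ε') (d : ℕ) (i : Fin g) :
    Ideal.Quotient.mk _ (chgPoly ε hH' d i) = univChg ε hH' d i :=
  (Classical.choose_spec (exists_rep_of_mem_univIdeal O _ d (univChg_mem ε hH' d i))).2

/-- the `ε'`-coordinates of `beta ε a` are `chgPoly(a)` -/
theorem HypAll.coord_beta_eq_aeval (hH' : HypAll ip im ε') (ε : Fin g → A0) (d : ℕ) (S : Type u)
    [CommRing S] [Algebra O S] {𝔪 : Ideal S} (h𝔪 : 𝔪 ^ d = ⊥) {a : Fin g → S}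
    (ha : ∀ i, a i ∈ 𝔪) :
    (hH' S 𝔪 ⟨d, h𝔪⟩).coord (beta (epsS S ε) a) = fun i => aeval a (chgPoly ε hH' d i) := by
  set φ := univEval (O := O) h𝔪 a ha with hφ
  have hmem : ∀ s ∈ univIdeal O (Fin g) d, φ s ∈ 𝔪 := fun s hs => univEval_mem h𝔪 _ ha hs
  have M := morph_chgS ip im ε (𝔪 := univIdeal O (Fin g) d) (𝔪' := 𝔪) φ hmem
  have M' := morph_chgS ip im ε' (𝔪 := univIdeal O (Fin g) d) (𝔪' := 𝔪) φ hmem
  have hb := M.map_beta (fun i => univX O (Fin g) d i)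
  have e1 : (fun i => (φ : UnivRing O (Fin g) d →+* S) (univX O (Fin g) d i)) = a := by
    funext i
    change φ (univX O _ d i) = a i
    rw [hφ, univEval_univX]
  rw [e1] at hb
  have key := M'.coord_map (hH' _ _ (univIdeal_nil O _ d)) (hH' S 𝔪 ⟨d, h𝔪⟩)
    (u := beta (epsS (UnivRing O (Fin g) d) ε) (fun i => univX O (Fin g) d i))
    (beta_sub_one_mem _ (fun i => univX_mem O _ d i))
  rw [hb] at key
  rw [key]
  funext i
  change φ (univChg ε hH' d i) = _
  rw [← mk_chgPoly, hφ, univEval_mk]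

/-- **Change of coordinates**: the `ε'`-coordinates of a unit `u ≡ 1` are the polynomials
`chgPoly` in its `ε`-coordinates. -/
theorem HypAll.coord_eq_aeval (hH : HypAll ip im ε) (hH' : HypAll ip im ε') (d : ℕ) (S : Type u)
    [CommRing S] [Algebra O S] {𝔪 : Ideal S} (h𝔪 : 𝔪 ^ d = ⊥) {u : S ⊗[O] A0}
    (hu : u - 1 ∈ ext (S ⊗[O] A0) 𝔪) :
    (hH' S 𝔪 ⟨d, h𝔪⟩).coord u
      = fun i => aeval ((hH S 𝔪 ⟨d, h𝔪⟩).coord u) (chgPoly ε hH' d i) := by
  have ha := (hH S 𝔪 ⟨d, h𝔪⟩).coord_mem u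
  rw [← hH'.coord_beta_eq_aeval ε d S h𝔪 ha]
  exact (hH' S 𝔪 ⟨d, h𝔪⟩).coord_congr (beta_sub_one_mem _ ha) ((hH S 𝔪 ⟨d, h𝔪⟩).coord_spec hu)

end Change

end Fermat.Agent.S19.Cech
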