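/-
S19 / Čech-units route, **Part 6: morphisms across base rings.**

The base-changed situations `S ⊗[O] A_?` of `BaseHyp.lean` are functorial not only in `S` (for a
fixed base ring `O`, `morph_chgS`) but in all the data: for a ring hom `θ : O → O'`, ring homs
`τ_? : A_? → A'_?` over `θ` commuting with the chart maps, and a ring hom `φ : S → S'` over `θ`,
the maps `chgMap θ φ τ_? : S ⊗[O] A_? → S' ⊗[O'] A'_?`, `s ⊗ a ↦ φ s ⊗ τ a`, form a `Morph`
(`morph_chg`).  Instances: `θ = id`; `θ` = an inclusion of levels `O_K ⊆ O_L` (also "universal ring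
over `O_K` → `O_L/ℓⁿ`"); `θ = σ` a Galois automorphism (semilinear transport).

Consequences: the universal polynomials `lawPoly`, `chgPoly` of `Universal.lean`, made over the base
`O`, compute the group law / the change of frame in EVERY situation over `O'` that receives such a
morphism (`add_eq_eval₂`, `coord_eq_eval₂`).
-/
import Fermat.Agent.S19.Cech.Universal

set_option autoImplicit false

universe u

namespace Fermat.Agent.S19.Cech

open TensorProduct MvPolynomial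

section ChgMap

variable {O O' : Type*} [CommRing O] [CommRing O'] (θ : O →+* O')
variable {S : Type*} [CommRing S] [Algebra O S] {S' : Type*} [CommRing S'] [Algebra O' S']
variable {A : Type*} [CommRing A] [Algebra O A] {A' : Type*} [CommRing A'] [Algebra O' A']

/-- `s ⊗ a ↦ φ s ⊗ τ a : S ⊗[O] A → S' ⊗[O'] A'` for ring homs `φ, τ` over `θ : O → O'`. -/
noncomputable def chgMap (φ : S →+* S')
    (hφ : ∀ o, φ (algebraMap O S o) = algebraMap O' S' (θ o)) (τ : A →+* A')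
    (hτ : ∀ o, τ (algebraMap O A o) = algebraMap O' A' (θ o)) : S ⊗[O] A →+* S' ⊗[O'] A' :=
  letI : Algebra O (S' ⊗[O'] A') := ((algebraMap O' (S' ⊗[O'] A')).comp θ).toAlgebra
  let f : S →ₐ[O] S' ⊗[O'] A' :=
    { toRingHom := (Algebra.TensorProduct.includeLeftRingHom : S' →+* S' ⊗[O'] A').comp φ
      commutes' := fun o => by
        change (φ (algebraMap O S o)) ⊗ₜ[O'] (1 : A') = algebraMap O' (S' ⊗[O'] A') (θ o)
        rw [hφ, Algebra.TensorProduct.algebraMap_apply] }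
  let g : A →ₐ[O] S' ⊗[O'] A' :=
    { toRingHom := (Algebra.TensorProduct.includeRight : A' →ₐ[O'] S' ⊗[O'] A').toRingHom.comp τ
      commutes' := fun o => by
        change (1 : S') ⊗ₜ[O'] (τ (algebraMap O A o)) = algebraMap O' (S' ⊗[O'] A') (θ o)
        rw [hτ, Algebra.TensorProduct.algebraMap_apply, Algebra.algebraMap_eq_smul_one,
          Algebra.algebraMap_eq_smul_one, TensorProduct.tmul_smul, TensorProduct.smul_tmul'] }
  (Algebra.TensorProduct.lift f g (fun _ _ => Commute.all _ _)).toRingHom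

@[simp] theorem chgMap_tmul (φ : S →+* S')
    (hφ : ∀ o, φ (algebraMap O S o) = algebraMap O' S' (θ o)) (τ : A →+* A')
    (hτ : ∀ o, τ (algebraMap O A o) = algebraMap O' A' (θ o)) (s : S) (a : A) :
    chgMap θ φ hφ τ hτ (s ⊗ₜ[O] a) = φ s ⊗ₜ[O'] τ a := by
  unfold chgMap
  simp only [AlgHom.toRingHom_eq_coe, RingHom.coe_coe, Algebra.TensorProduct.lift_tmul]
  change (φ s ⊗ₜ[O'] (1 : A')) * ((1 : S') ⊗ₜ[O'] τ a) = _
  rw [Algebra.TensorProduct.tmul_mul_tmul, mul_one, one_mul]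

end ChgMap

/-! ### the general morphism -/

section MorphChg

variable {O O' : Type*} [CommRing O] [CommRing O'] (θ : O →+* O')
variable {S : Type*} [CommRing S] [Algebra O S] {S' : Type*} [CommRing S'] [Algebra O' S']
variable {Ap Am A0 : Type*} [CommRing Ap] [CommRing Am] [CommRing A0]
  [Algebra O Ap] [Algebra O Am] [Algebra O A0]
variable {Ap' Am' A0' : Type*} [CommRing Ap'] [CommRing Am'] [CommRing A0']
  [Algebra O' Ap'] [Algebra O' Am'] [Algebra O' A0']

theorem chgMap_mapS {A B : Type*} [CommRing A] [CommRing B] [Algebra O A] [Algebra O B]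
    {A' B' : Type*} [CommRing A'] [CommRing B'] [Algebra O' A'] [Algebra O' B']
    (φ : S →+* S') (hφ : ∀ o, φ (algebraMap O S o) = algebraMap O' S' (θ o))
    (τA : A →+* A') (hτA : ∀ o, τA (algebraMap O A o) = algebraMap O' A' (θ o))
    (τB : B →+* B') (hτB : ∀ o, τB (algebraMap O B o) = algebraMap O' B' (θ o))
    (f : A →ₐ[O] B) (f' : A' →ₐ[O'] B') (hf : ∀ a, τB (f a) = f' (τA a)) (t : S ⊗[O] A) :
    chgMap θ φ hφ τB hτB (mapS S f t) = mapS S' f' (chgMap θ φ hφ τA hτA t) := by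
  induction t using TensorProduct.induction_on with
  | zero => simp
  | tmul s a => rw [mapS_tmul, chgMap_tmul, chgMap_tmul, mapS_tmul, hf]
  | add x y hx hy => rw [map_add, map_add, map_add, map_add, hx, hy]

theorem chgMap_algebraMap {A : Type*} [CommRing A] [Algebra O A] {A' : Type*} [CommRing A']
    [Algebra O' A'] (φ : S →+* S') (hφ : ∀ o, φ (algebraMap O S o) = algebraMap O' S' (θ o))
    (τ : A →+* A') (hτ : ∀ o, τ (algebraMap O A o) = algebraMap O' A' (θ o)) (s : S) :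
    chgMap θ φ hφ τ hτ (algebraMap S (S ⊗[O] A) s) = algebraMap S' (S' ⊗[O'] A') (φ s) := by
  rw [Algebra.TensorProduct.algebraMap_apply, Algebra.TensorProduct.algebraMap_apply]
  change chgMap θ φ hφ τ hτ (s ⊗ₜ[O] (1 : A)) = φ s ⊗ₜ[O'] (1 : A')
  rw [chgMap_tmul, map_one]

/-- **The general morphism of base-changed situations**, across a change `θ : O → O'` of the base
ring. -/
theorem morph_chg {ip : Ap →ₐ[O] A0} {im : Am →ₐ[O] A0} {g : ℕ} {ε : Fin g → A0}
    {ip' : Ap' →ₐ[O'] A0'} {im' : Am' →ₐ[O'] A0'} {ε' : Fin g → A0'}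
    (φ : S →+* S') (hφ : ∀ o, φ (algebraMap O S o) = algebraMap O' S' (θ o))
    (τp : Ap →+* Ap') (hτp : ∀ o, τp (algebraMap O Ap o) = algebraMap O' Ap' (θ o))
    (τm : Am →+* Am') (hτm : ∀ o, τm (algebraMap O Am o) = algebraMap O' Am' (θ o))
    (τ0 : A0 →+* A0') (hτ0 : ∀ o, τ0 (algebraMap O A0 o) = algebraMap O' A0' (θ o))
    (hip : ∀ x, τ0 (ip x) = ip' (τp x)) (him : ∀ y, τ0 (im y) = im' (τm y))
    (hε : ∀ i, τ0 (ε i) = ε' i) {𝔪 : Ideal S} {𝔪' : Ideal S'} (hmem : ∀ s ∈ 𝔪, φ s ∈ 𝔪') :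
    Morph 𝔪 (mapS S ip) (mapS S im) (epsS S ε) 𝔪' (mapS S' ip') (mapS S' im') (epsS S' ε') φ
      (chgMap θ φ hφ τp hτp) (chgMap θ φ hφ τm hτm) (chgMap θ φ hφ τ0 hτ0) where
  map_mem := hmem
  comm_p := fun x => chgMap_mapS θ φ hφ τp hτp τ0 hτ0 ip ip' hip x
  comm_m := fun y => chgMap_mapS θ φ hφ τm hτm τ0 hτ0 im im' him y
  alg_p := fun s => chgMap_algebraMap θ φ hφ τp hτp s
  alg_m := fun s => chgMap_algebraMap θ φ hφ τm hτm s
  alg_0 := fun s => chgMap_algebraMap θ φ hφ τ0 hτ0 s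
  eps := fun i => by
    unfold epsS
    rw [chgMap_tmul, map_one, hε]

end MorphChg

/-! ### evaluation of the universal ring along an arbitrary ring hom `O → S'` -/

section UnivEval₂

variable {O : Type u} [CommRing O] {σ : Type} {d : ℕ} {S' : Type*} [CommRing S']

theorem eval₂_mem_of_mem_idealOfVars (f : O →+* S') {𝔪 : Ideal S'} {a : σ → S'}
    (ha : ∀ k, a k ∈ 𝔪) {p : MvPolynomial σ O} (hp : p ∈ idealOfVars σ O) :
    eval₂ f a p ∈ 𝔪 := by
  have hle : idealOfVars σ O ≤ 𝔪.comap (eval₂Hom f a) := by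
    unfold idealOfVars
    rw [Ideal.span_le]
    rintro _ ⟨k, rfl⟩
    simp only [SetLike.mem_coe, Ideal.mem_comap, coe_eval₂Hom, eval₂_X]
    exact ha k
  exact hle hp

/-- the evaluation map `O[T]/(T)^d → S'`, `T ↦ a`, over a ring hom `f : O → S'` -/
noncomputable def univEval₂ (f : O →+* S') {𝔪 : Ideal S'} (h𝔪 : 𝔪 ^ d = ⊥) (a : σ → S')
    (ha : ∀ k, a k ∈ 𝔪) : UnivRing O σ d →+* S' :=
  Ideal.Quotient.lift _ (eval₂Hom f a) (by
    intro p hp
    have hle : (idealOfVars σ O) ^ d ≤ (𝔪 ^ d).comap (eval₂Hom f a) := by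
      have h1 : idealOfVars σ O ≤ 𝔪.comap (eval₂Hom f a) :=
        fun p hp => eval₂_mem_of_mem_idealOfVars f ha hp
      calc (idealOfVars σ O) ^ d ≤ (𝔪.comap (eval₂Hom f a)) ^ d := Ideal.pow_right_mono h1 d
        _ ≤ (𝔪 ^ d).comap (eval₂Hom f a) := Ideal.le_comap_pow _ d
    have := hle hp
    rw [h𝔪] at this
    simpa using this)

theorem univEval₂_mk (f : O →+* S') {𝔪 : Ideal S'} (h𝔪 : 𝔪 ^ d = ⊥) (a : σ → S')
    (ha : ∀ k, a k ∈ 𝔪) (p : MvPolynomial σ O) :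
    univEval₂ f h𝔪 a ha (Ideal.Quotient.mk _ p) = eval₂ f a p := by
  unfold univEval₂
  rw [Ideal.Quotient.lift_mk]
  rfl

theorem univEval₂_univX (f : O →+* S') {𝔪 : Ideal S'} (h𝔪 : 𝔪 ^ d = ⊥) (a : σ → S')
    (ha : ∀ k, a k ∈ 𝔪) (k : σ) : univEval₂ f h𝔪 a ha (univX O σ d k) = a k := by
  unfold univX
  rw [univEval₂_mk, eval₂_X]

theorem univEval₂_algebraMap (f : O →+* S') {𝔪 : Ideal S'} (h𝔪 : 𝔪 ^ d = ⊥) (a : σ → S')
    (ha : ∀ k, a k ∈ 𝔪) (o : O) :
    univEval₂ f h𝔪 a ha (algebraMap O (UnivRing O σ d) o) = f o := by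
  have : algebraMap O (UnivRing O σ d) o = Ideal.Quotient.mk _ (C o) := rfl
  rw [this, univEval₂_mk, eval₂_C]

theorem univEval₂_mem (f : O →+* S') {𝔪 : Ideal S'} (h𝔪 : 𝔪 ^ d = ⊥) (a : σ → S')
    (ha : ∀ k, a k ∈ 𝔪) {x : UnivRing O σ d} (hx : x ∈ univIdeal O σ d) :
    univEval₂ f h𝔪 a ha x ∈ 𝔪 := by
  obtain ⟨p, hp, rfl⟩ := exists_rep_of_mem_univIdeal O σ d hx
  rw [univEval₂_mk]
  exact eval₂_mem_of_mem_idealOfVars f ha hp

end UnivEval₂

/-! ### the universal polynomials across base rings -/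

section Across

variable {O : Type u} [CommRing O] {O' : Type*} [CommRing O'] (θ : O →+* O')
variable {S' : Type*} [CommRing S'] [Algebra O' S']
variable {Ap Am A0 : Type*} [CommRing Ap] [CommRing Am] [CommRing A0]
  [Algebra O Ap] [Algebra O Am] [Algebra O A0]
variable {Ap' Am' A0' : Type*} [CommRing Ap'] [CommRing Am'] [CommRing A0']
  [Algebra O' Ap'] [Algebra O' Am'] [Algebra O' A0']
variable {ip : Ap →ₐ[O] A0} {im : Am →ₐ[O] A0} {g : ℕ} {ε : Fin g → A0}
variable {ip' : Ap' →ₐ[O'] A0'} {im' : Am' →ₐ[O'] A0'} {ε' : Fin g → A0'}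

/-- **The group law at every level is given by the polynomials made at the base level**: if the
situation `(O', ip', im', ε')` receives a morphism `(θ, τ_?)` from the base situation `(O, ip, im, ε)`,
then for every `O'`-algebra `S'` with an ideal `𝔪'`, `𝔪'^d = 0`:
`a ⊞ b = lawPoly(a, b)`, the coefficients being mapped along `O → O' → S'`. -/
theorem add_eq_eval₂ (hH : HypAll ip im ε)
    (τp : Ap →+* Ap') (hτp : ∀ o, τp (algebraMap O Ap o) = algebraMap O' Ap' (θ o))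
    (τm : Am →+* Am') (hτm : ∀ o, τm (algebraMap O Am o) = algebraMap O' Am' (θ o))
    (τ0 : A0 →+* A0') (hτ0 : ∀ o, τ0 (algebraMap O A0 o) = algebraMap O' A0' (θ o))
    (hip : ∀ x, τ0 (ip x) = ip' (τp x)) (him : ∀ y, τ0 (im y) = im' (τm y))
    (hε : ∀ i, τ0 (ε i) = ε' i) {𝔪' : Ideal S'} {d : ℕ} (h𝔪 : 𝔪' ^ d = ⊥)
    (H' : Hyp 𝔪' (mapS S' ip') (mapS S' im') (epsS S' ε')) {a b : Fin g → S'}
    (ha : ∀ i, a i ∈ 𝔪') (hb : ∀ i, b i ∈ 𝔪') :
    H'.add a b
      = fun i => eval₂ ((algebraMap O' S').comp θ) (Sum.elim a b) (lawPoly hH d i) := by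
  have hab : ∀ k, Sum.elim a b k ∈ 𝔪' := by
    rintro (k | k)
    · exact ha k
    · exact hb k
  set f : O →+* S' := (algebraMap O' S').comp θ with hf
  set φ := univEval₂ (σ := Fin g ⊕ Fin g) f h𝔪 (Sum.elim a b) hab with hφ
  have hφalg : ∀ o, φ (algebraMap O (UnivRing O (Fin g ⊕ Fin g) d) o) = algebraMap O' S' (θ o) :=
    fun o => univEval₂_algebraMap f h𝔪 _ hab o
  have M := morph_chg θ (ip := ip) (im := im) (ε := ε) (ip' := ip') (im' := im') (ε' := ε')
    φ hφalg τp hτp τm hτm τ0 hτ0 hip him hε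
    (𝔪 := univIdeal O (Fin g ⊕ Fin g) d) (𝔪' := 𝔪') (fun s hs => univEval₂_mem f h𝔪 _ hab hs)
  have key := M.add_map (hH _ _ (univIdeal_nil O _ d)) H'
    (a := fun i => univX O _ d (Sum.inl i)) (b := fun i => univX O _ d (Sum.inr i))
    (fun i => univX_mem O _ d _) (fun i => univX_mem O _ d _)
  have e1 : (fun i => φ (univX O _ d (Sum.inl i))) = a := by
    funext i
    rw [hφ, univEval₂_univX]; rfl
  have e2 : (fun i => φ (univX O _ d (Sum.inr i))) = b := by
    funext i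
    rw [hφ, univEval₂_univX]; rfl
  rw [e1, e2] at key
  rw [key]
  funext i
  change φ (univSum hH d i) = _
  rw [← mk_lawPoly, hφ, univEval₂_mk]

/-- **Change of frame at every level by the polynomials made at the base level.** -/
theorem coord_eq_eval₂ {ε₂ : Fin g → A0} {ε₂' : Fin g → A0'} (hH₂ : HypAll ip im ε₂)
    (τp : Ap →+* Ap') (hτp : ∀ o, τp (algebraMap O Ap o) = algebraMap O' Ap' (θ o))
    (τm : Am →+* Am') (hτm : ∀ o, τm (algebraMap O Am o) = algebraMap O' Am' (θ o))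
    (τ0 : A0 →+* A0') (hτ0 : ∀ o, τ0 (algebraMap O A0 o) = algebraMap O' A0' (θ o))
    (hip : ∀ x, τ0 (ip x) = ip' (τp x)) (him : ∀ y, τ0 (im y) = im' (τm y))
    (hε : ∀ i, τ0 (ε i) = ε' i) (hε₂ : ∀ i, τ0 (ε₂ i) = ε₂' i) {𝔪' : Ideal S'} {d : ℕ}
    (h𝔪 : 𝔪' ^ d = ⊥) (H' : Hyp 𝔪' (mapS S' ip') (mapS S' im') (epsS S' ε'))
    (H₂' : Hyp 𝔪' (mapS S' ip') (mapS S' im') (epsS S' ε₂')) {u : S' ⊗[O'] A0'}
    (hu : u - 1 ∈ ext (S' ⊗[O'] A0') 𝔪') :
    H₂'.coord u
      = fun i => eval₂ ((algebraMap O' S').comp θ) (H'.coord u) (chgPoly ε hH₂ d i) := by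
  set a := H'.coord u with ha_def
  have ha : ∀ i, a i ∈ 𝔪' := H'.coord_mem u
  set f : O →+* S' := (algebraMap O' S').comp θ with hf
  set φ := univEval₂ (σ := Fin g) f h𝔪 a ha with hφ
  have hφalg : ∀ o, φ (algebraMap O (UnivRing O (Fin g) d) o) = algebraMap O' S' (θ o) :=
    fun o => univEval₂_algebraMap f h𝔪 _ ha o
  have hmem : ∀ s ∈ univIdeal O (Fin g) d, φ s ∈ 𝔪' := fun s hs => univEval₂_mem f h𝔪 _ ha hs
  have M := morph_chg θ (ip := ip) (im := im) (ε := ε) (ip' := ip') (im' := im') (ε' := ε')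
    φ hφalg τp hτp τm hτm τ0 hτ0 hip him hε (𝔪 := univIdeal O (Fin g) d) (𝔪' := 𝔪') hmem
  have M₂ := morph_chg θ (ip := ip) (im := im) (ε := ε₂) (ip' := ip') (im' := im') (ε' := ε₂')
    φ hφalg τp hτp τm hτm τ0 hτ0 hip him hε₂ (𝔪 := univIdeal O (Fin g) d) (𝔪' := 𝔪') hmem
  have hb := M.map_beta (fun i => univX O (Fin g) d i)
  have e1 : (fun i => φ (univX O (Fin g) d i)) = a := by
    funext i
    rw [hφ, univEval₂_univX]
  rw [e1] at hb
  have key := M₂.coord_map (hH₂ _ _ (univIdeal_nil O _ d)) H₂'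
    (u := beta (epsS (UnivRing O (Fin g) d) ε) (fun i => univX O (Fin g) d i))
    (beta_sub_one_mem _ (fun i => univX_mem O _ d i))
  rw [hb] at key
  have hcongr : H₂'.coord u = H₂'.coord (beta (epsS S' ε') a) :=
    H₂'.coord_congr (beta_sub_one_mem _ ha) (H'.coord_spec hu)
  rw [hcongr, key]
  funext i
  change φ (univChg ε hH₂ d i) = _
  rw [← mk_chgPoly, hφ, univEval₂_mk]

end Across

end Fermat.Agent.S19.Cech
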