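/-
S19, Čech route: **flat base change of the two-chart Čech sequence** (the exactness consumed by the
deformation block Č1).

Setting of `Fermat/Agent/N4/FormalFunctions.lean` / `S19/Cech/TorsionFree.lean`: `O`-algebras `Ap`, `Am`,
`A0`, `O`-algebra maps `ip : Ap → A0`, `im : Am → A0`.  Assume

* (h0) `ip x = im y → x, y` are one constant `a : O`  (`cech_h0`);
* (hb) the classes of `ε i : A0` are a basis of `H¹ = A0 ⧸ chartSum ip im` (`TorsionFree.exists_basis_lift`).

Then for EVERY `O`-module `T` (e.g. an `O`-algebra `S`, or an ideal of `S`) the sequence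
`T → T ⊗ Ap × T ⊗ Am → T ⊗ A0 → T^g → 0` is exact in the element-wise form

* `exists_decomp_tensor` : every `z : T ⊗ A0` is `(T ⊗ ip) x - (T ⊗ im) y + ∑ t i ⊗ₜ ε i`;
* `eq_const_of_decomp_tensor_eq_zero` : if `(T ⊗ ip) x - (T ⊗ im) y + ∑ t i ⊗ₜ ε i = 0` then all `t i = 0`
  and `x = s ⊗ₜ 1`, `y = s ⊗ₜ 1` for one `s : T`.

No flatness of the charts is needed for this (only freeness of `H¹`); flatness of the charts is needed
by the consumer only to embed `I ⊗ A` into `S ⊗ A`.
-/
import Mathlib
import Fermat.Agent.S19.Cech.TorsionFree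

set_option autoImplicit false

namespace Fermat.Agent.S19.Cech.BaseChange

open TensorProduct Fermat.Agent.N4.FormalFunctions

variable {O : Type*} [CommRing O]
variable {Ap Am A0 : Type*} [CommRing Ap] [CommRing Am] [CommRing A0]
  [Algebra O Ap] [Algebra O Am] [Algebra O A0]
variable (ip : Ap →ₐ[O] A0) (im : Am →ₐ[O] A0)

/-- The Čech differential `(x, y) ↦ ip x - im y`. -/
def cechD : (Ap × Am) →ₗ[O] A0 := ip.toLinearMap.coprod (-im.toLinearMap)

@[simp] lemma cechD_apply (w : Ap × Am) : cechD ip im w = ip w.1 - im w.2 := by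
  simp [cechD, sub_eq_add_neg]

/-- The constants `a ↦ (a, a)`. -/
def cechConst : O →ₗ[O] (Ap × Am) := (Algebra.linearMap O Ap).prod (Algebra.linearMap O Am)

@[simp] lemma cechConst_apply (a : O) :
    (cechConst : O →ₗ[O] (Ap × Am)) a = (algebraMap O Ap a, algebraMap O Am a) := rfl

lemma range_cechD : LinearMap.range (cechD ip im) = chartSum ip im := by
  ext z
  rw [mem_chartSum_iff, LinearMap.mem_range]
  constructor
  · rintro ⟨w, rfl⟩
    exact ⟨w.1, w.2, cechD_apply ip im w⟩
  · rintro ⟨u, w, rfl⟩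
    exact ⟨(u, w), cechD_apply ip im (u, w)⟩

variable {ip im}

/-- Exactness of `O → Ap × Am → range d`. -/
lemma exact_const_rangeRestrict
    (h0 : ∀ x y, ip x = im y → ∃ a : O, x = algebraMap O Ap a ∧ y = algebraMap O Am a) :
    Function.Exact (cechConst : O →ₗ[O] (Ap × Am)) (cechD ip im).rangeRestrict := by
  intro w
  constructor
  · intro hw
    have h1 : cechD ip im w = 0 := by
      have := congrArg Subtype.val hw
      simpa only [LinearMap.codRestrict_apply, ZeroMemClass.coe_zero] using this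
    rw [cechD_apply, sub_eq_zero] at h1
    obtain ⟨a, ha1, ha2⟩ := h0 _ _ h1
    exact ⟨a, by rw [cechConst_apply]; exact Prod.ext ha1.symm ha2.symm⟩
  · rintro ⟨a, rfl⟩
    apply Subtype.ext
    rw [LinearMap.codRestrict_apply, cechD_apply, cechConst_apply]
    simp

section Tensor

variable (T : Type*) [AddCommGroup T] [Module O T]
variable {g : ℕ} (ε : Fin g → A0) (b : Module.Basis (Fin g) O (A0 ⧸ chartSum ip im))
  (hb : ∀ i, b i = Submodule.Quotient.mk (ε i))

include hb in
/-- Surjectivity part: every element of `T ⊗ A0` is `(T ⊗ ip) x - (T ⊗ im) y + ∑ t i ⊗ₜ ε i`. -/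
theorem exists_decomp_tensor (z : T ⊗[O] A0) :
    ∃ (x : T ⊗[O] Ap) (y : T ⊗[O] Am) (t : Fin g → T),
      z = ip.toLinearMap.lTensor T x - im.toLinearMap.lTensor T y + ∑ i, t i ⊗ₜ[O] ε i := by
  induction z using TensorProduct.induction_on with
  | zero => exact ⟨0, 0, 0, by simp⟩
  | tmul s a =>
    obtain ⟨x, y, c, hc⟩ := TorsionFree.exists_decomp ε b hb a
    refine ⟨s ⊗ₜ x, s ⊗ₜ y, fun i => c i • s, ?_⟩
    rw [hc, TensorProduct.tmul_add, TensorProduct.tmul_sub, TensorProduct.tmul_sum]
    simp only [LinearMap.lTensor_tmul, AlgHom.toLinearMap_apply, TensorProduct.tmul_smul,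
      TensorProduct.smul_tmul']
  | add z₁ z₂ h₁ h₂ =>
    obtain ⟨x₁, y₁, t₁, e₁⟩ := h₁
    obtain ⟨x₂, y₂, t₂, e₂⟩ := h₂
    refine ⟨x₁ + x₂, y₁ + y₂, t₁ + t₂, ?_⟩
    rw [e₁, e₂, map_add, map_add]
    simp only [Pi.add_apply, TensorProduct.add_tmul, Finset.sum_add_distrib]
    abel

/-- The `i`-th coefficient functional `A0 → O` (zero on `A₊ + A₋`, dual to the `ε j`). -/
noncomputable def coeffFun (i : Fin g) : A0 →ₗ[O] O := (b.coord i).comp (chartSum ip im).mkQ

include hb in
lemma coeffFun_eps (i j : Fin g) : coeffFun b i (ε j) = if j = i then 1 else 0 := by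
  rw [coeffFun, LinearMap.comp_apply, Submodule.mkQ_apply, ← hb, Module.Basis.coord_apply,
    Module.Basis.repr_self, Finsupp.single_apply]

lemma coeffFun_comp_ip (i : Fin g) : (coeffFun b i).comp ip.toLinearMap = 0 := by
  ext x
  rw [LinearMap.comp_apply, coeffFun, LinearMap.comp_apply, Submodule.mkQ_apply,
    (Submodule.Quotient.mk_eq_zero _).2, map_zero, LinearMap.zero_apply]
  exact (mem_chartSum_iff ip im _).2 ⟨x, 0, by simp⟩

lemma coeffFun_comp_im (i : Fin g) : (coeffFun b i).comp im.toLinearMap = 0 := by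
  ext y
  rw [LinearMap.comp_apply, coeffFun, LinearMap.comp_apply, Submodule.mkQ_apply,
    (Submodule.Quotient.mk_eq_zero _).2, map_zero, LinearMap.zero_apply]
  exact (mem_chartSum_iff ip im _).2 ⟨0, -y, by simp⟩

include hb in
/-- Uniqueness of the coefficients after base change. -/
theorem coeff_eq_zero_of_decomp_tensor_eq_zero (x : T ⊗[O] Ap) (y : T ⊗[O] Am) (t : Fin g → T)
    (h : ip.toLinearMap.lTensor T x - im.toLinearMap.lTensor T y + ∑ i, t i ⊗ₜ[O] ε i = 0) :
    ∀ i, t i = 0 := by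
  intro i
  have h1 := congrArg (fun z => TensorProduct.rid O T ((coeffFun b i).lTensor T z)) h
  simp only [map_add, map_sub, map_sum, map_zero] at h1
  have e1 : (coeffFun b i).lTensor T (ip.toLinearMap.lTensor T x) = 0 := by
    rw [← LinearMap.comp_apply, ← LinearMap.lTensor_comp, coeffFun_comp_ip, LinearMap.lTensor_zero,
      LinearMap.zero_apply]
  have e2 : (coeffFun b i).lTensor T (im.toLinearMap.lTensor T y) = 0 := by
    rw [← LinearMap.comp_apply, ← LinearMap.lTensor_comp, coeffFun_comp_im, LinearMap.lTensor_zero,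
      LinearMap.zero_apply]
  rw [e1, e2, map_zero, sub_zero, zero_add] at h1
  simp only [LinearMap.lTensor_tmul, TensorProduct.rid_tmul, coeffFun_eps ε b hb] at h1
  simpa using h1

include hb in
/-- **Flat base change of `H⁰` and `H¹`.**  If `(T ⊗ ip) x - (T ⊗ im) y + ∑ t i ⊗ₜ ε i = 0` then
all `t i` vanish and `x`, `y` are one constant `s : T`. -/
theorem eq_const_of_decomp_tensor_eq_zero
    (h0 : ∀ x y, ip x = im y → ∃ a : O, x = algebraMap O Ap a ∧ y = algebraMap O Am a)
    (x : T ⊗[O] Ap) (y : T ⊗[O] Am) (t : Fin g → T)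
    (h : ip.toLinearMap.lTensor T x - im.toLinearMap.lTensor T y + ∑ i, t i ⊗ₜ[O] ε i = 0) :
    (∀ i, t i = 0) ∧ ∃ s : T, x = s ⊗ₜ[O] (1 : Ap) ∧ y = s ⊗ₜ[O] (1 : Am) := by
  have ht := coeff_eq_zero_of_decomp_tensor_eq_zero T ε b hb x y t h
  refine ⟨ht, ?_⟩
  have h' : ip.toLinearMap.lTensor T x - im.toLinearMap.lTensor T y = 0 := by
    have : ∑ i, t i ⊗ₜ[O] ε i = 0 :=
      Finset.sum_eq_zero fun i _ => by rw [ht i, TensorProduct.zero_tmul]
    rwa [this, add_zero] at h
  -- the element `w = (x, y)` of `T ⊗ (Ap × Am)`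
  set w : T ⊗[O] (Ap × Am) :=
    (LinearMap.inl O Ap Am).lTensor T x + (LinearMap.inr O Ap Am).lTensor T y with hw
  have hdw : (cechD ip im).lTensor T w = 0 := by
    rw [hw, map_add, ← LinearMap.comp_apply, ← LinearMap.comp_apply, ← LinearMap.lTensor_comp,
      ← LinearMap.lTensor_comp]
    have e1 : (cechD ip im).comp (LinearMap.inl O Ap Am) = ip.toLinearMap := by
      ext u; simp
    have e2 : (cechD ip im).comp (LinearMap.inr O Ap Am) = -im.toLinearMap := by
      ext u; simp
    rw [e1, e2, LinearMap.lTensor_neg, LinearMap.neg_apply, ← sub_eq_add_neg]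
    exact h'
  -- `T ⊗ Z → T ⊗ A0` is injective since `A0 ⧸ Z` is free
  have hfree : Module.Free O (A0 ⧸ chartSum ip im) := Module.Free.of_basis b
  have hZ : LinearMap.range (cechD ip im) = chartSum ip im := range_cechD ip im
  have hinj : Function.Injective ((LinearMap.range (cechD ip im)).subtype.lTensor T) := by
    have hflat : Module.Flat O (A0 ⧸ LinearMap.range (cechD ip im)) := by
      rw [hZ]; infer_instance
    exact LinearMap.lTensor_injective_of_exact_of_flat
      (LinearMap.range (cechD ip im)).mkQ (Submodule.mkQ_surjective _)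
      (LinearMap.range (cechD ip im)).subtype (Submodule.injective_subtype _)
      (LinearMap.exact_subtype_mkQ _) T
  have hdw' : (cechD ip im).rangeRestrict.lTensor T w = 0 := by
    apply hinj
    rw [map_zero, ← LinearMap.comp_apply, ← LinearMap.lTensor_comp, LinearMap.subtype_comp_codRestrict]
    exact hdw
  -- right exactness
  have hex := lTensor_exact T (exact_const_rangeRestrict h0)
    (LinearMap.surjective_rangeRestrict (cechD ip im))
  obtain ⟨w', hw'⟩ := (hex w).1 hdw'
  refine ⟨TensorProduct.rid O T w', ?_, ?_⟩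
  · have hx : x = (LinearMap.fst O Ap Am).lTensor T w := by
      rw [hw, map_add, ← LinearMap.comp_apply, ← LinearMap.comp_apply, ← LinearMap.lTensor_comp,
        ← LinearMap.lTensor_comp, LinearMap.fst_comp_inl, LinearMap.fst_comp_inr,
        LinearMap.lTensor_id, LinearMap.lTensor_zero, LinearMap.id_apply, LinearMap.zero_apply,
        add_zero]
    rw [hx, ← hw', ← LinearMap.comp_apply, ← LinearMap.lTensor_comp]
    have e : (LinearMap.fst O Ap Am).comp (cechConst : O →ₗ[O] (Ap × Am)) = Algebra.linearMap O Ap := by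
      ext; simp [cechConst]
    rw [e]
    conv_lhs => rw [← (TensorProduct.rid O T).symm_apply_apply w']
    rw [TensorProduct.rid_symm_apply, LinearMap.lTensor_tmul, Algebra.linearMap_apply, map_one]
  · have hy : y = (LinearMap.snd O Ap Am).lTensor T w := by
      rw [hw, map_add, ← LinearMap.comp_apply, ← LinearMap.comp_apply, ← LinearMap.lTensor_comp,
        ← LinearMap.lTensor_comp, LinearMap.snd_comp_inl, LinearMap.snd_comp_inr,
        LinearMap.lTensor_id, LinearMap.lTensor_zero, LinearMap.id_apply, LinearMap.zero_apply,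
        zero_add]
    rw [hy, ← hw', ← LinearMap.comp_apply, ← LinearMap.lTensor_comp]
    have e : (LinearMap.snd O Ap Am).comp (cechConst : O →ₗ[O] (Ap × Am)) = Algebra.linearMap O Am := by
      ext; simp [cechConst]
    rw [e]
    conv_lhs => rw [← (TensorProduct.rid O T).symm_apply_apply w']
    rw [TensorProduct.rid_symm_apply, LinearMap.lTensor_tmul, Algebra.linearMap_apply, map_one]

end Tensor

section Algebra

variable (S : Type*) [CommRing S] [Algebra O S]
variable {g : ℕ} (ε : Fin g → A0) (b : Module.Basis (Fin g) O (A0 ⧸ chartSum ip im))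
  (hb : ∀ i, b i = Submodule.Quotient.mk (ε i))

/-- Base change of a chart map to an `O`-algebra `S`, as an `S`-algebra map. -/
noncomputable abbrev baseMap {A B : Type*} [CommRing A] [CommRing B] [Algebra O A] [Algebra O B]
    (f : A →ₐ[O] B) : S ⊗[O] A →ₐ[S] S ⊗[O] B :=
  Algebra.TensorProduct.map (AlgHom.id S S) f

lemma baseMap_eq_lTensor {A B : Type*} [CommRing A] [CommRing B] [Algebra O A] [Algebra O B]
    (f : A →ₐ[O] B) (z : S ⊗[O] A) : baseMap S f z = f.toLinearMap.lTensor S z := by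
  induction z using TensorProduct.induction_on with
  | zero => simp
  | tmul s a => simp
  | add z₁ z₂ h₁ h₂ => rw [map_add, map_add, h₁, h₂]

/-- `I (S ⊗ A)`: the ideal of `S ⊗ A` generated by an ideal `I` of `S`. -/
noncomputable abbrev idealExt (I : Ideal S) (A : Type*) [CommRing A] [Algebra O A] :
    Ideal (S ⊗[O] A) :=
  I.map (Algebra.TensorProduct.includeLeft : S →ₐ[O] S ⊗[O] A)

lemma mem_idealExt_iff (I : Ideal S) (A : Type*) [CommRing A] [Algebra O A] (z : S ⊗[O] A) :
    z ∈ idealExt S I A ↔ ∃ z' : (I.restrictScalars O) ⊗[O] A,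
      (I.restrictScalars O).subtype.rTensor A z' = z := by
  have h := Ideal.map_includeLeft_eq (R := O) (A := S) (B := A) I
  have h2 : z ∈ (I.map (Algebra.TensorProduct.includeLeft : S →ₐ[O] S ⊗[O] A)).restrictScalars O ↔
      z ∈ LinearMap.range (LinearMap.rTensor A (Submodule.subtype (I.restrictScalars O))) := by
    rw [h]
  exact h2

include hb in
/-- Base-changed decomposition over an `O`-algebra `S`. -/
theorem exists_decomp_base (z : S ⊗[O] A0) :
    ∃ (x : S ⊗[O] Ap) (y : S ⊗[O] Am) (s : Fin g → S),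
      z = baseMap S ip x - baseMap S im y + ∑ i, s i ⊗ₜ[O] ε i := by
  obtain ⟨x, y, s, h⟩ := exists_decomp_tensor S ε b hb z
  exact ⟨x, y, s, by rw [baseMap_eq_lTensor, baseMap_eq_lTensor]; exact h⟩

include hb in
/-- Base-changed `H⁰ = S` and freeness of `H¹` over an `O`-algebra `S`. -/
theorem eq_const_of_decomp_base_eq_zero
    (h0 : ∀ x y, ip x = im y → ∃ a : O, x = algebraMap O Ap a ∧ y = algebraMap O Am a)
    (x : S ⊗[O] Ap) (y : S ⊗[O] Am) (s : Fin g → S)
    (h : baseMap S ip x - baseMap S im y + ∑ i, s i ⊗ₜ[O] ε i = 0) :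
    (∀ i, s i = 0) ∧ ∃ c : S, x = algebraMap S (S ⊗[O] Ap) c ∧ y = algebraMap S (S ⊗[O] Am) c := by
  rw [baseMap_eq_lTensor, baseMap_eq_lTensor] at h
  obtain ⟨hs, c, hx, hy⟩ := eq_const_of_decomp_tensor_eq_zero S ε b hb h0 x y s h
  refine ⟨hs, c, ?_, ?_⟩
  · rw [hx, Algebra.TensorProduct.algebraMap_apply, Algebra.algebraMap_self_apply]
  · rw [hy, Algebra.TensorProduct.algebraMap_apply, Algebra.algebraMap_self_apply]

include hb in
/-- The decomposition for elements of `I (S ⊗ A0)`: all the pieces can be taken in `I`. -/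
theorem exists_decomp_ideal (I : Ideal S) (z : S ⊗[O] A0) (hz : z ∈ idealExt S I A0) :
    ∃ x ∈ idealExt S I Ap, ∃ y ∈ idealExt S I Am, ∃ s : Fin g → S, (∀ i, s i ∈ I) ∧
      z = baseMap S ip x - baseMap S im y + ∑ i, s i ⊗ₜ[O] ε i := by
  obtain ⟨z', rfl⟩ := (mem_idealExt_iff S I A0 z).1 hz
  obtain ⟨x', y', t, h⟩ := exists_decomp_tensor (I.restrictScalars O) ε b hb z'
  refine ⟨(I.restrictScalars O).subtype.rTensor Ap x', (mem_idealExt_iff S I Ap _).2 ⟨x', rfl⟩,
    (I.restrictScalars O).subtype.rTensor Am y', (mem_idealExt_iff S I Am _).2 ⟨y', rfl⟩,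
    fun i => (t i : S), fun i => (t i).2, ?_⟩
  rw [h, baseMap_eq_lTensor, baseMap_eq_lTensor, map_add, map_sub, map_sum]
  simp only [← LinearMap.comp_apply, LinearMap.rTensor_comp_lTensor, LinearMap.lTensor_comp_rTensor]
  simp only [LinearMap.rTensor_tmul, Submodule.subtype_apply]

include hb in
/-- Uniqueness for elements of `I (S ⊗ -)` (uses flatness of `A0`): the common constant lies in `I`. -/
theorem eq_const_of_decomp_ideal_eq_zero [Module.Flat O A0]
    (h0 : ∀ x y, ip x = im y → ∃ a : O, x = algebraMap O Ap a ∧ y = algebraMap O Am a)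
    (I : Ideal S) (x : S ⊗[O] Ap) (hx : x ∈ idealExt S I Ap) (y : S ⊗[O] Am)
    (hy : y ∈ idealExt S I Am) (s : Fin g → S) (hs : ∀ i, s i ∈ I)
    (h : baseMap S ip x - baseMap S im y + ∑ i, s i ⊗ₜ[O] ε i = 0) :
    (∀ i, s i = 0) ∧
      ∃ c ∈ I, x = algebraMap S (S ⊗[O] Ap) c ∧ y = algebraMap S (S ⊗[O] Am) c := by
  obtain ⟨x', rfl⟩ := (mem_idealExt_iff S I Ap x).1 hx
  obtain ⟨y', rfl⟩ := (mem_idealExt_iff S I Am y).1 hy
  set t : Fin g → (I.restrictScalars O) := fun i => ⟨s i, hs i⟩ with ht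
  have hinj : Function.Injective ((I.restrictScalars O).subtype.rTensor A0) :=
    Module.Flat.rTensor_preserves_injective_linearMap _ (Submodule.injective_subtype _)
  have h' : ip.toLinearMap.lTensor (I.restrictScalars O) x'
      - im.toLinearMap.lTensor (I.restrictScalars O) y' + ∑ i, t i ⊗ₜ[O] ε i = 0 := by
    apply hinj
    rw [map_zero, ← h, baseMap_eq_lTensor, baseMap_eq_lTensor, map_add, map_sub, map_sum]
    simp only [← LinearMap.comp_apply, LinearMap.rTensor_comp_lTensor,
      LinearMap.lTensor_comp_rTensor]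
    simp only [LinearMap.rTensor_tmul, Submodule.subtype_apply, ht]
  obtain ⟨h1, c, hcx, hcy⟩ :=
    eq_const_of_decomp_tensor_eq_zero (I.restrictScalars O) ε b hb h0 x' y' t h'
  refine ⟨fun i => ?_, (c : S), c.2, ?_, ?_⟩
  · have := congrArg Subtype.val (h1 i)
    simpa [ht] using this
  · rw [hcx, LinearMap.rTensor_tmul, Submodule.subtype_apply,
      Algebra.TensorProduct.algebraMap_apply, Algebra.algebraMap_self_apply]
  · rw [hcy, LinearMap.rTensor_tmul, Submodule.subtype_apply,
      Algebra.TensorProduct.algebraMap_apply, Algebra.algebraMap_self_apply]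

end Algebra

end Fermat.Agent.S19.Cech.BaseChange
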