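/-
S19, Čech route: **the hypotheses `Hyp` of the deformation block (`S19/Cech/Deform.lean`) hold for the
base change of a two-chart model to an arbitrary `O`-algebra `S` with a nilpotent ideal `𝔪`.**

`O`-level input (all available for the modular charts, see `S19/Cech/TorsionFree.lean`):
* (h0) `ip x = im y → x, y` are one constant of `O`;
* (hb) the classes of `ε i : A0` are an `O`-basis of `H¹ = A0 ⧸ chartSum ip im`;
* (hpure) `O → A0` is pure: injective with flat cokernel (`pure_of_dvr`: over a DVR it is enough that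
  `A0` is `π`-torsion-free and `π` is not a unit of `A0`).

Output: `hyp_baseChange : Hyp 𝔪 (baseMap S ip) (baseMap S im) (fun i => 1 ⊗ₜ ε i)` on `S ⊗[O] A_?`.
-/
import Mathlib
import Fermat.Agent.S19.Cech.BaseChange
import Fermat.Agent.S19.Cech.Deform

set_option autoImplicit false

namespace Fermat.Agent.S19.Cech.HypBaseChange

open TensorProduct Fermat.Agent.N4.FormalFunctions Fermat.Agent.S19.Cech
  Fermat.Agent.S19.Cech.BaseChange

variable {O : Type*} [CommRing O]

section Quot

variable (S : Type*) [CommRing S] [Algebra O S]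
variable (A : Type*) [CommRing A] [Algebra O A]

/-- The quotient map `S → S ⧸ 𝔞` as an `O`-linear map. -/
noncomputable abbrev quotMap (𝔞 : Ideal S) : S →ₗ[O] (S ⧸ 𝔞) := (Ideal.Quotient.mkₐ O 𝔞).toLinearMap

lemma quotMap_surjective (𝔞 : Ideal S) : Function.Surjective (quotMap (O := O) S 𝔞) :=
  Ideal.Quotient.mk_surjective

lemma exact_subtype_quotMap (𝔞 : Ideal S) :
    Function.Exact (𝔞.restrictScalars O).subtype (quotMap (O := O) S 𝔞) := by
  intro s
  constructor
  · intro hs
    have : s ∈ 𝔞 := by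
      rw [← Ideal.Quotient.eq_zero_iff_mem]
      exact hs
    exact ⟨⟨s, this⟩, rfl⟩
  · rintro ⟨t, rfl⟩
    exact Ideal.Quotient.eq_zero_iff_mem.2 t.2

/-- `ext (S ⊗ A) 𝔞` (helper9's notation) is `idealExt S 𝔞 A`. -/
lemma ext_eq_idealExt (𝔞 : Ideal S) : ext (S ⊗[O] A) 𝔞 = idealExt S 𝔞 A := rfl

/-- `z ∈ 𝔞 (S ⊗ A)` iff `z` dies in `(S ⧸ 𝔞) ⊗ A`. -/
lemma mem_ext_iff (𝔞 : Ideal S) (z : S ⊗[O] A) :
    z ∈ ext (S ⊗[O] A) 𝔞 ↔ (quotMap (O := O) S 𝔞).rTensor A z = 0 := by
  rw [ext_eq_idealExt, mem_idealExt_iff]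
  have hex := rTensor_exact A (exact_subtype_quotMap (O := O) S 𝔞) (quotMap_surjective S 𝔞)
  exact (hex z).symm

end Quot

section Pure

variable {A : Type*} [CommRing A] [Algebra O A]

/-- Purity of `O → A`: `t ↦ t ⊗ₜ 1` is injective for every `O`-module `T`. -/
theorem tmul_one_injective (hinj : Function.Injective (algebraMap O A))
    [Module.Flat O (A ⧸ LinearMap.range (Algebra.linearMap O A))]
    (T : Type*) [AddCommGroup T] [Module O T] :
    Function.Injective fun t : T => t ⊗ₜ[O] (1 : A) := by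
  have h1 : Function.Injective ((Algebra.linearMap O A).lTensor T) :=
    LinearMap.lTensor_injective_of_exact_of_flat
      (LinearMap.range (Algebra.linearMap O A)).mkQ (Submodule.mkQ_surjective _)
      (Algebra.linearMap O A) hinj (LinearMap.exact_map_mkQ_range _) T
  intro t t' htt
  apply (TensorProduct.rid O T).symm.injective
  apply h1
  simpa [TensorProduct.rid_symm_apply, LinearMap.lTensor_tmul] using htt

/-- Over a DVR: `A` `π`-torsion-free and `π` not a unit in `A` ⟹ `O → A` is pure. -/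
theorem pure_of_dvr [IsDomain O] [IsDiscreteValuationRing O] {π : O} (hπ : Irreducible π)
    (htf : ∀ z : A, algebraMap O A π * z = 0 → z = 0)
    (hnu : ¬ IsUnit (algebraMap O A π)) :
    Function.Injective (algebraMap O A) ∧
      Module.Flat O (A ⧸ LinearMap.range (Algebra.linearMap O A)) := by
  have hA : Nontrivial A := by
    by_contra h
    rw [not_nontrivial_iff_subsingleton] at h
    exact hnu (isUnit_of_subsingleton _)
  have hpow : ∀ (n : ℕ) (z : A), algebraMap O A (π ^ n) * z = 0 → z = 0 := by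
    intro n
    induction n with
    | zero => intro z hz; simpa using hz
    | succ n ih =>
      intro z hz
      apply ih
      apply htf
      rw [← mul_assoc, ← map_mul, ← pow_succ']
      exact hz
  have hinj : Function.Injective (algebraMap O A) := by
    rw [injective_iff_map_eq_zero]
    intro a ha
    by_contra ha0
    obtain ⟨n, u, rfl⟩ := IsDiscreteValuationRing.eq_unit_mul_pow_irreducible ha0 hπ
    have h1 : algebraMap O A (π ^ n) * 1 = 0 := by
      have hu : IsUnit (algebraMap O A (u : O)) := (u.isUnit).map _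
      rw [map_mul] at ha
      rw [mul_one]
      exact (hu.mul_right_eq_zero).1 ha
    exact one_ne_zero (hpow n 1 h1)
  refine ⟨hinj, ?_⟩
  -- the cokernel is torsion-free
  have key : ∀ (z : A) (a : O), algebraMap O A π * z = algebraMap O A a →
      ∃ c : O, z = algebraMap O A c := by
    intro z a hza
    by_cases hdiv : π ∣ a
    · obtain ⟨a', rfl⟩ := hdiv
      refine ⟨a', ?_⟩
      have : algebraMap O A π * (z - algebraMap O A a') = 0 := by
        rw [mul_sub, hza, map_mul, sub_self]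
      exact sub_eq_zero.1 (htf _ this)
    · exfalso
      have hau : IsUnit a := by
        by_contra hnu'
        have hmem : a ∈ IsLocalRing.maximalIdeal O := (IsLocalRing.mem_maximalIdeal a).2 hnu'
        rw [(IsDiscreteValuationRing.irreducible_iff_uniformizer π).1 hπ,
          Ideal.mem_span_singleton] at hmem
        exact hdiv hmem
      have : IsUnit (algebraMap O A π * z) := hza ▸ hau.map _
      exact hnu (isUnit_of_mul_isUnit_left this)
  have keyn : ∀ (n : ℕ) (z : A) (a : O), algebraMap O A (π ^ n) * z = algebraMap O A a →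
      ∃ c : O, z = algebraMap O A c := by
    intro n
    induction n with
    | zero => intro z a h; exact ⟨a, by simpa using h⟩
    | succ n ih =>
      intro z a h
      obtain ⟨c, hc⟩ := key (algebraMap O A (π ^ n) * z) a (by
        rw [← mul_assoc, ← map_mul, ← pow_succ']; exact h)
      exact ih z c hc
  have htfq : Module.IsTorsionFree O (A ⧸ LinearMap.range (Algebra.linearMap O A)) := by
    refine Module.IsTorsionFree.of_smul_eq_zero fun r m hrm => ?_
    by_cases hr : r = 0
    · exact Or.inl hr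
    right
    obtain ⟨z, rfl⟩ := Submodule.Quotient.mk_surjective _ m
    obtain ⟨n, u, rfl⟩ := IsDiscreteValuationRing.eq_unit_mul_pow_irreducible hr hπ
    rw [← Submodule.Quotient.mk_smul, Submodule.Quotient.mk_eq_zero] at hrm
    obtain ⟨a, ha⟩ := hrm
    rw [Submodule.Quotient.mk_eq_zero]
    have h2 : algebraMap O A (π ^ n) * z = algebraMap O A (↑u⁻¹ * a) := by
      rw [map_mul, Algebra.linearMap_apply] at *
      rw [ha, Algebra.smul_def, map_mul, ← mul_assoc, ← mul_assoc, ← map_mul, Units.inv_mul,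
        map_one, one_mul]
    obtain ⟨c, hc⟩ := keyn n z _ h2
    exact ⟨c, by rw [Algebra.linearMap_apply, hc]⟩
  infer_instance

end Pure

section Main

variable {Ap Am A0 : Type*} [CommRing Ap] [CommRing Am] [CommRing A0]
  [Algebra O Ap] [Algebra O Am] [Algebra O A0]
variable {ip : Ap →ₐ[O] A0} {im : Am →ₐ[O] A0}
variable (S : Type*) [CommRing S] [Algebra O S]
variable {g : ℕ} (ε : Fin g → A0) (b : Module.Basis (Fin g) O (A0 ⧸ chartSum ip im))
  (hb : ∀ i, b i = Submodule.Quotient.mk (ε i))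

lemma rTensor_baseMap {A B : Type*} [CommRing A] [CommRing B] [Algebra O A] [Algebra O B]
    (f : A →ₐ[O] B) (𝔞 : Ideal S) (x : S ⊗[O] A) :
    (quotMap (O := O) S 𝔞).rTensor B (baseMap S f x)
      = f.toLinearMap.lTensor (S ⧸ 𝔞) ((quotMap (O := O) S 𝔞).rTensor A x) := by
  rw [baseMap_eq_lTensor, ← LinearMap.comp_apply, ← LinearMap.comp_apply,
    LinearMap.rTensor_comp_lTensor, LinearMap.lTensor_comp_rTensor]

lemma algebraMap_mul_one_tmul (s : S) (e : A0) :
    algebraMap S (S ⊗[O] A0) s * ((1 : S) ⊗ₜ[O] e) = s ⊗ₜ[O] e := by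
  rw [Algebra.TensorProduct.algebraMap_apply, Algebra.algebraMap_self_apply,
    Algebra.TensorProduct.tmul_mul_tmul, mul_one, one_mul]

include hb in
/-- **`Hyp` for the base change.** -/
theorem hyp_baseChange
    (h0 : ∀ x y, ip x = im y → ∃ a : O, x = algebraMap O Ap a ∧ y = algebraMap O Am a)
    (hinj : Function.Injective (algebraMap O A0))
    [Module.Flat O (A0 ⧸ LinearMap.range (Algebra.linearMap O A0))]
    (𝔪 : Ideal S) {N : ℕ} (hN : 𝔪 ^ N = ⊥) :
    Hyp 𝔪 (baseMap S ip) (baseMap S im) (fun i => (1 : S) ⊗ₜ[O] ε i) where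
  nil := ⟨N, hN⟩
  gen := by
    intro c
    obtain ⟨x, y, s, h⟩ := exists_decomp_base S ε b hb c
    refine ⟨s, x, -y, ?_⟩
    rw [h, map_neg]
    simp only [algebraMap_mul_one_tmul]
    ring
  h0 := by
    intro 𝔞 x y hxy
    rw [mem_ext_iff, map_sub, rTensor_baseMap, rTensor_baseMap] at hxy
    have hxy' : ip.toLinearMap.lTensor (S ⧸ 𝔞) ((quotMap (O := O) S 𝔞).rTensor Ap x)
        - im.toLinearMap.lTensor (S ⧸ 𝔞) ((quotMap (O := O) S 𝔞).rTensor Am y)
        + ∑ i, (0 : Fin g → S ⧸ 𝔞) i ⊗ₜ[O] ε i = 0 := by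
      rw [hxy]; simp
    obtain ⟨-, sbar, hx, hy⟩ :=
      eq_const_of_decomp_tensor_eq_zero (S ⧸ 𝔞) ε b hb h0 _ _ _ hxy'
    obtain ⟨s, rfl⟩ := quotMap_surjective (O := O) S 𝔞 sbar
    refine ⟨s, ?_, ?_⟩
    · rw [mem_ext_iff, map_sub, hx, Algebra.TensorProduct.algebraMap_apply,
        Algebra.algebraMap_self_apply, LinearMap.rTensor_tmul, sub_self]
    · rw [mem_ext_iff, map_sub, hy, Algebra.TensorProduct.algebraMap_apply,
        Algebra.algebraMap_self_apply, LinearMap.rTensor_tmul, sub_self]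
  h0' := by
    intro 𝔞 s hs
    rw [mem_ext_iff, Algebra.TensorProduct.algebraMap_apply, Algebra.algebraMap_self_apply,
      LinearMap.rTensor_tmul] at hs
    have := tmul_one_injective (A := A0) hinj (S ⧸ 𝔞)
      (a₁ := quotMap (O := O) S 𝔞 s) (a₂ := 0) (by simpa using hs)
    exact Ideal.Quotient.eq_zero_iff_mem.1 this
  h1 := by
    intro 𝔞 𝔟 _ τ _ x _ y _ hmem i
    rw [mem_ext_iff] at hmem
    simp only [algebraMap_mul_one_tmul] at hmem
    rw [map_add, map_add, map_sum, rTensor_baseMap, rTensor_baseMap] at hmem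
    simp only [LinearMap.rTensor_tmul] at hmem
    have h' : ip.toLinearMap.lTensor (S ⧸ 𝔟) ((quotMap (O := O) S 𝔟).rTensor Ap x)
        - im.toLinearMap.lTensor (S ⧸ 𝔟) ((quotMap (O := O) S 𝔟).rTensor Am (-y))
        + ∑ i, (fun i => quotMap (O := O) S 𝔟 (τ i)) i ⊗ₜ[O] ε i = 0 := by
      rw [← hmem, map_neg, map_neg]
      ring
    have := coeff_eq_zero_of_decomp_tensor_eq_zero (S ⧸ 𝔟) ε b hb _ _ _ h' i
    exact Ideal.Quotient.eq_zero_iff_mem.1 this

end Main

section DVR

universe v

variable [IsDomain O] [IsDiscreteValuationRing O]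
variable {Ap Am A0 : Type*} [CommRing Ap] [CommRing Am] [CommRing A0]
  [Algebra O Ap] [Algebra O Am] [Algebra O A0]
variable {ip : Ap →ₐ[O] A0} {im : Am →ₐ[O] A0}

/-- **Consumer form over a DVR.**  From `H⁰ = O` (generic fibre), `H⁰ = k` on the special fibre
(`FibreConst`), finiteness of `H¹`, `π`-torsion-freeness of `A0` and non-emptiness of the special
fibre of the overlap: there are `ε_1..ε_g ∈ A0` such that `Hyp` holds after EVERY base change
`O → S` and every nilpotent ideal of `S`. -/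
theorem exists_hyp_of_dvr {π : O} (hπ : Irreducible π)
    (h0 : ∀ x y, ip x = im y → ∃ a : O, x = algebraMap O Ap a ∧ y = algebraMap O Am a)
    (hfib : TorsionFree.FibreConst π ip im)
    (htf : ∀ z : A0, algebraMap O A0 π * z = 0 → z = 0)
    (hnu : ¬ IsUnit (algebraMap O A0 π))
    [Module.Finite O (A0 ⧸ chartSum ip im)] :
    ∃ (g : ℕ) (ε : Fin g → A0), ∀ (S : Type v) [CommRing S] [Algebra O S] (𝔪 : Ideal S) (N : ℕ),
      𝔪 ^ N = ⊥ → Hyp 𝔪 (baseMap S ip) (baseMap S im) (fun i => (1 : S) ⊗ₜ[O] ε i) := by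
  obtain ⟨g, ε, b, hb⟩ := TorsionFree.exists_basis_lift hπ hfib htf
  obtain ⟨hinj, hflat⟩ := pure_of_dvr hπ htf hnu
  exact ⟨g, ε, fun S _ _ 𝔪 N hN => hyp_baseChange S ε b hb h0 hinj 𝔪 hN⟩

end DVR

end Fermat.Agent.S19.Cech.HypBaseChange
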