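/-
S19 / Čech-units route: **adapter** between helper16's base-change theorem
(`HypBaseChange.hyp_baseChange`, `exists_hyp_of_dvr`) and the input `HypAll` of the universal
polynomials (`Universal.lean`, `ChangeBase.lean`).
-/
import Fermat.Agent.S19.Cech.HypBaseChange
import Fermat.Agent.S19.Cech.ChangeBase

set_option autoImplicit false

universe u

namespace Fermat.Agent.S19.Cech

open TensorProduct Fermat.Agent.N4.FormalFunctions

variable {O : Type u} [CommRing O]
variable {Ap Am A0 : Type*} [CommRing Ap] [CommRing Am] [CommRing A0]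
  [Algebra O Ap] [Algebra O Am] [Algebra O A0]
variable {ip : Ap →ₐ[O] A0} {im : Am →ₐ[O] A0}

/-- `HypAll` from: `H⁰ = O`, the classes of the `ε i` are a basis of `H¹ = A0 ⧸ (A₊ + A₋)`, and
`O → A0` is pure. -/
theorem hypAll_of_basis {g : ℕ} (ε : Fin g → A0)
    (b : Module.Basis (Fin g) O (A0 ⧸ chartSum ip im))
    (hb : ∀ i, b i = Submodule.Quotient.mk (ε i))
    (h0 : ∀ x y, ip x = im y → ∃ a : O, x = algebraMap O Ap a ∧ y = algebraMap O Am a)
    (hinj : Function.Injective (algebraMap O A0))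
    [Module.Flat O (A0 ⧸ LinearMap.range (Algebra.linearMap O A0))] : HypAll ip im ε :=
  fun S _ _ 𝔪 ⟨_, hN⟩ => HypBaseChange.hyp_baseChange S ε b hb h0 hinj 𝔪 hN

/-- `HypAll` over a discrete valuation ring, for a given family `ε` whose classes are a basis. -/
theorem hypAll_of_basis_dvr [IsDomain O] [IsDiscreteValuationRing O] {π : O} (hπ : Irreducible π)
    {g : ℕ} (ε : Fin g → A0) (b : Module.Basis (Fin g) O (A0 ⧸ chartSum ip im))
    (hb : ∀ i, b i = Submodule.Quotient.mk (ε i))
    (h0 : ∀ x y, ip x = im y → ∃ a : O, x = algebraMap O Ap a ∧ y = algebraMap O Am a)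
    (htf : ∀ z : A0, algebraMap O A0 π * z = 0 → z = 0)
    (hnu : ¬ IsUnit (algebraMap O A0 π)) : HypAll ip im ε := by
  obtain ⟨hinj, hflat⟩ := HypBaseChange.pure_of_dvr hπ htf hnu
  exact hypAll_of_basis ε b hb h0 hinj

/-- Existence of a family `ε` with `HypAll` over a discrete valuation ring. -/
theorem exists_hypAll_of_dvr [IsDomain O] [IsDiscreteValuationRing O] {π : O} (hπ : Irreducible π)
    (h0 : ∀ x y, ip x = im y → ∃ a : O, x = algebraMap O Ap a ∧ y = algebraMap O Am a)
    (hfib : TorsionFree.FibreConst π ip im)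
    (htf : ∀ z : A0, algebraMap O A0 π * z = 0 → z = 0)
    (hnu : ¬ IsUnit (algebraMap O A0 π))
    [Module.Finite O (A0 ⧸ chartSum ip im)] :
    ∃ (g : ℕ) (ε : Fin g → A0), HypAll ip im ε := by
  obtain ⟨g, ε, b, hb⟩ := TorsionFree.exists_basis_lift hπ hfib htf
  exact ⟨g, ε, hypAll_of_basis_dvr hπ ε b hb h0 htf hnu⟩

end Fermat.Agent.S19.Cech
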