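/-
S19, Čech route, block (Q1)/(L1): **`H¹ = A₀ / (A₊ + A₋)` of a two-chart model over a discrete valuation
ring is torsion-free, hence free**, as soon as the special fibre has only constant global functions.

Abstract setting = the one of `Fermat/Agent/N4/FormalFunctions.lean`: `O` a DVR with uniformiser `π`,
`O`-algebras `A₊ = Ap`, `A₋ = Am`, `A₀ = A0` with `O`-algebra maps `ip : Ap → A0`, `im : Am → A0`,
`chartSum ip im = ip(Ap) + im(Am) ⊆ A0`.

* `FibreConst π ip im` : "`H⁰` of the special fibre is the residue field": if `ip x - im y ∈ π A0` then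
  `x` and `y` are congruent mod `π` to one constant `c : O`;
* `mem_chartSum_of_smul_mem` : `π • z ∈ A₊ + A₋ → z ∈ A₊ + A₋`;
* `isTorsionFree_quotient`, `free_quotient` : `A0 ⧸ chartSum ip im` is torsion-free, hence free if it is
  finitely generated (`cech_h1`);
* `exists_basis_lift` : a finite family `ε : Fin g → A0` whose classes form a basis of the quotient;
* `exists_decomp` / `coeff_eq_zero_of_decomp_eq_zero` : every `z : A0` is
  `ip x - im y + ∑ c i • ε i`, with the `c i` unique;
* `dvd_coeff_of_decomp_mem` : the same modulo `π` (the classes of the `ε i` are a basis of `H¹` of the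
  special fibre): if `ip x - im y + ∑ c i • ε i ∈ π A0` then `π ∣ c i` for all `i` (and then, by
  `FibreConst`, `x`, `y` are congruent to a common constant mod `π`: `const_of_decomp_mem`).
-/
import Mathlib
import Fermat.Agent.N4.FormalFunctions

set_option autoImplicit false

namespace Fermat.Agent.S19.Cech.TorsionFree

open Fermat.Agent.N4.FormalFunctions

variable {O : Type*} [CommRing O] [IsDomain O] [IsDiscreteValuationRing O]
variable {Ap Am A0 : Type*} [CommRing Ap] [CommRing Am] [CommRing A0]
  [Algebra O Ap] [Algebra O Am] [Algebra O A0]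

/-- "`H⁰` of the special fibre consists of constants": a pair `(x, y) ∈ A₊ × A₋` which agrees on the
overlap modulo `π` is congruent modulo `π` to a constant. -/
def FibreConst (π : O) (ip : Ap →ₐ[O] A0) (im : Am →ₐ[O] A0) : Prop :=
  ∀ (x : Ap) (y : Am), ip x - im y ∈ Ideal.span {algebraMap O A0 π} →
    ∃ c : O, x - algebraMap O Ap c ∈ Ideal.span {algebraMap O Ap π} ∧
      y - algebraMap O Am c ∈ Ideal.span {algebraMap O Am π}

variable {π : O} {ip : Ap →ₐ[O] A0} {im : Am →ₐ[O] A0}

omit [IsDomain O] [IsDiscreteValuationRing O] in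
/-- `π • z ∈ A₊ + A₋ → z ∈ A₊ + A₋`. -/
theorem mem_chartSum_of_smul_mem (hfib : FibreConst π ip im)
    (htf : ∀ z : A0, algebraMap O A0 π * z = 0 → z = 0) (z : A0)
    (hz : π • z ∈ chartSum ip im) : z ∈ chartSum ip im := by
  obtain ⟨u, w, huw⟩ := (mem_chartSum_iff ip im _).1 hz
  have hmem : ip u - im w ∈ Ideal.span {algebraMap O A0 π} := by
    rw [← huw, Algebra.smul_def]
    exact Ideal.mul_mem_right _ _ (Ideal.subset_span rfl)
  obtain ⟨c, hu, hw⟩ := hfib u w hmem
  obtain ⟨u', hu'⟩ := Ideal.mem_span_singleton'.1 hu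
  obtain ⟨w', hw'⟩ := Ideal.mem_span_singleton'.1 hw
  refine (mem_chartSum_iff ip im _).2 ⟨u', w', ?_⟩
  rw [← sub_eq_zero]
  apply htf
  rw [mul_sub, sub_eq_zero]
  have h1 : ip u = ip u' * algebraMap O A0 π + algebraMap O A0 c := by
    have := congrArg ip hu'
    rw [map_mul, map_sub, AlgHom.commutes, AlgHom.commutes] at this
    rw [this]; ring
  have h2 : im w = im w' * algebraMap O A0 π + algebraMap O A0 c := by
    have := congrArg im hw'
    rw [map_mul, map_sub, AlgHom.commutes, AlgHom.commutes] at this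
    rw [this]; ring
  have h3 : algebraMap O A0 π * z = ip u - im w := by rw [← huw, Algebra.smul_def]
  rw [h3, h1, h2]; ring

omit [IsDomain O] [IsDiscreteValuationRing O] in
theorem mem_chartSum_of_pow_smul_mem (hfib : FibreConst π ip im)
    (htf : ∀ z : A0, algebraMap O A0 π * z = 0 → z = 0) (n : ℕ) (z : A0)
    (hz : π ^ n • z ∈ chartSum ip im) : z ∈ chartSum ip im := by
  induction n with
  | zero => simpa using hz
  | succ n ih =>
    apply ih
    apply mem_chartSum_of_smul_mem hfib htf
    rwa [smul_smul, ← pow_succ']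

/-- `H¹ = A0 ⧸ (A₊ + A₋)` is torsion-free. -/
theorem isTorsionFree_quotient (hπ : Irreducible π) (hfib : FibreConst π ip im)
    (htf : ∀ z : A0, algebraMap O A0 π * z = 0 → z = 0) :
    Module.IsTorsionFree O (A0 ⧸ chartSum ip im) := by
  refine Module.IsTorsionFree.of_smul_eq_zero fun r m hrm => ?_
  by_cases hr : r = 0
  · exact Or.inl hr
  right
  obtain ⟨z, rfl⟩ := Submodule.Quotient.mk_surjective _ m
  obtain ⟨n, u, rfl⟩ := IsDiscreteValuationRing.eq_unit_mul_pow_irreducible hr hπ
  rw [← Submodule.Quotient.mk_smul, Submodule.Quotient.mk_eq_zero] at hrm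
  rw [Submodule.Quotient.mk_eq_zero]
  apply mem_chartSum_of_pow_smul_mem hfib htf n
  have h : π ^ n • z = (↑u⁻¹ : O) • ((↑u * π ^ n) • z) := by
    rw [smul_smul, ← mul_assoc, Units.inv_mul, one_mul]
  rw [h]
  exact Submodule.smul_mem _ _ hrm

/-- `H¹` is a free `O`-module if it is finitely generated. -/
theorem free_quotient (hπ : Irreducible π) (hfib : FibreConst π ip im)
    (htf : ∀ z : A0, algebraMap O A0 π * z = 0 → z = 0)
    [Module.Finite O (A0 ⧸ chartSum ip im)] : Module.Free O (A0 ⧸ chartSum ip im) := by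
  have := isTorsionFree_quotient hπ hfib htf
  exact Module.free_of_finite_type_torsion_free'

/-- Lifts `ε i : A0` of a basis of `H¹`. -/
theorem exists_basis_lift (hπ : Irreducible π) (hfib : FibreConst π ip im)
    (htf : ∀ z : A0, algebraMap O A0 π * z = 0 → z = 0)
    [Module.Finite O (A0 ⧸ chartSum ip im)] :
    ∃ (g : ℕ) (ε : Fin g → A0) (b : Module.Basis (Fin g) O (A0 ⧸ chartSum ip im)),
      ∀ i, b i = Submodule.Quotient.mk (ε i) := by
  have := isTorsionFree_quotient hπ hfib htf
  obtain ⟨g, b⟩ : Σ n : ℕ, Module.Basis (Fin n) O (A0 ⧸ chartSum ip im) :=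
    Module.basisOfFiniteTypeTorsionFree'
  choose ε hε using fun i => Submodule.Quotient.mk_surjective (chartSum ip im) (b i)
  exact ⟨g, ε, b, fun i => (hε i).symm⟩

section Decomp

variable {g : ℕ} (ε : Fin g → A0) (b : Module.Basis (Fin g) O (A0 ⧸ chartSum ip im))
  (hb : ∀ i, b i = Submodule.Quotient.mk (ε i))

include hb in
omit [IsDomain O] [IsDiscreteValuationRing O] in
/-- Every element of `A0` is `ip x - im y + ∑ c i • ε i`. -/
theorem exists_decomp (z : A0) :
    ∃ (x : Ap) (y : Am) (c : Fin g → O), z = ip x - im y + ∑ i, c i • ε i := by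
  set c : Fin g → O := fun i => b.repr (Submodule.Quotient.mk z) i with hc
  have h1 : (Submodule.Quotient.mk (z - ∑ i, c i • ε i) : A0 ⧸ chartSum ip im) = 0 := by
    rw [Submodule.Quotient.mk_sub, ← Submodule.mkQ_apply (chartSum ip im) (∑ i, c i • ε i),
      map_sum]
    simp only [Submodule.mkQ_apply, Submodule.Quotient.mk_smul, ← hb]
    rw [hc]
    simp only
    rw [b.sum_repr, sub_self]
  rw [Submodule.Quotient.mk_eq_zero] at h1
  obtain ⟨x, y, hxy⟩ := (mem_chartSum_iff ip im _).1 h1
  exact ⟨x, y, c, by rw [← hxy]; ring⟩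

include hb in
omit [IsDomain O] [IsDiscreteValuationRing O] in
/-- Uniqueness of the coefficients. -/
theorem coeff_eq_zero_of_decomp_eq_zero (x : Ap) (y : Am) (c : Fin g → O)
    (h : ip x - im y + ∑ i, c i • ε i = 0) : ∀ i, c i = 0 := by
  have h1 : (Submodule.Quotient.mk (ip x - im y + ∑ i, c i • ε i) : A0 ⧸ chartSum ip im) = 0 := by
    rw [h, Submodule.Quotient.mk_zero]
  rw [Submodule.Quotient.mk_add,
    (Submodule.Quotient.mk_eq_zero _).2 ((mem_chartSum_iff ip im _).2 ⟨x, y, rfl⟩), zero_add,
    ← Submodule.mkQ_apply (chartSum ip im) (∑ i, c i • ε i), map_sum] at h1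
  simp only [Submodule.mkQ_apply, Submodule.Quotient.mk_smul, ← hb] at h1
  have := b.linearIndependent
  rw [Fintype.linearIndependent_iff] at this
  exact this c h1

include hb in
omit [IsDomain O] [IsDiscreteValuationRing O] in
/-- The classes of the `ε i` are linearly independent modulo `π`:
if `ip x - im y + ∑ c i • ε i ∈ π A0` then `π ∣ c i`. -/
theorem dvd_coeff_of_decomp_mem (x : Ap) (y : Am) (c : Fin g → O)
    (h : ip x - im y + ∑ i, c i • ε i ∈ Ideal.span {algebraMap O A0 π}) : ∀ i, π ∣ c i := by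
  obtain ⟨z, hz⟩ := Ideal.mem_span_singleton'.1 h
  obtain ⟨x', y', d, hd⟩ := exists_decomp ε b hb z
  have h0 : ip (x - π • x') - im (y - π • y') + ∑ i, (c i - π * d i) • ε i = 0 := by
    have e1 : ∑ i, (c i - π * d i) • ε i = ∑ i, c i • ε i - π • ∑ i, d i • ε i := by
      rw [Finset.smul_sum, ← Finset.sum_sub_distrib]
      refine Finset.sum_congr rfl fun i _ => ?_
      rw [sub_smul, mul_smul]
    rw [e1, map_sub, map_sub, map_smul, map_smul]
    have e2 : z * algebraMap O A0 π = π • z := by rw [Algebra.smul_def, mul_comm]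
    rw [e2, hd] at hz
    have e3 : ip x - im y + ∑ i, c i • ε i
        = π • ip x' - π • im y' + π • ∑ i, d i • ε i := by
      rw [← hz, smul_add, smul_sub]
    calc ip x - π • ip x' - (im y - π • im y') + (∑ i, c i • ε i - π • ∑ i, d i • ε i)
        = (ip x - im y + ∑ i, c i • ε i) - (π • ip x' - π • im y' + π • ∑ i, d i • ε i) := by ring
      _ = 0 := by rw [e3, sub_self]
  intro i
  have := coeff_eq_zero_of_decomp_eq_zero ε b hb _ _ _ h0 i
  exact ⟨d i, by linear_combination this⟩

include hb in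
omit [IsDomain O] [IsDiscreteValuationRing O] in
/-- Modulo `π` the decomposition is unique up to a common constant. -/
theorem const_of_decomp_mem (hfib : FibreConst π ip im) (x : Ap) (y : Am) (c : Fin g → O)
    (h : ip x - im y + ∑ i, c i • ε i ∈ Ideal.span {algebraMap O A0 π}) :
    (∀ i, π ∣ c i) ∧ ∃ a : O, x - algebraMap O Ap a ∈ Ideal.span {algebraMap O Ap π} ∧
      y - algebraMap O Am a ∈ Ideal.span {algebraMap O Am π} := by
  have hc := dvd_coeff_of_decomp_mem ε b hb x y c h
  refine ⟨hc, hfib x y ?_⟩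
  have hsum : ∑ i, c i • ε i ∈ Ideal.span {algebraMap O A0 π} := by
    refine Ideal.sum_mem _ fun i _ => ?_
    obtain ⟨d, hd⟩ := hc i
    rw [hd, mul_smul, Algebra.smul_def]
    exact Ideal.mul_mem_right _ _ (Ideal.subset_span rfl)
  have := Ideal.sub_mem _ h hsum
  rwa [add_sub_cancel_right] at this

end Decomp

end Fermat.Agent.S19.Cech.TorsionFree
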