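/-
S19, Čech route, leaf [LVL] (DAG v1 §2, helper26): **the basis lifts of `H¹` chosen at a base level
stay basis lifts at every bigger good level.**

Abstract part (Mathlib + `Cech/TorsionFree` only).  Two two-chart models `(A₊, A₋ → A₀)` over discrete
valuation rings `O₁ → O₂` (uniformisers `π₁`, `π₂`; ramification allowed) and a semilinear morphism
`(α, τ₊, τ₋, τ₀)` between them:
* `ChartHom` : the compatibilities of `(α, τ₊, τ₋, τ₀)` (exactly the hypotheses `hτ?`, `hip`, `him` of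
  `ChangeBase.morph_chg`);
* `SameFibre` : "the two levels have the same special fibre": `π₂ ∣ α π₁`, equal residue fields,
  `τ₊, τ₋, τ₀` surjective modulo `π₂`, and `τ₀` reflects divisibility by the uniformisers;
* `sameFibre_of_theta` : `SameFibre` from reduction maps `θ` of the charts `A₊`, `A₋` onto common
  rings with kernels `(π)`, when `A₀ = A₊[1/j]`;
* `dvd_coeff_of_map_mem` : the images of the `ε i` are independent in `H¹` of the special fibre;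
* **`exists_basis_map`** : `ε i` lifts of a basis of `H¹(1)`, `SameFibre`, `FibreConst` at level 2,
  `H¹(2)` finitely generated `⟹` the `τ₀ (ε i)` are lifts of a basis of `H¹(2)` (generation by
  Nakayama through the common fibre, independence by torsion-freeness of `H¹(2)`).

Concrete part (N4 charts).
* `finMap / infMap / midMap f N O O' hOO'` : base change of `Rfin / Rinf / Rmid` along ANY ring
  homomorphism of base fields `f : K →+* K'` with `f O ⊆ O'` (level inclusion, or `σ ∈ D_A` on a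
  Galois-stable level), and `chartHom_level : ChartHom …` for them;
* `jInvMid`, `inclFin_jFin_mul_jInvMid`, `exists_pow_mul_eq_inclFin` : `Rmid = Rfin[1/j]`;
* `lvlIncl hKL : Lvl K₁ →+* Lvl L`, `lvlIncl_mem`, `baseIncl_oMap`, `levK_ffMap`;
* `thFin / thInf A N K P` : the reduction maps of the charts of a level with `LevelPack`, with values in
  `Ft A N` (`thetaFt_levK_eq_thFin`, kernels, ranges `SigmaFin / SigmaInf (Kap A) N`);
* `sameFibre_incl`, `finite_h1_level`, `mul_eq_zero_level`;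
* **`exists_basis_level`** : `K₁ ≤ L` with `LevelPack`s, `FibreConst` at level `L` (Q1 at `L`) `⟹`
  the images under `midIncl A N hKL` of basis lifts of `H¹(K₁)` are basis lifts of `H¹(L)`.
-/
import Mathlib
import Fermat.Agent.N4.FormalFunctions
import Fermat.Agent.N4.IntClosureCech
import Fermat.Agent.N4.ModPolySetting
import Fermat.Agent.S19.Cech.TorsionFree
import Fermat.Agent.N4F.C.ChartFactsProof

set_option autoImplicit false
set_option linter.unusedSectionVars false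
set_option linter.style.haveILetI false

open ModularCurve AlgebraicCurve

noncomputable section

namespace Fermat.Agent.S19.Cech.LevelBasis

open Fermat.Agent.N4.FormalFunctions Fermat.Agent.S19.Cech.TorsionFree
open Fermat.Agent.N4.Chart Fermat.Agent.N4.Setting Fermat.Agent.N4.BaseDescent

section Abstract

variable {O₁ O₂ : Type*} [CommRing O₁] [CommRing O₂] [IsDomain O₂] [IsDiscreteValuationRing O₂]
variable {Ap₁ Am₁ A0₁ : Type*} [CommRing Ap₁] [CommRing Am₁] [CommRing A0₁]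
  [Algebra O₁ Ap₁] [Algebra O₁ Am₁] [Algebra O₁ A0₁]
variable {Ap₂ Am₂ A0₂ : Type*} [CommRing Ap₂] [CommRing Am₂] [CommRing A0₂]
  [Algebra O₂ Ap₂] [Algebra O₂ Am₂] [Algebra O₂ A0₂]
variable {ip₁ : Ap₁ →ₐ[O₁] A0₁} {im₁ : Am₁ →ₐ[O₁] A0₁}
  {ip₂ : Ap₂ →ₐ[O₂] A0₂} {im₂ : Am₂ →ₐ[O₂] A0₂}

/-- A (semilinear) morphism of two-chart models over a ring homomorphism `α : O₁ → O₂` of the
bases. -/
structure ChartHom (ip₁ : Ap₁ →ₐ[O₁] A0₁) (im₁ : Am₁ →ₐ[O₁] A0₁)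
    (ip₂ : Ap₂ →ₐ[O₂] A0₂) (im₂ : Am₂ →ₐ[O₂] A0₂)
    (α : O₁ →+* O₂) (τp : Ap₁ →+* Ap₂) (τm : Am₁ →+* Am₂) (τ0 : A0₁ →+* A0₂) : Prop where
  alg_p : ∀ o, τp (algebraMap O₁ Ap₁ o) = algebraMap O₂ Ap₂ (α o)
  alg_m : ∀ o, τm (algebraMap O₁ Am₁ o) = algebraMap O₂ Am₂ (α o)
  alg_0 : ∀ o, τ0 (algebraMap O₁ A0₁ o) = algebraMap O₂ A0₂ (α o)
  comm_p : ∀ x, τ0 (ip₁ x) = ip₂ (τp x)
  comm_m : ∀ y, τ0 (im₁ y) = im₂ (τm y)

/-- The hypotheses "the two levels have the same special fibre". -/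
structure SameFibre (ip₁ : Ap₁ →ₐ[O₁] A0₁) (im₁ : Am₁ →ₐ[O₁] A0₁)
    (ip₂ : Ap₂ →ₐ[O₂] A0₂) (im₂ : Am₂ →ₐ[O₂] A0₂)
    (α : O₁ →+* O₂) (τp : Ap₁ →+* Ap₂) (τm : Am₁ →+* Am₂) (τ0 : A0₁ →+* A0₂)
    (π₁ : O₁) (π₂ : O₂) : Prop where
  dvd : π₂ ∣ α π₁
  res : ∀ c : O₂, ∃ c₁ : O₁, π₂ ∣ c - α c₁
  surj_p : ∀ x₂ : Ap₂, ∃ x₁ : Ap₁, x₂ - τp x₁ ∈ Ideal.span {algebraMap O₂ Ap₂ π₂}
  surj_m : ∀ y₂ : Am₂, ∃ y₁ : Am₁, y₂ - τm y₁ ∈ Ideal.span {algebraMap O₂ Am₂ π₂}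
  surj_0 : ∀ z₂ : A0₂, ∃ z₁ : A0₁, z₂ - τ0 z₁ ∈ Ideal.span {algebraMap O₂ A0₂ π₂}
  inj_0 : ∀ z₁ : A0₁, τ0 z₁ ∈ Ideal.span {algebraMap O₂ A0₂ π₂} →
    z₁ ∈ Ideal.span {algebraMap O₁ A0₁ π₁}

variable {α : O₁ →+* O₂} {τp : Ap₁ →+* Ap₂} {τm : Am₁ →+* Am₂} {τ0 : A0₁ →+* A0₂}
  {π₁ : O₁} {π₂ : O₂}

omit [IsDomain O₂] [IsDiscreteValuationRing O₂] in
theorem ChartHom.map_smul (H : ChartHom ip₁ im₁ ip₂ im₂ α τp τm τ0) (c : O₁) (z : A0₁) :
    τ0 (c • z) = α c • τ0 z := by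
  rw [Algebra.smul_def, Algebra.smul_def, map_mul, H.alg_0]

omit [IsDomain O₂] [IsDiscreteValuationRing O₂] in
theorem ChartHom.map_sum_smul (H : ChartHom ip₁ im₁ ip₂ im₂ α τp τm τ0) {g : ℕ}
    (c : Fin g → O₁) (ε : Fin g → A0₁) :
    τ0 (∑ i, c i • ε i) = ∑ i, α (c i) • τ0 (ε i) := by
  rw [map_sum]
  exact Finset.sum_congr rfl fun i _ => H.map_smul _ _

omit [IsDomain O₂] [IsDiscreteValuationRing O₂] in
/-- The morphism maps `A₊ + A₋` into `A₊ + A₋`. -/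
theorem ChartHom.map_mem_chartSum (H : ChartHom ip₁ im₁ ip₂ im₂ α τp τm τ0) {z : A0₁}
    (hz : z ∈ chartSum ip₁ im₁) : τ0 z ∈ chartSum ip₂ im₂ := by
  obtain ⟨u, w, rfl⟩ := (mem_chartSum_iff ip₁ im₁ _).1 hz
  exact (mem_chartSum_iff ip₂ im₂ _).2 ⟨τp u, τm w, by rw [map_sub, H.comm_p, H.comm_m]⟩

omit [IsDomain O₂] [IsDiscreteValuationRing O₂] in
/-- (H-b): reflection of `A₊ + A₋ + π A₀`. -/
theorem SameFibre.mem_of_map_mem (H : ChartHom ip₁ im₁ ip₂ im₂ α τp τm τ0)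
    (F : SameFibre ip₁ im₁ ip₂ im₂ α τp τm τ0 π₁ π₂) (z₁ : A0₁) (x₂ : Ap₂) (y₂ : Am₂)
    (h : τ0 z₁ - (ip₂ x₂ - im₂ y₂) ∈ Ideal.span {algebraMap O₂ A0₂ π₂}) :
    ∃ (x₁ : Ap₁) (y₁ : Am₁), z₁ - (ip₁ x₁ - im₁ y₁) ∈ Ideal.span {algebraMap O₁ A0₁ π₁} := by
  obtain ⟨x₁, hx₁⟩ := F.surj_p x₂
  obtain ⟨y₁, hy₁⟩ := F.surj_m y₂
  refine ⟨x₁, y₁, F.inj_0 _ ?_⟩
  rw [map_sub, map_sub, H.comm_p, H.comm_m]
  have hx : ip₂ (x₂ - τp x₁) ∈ Ideal.span {algebraMap O₂ A0₂ π₂} := by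
    obtain ⟨t, ht⟩ := Ideal.mem_span_singleton'.1 hx₁
    rw [← ht, map_mul, AlgHom.commutes]
    exact Ideal.mul_mem_left _ _ (Ideal.subset_span rfl)
  have hy : im₂ (y₂ - τm y₁) ∈ Ideal.span {algebraMap O₂ A0₂ π₂} := by
    obtain ⟨t, ht⟩ := Ideal.mem_span_singleton'.1 hy₁
    rw [← ht, map_mul, AlgHom.commutes]
    exact Ideal.mul_mem_left _ _ (Ideal.subset_span rfl)
  have e : τ0 z₁ - (ip₂ (τp x₁) - im₂ (τm y₁)) =
      (τ0 z₁ - (ip₂ x₂ - im₂ y₂)) + ip₂ (x₂ - τp x₁) - im₂ (y₂ - τm y₁) := by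
    rw [map_sub, map_sub]; ring
  rw [e]
  exact Ideal.sub_mem _ (Ideal.add_mem _ h hx) hy


section OfTheta

/-- **`SameFibre` from reduction maps.**  The charts `A₊`, `A₋` of the two levels have reduction maps
`θ` onto the SAME rings (the charts of the common special fibre), compatible with the change of
level, with kernels generated by the uniformisers; and `A₀ = A₊[1/j]` at both levels. -/
theorem sameFibre_of_theta (H : ChartHom ip₁ im₁ ip₂ im₂ α τp τm τ0)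
    (hdvd : π₂ ∣ α π₁) (hres : ∀ c : O₂, ∃ c₁ : O₁, π₂ ∣ c - α c₁)
    {T T' : Type*} [CommRing T] [CommRing T']
    (θp₁ : Ap₁ →+* T) (θp₂ : Ap₂ →+* T) (θm₁ : Am₁ →+* T') (θm₂ : Am₂ →+* T')
    (hθp : ∀ x, θp₂ (τp x) = θp₁ x) (hθm : ∀ y, θm₂ (τm y) = θm₁ y)
    (hrp : ∀ x₂, ∃ x₁, θp₁ x₁ = θp₂ x₂) (hrm : ∀ y₂, ∃ y₁, θm₁ y₁ = θm₂ y₂)
    (hkp₁ : ∀ x₁, θp₁ x₁ = 0 → x₁ ∈ Ideal.span {algebraMap O₁ Ap₁ π₁})
    (hkp₂ : ∀ x₂, θp₂ x₂ = 0 → x₂ ∈ Ideal.span {algebraMap O₂ Ap₂ π₂})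
    (hkm₂ : ∀ y₂, θm₂ y₂ = 0 → y₂ ∈ Ideal.span {algebraMap O₂ Am₂ π₂})
    (hπ : θp₂ (algebraMap O₂ Ap₂ π₂) = 0)
    (j₁ : Ap₁) (v₁ : A0₁) (hv₁ : ip₁ j₁ * v₁ = 1)
    (hloc₁ : ∀ z₁ : A0₁, ∃ (k : ℕ) (x₁ : Ap₁), ip₁ j₁ ^ k * z₁ = ip₁ x₁)
    (hloc₂ : ∀ z₂ : A0₂, ∃ (k : ℕ) (x₂ : Ap₂), ip₂ (τp j₁) ^ k * z₂ = ip₂ x₂)
    (hinj₂ : Function.Injective ip₂) :
    SameFibre ip₁ im₁ ip₂ im₂ α τp τm τ0 π₁ π₂ where
  dvd := hdvd
  res := hres
  surj_p x₂ := by
    obtain ⟨x₁, hx₁⟩ := hrp x₂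
    exact ⟨x₁, hkp₂ _ (by rw [map_sub, hθp, hx₁, sub_self])⟩
  surj_m y₂ := by
    obtain ⟨y₁, hy₁⟩ := hrm y₂
    exact ⟨y₁, hkm₂ _ (by rw [map_sub, hθm, hy₁, sub_self])⟩
  surj_0 z₂ := by
    obtain ⟨k, x₂, hx₂⟩ := hloc₂ z₂
    obtain ⟨x₁, hx₁⟩ := hrp x₂
    have h1 : x₂ - τp x₁ ∈ Ideal.span {algebraMap O₂ Ap₂ π₂} :=
      hkp₂ _ (by rw [map_sub, hθp, hx₁, sub_self])
    obtain ⟨w, hw⟩ := Ideal.mem_span_singleton'.1 h1
    have hu : ip₂ (τp j₁) * τ0 v₁ = 1 := by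
      rw [← H.comm_p, ← map_mul, hv₁, map_one]
    refine ⟨v₁ ^ k * ip₁ x₁, Ideal.mem_span_singleton'.2 ⟨τ0 v₁ ^ k * ip₂ w, ?_⟩⟩
    have h2 : ip₂ w * algebraMap O₂ A0₂ π₂ = ip₂ x₂ - ip₂ (τp x₁) := by
      rw [← map_sub, ← hw, map_mul, AlgHom.commutes]
    have h3 : z₂ = τ0 v₁ ^ k * ip₂ x₂ := by
      rw [← hx₂, ← mul_assoc, ← mul_pow, mul_comm (τ0 v₁), hu, one_pow, one_mul]
    rw [mul_assoc, h2, map_mul, map_pow, H.comm_p, h3]
    ring
  inj_0 z₁ hz₁ := by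
    obtain ⟨w₂, hw₂⟩ := Ideal.mem_span_singleton'.1 hz₁
    obtain ⟨k₁, x₁, hx₁⟩ := hloc₁ z₁
    obtain ⟨k₂, y₂, hy₂⟩ := hloc₂ w₂
    -- `τp (j₁ ^ k₂ * x₁) = π₂ * (τp j₁ ^ k₁ * y₂)`
    have h1 : τp (j₁ ^ k₂ * x₁) = algebraMap O₂ Ap₂ π₂ * (τp j₁ ^ k₁ * y₂) := by
      apply hinj₂
      have hJ : τ0 (ip₁ j₁) = ip₂ (τp j₁) := H.comm_p j₁
      have e1 : ip₂ (τp (j₁ ^ k₂ * x₁)) =
          ip₂ (τp j₁) ^ k₂ * (ip₂ (τp j₁) ^ k₁ * τ0 z₁) := by
        rw [← H.comm_p, map_mul, map_mul, map_pow, map_pow, ← hx₁, map_mul, map_pow, hJ]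
      have e2 : ip₂ (algebraMap O₂ Ap₂ π₂ * (τp j₁ ^ k₁ * y₂)) =
          algebraMap O₂ A0₂ π₂ * (ip₂ (τp j₁) ^ k₁ * (ip₂ (τp j₁) ^ k₂ * w₂)) := by
        rw [map_mul, map_mul, map_pow, AlgHom.commutes, hy₂]
      rw [e1, e2, ← hw₂]
      ring
    have h2 : θp₁ (j₁ ^ k₂ * x₁) = 0 := by
      rw [← hθp, h1, map_mul, hπ, zero_mul]
    obtain ⟨x', hx'⟩ := Ideal.mem_span_singleton'.1 (hkp₁ _ h2)
    refine Ideal.mem_span_singleton'.2 ⟨v₁ ^ (k₁ + k₂) * ip₁ x', ?_⟩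
    have h3 : ip₁ x' * algebraMap O₁ A0₁ π₁ = ip₁ j₁ ^ k₂ * ip₁ x₁ := by
      rw [← AlgHom.commutes ip₁, ← map_mul, hx', map_mul, map_pow]
    have h4 : z₁ = v₁ ^ (k₁ + k₂) * (ip₁ j₁ ^ k₂ * ip₁ x₁) := by
      rw [← hx₁, pow_add]
      have : v₁ ^ k₁ * v₁ ^ k₂ * (ip₁ j₁ ^ k₂ * (ip₁ j₁ ^ k₁ * z₁)) =
          (ip₁ j₁ * v₁) ^ k₁ * (ip₁ j₁ * v₁) ^ k₂ * z₁ := by ring
      rw [this, hv₁, one_pow, one_pow, one_mul, one_mul]
    rw [mul_assoc, h3, ← h4]

end OfTheta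

section Main

variable {g : ℕ} (ε : Fin g → A0₁) (b₁ : Module.Basis (Fin g) O₁ (A0₁ ⧸ chartSum ip₁ im₁))
  (hb₁ : ∀ i, b₁ i = Submodule.Quotient.mk (ε i))

include hb₁ in
omit [IsDomain O₂] [IsDiscreteValuationRing O₂] in
/-- The images of the `ε i` are linearly independent in `H¹` of the special fibre of level 2. -/
theorem dvd_coeff_of_map_mem (H : ChartHom ip₁ im₁ ip₂ im₂ α τp τm τ0)
    (F : SameFibre ip₁ im₁ ip₂ im₂ α τp τm τ0 π₁ π₂) (d : Fin g → O₂)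
    (h : ∑ i, d i • τ0 (ε i) ∈ chartSum ip₂ im₂) : ∀ i, π₂ ∣ d i := by
  choose c₁ hc₁ using fun i => F.res (d i)
  choose e he using hc₁
  obtain ⟨x₂, y₂, hxy⟩ := (mem_chartSum_iff ip₂ im₂ _).1 h
  have hkey : τ0 (∑ i, c₁ i • ε i) - (ip₂ x₂ - im₂ y₂) ∈ Ideal.span {algebraMap O₂ A0₂ π₂} := by
    rw [H.map_sum_smul, ← hxy, ← Finset.sum_sub_distrib]
    refine Ideal.sum_mem _ fun i _ => ?_
    rw [← sub_smul]
    have : α (c₁ i) - d i = π₂ * (- e i) := by rw [mul_neg, ← he i]; ring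
    rw [this, mul_smul, Algebra.smul_def]
    exact Ideal.mul_mem_right _ _ (Ideal.subset_span rfl)
  obtain ⟨x₁, y₁, h1⟩ := F.mem_of_map_mem H _ x₂ y₂ hkey
  have h2 : ip₁ (-x₁) - im₁ (-y₁) + ∑ i, c₁ i • ε i ∈ Ideal.span {algebraMap O₁ A0₁ π₁} := by
    have e : ip₁ (-x₁) - im₁ (-y₁) + ∑ i, c₁ i • ε i = ∑ i, c₁ i • ε i - (ip₁ x₁ - im₁ y₁) := by
      rw [map_neg, map_neg]; ring
    rw [e]; exact h1
  have h3 := dvd_coeff_of_decomp_mem ε b₁ hb₁ _ _ _ h2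
  intro i
  have h4 : π₂ ∣ α (c₁ i) := F.dvd.trans (map_dvd α (h3 i))
  have h5 : d i = (d i - α (c₁ i)) + α (c₁ i) := by ring
  rw [h5]
  exact dvd_add ⟨e i, he i⟩ h4

include hb₁ in
omit [IsDomain O₂] [IsDiscreteValuationRing O₂] in
theorem pow_dvd_coeff_of_map_mem (H : ChartHom ip₁ im₁ ip₂ im₂ α τp τm τ0)
    (F : SameFibre ip₁ im₁ ip₂ im₂ α τp τm τ0 π₁ π₂)
    (hfib : FibreConst π₂ ip₂ im₂)
    (htf : ∀ z : A0₂, algebraMap O₂ A0₂ π₂ * z = 0 → z = 0) (n : ℕ) :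
    ∀ d : Fin g → O₂, ∑ i, d i • τ0 (ε i) ∈ chartSum ip₂ im₂ → ∀ i, π₂ ^ n ∣ d i := by
  induction n with
  | zero => intro d _ i; simp
  | succ n ih =>
    intro d h
    choose d' hd' using dvd_coeff_of_map_mem ε b₁ hb₁ H F d h
    have h' : ∑ i, d' i • τ0 (ε i) ∈ chartSum ip₂ im₂ := by
      apply mem_chartSum_of_smul_mem hfib htf
      rw [Finset.smul_sum]
      convert h using 2 with i
      rw [smul_smul, ← hd' i]
    intro i
    rw [hd' i, pow_succ']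
    exact mul_dvd_mul_left _ (ih d' h' i)

include hb₁ in
/-- **Invariance of the basis under change of level.**  If `ε i ∈ A₀(1)` are lifts of a basis of
`H¹(1)`, the level-2 charts have the same special fibre, `H¹(2)` is finitely generated and the
special fibre of level 2 has only constant global functions, then the images of the `ε i` are lifts
of a basis of `H¹(2)`. -/
theorem exists_basis_map (hπ₂ : Irreducible π₂) (H : ChartHom ip₁ im₁ ip₂ im₂ α τp τm τ0)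
    (F : SameFibre ip₁ im₁ ip₂ im₂ α τp τm τ0 π₁ π₂)
    (hfib : FibreConst π₂ ip₂ im₂)
    (htf : ∀ z : A0₂, algebraMap O₂ A0₂ π₂ * z = 0 → z = 0)
    [Module.Finite O₂ (A0₂ ⧸ chartSum ip₂ im₂)] :
    ∃ b₂ : Module.Basis (Fin g) O₂ (A0₂ ⧸ chartSum ip₂ im₂),
      ∀ i, b₂ i = Submodule.Quotient.mk (τ0 (ε i)) := by
  set v : Fin g → A0₂ ⧸ chartSum ip₂ im₂ := fun i => Submodule.Quotient.mk (τ0 (ε i)) with hv
  have hsum : ∀ d : Fin g → O₂, ∑ i, d i • v i =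
      Submodule.Quotient.mk (∑ i, d i • τ0 (ε i)) := by
    intro d
    rw [← Submodule.mkQ_apply (chartSum ip₂ im₂) (∑ i, d i • τ0 (ε i)), map_sum]
    simp only [Submodule.mkQ_apply, Submodule.Quotient.mk_smul, hv]
  -- linear independence
  have hli : LinearIndependent O₂ v := by
    rw [Fintype.linearIndependent_iff]
    intro d hd i
    rw [hsum, Submodule.Quotient.mk_eq_zero] at hd
    by_contra hne
    obtain ⟨n, hn⟩ := FiniteMultiplicity.of_not_isUnit hπ₂.not_isUnit hne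
    exact hn (pow_dvd_coeff_of_map_mem ε b₁ hb₁ H F hfib htf (n + 1) d hd i)
  -- generation
  have hsp : ⊤ ≤ Submodule.span O₂ (Set.range v) := by
    have hfg : (⊤ : Submodule O₂ (A0₂ ⧸ chartSum ip₂ im₂)).FG := Module.finite_def.1 inferInstance
    have hjac : Ideal.span {π₂} ≤ Ideal.jacobson (⊥ : Ideal O₂) := by
      rw [IsLocalRing.jacobson_eq_maximalIdeal ⊥ bot_ne_top, Ideal.span_le,
        Set.singleton_subset_iff]
      exact (IsLocalRing.mem_maximalIdeal _).2 hπ₂.not_isUnit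
    refine Submodule.le_of_le_smul_of_le_jacobson_bot hfg hjac ?_
    rintro m -
    obtain ⟨z, rfl⟩ := Submodule.Quotient.mk_surjective _ m
    obtain ⟨z₁, hz₁⟩ := F.surj_0 z
    obtain ⟨w, hw⟩ := Ideal.mem_span_singleton'.1 hz₁
    obtain ⟨x, y, c, hc⟩ := exists_decomp ε b₁ hb₁ z₁
    have e1 : z = τ0 z₁ + π₂ • w := by
      rw [Algebra.smul_def, mul_comm, hw]; ring
    have e2 : τ0 z₁ = (ip₂ (τp x) - im₂ (τm y)) + ∑ i, α (c i) • τ0 (ε i) := by
      rw [hc, map_add, map_sub, H.comm_p, H.comm_m, H.map_sum_smul]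
    rw [e1, e2, Submodule.Quotient.mk_add, Submodule.Quotient.mk_add,
      (Submodule.Quotient.mk_eq_zero _).2 ((mem_chartSum_iff ip₂ im₂ _).2 ⟨_, _, rfl⟩), zero_add,
      ← hsum, Submodule.Quotient.mk_smul]
    refine Submodule.add_mem_sup ?_ ?_
    · exact Submodule.sum_mem _ fun i _ =>
        Submodule.smul_mem _ _ (Submodule.subset_span ⟨i, rfl⟩)
    · exact Submodule.smul_mem_smul (Ideal.subset_span rfl) Submodule.mem_top
  exact ⟨Module.Basis.mk hli hsp, fun i => by rw [Module.Basis.mk_apply]⟩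

end Main

end Abstract

section LevelMaps

variable {K K' : Type} [Field K] [Field K'] (f : K →+* K') (N : ℕ)
  (O : Subring K) (O' : Subring K') (hOO' : ∀ a ∈ O, f a ∈ O')

include hOO' in
theorem ffMap_mem_Rfin {x : FF K N} (hx : x ∈ Rfin K N O) : ffMap f N x ∈ Rfin K' N O' :=
  Fermat.Agent.N4F.C.LevelCharts.map_mem_chartAlg (oMap f O O' hOO') (ffMap f N)
    (ffMap_algebraMap_base f N O O' hOO')
    (by rintro _ rfl; exact ffMap_jF f N) hx

include hOO' in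
theorem ffMap_mem_Rinf {x : FF K N} (hx : x ∈ Rinf K N O) : ffMap f N x ∈ Rinf K' N O' :=
  Fermat.Agent.N4F.C.LevelCharts.map_mem_chartAlg (oMap f O O' hOO') (ffMap f N)
    (ffMap_algebraMap_base f N O O' hOO')
    (by rintro _ rfl; rw [map_inv₀, ffMap_jF]; rfl) hx

include hOO' in
theorem ffMap_mem_Rmid {x : FF K N} (hx : x ∈ Rmid K N O) : ffMap f N x ∈ Rmid K' N O' :=
  Fermat.Agent.N4F.C.LevelCharts.map_mem_chartAlg (oMap f O O' hOO') (ffMap f N)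
    (ffMap_algebraMap_base f N O O' hOO')
    (by
      rintro y (rfl | hy)
      · rw [ffMap_jF]; exact Set.mem_insert _ _
      · rw [Set.mem_singleton_iff] at hy
        rw [hy, map_inv₀, ffMap_jF]; exact Set.mem_insert_of_mem _ rfl) hx

/-- Base change of the finite chart. -/
def finMap : ↥(Rfin K N O) →+* ↥(Rfin K' N O') :=
  ((ffMap f N).comp (algebraMap ↥(Rfin K N O) (FF K N))).codRestrict (Rfin K' N O')
    (fun a => ffMap_mem_Rfin f N O O' hOO' a.2)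

/-- Base change of the chart at infinity. -/
def infMap : ↥(Rinf K N O) →+* ↥(Rinf K' N O') :=
  ((ffMap f N).comp (algebraMap ↥(Rinf K N O) (FF K N))).codRestrict (Rinf K' N O')
    (fun a => ffMap_mem_Rinf f N O O' hOO' a.2)

/-- Base change of the overlap chart. -/
def midMap : ↥(Rmid K N O) →+* ↥(Rmid K' N O') :=
  ((ffMap f N).comp (algebraMap ↥(Rmid K N O) (FF K N))).codRestrict (Rmid K' N O')
    (fun a => ffMap_mem_Rmid f N O O' hOO' a.2)

@[simp] theorem coe_finMap (x : ↥(Rfin K N O)) :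
    ((finMap f N O O' hOO' x : ↥(Rfin K' N O')) : FF K' N) = ffMap f N (x : FF K N) := rfl

@[simp] theorem coe_infMap (x : ↥(Rinf K N O)) :
    ((infMap f N O O' hOO' x : ↥(Rinf K' N O')) : FF K' N) = ffMap f N (x : FF K N) := rfl

@[simp] theorem coe_midMap (x : ↥(Rmid K N O)) :
    ((midMap f N O O' hOO' x : ↥(Rmid K' N O')) : FF K' N) = ffMap f N (x : FF K N) := rfl


omit hOO' in
/-- `j⁻¹` as an element of the overlap chart. -/
def jInvMid : ↥(Rmid K N O) :=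
  chartGen (O := ↥O) (S := {jF K N, (jF K N)⁻¹}) (Set.mem_insert_of_mem _ rfl)

omit hOO' in
theorem inclFin_jFin_mul_jInvMid : inclFin K N O (jFin K N O) * jInvMid N O = 1 := by
  apply Subtype.ext
  rw [Subalgebra.coe_mul, Subalgebra.coe_one, coe_chartIncl, coe_jFin]
  exact mul_inv_cancel₀ (jF_ne_zero K N)

omit hOO' in
/-- `Rmid = Rfin[1/j]`: clearing denominators. -/
theorem exists_pow_mul_eq_inclFin (z : ↥(Rmid K N O)) :
    ∃ (k : ℕ) (x : ↥(Rfin K N O)), inclFin K N O (jFin K N O) ^ k * z = inclFin K N O x := by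
  have hz : (z : FF K N) ∈ chartAlg ↥O (FF K N) (insert (jF K N)⁻¹ {jF K N}) := by
    rw [Set.pair_comm]
    exact z.2
  obtain ⟨k, hk⟩ := exists_pow_mul_mem_chartAlg (O := ↥O) (Set.mem_singleton (jF K N))
    (jF_ne_zero K N) hz
  refine ⟨k, ⟨_, hk⟩, ?_⟩
  apply Subtype.ext
  rw [Subalgebra.coe_mul, SubmonoidClass.coe_pow, coe_chartIncl, coe_chartIncl, coe_jFin]

theorem finMap_jFin : finMap f N O O' hOO' (jFin K N O) = jFin K' N O' :=
  Subtype.ext (ffMap_jF f N)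

omit hOO' in
theorem inclFin_injective : Function.Injective (inclFin K N O) :=
  chartIncl_injective (O := ↥O) (sFin_subset K N)

omit hOO' in
theorem coe_algebraMap_chart (R : Subalgebra ↥O (FF K N)) (o : ↥O) :
    ((algebraMap ↥O ↥R o : ↥R) : FF K N) = algebraMap ↥O (FF K N) o := rfl

/-- The base change of charts is a morphism of two-chart models over `O → O'`. -/
theorem chartHom_level :
    ChartHom (inclFin K N O) (inclInf K N O) (inclFin K' N O') (inclInf K' N O')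
      (oMap f O O' hOO') (finMap f N O O' hOO') (infMap f N O O' hOO') (midMap f N O O' hOO') where
  alg_p o := by
    apply Subtype.ext
    rw [coe_finMap, coe_algebraMap_chart, coe_algebraMap_chart, ffMap_algebraMap_base f N O O' hOO']
  alg_m o := by
    apply Subtype.ext
    rw [coe_infMap, coe_algebraMap_chart, coe_algebraMap_chart, ffMap_algebraMap_base f N O O' hOO']
  alg_0 o := by
    apply Subtype.ext
    rw [coe_midMap, coe_algebraMap_chart, coe_algebraMap_chart, ffMap_algebraMap_base f N O O' hOO']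
  comm_p x := by
    apply Subtype.ext
    rw [coe_midMap, coe_chartIncl, coe_chartIncl, coe_finMap]
  comm_m y := by
    apply Subtype.ext
    rw [coe_midMap, coe_chartIncl, coe_chartIncl, coe_infMap]

end LevelMaps


/-! ### Inclusion of good levels -/

section Incl

open Fermat.Agent.N4F.C Fermat.Agent.N4F.C.Levels Fermat.Agent.N4F.C.LevelCharts
  Fermat.Agent.N4F.C.ChartFactsProof Fermat.Agent.N4F.C.ThetaLevel Fermat.Agent.N4F.C.ChartFibre
  Fermat.Agent.N4.FibreEmbedding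

local notation "Qb" => AlgebraicClosure ℚ

variable (A : ValuationSubring Qb) (N : ℕ) [NeZero N]
  {K₁ L : IntermediateField ℚ Qb} (hKL : K₁ ≤ L)

/-- The inclusion `K₁ ⊆ L` of levels, as a ring homomorphism `Lvl K₁ → Lvl L`. -/
def lvlIncl : Lvl K₁ →+* Lvl L := (IntermediateField.inclusion hKL).toRingHom

theorem algebraMap_lvlIncl (a : Lvl K₁) :
    algebraMap (Lvl L) Qb (lvlIncl hKL a) = algebraMap (Lvl K₁) Qb a := rfl

theorem mem_baseRing_iff' {K : IntermediateField ℚ Qb} {a : Lvl K} :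
    a ∈ baseRing A K ↔ algebraMap (Lvl K) Qb a ∈ A := Iff.rfl

theorem lvlIncl_mem (a : Lvl K₁) (ha : a ∈ baseRing A K₁) : lvlIncl hKL a ∈ baseRing A L := by
  rw [mem_baseRing_iff', algebraMap_lvlIncl]
  exact (mem_baseRing_iff' A).1 ha

theorem baseIncl_oMap (a : ↥(baseRing A K₁)) :
    baseIncl A L (oMap (lvlIncl hKL) (baseRing A K₁) (baseRing A L) (lvlIncl_mem A hKL) a) =
      baseIncl A K₁ a := Subtype.ext rfl

theorem levK_ffMap (x : FF (Lvl K₁) N) : levK N L (ffMap (lvlIncl hKL) N x) = levK N K₁ x := by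
  apply Subtype.ext
  rw [coe_lev, coe_lev, coe_ffMap, coeffMap_coeffMap]
  rfl


/-! #### The reduction maps of a level -/

section Theta

variable (K : IntermediateField ℚ Qb) [IsDiscreteValuationRing ↥(baseRing A K)]
  (P : LevelPack A N K)

/-- Reduction of the finite chart of a level, with values in the function field of the special
fibre over `κ(A)`. -/
def thFin : ↥(Rfin (Lvl K) N (baseRing A K)) →+* Ft A N :=
  haveI := P.frac
  (ffMap (IsLocalRing.ResidueField.map (baseIncl A K)) N).comp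
    (redFin (Lvl K) N (baseRing A K) P.hN)

/-- Reduction of the chart at infinity of a level. -/
def thInf : ↥(Rinf (Lvl K) N (baseRing A K)) →+* Ft A N :=
  haveI := P.frac
  (ffMap (IsLocalRing.ResidueField.map (baseIncl A K)) N).comp
    (redInf (Lvl K) N (baseRing A K) P.hN)

theorem thetaFt_levK_eq_thFin (x : ↥(Rfin (Lvl K) N (baseRing A K))) :
    thetaFt A N (levK N K (x : FF (Lvl K) N)) = thFin A N K P x := by
  haveI := P.frac
  exact thetaFt_lev_fin A N (Lvl K) (baseRing A K) (baseIncl A K) (coe_baseIncl A K) P.hN x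

theorem thetaFt_levK_eq_thInf (x : ↥(Rinf (Lvl K) N (baseRing A K))) :
    thetaFt A N (levK N K (x : FF (Lvl K) N)) = thInf A N K P x := by
  haveI := P.frac
  exact thetaFt_lev_inf A N (Lvl K) (baseRing A K) (baseIncl A K) (coe_baseIncl A K) P.hN x

theorem mem_span_of_thFin_eq_zero {π : ↥(baseRing A K)} (hπ : Irreducible π)
    (x : ↥(Rfin (Lvl K) N (baseRing A K))) (hx : thFin A N K P x = 0) :
    x ∈ Ideal.span {algebraMap ↥(baseRing A K) ↥(Rfin (Lvl K) N (baseRing A K)) π} := by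
  haveI := P.frac
  have h := mem_fibreIdeal_of_thetaFt_lev_eq_zero_fin A N (Lvl K) (baseRing A K) (baseIncl A K)
    (coe_baseIncl A K) P.hN P.primeFin x ((thetaFt_levK_eq_thFin A N K P x).trans hx)
  rwa [fibreIdeal_eq_span (Lvl K) N (baseRing A K) hπ] at h

theorem mem_span_of_thInf_eq_zero {π : ↥(baseRing A K)} (hπ : Irreducible π)
    (x : ↥(Rinf (Lvl K) N (baseRing A K))) (hx : thInf A N K P x = 0) :
    x ∈ Ideal.span {algebraMap ↥(baseRing A K) ↥(Rinf (Lvl K) N (baseRing A K)) π} := by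
  haveI := P.frac
  have h := mem_fibreIdeal_of_thetaFt_lev_eq_zero_inf A N (Lvl K) (baseRing A K) (baseIncl A K)
    (coe_baseIncl A K) P.hN P.primeInf x ((thetaFt_levK_eq_thInf A N K P x).trans hx)
  rwa [fibreIdeal_eq_span (Lvl K) N (baseRing A K) hπ] at h

theorem thFin_mem (x : ↥(Rfin (Lvl K) N (baseRing A K))) :
    thFin A N K P x ∈ SigmaFin (Kap A) N := by
  haveI := P.frac
  rw [← thetaFt_levK_eq_thFin]
  exact thetaFt_lev_mem_SigmaFin A N (Lvl K) (baseRing A K) (baseIncl A K) (coe_baseIncl A K)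
    P.hN x

theorem thInf_mem (x : ↥(Rinf (Lvl K) N (baseRing A K))) :
    thInf A N K P x ∈ SigmaInf (Kap A) N := by
  haveI := P.frac
  rw [← thetaFt_levK_eq_thInf]
  exact thetaFt_lev_mem_SigmaInf A N (Lvl K) (baseRing A K) (baseIncl A K) (coe_baseIncl A K)
    P.hN x

theorem exists_thFin_eq {b : Ft A N} (hb : b ∈ SigmaFin (Kap A) N) :
    ∃ x : ↥(Rfin (Lvl K) N (baseRing A K)), thFin A N K P x = b := by
  haveI := P.frac
  obtain ⟨x, hx⟩ := exists_thetaFt_lev_eq_fin A N (Lvl K) (baseRing A K) (baseIncl A K)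
    (coe_baseIncl A K) P.hN P.hbij P.primeFin P.dedFin hb
  exact ⟨x, (thetaFt_levK_eq_thFin A N K P x).symm.trans hx⟩

theorem exists_thInf_eq {b : Ft A N} (hb : b ∈ SigmaInf (Kap A) N) :
    ∃ x : ↥(Rinf (Lvl K) N (baseRing A K)), thInf A N K P x = b := by
  haveI := P.frac
  obtain ⟨x, hx⟩ := exists_thetaFt_lev_eq_inf A N (Lvl K) (baseRing A K) (baseIncl A K)
    (coe_baseIncl A K) P.hN P.hbij P.primeInf P.dedInf hb
  exact ⟨x, (thetaFt_levK_eq_thInf A N K P x).symm.trans hx⟩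

theorem thFin_algebraMap_irreducible {π : ↥(baseRing A K)} (hπ : Irreducible π) :
    thFin A N K P (algebraMap ↥(baseRing A K) ↥(Rfin (Lvl K) N (baseRing A K)) π) = 0 := by
  haveI := P.frac
  unfold thFin
  rw [RingHom.comp_apply, redFin_algebraMap, residue_irreducible (Lvl K) (baseRing A K) hπ, map_zero,
    map_zero]

end Theta


/-! #### Two levels `K₁ ⊆ L` -/

section TwoLevels

variable [IsDiscreteValuationRing ↥(baseRing A K₁)] [IsDiscreteValuationRing ↥(baseRing A L)]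
  (P₁ : LevelPack A N K₁) (P₂ : LevelPack A N L)

/-- `O_{K₁} → O_L`. -/
abbrev baseMapIncl : ↥(baseRing A K₁) →+* ↥(baseRing A L) :=
  oMap (lvlIncl hKL) (baseRing A K₁) (baseRing A L) (lvlIncl_mem A hKL)

/-- `R^fin_{K₁} → R^fin_L`. -/
abbrev finIncl : ↥(Rfin (Lvl K₁) N (baseRing A K₁)) →+* ↥(Rfin (Lvl L) N (baseRing A L)) :=
  finMap (lvlIncl hKL) N (baseRing A K₁) (baseRing A L) (lvlIncl_mem A hKL)

/-- `R^inf_{K₁} → R^inf_L`. -/
abbrev infIncl : ↥(Rinf (Lvl K₁) N (baseRing A K₁)) →+* ↥(Rinf (Lvl L) N (baseRing A L)) :=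
  infMap (lvlIncl hKL) N (baseRing A K₁) (baseRing A L) (lvlIncl_mem A hKL)

/-- `R^mid_{K₁} → R^mid_L`. -/
abbrev midIncl : ↥(Rmid (Lvl K₁) N (baseRing A K₁)) →+* ↥(Rmid (Lvl L) N (baseRing A L)) :=
  midMap (lvlIncl hKL) N (baseRing A K₁) (baseRing A L) (lvlIncl_mem A hKL)

theorem thFin_finIncl (x : ↥(Rfin (Lvl K₁) N (baseRing A K₁))) :
    thFin A N L P₂ (finIncl A N hKL x) = thFin A N K₁ P₁ x := by
  rw [← thetaFt_levK_eq_thFin, ← thetaFt_levK_eq_thFin, coe_finMap, levK_ffMap]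

theorem thInf_infIncl (x : ↥(Rinf (Lvl K₁) N (baseRing A K₁))) :
    thInf A N L P₂ (infIncl A N hKL x) = thInf A N K₁ P₁ x := by
  rw [← thetaFt_levK_eq_thInf, ← thetaFt_levK_eq_thInf, coe_infMap, levK_ffMap]

include P₁ P₂ in
/-- The residue fields of the two levels coincide. -/
theorem exists_dvd_sub_baseMapIncl {π₂ : ↥(baseRing A L)} (hπ₂ : Irreducible π₂)
    (c : ↥(baseRing A L)) : ∃ c₁ : ↥(baseRing A K₁), π₂ ∣ c - baseMapIncl A hKL c₁ := by
  obtain ⟨r, hr⟩ := P₁.hbij.2 (IsLocalRing.residue ↥A (baseIncl A L c))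
  obtain ⟨c₁, rfl⟩ := IsLocalRing.residue_surjective r
  refine ⟨c₁, ?_⟩
  have h : IsLocalRing.residue ↥(baseRing A L) (c - baseMapIncl A hKL c₁) = 0 := by
    apply P₂.hbij.1
    rw [map_zero, IsLocalRing.ResidueField.map_residue, map_sub, baseIncl_oMap, map_sub,
      ← IsLocalRing.ResidueField.map_residue (baseIncl A K₁), hr, sub_self]
  rw [IsLocalRing.residue_eq_zero_iff, hπ₂.maximalIdeal_eq, Ideal.mem_span_singleton] at h
  exact h

/-- A uniformiser of `O_{K₁}` is not a unit of `O_L`. -/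
theorem dvd_baseMapIncl_irreducible {π₁ : ↥(baseRing A K₁)} (hπ₁ : Irreducible π₁)
    {π₂ : ↥(baseRing A L)} (hπ₂ : Irreducible π₂) : π₂ ∣ baseMapIncl A hKL π₁ := by
  rw [← Ideal.mem_span_singleton, ← hπ₂.maximalIdeal_eq, IsLocalRing.mem_maximalIdeal,
    mem_nonunits_iff]
  intro hu
  have h1 : IsUnit (baseIncl A L (baseMapIncl A hKL π₁)) := hu.map _
  rw [baseIncl_oMap] at h1
  exact hπ₁.not_isUnit (isUnit_of_map_unit (baseIncl A K₁) π₁ h1)

include P₁ P₂ in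
/-- **The two levels have the same special fibre.** -/
theorem sameFibre_incl {π₁ : ↥(baseRing A K₁)} (hπ₁ : Irreducible π₁)
    {π₂ : ↥(baseRing A L)} (hπ₂ : Irreducible π₂) :
    SameFibre (inclFin (Lvl K₁) N (baseRing A K₁)) (inclInf (Lvl K₁) N (baseRing A K₁))
      (inclFin (Lvl L) N (baseRing A L)) (inclInf (Lvl L) N (baseRing A L))
      (baseMapIncl A hKL) (finIncl A N hKL) (infIncl A N hKL) (midIncl A N hKL) π₁ π₂ := by
  refine sameFibre_of_theta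
    (chartHom_level (lvlIncl hKL) N (baseRing A K₁) (baseRing A L) (lvlIncl_mem A hKL))
    (dvd_baseMapIncl_irreducible A hKL hπ₁ hπ₂)
    (exists_dvd_sub_baseMapIncl A N hKL P₁ P₂ hπ₂)
    (thFin A N K₁ P₁) (thFin A N L P₂) (thInf A N K₁ P₁) (thInf A N L P₂)
    (thFin_finIncl A N hKL P₁ P₂) (thInf_infIncl A N hKL P₁ P₂)
    (fun x₂ => exists_thFin_eq A N K₁ P₁ (thFin_mem A N L P₂ x₂))
    (fun y₂ => exists_thInf_eq A N K₁ P₁ (thInf_mem A N L P₂ y₂))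
    (mem_span_of_thFin_eq_zero A N K₁ P₁ hπ₁)
    (mem_span_of_thFin_eq_zero A N L P₂ hπ₂)
    (mem_span_of_thInf_eq_zero A N L P₂ hπ₂)
    (thFin_algebraMap_irreducible A N L P₂ hπ₂)
    (jFin (Lvl K₁) N (baseRing A K₁)) (jInvMid N (baseRing A K₁))
    (inclFin_jFin_mul_jInvMid N (baseRing A K₁))
    (exists_pow_mul_eq_inclFin N (baseRing A K₁)) ?_
    (inclFin_injective N (baseRing A L))
  intro z₂
  rw [finMap_jFin]
  exact exists_pow_mul_eq_inclFin N (baseRing A L) z₂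

/-- `H¹` of a level is a finitely generated module over the base ring. -/
theorem finite_h1_level (K : IntermediateField ℚ Qb) [IsDiscreteValuationRing ↥(baseRing A K)]
    (P : LevelPack A N K) :
    Module.Finite ↥(baseRing A K) (↥(Rmid (Lvl K) N (baseRing A K)) ⧸
      chartSum (inclFin (Lvl K) N (baseRing A K)) (inclInf (Lvl K) N (baseRing A K))) := by
  haveI := P.frac
  haveI := Fermat.Agent.N4.ModPolySetting.finiteDimensional_FF (Lvl K) N
  exact Fermat.Agent.N4.IntClosureCech.cech_h1 (O := ↥(baseRing A K)) (K := Lvl K)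
    (F := FF (Lvl K) N) (jF (Lvl K) N) (Fermat.Agent.N4.FFAlgebraic.transcendental_jF (Lvl K) N)

/-- The overlap chart of a level has no `π`-torsion. -/
theorem mul_eq_zero_level (K : IntermediateField ℚ Qb) [IsDiscreteValuationRing ↥(baseRing A K)]
    {π : ↥(baseRing A K)} (hπ : Irreducible π) (z : ↥(Rmid (Lvl K) N (baseRing A K)))
    (hz : algebraMap ↥(baseRing A K) ↥(Rmid (Lvl K) N (baseRing A K)) π * z = 0) : z = 0 := by
  rcases mul_eq_zero.1 hz with h | h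
  · exfalso
    have h1 : algebraMap ↥(baseRing A K) (FF (Lvl K) N) π = 0 :=
      congrArg (fun w : ↥(Rmid (Lvl K) N (baseRing A K)) => (w : FF (Lvl K) N)) h
    exact algebraMap_base_ne_zero N (baseRing A K) hπ.ne_zero h1
  · exact h

include P₁ P₂ in
/-- **[LVL] Invariance of the basis of `H¹` under change of good level.**  `K₁ ⊆ L` good levels,
`ε i ∈ R^mid_{K₁}` lifts of a basis of `H¹(K₁)`; if the special fibre of level `L` has only constant
global functions (`FibreConst`, Q1 at level `L`), the images of the `ε i` in `R^mid_L` are lifts of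
a basis of `H¹(L)` over `O_L`. -/
theorem exists_basis_level {π₂ : ↥(baseRing A L)} (hπ₂ : Irreducible π₂)
    (hfib : FibreConst π₂ (inclFin (Lvl L) N (baseRing A L)) (inclInf (Lvl L) N (baseRing A L)))
    {g : ℕ} (ε : Fin g → ↥(Rmid (Lvl K₁) N (baseRing A K₁)))
    (b₁ : Module.Basis (Fin g) ↥(baseRing A K₁) (↥(Rmid (Lvl K₁) N (baseRing A K₁)) ⧸
      chartSum (inclFin (Lvl K₁) N (baseRing A K₁)) (inclInf (Lvl K₁) N (baseRing A K₁))))
    (hb₁ : ∀ i, b₁ i = Submodule.Quotient.mk (ε i)) :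
    ∃ b₂ : Module.Basis (Fin g) ↥(baseRing A L) (↥(Rmid (Lvl L) N (baseRing A L)) ⧸
        chartSum (inclFin (Lvl L) N (baseRing A L)) (inclInf (Lvl L) N (baseRing A L))),
      ∀ i, b₂ i = Submodule.Quotient.mk (midIncl A N hKL (ε i)) := by
  obtain ⟨π₁, hπ₁⟩ := IsDiscreteValuationRing.exists_irreducible ↥(baseRing A K₁)
  haveI := finite_h1_level A N L P₂
  exact exists_basis_map ε b₁ hb₁ hπ₂
    (chartHom_level (lvlIncl hKL) N (baseRing A K₁) (baseRing A L) (lvlIncl_mem A hKL))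
    (sameFibre_incl A N hKL P₁ P₂ hπ₁ hπ₂) hfib (mul_eq_zero_level A N L hπ₂)

end TwoLevels

end Incl

end Fermat.Agent.S19.Cech.LevelBasis
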