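/-
S19, Čech route, Q1 for the concrete N4 charts at EVERY good level (helper26; on top of
`Cech/LevelBasis`): for a level `K` (`IntermediateField ℚ Q̄`) with `LevelPack A N K`
(`O_K = baseRing A K` a DVR with residue field `κ(A)`, prime Dedekind fibres of both charts; ramified
levels allowed), `π` a uniformiser of `O_K`:

* `mem_range_of_mem_SigmaFin_of_mem_SigmaInf` : `SigmaFin ∩ SigmaInf = κ(A)` (`H⁰` of the special fibre;
  `IntClosure.mem_range_of_mem_chartAlg_of_mem_chartAlg_inv` over the field `κ(A)`);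
* `thFin_eq_thInf_of_sub_mem` : `x ∈ Rfin`, `y ∈ Rinf`, `x - y ∈ π Rmid` ⟹ same reduction;
* **(F1) `fibreConst_level`** : `TorsionFree.FibreConst π (inclFin …) (inclInf …)`;
* **(F2) `not_isUnit_algebraMap_level`** : `π` is not a unit of `Rmid` (with `LevelBasis.mul_eq_zero_level`
  = purity of `O_K → Rmid`, the `htf`/`hnu` of `hypAll_of_basis_dvr`);
* **(F3) `h0_level`** : `Rfin ∩ Rinf = O_K` (`cech_h0` on the generic fibre);
* `exists_basis_lift_level` : basis lifts of `H¹(K)` exist; `hypAll_level` : `HypAll` for any family of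
  basis lifts at level `K`;
* **`exists_basis_level'`** : `K₁ ≤ L` good levels: basis lifts of `H¹(K₁)` stay basis lifts of `H¹(L)`
  (`LevelBasis.exists_basis_level` with its last hypothesis discharged);
* **`hypAll_level_of_base`** : `HypAll (inclFin L) (inclInf L) (fun i => midIncl A N hKL (ε i))` —
  `Hyp` on `S ⊗[O_L] R_?(L)` for EVERY `O_L`-algebra `S` and nilpotent ideal, with the frame `ε` chosen
  at the base level `K₁`.
-/
import Mathlib
import Fermat.Agent.S19.Cech.LevelBasis
import Fermat.Agent.N4.SmoothModel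
import Fermat.Agent.S19.Cech.HypAllOfBasis

set_option autoImplicit false
set_option linter.unusedSectionVars false
set_option linter.style.haveILetI false
set_option synthInstance.maxHeartbeats 400000
set_option maxHeartbeats 800000

open ModularCurve AlgebraicCurve

noncomputable section

namespace Fermat.Agent.S19.Cech.LevelFibreConst

open Fermat.Agent.N4.FormalFunctions Fermat.Agent.S19.Cech.TorsionFree
  Fermat.Agent.S19.Cech.LevelBasis
open Fermat.Agent.N4.Chart Fermat.Agent.N4.Setting Fermat.Agent.N4.BaseDescent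
open Fermat.Agent.N4F.C Fermat.Agent.N4F.C.Levels Fermat.Agent.N4F.C.LevelCharts
  Fermat.Agent.N4F.C.ChartFactsProof Fermat.Agent.N4F.C.ThetaLevel Fermat.Agent.N4F.C.ChartFibre
  Fermat.Agent.N4.FibreEmbedding

local notation "Qb" => AlgebraicClosure ℚ

/-! ### Constants of the special fibre -/

section Const

variable (A : ValuationSubring Qb) (N : ℕ) [NeZero N]

/-- `κ(A)` is algebraically closed in the function field of the special fibre. -/
theorem mem_range_of_isAlgebraic_Ft (u : Ft A N) (hu : IsAlgebraic (Kap A) u) :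
    u ∈ (algebraMap (Kap A) (Ft A N)).range := by
  haveI : IsAlgClosed (Kap A) := Fermat.Agent.N4.BigDVR.isAlgClosed_residueField A
  have hint : IsIntegral (Kap A) u := hu.isIntegral
  have hdeg : (minpoly (Kap A) u).degree = 1 :=
    IsAlgClosed.degree_eq_one_of_irreducible (Kap A) (minpoly.irreducible hint)
  exact minpoly.mem_range_of_degree_eq_one (Kap A) u hdeg

/-- **`H⁰` of the special fibre**: `SigmaFin ∩ SigmaInf = κ(A)`. -/
theorem mem_range_of_mem_SigmaFin_of_mem_SigmaInf {u : Ft A N}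
    (hp : u ∈ SigmaFin (Kap A) N) (hm : u ∈ SigmaInf (Kap A) N) :
    u ∈ (algebraMap (Kap A) (Ft A N)).range :=
  Fermat.Agent.N4.IntClosure.mem_range_of_mem_chartAlg_of_mem_chartAlg_inv (O := Kap A)
    (K := Kap A) (F := Ft A N) (jF (Kap A) N)
    (Fermat.Agent.N4.FFAlgebraic.transcendental_jF (Kap A) N)
    (mem_range_of_isAlgebraic_Ft A N) hp hm

end Const

/-! ### One level -/

section Level

variable (A : ValuationSubring Qb) (N : ℕ) [NeZero N]
  (K : IntermediateField ℚ Qb) [IsDiscreteValuationRing ↥(baseRing A K)] (P : LevelPack A N K)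

omit P in
/-- The overlap chart of a level lies in the Gauss ring. -/
theorem mem_gauss_of_mem_Rmid [IsFractionRing ↥(baseRing A K) (Lvl K)] {z : FF (Lvl K) N}
    (hz : z ∈ Rmid (Lvl K) N (baseRing A K)) :
    z ∈ gaussSubalgebra (Lvl K) N (baseRing A K) := by
  refine chartAlg_le_gaussSubalgebra (Lvl K) N (baseRing A K) ?_ hz
  rintro y (rfl | hy)
  · exact jF_mem_gaussSubalgebra (Lvl K) N (baseRing A K)
  · rw [Set.mem_singleton_iff] at hy
    rw [hy]
    exact jF_inv_mem_gaussSubalgebra (Lvl K) N (baseRing A K)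

theorem thFin_algebraMap (c : ↥(baseRing A K)) :
    thFin A N K P (algebraMap ↥(baseRing A K) ↥(Rfin (Lvl K) N (baseRing A K)) c) =
      algebraMap (Kap A) (Ft A N)
        (IsLocalRing.ResidueField.map (baseIncl A K) (IsLocalRing.residue _ c)) := by
  haveI := P.frac
  unfold thFin
  rw [RingHom.comp_apply, redFin_algebraMap, ffMap_algebraMap]

theorem thInf_algebraMap (c : ↥(baseRing A K)) :
    thInf A N K P (algebraMap ↥(baseRing A K) ↥(Rinf (Lvl K) N (baseRing A K)) c) =
      algebraMap (Kap A) (Ft A N)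
        (IsLocalRing.ResidueField.map (baseIncl A K) (IsLocalRing.residue _ c)) := by
  haveI := P.frac
  unfold thInf
  rw [RingHom.comp_apply, redInf_algebraMap, ffMap_algebraMap]

theorem thFin_jFin : thFin A N K P (jFin (Lvl K) N (baseRing A K)) = jF (Kap A) N := by
  haveI := P.frac
  unfold thFin
  rw [RingHom.comp_apply, redFin_jFin, ffMap_jF]

/-- Two chart elements which agree modulo `π` on the overlap have the same reduction. -/
theorem thFin_eq_thInf_of_sub_mem {π : ↥(baseRing A K)} (hπ : Irreducible π)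
    (x : ↥(Rfin (Lvl K) N (baseRing A K))) (y : ↥(Rinf (Lvl K) N (baseRing A K)))
    (h : inclFin (Lvl K) N (baseRing A K) x - inclInf (Lvl K) N (baseRing A K) y ∈
      Ideal.span {algebraMap ↥(baseRing A K) ↥(Rmid (Lvl K) N (baseRing A K)) π}) :
    thFin A N K P x = thInf A N K P y := by
  haveI := P.frac
  obtain ⟨w, hw⟩ := Ideal.mem_span_singleton'.1 h
  have hF : (x : FF (Lvl K) N) - (y : FF (Lvl K) N) =
      (w : FF (Lvl K) N) * algebraMap ↥(baseRing A K) (FF (Lvl K) N) π := by
    have h1 := congrArg (fun z : ↥(Rmid (Lvl K) N (baseRing A K)) => (z : FF (Lvl K) N)) hw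
    simp only [Subalgebra.coe_mul, Subalgebra.coe_sub, coe_chartIncl, coe_algebraMap_chart] at h1
    exact h1.symm
  have hxG : (x : FF (Lvl K) N) ∈ gaussSubalgebra (Lvl K) N (baseRing A K) :=
    chartAlg_le_gaussSubalgebra (Lvl K) N (baseRing A K)
      (Set.singleton_subset_iff.mpr (jF_mem_gaussSubalgebra (Lvl K) N (baseRing A K))) x.2
  have hyG : (y : FF (Lvl K) N) ∈ gaussSubalgebra (Lvl K) N (baseRing A K) :=
    chartAlg_le_gaussSubalgebra (Lvl K) N (baseRing A K)
      (Set.singleton_subset_iff.mpr (jF_inv_mem_gaussSubalgebra (Lvl K) N (baseRing A K))) y.2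
  have hwG : (w : FF (Lvl K) N) ∈ gaussSubalgebra (Lvl K) N (baseRing A K) :=
    mem_gauss_of_mem_Rmid A N K w.2
  have hθ : theta (Lvl K) N (baseRing A K) ⟨x, hxG⟩ - theta (Lvl K) N (baseRing A K) ⟨y, hyG⟩ =
      0 := by
    have e : (⟨x, hxG⟩ - ⟨y, hyG⟩ : gaussSubalgebra (Lvl K) N (baseRing A K)) =
        ⟨w, hwG⟩ * algebraMap ↥(baseRing A K) (gaussSubalgebra (Lvl K) N (baseRing A K)) π :=
      Subtype.ext hF
    rw [← map_sub, e, map_mul, theta_algebraMap, residue_irreducible (Lvl K) (baseRing A K) hπ,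
      map_zero, mul_zero]
  have hred : redFin (Lvl K) N (baseRing A K) P.hN x = redInf (Lvl K) N (baseRing A K) P.hN y := by
    apply Subtype.ext
    rw [coe_redFin, coe_redInf]
    exact sub_eq_zero.1 hθ
  unfold thFin thInf
  rw [RingHom.comp_apply, RingHom.comp_apply, hred]

include P in
/-- **(F1) `FibreConst` at every good level**: the special fibre has only constant global
functions. -/
theorem fibreConst_level {π : ↥(baseRing A K)} (hπ : Irreducible π) :
    FibreConst π (inclFin (Lvl K) N (baseRing A K)) (inclInf (Lvl K) N (baseRing A K)) := by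
  intro x y h
  have e := thFin_eq_thInf_of_sub_mem A N K P hπ x y h
  obtain ⟨a, ha⟩ := mem_range_of_mem_SigmaFin_of_mem_SigmaInf A N (thFin_mem A N K P x)
    (e ▸ thInf_mem A N K P y)
  obtain ⟨r, hr⟩ := P.hbij.2 a
  obtain ⟨c, rfl⟩ := IsLocalRing.residue_surjective r
  refine ⟨c, mem_span_of_thFin_eq_zero A N K P hπ _ ?_, mem_span_of_thInf_eq_zero A N K P hπ _ ?_⟩
  · rw [map_sub, thFin_algebraMap, hr, ha, sub_self]
  · rw [map_sub, thInf_algebraMap, hr, ha, ← e, sub_self]

include P in
/-- **(F2)** a uniformiser of the base is not a unit of the overlap chart (with `mul_eq_zero_level`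
this is the purity of `O_K → Rmid`). -/
theorem not_isUnit_algebraMap_level {π : ↥(baseRing A K)} (hπ : Irreducible π) :
    ¬ IsUnit (algebraMap ↥(baseRing A K) ↥(Rmid (Lvl K) N (baseRing A K)) π) := by
  intro hu
  obtain ⟨w, hw⟩ := hu.exists_right_inv
  obtain ⟨k, x, hx⟩ := exists_pow_mul_eq_inclFin N (baseRing A K) w
  have h1 : jFin (Lvl K) N (baseRing A K) ^ k =
      algebraMap ↥(baseRing A K) ↥(Rfin (Lvl K) N (baseRing A K)) π * x := by
    apply inclFin_injective N (baseRing A K)
    rw [map_mul, map_pow, AlgHom.commutes, ← hx]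
    calc inclFin (Lvl K) N (baseRing A K) (jFin (Lvl K) N (baseRing A K)) ^ k
        = inclFin (Lvl K) N (baseRing A K) (jFin (Lvl K) N (baseRing A K)) ^ k *
          (algebraMap ↥(baseRing A K) ↥(Rmid (Lvl K) N (baseRing A K)) π * w) := by
            rw [hw, mul_one]
      _ = _ := by ring
  have h2 := congrArg (thFin A N K P) h1
  rw [map_pow, thFin_jFin, map_mul, thFin_algebraMap_irreducible A N K P hπ, zero_mul] at h2
  have hk : k ≠ 0 := by
    rintro rfl
    rw [pow_zero] at h2
    exact one_ne_zero h2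
  exact jF_ne_zero (Kap A) N ((pow_eq_zero_iff hk).1 h2)

include P in
/-- **(F3) `H⁰` of the generic fibre**: the two charts meet in the constants `O_K`. -/
theorem h0_level (x : ↥(Rfin (Lvl K) N (baseRing A K))) (y : ↥(Rinf (Lvl K) N (baseRing A K)))
    (hxy : inclFin (Lvl K) N (baseRing A K) x = inclInf (Lvl K) N (baseRing A K) y) :
    ∃ a : ↥(baseRing A K), x = algebraMap _ _ a ∧ y = algebraMap _ _ a := by
  haveI := P.frac
  exact Fermat.Agent.N4.IntClosureCech.cech_h0 (O := ↥(baseRing A K)) (K := Lvl K)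
    (F := FF (Lvl K) N) (jF (Lvl K) N) (Fermat.Agent.N4.FFAlgebraic.transcendental_jF (Lvl K) N)
    (Fermat.Agent.N4.SmoothModel.algClosedInFF (Lvl K) N) x y hxy

end Level

/-! ### Consequences: basis lifts and `HypAll` at every good level -/

section Consequences

variable (A : ValuationSubring Qb) (N : ℕ) [NeZero N]

/-- Basis lifts of `H¹` exist at every good level. -/
theorem exists_basis_lift_level (K : IntermediateField ℚ Qb)
    [IsDiscreteValuationRing ↥(baseRing A K)] (P : LevelPack A N K) :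
    ∃ (g : ℕ) (ε : Fin g → ↥(Rmid (Lvl K) N (baseRing A K)))
      (b : Module.Basis (Fin g) ↥(baseRing A K) (↥(Rmid (Lvl K) N (baseRing A K)) ⧸
        chartSum (inclFin (Lvl K) N (baseRing A K)) (inclInf (Lvl K) N (baseRing A K)))),
      ∀ i, b i = Submodule.Quotient.mk (ε i) := by
  obtain ⟨π, hπ⟩ := IsDiscreteValuationRing.exists_irreducible ↥(baseRing A K)
  haveI := finite_h1_level A N K P
  exact exists_basis_lift hπ (fibreConst_level A N K P hπ) (mul_eq_zero_level A N K hπ)

/-- **`HypAll` at one level**, for any family of basis lifts at that level. -/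
theorem hypAll_level (K : IntermediateField ℚ Qb)
    [IsDiscreteValuationRing ↥(baseRing A K)] (P : LevelPack A N K)
    {g : ℕ} (ε : Fin g → ↥(Rmid (Lvl K) N (baseRing A K)))
    (b : Module.Basis (Fin g) ↥(baseRing A K) (↥(Rmid (Lvl K) N (baseRing A K)) ⧸
      chartSum (inclFin (Lvl K) N (baseRing A K)) (inclInf (Lvl K) N (baseRing A K))))
    (hb : ∀ i, b i = Submodule.Quotient.mk (ε i)) :
    HypAll (inclFin (Lvl K) N (baseRing A K)) (inclInf (Lvl K) N (baseRing A K)) ε := by
  obtain ⟨π, hπ⟩ := IsDiscreteValuationRing.exists_irreducible ↥(baseRing A K)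
  exact hypAll_of_basis_dvr hπ ε b hb (h0_level A N K P) (mul_eq_zero_level A N K hπ)
    (not_isUnit_algebraMap_level A N K P hπ)

variable {K₁ L : IntermediateField ℚ Qb} (hKL : K₁ ≤ L)
  [IsDiscreteValuationRing ↥(baseRing A K₁)] [IsDiscreteValuationRing ↥(baseRing A L)]
  (P₁ : LevelPack A N K₁) (P₂ : LevelPack A N L)

include P₁ P₂ in
/-- **[LVL], final form**: basis lifts of `H¹(K₁)` stay basis lifts of `H¹(L)` for good levels
`K₁ ≤ L` (no hypothesis left). -/
theorem exists_basis_level' {g : ℕ} (ε : Fin g → ↥(Rmid (Lvl K₁) N (baseRing A K₁)))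
    (b₁ : Module.Basis (Fin g) ↥(baseRing A K₁) (↥(Rmid (Lvl K₁) N (baseRing A K₁)) ⧸
      chartSum (inclFin (Lvl K₁) N (baseRing A K₁)) (inclInf (Lvl K₁) N (baseRing A K₁))))
    (hb₁ : ∀ i, b₁ i = Submodule.Quotient.mk (ε i)) :
    ∃ b₂ : Module.Basis (Fin g) ↥(baseRing A L) (↥(Rmid (Lvl L) N (baseRing A L)) ⧸
        chartSum (inclFin (Lvl L) N (baseRing A L)) (inclInf (Lvl L) N (baseRing A L))),
      ∀ i, b₂ i = Submodule.Quotient.mk (midIncl A N hKL (ε i)) := by
  obtain ⟨π₂, hπ₂⟩ := IsDiscreteValuationRing.exists_irreducible ↥(baseRing A L)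
  exact exists_basis_level A N hKL P₁ P₂ hπ₂ (fibreConst_level A N L P₂ hπ₂) ε b₁ hb₁

include P₁ P₂ in
/-- **`HypAll` at every good level `L ⊇ K₁` with the frame chosen at `K₁`.** -/
theorem hypAll_level_of_base {g : ℕ} (ε : Fin g → ↥(Rmid (Lvl K₁) N (baseRing A K₁)))
    (b₁ : Module.Basis (Fin g) ↥(baseRing A K₁) (↥(Rmid (Lvl K₁) N (baseRing A K₁)) ⧸
      chartSum (inclFin (Lvl K₁) N (baseRing A K₁)) (inclInf (Lvl K₁) N (baseRing A K₁))))
    (hb₁ : ∀ i, b₁ i = Submodule.Quotient.mk (ε i)) :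
    HypAll (inclFin (Lvl L) N (baseRing A L)) (inclInf (Lvl L) N (baseRing A L))
      (fun i => midIncl A N hKL (ε i)) := by
  obtain ⟨b₂, hb₂⟩ := exists_basis_level' A N hKL P₁ P₂ ε b₁ hb₁
  exact hypAll_level A N L P₂ _ b₂ hb₂

end Consequences

end Fermat.Agent.S19.Cech.LevelFibreConst
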