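/-
S19 / Čech-units route, joint Č2, **the abstract cocycle of a line bundle with trivialised special
fibre** (helper3; board #2177 (2a)).  Pure commutative algebra, Mathlib only.

Setting: `F` a domain (the function field `F_L`), `ϖ ∈ F` (a uniformiser of the base `O_L`),
subrings `Bp, Bm ≤ B0 ≤ Rg` of `F` (the two charts, their overlap and the Gauss valuation ring),
with `ϖ` in the Jacobson radical of `Rg` and the charts `ϖ`-saturated in `Rg`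
(`Charts`: `B_? ∩ ϖ Rg = ϖ B_?`, i.e. the special fibres of the charts embed in `Rg/ϖ`).

A `Line` is a triple `(Lp, Lm, L0)` of additive subgroups of `Rg` (think
`L_? = 𝓛(D)(U_?) = {f : Gauss(f) ≥ 0, ord_P f + D(P) ≥ 0 for P in the chart ?}` with `r(D) = 0`),
`L_?` a `B_?`-module, `ϖ`-saturated in `Rg`, `L0 = B0·Lp = B0·Lm`, and such that the reduction
of every element of `L_±` is the reduction of an element of `B_±` (`red_p`, `red_m`; in geometry this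
is `div f̃ = r(div f)` plus `B̃_± = ⋂ 𝒪̃_x`).

A *generator* is an `f ∈ L_±` with `f ≡ 1 mod ϖ Rg`.  Results, for generators `fp ∈ Lp`, `fm ∈ Lm`
and every `k ≥ 1`:

* `Line.gen_p_pow / gen_m_pow / gen_0_pow` : `L_? = B_? f + ϖ^k L_?`;
* `Line.exists_cocycle` : there is `u ∈ B0`, `u ∈ 1 + ϖ B0`, with `fp - u fm ∈ ϖ^k L0`;
* `Line.cocycle_unique` : `u` is unique modulo `ϖ^k B0`;
* `Line.cocycle_rel` : another choice of generators changes `u` to `u·wp·wm` modulo `ϖ^k B0`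
  with `wp ∈ 1 + ϖ Bp`, `wm ∈ 1 + ϖ Bm` (so the class in `Ĵ(O_L/ϖ^k)` is well defined);
* `Line.cocycle_mul` : cocycles multiply under tensor product of line bundles;
* `Line.cocycle_of_common` : a common generator (principal divisor of an `f ≡ 1`) has cocycle `1`;
* `Line.exists_common_of_trivial` : conversely a cocycle `≡ wp·wm mod ϖ^k` gives generators
  `sp ∈ Lp`, `sm ∈ Lm` with `sp - sm ∈ ϖ^k L0` (the input of the separation argument Č3).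
-/
import Mathlib

set_option autoImplicit false
set_option linter.unusedSectionVars false

namespace Fermat.Agent.S19.Cech.Cocycle

variable {F : Type*} [CommRing F] [IsDomain F]

/-- The ring-level hypotheses: `Bp, Bm ≤ B0 ≤ Rg`, `ϖ ≠ 0` lies in the two charts and in the
Jacobson radical of `Rg`, and the three rings are `ϖ`-saturated in `Rg`. -/
structure Charts (ϖ : F) (Bp Bm B0 Rg : Subring F) : Prop where
  ne_zero : ϖ ≠ 0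
  mem_p : ϖ ∈ Bp
  mem_m : ϖ ∈ Bm
  p_le : Bp ≤ B0
  m_le : Bm ≤ B0
  le_R : B0 ≤ Rg
  unit : ∀ r ∈ Rg, ∃ s ∈ Rg, (1 + ϖ * r) * s = 1
  sat_p : ∀ r ∈ Rg, ϖ * r ∈ Bp → r ∈ Bp
  sat_m : ∀ r ∈ Rg, ϖ * r ∈ Bm → r ∈ Bm
  sat_0 : ∀ r ∈ Rg, ϖ * r ∈ B0 → r ∈ B0

/-- A line bundle on the two-chart model with trivialised special fibre. -/
structure Line (ϖ : F) (Bp Bm B0 Rg : Subring F) where
  Lp : AddSubgroup F
  Lm : AddSubgroup F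
  L0 : AddSubgroup F
  smul_p : ∀ b ∈ Bp, ∀ x ∈ Lp, b * x ∈ Lp
  smul_m : ∀ b ∈ Bm, ∀ x ∈ Lm, b * x ∈ Lm
  smul_0 : ∀ b ∈ B0, ∀ x ∈ L0, b * x ∈ L0
  p_le : Lp ≤ L0
  m_le : Lm ≤ L0
  le_R : ∀ x ∈ L0, x ∈ Rg
  sat_p : ∀ r ∈ Rg, ϖ * r ∈ Lp → r ∈ Lp
  sat_m : ∀ r ∈ Rg, ϖ * r ∈ Lm → r ∈ Lm
  sat_0 : ∀ r ∈ Rg, ϖ * r ∈ L0 → r ∈ L0
  red_p : ∀ x ∈ Lp, ∃ b ∈ Bp, ∃ r ∈ Rg, x = b + ϖ * r
  red_m : ∀ x ∈ Lm, ∃ b ∈ Bm, ∃ r ∈ Rg, x = b + ϖ * r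
  loc_p : ∀ x ∈ L0, ∃ b ∈ B0, ∃ y ∈ Lp, x = b * y
  loc_m : ∀ x ∈ L0, ∃ b ∈ B0, ∃ y ∈ Lm, x = b * y

/-- `f ≡ 1` modulo `ϖ Rg`. -/
def IsOne (ϖ : F) (Rg : Subring F) (f : F) : Prop := ∃ r ∈ Rg, f = 1 + ϖ * r

variable {ϖ : F} {Bp Bm B0 Rg : Subring F}

theorem IsOne.mem {f : F} (hR : ϖ ∈ Rg) (h : IsOne ϖ Rg f) : f ∈ Rg := by
  obtain ⟨r, hr, rfl⟩ := h
  exact Rg.add_mem Rg.one_mem (Rg.mul_mem hR hr)

theorem IsOne.one : IsOne ϖ Rg (1 : F) := ⟨0, Rg.zero_mem, by ring⟩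

theorem IsOne.mul {f g : F} (hR : ϖ ∈ Rg) (hf : IsOne ϖ Rg f) (hg : IsOne ϖ Rg g) :
    IsOne ϖ Rg (f * g) := by
  obtain ⟨r, hr, rfl⟩ := hf
  obtain ⟨s, hs, rfl⟩ := hg
  exact ⟨r + s + ϖ * r * s, Rg.add_mem (Rg.add_mem hr hs) (Rg.mul_mem (Rg.mul_mem hR hr) hs),
    by ring⟩

namespace Charts

variable (C : Charts ϖ Bp Bm B0 Rg)
include C

theorem mem_0 : ϖ ∈ B0 := C.p_le C.mem_p

theorem mem_R : ϖ ∈ Rg := C.le_R C.mem_0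

theorem p_le_R : Bp ≤ Rg := C.p_le.trans C.le_R

theorem m_le_R : Bm ≤ Rg := C.m_le.trans C.le_R

/-- `B0 ∩ ϖ^k Rg = ϖ^k B0`. -/
theorem sat_0_pow (k : ℕ) : ∀ r ∈ Rg, ϖ ^ k * r ∈ B0 → r ∈ B0 := by
  induction k with
  | zero => intro r _ h; simpa using h
  | succ k ih =>
    intro r hr h
    have h1 : ϖ ^ k * (ϖ * r) ∈ B0 := by
      have : ϖ ^ k * (ϖ * r) = ϖ ^ (k + 1) * r := by ring
      rwa [this]
    exact C.sat_0 r hr (ih (ϖ * r) (Rg.mul_mem C.mem_R hr) h1)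

/-- an element of `B_?` which is `≡ 1 mod ϖ Rg` is `≡ 1 mod ϖ B_?`. -/
theorem isOne_p {w : F} (hw : w ∈ Bp) (h : IsOne ϖ Rg w) : ∃ a ∈ Bp, w = 1 + ϖ * a := by
  obtain ⟨r, hr, rfl⟩ := h
  refine ⟨r, C.sat_p r hr ?_, rfl⟩
  have : ϖ * r = (1 + ϖ * r) - 1 := by ring
  rw [this]
  exact Bp.sub_mem hw Bp.one_mem

theorem isOne_m {w : F} (hw : w ∈ Bm) (h : IsOne ϖ Rg w) : ∃ a ∈ Bm, w = 1 + ϖ * a := by
  obtain ⟨r, hr, rfl⟩ := h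
  refine ⟨r, C.sat_m r hr ?_, rfl⟩
  have : ϖ * r = (1 + ϖ * r) - 1 := by ring
  rw [this]
  exact Bm.sub_mem hw Bm.one_mem

theorem isOne_0 {w : F} (hw : w ∈ B0) (h : IsOne ϖ Rg w) : ∃ a ∈ B0, w = 1 + ϖ * a := by
  obtain ⟨r, hr, rfl⟩ := h
  refine ⟨r, C.sat_0 r hr ?_, rfl⟩
  have : ϖ * r = (1 + ϖ * r) - 1 := by ring
  rw [this]
  exact B0.sub_mem hw B0.one_mem

/-- cancellation of an element `≡ 1`: if `w f ≡ f'` with `f, f' ≡ 1` then `w ≡ 1`. -/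
theorem isOne_of_mul {w f f' : F} (hw : w ∈ Rg) (hf : IsOne ϖ Rg f) (hf' : IsOne ϖ Rg f')
    (h : ∃ r ∈ Rg, w * f = f' + ϖ * r) : IsOne ϖ Rg w := by
  obtain ⟨a, ha, rfl⟩ := hf
  obtain ⟨a', ha', rfl⟩ := hf'
  obtain ⟨r, hr, h⟩ := h
  refine ⟨a' + r - w * a, Rg.sub_mem (Rg.add_mem ha' hr) (Rg.mul_mem hw ha), ?_⟩
  linear_combination h

/-- an element of `Rg` killed modulo `ϖ^k` by an element `≡ 1` is `≡ 0`. -/
theorem mem_pow_of_mul_isOne {k : ℕ} {v f : F} (hf : IsOne ϖ Rg f)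
    (h : ∃ r ∈ Rg, v * f = ϖ ^ k * r) : ∃ r ∈ Rg, v = ϖ ^ k * r := by
  obtain ⟨a, ha, rfl⟩ := hf
  obtain ⟨r, hr, h⟩ := h
  obtain ⟨s, hs, hs1⟩ := C.unit a ha
  refine ⟨r * s, Rg.mul_mem hr hs, ?_⟩
  linear_combination s * h - v * hs1

end Charts

namespace Line

variable (C : Charts ϖ Bp Bm B0 Rg) (L : Line ϖ Bp Bm B0 Rg)

theorem p_le_R {x : F} (hx : x ∈ L.Lp) : x ∈ Rg := L.le_R x (L.p_le hx)

theorem m_le_R {x : F} (hx : x ∈ L.Lm) : x ∈ Rg := L.le_R x (L.m_le hx)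

include C

/-- `Lp = Bp f + ϖ Lp` for a generator `f`. -/
theorem gen_p {f : F} (hf : f ∈ L.Lp) (h1 : IsOne ϖ Rg f) {x : F} (hx : x ∈ L.Lp) :
    ∃ b ∈ Bp, ∃ y ∈ L.Lp, x = b * f + ϖ * y := by
  obtain ⟨b, hb, r, hr, rfl⟩ := L.red_p x hx
  obtain ⟨a, ha, rfl⟩ := h1
  have hbR : b ∈ Rg := C.p_le_R hb
  refine ⟨b, hb, r - b * a, L.sat_p _ (Rg.sub_mem hr (Rg.mul_mem hbR ha)) ?_, by ring⟩
  have : ϖ * (r - b * a) = (b + ϖ * r) - b * (1 + ϖ * a) := by ring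
  rw [this]
  exact L.Lp.sub_mem hx (L.smul_p b hb _ hf)

theorem gen_m {f : F} (hf : f ∈ L.Lm) (h1 : IsOne ϖ Rg f) {x : F} (hx : x ∈ L.Lm) :
    ∃ b ∈ Bm, ∃ y ∈ L.Lm, x = b * f + ϖ * y := by
  obtain ⟨b, hb, r, hr, rfl⟩ := L.red_m x hx
  obtain ⟨a, ha, rfl⟩ := h1
  have hbR : b ∈ Rg := C.m_le_R hb
  refine ⟨b, hb, r - b * a, L.sat_m _ (Rg.sub_mem hr (Rg.mul_mem hbR ha)) ?_, by ring⟩
  have : ϖ * (r - b * a) = (b + ϖ * r) - b * (1 + ϖ * a) := by ring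
  rw [this]
  exact L.Lm.sub_mem hx (L.smul_m b hb _ hf)

/-- `Lp = Bp f + ϖ^k Lp` for a generator `f`. -/
theorem gen_p_pow {f : F} (hf : f ∈ L.Lp) (h1 : IsOne ϖ Rg f) (k : ℕ) {x : F} (hx : x ∈ L.Lp) :
    ∃ b ∈ Bp, ∃ y ∈ L.Lp, x = b * f + ϖ ^ k * y := by
  induction k with
  | zero => exact ⟨0, Bp.zero_mem, x, hx, by ring⟩
  | succ k ih =>
    obtain ⟨b, hb, y, hy, rfl⟩ := ih
    obtain ⟨c, hc, z, hz, rfl⟩ := L.gen_p C hf h1 hy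
    exact ⟨b + ϖ ^ k * c, Bp.add_mem hb (Bp.mul_mem (Bp.pow_mem C.mem_p k) hc), z, hz, by ring⟩

theorem gen_m_pow {f : F} (hf : f ∈ L.Lm) (h1 : IsOne ϖ Rg f) (k : ℕ) {x : F} (hx : x ∈ L.Lm) :
    ∃ b ∈ Bm, ∃ y ∈ L.Lm, x = b * f + ϖ ^ k * y := by
  induction k with
  | zero => exact ⟨0, Bm.zero_mem, x, hx, by ring⟩
  | succ k ih =>
    obtain ⟨b, hb, y, hy, rfl⟩ := ih
    obtain ⟨c, hc, z, hz, rfl⟩ := L.gen_m C hf h1 hy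
    exact ⟨b + ϖ ^ k * c, Bm.add_mem hb (Bm.mul_mem (Bm.pow_mem C.mem_m k) hc), z, hz, by ring⟩

/-- `L0 = B0 f + ϖ^k L0` for a generator `f ∈ Lp`. -/
theorem gen_0_pow_of_p {f : F} (hf : f ∈ L.Lp) (h1 : IsOne ϖ Rg f) (k : ℕ) {x : F}
    (hx : x ∈ L.L0) : ∃ b ∈ B0, ∃ y ∈ L.L0, x = b * f + ϖ ^ k * y := by
  obtain ⟨c, hc, z, hz, rfl⟩ := L.loc_p x hx
  obtain ⟨b, hb, y, hy, rfl⟩ := L.gen_p_pow C hf h1 k hz
  exact ⟨c * b, B0.mul_mem hc (C.p_le hb), c * y, L.smul_0 c hc y (L.p_le hy), by ring⟩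

/-- `L0 = B0 f + ϖ^k L0` for a generator `f ∈ Lm`. -/
theorem gen_0_pow_of_m {f : F} (hf : f ∈ L.Lm) (h1 : IsOne ϖ Rg f) (k : ℕ) {x : F}
    (hx : x ∈ L.L0) : ∃ b ∈ B0, ∃ y ∈ L.L0, x = b * f + ϖ ^ k * y := by
  obtain ⟨c, hc, z, hz, rfl⟩ := L.loc_m x hx
  obtain ⟨b, hb, y, hy, rfl⟩ := L.gen_m_pow C hf h1 k hz
  exact ⟨c * b, B0.mul_mem hc (C.m_le hb), c * y, L.smul_0 c hc y (L.m_le hy), by ring⟩

/-- `IsCocycle k fp fm u`: `u ∈ B0` and `fp ≡ u fm` modulo `ϖ^k L0`. -/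
def IsCocycle (k : ℕ) (fp fm u : F) : Prop :=
  u ∈ B0 ∧ ∃ y ∈ L.L0, fp = u * fm + ϖ ^ k * y

theorem IsCocycle.mono {k : ℕ} {fp fm u : F} (h : L.IsCocycle (k + 1) fp fm u) :
    L.IsCocycle k fp fm u := by
  obtain ⟨hu, y, hy, e⟩ := h
  exact ⟨hu, ϖ * y, L.smul_0 ϖ C.mem_0 y hy, by rw [e]; ring⟩

/-- **Existence of the cocycle.** -/
theorem exists_cocycle {fp fm : F} (hfp : fp ∈ L.Lp) (hfm : fm ∈ L.Lm) (h1m : IsOne ϖ Rg fm)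
    (k : ℕ) : ∃ u, L.IsCocycle k fp fm u := by
  obtain ⟨u, hu, y, hy, e⟩ := L.gen_0_pow_of_m C hfm h1m k (L.p_le hfp)
  exact ⟨u, hu, y, hy, e⟩

/-- The cocycle is `≡ 1` modulo `ϖ B0` (for `k ≥ 1`). -/
theorem IsCocycle.isOne {k : ℕ} {fp fm u : F} (h1p : IsOne ϖ Rg fp) (h1m : IsOne ϖ Rg fm)
    (h : L.IsCocycle (k + 1) fp fm u) : ∃ a ∈ B0, u = 1 + ϖ * a := by
  obtain ⟨hu, y, hy, e⟩ := h
  refine C.isOne_0 hu (C.isOne_of_mul (C.le_R hu) h1m h1p ⟨-(ϖ ^ k * y), ?_, ?_⟩)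
  · exact Rg.neg_mem (Rg.mul_mem (Rg.pow_mem C.mem_R k) (L.le_R y hy))
  · rw [e]; ring

/-- **Uniqueness of the cocycle** modulo `ϖ^k B0`. -/
theorem cocycle_unique {k : ℕ} {fp fm u u' : F} (h1m : IsOne ϖ Rg fm)
    (h : L.IsCocycle k fp fm u) (h' : L.IsCocycle k fp fm u') :
    ∃ c ∈ B0, u' = u + ϖ ^ k * c := by
  obtain ⟨hu, y, hy, e⟩ := h
  obtain ⟨hu', y', hy', e'⟩ := h'
  obtain ⟨r, hr, hr'⟩ := C.mem_pow_of_mul_isOne (k := k) (v := u' - u) h1m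
    ⟨y - y', Rg.sub_mem (L.le_R y hy) (L.le_R y' hy'), by linear_combination e - e'⟩
  refine ⟨r, C.sat_0_pow k r hr ?_, by linear_combination hr'⟩
  rw [← hr']
  exact B0.sub_mem hu' hu

/-- **Independence of the generators**: the class of the cocycle modulo the two chart unit groups
(and modulo `ϖ^k B0`) does not depend on the generators. -/
theorem cocycle_rel {k : ℕ} {fp fm u fp' fm' u' : F}
    (hfp : fp ∈ L.Lp) (h1p : IsOne ϖ Rg fp) (hfm : fm ∈ L.Lm) (h1m : IsOne ϖ Rg fm)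
    (hfp' : fp' ∈ L.Lp) (h1p' : IsOne ϖ Rg fp') (hfm' : fm' ∈ L.Lm) (h1m' : IsOne ϖ Rg fm')
    (h : L.IsCocycle (k + 1) fp fm u) (h' : L.IsCocycle (k + 1) fp' fm' u') :
    ∃ wp ∈ Bp, ∃ wm ∈ Bm, (∃ a ∈ Bp, wp = 1 + ϖ * a) ∧ (∃ a ∈ Bm, wm = 1 + ϖ * a) ∧
      ∃ c ∈ B0, u' = u * wp * wm + ϖ ^ (k + 1) * c := by
  obtain ⟨hu, y, hy, e⟩ := h
  obtain ⟨hu', y', hy', e'⟩ := h'
  -- fp' = wp fp + ϖ^(k+1) y₁
  obtain ⟨wp, hwp, y₁, hy₁, e₁⟩ := L.gen_p_pow C hfp h1p (k + 1) hfp'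
  -- fm = wm fm' + ϖ^(k+1) y₂
  obtain ⟨wm, hwm, y₂, hy₂, e₂⟩ := L.gen_m_pow C hfm' h1m' (k + 1) hfm
  have hwp1 : IsOne ϖ Rg wp := C.isOne_of_mul (C.p_le_R hwp) h1p h1p'
    ⟨-(ϖ ^ k * y₁), Rg.neg_mem (Rg.mul_mem (Rg.pow_mem C.mem_R k) (L.p_le_R hy₁)),
      by rw [e₁]; ring⟩
  have hwm1 : IsOne ϖ Rg wm := C.isOne_of_mul (C.m_le_R hwm) h1m' h1m
    ⟨-(ϖ ^ k * y₂), Rg.neg_mem (Rg.mul_mem (Rg.pow_mem C.mem_R k) (L.m_le_R hy₂)),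
      by rw [e₂]; ring⟩
  refine ⟨wp, hwp, wm, hwm, C.isOne_p hwp hwp1, C.isOne_m hwm hwm1, ?_⟩
  -- (u' - u wp wm) fm' ∈ ϖ^(k+1) Rg
  have hy₁R := L.p_le_R hy₁
  have hy₂R := L.m_le_R hy₂
  have hyR := L.le_R y hy
  have hy'R := L.le_R y' hy'
  have huR := C.le_R hu
  have hwpR := C.p_le_R hwp
  obtain ⟨r, hr, hr'⟩ := C.mem_pow_of_mul_isOne (k := k + 1) (v := u' - u * wp * wm) h1m'
    ⟨wp * u * y₂ + wp * y + y₁ - y',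
      Rg.sub_mem (Rg.add_mem (Rg.add_mem (Rg.mul_mem (Rg.mul_mem hwpR huR) hy₂R)
        (Rg.mul_mem hwpR hyR)) hy₁R) hy'R, by
      have e₃ : fp' = wp * (u * (wm * fm' + ϖ ^ (k + 1) * y₂) + ϖ ^ (k + 1) * y)
          + ϖ ^ (k + 1) * y₁ := by rw [← e₂, ← e]; exact e₁
      linear_combination e₃ - e'⟩
  refine ⟨r, C.sat_0_pow (k + 1) r hr ?_, by linear_combination hr'⟩
  rw [← hr']
  exact B0.sub_mem hu' (B0.mul_mem (B0.mul_mem hu (C.p_le hwp)) (C.m_le hwm))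

/-- A common generator has cocycle `1`. -/
theorem cocycle_of_common {f : F} (k : ℕ) : L.IsCocycle k f f 1 :=
  ⟨B0.one_mem, 0, L.L0.zero_mem, by ring⟩

/-- **Converse** (input of the separation argument): if the cocycle is trivial modulo `ϖ^k`,
there are generators `sp ∈ Lp`, `sm ∈ Lm` agreeing modulo `ϖ^k L0`. -/
theorem exists_common_of_trivial {k : ℕ} {fp fm u wp wm : F}
    (hfp : fp ∈ L.Lp) (h1p : IsOne ϖ Rg fp) (hfm : fm ∈ L.Lm) (h1m : IsOne ϖ Rg fm)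
    (h : L.IsCocycle k fp fm u) (hwp : ∃ a ∈ Bp, wp = 1 + ϖ * a) (hwm : ∃ a ∈ Bm, wm = 1 + ϖ * a)
    (hu : ∃ c ∈ B0, u = wp * wm + ϖ ^ k * c) :
    ∃ sp ∈ L.Lp, ∃ sm ∈ L.Lm, IsOne ϖ Rg sp ∧ IsOne ϖ Rg sm ∧ ∃ y ∈ L.L0, sp = sm + ϖ ^ k * y := by
  rcases Nat.eq_zero_or_pos k with hk | hk
  · subst hk
    exact ⟨fp, hfp, fm, hfm, h1p, h1m, fp - fm, L.L0.sub_mem (L.p_le hfp) (L.m_le hfm), by ring⟩
  obtain ⟨hu0, y, hy, e⟩ := h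
  obtain ⟨a, ha, rfl⟩ := hwp
  obtain ⟨b, hb, rfl⟩ := hwm
  obtain ⟨c, hc, rfl⟩ := hu
  -- inverse of `1 + ϖ a` modulo `ϖ^k`
  set v : F := ∑ i ∈ Finset.range k, (-(ϖ * a)) ^ i with hv
  have hvB : v ∈ Bp := by
    rw [hv]
    exact Bp.sum_mem fun i _ => Bp.pow_mem (Bp.neg_mem (Bp.mul_mem C.mem_p ha)) i
  have hgeom : v * (1 + ϖ * a) = 1 - (-(ϖ * a)) ^ k := by
    have := geom_sum_mul (-(ϖ * a)) k
    rw [← hv] at this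
    linear_combination -this
  have hpow : (-(ϖ * a)) ^ k = ϖ ^ k * (-a) ^ k := by
    rw [← mul_pow]; congr 1; ring
  have haR : a ∈ Rg := C.p_le_R ha
  have hbR : b ∈ Rg := C.m_le_R hb
  have hvR : v ∈ Rg := C.p_le_R hvB
  have hv1 : IsOne ϖ Rg v := by
    -- v (1 + ϖ a) = 1 - ϖ^k (-a)^k, so v ≡ 1
    refine C.isOne_of_mul hvR ⟨a, haR, rfl⟩ IsOne.one
      ⟨-(ϖ ^ (k - 1) * (-a) ^ k), Rg.neg_mem (Rg.mul_mem (Rg.pow_mem C.mem_R _)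
        (Rg.pow_mem (Rg.neg_mem haR) k)), ?_⟩
    rw [hgeom, hpow]
    have : ϖ ^ k = ϖ * ϖ ^ (k - 1) := by
      rw [← pow_succ']; congr 1; omega
    rw [this]; ring
  refine ⟨v * fp, L.smul_p v hvB fp hfp, (1 + ϖ * b) * fm,
    L.smul_m _ (Bm.add_mem Bm.one_mem (Bm.mul_mem C.mem_m hb)) fm hfm,
    IsOne.mul C.mem_R hv1 h1p, IsOne.mul C.mem_R ⟨b, hbR, rfl⟩ h1m, ?_⟩
  refine ⟨v * c * fm + v * y - (-a) ^ k * ((1 + ϖ * b) * fm), ?_, ?_⟩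
  · refine L.L0.sub_mem (L.L0.add_mem ?_ ?_) ?_
    · exact L.smul_0 _ (B0.mul_mem (C.p_le hvB) hc) fm (L.m_le hfm)
    · exact L.smul_0 _ (C.p_le hvB) y hy
    · refine L.smul_0 _ (B0.pow_mem (B0.neg_mem (C.p_le ha)) k) _ ?_
      exact L.m_le (L.smul_m _ (Bm.add_mem Bm.one_mem (Bm.mul_mem C.mem_m hb)) fm hfm)
  · rw [e]
    linear_combination ((1 + ϖ * b) * fm) * (hgeom) + ((1 + ϖ * b) * fm) * (-hpow)

end Line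

/-- **Multiplicativity**: if `L''` contains the products of `L` and `L'` (on the overlap) then the
product of two cocycles is a cocycle for the product generators. -/
theorem Line.cocycle_mul (C : Charts ϖ Bp Bm B0 Rg) (L L' L'' : Line ϖ Bp Bm B0 Rg)
    (hmul : ∀ x ∈ L.L0, ∀ x' ∈ L'.L0, x * x' ∈ L''.L0) {k : ℕ} {fp fm u fp' fm' u' : F}
    (hfm : fm ∈ L.Lm) (hfm' : fm' ∈ L'.Lm)
    (h : L.IsCocycle k fp fm u) (h' : L'.IsCocycle k fp' fm' u') :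
    L''.IsCocycle k (fp * fp') (fm * fm') (u * u') := by
  obtain ⟨hu, y, hy, e⟩ := h
  obtain ⟨hu', y', hy', e'⟩ := h'
  refine ⟨B0.mul_mem hu hu', y * (u' * fm') + (u * fm) * y' + ϖ ^ k * (y * y'), ?_, ?_⟩
  · have h1 : u' * fm' ∈ L'.L0 := L'.smul_0 u' hu' fm' (L'.m_le hfm')
    have h2 : u * fm ∈ L.L0 := L.smul_0 u hu fm (L.m_le hfm)
    refine L''.L0.add_mem (L''.L0.add_mem (hmul y hy _ h1) (hmul _ h2 y' hy')) ?_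
    exact L''.smul_0 _ (B0.pow_mem C.mem_0 k) _ (hmul y hy y' hy')
  · rw [e, e']; ring

end Fermat.Agent.S19.Cech.Cocycle
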