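/-
S19 / Čech-units route, joint Č2: **from the abstract cocycle (`Cocycle.lean`) to the relation
`Rel` of the deformation argument (`Law.lean`)** (helper3).

Given the chart rings `Bp, Bm ≤ B0 ≤ Rg ⊆ F` and ring homomorphisms `qp, qm, q0` from them to the
`S`-algebras `Cp, Cm, C0` of the deformation argument (think `C_? = B_? / ℓⁿ`, `S = O_L/ℓⁿ`), which
are compatible with `ip, im`, send `ϖ` to the image of an element `ϖS ∈ 𝔪` and kill `ϖ^(k+1)`: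

* `q0_sub_one_mem` : a cocycle `u ∈ 1 + ϖ B0` maps into `1 + 𝔪·C0`;
* `rel_of_cocycle_rel` : two cocycles of the same line bundle (for different generators) map to
  `Rel`-equivalent elements of `C0`, so `Hyp.coord` of the image is well defined.
-/
import Fermat.Agent.S19.Cech.Cocycle
import Fermat.Agent.S19.Cech.Law

set_option autoImplicit false
set_option linter.unusedSectionVars false

namespace Fermat.Agent.S19.Cech.Cocycle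

open Fermat.Agent.S19.Cech

variable {F : Type*} [CommRing F] [IsDomain F] {ϖ : F} {Bp Bm B0 Rg : Subring F}
variable {S : Type*} [CommRing S]
variable {Cp Cm C0 : Type*} [CommRing Cp] [CommRing Cm] [CommRing C0]
  [Algebra S Cp] [Algebra S Cm] [Algebra S C0]

/-- The data transporting the chart rings to the `S`-algebras of the deformation argument. -/
structure Transport (C : Charts ϖ Bp Bm B0 Rg) (𝔪 : Ideal S) (ip : Cp →ₐ[S] C0)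
    (im : Cm →ₐ[S] C0) (k : ℕ) (qp : Bp →+* Cp) (qm : Bm →+* Cm) (q0 : B0 →+* C0) : Prop where
  compat_p : ∀ b : Bp, ip (qp b) = q0 ⟨b, C.p_le b.2⟩
  compat_m : ∀ b : Bm, im (qm b) = q0 ⟨b, C.m_le b.2⟩
  unif_p : ∃ ϖS ∈ 𝔪, qp ⟨ϖ, C.mem_p⟩ = algebraMap S Cp ϖS
  unif_m : ∃ ϖS ∈ 𝔪, qm ⟨ϖ, C.mem_m⟩ = algebraMap S Cm ϖS
  unif_0 : ∃ ϖS ∈ 𝔪, q0 ⟨ϖ, C.mem_0⟩ = algebraMap S C0 ϖS
  kill : q0 ⟨ϖ ^ (k + 1), B0.pow_mem C.mem_0 (k + 1)⟩ = 0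

variable {C : Charts ϖ Bp Bm B0 Rg} {𝔪 : Ideal S} {ip : Cp →ₐ[S] C0} {im : Cm →ₐ[S] C0} {k : ℕ}
  {qp : Bp →+* Cp} {qm : Bm →+* Cm} {q0 : B0 →+* C0}

theorem Transport.qp_sub_one_mem (T : Transport C 𝔪 ip im k qp qm q0) {w : F} (hw : w ∈ Bp)
    (h : ∃ a ∈ Bp, w = 1 + ϖ * a) : qp ⟨w, hw⟩ - 1 ∈ ext Cp 𝔪 := by
  obtain ⟨a, ha, rfl⟩ := h
  obtain ⟨ϖS, hϖS, e⟩ := T.unif_p
  have : (⟨1 + ϖ * a, hw⟩ : Bp) = 1 + ⟨ϖ, C.mem_p⟩ * ⟨a, ha⟩ := rfl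
  rw [this, map_add, map_one, map_mul, e, add_sub_cancel_left]
  exact Ideal.mul_mem_right _ _ (algebraMap_mem_ext hϖS)

theorem Transport.qm_sub_one_mem (T : Transport C 𝔪 ip im k qp qm q0) {w : F} (hw : w ∈ Bm)
    (h : ∃ a ∈ Bm, w = 1 + ϖ * a) : qm ⟨w, hw⟩ - 1 ∈ ext Cm 𝔪 := by
  obtain ⟨a, ha, rfl⟩ := h
  obtain ⟨ϖS, hϖS, e⟩ := T.unif_m
  have : (⟨1 + ϖ * a, hw⟩ : Bm) = 1 + ⟨ϖ, C.mem_m⟩ * ⟨a, ha⟩ := rfl
  rw [this, map_add, map_one, map_mul, e, add_sub_cancel_left]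
  exact Ideal.mul_mem_right _ _ (algebraMap_mem_ext hϖS)

/-- a cocycle `u ∈ 1 + ϖ B0` maps into `1 + 𝔪·C0`. -/
theorem Transport.q0_sub_one_mem (T : Transport C 𝔪 ip im k qp qm q0) {u : F} (hu : u ∈ B0)
    (h : ∃ a ∈ B0, u = 1 + ϖ * a) : q0 ⟨u, hu⟩ - 1 ∈ ext C0 𝔪 := by
  obtain ⟨a, ha, rfl⟩ := h
  obtain ⟨ϖS, hϖS, e⟩ := T.unif_0
  have : (⟨1 + ϖ * a, hu⟩ : B0) = 1 + ⟨ϖ, C.mem_0⟩ * ⟨a, ha⟩ := rfl
  rw [this, map_add, map_one, map_mul, e, add_sub_cancel_left]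
  exact Ideal.mul_mem_right _ _ (algebraMap_mem_ext hϖS)

/-- **Well-definedness of the class of the cocycle** in `Ĵ(S)`. -/
theorem Transport.rel_of_cocycle_rel (T : Transport C 𝔪 ip im k qp qm q0)
    (L : Line ϖ Bp Bm B0 Rg) {fp fm u fp' fm' u' : F}
    (hfp : fp ∈ L.Lp) (h1p : IsOne ϖ Rg fp) (hfm : fm ∈ L.Lm) (h1m : IsOne ϖ Rg fm)
    (hfp' : fp' ∈ L.Lp) (h1p' : IsOne ϖ Rg fp') (hfm' : fm' ∈ L.Lm) (h1m' : IsOne ϖ Rg fm')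
    (h : L.IsCocycle (k + 1) fp fm u) (h' : L.IsCocycle (k + 1) fp' fm' u') :
    Rel 𝔪 ip im (q0 ⟨u', h'.1⟩) (q0 ⟨u, h.1⟩) := by
  obtain ⟨wp, hwp, wm, hwm, hwp1, hwm1, c, hc, e⟩ :=
    L.cocycle_rel C hfp h1p hfm h1m hfp' h1p' hfm' h1m' h h'
  refine ⟨qp ⟨wp, hwp⟩, qm ⟨wm, hwm⟩, T.qp_sub_one_mem hwp hwp1, T.qm_sub_one_mem hwm hwm1, ?_⟩
  rw [T.compat_p, T.compat_m]
  have e' : (⟨u', h'.1⟩ : B0) = ⟨u, h.1⟩ * ⟨wp, C.p_le hwp⟩ * ⟨wm, C.m_le hwm⟩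
      + ⟨ϖ ^ (k + 1), B0.pow_mem C.mem_0 (k + 1)⟩ * ⟨c, hc⟩ := Subtype.ext e
  rw [e', map_add, map_mul, map_mul, map_mul, T.kill, zero_mul, add_zero]

/-- the image of the cocycle of a product is the product of the images. -/
theorem Transport.q0_mul (u u' : F) (hu : u ∈ B0) (hu' : u' ∈ B0) :
    q0 ⟨u * u', B0.mul_mem hu hu'⟩ = q0 ⟨u, hu⟩ * q0 ⟨u', hu'⟩ := by
  rw [← map_mul]; rfl

end Fermat.Agent.S19.Cech.Cocycle
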