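/-
S19 / Čech-units route, leaf [WIRE] (helper3; DAG v1 of helper22), **part B: one situation
`(level L, precision n)`** — from cocycles of line bundles to representatives in `ℚ̄` of the formal
coordinates.  Generic in all types (a level has its own function field, charts, base ring).

A *situation* consists of
* the deformation data of `Law.lean`: `S` (think `O_L/ℓⁿ`), a nilpotent ideal `𝔪`, `S`-algebras
  `Cp, Cm → C0` (think `S ⊗[O_L] B_?(L)`), a frame `ε` and `H : Hyp 𝔪 ip im ε`;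
* the base ring `O` (think `O_L = A ∩ L`) with `ι : O →+* ℚ̄` and `π : O →+* S` (`BaseQuot`:
  `π` is onto with kernel `ℓⁿ`, and `𝔪` is the image of the non-units);
* a predicate `K : Jb → C0 → Prop` (`K z v`: "`v` is the image in `C0` of a cocycle of the class
  `z`"), `KImg`: cocycles are `≡ 1`, any two cocycles of a class are `Rel`-equivalent, cocycles
  multiply, `1` is a cocycle of `0`.

`RepQb A H ι π K z a` : `a ∈ ℚ̄^g` is the image under `ι` of a tuple of `O` which reduces to the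
coordinates `H.coord v` of a cocycle `v` of `z`.  Results:
* `RepQb.unique`  : two representatives of a class differ by `ℓⁿ A`;
* `RepQb.exists_of_K`, `RepQb.zero`;
* `RepQb.map`     : transport along a `Morph` of situations lying over a ring hom `O → O'`
  (level inclusion, `ℓ^(n+1) → ℓⁿ`, strict Galois equivariance);
* `LineSys → KSys → KImg` : how the predicate `K` arises from line bundles with `IsOne`
  generators (`Cocycle.lean`) and a `Transport`.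
The polynomial statements (group law via `lawPoly`, twisted equivariance via `chgPoly`) are in
`WireLaw.lean`; the assembly over all levels is `Coord/OfLevels.lean`.
-/
import Fermat.Agent.S19.Coord.Avg
import Fermat.Agent.S19.Cech.CocycleRel
import Fermat.Agent.S19.Cech.ChangeBase

set_option autoImplicit false
set_option linter.unusedSectionVars false

namespace Fermat.Agent.S19.Cech.CoordOfLines

open Fermat.Agent.S19.Abs Fermat.Agent.S19.Coord Fermat.Agent.S19.Cech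
open Fermat.Agent.S19.Cech.Cocycle

/-! ### the images of the cocycles in `C0` -/

section KImgDef

variable {S : Type*} [CommRing S]
variable {Cp Cm C0 : Type*} [CommRing Cp] [CommRing Cm] [CommRing C0]
  [Algebra S Cp] [Algebra S Cm] [Algebra S C0]

/-- `K z v` : "`v ∈ C0` is (the image of) a cocycle of the class `z`". -/
structure KImg (𝔪 : Ideal S) (ip : Cp →ₐ[S] C0) (im : Cm →ₐ[S] C0) {Jb : Type*} [AddCommGroup Jb]
    (K : Jb → C0 → Prop) : Prop where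
  sub_one : ∀ {z v}, K z v → v - 1 ∈ ext C0 𝔪
  rel : ∀ {z v v'}, K z v → K z v' → Rel 𝔪 ip im v' v
  mul : ∀ {z z' v v'}, K z v → K z' v' → K (z + z') (v * v')
  one : K 0 1

end KImgDef

/-! ### the base ring and its quotient -/

/-- `O → ℚ̄` (image in `A`) and `π : O → S`, onto with kernel `ℓⁿ A ∩ O`, `n ≥ 1`, such that `𝔪` is
the image of the non-units. -/
structure BaseQuot (ℓ n : ℕ) (A : ValuationSubring Qb) {O S : Type*} [CommRing O] [CommRing S]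
    (ι : O →+* Qb) (π : O →+* S) (𝔪 : Ideal S) : Prop where
  pos : 0 < n
  mem_A : ∀ x, ι x ∈ A
  ker_iff : ∀ x, π x = 0 ↔ ι x ∈ lpow A ℓ n
  surj : Function.Surjective π
  mem_iff : ∀ x, π x ∈ 𝔪 ↔ ι x ∈ A.nonunits

/-! ### representatives -/

section Rep

variable {ℓ n : ℕ} {A : ValuationSubring Qb}
variable {S : Type*} [CommRing S]
variable {Cp Cm C0 : Type*} [CommRing Cp] [CommRing Cm] [CommRing C0]
  [Algebra S Cp] [Algebra S Cm] [Algebra S C0]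
variable {𝔪 : Ideal S} {ip : Cp →ₐ[S] C0} {im : Cm →ₐ[S] C0} {g : ℕ} {ε : Fin g → C0}
variable {O : Type*} [CommRing O] {ι : O →+* Qb} {π : O →+* S}
variable {Jb : Type*} [AddCommGroup Jb] {K : Jb → C0 → Prop}

/-- `a₀ ∈ O^g` reduces to the coordinates of a cocycle of `z`. -/
def IsRepAt (H : Hyp 𝔪 ip im ε) (π : O →+* S) (K : Jb → C0 → Prop) (z : Jb) (a₀ : Fin g → O) :
    Prop :=
  ∃ v, K z v ∧ ∀ i, π (a₀ i) = H.coord v i

/-- `a ∈ ℚ̄^g` is (the image of) a tuple of `O` which reduces to the coordinates of a cocycle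
of `z`. -/
def RepQb (A : ValuationSubring Qb) (H : Hyp 𝔪 ip im ε) (ι : O →+* Qb) (π : O →+* S)
    (K : Jb → C0 → Prop) (z : Jb) (a : Fin g → Qb) : Prop :=
  (∀ i, a i ∈ A.nonunits) ∧ ∃ a₀ : Fin g → O, (∀ i, ι (a₀ i) = a i) ∧ IsRepAt H π K z a₀

variable {H : Hyp 𝔪 ip im ε}

theorem RepQb.nonunit {z : Jb} {a : Fin g → Qb} (h : RepQb A H ι π K z a) (i : Fin g) :
    a i ∈ A.nonunits := h.1 i

/-- the coordinates of a class do not depend on the cocycle -/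
theorem KImg.coord_eq (hK : KImg 𝔪 ip im K) (H : Hyp 𝔪 ip im ε) {z : Jb} {v v' : C0}
    (hv : K z v) (hv' : K z v') : H.coord v' = H.coord v :=
  H.coord_congr (hK.sub_one hv) (hK.rel hv hv')

/-- **(C2) at one level**: two representatives of a class are congruent modulo `ℓⁿ A`. -/
theorem RepQb.unique (hB : BaseQuot ℓ n A ι π 𝔪) (hK : KImg 𝔪 ip im K) {z : Jb}
    {a a' : Fin g → Qb} (h : RepQb A H ι π K z a) (h' : RepQb A H ι π K z a') (i : Fin g) :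
    a i - a' i ∈ lpow A ℓ n := by
  obtain ⟨-, a₀, ha₀, v, hv, e⟩ := h
  obtain ⟨-, a₀', ha₀', v', hv', e'⟩ := h'
  have h1 : π (a₀ i - a₀' i) = 0 := by
    rw [map_sub, e, e', hK.coord_eq H hv hv', sub_self]
  have h2 := (hB.ker_iff _).1 h1
  rwa [map_sub, ha₀, ha₀'] at h2

/-- **(C1) at one level**: every cocycle gives a representative. -/
theorem RepQb.exists_of_K (hB : BaseQuot ℓ n A ι π 𝔪) (H : Hyp 𝔪 ip im ε) {z : Jb} {v : C0}
    (hv : K z v) : ∃ a, RepQb A H ι π K z a := by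
  choose a₀ ha₀ using fun i => hB.surj (H.coord v i)
  refine ⟨fun i => ι (a₀ i), fun i => ?_, a₀, fun _ => rfl, v, hv, ha₀⟩
  rw [← hB.mem_iff, ha₀]
  exact H.coord_mem v i

/-- the class `0` has the representative `0`. -/
theorem RepQb.zero (hK : KImg 𝔪 ip im K) (H : Hyp 𝔪 ip im ε) :
    RepQb A H ι π K (0 : Jb) (0 : Fin g → Qb) := by
  refine ⟨fun i => ?_, 0, fun i => by simp, 1, hK.one, fun i => ?_⟩
  · simp only [Pi.zero_apply]
    rw [A.mem_nonunits_iff, map_zero]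
    exact zero_lt_one
  · rw [H.coord_one]; simp

/-- a representative which is `≡ 0` modulo `ℓⁿ A` : the coordinates of the cocycle vanish. -/
theorem RepQb.coord_eq_zero (hB : BaseQuot ℓ n A ι π 𝔪) (hK : KImg 𝔪 ip im K) {z : Jb}
    {a : Fin g → Qb} (h : RepQb A H ι π K z a) (ha : ∀ i, a i ∈ lpow A ℓ n) {v : C0}
    (hv : K z v) : H.coord v = 0 := by
  obtain ⟨-, a₀, ha₀, v', hv', e'⟩ := h
  rw [hK.coord_eq H hv' hv]
  funext i
  rw [← e', Pi.zero_apply, hB.ker_iff, ha₀]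
  exact ha i

end Rep

/-! ### transport along a morphism of situations -/

section Map

variable {ℓ n n' : ℕ} {A : ValuationSubring Qb}
variable {S : Type*} [CommRing S]
variable {Cp Cm C0 : Type*} [CommRing Cp] [CommRing Cm] [CommRing C0]
  [Algebra S Cp] [Algebra S Cm] [Algebra S C0]
variable {𝔪 : Ideal S} {ip : Cp →ₐ[S] C0} {im : Cm →ₐ[S] C0} {g : ℕ} {ε : Fin g → C0}
variable {O : Type*} [CommRing O] {ι : O →+* Qb} {π : O →+* S}
variable {Jb : Type*} [AddCommGroup Jb] {K : Jb → C0 → Prop}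
variable {S' : Type*} [CommRing S']
variable {Cp' Cm' C0' : Type*} [CommRing Cp'] [CommRing Cm'] [CommRing C0']
  [Algebra S' Cp'] [Algebra S' Cm'] [Algebra S' C0']
variable {𝔪' : Ideal S'} {ip' : Cp' →ₐ[S'] C0'} {im' : Cm' →ₐ[S'] C0'} {ε' : Fin g → C0'}
variable {O' : Type*} [CommRing O'] {ι' : O' →+* Qb} {π' : O' →+* S'}
variable {Jb' : Type*} [AddCommGroup Jb'] {K' : Jb' → C0' → Prop}
variable {φ : S →+* S'} {ψp : Cp →+* Cp'} {ψm : Cm →+* Cm'} {ψ0 : C0 →+* C0'}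

/-- **Transport of representatives along a morphism of situations** `(S, …, ε) → (S', …, ε')`
lying over `θ : O → O'` and `σ : ℚ̄ → ℚ̄` (level inclusion: `σ = id`; lowering the precision:
`θ = id`; strict Galois equivariance: `σ` in the inertia group). -/
theorem RepQb.map (hB' : BaseQuot ℓ n' A ι' π' 𝔪') (hK : KImg 𝔪 ip im K)
    (H : Hyp 𝔪 ip im ε) (H' : Hyp 𝔪' ip' im' ε')
    (M : Morph 𝔪 ip im ε 𝔪' ip' im' ε' φ ψp ψm ψ0)
    (θ : O →+* O') (hθ : ∀ x, φ (π x) = π' (θ x)) (σ : Qb →+* Qb) (hσ : ∀ x, ι' (θ x) = σ (ι x))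
    (act : Jb → Jb') (hKK' : ∀ z v, K z v → K' (act z) (ψ0 v))
    {z : Jb} {a : Fin g → Qb} (h : RepQb A H ι π K z a) :
    RepQb A H' ι' π' K' (act z) (fun i => σ (a i)) := by
  obtain ⟨-, a₀, ha₀, v, hv, e⟩ := h
  have hc := M.coord_map H H' (hK.sub_one hv)
  have key : ∀ i, π' (θ (a₀ i)) = H'.coord (ψ0 v) i := by
    intro i
    rw [hc, ← hθ, e]
  refine ⟨fun i => ?_, fun i => θ (a₀ i), fun i => by rw [hσ, ha₀], ψ0 v, hKK' z v hv, key⟩
  show σ (a i) ∈ A.nonunits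
  rw [← ha₀, ← hσ, ← hB'.mem_iff, key]
  exact H'.coord_mem _ i

end Map

/-! ### from line bundles to `KImg` -/

section Lines

variable {F : Type*} [CommRing F] [IsDomain F] {ϖ : F} {Bp Bm B0 Rg : Subring F}
variable {Jb : Type*} [AddCommGroup Jb]

/-- Abstract cocycle system at a level: `κ z u`, "`u ∈ 1 + ϖ B0` is a cocycle of precision
`ϖ^(k+1)` of the class `z`". -/
structure KSys (C : Charts ϖ Bp Bm B0 Rg) (k : ℕ) (κ : Jb → F → Prop) : Prop where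
  mem : ∀ {z u}, κ z u → u ∈ B0
  isOne : ∀ {z u}, κ z u → ∃ a ∈ B0, u = 1 + ϖ * a
  rel : ∀ {z u u'}, κ z u → κ z u' → ∃ wp ∈ Bp, ∃ wm ∈ Bm, (∃ a ∈ Bp, wp = 1 + ϖ * a) ∧
    (∃ a ∈ Bm, wm = 1 + ϖ * a) ∧ ∃ c ∈ B0, u' = u * wp * wm + ϖ ^ (k + 1) * c
  mul : ∀ {z z' u u'}, κ z u → κ z' u' → κ (z + z') (u * u')
  one : κ 0 1

/-- The line bundles attached to the classes: `Λ z L`, "`L` is the line `(𝓛(D)(U_?))` of a divisor
`D` of class `z` with trivial reduction". -/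
structure LineSys (C : Charts ϖ Bp Bm B0 Rg) (Λ : Jb → Line ϖ Bp Bm B0 Rg → Prop) : Prop where
  /-- generators `≡ 1` exist on both charts -/
  gens : ∀ {z L}, Λ z L → ∃ fp ∈ L.Lp, ∃ fm ∈ L.Lm, IsOne ϖ Rg fp ∧ IsOne ϖ Rg fm
  /-- the trivial bundle -/
  zero : ∃ L, Λ 0 L ∧ (1 : F) ∈ L.Lp ∧ (1 : F) ∈ L.Lm
  /-- tensor products -/
  add : ∀ {z z' L L'}, Λ z L → Λ z' L' → ∃ L'', Λ (z + z') L'' ∧
    (∀ x ∈ L.Lp, ∀ x' ∈ L'.Lp, x * x' ∈ L''.Lp) ∧ (∀ x ∈ L.Lm, ∀ x' ∈ L'.Lm, x * x' ∈ L''.Lm) ∧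
    (∀ x ∈ L.L0, ∀ x' ∈ L'.L0, x * x' ∈ L''.L0)
  /-- two divisors of the same class: multiplication by a function `w ≡ 1` -/
  indep : ∀ {z L L'}, Λ z L → Λ z L' → ∃ w, IsOne ϖ Rg w ∧ (∀ x ∈ L'.Lp, w * x ∈ L.Lp) ∧
    (∀ x ∈ L'.Lm, w * x ∈ L.Lm) ∧ (∀ x ∈ L'.L0, w * x ∈ L.L0)

/-- the cocycles of the classes, of precision `ϖ^(k+1)` -/
def kappa (Λ : Jb → Line ϖ Bp Bm B0 Rg → Prop) (k : ℕ) (z : Jb) (u : F) : Prop :=
  ∃ L, Λ z L ∧ ∃ fp ∈ L.Lp, ∃ fm ∈ L.Lm, IsOne ϖ Rg fp ∧ IsOne ϖ Rg fm ∧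
    L.IsCocycle (k + 1) fp fm u

theorem kappa_mono {Λ : Jb → Line ϖ Bp Bm B0 Rg → Prop} (C : Charts ϖ Bp Bm B0 Rg) {k : ℕ}
    {z : Jb} {u : F} (h : kappa Λ (k + 1) z u) : kappa Λ k z u := by
  obtain ⟨L, hL, fp, hfp, fm, hfm, h1p, h1m, hc⟩ := h
  exact ⟨L, hL, fp, hfp, fm, hfm, h1p, h1m, Line.IsCocycle.mono C L hc⟩

/-- every class with a line has cocycles of every precision -/
theorem LineSys.exists_kappa {C : Charts ϖ Bp Bm B0 Rg} {Λ : Jb → Line ϖ Bp Bm B0 Rg → Prop}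
    (hΛ : LineSys C Λ) {z : Jb} {L : Line ϖ Bp Bm B0 Rg} (hL : Λ z L) (k : ℕ) :
    ∃ u, kappa Λ k z u := by
  obtain ⟨fp, hfp, fm, hfm, h1p, h1m⟩ := hΛ.gens hL
  obtain ⟨u, hu⟩ := L.exists_cocycle C hfp hfm h1m (k + 1)
  exact ⟨u, L, hL, fp, hfp, fm, hfm, h1p, h1m, hu⟩

/-- **line bundles give a cocycle system** -/
theorem LineSys.kSys {C : Charts ϖ Bp Bm B0 Rg} {Λ : Jb → Line ϖ Bp Bm B0 Rg → Prop}
    (hΛ : LineSys C Λ) (k : ℕ) : KSys C k (kappa Λ k) where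
  mem := by
    rintro z u ⟨L, -, fp, -, fm, -, -, -, hc⟩
    exact hc.1
  isOne := by
    rintro z u ⟨L, -, fp, -, fm, -, h1p, h1m, hc⟩
    exact Line.IsCocycle.isOne C L h1p h1m hc
  rel := by
    rintro z u u' ⟨L, hL, fp, hfp, fm, hfm, h1p, h1m, hc⟩ ⟨L', hL', fp', hfp', fm', hfm', h1p', h1m', hc'⟩
    obtain ⟨w, hw1, hwp, hwm, hw0⟩ := hΛ.indep hL hL'
    have hc'' : L.IsCocycle (k + 1) (w * fp') (w * fm') u' := by
      obtain ⟨hu', y', hy', e'⟩ := hc'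
      exact ⟨hu', w * y', hw0 y' hy', by rw [e']; ring⟩
    exact L.cocycle_rel C hfp h1p hfm h1m (hwp fp' hfp') (IsOne.mul C.mem_R hw1 h1p')
      (hwm fm' hfm') (IsOne.mul C.mem_R hw1 h1m') hc hc''
  mul := by
    rintro z z' u u' ⟨L, hL, fp, hfp, fm, hfm, h1p, h1m, hc⟩ ⟨L', hL', fp', hfp', fm', hfm', h1p', h1m', hc'⟩
    obtain ⟨L'', hL'', hpp, hmm, h00⟩ := hΛ.add hL hL'
    exact ⟨L'', hL'', fp * fp', hpp fp hfp fp' hfp', fm * fm', hmm fm hfm fm' hfm',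
      IsOne.mul C.mem_R h1p h1p', IsOne.mul C.mem_R h1m h1m',
      Line.cocycle_mul C L L' L'' h00 hfm hfm' hc hc'⟩
  one := by
    obtain ⟨L, hL, h1p, h1m⟩ := hΛ.zero
    exact ⟨L, hL, 1, h1p, 1, h1m, IsOne.one, IsOne.one, Line.cocycle_of_common C L (k + 1)⟩

variable {S : Type*} [CommRing S]
variable {Cp Cm C0 : Type*} [CommRing Cp] [CommRing Cm] [CommRing C0]
  [Algebra S Cp] [Algebra S Cm] [Algebra S C0]
variable {C : Charts ϖ Bp Bm B0 Rg} {𝔪 : Ideal S} {ip : Cp →ₐ[S] C0} {im : Cm →ₐ[S] C0} {k : ℕ}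
  {qp : Bp →+* Cp} {qm : Bm →+* Cm} {q0 : B0 →+* C0}

/-- the images in `C0` of the cocycles of a cocycle system -/
def kImage (q0 : B0 →+* C0) (κ : Jb → F → Prop) (z : Jb) (v : C0) : Prop :=
  ∃ u, κ z u ∧ ∃ hu : u ∈ B0, v = q0 ⟨u, hu⟩

/-- **a cocycle system and a transport give `KImg`** -/
theorem KSys.kImg {κ : Jb → F → Prop} (hκ : KSys C k κ) (T : Transport C 𝔪 ip im k qp qm q0) :
    KImg 𝔪 ip im (kImage q0 κ) where
  sub_one := by
    rintro z v ⟨u, hu, huB, rfl⟩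
    exact T.q0_sub_one_mem huB (hκ.isOne hu)
  rel := by
    rintro z v v' ⟨u, hu, huB, rfl⟩ ⟨u', hu', huB', rfl⟩
    obtain ⟨wp, hwp, wm, hwm, hwp1, hwm1, c, hc, e⟩ := hκ.rel hu hu'
    refine ⟨qp ⟨wp, hwp⟩, qm ⟨wm, hwm⟩, T.qp_sub_one_mem hwp hwp1, T.qm_sub_one_mem hwm hwm1, ?_⟩
    rw [T.compat_p, T.compat_m]
    have e' : (⟨u', huB'⟩ : B0) = ⟨u, huB⟩ * ⟨wp, C.p_le hwp⟩ * ⟨wm, C.m_le hwm⟩
        + ⟨ϖ ^ (k + 1), B0.pow_mem C.mem_0 (k + 1)⟩ * ⟨c, hc⟩ := Subtype.ext e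
    rw [e', map_add, map_mul, map_mul, map_mul, T.kill, zero_mul, add_zero]
  mul := by
    rintro z z' v v' ⟨u, hu, huB, rfl⟩ ⟨u', hu', huB', rfl⟩
    refine ⟨u * u', hκ.mul hu hu', B0.mul_mem huB huB', ?_⟩
    rw [← map_mul]; rfl
  one := ⟨1, hκ.one, B0.one_mem, by rw [← map_one q0]; rfl⟩

end Lines

end Fermat.Agent.S19.Cech.CoordOfLines
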