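/-
S19 / Čech-units route: **the reduction layer between `ℚ̄`-valued representatives and the finite
levels** (consumer: the wiring `Cech/CoordOfLines.lean` of the contract `Coord/Defs.lean`).

A *level ring* is a commutative ring `R` with an injective ring hom `ι : R → ℚ̄` whose image lies in the
valuation ring `A` and is `ℓ`-saturated: `ι x ∈ ℓⁿ A → x ∈ ℓⁿ R` (think `R = baseRing A L ≅ A ∩ L`).
For such a ring, with `Quo R ℓ n = R ⧸ (ℓⁿ)` and `red : R → Quo R ℓ n`: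

* `red_eq_red_iff` : `red x = red y ↔ ι x - ι y ∈ lpow A ℓ n`  (the contract's congruences);
* `red_pow_eq_zero` : `ι x ^ e ∈ lpow A ℓ 1 → red x ^ (e * n) = 0`  (nilpotency bound for (C5));
* `nonunitIdeal`, `quoIdeal`, `red_mem_quoIdeal` : non-units of `A` go to the ideal `𝔪_n`;
  `quoIdeal_pow_eq_bot` when `R` has a uniformiser;
* `quoMap` : transition `Quo R ℓ n → Quo R' ℓ n` along `R → R'`, INJECTIVE (saturation);
  `quoRed : Quo R ℓ (n + 1) → Quo R ℓ n`;
* `ι_eval₂` / `red_eval₂` : evaluation of polynomials commutes with `ι` and with `red`;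
  `unrCoeffs_map` : polynomials over an unramified base ring have `UnrCoeffs`.
-/
import Mathlib
import Fermat.Agent.S19.Coord.Defs
import Fermat.Agent.S19.Order.UnrPoly

set_option autoImplicit false

namespace Fermat.Agent.S19.Cech.RedTuple

open Fermat.Agent.S19.Abs Fermat.Agent.S19.Coord Fermat.Agent.S19.Order.UnrPoly

variable (A : ValuationSubring Qb) (ℓ : ℕ)

/-- `R ⧸ (ℓⁿ)` -/
abbrev Quo (R : Type*) [CommRing R] (ℓ n : ℕ) : Type _ := R ⧸ Ideal.span {((ℓ : R)) ^ n}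

/-- the reduction `R → R ⧸ (ℓⁿ)` -/
abbrev red (R : Type*) [CommRing R] (ℓ n : ℕ) : R →+* Quo R ℓ n := Ideal.Quotient.mk _

variable {R : Type*} [CommRing R] (ι : R →+* Qb)

/-- A level ring: `ι : R → ℚ̄` injective, with image in `A`, `ℓ`-saturated. -/
structure IsLevelRing : Prop where
  inj : Function.Injective ι
  mem : ∀ x, ι x ∈ A
  sat : ∀ (n : ℕ) (x : R), ι x ∈ lpow A ℓ n → ∃ y : R, x = (ℓ : R) ^ n * y

variable {A ℓ ι}

theorem red_eq_zero_iff (h : IsLevelRing A ℓ ι) {n : ℕ} {x : R} :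
    red R ℓ n x = 0 ↔ ι x ∈ lpow A ℓ n := by
  rw [Ideal.Quotient.eq_zero_iff_mem, Ideal.mem_span_singleton']
  constructor
  · rintro ⟨y, rfl⟩
    exact ⟨ι y, h.mem y, by simp [mul_comm]⟩
  · intro hx
    obtain ⟨y, rfl⟩ := h.sat n x hx
    exact ⟨y, mul_comm _ _⟩

/-- **congruences modulo `ℓⁿ A` are equalities in `R ⧸ (ℓⁿ)`** -/
theorem red_eq_red_iff (h : IsLevelRing A ℓ ι) {n : ℕ} {x y : R} :
    red R ℓ n x = red R ℓ n y ↔ ι x - ι y ∈ lpow A ℓ n := by
  rw [← sub_eq_zero, ← map_sub, red_eq_zero_iff h, map_sub]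

theorem pow_mem_lpow_mul {x : Qb} {e : ℕ} (hx : x ^ e ∈ lpow A ℓ 1) (n : ℕ) :
    x ^ (e * n) ∈ lpow A ℓ n := by
  induction n with
  | zero =>
    rw [Nat.mul_zero, pow_zero]
    exact ⟨1, A.one_mem, by simp⟩
  | succ n ih =>
    have : x ^ (e * (n + 1)) = x ^ (e * n) * x ^ e := by rw [← pow_add]; ring_nf
    rw [this]
    exact mul_mem_lpow_add ih hx

/-- **nilpotency bound**: `ι x ^ e ∈ ℓ A → (red x) ^ (e n) = 0` in `R ⧸ (ℓⁿ)` -/
theorem red_pow_eq_zero (h : IsLevelRing A ℓ ι) {n e : ℕ} {x : R} (hx : ι x ^ e ∈ lpow A ℓ 1) :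
    red R ℓ n x ^ (e * n) = 0 := by
  rw [← map_pow, red_eq_zero_iff h, map_pow]
  exact pow_mem_lpow_mul hx n

/-! ### the ideal of non-units -/

/-- `ι` as a map to `A` -/
noncomputable def toA (h : IsLevelRing A ℓ ι) : R →+* A := ι.codRestrict A.toSubring h.mem

@[simp] theorem coe_toA (h : IsLevelRing A ℓ ι) (x : R) : ((toA h x : A) : Qb) = ι x := rfl

/-- the ideal `{x | ι x ∈ 𝔪_A}` of `R` -/
noncomputable def nonunitIdeal (h : IsLevelRing A ℓ ι) : Ideal R :=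
  (IsLocalRing.maximalIdeal A).comap (toA h)

theorem mem_nonunitIdeal_iff (h : IsLevelRing A ℓ ι) {x : R} :
    x ∈ nonunitIdeal h ↔ ι x ∈ A.nonunits := by
  unfold nonunitIdeal
  rw [Ideal.mem_comap, ← ValuationSubring.coe_mem_nonunits_iff, coe_toA]

/-- the image `𝔪_n` of the non-units in `R ⧸ (ℓⁿ)` -/
noncomputable def quoIdeal (h : IsLevelRing A ℓ ι) (n : ℕ) : Ideal (Quo R ℓ n) :=
  (nonunitIdeal h).map (red R ℓ n)

theorem red_mem_quoIdeal (h : IsLevelRing A ℓ ι) (n : ℕ) {x : R} (hx : ι x ∈ A.nonunits) :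
    red R ℓ n x ∈ quoIdeal h n :=
  Ideal.mem_map_of_mem _ ((mem_nonunitIdeal_iff h).2 hx)

/-- if `R` has a uniformiser `ϖ` with `ϖ^e ∈ (ℓ)`, the ideal `𝔪_n` is nilpotent -/
theorem quoIdeal_pow_eq_bot (h : IsLevelRing A ℓ ι) (n : ℕ) {ϖ : R} {e : ℕ}
    (hϖ : nonunitIdeal h ≤ Ideal.span {ϖ}) (he : ∃ y : R, ϖ ^ e = (ℓ : R) * y) :
    quoIdeal h n ^ (e * n) = ⊥ := by
  unfold quoIdeal
  rw [← Ideal.map_pow, eq_bot_iff]
  have h1 : nonunitIdeal h ^ (e * n) ≤ Ideal.span {((ℓ : R)) ^ n} := by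
    calc nonunitIdeal h ^ (e * n) ≤ Ideal.span {ϖ} ^ (e * n) := Ideal.pow_right_mono hϖ _
      _ = Ideal.span {ϖ ^ (e * n)} := Ideal.span_singleton_pow _ _
      _ ≤ Ideal.span {((ℓ : R)) ^ n} := by
        rw [Ideal.span_singleton_le_span_singleton]
        obtain ⟨y, hy⟩ := he
        refine ⟨y ^ n, ?_⟩
        rw [pow_mul, hy, mul_pow]
  calc Ideal.map (red R ℓ n) (nonunitIdeal h ^ (e * n))
      ≤ Ideal.map (red R ℓ n) (Ideal.span {((ℓ : R)) ^ n}) := Ideal.map_mono h1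
    _ = ⊥ := by rw [Ideal.map_quotient_self]

/-! ### transitions -/

section Transition

variable {R' : Type*} [CommRing R'] {ι' : R' →+* Qb}

/-- the transition map `R ⧸ (ℓⁿ) → R' ⧸ (ℓⁿ)` along `f : R → R'` -/
def quoMap (f : R →+* R') (ℓ n : ℕ) : Quo R ℓ n →+* Quo R' ℓ n :=
  Ideal.quotientMap _ f (by
    rw [Ideal.span_le]
    rintro _ rfl
    rw [SetLike.mem_coe, Ideal.mem_comap, map_pow, map_natCast]
    exact Ideal.subset_span rfl)

@[simp] theorem quoMap_red (f : R →+* R') (n : ℕ) (x : R) :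
    quoMap f ℓ n (red R ℓ n x) = red R' ℓ n (f x) := by
  simp [quoMap, red]

/-- **transitions between level rings are injective modulo `ℓⁿ`** -/
theorem quoMap_injective (h : IsLevelRing A ℓ ι) (h' : IsLevelRing A ℓ ι') (f : R →+* R')
    (hf : ∀ x, ι' (f x) = ι x) (n : ℕ) : Function.Injective (quoMap f ℓ n) := by
  rw [injective_iff_map_eq_zero]
  intro c hc
  obtain ⟨x, rfl⟩ := Ideal.Quotient.mk_surjective c
  change quoMap f ℓ n (red R ℓ n x) = 0 at hc
  rw [quoMap_red, red_eq_zero_iff h', hf] at hc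
  exact (red_eq_zero_iff h).2 hc

/-- `R ⧸ (ℓ^(n+1)) → R ⧸ (ℓⁿ)` -/
def quoRed (R : Type*) [CommRing R] (ℓ n : ℕ) : Quo R ℓ (n + 1) →+* Quo R ℓ n :=
  Ideal.Quotient.factor (by
    rw [Ideal.span_singleton_le_span_singleton]
    exact ⟨(ℓ : R), pow_succ _ _⟩)

@[simp] theorem quoRed_red (n : ℕ) (x : R) : quoRed R ℓ n (red R ℓ (n + 1) x) = red R ℓ n x := by
  simp [quoRed, red]

theorem quoMap_mem_quoIdeal (h : IsLevelRing A ℓ ι) (h' : IsLevelRing A ℓ ι') (f : R →+* R')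
    (hf : ∀ x, ι' (f x) = ι x) (n : ℕ) {c : Quo R ℓ n} (hc : c ∈ quoIdeal h n) :
    quoMap f ℓ n c ∈ quoIdeal h' n := by
  have hle : quoIdeal h n ≤ (quoIdeal h' n).comap (quoMap f ℓ n) := by
    unfold quoIdeal
    rw [Ideal.map_le_iff_le_comap]
    intro x hx
    rw [Ideal.mem_comap, Ideal.mem_comap, quoMap_red]
    refine red_mem_quoIdeal h' n ?_
    rw [hf]
    exact (mem_nonunitIdeal_iff h).1 hx
  exact hle hc

theorem quoRed_mem_quoIdeal (h : IsLevelRing A ℓ ι) (n : ℕ) {c : Quo R ℓ (n + 1)}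
    (hc : c ∈ quoIdeal h (n + 1)) : quoRed R ℓ n c ∈ quoIdeal h n := by
  have hle : quoIdeal h (n + 1) ≤ (quoIdeal h n).comap (quoRed R ℓ n) := by
    unfold quoIdeal
    rw [Ideal.map_le_iff_le_comap]
    intro x hx
    rw [Ideal.mem_comap, Ideal.mem_comap, quoRed_red]
    exact Ideal.mem_map_of_mem _ hx
  exact hle hc

end Transition

/-! ### polynomials -/

section Poly

variable {R₀ : Type*} [CommRing R₀] {κ : Type*}

/-- evaluation in `R`, viewed in `ℚ̄` -/
theorem ι_eval₂ (f₀ : R₀ →+* R) (a : κ → R) (P : MvPolynomial κ R₀) :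
    ι (MvPolynomial.eval₂ f₀ a P)
      = MvPolynomial.aeval (fun k => ι (a k)) (MvPolynomial.map (ι.comp f₀) P) := by
  rw [MvPolynomial.eval₂_comp_left ι f₀ a P, MvPolynomial.aeval_def, MvPolynomial.eval₂_map]
  congr 1

/-- evaluation commutes with the reduction -/
theorem red_eval₂ (f₀ : R₀ →+* R) (a : κ → R) (P : MvPolynomial κ R₀) (n : ℕ) :
    red R ℓ n (MvPolynomial.eval₂ f₀ a P)
      = MvPolynomial.eval₂ ((red R ℓ n).comp f₀) (fun k => red R ℓ n (a k)) P :=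
  MvPolynomial.eval₂_comp_left (red R ℓ n) f₀ a P

/-- polynomials over a ring whose image is unramified have `UnrCoeffs` -/
theorem unrCoeffs_map (j : R₀ →+* Qb) (hj : ∀ r, IsUnr A (j r)) (P : MvPolynomial κ R₀) :
    UnrCoeffs A (MvPolynomial.map j P) := by
  intro m
  rw [MvPolynomial.coeff_map]
  exact hj _

/-- a polynomial without constant term takes non-unit values at non-units -/
theorem aeval_mem_nonunits [Finite κ] {P : MvPolynomial κ Qb} (hP : ∀ m, P.coeff m ∈ A)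
    (h0 : P.coeff 0 = 0) {a : κ → Qb} (ha : ∀ k, a k ∈ A.nonunits) :
    MvPolynomial.aeval a P ∈ A.nonunits := by
  classical
  obtain ⟨P₀, rfl⟩ := exists_lift_of_coeff_mem hP
  have ha' : ∀ k, a k ∈ A := fun k => ValuationSubring.nonunits_subset (ha k)
  set a₀ : κ → A := fun k => ⟨a k, ha' k⟩ with ha₀
  have hcoe := coe_aeval P₀ a₀
  simp only [ha₀] at hcoe
  rw [← hcoe, ValuationSubring.coe_mem_nonunits_iff]
  -- `aeval a₀ P₀ ∈ 𝔪_A`: every monomial with nonzero coefficient has positive degree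
  have hP₀0 : P₀.coeff 0 = 0 := by
    have := h0
    rw [MvPolynomial.coeff_map] at this
    exact Subtype.ext (by simpa using this)
  rw [MvPolynomial.aeval_def, MvPolynomial.eval₂_eq]
  refine Ideal.sum_mem _ fun d hd => ?_
  have hd0 : d ≠ 0 := by
    rintro rfl
    exact (MvPolynomial.mem_support_iff.1 hd) hP₀0
  obtain ⟨k, hk⟩ : ∃ k, d k ≠ 0 := by
    by_contra hcon
    simp only [not_exists, not_not] at hcon
    exact hd0 (Finsupp.ext hcon)
  apply Ideal.mul_mem_left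
  have hkmem : k ∈ d.support := Finsupp.mem_support_iff.2 hk
  rw [← Finset.mul_prod_erase _ _ hkmem]
  apply Ideal.mul_mem_right
  have : a₀ k ∈ IsLocalRing.maximalIdeal A := by
    rw [← ValuationSubring.coe_mem_nonunits_iff]
    exact ha k
  exact Ideal.pow_mem_of_mem _ this _ (Nat.pos_of_ne_zero hk)

end Poly

/-! ### the decomposition group -/

section Galois

theorem apply_mem_lpow {σ : GQ} (hσ : σ ∈ A.decompositionSubgroup ℚ) {n : ℕ} {x : Qb}
    (hx : x ∈ lpow A ℓ n) : σ x ∈ lpow A ℓ n := by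
  obtain ⟨a, ha, rfl⟩ := hx
  refine ⟨σ a, apply_mem_of_mem_decomposition hσ ha, ?_⟩
  rw [map_mul, map_pow, map_natCast]

theorem apply_mem_lpow_iff {σ : GQ} (hσ : σ ∈ A.decompositionSubgroup ℚ) {n : ℕ} {x : Qb} :
    σ x ∈ lpow A ℓ n ↔ x ∈ lpow A ℓ n := by
  refine ⟨fun h => ?_, apply_mem_lpow hσ⟩
  have hσ' : σ⁻¹ ∈ A.decompositionSubgroup ℚ := inv_mem hσ
  have := apply_mem_lpow hσ' h
  rwa [AlgEquiv.aut_inv, AlgEquiv.symm_apply_apply] at this

theorem apply_mem_nonunits {σ : GQ} (hσ : σ ∈ A.decompositionSubgroup ℚ) {x : Qb}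
    (hx : x ∈ A.nonunits) : σ x ∈ A.nonunits := by
  rw [ValuationSubring.mem_nonunits_iff_or] at hx ⊢
  rcases hx with rfl | hx
  · left; simp
  · right
    intro h
    apply hx
    have hσ' : σ⁻¹ ∈ A.decompositionSubgroup ℚ := inv_mem hσ
    have := apply_mem_of_mem_decomposition hσ' h
    rwa [← map_inv₀, AlgEquiv.aut_inv, AlgEquiv.symm_apply_apply] at this

/-- a level ring twisted by an element of the decomposition group is a level ring (same `R`, the
embedding `σ ∘ ι`); the identity of `R` is then a `σ`-semilinear transition. -/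
theorem IsLevelRing.twist (h : IsLevelRing A ℓ ι) {σ : GQ} (hσ : σ ∈ A.decompositionSubgroup ℚ) :
    IsLevelRing A ℓ ((σ : Qb →+* Qb).comp ι) where
  inj := fun _ _ hxy => h.inj (σ.injective hxy)
  mem := fun x => apply_mem_of_mem_decomposition hσ (h.mem x)
  sat := fun n x hx => h.sat n x ((apply_mem_lpow_iff hσ).1 hx)

theorem quoIdeal_twist (h : IsLevelRing A ℓ ι) {σ : GQ} (hσ : σ ∈ A.decompositionSubgroup ℚ)
    (n : ℕ) : quoIdeal (h.twist hσ) n = quoIdeal h n := by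
  unfold quoIdeal
  congr 1
  ext x
  rw [mem_nonunitIdeal_iff, mem_nonunitIdeal_iff]
  constructor
  · intro hx
    have hσ' : σ⁻¹ ∈ A.decompositionSubgroup ℚ := inv_mem hσ
    have := apply_mem_nonunits hσ' hx
    simpa [AlgEquiv.aut_inv] using this
  · intro hx
    exact apply_mem_nonunits hσ hx

end Galois

end Fermat.Agent.S19.Cech.RedTuple
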