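/-
S19 / Čech-units route, support for [SIT]/[INST]: **the `BaseQuot` instance of a level ring.**

For a level ring `ι : R → ℚ̄` (`RedTuple.IsLevelRing A ℓ ι`: injective, image in `A`, `ℓ`-saturated;
think `R = baseRing A K ≅ A ∩ K`) and `n ≥ 1`, the quotient `π = red : R → R ⧸ (ℓⁿ)` with the ideal
`𝔪 = quoIdeal` (image of the non-units) is a `CoordOfLines.BaseQuot` — no DVR hypothesis needed.
Bridges identify `quoIdeal` with the image of the maximal ideal of a local `R`, and with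
`span {red ϖ}` for a uniformiser `ϖ`.  The concrete instance: `baseRing A K` is a level ring.
-/
import Fermat.Agent.S19.Cech.CoordOfLines
import Fermat.Agent.S19.Cech.RedTuple
import Fermat.Agent.N4F.C.Rationality

set_option autoImplicit false

namespace Fermat.Agent.S19.Cech.BaseQuotLevel

open Fermat.Agent.S19.Abs Fermat.Agent.S19.Coord Fermat.Agent.S19.Cech
  Fermat.Agent.S19.Cech.CoordOfLines Fermat.Agent.S19.Cech.RedTuple
  Fermat.Agent.S19.Order.UnrPoly

variable {A : ValuationSubring Qb} {ℓ : ℕ}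
variable {R : Type*} [CommRing R] {ι : R →+* Qb}

/-! ### the abstract instance -/

/-- elements of `ℓⁿ A`, `n ≥ 1`, are non-units -/
theorem mem_nonunits_of_mem_lpow (hA : A.LiesOverPrime ℓ) {n : ℕ} (hn : 0 < n) {x : Qb}
    (hx : x ∈ lpow A ℓ n) : x ∈ A.nonunits := by
  obtain ⟨m, rfl⟩ : ∃ m, n = m + 1 := ⟨n - 1, by omega⟩
  exact lpow_succ_nonunit A ℓ m hA hx

/-- membership in the image of the non-units can be tested on any representative -/
theorem red_mem_quoIdeal_iff (h : IsLevelRing A ℓ ι) (hA : A.LiesOverPrime ℓ) {n : ℕ}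
    (hn : 0 < n) {x : R} : red R ℓ n x ∈ quoIdeal h n ↔ ι x ∈ A.nonunits := by
  refine ⟨fun hx => ?_, red_mem_quoIdeal h n⟩
  unfold quoIdeal at hx
  rw [Ideal.mem_map_iff_of_surjective _ Ideal.Quotient.mk_surjective] at hx
  obtain ⟨y, hy, hyx⟩ := hx
  have h1 : ι y - ι x ∈ lpow A ℓ n := (red_eq_red_iff h).1 hyx
  have h2 : ι y ∈ A.nonunits := (mem_nonunitIdeal_iff h).1 hy
  have h3 : ι x = ι y - (ι y - ι x) := by ring
  rw [h3]
  exact A.nonunits.sub_mem h2 (mem_nonunits_of_mem_lpow hA hn h1)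

/-- **the `BaseQuot` of a level ring**: `π = red : R → R ⧸ (ℓⁿ)`, `𝔪 = quoIdeal`. -/
theorem baseQuot (h : IsLevelRing A ℓ ι) (hA : A.LiesOverPrime ℓ) {n : ℕ} (hn : 0 < n) :
    BaseQuot ℓ n A ι (red R ℓ n) (quoIdeal h n) where
  pos := hn
  mem_A := h.mem
  ker_iff := fun _ => red_eq_zero_iff h
  surj := Ideal.Quotient.mk_surjective
  mem_iff := fun _ => red_mem_quoIdeal_iff h hA hn

/-- the same with any ideal equal to `quoIdeal` -/
theorem baseQuot_of_eq (h : IsLevelRing A ℓ ι) (hA : A.LiesOverPrime ℓ) {n : ℕ} (hn : 0 < n)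
    {𝔪 : Ideal (Quo R ℓ n)} (h𝔪 : 𝔪 = quoIdeal h n) :
    BaseQuot ℓ n A ι (red R ℓ n) 𝔪 := by
  rw [h𝔪]; exact baseQuot h hA hn

/-! ### bridges for `quoIdeal` -/

/-- for a local level ring whose maximal ideal consists of the elements going to non-units of `A`,
`nonunitIdeal` is the maximal ideal -/
theorem nonunitIdeal_eq_maximalIdeal [IsLocalRing R] (h : IsLevelRing A ℓ ι)
    (hloc : ∀ x : R, x ∈ IsLocalRing.maximalIdeal R ↔ ι x ∈ A.nonunits) :
    nonunitIdeal h = IsLocalRing.maximalIdeal R := by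
  ext x
  rw [mem_nonunitIdeal_iff h, hloc]

theorem quoIdeal_eq_map_maximalIdeal [IsLocalRing R] (h : IsLevelRing A ℓ ι)
    (hloc : ∀ x : R, x ∈ IsLocalRing.maximalIdeal R ↔ ι x ∈ A.nonunits) (n : ℕ) :
    quoIdeal h n = (IsLocalRing.maximalIdeal R).map (red R ℓ n) := by
  unfold quoIdeal
  rw [nonunitIdeal_eq_maximalIdeal h hloc]

/-- with a uniformiser: `quoIdeal = (red ϖ)` -/
theorem quoIdeal_eq_span_singleton [IsLocalRing R] (h : IsLevelRing A ℓ ι)
    (hloc : ∀ x : R, x ∈ IsLocalRing.maximalIdeal R ↔ ι x ∈ A.nonunits) (n : ℕ) {ϖ : R}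
    (hϖ : IsLocalRing.maximalIdeal R = Ideal.span {ϖ}) :
    quoIdeal h n = Ideal.span {red R ℓ n ϖ} := by
  rw [quoIdeal_eq_map_maximalIdeal h hloc, hϖ, Ideal.map_span, Set.image_singleton]

/-- `BaseQuot` with the image of the maximal ideal -/
theorem baseQuot_map_maximalIdeal [IsLocalRing R] (h : IsLevelRing A ℓ ι)
    (hloc : ∀ x : R, x ∈ IsLocalRing.maximalIdeal R ↔ ι x ∈ A.nonunits)
    (hA : A.LiesOverPrime ℓ) {n : ℕ} (hn : 0 < n) :
    BaseQuot ℓ n A ι (red R ℓ n) ((IsLocalRing.maximalIdeal R).map (red R ℓ n)) :=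
  baseQuot_of_eq h hA hn (quoIdeal_eq_map_maximalIdeal h hloc n).symm

/-- `BaseQuot` with the ideal generated by the image of a uniformiser -/
theorem baseQuot_span_singleton [IsLocalRing R] (h : IsLevelRing A ℓ ι)
    (hloc : ∀ x : R, x ∈ IsLocalRing.maximalIdeal R ↔ ι x ∈ A.nonunits)
    (hA : A.LiesOverPrime ℓ) {n : ℕ} (hn : 0 < n) {ϖ : R}
    (hϖ : IsLocalRing.maximalIdeal R = Ideal.span {ϖ}) :
    BaseQuot ℓ n A ι (red R ℓ n) (Ideal.span {red R ℓ n ϖ}) :=
  baseQuot_of_eq h hA hn (quoIdeal_eq_span_singleton h hloc n hϖ).symm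

/-! ### the concrete level rings `baseRing A K = A ∩ K` -/

section Concrete

open Fermat.Agent.N4F.C.Levels Fermat.Agent.N4.BigDVR

variable (A) (K : IntermediateField ℚ Qb)

/-- the inclusion `A ∩ K → ℚ̄` -/
noncomputable def ιK : ↥(baseRing A K) →+* Qb :=
  (algebraMap (Lvl K) Qb).comp (baseRing A K).subtype

@[simp] theorem ιK_apply (x : ↥(baseRing A K)) : ιK A K x = algebraMap (Lvl K) Qb (x : Lvl K) :=
  rfl

theorem ιK_injective : Function.Injective (ιK A K) :=
  (algebraMap (Lvl K) Qb).injective.comp Subtype.val_injective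

theorem ιK_mem (x : ↥(baseRing A K)) : ιK A K x ∈ A := by
  have hx : (x : Lvl K) ∈ tr A (Lvl K) := x.2
  exact (mem_tr_iff A (Lvl K)).1 hx

theorem mem_baseRing_iff {x : Lvl K} : x ∈ baseRing A K ↔ algebraMap (Lvl K) Qb x ∈ A :=
  mem_tr_iff A (Lvl K)

/-- **`A ∩ K` is a level ring** (for any `ℓ`). -/
theorem isLevelRing (ℓ : ℕ) : IsLevelRing A ℓ (ιK A K) where
  inj := ιK_injective A K
  mem := ιK_mem A K
  sat := by
    intro n x hx
    obtain ⟨a, ha, hxa⟩ := hx
    by_cases h0 : ((ℓ : Lvl K)) ^ n = 0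
    · refine ⟨0, ?_⟩
      apply ιK_injective A K
      have h0' : ((ℓ : Qb)) ^ n = 0 := by
        have := congrArg (algebraMap (Lvl K) Qb) h0
        simpa using this
      rw [hxa, h0', zero_mul, mul_zero, map_zero]
    · have h0' : ((ℓ : Qb)) ^ n ≠ 0 := by
        intro h
        apply h0
        apply (algebraMap (Lvl K) Qb).injective
        simpa using h
      have hy : (x : Lvl K) / (ℓ : Lvl K) ^ n ∈ baseRing A K := by
        rw [mem_baseRing_iff, map_div₀, map_pow, map_natCast]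
        have : algebraMap (Lvl K) Qb (x : Lvl K) / (ℓ : Qb) ^ n = a := by
          rw [div_eq_iff h0']
          have := hxa
          rw [ιK_apply] at this
          rw [this]; ring
        rw [this]; exact ha
      refine ⟨⟨_, hy⟩, ?_⟩
      apply Subtype.ext
      push_cast
      rw [mul_div_cancel₀ _ h0]

/-- the maximal ideal of `A ∩ K` consists of the elements which are non-units of `A` -/
theorem mem_maximalIdeal_iff [IsLocalRing ↥(baseRing A K)] (x : ↥(baseRing A K)) :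
    x ∈ IsLocalRing.maximalIdeal ↥(baseRing A K) ↔ ιK A K x ∈ A.nonunits := by
  rw [IsLocalRing.mem_maximalIdeal, mem_nonunits_iff, ValuationSubring.mem_nonunits_iff_or]
  constructor
  · intro hx
    by_contra hcon
    rw [not_or, not_not] at hcon
    obtain ⟨hne, hinv⟩ := hcon
    apply hx
    have hx0 : (x : Lvl K) ≠ 0 := by
      intro h
      apply hne
      rw [ιK_apply, h, map_zero]
    have hy : (x : Lvl K)⁻¹ ∈ baseRing A K := by
      rw [mem_baseRing_iff, map_inv₀]
      exact hinv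
    refine IsUnit.of_mul_eq_one (⟨_, hy⟩ : ↥(baseRing A K)) ?_
    apply Subtype.ext
    push_cast
    exact mul_inv_cancel₀ hx0
  · rintro (h0 | hinv) hu
    · have : x = 0 := ιK_injective A K (by rw [h0, map_zero])
      rw [this] at hu
      exact not_isUnit_zero hu
    · obtain ⟨y, hy⟩ := hu.exists_right_inv
      apply hinv
      have h1 : ιK A K x * ιK A K y = 1 := by rw [← map_mul, hy, map_one]
      have h2 : (ιK A K x)⁻¹ = ιK A K y := by
        rw [inv_eq_iff_eq_inv]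
        exact eq_inv_of_mul_eq_one_left h1
      rw [h2]
      exact ιK_mem A K y

variable {A}

/-- **the `BaseQuot` of the level `K` at precision `n ≥ 1`**: `O = A ∩ K`, `S = O ⧸ (ℓⁿ)`,
`𝔪 = ` image of the maximal ideal. -/
theorem baseQuot_level [IsLocalRing ↥(baseRing A K)] (hA : A.LiesOverPrime ℓ) {n : ℕ}
    (hn : 0 < n) :
    BaseQuot ℓ n A (ιK A K) (red ↥(baseRing A K) ℓ n)
      ((IsLocalRing.maximalIdeal ↥(baseRing A K)).map (red ↥(baseRing A K) ℓ n)) :=
  baseQuot_map_maximalIdeal (isLevelRing A K ℓ) (mem_maximalIdeal_iff A K) hA hn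

/-- the same with the ideal generated by the image of a uniformiser -/
theorem baseQuot_level_span [IsLocalRing ↥(baseRing A K)] (hA : A.LiesOverPrime ℓ) {n : ℕ}
    (hn : 0 < n) {ϖ : ↥(baseRing A K)}
    (hϖ : IsLocalRing.maximalIdeal ↥(baseRing A K) = Ideal.span {ϖ}) :
    BaseQuot ℓ n A (ιK A K) (red ↥(baseRing A K) ℓ n)
      (Ideal.span {red ↥(baseRing A K) ℓ n ϖ}) :=
  baseQuot_span_singleton (isLevelRing A K ℓ) (mem_maximalIdeal_iff A K) hA hn hϖ

/-- the inclusion of levels `K → K'` for `K ≤ K'`, on the bare types -/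
noncomputable def lvlIncl {K K' : IntermediateField ℚ Qb} (hKK' : K ≤ K') : Lvl K →+* Lvl K' :=
  ((IntermediateField.inclusion hKK' : ↥K →ₐ[ℚ] ↥K') : ↥K →+* ↥K')

theorem algebraMap_lvlIncl {K K' : IntermediateField ℚ Qb} (hKK' : K ≤ K') (x : Lvl K) :
    algebraMap (Lvl K') Qb (lvlIncl hKK' x) = algebraMap (Lvl K) Qb x := rfl

/-- level inclusion `A ∩ K → A ∩ K'` for `K ≤ K'` -/
noncomputable def inclK {K K' : IntermediateField ℚ Qb} (hKK' : K ≤ K') :
    ↥(baseRing A K) →+* ↥(baseRing A K') :=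
  ((lvlIncl hKK').comp (baseRing A K).subtype).codRestrict (baseRing A K') (fun x => by
    rw [mem_baseRing_iff, RingHom.comp_apply, algebraMap_lvlIncl]
    exact ιK_mem A K x)

theorem ιK_inclK {K K' : IntermediateField ℚ Qb} (hKK' : K ≤ K') (x : ↥(baseRing A K)) :
    ιK A K' (inclK (A := A) hKK' x) = ιK A K x := rfl

/-- the transition `O_K ⧸ (ℓⁿ) → O_{K'} ⧸ (ℓⁿ)` is injective -/
theorem quoMap_inclK_injective {K K' : IntermediateField ℚ Qb} (hKK' : K ≤ K') (ℓ n : ℕ) :
    Function.Injective (quoMap (inclK (A := A) hKK') ℓ n) :=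
  quoMap_injective (isLevelRing A K ℓ) (isLevelRing A K' ℓ) _ (ιK_inclK hKK') n

end Concrete

end Fermat.Agent.S19.Cech.BaseQuotLevel
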