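/-
S19, Čech route, joint (M2) / `DvrExt` (DAG v1.1, dispatch v2; consumers: [LMON] `LineLevel`,
[SIT] `LevelSit`, [WIRE] `separated`/`congr`): **extensions of the base rings of the levels**.

Abstract part (Mathlib only).  `θ : O → O'` an injective LOCAL homomorphism, `O` a valuation ring,
`O'` a domain:
* `dvd_of_map_dvd` : `θ a ∣ θ b → a ∣ b` (saturation `θ⁻¹(c O') = c O`; no hypothesis `O = O' ∩ K`);
* `quotientMap_injective` : `O ⧸ (c) → O' ⧸ (θ c)` is injective;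
* `exists_unit_mul_pow` (`O'` a DVR) : a non-zero non-unit `ϖ` of `O` maps to `u · ϖ'^e`, `e ≥ 1`
  (ramification index), and `exists_unit_mul_pow_of_eq` : `ℓ = v ϖ^{e₀}` in `O` gives
  `ℓ = v' ϖ'^{e·e₀}` in `O'`.

Level part.  For levels `K ≤ K'` (intermediate fields of `ℚ̄/ℚ`) with base rings
`O_K = baseRing A K = A ∩ K`:
* `iota A K : O_K →+* ℚ̄`, `isLevelRing A ℓ K : RedTuple.IsLevelRing A ℓ (iota A K)` (helper9's
  reduction layer applies to every level, DVR or not);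
* `oIncl A hKK' : O_K →+* O_{K'}` (= `oMap (lvlIncl hKK')`), `iota_oIncl`, injective, a local hom;
* `quoMap_oIncl_injective` : `O_K ⧸ (ℓⁿ) ↪ O_{K'} ⧸ (ℓⁿ)`;
* `mem_lpow_iff_dvd` : for `x ∈ O_K`: `ι x ∈ ℓⁿ A ↔ ℓⁿ ∣ x` in `O_K`;
* `exists_unit_mul_pow_level` : `ϖ_K = u · ϖ_{K'}^e`, `e ≥ 1`, `u ∈ O_{K'}ˣ`.
-/
import Mathlib
import Fermat.Agent.S19.Cech.RedTuple
import Fermat.Agent.S19.Cech.LevelBasis

set_option autoImplicit false

namespace Fermat.Agent.S19.Cech.DvrExt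

/-! ### Abstract part -/

section Abstract

variable {O O' : Type*} [CommRing O] [IsDomain O] [ValuationRing O] [CommRing O'] [IsDomain O']
  (θ : O →+* O') [IsLocalHom θ]

/-- **Saturation**: an injective local homomorphism from a valuation ring reflects divisibility. -/
theorem dvd_of_map_dvd (hθ : Function.Injective θ) {a b : O} (h : θ a ∣ θ b) : a ∣ b := by
  rcases ValuationRing.dvd_total a b with hab | hba
  · exact hab
  · obtain ⟨c, rfl⟩ := hba
    by_cases hb : b = 0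
    · subst hb
      simp
    · obtain ⟨d, hd⟩ := h
      have hθb : θ b ≠ 0 := fun h0 => hb (hθ (by rw [h0, map_zero]))
      have h1 : θ b * (θ c * d) = θ b * 1 := by
        rw [mul_one, ← mul_assoc, ← map_mul]
        exact hd.symm
      have h2 : θ c * d = 1 := mul_left_cancel₀ hθb h1
      have hc : IsUnit c := isUnit_of_map_unit θ c (IsUnit.of_mul_eq_one d h2)
      obtain ⟨u, rfl⟩ := hc
      exact ⟨↑u⁻¹, by rw [mul_assoc, Units.mul_inv, mul_one]⟩

/-- `O ⧸ (c) → O' ⧸ (θ c)` is injective. -/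
theorem quotientMap_injective (hθ : Function.Injective θ) (c : O) :
    Function.Injective
      (Ideal.quotientMap (Ideal.span {θ c}) θ
        (by
          rw [Ideal.span_le]
          rintro _ rfl
          exact Ideal.subset_span rfl : Ideal.span {c} ≤ (Ideal.span {θ c}).comap θ)) := by
  apply Ideal.quotientMap_injective'
  intro x hx
  rw [Ideal.mem_comap, Ideal.mem_span_singleton] at hx
  exact Ideal.mem_span_singleton.2 (dvd_of_map_dvd θ hθ hx)

omit [IsDomain O] [ValuationRing O] in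
/-- **(M2)**: a non-zero non-unit of `O` is, in the DVR `O'`, a unit times a positive power of the
uniformiser. -/
theorem exists_unit_mul_pow [IsDiscreteValuationRing O'] (hθ : Function.Injective θ) {ϖ : O}
    (hϖ0 : ϖ ≠ 0) (hϖ : ¬ IsUnit ϖ) {ϖ' : O'} (hϖ' : Irreducible ϖ') :
    ∃ (u : O'ˣ) (e : ℕ), 1 ≤ e ∧ θ ϖ = u * ϖ' ^ e := by
  have h0 : θ ϖ ≠ 0 := fun h => hϖ0 (hθ (by rw [h, map_zero]))
  obtain ⟨e, u, hu⟩ := IsDiscreteValuationRing.eq_unit_mul_pow_irreducible h0 hϖ'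
  refine ⟨u, e, ?_, hu⟩
  rcases Nat.eq_zero_or_pos e with he | he
  · exfalso
    apply hϖ
    apply isUnit_of_map_unit θ
    rw [hu, he, pow_zero, mul_one]
    exact u.isUnit
  · exact he

omit [IsDomain O] [ValuationRing O] [IsDomain O'] [IsLocalHom θ] in
/-- Ramification indices multiply: `x = v ϖ^{e₀}` in `O` and `θ ϖ = u ϖ'^e` give
`θ x = (θ v · u^{e₀}) ϖ'^{e·e₀}`. -/
theorem map_eq_unit_mul_pow {x v ϖ : O} {e₀ : ℕ} (hx : x = v * ϖ ^ e₀) {u ϖ' : O'} {e : ℕ}
    (hϖ : θ ϖ = u * ϖ' ^ e) : θ x = (θ v * u ^ e₀) * ϖ' ^ (e * e₀) := by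
  rw [hx, map_mul, map_pow, hϖ, mul_pow, ← pow_mul]
  ring

end Abstract

/-! ### Levels -/

section Levels

open Fermat.Agent.S19.Abs Fermat.Agent.S19.Coord Fermat.Agent.S19.Cech.RedTuple
open Fermat.Agent.N4F.C.Levels Fermat.Agent.N4.BaseDescent Fermat.Agent.S19.Cech.LevelBasis

variable (A : ValuationSubring Qb) (ℓ : ℕ)

/-- the embedding `O_K = A ∩ K → ℚ̄` -/
noncomputable def iota (K : IntermediateField ℚ Qb) : ↥(baseRing A K) →+* Qb :=
  (algebraMap (Lvl K) Qb).comp (baseRing A K).subtype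

theorem iota_apply (K : IntermediateField ℚ Qb) (x : ↥(baseRing A K)) :
    iota A K x = algebraMap (Lvl K) Qb (x : Lvl K) := rfl

theorem iota_injective (K : IntermediateField ℚ Qb) : Function.Injective (iota A K) :=
  (algebraMap (Lvl K) Qb).injective.comp Subtype.val_injective

theorem iota_mem (K : IntermediateField ℚ Qb) (x : ↥(baseRing A K)) : iota A K x ∈ A := x.2

/-- an element of `K` whose image lies in `A` is in `O_K` -/
theorem exists_iota_eq (K : IntermediateField ℚ Qb) {c : Qb} (hcK : c ∈ K) (hcA : c ∈ A) :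
    ∃ y : ↥(baseRing A K), iota A K y = c :=
  ⟨⟨(Lvl.toSub K).symm ⟨c, hcK⟩, hcA⟩, rfl⟩

/-- **every level ring is a level ring in the sense of `RedTuple`** (`ℓ`-saturation from
`O_K = A ∩ K`). -/
theorem isLevelRing (hℓ : ℓ ≠ 0) (K : IntermediateField ℚ Qb) : IsLevelRing A ℓ (iota A K) where
  inj := iota_injective A K
  mem := iota_mem A K
  sat := by
    intro n x hx
    obtain ⟨a, ha, hxa⟩ := hx
    have hℓ0 : ((ℓ : Qb)) ^ n ≠ 0 := pow_ne_zero n (Nat.cast_ne_zero.2 hℓ)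
    have haK : a ∈ K := by
      have h1 : a = iota A K x * ((ℓ : Qb) ^ n)⁻¹ := by
        rw [hxa]; field_simp
      rw [h1]
      exact K.mul_mem (Lvl.algebraMap_mem K _) (K.inv_mem (pow_mem (natCast_mem K ℓ) n))
    obtain ⟨y, hy⟩ := exists_iota_eq A K haK ha
    refine ⟨y, iota_injective A K ?_⟩
    rw [map_mul, map_pow, map_natCast, hy, hxa]

/-- for `x ∈ O_K`: `x ∈ ℓⁿ A ↔ ℓⁿ ∣ x` in `O_K` -/
theorem mem_lpow_iff_dvd (hℓ : ℓ ≠ 0) (K : IntermediateField ℚ Qb) (n : ℕ) (x : ↥(baseRing A K)) :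
    iota A K x ∈ lpow A ℓ n ↔ ((ℓ : ↥(baseRing A K))) ^ n ∣ x := by
  constructor
  · intro h
    obtain ⟨y, hy⟩ := (isLevelRing A ℓ hℓ K).sat n x h
    exact ⟨y, hy⟩
  · rintro ⟨y, rfl⟩
    exact ⟨iota A K y, iota_mem A K y, by rw [map_mul, map_pow, map_natCast]⟩

variable {K K' : IntermediateField ℚ Qb} (hKK' : K ≤ K')

/-- the inclusion `O_K → O_{K'}` of the base rings of two levels -/
noncomputable def oIncl : ↥(baseRing A K) →+* ↥(baseRing A K') :=
  oMap (lvlIncl hKK') (baseRing A K) (baseRing A K') (lvlIncl_mem A hKK')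

theorem iota_oIncl (x : ↥(baseRing A K)) : iota A K' (oIncl A hKK' x) = iota A K x := rfl

theorem oIncl_injective : Function.Injective (oIncl A hKK') := fun x y h =>
  iota_injective A K (by rw [← iota_oIncl A hKK', ← iota_oIncl A hKK', h])

/-- units of `O_K` are the elements whose image is a unit of `A` -/
theorem isUnit_iff_inv_mem (x : ↥(baseRing A K)) :
    IsUnit x ↔ iota A K x ≠ 0 ∧ (iota A K x)⁻¹ ∈ A := by
  constructor
  · rintro ⟨u, rfl⟩
    have h1 : iota A K (u : ↥(baseRing A K)) * iota A K ((u⁻¹ : (↥(baseRing A K))ˣ) : _) = 1 := by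
      rw [← map_mul, Units.mul_inv, map_one]
    refine ⟨left_ne_zero_of_mul_eq_one h1, ?_⟩
    rw [inv_eq_of_mul_eq_one_right h1]
    exact iota_mem A K _
  · rintro ⟨h0, hinv⟩
    have hK : (iota A K x)⁻¹ ∈ K := K.inv_mem (Lvl.algebraMap_mem K _)
    obtain ⟨y, hy⟩ := exists_iota_eq A K hK hinv
    refine IsUnit.of_mul_eq_one y (iota_injective A K ?_)
    rw [map_mul, hy, map_one, mul_inv_cancel₀ h0]

instance isLocalHom_oIncl : IsLocalHom (oIncl A hKK') where
  map_nonunit x hx := by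
    rw [isUnit_iff_inv_mem] at hx ⊢
    rwa [iota_oIncl] at hx

/-- **`O_K ⧸ (ℓⁿ) ↪ O_{K'} ⧸ (ℓⁿ)`** -/
theorem quoMap_oIncl_injective (hℓ : ℓ ≠ 0) (n : ℕ) :
    Function.Injective (quoMap (oIncl A hKK') ℓ n) :=
  quoMap_injective (isLevelRing A ℓ hℓ K) (isLevelRing A ℓ hℓ K') (oIncl A hKK')
    (iota_oIncl A hKK') n

/-- **(M2) for levels**: `ϖ_K = u · ϖ_{K'}^e` with `u` a unit of `O_{K'}` and `e ≥ 1`. -/
theorem exists_unit_mul_pow_level [IsDiscreteValuationRing ↥(baseRing A K')]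
    {ϖ : ↥(baseRing A K)} (hϖ0 : ϖ ≠ 0) (hϖ : ¬ IsUnit ϖ) {ϖ' : ↥(baseRing A K')}
    (hϖ' : Irreducible ϖ') :
    ∃ (u : (↥(baseRing A K'))ˣ) (e : ℕ), 1 ≤ e ∧ oIncl A hKK' ϖ = u * ϖ' ^ e :=
  exists_unit_mul_pow (oIncl A hKK') (oIncl_injective A hKK') hϖ0 hϖ hϖ'

/-- non-units of `O_K` are the elements whose image is a non-unit of `A` -/
theorem not_isUnit_iff_mem_nonunits (x : ↥(baseRing A K)) :
    ¬ IsUnit x ↔ iota A K x ∈ A.nonunits := by
  rw [isUnit_iff_inv_mem, A.mem_nonunits_iff]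
  constructor
  · intro h
    by_contra hlt
    have h1 : A.valuation (iota A K x) = 1 :=
      le_antisymm ((A.valuation_le_one_iff _).2 (iota_mem A K x)) (not_lt.1 hlt)
    have h0 : iota A K x ≠ 0 := by
      intro h0
      rw [h0, map_zero] at h1
      exact zero_ne_one h1
    refine h ⟨h0, (A.valuation_le_one_iff _).1 ?_⟩
    rw [map_inv₀, h1, inv_one]
  · rintro hlt ⟨h0, hinv⟩
    have h1 : A.valuation ((iota A K x)⁻¹) ≤ 1 := (A.valuation_le_one_iff _).2 hinv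
    rw [map_inv₀] at h1
    have h2 : A.valuation (iota A K x) ≠ 0 := (Valuation.ne_zero_iff _).2 h0
    have h3 : (1 : A.ValueGroup) ≤ A.valuation (iota A K x) := by
      have := (inv_le_one₀ (zero_lt_iff.2 h2)).1 h1
      exact this
    exact absurd hlt (not_lt.2 h3)

/-- `ℓ = v · ϖ_K^e` in a DVR level over `ℓ`, `e ≥ 1` (the absolute ramification index). -/
theorem exists_unit_mul_pow_natCast (hℓ : ℓ ≠ 0) (hA : A.LiesOverPrime ℓ)
    (K : IntermediateField ℚ Qb) [IsDiscreteValuationRing ↥(baseRing A K)]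
    {ϖ : ↥(baseRing A K)} (hϖ : Irreducible ϖ) :
    ∃ (v : (↥(baseRing A K))ˣ) (e : ℕ), 1 ≤ e ∧ ((ℓ : ↥(baseRing A K))) = v * ϖ ^ e := by
  have hι : iota A K ((ℓ : ↥(baseRing A K))) = (ℓ : Qb) := map_natCast _ _
  have h0 : ((ℓ : ↥(baseRing A K))) ≠ 0 := by
    intro h
    have : (ℓ : Qb) = 0 := by rw [← hι, h, map_zero]
    exact hℓ (Nat.cast_eq_zero.1 this)
  have hnu : ¬ IsUnit ((ℓ : ↥(baseRing A K))) := by
    rw [not_isUnit_iff_mem_nonunits, hι]
    exact hA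
  obtain ⟨e, v, hv⟩ := IsDiscreteValuationRing.eq_unit_mul_pow_irreducible h0 hϖ
  refine ⟨v, e, ?_, hv⟩
  rcases Nat.eq_zero_or_pos e with he | he
  · exfalso
    apply hnu
    rw [hv, he, pow_zero, mul_one]
    exact v.isUnit
  · exact he

end Levels

end Fermat.Agent.S19.Cech.DvrExt
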