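/-
S19 / Čech route, node CECH-3G (helper18): the DIVISORIAL CHART MODULES `ℒ_?(D)` at one level.

Setting: `O` a domain with fraction field `K` (a discrete valuation ring in the applications),
`F / K` a function field of one variable, `j ∈ F` transcendental with `F / K(j)` finite, and the
three charts `B₊ = chartAlg O F {j}`, `B₋ = chartAlg O F {j⁻¹}`, `B₀ = chartAlg O F {j, j⁻¹}` of the
`j`-line.  `W ⊂ F` is a subring playing the role of the Gauss ring (the local ring of the generic
point of the special fibre).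

For a divisor `D : Place K F →₀ ℤ` (prelude places) and a predicate `c` on places,
`LD W c D = {f ∈ W | ∀ P, c P → ord_P f + D P ≥ 0}` (an `O`-submodule of `F`), and
`Lp`, `Lm`, `L0` are the cases `c P = (j ∈ 𝒪_P)`, `(j⁻¹ ∈ 𝒪_P)`, both: the sections of `𝒪(D)` on the
three charts — conditions at ALL places of the GENERIC fibre of the chart.

Main results (`t` = `j` or `j⁻¹`; `InChart t P := t ∈ 𝒪_P`, `InBoth t P := t, t⁻¹ ∈ 𝒪_P`)
* `exists_mul_mem_chartAlg` (G1, field part): a function without poles on the generic chart is,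
  up to a nonzero constant of `O`, an element of the chart;
* `mem_chartAlg_of_forall_mem` (G1): `B_t = {f ∈ W | f ∈ 𝒪_P ∀ P with t ∈ 𝒪_P}` when `B_t` is
  saturated in `W`;
* `LD`, `mem_LD_iff`, `mem_LD_iff_ord`, `mul_mem_LD`, `mem_LD_of_mul_mem` (G5, saturation
  `ℒ ∩ c₀ W = c₀ ℒ`), `LDB` (the chart module as a `B_t`-submodule of `F`);
* `exists_mul_LD_le_chart`, `LDB_fg` (G2): `b₀ ℒ_t(D) ⊆ B_t`, hence `ℒ_t(D)` is f.g. over `B_t`;
* `exists_pow_mul_mem_LD`, `exists_eq_mul_of_mem_LD_inBoth`, `span_LDB_eq` (G3):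
  `ℒ₀(D) = ⋃ t^{-m} ℒ_t(D) = B₀ · ℒ_t(D)`;
* `mem_LD_add_of_locally` (twisted glue): `f ∈ ℒ_t(D) + c₀ W` can be checked locally at the closed
  points of the special fibre of the chart;
* `isPrincipal_of_mem` (G5): `0 ≠ s ∈ ℒ₊(D) ∩ ℒ₋(D)`, `deg D = 0` ⟹ `D` principal;
* `GaussRing j W` (hypotheses on `W`), `GaussRing.of_irreducible`, `GaussRing.sat_mid`;
  `Lp`, `Lm`, `L0`, `LpB`, `LmB`, `LpB_fg`, `LmB_fg`, `span_LpB_eq`, `exists_eq_mul_Lp`,
  `exists_eq_mul_Lm` (the `loc_p`, `loc_m` of `Cocycle.Line`), `LpB_subset_span_LmB` (the hypothesis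
  `hle` of `SheafFinite.chart_h1FG`).
-/
import Mathlib
import Fermat.Prelude.Def_AlgebraicCurve_Repartitions
import Fermat.Agent.S24.PlaceDict
import Fermat.Agent.S24.PrincipalDegree
import Fermat.Agent.N4.Chart
import Fermat.Agent.N4.IntClosure

set_option autoImplicit false
set_option linter.unusedSectionVars false
set_option linter.style.haveILetI false

open AlgebraicCurve Polynomial IntermediateField IsDedekindDomain
open Fermat.Agent.N4.Chart Fermat.Agent.N4.IntClosure Fermat.Agent.S24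

noncomputable section

namespace Fermat.Agent.S19.Cech.DivModule

variable {O K F : Type*} [CommRing O] [IsDomain O] [Field K] [Algebra O K] [IsFractionRing O K]
  [Field F] [Algebra K F] [Algebra O F] [IsScalarTower O K F]

/-! ### Places and charts -/

/-- Constants of `O` are integral at every place. -/
theorem algebraMap_mem_place (P : Place K F) (c : O) :
    algebraMap O F c ∈ P.toValuationSubring := by
  rw [IsScalarTower.algebraMap_apply O K F]
  exact P.algebraMap_mem' _

/-- Membership in the valuation ring of a place in terms of the adic valuation. -/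
theorem mem_place_iff (P : Place K F) {x : F} :
    x ∈ P.toValuationSubring ↔ P.adicValuation x ≤ 1 := by
  rcases eq_or_ne x 0 with rfl | hx
  · simp
  · rw [mem_iff_ord_nonneg P hx, P.adicValuation_le_one_iff, or_iff_right hx]

/-- A place containing the generators of a chart contains the chart. -/
theorem mem_place_of_mem_chartAlg (P : Place K F) {s : Set F}
    (hs : ∀ x ∈ s, x ∈ P.toValuationSubring) {b : F} (hb : b ∈ chartAlg O F s) :
    b ∈ P.toValuationSubring := by
  refine mem_of_isIntegral_of_forall_mem (A := Algebra.adjoin O s) P ?_ (mem_chartAlg_iff.mp hb)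
  rintro ⟨a, ha⟩
  show a ∈ P.toValuationSubring
  induction ha using Algebra.adjoin_induction with
  | mem y hy => exact hs y hy
  | algebraMap c => exact algebraMap_mem_place P c
  | add y z _ _ hy hz => exact add_mem hy hz
  | mul y z _ _ hy hz => exact mul_mem hy hz

/-! ### (G1), field part: functions without poles on the generic chart -/

section Field

open IntermediateField.algebraAdjoinAdjoin

variable [CharZero K] (j : F)

/-- A function which is integral at every place where `j` is integral, is integral over `K[j]`. -/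
theorem isIntegral_adjoin_of_forall_mem (hj : Transcendental K j) [FiniteDimensional K⟮j⟯ F]
    {f : F} (hf : ∀ P : Place K F, j ∈ P.toValuationSubring → f ∈ P.toValuationSubring) :
    IsIntegral (Algebra.adjoin K {j}) f := by
  haveI := isPrincipalIdealRing_adjoin hj
  haveI : IsScalarTower (Algebra.adjoin K {j}) (integralClosure (Algebra.adjoin K {j}) F) F :=
    Subalgebra.isScalarTower_mid _
  haveI : IsDedekindDomain (integralClosure (Algebra.adjoin K {j}) F) :=
    IsIntegralClosure.isDedekindDomain (Algebra.adjoin K {j}) K⟮j⟯ F _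
  haveI : IsFractionRing (integralClosure (Algebra.adjoin K {j}) F) F :=
    IsIntegralClosure.isFractionRing_of_finite_extension (Algebra.adjoin K {j}) K⟮j⟯ F _
  have hjB : j ∈ integralClosure (Algebra.adjoin K {j}) F :=
    isIntegral_algebraMap (x := (⟨j, Algebra.self_mem_adjoin_singleton K j⟩ : Algebra.adjoin K {j}))
  have hmem : f ∈ (algebraMap (integralClosure (Algebra.adjoin K {j}) F) F).range := by
    refine HeightOneSpectrum.mem_integers_of_valuation_le_one F f fun w => ?_
    have h1 := algebraMap_mem_ofHeightOneSpectrum (K := K) (F := F) w ⟨j, hjB⟩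
    have h2 := hf _ h1
    rwa [Place.ofHeightOneSpectrum_toValuationSubring, Valuation.mem_valuationSubring_iff] at h2
  obtain ⟨b, rfl⟩ := hmem
  exact b.2

/-- Clearing denominators: an element integral over `K[j]` becomes integral over `O[j]` after
multiplication by a nonzero constant of `O`. -/
theorem exists_mul_mem_chartAlg_of_isIntegral {f : F} (hf : IsIntegral (Algebra.adjoin K {j}) f) :
    ∃ c : O, c ≠ 0 ∧ algebraMap O F c * f ∈ chartAlg O F {j} := by
  classical
  obtain ⟨p, hmonic, hroot⟩ := hf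
  have hcoeff : ∀ i, ∃ b : O, b ≠ 0 ∧
      algebraMap O F b * ((p.coeff i : Algebra.adjoin K {j}) : F) ∈ Algebra.adjoin O {j} := by
    intro i
    have hmem : ((p.coeff i : Algebra.adjoin K {j}) : F) ∈ (aeval j : K[X] →ₐ[K] F).range := by
      rw [← Algebra.adjoin_singleton_eq_range_aeval]
      exact (p.coeff i).2
    obtain ⟨q, hq⟩ := hmem
    obtain ⟨b, P, hb, hP⟩ := exists_clear_denominators (O := O) (K := K) j q
    refine ⟨b, hb, ?_⟩
    have hq' : ((p.coeff i : Algebra.adjoin K {j}) : F) = aeval j q := hq.symm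
    rw [hq', ← hP]
    exact aeval_mem_adjoin_singleton O j
  choose b hb0 hb using hcoeff
  set n := p.natDegree with hn
  set c : O := ∏ i ∈ Finset.range (n + 1), b i with hc
  have hc0 : c ≠ 0 := Finset.prod_ne_zero_iff.mpr fun i _ => hb0 i
  have hcmem : ∀ i ≤ n, algebraMap O F c * ((p.coeff i : Algebra.adjoin K {j}) : F) ∈
      Algebra.adjoin O {j} := by
    intro i hi
    have hi' : i ∈ Finset.range (n + 1) := Finset.mem_range.mpr (Nat.lt_succ_of_le hi)
    rw [hc, ← Finset.mul_prod_erase _ _ hi', map_mul, mul_comm (algebraMap O F (b i)), mul_assoc]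
    exact mul_mem (Subalgebra.algebraMap_mem _ _) (hb i)
  set q : F[X] := (p.map (algebraMap (Algebra.adjoin K {j}) F)).scaleRoots (algebraMap O F c)
    with hq
  have hqmonic : q.Monic := (Polynomial.monic_scaleRoots_iff _).mpr (hmonic.map _)
  have hqroot : q.eval (algebraMap O F c * f) = 0 := by
    rw [hq, Polynomial.scaleRoots_eval_mul, Polynomial.eval_map, hroot, mul_zero]
  have hqcoeff : ∀ i, q.coeff i ∈ Algebra.adjoin O {j} := by
    intro i
    rw [hq, Polynomial.coeff_scaleRoots, Polynomial.coeff_map, hmonic.natDegree_map]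
    rcases lt_trichotomy i n with hi | hi | hi
    · obtain ⟨k, hk⟩ : ∃ k, n - i = k + 1 := ⟨n - i - 1, by omega⟩
      have e : algebraMap (Algebra.adjoin K {j}) F (p.coeff i) * algebraMap O F c ^ (n - i) =
          algebraMap O F c ^ k * (algebraMap O F c * ((p.coeff i : Algebra.adjoin K {j}) : F)) := by
        rw [hk, pow_succ]
        show ((p.coeff i : Algebra.adjoin K {j}) : F) * _ = _
        ring
      rw [e]
      exact mul_mem (pow_mem (Subalgebra.algebraMap_mem _ _) k) (hcmem i hi.le)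
    · rw [hi, hn, hmonic.coeff_natDegree, map_one, one_mul, Nat.sub_self, pow_zero]
      exact one_mem _
    · rw [Polynomial.coeff_eq_zero_of_natDegree_lt hi, map_zero, zero_mul]
      exact zero_mem _
  have hlifts : q ∈ Polynomial.lifts (algebraMap (Algebra.adjoin O {j}) F) :=
    (Polynomial.lifts_iff_coeff_lifts q).mpr fun i => ⟨⟨q.coeff i, hqcoeff i⟩, rfl⟩
  obtain ⟨q', hq'q, -, hq'monic⟩ := Polynomial.lifts_and_natDegree_eq_and_monic hlifts hqmonic
  refine ⟨c, hc0, (mem_chartAlg_iff).mpr ⟨q', hq'monic, ?_⟩⟩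
  rw [Polynomial.eval₂_eq_eval_map, hq'q, hqroot]

/-- **(G1), field part.**  A function without poles on the generic fibre of the chart `t ≠ ∞` is,
up to a nonzero constant of `O`, an element of the chart. -/
theorem exists_mul_mem_chartAlg (hj : Transcendental K j) [FiniteDimensional K⟮j⟯ F]
    {f : F} (hf : ∀ P : Place K F, j ∈ P.toValuationSubring → f ∈ P.toValuationSubring) :
    ∃ c : O, c ≠ 0 ∧ algebraMap O F c * f ∈ chartAlg O F {j} :=
  exists_mul_mem_chartAlg_of_isIntegral j (isIntegral_adjoin_of_forall_mem j hj hf)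

/-- **(G1).**  `B = {f ∈ W | f ∈ 𝒪_P for all places P of the generic chart}`, for a "Gauss ring" `W`
in which the chart `B = chartAlg O F {j}` is saturated. -/
theorem mem_chartAlg_of_forall_mem (hj : Transcendental K j) [FiniteDimensional K⟮j⟯ F]
    {W : Subalgebra O F}
    (hsat : ∀ (c : O) (f : F), c ≠ 0 → f ∈ W → algebraMap O F c * f ∈ chartAlg O F {j} →
      f ∈ chartAlg O F {j})
    {f : F} (hfW : f ∈ W)
    (hf : ∀ P : Place K F, j ∈ P.toValuationSubring → f ∈ P.toValuationSubring) :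
    f ∈ chartAlg O F {j} := by
  obtain ⟨c, hc, hcf⟩ := exists_mul_mem_chartAlg (O := O) j hj hf
  exact hsat c f hc hfW hcf

/-- A nonzero element of the chart vanishing at a given place of the generic chart. -/
theorem exists_mem_chartAlg_lt_one (hj : Transcendental K j) [FiniteDimensional K⟮j⟯ F]
    (P : Place K F) (hP : j ∈ P.toValuationSubring) :
    ∃ u ∈ chartAlg O F {j}, u ≠ 0 ∧ P.adicValuation u < 1 := by
  haveI := isPrincipalIdealRing_adjoin hj
  haveI : IsScalarTower (Algebra.adjoin K {j}) (integralClosure (Algebra.adjoin K {j}) F) F :=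
    Subalgebra.isScalarTower_mid _
  haveI : IsDedekindDomain (integralClosure (Algebra.adjoin K {j}) F) :=
    IsIntegralClosure.isDedekindDomain (Algebra.adjoin K {j}) K⟮j⟯ F _
  haveI : IsFractionRing (integralClosure (Algebra.adjoin K {j}) F) F :=
    IsIntegralClosure.isFractionRing_of_finite_extension (Algebra.adjoin K {j}) K⟮j⟯ F _
  have hR : ∀ r : integralClosure (Algebra.adjoin K {j}) F,
      algebraMap _ F r ∈ P.toValuationSubring := fun r => integralClosure_adjoin_le P hP r
  obtain ⟨r, hr, hr0⟩ := Submodule.exists_mem_ne_zero_of_ne_bot (center_ne_bot P hR)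
  obtain ⟨c, hc, hcr⟩ := exists_mul_mem_chartAlg_of_isIntegral (O := O) j r.2
  have hrF : (r : F) ≠ 0 := fun h => hr0 (Subtype.ext h)
  have hcF : algebraMap O F c ≠ 0 := by
    rw [IsScalarTower.algebraMap_apply O K F]
    exact (_root_.map_ne_zero _).mpr
      ((_root_.map_ne_zero_iff _ (IsFractionRing.injective O K)).mpr hc)
  refine ⟨_, hcr, mul_ne_zero hcF hrF, ?_⟩
  rw [map_mul]
  have h1 : P.adicValuation (algebraMap O F c) ≤ 1 :=
    P.adicValuation_le_one_of_mem (algebraMap_mem_place P c)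
  have h2 : P.adicValuation (r : F) < 1 := by
    rw [mem_center_iff] at hr
    have h3 := (P.heightOneSpectrum.intValuation_lt_one_iff_mem _).mpr hr
    rw [← P.adicValuation_coe] at h3
    exact h3
  calc P.adicValuation (algebraMap O F c) * P.adicValuation (r : F)
      ≤ 1 * P.adicValuation (r : F) := mul_le_mul_left h1 _
    _ < 1 := by rw [one_mul]; exact h2

end Field

/-! ### The divisorial modules -/

section Modules

open WithZero

/-- The valuation of a nonzero constant of `O` at a place is `1`. -/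
theorem adicValuation_algebraMap_eq_one (P : Place K F) {c : O} (hc : c ≠ 0) :
    P.adicValuation (algebraMap O F c) = 1 := by
  have hcK : algebraMap O K c ≠ 0 :=
    (_root_.map_ne_zero_iff _ (IsFractionRing.injective O K)).mpr hc
  have h1 : P.adicValuation (algebraMap K F (algebraMap O K c)) ≤ 1 :=
    P.adicValuation_algebraMap_le_one _
  have h2 : P.adicValuation (algebraMap K F (algebraMap O K c)⁻¹) ≤ 1 :=
    P.adicValuation_algebraMap_le_one _
  rw [map_inv₀, map_inv₀] at h2
  rw [IsScalarTower.algebraMap_apply O K F]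
  have h0 : P.adicValuation (algebraMap K F (algebraMap O K c)) ≠ 0 :=
    P.adicValuation_ne_zero ((_root_.map_ne_zero _).mpr hcK)
  refine le_antisymm h1 ?_
  rwa [inv_le_one₀ (zero_lt_iff.mpr h0)] at h2

/-- `LD W c D = {f ∈ W | ∀ P, c P → ord_P f + D P ≥ 0}`: the sections of `𝒪(D)`, integral at the
generic point of the special fibre (`f ∈ W`), over the places satisfying `c`. -/
def LD (W : Subalgebra O F) (c : Place K F → Prop) (D : Divisor K F) : Submodule O F where
  carrier := {f | f ∈ W ∧ ∀ P : Place K F, c P → P.adicValuation f ≤ exp (D P)}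
  zero_mem' := ⟨W.zero_mem, fun P _ => by simp⟩
  add_mem' := fun {f g} hf hg => ⟨W.add_mem hf.1 hg.1, fun P hP =>
    (Valuation.map_add _ _ _).trans (max_le (hf.2 P hP) (hg.2 P hP))⟩
  smul_mem' := fun a f hf => ⟨W.smul_mem hf.1 a, fun P hP => by
    rw [Algebra.smul_def, map_mul]
    exact (mul_le_of_le_one_left' (P.adicValuation_le_one_of_mem (algebraMap_mem_place P a))).trans
      (hf.2 P hP)⟩

variable {W : Subalgebra O F} {c : Place K F → Prop} {D : Divisor K F}

theorem mem_LD_iff {f : F} :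
    f ∈ LD W c D ↔ f ∈ W ∧ ∀ P : Place K F, c P → P.adicValuation f ≤ exp (D P) := Iff.rfl

theorem mem_LD_iff_ord {f : F} (hf : f ≠ 0) :
    f ∈ LD W c D ↔ f ∈ W ∧ ∀ P : Place K F, c P → 0 ≤ P.ord f + D P := by
  rw [mem_LD_iff]
  refine and_congr_right fun _ => forall₂_congr fun P _ => ?_
  rw [P.adicValuation_le_exp_iff, or_iff_right hf]
  omega

theorem LD_le_W : ∀ f ∈ LD W c D, f ∈ W := fun _ hf => hf.1

/-- Weakening the conditions enlarges the module. -/
theorem LD_mono {c' : Place K F → Prop} (h : ∀ P, c' P → c P) : LD W c D ≤ LD W c' D :=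
  fun _ hf => ⟨hf.1, fun P hP => hf.2 P (h P hP)⟩

/-- The module is stable under multiplication by a ring `B ⊆ W` which is integral at all the places
concerned. -/
theorem mul_mem_LD {b f : F} (hbW : b ∈ W) (hb : ∀ P : Place K F, c P → b ∈ P.toValuationSubring)
    (hf : f ∈ LD W c D) : b * f ∈ LD W c D :=
  ⟨W.mul_mem hbW hf.1, fun P hP => by
    rw [map_mul]
    exact (mul_le_of_le_one_left' (P.adicValuation_le_one_of_mem (hb P hP))).trans (hf.2 P hP)⟩

/-- **(G5), saturation**: `ℒ(D) ∩ c₀ W = c₀ ℒ(D)` for a nonzero constant `c₀`. -/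
theorem mem_LD_of_mul_mem {c₀ : O} (hc₀ : c₀ ≠ 0) {w : F} (hw : w ∈ W)
    (h : algebraMap O F c₀ * w ∈ LD W c D) : w ∈ LD W c D :=
  ⟨hw, fun P hP => by
    have := h.2 P hP
    rwa [map_mul, adicValuation_algebraMap_eq_one P hc₀, one_mul] at this⟩

end Modules

/-! ### The module of one chart -/

section Chart

open WithZero

variable [CharZero K] (t : F)

/-- The places of the generic fibre of the chart `t ≠ ∞`. -/
def InChart (t : F) (P : Place K F) : Prop := t ∈ P.toValuationSubring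

theorem mem_place_of_mem_chart {P : Place K F} (hP : InChart t P) {b : F}
    (hb : b ∈ chartAlg O F {t}) : b ∈ P.toValuationSubring :=
  mem_place_of_mem_chartAlg P (fun x hx => by rw [Set.mem_singleton_iff.mp hx]; exact hP) hb

variable {W : Subalgebra O F} {D : Divisor K F}

/-- The chart module is a module over the chart. -/
theorem chart_mul_mem_LD (hBW : ∀ x ∈ chartAlg O F {t}, x ∈ W) {b f : F}
    (hb : b ∈ chartAlg O F {t}) (hf : f ∈ LD W (InChart t) D) : b * f ∈ LD W (InChart t) D :=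
  mul_mem_LD (hBW b hb) (fun _ hP => mem_place_of_mem_chart t hP hb) hf

/-- **(G2), denominators**: `b₀ · ℒ_t(D) ⊆ B_t` for some nonzero `b₀ ∈ B_t`. -/
theorem exists_mul_LD_le_chart (ht : Transcendental K t) [FiniteDimensional K⟮t⟯ F]
    (hBW : ∀ x ∈ chartAlg O F {t}, x ∈ W)
    (hsat : ∀ (c : O) (f : F), c ≠ 0 → f ∈ W → algebraMap O F c * f ∈ chartAlg O F {t} →
      f ∈ chartAlg O F {t}) (D : Divisor K F) :
    ∃ b₀ ∈ chartAlg O F {t}, b₀ ≠ 0 ∧ ∀ f ∈ LD W (InChart t) D, b₀ * f ∈ chartAlg O F {t} := by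
  classical
  have hex : ∀ P : Place K F, ∃ u ∈ chartAlg O F {t}, u ≠ 0 ∧
      (InChart t P → P.adicValuation u < 1) := by
    intro P
    by_cases hP : InChart t P
    · obtain ⟨u, hu, hu0, hlt⟩ := exists_mem_chartAlg_lt_one (O := O) t ht P hP
      exact ⟨u, hu, hu0, fun _ => hlt⟩
    · exact ⟨1, one_mem _, one_ne_zero, fun h => absurd h hP⟩
  choose u hu hu0 hlt using hex
  set n : ℕ := D.support.sup fun P => (D P).toNat with hn
  set U : F := ∏ P ∈ D.support, u P with hU
  have hUmem : U ∈ chartAlg O F {t} := Subalgebra.prod_mem _ fun P _ => hu P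
  have hU0 : U ≠ 0 := Finset.prod_ne_zero_iff.mpr fun P _ => hu0 P
  have hle1 : ∀ P' : Place K F, InChart t P' → ∀ P, P'.adicValuation (u P) ≤ 1 := fun P' hP' P =>
    P'.adicValuation_le_one_of_mem (mem_place_of_mem_chart t hP' (hu P))
  refine ⟨U ^ n, pow_mem hUmem n, pow_ne_zero n hU0, fun f hf => ?_⟩
  refine mem_chartAlg_of_forall_mem (O := O) t ht hsat (W.mul_mem (hBW _ (pow_mem hUmem n)) hf.1)
    fun P' hP' => ?_
  rw [mem_place_iff, map_mul, map_pow]
  have hUle : P'.adicValuation U ≤ 1 := by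
    rw [hU, map_prod]
    exact Finset.prod_le_one' fun P _ => hle1 P' hP' P
  by_cases hsupp : P' ∈ D.support
  · have h1 : P'.adicValuation U ≤ exp (-1 : ℤ) := by
      rw [hU, map_prod, ← Finset.mul_prod_erase _ _ hsupp]
      calc P'.adicValuation (u P') * ∏ x ∈ D.support.erase P', P'.adicValuation (u x)
          ≤ P'.adicValuation (u P') * 1 :=
            mul_le_mul_right (Finset.prod_le_one' fun P _ => hle1 P' hP' P) _
        _ ≤ exp (-1 : ℤ) := by
            rw [mul_one]
            exact (lt_one_iff_le_exp_neg_one _).mp (hlt P' hP')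
    have h2 : P'.adicValuation U ^ n ≤ exp (-(n : ℤ)) := by
      calc P'.adicValuation U ^ n ≤ exp (-1 : ℤ) ^ n := pow_le_pow_left₀ zero_le h1 n
        _ = exp (-(n : ℤ)) := by rw [← exp_nsmul]; simp
    have h3 : D P' ≤ (n : ℤ) := by
      have := Finset.le_sup (f := fun P => (D P).toNat) hsupp
      have h4 : ((D P').toNat : ℤ) ≤ (n : ℤ) := by exact_mod_cast this
      exact (Int.self_le_toNat _).trans h4
    calc P'.adicValuation U ^ n * P'.adicValuation f
        ≤ exp (-(n : ℤ)) * exp (D P') := mul_le_mul' h2 (hf.2 P' hP')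
      _ = exp (-(n : ℤ) + D P') := (exp_add _ _).symm
      _ ≤ 1 := by rw [← exp_zero, exp_le_exp]; omega
  · have hD0 : D P' = 0 := Finsupp.notMem_support_iff.mp hsupp
    have hf1 : P'.adicValuation f ≤ 1 := by
      have := hf.2 P' hP'
      rwa [hD0, exp_zero] at this
    calc P'.adicValuation U ^ n * P'.adicValuation f ≤ 1 * 1 :=
          mul_le_mul' (pow_le_one₀ zero_le hUle) hf1
      _ = 1 := one_mul 1

/-- The chart module `ℒ_t(D)` as a submodule over the chart `B_t = chartAlg O F {t}`. -/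
def LDB (hBW : ∀ x ∈ chartAlg O F {t}, x ∈ W) (D : Divisor K F) :
    Submodule (chartAlg O F {t}) F where
  carrier := {f | f ∈ LD W (InChart t) D}
  zero_mem' := (LD W (InChart t) D).zero_mem
  add_mem' := fun hf hg => (LD W (InChart t) D).add_mem hf hg
  smul_mem' := fun b _ hf => chart_mul_mem_LD t hBW b.2 hf

theorem mem_LDB_iff (hBW : ∀ x ∈ chartAlg O F {t}, x ∈ W) {f : F} :
    f ∈ LDB t hBW D ↔ f ∈ LD W (InChart t) D := by
  show f ∈ {f | f ∈ LD W (InChart t) D} ↔ _
  rfl

/-- **(G2)**: the chart module is finitely generated over the chart. -/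
theorem LDB_fg [IsIntegrallyClosed O] [IsNoetherianRing O] (ht : Transcendental K t)
    [FiniteDimensional K⟮t⟯ F] (hBW : ∀ x ∈ chartAlg O F {t}, x ∈ W)
    (hsat : ∀ (c : O) (f : F), c ≠ 0 → f ∈ W → algebraMap O F c * f ∈ chartAlg O F {t} →
      f ∈ chartAlg O F {t}) (D : Divisor K F) : (LDB t hBW D).FG := by
  haveI : IsNoetherianRing (chartAlg O F {t}) := isNoetherianRing_chartAlg (O := O) (K := K) t ht
  obtain ⟨b₀, hb₀, hb₀0, hmul⟩ := exists_mul_LD_le_chart (O := O) t ht hBW hsat D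
  let μ : F →ₗ[chartAlg O F {t}] F := LinearMap.mulLeft (chartAlg O F {t}) b₀
  have hinj : Function.Injective μ := fun x y hxy => mul_left_cancel₀ hb₀0 hxy
  have hN : IsNoetherian (chartAlg O F {t})
      (LinearMap.range (Algebra.linearMap (chartAlg O F {t}) F)) :=
    isNoetherian_of_surjective (Algebra.linearMap (chartAlg O F {t}) F).rangeRestrict
      (LinearMap.range_rangeRestrict _)
  have hle : (LDB t hBW D).map μ ≤ LinearMap.range (Algebra.linearMap (chartAlg O F {t}) F) := by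
    rintro _ ⟨f, hf, rfl⟩
    exact ⟨⟨b₀ * f, hmul f ((mem_LDB_iff t hBW).mp hf)⟩, rfl⟩
  exact Submodule.fg_of_fg_map_injective μ hinj (isNoetherian_submodule.mp hN _ hle)

/-! ### (G3): the overlap -/

/-- The places of the generic fibre of the overlap `t ≠ 0, ∞`. -/
def InBoth (t : F) (P : Place K F) : Prop := InChart t P ∧ InChart t⁻¹ P

theorem LD_inBoth_inv : LD W (InBoth (K := K) t⁻¹) D = LD W (InBoth t) D := by
  have h : InBoth (K := K) t⁻¹ = InBoth t := by
    funext P
    simp only [InBoth, inv_inv, and_comm]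
  rw [h]

/-- The chart module is contained in the module of the overlap. -/
theorem LD_inChart_le : LD W (InChart t) D ≤ LD W (InBoth t) D := LD_mono fun _ hP => hP.1

theorem LD_inChart_inv_le : LD W (InChart t⁻¹) D ≤ LD W (InBoth t) D := LD_mono fun _ hP => hP.2

theorem mem_place_of_mem_mid {P : Place K F} (hP : InBoth t P) {b : F}
    (hb : b ∈ chartAlg O F {t, t⁻¹}) : b ∈ P.toValuationSubring :=
  mem_place_of_mem_chartAlg P (fun x hx => by
    rcases hx with rfl | hx
    · exact hP.1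
    · rw [Set.mem_singleton_iff.mp hx]; exact hP.2) hb

/-- The module of the overlap is a module over the ring of the overlap. -/
theorem mid_mul_mem_LD (hBW : ∀ x ∈ chartAlg O F {t, t⁻¹}, x ∈ W) {b f : F}
    (hb : b ∈ chartAlg O F {t, t⁻¹}) (hf : f ∈ LD W (InBoth t) D) : b * f ∈ LD W (InBoth t) D :=
  mul_mem_LD (hBW b hb) (fun _ hP => mem_place_of_mem_mid t hP hb) hf

theorem ord_eq_zero_of_inBoth {P : Place K F} (ht0 : t ≠ 0) (hP : InBoth t P) : P.ord t = 0 := by
  have h1 := (mem_iff_ord_nonneg P ht0).mp hP.1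
  have h2 := (mem_iff_ord_nonneg P (inv_ne_zero ht0)).mp hP.2
  rw [P.ord_inv] at h2
  omega

/-- **(G3)**: `ℒ₀(D) = ⋃_m t^{-m} ℒ_t(D)`. -/
theorem exists_pow_mul_mem_LD (ht : Transcendental K t) [FiniteDimensional K⟮t⟯ F]
    (htW : t ∈ W) {f : F} (hf : f ∈ LD W (InBoth t) D) :
    ∃ m : ℕ, t ^ m * f ∈ LD W (InChart t) D := by
  classical
  have ht0 : t ≠ 0 := fun h0 => ht (h0 ▸ isAlgebraic_zero)
  rcases eq_or_ne f 0 with rfl | hf0
  · exact ⟨0, by rw [mul_zero]; exact zero_mem _⟩
  obtain ⟨Z, hZ, -⟩ := exists_zeroDivisor (K := K) (F := F) ht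
  set m : ℕ := Z.support.sup fun P => (-D P - P.ord f).toNat with hm
  refine ⟨m, (mem_LD_iff_ord (mul_ne_zero (pow_ne_zero m ht0) hf0)).mpr
    ⟨W.mul_mem (W.pow_mem htW m) hf.1, fun P hP => ?_⟩⟩
  have hford := (mem_LD_iff_ord hf0).mp hf
  have hpow : P.ord (t ^ m) = (m : ℤ) * P.ord t := by
    have := P.ord_zpow t (m : ℤ)
    rwa [zpow_natCast] at this
  rw [P.ord_mul (pow_ne_zero m ht0) hf0, hpow]
  by_cases hinv : InChart t⁻¹ P
  · rw [ord_eq_zero_of_inBoth t ht0 ⟨hP, hinv⟩, mul_zero, zero_add]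
    exact hford.2 P ⟨hP, hinv⟩
  · have h1 : P.ord t⁻¹ < 0 := ord_neg_of_not_mem P hinv
    rw [P.ord_inv] at h1
    have hZP : Z P = P.ord t := by rw [hZ P, max_eq_left (by omega)]
    have hsupp : P ∈ Z.support := Finsupp.mem_support_iff.mpr (by rw [hZP]; omega)
    have h2 := Finset.le_sup (f := fun P => (-D P - P.ord f).toNat) hsupp
    have h3 : (-D P - P.ord f) ≤ (m : ℤ) := by
      have h4 : ((-D P - P.ord f).toNat : ℤ) ≤ (m : ℤ) := by exact_mod_cast h2
      exact (Int.self_le_toNat _).trans h4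
    have h5 : (m : ℤ) ≤ (m : ℤ) * P.ord t := by
      have : (0 : ℤ) ≤ (m : ℤ) := Int.natCast_nonneg m
      nlinarith
    omega

/-- `loc`: every element of `ℒ₀(D)` is a chart-overlap multiple of an element of `ℒ_t(D)`. -/
theorem exists_eq_mul_of_mem_LD_inBoth (ht : Transcendental K t) [FiniteDimensional K⟮t⟯ F]
    (htW : t ∈ W) {f : F} (hf : f ∈ LD W (InBoth t) D) :
    ∃ b ∈ chartAlg O F {t, t⁻¹}, ∃ y ∈ LD W (InChart t) D, f = b * y := by
  have ht0 : t ≠ 0 := fun h0 => ht (h0 ▸ isAlgebraic_zero)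
  obtain ⟨m, hm⟩ := exists_pow_mul_mem_LD t ht htW hf
  have hinv : t⁻¹ ∈ chartAlg O F {t, t⁻¹} :=
    subset_chartAlg ({t, t⁻¹} : Set F) (Set.mem_insert_of_mem t (Set.mem_singleton t⁻¹))
  have hpow : (t⁻¹) ^ m ∈ chartAlg O F {t, t⁻¹} := Subalgebra.pow_mem _ hinv m
  have e : f = (t⁻¹) ^ m * (t ^ m * f) := by
    rw [← mul_assoc, ← mul_pow, inv_mul_cancel₀ ht0, one_pow, one_mul]
  exact ⟨(t⁻¹) ^ m, hpow, t ^ m * f, hm, e⟩

/-- **(G3)**, span form: `ℒ₀(D)` is the `B₀`-span of `ℒ_t(D)`. -/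
theorem span_LDB_eq (ht : Transcendental K t) [FiniteDimensional K⟮t⟯ F]
    (hBW : ∀ x ∈ chartAlg O F {t}, x ∈ W) (hB0W : ∀ x ∈ chartAlg O F {t, t⁻¹}, x ∈ W) :
    (Submodule.span (chartAlg O F {t, t⁻¹}) (LDB t hBW D : Set F) : Set F) =
      (LD W (InBoth t) D : Set F) := by
  have htW : t ∈ W := hBW t (subset_chartAlg _ (Set.mem_singleton _))
  apply Set.Subset.antisymm
  · intro x hx
    refine Submodule.span_induction (p := fun x _ => x ∈ LD W (InBoth t) D) ?_ ?_ ?_ ?_ hx
    · intro y hy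
      exact LD_inChart_le t ((mem_LDB_iff t hBW).mp hy)
    · exact zero_mem _
    · intro y z _ _ hy hz
      exact add_mem hy hz
    · intro b y _ hy
      exact mid_mul_mem_LD t hB0W b.2 hy
  · intro f hf
    obtain ⟨b, hb, y, hy, rfl⟩ := exists_eq_mul_of_mem_LD_inBoth t ht htW hf
    have : b * y = (⟨b, hb⟩ : chartAlg O F {t, t⁻¹}) • y := rfl
    rw [this]
    exact Submodule.smul_mem _ _ (Submodule.subset_span ((mem_LDB_iff t hBW).mpr hy))

/-! ### Twisted glueing -/

/-- **Twisted glue.**  If `f ∈ W` lies in `ℒ_t(D) + c₀ W` locally at every closed point of the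
special fibre `c₀ = 0` of the chart (after multiplication by an element of the chart which does not
vanish at the point), then `f ∈ ℒ_t(D) + c₀ W`. -/
theorem mem_LD_add_of_locally (hBW : ∀ x ∈ chartAlg O F {t}, x ∈ W) (c₀ : O) {f : F}
    (hfW : f ∈ W)
    (h : ∀ 𝔪 : Ideal (chartAlg O F {t}), 𝔪.IsMaximal →
      algebraMap O (chartAlg O F {t}) c₀ ∈ 𝔪 →
      ∃ r : chartAlg O F {t}, r ∉ 𝔪 ∧ ∃ g ∈ LD W (InChart t) D, ∃ w ∈ W,
        (r : F) * f = g + algebraMap O F c₀ * w) :
    ∃ g ∈ LD W (InChart t) D, ∃ w ∈ W, f = g + algebraMap O F c₀ * w := by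
  let 𝔠 : Ideal (chartAlg O F {t}) :=
    { carrier := {r | ∃ g ∈ LD W (InChart t) D, ∃ w ∈ W,
        (r : F) * f = g + algebraMap O F c₀ * w}
      zero_mem' := ⟨0, zero_mem _, 0, W.zero_mem, by simp⟩
      add_mem' := by
        rintro a b ⟨g, hg, w, hw, e⟩ ⟨g', hg', w', hw', e'⟩
        refine ⟨g + g', add_mem hg hg', w + w', W.add_mem hw hw', ?_⟩
        rw [Subalgebra.coe_add, add_mul, e, e']
        ring
      smul_mem' := by
        rintro a b ⟨g, hg, w, hw, e⟩
        refine ⟨(a : F) * g, chart_mul_mem_LD t hBW a.2 hg, (a : F) * w,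
          W.mul_mem (hBW _ a.2) hw, ?_⟩
        rw [smul_eq_mul, Subalgebra.coe_mul, mul_assoc, e]
        ring }
  have hc₀ : algebraMap O (chartAlg O F {t}) c₀ ∈ 𝔠 :=
    ⟨0, zero_mem _, f, hfW, by rw [zero_add]; rfl⟩
  have htop : 𝔠 = ⊤ := by
    by_contra hne
    obtain ⟨𝔪, h𝔪, hle⟩ := Ideal.exists_le_maximal 𝔠 hne
    obtain ⟨r, hr, hr'⟩ := h 𝔪 h𝔪 (hle hc₀)
    exact hr (hle hr')
  have h1 : (1 : chartAlg O F {t}) ∈ 𝔠 := by rw [htop]; exact Submodule.mem_top
  obtain ⟨g, hg, w, hw, e⟩ := h1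
  exact ⟨g, hg, w, hw, by rw [← e, Subalgebra.coe_one, one_mul]⟩

end Chart

/-! ### (G5): a nonzero global section of a divisor of degree zero -/

section Principal

variable [CharZero K] (j : F) {W : Subalgebra O F} {D : Divisor K F}

/-- **(G5).**  A nonzero common element of the two chart modules of a divisor of degree zero
exhibits the divisor as principal: `D = -div s`. -/
theorem isPrincipal_of_mem (hj : Transcendental K j) [FiniteDimensional K⟮j⟯ F]
    (hdeg : Divisor.degree D = 0) {s : F} (hs0 : s ≠ 0)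
    (hsp : s ∈ LD W (InChart j) D) (hsm : s ∈ LD W (InChart j⁻¹) D) :
    D ∈ Divisor.principal (K := K) (F := F) := by
  classical
  haveI : HasPrincipalDivisors K F := hasPrincipalDivisors j
  obtain ⟨E, hE, hEdeg⟩ := HasPrincipalDivisors.exists_divisor (K := K) s hs0
  have hnn : ∀ v : Place K F, 0 ≤ (D + E) v := by
    intro v
    rw [Finsupp.add_apply, hE v]
    rcases v.toValuationSubring.mem_or_inv_mem j with h | h
    · have := ((mem_LD_iff_ord hs0).mp hsp).2 v h
      omega
    · have := ((mem_LD_iff_ord hs0).mp hsm).2 v h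
      omega
  have hpos : ∀ v : Place K F, 0 < (v.deg : ℤ) := by
    intro v
    haveI := finite_residueField' j hj v
    have : 0 < Module.finrank K v.ResidueField := Module.finrank_pos
    exact_mod_cast this
  have hdeg0 : Divisor.degree (D + E) = 0 := by rw [map_add, hdeg, hEdeg, add_zero]
  have hsum : Divisor.degree (D + E) = (D + E).sum fun v n => n * (v.deg : ℤ) := by
    simp [Divisor.degree, Finsupp.liftAddHom_apply]
  have hzero : ∀ v : Place K F, (D + E) v = 0 := by
    intro v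
    by_contra hv
    have hvs : v ∈ (D + E).support := Finsupp.mem_support_iff.mpr hv
    rw [hsum, Finsupp.sum] at hdeg0
    have h0 := (Finset.sum_eq_zero_iff_of_nonneg
      (fun w _ => mul_nonneg (hnn w) (hpos w).le)).mp hdeg0 v hvs
    rcases mul_eq_zero.mp h0 with h1 | h1
    · exact hv h1
    · exact (hpos v).ne' h1
  refine ⟨s⁻¹, inv_ne_zero hs0, fun v => ?_⟩
  have := hzero v
  rw [Finsupp.add_apply, hE v] at this
  rw [v.ord_inv]
  omega

end Principal

/-! ### The two charts of the `j`-line -/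

section TwoCharts

variable [CharZero K] (j : F)

theorem singleton_subset_pair (j : F) : ({j} : Set F) ⊆ {j, j⁻¹} :=
  Set.singleton_subset_iff.mpr (Set.mem_insert j {j⁻¹})

theorem singleton_inv_subset_pair (j : F) : ({j⁻¹} : Set F) ⊆ {j, j⁻¹} :=
  Set.singleton_subset_iff.mpr (Set.mem_insert_of_mem j (Set.mem_singleton j⁻¹))

theorem inv_mem_pair (j : F) : j⁻¹ ∈ ({j, j⁻¹} : Set F) :=
  Set.mem_insert_of_mem j (Set.mem_singleton j⁻¹)

theorem mem_chartAlg_pair_inv {b : F} :
    b ∈ chartAlg O F {j⁻¹, j⁻¹⁻¹} ↔ b ∈ chartAlg O F {j, j⁻¹} := by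
  rw [inv_inv, Set.pair_comm]

/-- The hypotheses on the Gauss ring `W` relative to the charts of the `j`-line: `W` contains the
ring of the overlap, and the two charts are saturated in `W` with respect to the nonzero constants
of `O`  (`c f ∈ B, f ∈ W ⟹ f ∈ B`; for a discrete valuation ring `O` it is enough to check this for a
uniformiser, `GaussRing.of_irreducible`). -/
structure GaussRing (j : F) (W : Subalgebra O F) : Prop where
  mid_le : ∀ x ∈ chartAlg O F {j, j⁻¹}, x ∈ W
  sat_fin : ∀ (c : O) (f : F), c ≠ 0 → f ∈ W → algebraMap O F c * f ∈ chartAlg O F {j} →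
    f ∈ chartAlg O F {j}
  sat_inf : ∀ (c : O) (f : F), c ≠ 0 → f ∈ W → algebraMap O F c * f ∈ chartAlg O F {j⁻¹} →
    f ∈ chartAlg O F {j⁻¹}

/-- Saturation for a uniformiser implies saturation for all nonzero constants. -/
theorem sat_of_irreducible [IsDiscreteValuationRing O] {ϖ : O} (hϖ : Irreducible ϖ)
    {W B : Subalgebra O F} (h : ∀ f ∈ W, algebraMap O F ϖ * f ∈ B → f ∈ B) :
    ∀ (c : O) (f : F), c ≠ 0 → f ∈ W → algebraMap O F c * f ∈ B → f ∈ B := by
  intro c f hc hf hcf
  obtain ⟨n, u, rfl⟩ := IsDiscreteValuationRing.eq_unit_mul_pow_irreducible hc hϖ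
  have h1 : algebraMap O F (ϖ ^ n) * f ∈ B := by
    have : algebraMap O F (ϖ ^ n) * f =
        algebraMap O F ((u⁻¹ : Oˣ) : O) * (algebraMap O F ((u : O) * ϖ ^ n) * f) := by
      rw [← mul_assoc, ← map_mul, ← mul_assoc, Units.inv_mul, one_mul]
    rw [this]
    exact B.mul_mem (B.algebraMap_mem _) hcf
  clear hcf hc
  induction n generalizing f with
  | zero => simpa using h1
  | succ n ih =>
    apply ih f hf
    have h2 : algebraMap O F ϖ * (algebraMap O F (ϖ ^ n) * f) ∈ B := by
      rw [← mul_assoc, ← map_mul, ← pow_succ']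
      exact h1
    exact h _ (W.mul_mem (W.algebraMap_mem _) hf) h2

theorem GaussRing.of_irreducible [IsDiscreteValuationRing O] {ϖ : O} (hϖ : Irreducible ϖ)
    {W : Subalgebra O F} (hmid : ∀ x ∈ chartAlg O F {j, j⁻¹}, x ∈ W)
    (hfin : ∀ f ∈ W, algebraMap O F ϖ * f ∈ chartAlg O F {j} → f ∈ chartAlg O F {j})
    (hinf : ∀ f ∈ W, algebraMap O F ϖ * f ∈ chartAlg O F {j⁻¹} → f ∈ chartAlg O F {j⁻¹}) :
    GaussRing j W :=
  ⟨hmid, sat_of_irreducible hϖ hfin, sat_of_irreducible hϖ hinf⟩

variable {j} {W : Subalgebra O F} (h : GaussRing j W) (D : Divisor K F)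

namespace GaussRing

include h

theorem fin_le : ∀ x ∈ chartAlg O F {j}, x ∈ W := fun x hx =>
  h.mid_le x (chartAlg_mono (singleton_subset_pair j) hx)

theorem inf_le : ∀ x ∈ chartAlg O F {j⁻¹}, x ∈ W := fun x hx =>
  h.mid_le x (chartAlg_mono (singleton_inv_subset_pair j) hx)

theorem mid_le' : ∀ x ∈ chartAlg O F {j⁻¹, j⁻¹⁻¹}, x ∈ W := fun x hx =>
  h.mid_le x ((mem_chartAlg_pair_inv j).mp hx)

theorem gen_mem : j ∈ W := h.fin_le j (subset_chartAlg ({j} : Set F) (Set.mem_singleton j))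

theorem gen_inv_mem : j⁻¹ ∈ W :=
  h.inf_le j⁻¹ (subset_chartAlg ({j⁻¹} : Set F) (Set.mem_singleton j⁻¹))

/-- The ring of the overlap is saturated in `W`. -/
theorem sat_mid (hj0 : j ≠ 0) (c : O) (f : F) (hc : c ≠ 0) (hf : f ∈ W)
    (hcf : algebraMap O F c * f ∈ chartAlg O F {j, j⁻¹}) : f ∈ chartAlg O F {j, j⁻¹} := by
  have hcf' : algebraMap O F c * f ∈ chartAlg O F (insert j⁻¹ {j}) := by
    rwa [Set.pair_comm] at hcf
  obtain ⟨n, hn⟩ := exists_pow_mul_mem_chartAlg (O := O) (Set.mem_singleton j) hj0 hcf'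
  have h1 : j ^ n * f ∈ chartAlg O F {j} := by
    refine h.sat_fin c _ hc (W.mul_mem (W.pow_mem h.gen_mem n) hf) ?_
    have : algebraMap O F c * (j ^ n * f) = j ^ n * (algebraMap O F c * f) := by ring
    rw [this]
    exact hn
  have h2 : (j⁻¹) ^ n ∈ chartAlg O F {j, j⁻¹} :=
    Subalgebra.pow_mem _ (subset_chartAlg ({j, j⁻¹} : Set F) (inv_mem_pair j)) n
  have h3 : j ^ n * f ∈ chartAlg O F {j, j⁻¹} := chartAlg_mono (singleton_subset_pair j) h1
  have e : f = (j⁻¹) ^ n * (j ^ n * f) := by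
    rw [← mul_assoc, ← mul_pow, inv_mul_cancel₀ hj0, one_pow, one_mul]
  rw [e]
  exact Subalgebra.mul_mem _ h2 h3

end GaussRing

/-- `ℒ₊(D)`: sections of `𝒪(D)` on the chart `j ≠ ∞`. -/
abbrev Lp (W : Subalgebra O F) (j : F) (D : Divisor K F) : Submodule O F := LD W (InChart j) D

/-- `ℒ₋(D)`: sections of `𝒪(D)` on the chart `j ≠ 0`. -/
abbrev Lm (W : Subalgebra O F) (j : F) (D : Divisor K F) : Submodule O F := LD W (InChart j⁻¹) D

/-- `ℒ₀(D)`: sections of `𝒪(D)` on the overlap. -/
abbrev L0 (W : Subalgebra O F) (j : F) (D : Divisor K F) : Submodule O F := LD W (InBoth j) D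

theorem Lp_le_L0 : Lp W j D ≤ L0 W j D := LD_inChart_le j

theorem Lm_le_L0 : Lm W j D ≤ L0 W j D := LD_inChart_inv_le j

/-- `ℒ₊(D)` as a module over the chart `B₊`. -/
def LpB : Submodule (chartAlg O F {j}) F := LDB j h.fin_le D

/-- `ℒ₋(D)` as a module over the chart `B₋`. -/
def LmB : Submodule (chartAlg O F {j⁻¹}) F := LDB j⁻¹ h.inf_le D

theorem mem_LpB_iff {f : F} : f ∈ LpB h D ↔ f ∈ Lp W j D := mem_LDB_iff j h.fin_le

theorem mem_LmB_iff {f : F} : f ∈ LmB h D ↔ f ∈ Lm W j D := mem_LDB_iff j⁻¹ h.inf_le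

theorem restrictScalars_LpB : (LpB h D).restrictScalars O = Lp W j D :=
  Submodule.ext fun _ => mem_LpB_iff h D

theorem restrictScalars_LmB : (LmB h D).restrictScalars O = Lm W j D :=
  Submodule.ext fun _ => mem_LmB_iff h D

section Finite

variable [IsIntegrallyClosed O] [IsNoetherianRing O] (hj : Transcendental K j)
  [FiniteDimensional K⟮j⟯ F]

include hj

theorem transcendental_inv' : Transcendental K j⁻¹ := fun hh => hj (by simpa using hh.inv)

theorem finiteDimensional_inv : FiniteDimensional K⟮j⁻¹⟯ F :=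
  finiteDimensional_of_eq (adjoin_simple_inv (K := K) j).symm

include h

/-- **(G2)** for the chart `j ≠ ∞`. -/
theorem LpB_fg : (LpB h D).FG := LDB_fg j hj h.fin_le h.sat_fin D

/-- **(G2)** for the chart `j ≠ 0`. -/
theorem LmB_fg : (LmB h D).FG := by
  haveI := finiteDimensional_inv (K := K) hj
  exact LDB_fg j⁻¹ (transcendental_inv' hj) h.inf_le h.sat_inf D

/-- **(G3)**: `ℒ₀(D) = B₀ · ℒ₊(D)`. -/
theorem span_LpB_eq :
    (Submodule.span (chartAlg O F {j, j⁻¹}) (LpB h D : Set F) : Set F) = (L0 W j D : Set F) :=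
  span_LDB_eq j hj h.fin_le h.mid_le

/-- `loc_p`: every element of `ℒ₀(D)` is a `B₀`-multiple of an element of `ℒ₊(D)`. -/
theorem exists_eq_mul_Lp {f : F} (hf : f ∈ L0 W j D) :
    ∃ b ∈ chartAlg O F {j, j⁻¹}, ∃ y ∈ Lp W j D, f = b * y :=
  exists_eq_mul_of_mem_LD_inBoth j hj h.gen_mem hf

/-- `loc_m`: every element of `ℒ₀(D)` is a `B₀`-multiple of an element of `ℒ₋(D)`. -/
theorem exists_eq_mul_Lm {f : F} (hf : f ∈ L0 W j D) :
    ∃ b ∈ chartAlg O F {j, j⁻¹}, ∃ y ∈ Lm W j D, f = b * y := by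
  haveI := finiteDimensional_inv (K := K) hj
  have hf' : f ∈ LD W (InBoth (K := K) j⁻¹) D := by rw [LD_inBoth_inv]; exact hf
  obtain ⟨b, hb, y, hy, e⟩ := exists_eq_mul_of_mem_LD_inBoth j⁻¹ (transcendental_inv' hj)
    h.gen_inv_mem hf'
  exact ⟨b, (mem_chartAlg_pair_inv j).mp hb, y, hy, e⟩

/-- **(G3)**: `ℒ₊(D) ⊆ B₀ · ℒ₋(D)` (the hypothesis `hle` of `SheafFinite.chart_h1FG`). -/
theorem LpB_subset_span_LmB :
    (LpB h D : Set F) ⊆ Submodule.span (chartAlg O F {j, j⁻¹}) (LmB h D : Set F) := by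
  intro f hf
  obtain ⟨b, hb, y, hy, rfl⟩ := exists_eq_mul_Lm h D hj (Lp_le_L0 D ((mem_LpB_iff h D).mp hf))
  have : b * y = (⟨b, hb⟩ : chartAlg O F {j, j⁻¹}) • y := rfl
  rw [this]
  exact Submodule.smul_mem _ _ (Submodule.subset_span ((mem_LmB_iff h D).mpr hy))

end Finite

end TwoCharts

end Fermat.Agent.S19.Cech.DivModule
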