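/-
S19 / Čech route (helper18): from the divisorial chart modules `ℒ_?(D)` of `DivModule` to the
vocabulary of `Cocycle` (`Charts`, `Line`; helper3).  Abstract one-level setting of `DivModule`:
`O` a domain with fraction field `K`, `F / K` a function field, `j ∈ F` transcendental with
`F / K(j)` finite, `W` a Gauss ring (`DivModule.GaussRing j W`).

* `charts` : the three charts `B₊, B₋, B₀` and `W` (as subrings of `F`) form a `Cocycle.Charts`
  for `ϖ ≠ 0` in `O`, as soon as the elements `1 + ϖ r`, `r ∈ W`, are units of `W`;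
* `lineOf D red_p red_m` : the `Cocycle.Line` with `Lp = ℒ₊(D)`, `Lm = ℒ₋(D)`, `L0 = ℒ₀(D)`; only the
  two reduction fields `red_p`, `red_m` are hypotheses (they are the geometric content of [GEN]:
  a divisor with zero reduction);

(Finiteness of `H¹(ℒ(D))`, bounded torsion and the separation statements for these lines are in
helper5's `SepWireDiv.lean`.)
-/
import Mathlib
import Fermat.Agent.S19.Cech.DivModule
import Fermat.Agent.S19.Cech.Cocycle

set_option autoImplicit false
set_option linter.unusedSectionVars false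
set_option linter.style.haveILetI false

open AlgebraicCurve IntermediateField
open Fermat.Agent.N4.Chart Fermat.Agent.S19.Cech.DivModule

noncomputable section

namespace Fermat.Agent.S19.Cech.DivLine

variable {O K F : Type*} [CommRing O] [IsDomain O] [Field K] [Algebra O K] [IsFractionRing O K]
  [Field F] [Algebra K F] [Algebra O F] [IsScalarTower O K F] [CharZero K]

/-- The constants of `O` embed into `F`. -/
theorem algebraMap_injective (O K F : Type*) [CommRing O] [Field K] [Algebra O K]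
    [IsFractionRing O K] [Field F] [Algebra K F] [Algebra O F] [IsScalarTower O K F] :
    Function.Injective (algebraMap O F) := by
  rw [IsScalarTower.algebraMap_eq O K F]
  exact (algebraMap K F).injective.comp (IsFractionRing.injective O K)

theorem algebraMap_ne_zero (K : Type*) {O F : Type*} [CommRing O] [Field K] [Algebra O K]
    [IsFractionRing O K] [Field F] [Algebra K F] [Algebra O F] [IsScalarTower O K F] {c : O}
    (hc : c ≠ 0) : algebraMap O F c ≠ 0 := fun h0 =>
  hc (algebraMap_injective O K F (by rw [h0, map_zero]))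

variable {j : F} {W : Subalgebra O F} (h : GaussRing j W)

include h

/-- **The charts of the `j`-line and the Gauss ring form a `Cocycle.Charts`**, as soon as the
elements `1 + ϖ r`, `r ∈ W`, are units of `W` (`ϖ` in the Jacobson radical of `W`). -/
theorem charts (hj : Transcendental K j) {ϖ : O} (hϖ : ϖ ≠ 0)
    (hunit : ∀ r ∈ W, ∃ s ∈ W, (1 + algebraMap O F ϖ * r) * s = 1) :
    Cocycle.Charts (algebraMap O F ϖ) (chartAlg O F {j}).toSubring (chartAlg O F {j⁻¹}).toSubring
      (chartAlg O F {j, j⁻¹}).toSubring W.toSubring where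
  ne_zero := algebraMap_ne_zero K hϖ
  mem_p := (chartAlg O F {j}).algebraMap_mem ϖ
  mem_m := (chartAlg O F {j⁻¹}).algebraMap_mem ϖ
  p_le := fun _ hx => chartAlg_mono (singleton_subset_pair j) hx
  m_le := fun _ hx => chartAlg_mono (singleton_inv_subset_pair j) hx
  le_R := fun x hx => h.mid_le x hx
  unit := hunit
  sat_p := fun r hr hm => h.sat_fin ϖ r hϖ hr hm
  sat_m := fun r hr hm => h.sat_inf ϖ r hϖ hr hm
  sat_0 := fun r hr hm =>
    h.sat_mid (fun h0 => hj (h0 ▸ isAlgebraic_zero)) ϖ r hϖ hr hm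

section Line

variable [IsIntegrallyClosed O] [IsNoetherianRing O] (hj : Transcendental K j)
  [FiniteDimensional K⟮j⟯ F] {ϖ : O} (hϖ : ϖ ≠ 0) (D : Divisor K F)

include hj hϖ

/-- **The `Cocycle.Line` of a divisor**: `Lp = ℒ₊(D)`, `Lm = ℒ₋(D)`, `L0 = ℒ₀(D)`.  All the fields are
proved here except the two reduction fields, which are hypotheses (for a divisor with zero
reduction they are the content of [GEN]). -/
def lineOf
    (red_p : ∀ x ∈ Lp W j D, ∃ b ∈ chartAlg O F {j}, ∃ r ∈ W, x = b + algebraMap O F ϖ * r)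
    (red_m : ∀ x ∈ Lm W j D, ∃ b ∈ chartAlg O F {j⁻¹}, ∃ r ∈ W, x = b + algebraMap O F ϖ * r) :
    Cocycle.Line (algebraMap O F ϖ) (chartAlg O F {j}).toSubring (chartAlg O F {j⁻¹}).toSubring
      (chartAlg O F {j, j⁻¹}).toSubring W.toSubring where
  Lp := (Lp W j D).toAddSubgroup
  Lm := (Lm W j D).toAddSubgroup
  L0 := (L0 W j D).toAddSubgroup
  smul_p := fun _ hb _ hx => chart_mul_mem_LD j h.fin_le hb hx
  smul_m := fun _ hb _ hx => chart_mul_mem_LD j⁻¹ h.inf_le hb hx
  smul_0 := fun _ hb _ hx => mid_mul_mem_LD j h.mid_le hb hx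
  p_le := Lp_le_L0 D
  m_le := Lm_le_L0 D
  le_R := fun x hx => LD_le_W x hx
  sat_p := fun _ hr hm => mem_LD_of_mul_mem hϖ hr hm
  sat_m := fun _ hr hm => mem_LD_of_mul_mem hϖ hr hm
  sat_0 := fun _ hr hm => mem_LD_of_mul_mem hϖ hr hm
  red_p := red_p
  red_m := red_m
  loc_p := fun _ hx => exists_eq_mul_Lp h D hj hx
  loc_m := fun _ hx => exists_eq_mul_Lm h D hj hx

variable
    (red_p : ∀ x ∈ Lp W j D, ∃ b ∈ chartAlg O F {j}, ∃ r ∈ W, x = b + algebraMap O F ϖ * r)
    (red_m : ∀ x ∈ Lm W j D, ∃ b ∈ chartAlg O F {j⁻¹}, ∃ r ∈ W, x = b + algebraMap O F ϖ * r)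

@[simp] theorem mem_lineOf_Lp {x : F} :
    x ∈ (lineOf h hj hϖ D red_p red_m).Lp ↔ x ∈ Lp W j D := Iff.rfl

@[simp] theorem mem_lineOf_Lm {x : F} :
    x ∈ (lineOf h hj hϖ D red_p red_m).Lm ↔ x ∈ Lm W j D := Iff.rfl

@[simp] theorem mem_lineOf_L0 {x : F} :
    x ∈ (lineOf h hj hϖ D red_p red_m).L0 ↔ x ∈ L0 W j D := Iff.rfl

end Line

end Fermat.Agent.S19.Cech.DivLine
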