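/-
S19, Čech route, block CECH-3A (helper6): **the abstract separation lemma**.

Two-chart Čech data for an "invertible sheaf" `ℒ` over a base ring `O` with a distinguished
element `π`: `O`-submodules `Lp, Lm ≤ L0` of an ambient `O`-module `E` (think `E` = the function
field, `Lp = ℒ(U₊)`, `Lm = ℒ(U₋)`, `L0 = ℒ(U₊ ∩ U₋)`), so that
`H⁰(ℒ) = Lp ⊓ Lm` and `H¹(ℒ) = L0 / (Lp + Lm)`.

* `BoundedTorsion π L0 N n₀` : the `π`-power torsion of `L0/(N ∩ L0)` is killed by `π ^ n₀`;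
  it holds as soon as the image of `L0` in `E ⧸ N` is finitely generated over a Noetherian `O`
  (`exists_boundedTorsion_of_fg`, `exists_boundedTorsion_of_h1FG`).
* `exists_eq_pow_smul_of_inf_eq_bot` : if `H⁰(ℒ) = 0` and `fp ∈ Lp`, `fm ∈ Lm` agree modulo
  `π ^ n L0`, `n ≥ n₀`, then `fp ∈ π ^ (n - n₀) Lp` (and `fm ∈ π ^ (n - n₀) Lm`).
* `inf_ne_bot_of_compatible` : **separation** — if for ONE `n > n₀` there are `fp ∈ Lp` not
  divisible by `π` in `Lp` and `fm ∈ Lm` with `fp - fm ∈ π ^ n L0`, then `H⁰(ℒ) ≠ 0`.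
  (So a class all of whose level-`n` Čech coordinates vanish — i.e. `ℒ/πⁿ` has a generator for
  every `n` — has a nonzero global section; for a divisor of degree `0` this section trivialises
  `ℒ`.)
* `not_exists_eq_smul_of_generates` : a generator of `Lp` modulo `π` is not divisible by `π` in `Lp`
  unless `Lp = π Lp`.
* `H1FG`, `H1FG.of_le`, `H1FG.of_ge` : finiteness of `H¹` is inherited by subsheaves / oversheaves
  with finitely generated quotients on the charts (dévissage `O(D) ⊂ O(D + P)`).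

Mathlib only.
-/
import Mathlib

set_option autoImplicit false

namespace Fermat.Agent.S19.Cech.Separation

section BoundedTorsion

variable {O : Type*} [CommRing O]

/-- In a Noetherian module the `π`-power torsion is killed by one fixed power of `π`. -/
theorem exists_pow_smul_eq_zero_of_noetherian {H : Type*} [AddCommGroup H] [Module O H]
    [IsNoetherian O H] (π : O) :
    ∃ n₀ : ℕ, ∀ (n : ℕ) (h : H), π ^ n • h = 0 → π ^ n₀ • h = 0 := by
  let K : ℕ → Submodule O H := fun n => LinearMap.ker ((π ^ n) • (LinearMap.id : H →ₗ[O] H))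
  have hmem : ∀ n (h : H), h ∈ K n ↔ π ^ n • h = 0 := by
    intro n h
    simp [K, LinearMap.mem_ker]
  have hmono : Monotone K := by
    refine monotone_nat_of_le_succ fun n h hh => ?_
    rw [hmem] at hh ⊢
    rw [pow_succ', mul_smul, hh, smul_zero]
  obtain ⟨n₀, hn₀⟩ := (monotone_stabilizes_iff_noetherian (R := O) (M := H)).mpr inferInstance
    ⟨K, hmono⟩
  refine ⟨n₀, fun n h hh => ?_⟩
  rcases le_total n n₀ with hle | hle
  · exact (hmem n₀ h).mp (hmono hle ((hmem n h).mpr hh))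
  · have := hn₀ n hle
    have h1 : h ∈ K n := (hmem n h).mpr hh
    have h2 : h ∈ K n₀ := by
      have : K n₀ = K n := this
      rw [this]; exact h1
    exact (hmem n₀ h).mp h2

variable {E : Type*} [AddCommGroup E] [Module O E]

/-- `π`-power torsion of `L0` modulo `N` is killed by `π ^ n₀`. -/
def BoundedTorsion (π : O) (L0 N : Submodule O E) (n₀ : ℕ) : Prop :=
  ∀ (n : ℕ) (x : E), x ∈ L0 → π ^ n • x ∈ N → π ^ n₀ • x ∈ N

/-- Bounded torsion from finite generation of the image of `L0` in `E ⧸ N` over a Noetherian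
ring. -/
theorem exists_boundedTorsion_of_fg [IsNoetherianRing O] (π : O) {L0 N : Submodule O E}
    (hfg : (L0.map N.mkQ).FG) : ∃ n₀, BoundedTorsion π L0 N n₀ := by
  have : IsNoetherian O ↥(L0.map N.mkQ) := isNoetherian_of_fg_of_noetherian _ hfg
  obtain ⟨n₀, hn₀⟩ := exists_pow_smul_eq_zero_of_noetherian (O := O) (H := ↥(L0.map N.mkQ)) π
  refine ⟨n₀, fun n x hx hπ => ?_⟩
  have hxm : N.mkQ x ∈ L0.map N.mkQ := Submodule.mem_map_of_mem hx
  have h1 : π ^ n • (⟨N.mkQ x, hxm⟩ : ↥(L0.map N.mkQ)) = 0 := by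
    apply Subtype.ext
    simp only [Submodule.coe_smul, Submodule.coe_zero]
    rw [← map_smul]
    exact (Submodule.Quotient.mk_eq_zero N).mpr hπ
  have h2 := hn₀ n _ h1
  have h3 : π ^ n₀ • N.mkQ x = 0 := by
    have := congrArg Subtype.val h2
    simpa only [Submodule.coe_smul, Submodule.coe_zero] using this
  rw [← map_smul] at h3
  exact (Submodule.Quotient.mk_eq_zero N).mp h3

end BoundedTorsion

section Main

variable {O : Type*} [CommRing O] {E : Type*} [AddCommGroup E] [Module O E]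

/-- If `H⁰ = Lp ⊓ Lm = 0`, the `π`-torsion of `H¹ = L0/(Lp + Lm)` is bounded by `π ^ n₀`, and
`fp ∈ Lp`, `fm ∈ Lm` agree modulo `π ^ n L0` with `n ≥ n₀`, then `fp` is divisible by
`π ^ (n - n₀)` in `Lp` and `fm` in `Lm`. -/
theorem exists_eq_pow_smul_of_inf_eq_bot (π : O) {Lp Lm L0 : Submodule O E} {n₀ : ℕ}
    (hT : BoundedTorsion π L0 (Lp ⊔ Lm) n₀) (h0 : Lp ⊓ Lm = ⊥) {n : ℕ} (hn : n₀ ≤ n)
    {fp fm z : E} (hfp : fp ∈ Lp) (hfm : fm ∈ Lm) (hz : z ∈ L0) (h : fp - fm = π ^ n • z) :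
    (∃ gp ∈ Lp, fp = π ^ (n - n₀) • gp) ∧ ∃ gm ∈ Lm, fm = π ^ (n - n₀) • gm := by
  have hmem : π ^ n • z ∈ Lp ⊔ Lm := by
    rw [← h]
    exact Submodule.sub_mem _ (Submodule.mem_sup_left hfp) (Submodule.mem_sup_right hfm)
  obtain ⟨gp, hgp, gm, hgm, hsum⟩ := Submodule.mem_sup.mp (hT n z hz hmem)
  have hpow : π ^ n • z = π ^ (n - n₀) • gp + π ^ (n - n₀) • gm := by
    rw [← smul_add, hsum, smul_smul, ← pow_add, Nat.sub_add_cancel hn]
  have hkey : fp - π ^ (n - n₀) • gp = fm + π ^ (n - n₀) • gm := by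
    have : fp - fm = π ^ (n - n₀) • gp + π ^ (n - n₀) • gm := by rw [h, hpow]
    have h' : fp = fm + (π ^ (n - n₀) • gp + π ^ (n - n₀) • gm) := by
      rw [← this]; abel
    rw [h']; abel
  have hin : fp - π ^ (n - n₀) • gp ∈ Lp ⊓ Lm := by
    refine ⟨Submodule.sub_mem _ hfp (Submodule.smul_mem _ _ hgp), ?_⟩
    rw [hkey]
    exact Submodule.add_mem _ hfm (Submodule.smul_mem _ _ hgm)
  rw [h0, Submodule.mem_bot] at hin
  refine ⟨⟨gp, hgp, sub_eq_zero.mp hin⟩, ⟨-gm, Submodule.neg_mem _ hgm, ?_⟩⟩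
  rw [hin] at hkey
  have : fm = -(π ^ (n - n₀) • gm) := by
    have := hkey.symm
    exact eq_neg_of_add_eq_zero_left this
  rw [this, smul_neg]

/-- **Separation.** If the `π`-torsion of `H¹ = L0/(Lp + Lm)` is bounded by `π ^ n₀` and, for ONE
`n > n₀`, there are `fp ∈ Lp`, NOT divisible by `π` in `Lp`, and `fm ∈ Lm` with
`fp - fm ∈ π ^ n L0`, then `H⁰ = Lp ⊓ Lm ≠ 0`. -/
theorem inf_ne_bot_of_compatible (π : O) {Lp Lm L0 : Submodule O E} {n₀ : ℕ}
    (hT : BoundedTorsion π L0 (Lp ⊔ Lm) n₀) {n : ℕ} (hn : n₀ < n)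
    {fp fm z : E} (hfp : fp ∈ Lp) (hfm : fm ∈ Lm) (hz : z ∈ L0) (h : fp - fm = π ^ n • z)
    (hprim : ¬ ∃ g ∈ Lp, fp = π • g) : Lp ⊓ Lm ≠ ⊥ := by
  intro h0
  obtain ⟨⟨gp, hgp, hgp'⟩, -⟩ :=
    exists_eq_pow_smul_of_inf_eq_bot π hT h0 hn.le hfp hfm hz h
  apply hprim
  refine ⟨π ^ (n - n₀ - 1) • gp, Submodule.smul_mem _ _ hgp, ?_⟩
  rw [hgp', smul_smul, ← pow_succ']
  congr 2
  omega

/-- The same with an explicit nonzero global section. -/
theorem exists_ne_zero_mem_of_compatible (π : O) {Lp Lm L0 : Submodule O E} {n₀ : ℕ}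
    (hT : BoundedTorsion π L0 (Lp ⊔ Lm) n₀) {n : ℕ} (hn : n₀ < n)
    {fp fm z : E} (hfp : fp ∈ Lp) (hfm : fm ∈ Lm) (hz : z ∈ L0) (h : fp - fm = π ^ n • z)
    (hprim : ¬ ∃ g ∈ Lp, fp = π • g) : ∃ s : E, s ≠ 0 ∧ s ∈ Lp ∧ s ∈ Lm := by
  have hne := inf_ne_bot_of_compatible π hT hn hfp hfm hz h hprim
  obtain ⟨s, hs, hs0⟩ := (Submodule.ne_bot_iff _).mp hne
  exact ⟨s, hs0, hs.1, hs.2⟩

end Main

section Generator

variable {O B : Type*} [CommRing O] [CommRing B] [Algebra O B]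
  {E : Type*} [AddCommGroup E] [Module O E] [Module B E] [IsScalarTower O B E]

/-- A generator of the `B`-module `Lp` modulo `π` is not divisible by `π` in `Lp`, unless
`Lp = π Lp`. -/
theorem not_exists_eq_smul_of_generates (π : O) {Lp : Submodule B E} {fp : E}
    (hgen : ∀ x ∈ Lp, ∃ b : B, ∃ y ∈ Lp, x = b • fp + π • y)
    (hne : ∃ x ∈ Lp, ¬ ∃ y ∈ Lp, x = π • y) : ¬ ∃ g ∈ Lp, fp = π • g := by
  rintro ⟨g, hg, rfl⟩
  obtain ⟨x, hx, hx'⟩ := hne
  obtain ⟨b, y, hy, rfl⟩ := hgen x hx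
  apply hx'
  refine ⟨b • g + y, Submodule.add_mem _ (Submodule.smul_mem _ _ hg) hy, ?_⟩
  rw [smul_add, smul_comm π b g]

end Generator

section Devissage

variable {O : Type*} [CommRing O] {E : Type*} [AddCommGroup E] [Module O E]

/-- `H¹ = L0/(Lp + Lm)` is a finitely generated `O`-module (stated for the image of `L0` in
`E ⧸ (Lp ⊔ Lm)`). -/
def H1FG (Lp Lm L0 : Submodule O E) : Prop := (L0.map (Lp ⊔ Lm).mkQ).FG

theorem exists_boundedTorsion_of_h1FG [IsNoetherianRing O] (π : O) {Lp Lm L0 : Submodule O E}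
    (h : H1FG Lp Lm L0) : ∃ n₀, BoundedTorsion π L0 (Lp ⊔ Lm) n₀ :=
  exists_boundedTorsion_of_fg π h

/-- Finiteness of `H¹` passes to an OVERSHEAF `ℒ ⊂ ℒ'` as soon as `ℒ'(U₀) ⊂ ℒ(U₀) + ℒ'(U₊) +
ℒ'(U₋)`. -/
theorem H1FG.of_le [IsNoetherianRing O] {Lp Lm L0 Lp' Lm' L0' : Submodule O E}
    (h : H1FG Lp Lm L0) (hp : Lp ≤ Lp') (hm : Lm ≤ Lm') (h0 : L0' ≤ L0 ⊔ (Lp' ⊔ Lm')) :
    H1FG Lp' Lm' L0' := by
  unfold H1FG at h ⊢
  set N := Lp ⊔ Lm with hN
  set N' := Lp' ⊔ Lm' with hN'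
  have hNN' : N ≤ N' := sup_le_sup hp hm
  -- the image of `L0` in `E ⧸ N'` is a quotient of the image in `E ⧸ N`
  have h1 : (L0.map N'.mkQ).FG := by
    have : L0.map N'.mkQ = (L0.map N.mkQ).map (N.mapQ N' LinearMap.id hNN') := by
      rw [← Submodule.map_comp]
      congr 1
    rw [this]
    exact h.map _
  have h2 : L0'.map N'.mkQ ≤ L0.map N'.mkQ := by
    calc L0'.map N'.mkQ ≤ (L0 ⊔ N').map N'.mkQ := Submodule.map_mono h0
      _ = L0.map N'.mkQ := by
        rw [Submodule.map_sup]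
        rw [Submodule.mkQ_map_self, sup_bot_eq]
  have : IsNoetherian O ↥(L0.map N'.mkQ) := isNoetherian_of_fg_of_noetherian _ h1
  -- a submodule of a Noetherian module is f.g.
  have h3 : ((L0'.map N'.mkQ).comap (L0.map N'.mkQ).subtype).FG := IsNoetherian.noetherian _
  have h4 := h3.map (L0.map N'.mkQ).subtype
  rwa [Submodule.map_comap_subtype, inf_eq_right.mpr h2] at h4

/-- Finiteness of `H¹` passes to a SUBSHEAF `ℒ ⊂ ℒ'` whose chart quotients `ℒ'(U_±)/ℒ(U_±)` are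
finitely generated over `O`. -/
theorem H1FG.of_ge [IsNoetherianRing O] {Lp Lm L0 Lp' Lm' L0' : Submodule O E}
    (h : H1FG Lp' Lm' L0') (hp : Lp ≤ Lp') (hm : Lm ≤ Lm') (h0 : L0 ≤ L0')
    (hpq : (Lp'.map Lp.mkQ).FG) (hmq : (Lm'.map Lm.mkQ).FG) : H1FG Lp Lm L0 := by
  unfold H1FG at h ⊢
  set N := Lp ⊔ Lm with hN
  set N' := Lp' ⊔ Lm' with hN'
  have hNN' : N ≤ N' := sup_le_sup hp hm
  let f : (E ⧸ N) →ₗ[O] (E ⧸ N') := N.mapQ N' LinearMap.id hNN'
  have hf : f.comp N.mkQ = N'.mkQ := by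
    ext x; rfl
  -- image part
  have : IsNoetherian O ↥(L0'.map N'.mkQ) := isNoetherian_of_fg_of_noetherian _ h
  have himg : ((L0.map N.mkQ).map f).FG := by
    have h1 : (L0.map N.mkQ).map f = L0.map N'.mkQ := by
      rw [← Submodule.map_comp, hf]
    rw [h1]
    have h2 : L0.map N'.mkQ ≤ L0'.map N'.mkQ := Submodule.map_mono h0
    have h3 : ((L0.map N'.mkQ).comap (L0'.map N'.mkQ).subtype).FG := IsNoetherian.noetherian _
    have h4 := h3.map (L0'.map N'.mkQ).subtype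
    rwa [Submodule.map_comap_subtype, inf_eq_right.mpr h2] at h4
  -- kernel part: `ker f = N'.map N.mkQ`, which is f.g.
  have hker : LinearMap.ker f = N'.map N.mkQ := by
    ext y
    obtain ⟨x, rfl⟩ := N.mkQ_surjective y
    rw [LinearMap.mem_ker]
    have : f (N.mkQ x) = N'.mkQ x := rfl
    rw [this, Submodule.mkQ_apply, Submodule.Quotient.mk_eq_zero]
    constructor
    · intro hx
      exact Submodule.mem_map_of_mem hx
    · rintro ⟨x', hx', hxx'⟩
      have hsub : x' - x ∈ N := by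
        have := (Submodule.Quotient.eq N).mp hxx'
        exact this
      have : x = x' - (x' - x) := by abel
      rw [this]
      exact Submodule.sub_mem _ hx' (hNN' hsub)
  have hN'fg : (N'.map N.mkQ).FG := by
    rw [hN', Submodule.map_sup]
    have e1 : Lp'.map N.mkQ = (Lp'.map Lp.mkQ).map (Lp.mapQ N LinearMap.id le_sup_left) := by
      rw [← Submodule.map_comp]; congr 1
    have e2 : Lm'.map N.mkQ = (Lm'.map Lm.mkQ).map (Lm.mapQ N LinearMap.id le_sup_right) := by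
      rw [← Submodule.map_comp]; congr 1
    rw [e1, e2]
    exact (hpq.map _).sup (hmq.map _)
  have : IsNoetherian O ↥(N'.map N.mkQ) := isNoetherian_of_fg_of_noetherian _ hN'fg
  have hinf : ((L0.map N.mkQ) ⊓ LinearMap.ker f).FG := by
    rw [hker]
    have h2 : (L0.map N.mkQ) ⊓ (N'.map N.mkQ) ≤ N'.map N.mkQ := inf_le_right
    have h3 : (((L0.map N.mkQ) ⊓ (N'.map N.mkQ)).comap (N'.map N.mkQ).subtype).FG :=
      IsNoetherian.noetherian _
    have h4 := h3.map (N'.map N.mkQ).subtype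
    rwa [Submodule.map_comap_subtype, inf_eq_right.mpr h2] at h4
  exact Submodule.fg_of_fg_map_of_fg_inf_ker f himg hinf

end Devissage

end Fermat.Agent.S19.Cech.Separation
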