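/-
S19 / Čech-units route, leaf **[SEPW]** of the DAG v1 (helper5; referee helper6): the WIRING of the
separation axiom (C6) of `Coord.CoordSystem`,

  "all level-`n` Čech coordinates of `z ∈ ker red` vanish  ⟹  `z = 0`",

out of the landed abstract pieces
* `Cocycle.Line.exists_common_of_trivial` (helper3): a cocycle which is trivial modulo `ϖ^k` gives
  generators `sp ∈ Lp`, `sm ∈ Lm`, both `≡ 1`, with `sp - sm ∈ ϖ^k L0`;
* `Separation.exists_ne_zero_mem_of_compatible` (helper6): a compatible pair modulo `ϖ^k` with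
  `k > n₀` (`n₀` = the bound for the `ϖ`-power torsion of `H¹ = L0/(Lp + Lm)`, which exists by
  `SheafFinite.chart_boundedTorsion`, helper2) whose `+`-component is not divisible by `ϖ` gives a
  nonzero global section `s ∈ Lp ⊓ Lm`;
* `Hyp.coord` / `Transport` (helper9, helper3): the coordinates of the image of the cocycle in the
  deformation situation over `S = O_L/ℓⁿ`.

Contents.
* `Charts.ne_mul_of_isOne` : an element `≡ 1 mod ϖ Rg` is not divisible by `ϖ` in `Rg`.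
* `BoundedTorsion L n₀` : the bounded-torsion hypothesis in the vocabulary of `Cocycle.Line`, with
  the converters `boundedTorsion_of_submodule` (from `Separation.BoundedTorsion` for
  `O`-submodules with the same carriers) and `BoundedTorsion.toSubmodule`.
* `exists_global_approx`, `exists_isOne_mem_of_compatible` (`exists_ne_zero_mem_of_compatible`) :
  separation for generators `≡ 1`, with a global section which is again `≡ 1`.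
* `exists_isOne_mem_of_trivial` (`exists_ne_zero_mem_of_trivial`) : **cocycle trivial modulo `ϖ^k`,
  `k > n₀` ⟹ global generator `s ∈ Lp ⊓ Lm`, `s ≡ 1`**.
* `Lift` : the lifting properties of a `Transport` (`B_? → C_?` is onto the principal units,
  `ker q0 = ϖ^(k+1) B0`), `lift_of_surjective`.
* `trivial_of_coord_eq_zero` : `Hyp.coord (q0 u) = 0` ⟹ `u ≡ wp·wm mod ϖ^(k+1) B0`.
* `exists_isOne_mem_of_coord_eq_zero` (`exists_ne_zero_mem_of_coord_eq_zero`) : **all coordinates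
  `0` at ONE level `k + 1 > n₀` ⟹ global generator.**
* `coord_eq_zero_of_map`, `coord_eq_of_map` : descent of "coordinates `0`" along a morphism of situations which
  is injective on the base (`S_L ↪ S_{L'}`): trivial at a bigger level ⟹ trivial at `L`.

Mathlib + `Cocycle`, `CocycleRel`, `Law`, `Separation` only.
-/
import Fermat.Agent.S19.Cech.CocycleRel
import Fermat.Agent.S19.Cech.Separation

set_option autoImplicit false
set_option linter.unusedSectionVars false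

namespace Fermat.Agent.S19.Cech.SepWire

open Fermat.Agent.S19.Cech Fermat.Agent.S19.Cech.Cocycle

variable {F : Type*} [CommRing F] [IsDomain F] {ϖ : F} {Bp Bm B0 Rg : Subring F}

/-! ### elements `≡ 1` are `ϖ`-primitive -/

/-- `ϖ` is not a unit of `Rg`. -/
theorem Charts.mul_ne_one (C : Charts ϖ Bp Bm B0 Rg) {t : F} (ht : t ∈ Rg) : ϖ * t ≠ 1 := by
  intro h
  obtain ⟨s, -, hs⟩ := C.unit (-t) (Rg.neg_mem ht)
  have h0 : (1 + ϖ * -t) = 0 := by rw [mul_neg, h]; ring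
  rw [h0, zero_mul] at hs
  exact zero_ne_one hs

/-- An element `≡ 1` modulo `ϖ Rg` is not divisible by `ϖ` in `Rg`. -/
theorem Charts.ne_mul_of_isOne (C : Charts ϖ Bp Bm B0 Rg) {f g : F} (h1 : IsOne ϖ Rg f)
    (hg : g ∈ Rg) : f ≠ ϖ * g := by
  obtain ⟨r, hr, rfl⟩ := h1
  intro h
  refine Charts.mul_ne_one C (Rg.sub_mem hg hr) ?_
  linear_combination -h

/-! ### bounded torsion in the vocabulary of `Line` -/

/-- The `ϖ`-power torsion of `H¹ = L0/(Lp + Lm)` is killed by `ϖ ^ n₀`. -/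
def BoundedTorsion (L : Line ϖ Bp Bm B0 Rg) (n₀ : ℕ) : Prop :=
  ∀ (n : ℕ) (x : F), x ∈ L.L0 → (∃ a ∈ L.Lp, ∃ b ∈ L.Lm, ϖ ^ n * x = a + b) →
    ∃ a ∈ L.Lp, ∃ b ∈ L.Lm, ϖ ^ n₀ * x = a + b

theorem BoundedTorsion.mono {L : Line ϖ Bp Bm B0 Rg} (C : Charts ϖ Bp Bm B0 Rg) {n₀ n₁ : ℕ}
    (h : BoundedTorsion L n₀) (hle : n₀ ≤ n₁) : BoundedTorsion L n₁ := by
  intro n x hx hn
  obtain ⟨a, ha, b, hb, e⟩ := h n x hx hn
  refine ⟨ϖ ^ (n₁ - n₀) * a, L.smul_p _ (Bp.pow_mem C.mem_p _) a ha, ϖ ^ (n₁ - n₀) * b,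
    L.smul_m _ (Bm.pow_mem C.mem_m _) b hb, ?_⟩
  rw [← mul_add, ← e, ← mul_assoc, ← pow_add, Nat.sub_add_cancel hle]

section Submodule

variable {O : Type*} [CommRing O] [Algebra O F]

/-- From `Separation.BoundedTorsion` for `O`-submodules with the same carriers as the `Line`
(`π : O` mapping to `ϖ`), e.g. the output of `SheafFinite.chart_boundedTorsion`. -/
theorem boundedTorsion_of_submodule (L : Line ϖ Bp Bm B0 Rg) {π : O}
    (hπ : algebraMap O F π = ϖ) {Lp' Lm' L0' : Submodule O F}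
    (hp : ∀ x, x ∈ Lp' ↔ x ∈ L.Lp) (hm : ∀ x, x ∈ Lm' ↔ x ∈ L.Lm) (h0 : ∀ x, x ∈ L.L0 → x ∈ L0')
    {n₀ : ℕ} (hT : Separation.BoundedTorsion π L0' (Lp' ⊔ Lm') n₀) : BoundedTorsion L n₀ := by
  have hsmul : ∀ (n : ℕ) (x : F), π ^ n • x = ϖ ^ n * x := by
    intro n x
    rw [Algebra.smul_def, map_pow, hπ]
  intro n x hx hn
  obtain ⟨a, ha, b, hb, e⟩ := hn
  have h1 : π ^ n • x ∈ Lp' ⊔ Lm' := by
    rw [hsmul, e]
    exact Submodule.add_mem _ (Submodule.mem_sup_left ((hp a).mpr ha))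
      (Submodule.mem_sup_right ((hm b).mpr hb))
  obtain ⟨a', ha', b', hb', e'⟩ := Submodule.mem_sup.mp (hT n x (h0 x hx) h1)
  exact ⟨a', (hp a').mp ha', b', (hm b').mp hb', by rw [← hsmul, e']⟩

/-- Conversely, towards `Separation.BoundedTorsion`. -/
theorem BoundedTorsion.toSubmodule {L : Line ϖ Bp Bm B0 Rg} {π : O}
    (hπ : algebraMap O F π = ϖ) {Lp' Lm' L0' : Submodule O F}
    (hp : ∀ x, x ∈ Lp' ↔ x ∈ L.Lp) (hm : ∀ x, x ∈ Lm' ↔ x ∈ L.Lm) (h0 : ∀ x, x ∈ L0' → x ∈ L.L0)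
    {n₀ : ℕ} (hT : BoundedTorsion L n₀) : Separation.BoundedTorsion π L0' (Lp' ⊔ Lm') n₀ := by
  have hsmul : ∀ (n : ℕ) (x : F), π ^ n • x = ϖ ^ n * x := by
    intro n x
    rw [Algebra.smul_def, map_pow, hπ]
  intro n x hx hn
  obtain ⟨a, ha, b, hb, e⟩ := Submodule.mem_sup.mp hn
  obtain ⟨a', ha', b', hb', e'⟩ := hT n x (h0 x hx)
    ⟨a, (hp a).mp ha, b, (hm b).mp hb, by rw [← hsmul, e]⟩
  rw [hsmul, e']
  exact Submodule.add_mem _ (Submodule.mem_sup_left ((hp a').mpr ha'))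
    (Submodule.mem_sup_right ((hm b').mpr hb'))

end Submodule

/-! ### separation for a `Line` -/

section Sep

variable (C : Charts ϖ Bp Bm B0 Rg)
include C

/-- **Separation, approximation form.**  If the `ϖ`-power torsion of `H¹` is killed by `ϖ ^ n₀` and
`sp ∈ Lp`, `sm ∈ Lm` agree modulo `ϖ ^ k L0` with `n₀ ≤ k`, there is a GLOBAL section
`s ∈ Lp ⊓ Lm` with `s ≡ sp` modulo `ϖ ^ (k - n₀) Lp` and `s ≡ sm` modulo `ϖ ^ (k - n₀) Lm`. -/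
theorem exists_global_approx (L : Line ϖ Bp Bm B0 Rg) {n₀ k : ℕ}
    (hT : BoundedTorsion L n₀) (hk : n₀ ≤ k) {sp sm y : F} (hsp : sp ∈ L.Lp) (hsm : sm ∈ L.Lm)
    (hy : y ∈ L.L0) (h : sp = sm + ϖ ^ k * y) :
    ∃ s ∈ L.Lp, s ∈ L.Lm ∧ (∃ a ∈ L.Lp, s = sp - ϖ ^ (k - n₀) * a) ∧
      ∃ b ∈ L.Lm, s = sm + ϖ ^ (k - n₀) * b := by
  obtain ⟨a, ha, b, hb, e⟩ := hT k y hy
    ⟨sp, hsp, -sm, L.Lm.neg_mem hsm, by rw [h]; ring⟩
  have hpow : ϖ ^ k * y = ϖ ^ (k - n₀) * a + ϖ ^ (k - n₀) * b := by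
    rw [← mul_add, ← e, ← mul_assoc, ← pow_add, Nat.sub_add_cancel hk]
  have hkey : sp - ϖ ^ (k - n₀) * a = sm + ϖ ^ (k - n₀) * b := by
    rw [h, hpow]; ring
  have hBp : ϖ ^ (k - n₀) ∈ Bp := Bp.pow_mem C.mem_p _
  have hBm : ϖ ^ (k - n₀) ∈ Bm := Bm.pow_mem C.mem_m _
  refine ⟨sp - ϖ ^ (k - n₀) * a, L.Lp.sub_mem hsp (L.smul_p _ hBp a ha), ?_, ⟨a, ha, rfl⟩,
    ⟨b, hb, hkey⟩⟩
  rw [hkey]
  exact L.Lm.add_mem hsm (L.smul_m _ hBm b hb)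

/-- **Separation.**  If the `ϖ`-power torsion of `H¹` is killed by `ϖ ^ n₀` and, for ONE `k > n₀`,
there are `sp ∈ Lp`, `sp ≡ 1`, and `sm ∈ Lm` with `sp - sm ∈ ϖ ^ k L0`, then the line bundle has a
global section `s ∈ Lp ⊓ Lm` with `s ≡ 1` (a common generator; in particular `s ≠ 0`). -/
theorem exists_isOne_mem_of_compatible (L : Line ϖ Bp Bm B0 Rg) {n₀ k : ℕ}
    (hT : BoundedTorsion L n₀) (hk : n₀ < k) {sp sm y : F} (hsp : sp ∈ L.Lp) (hsm : sm ∈ L.Lm)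
    (h1 : IsOne ϖ Rg sp) (hy : y ∈ L.L0) (h : sp = sm + ϖ ^ k * y) :
    ∃ s ∈ L.Lp, s ∈ L.Lm ∧ IsOne ϖ Rg s := by
  obtain ⟨s, hsLp, hsLm, ⟨a, ha, e⟩, -⟩ := exists_global_approx C L hT hk.le hsp hsm hy h
  refine ⟨s, hsLp, hsLm, ?_⟩
  obtain ⟨r, hr, rfl⟩ := h1
  refine ⟨r - ϖ ^ (k - n₀ - 1) * a,
    Rg.sub_mem hr (Rg.mul_mem (Rg.pow_mem C.mem_R _) (L.p_le_R ha)), ?_⟩
  have hpow : ϖ ^ (k - n₀) = ϖ * ϖ ^ (k - n₀ - 1) := by
    rw [← pow_succ']; congr 1; omega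
  rw [e, hpow]; ring

/-- an element `≡ 1` is nonzero. -/
theorem isOne_ne_zero {s : F} (h1 : IsOne ϖ Rg s) : s ≠ 0 := by
  intro h0
  refine Charts.ne_mul_of_isOne C h1 Rg.zero_mem ?_
  rw [h0, mul_zero]

/-- `Separation.exists_ne_zero_mem_of_compatible` in the vocabulary of `Line`. -/
theorem exists_ne_zero_mem_of_compatible (L : Line ϖ Bp Bm B0 Rg) {n₀ k : ℕ}
    (hT : BoundedTorsion L n₀) (hk : n₀ < k) {sp sm y : F} (hsp : sp ∈ L.Lp) (hsm : sm ∈ L.Lm)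
    (h1 : IsOne ϖ Rg sp) (hy : y ∈ L.L0) (h : sp = sm + ϖ ^ k * y) :
    ∃ s : F, s ≠ 0 ∧ s ∈ L.Lp ∧ s ∈ L.Lm := by
  obtain ⟨s, hsLp, hsLm, hs1⟩ := exists_isOne_mem_of_compatible C L hT hk hsp hsm h1 hy h
  exact ⟨s, isOne_ne_zero C hs1, hsLp, hsLm⟩

/-- **A cocycle which is trivial modulo `ϖ ^ k` for ONE `k > n₀` comes from a common generator.** -/
theorem exists_isOne_mem_of_trivial (L : Line ϖ Bp Bm B0 Rg) {n₀ k : ℕ}
    (hT : BoundedTorsion L n₀) (hk : n₀ < k) {fp fm u wp wm : F}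
    (hfp : fp ∈ L.Lp) (h1p : IsOne ϖ Rg fp) (hfm : fm ∈ L.Lm) (h1m : IsOne ϖ Rg fm)
    (h : L.IsCocycle k fp fm u) (hwp : ∃ a ∈ Bp, wp = 1 + ϖ * a) (hwm : ∃ a ∈ Bm, wm = 1 + ϖ * a)
    (hu : ∃ c ∈ B0, u = wp * wm + ϖ ^ k * c) :
    ∃ s ∈ L.Lp, s ∈ L.Lm ∧ IsOne ϖ Rg s := by
  obtain ⟨sp, hsp, sm, hsm, h1sp, -, y, hy, e⟩ :=
    L.exists_common_of_trivial C hfp h1p hfm h1m h hwp hwm hu
  exact exists_isOne_mem_of_compatible C L hT hk hsp hsm h1sp hy e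

theorem exists_ne_zero_mem_of_trivial (L : Line ϖ Bp Bm B0 Rg) {n₀ k : ℕ}
    (hT : BoundedTorsion L n₀) (hk : n₀ < k) {fp fm u wp wm : F}
    (hfp : fp ∈ L.Lp) (h1p : IsOne ϖ Rg fp) (hfm : fm ∈ L.Lm) (h1m : IsOne ϖ Rg fm)
    (h : L.IsCocycle k fp fm u) (hwp : ∃ a ∈ Bp, wp = 1 + ϖ * a) (hwm : ∃ a ∈ Bm, wm = 1 + ϖ * a)
    (hu : ∃ c ∈ B0, u = wp * wm + ϖ ^ k * c) :
    ∃ s : F, s ≠ 0 ∧ s ∈ L.Lp ∧ s ∈ L.Lm := by
  obtain ⟨s, hsLp, hsLm, hs1⟩ :=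
    exists_isOne_mem_of_trivial C L hT hk hfp h1p hfm h1m h hwp hwm hu
  exact ⟨s, isOne_ne_zero C hs1, hsLp, hsLm⟩

end Sep

/-! ### from coordinates `0` to a trivial cocycle -/

section Transport

variable {S : Type*} [CommRing S]
variable {Cp Cm C0 : Type*} [CommRing Cp] [CommRing Cm] [CommRing C0]
  [Algebra S Cp] [Algebra S Cm] [Algebra S C0]
variable {𝔪 : Ideal S} {ip : Cp →ₐ[S] C0} {im : Cm →ₐ[S] C0} {k : ℕ}
  {qp : Bp →+* Cp} {qm : Bm →+* Cm} {q0 : B0 →+* C0} {g : ℕ} {ε : Fin g → C0}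

/-- The lifting properties of the reduction maps `B_? → C_?` (think `C_? = B_? / ϖ^(k+1)`):
principal units of the two charts lift to principal units, and `ker q0 = ϖ^(k+1) B0`. -/
structure Lift (C : Charts ϖ Bp Bm B0 Rg) (𝔪 : Ideal S) (k : ℕ) (qp : Bp →+* Cp)
    (qm : Bm →+* Cm) (q0 : B0 →+* C0) : Prop where
  lift_p : ∀ w : Cp, w - 1 ∈ ext Cp 𝔪 → ∃ a : Bp, qp (1 + ⟨ϖ, C.mem_p⟩ * a) = w
  lift_m : ∀ w : Cm, w - 1 ∈ ext Cm 𝔪 → ∃ a : Bm, qm (1 + ⟨ϖ, C.mem_m⟩ * a) = w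
  ker_0 : ∀ b : B0, q0 b = 0 → ∃ c : B0, b = ⟨ϖ, C.mem_0⟩ ^ (k + 1) * c

/-- If `𝔪 = (ϖS)` is principal, `q` is surjective and `q ϖ = ϖS`, then principal units lift. -/
theorem lift_of_surjective {B : Subring F} {Cc : Type*} [CommRing Cc] [Algebra S Cc]
    (hϖ : ϖ ∈ B) (q : B →+* Cc) (hq : Function.Surjective q) {ϖS : S}
    (h𝔪 : 𝔪 = Ideal.span {ϖS}) (hqϖ : q ⟨ϖ, hϖ⟩ = algebraMap S Cc ϖS) :
    ∀ w : Cc, w - 1 ∈ ext Cc 𝔪 → ∃ a : B, q (1 + ⟨ϖ, hϖ⟩ * a) = w := by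
  intro w hw
  have hext : ext Cc 𝔪 = Ideal.span {algebraMap S Cc ϖS} := by
    unfold ext
    rw [h𝔪, Ideal.map_span, Set.image_singleton]
  rw [hext, Ideal.mem_span_singleton'] at hw
  obtain ⟨c, hc⟩ := hw
  obtain ⟨a, rfl⟩ := hq c
  refine ⟨a, ?_⟩
  rw [map_add, map_one, map_mul, hqϖ, mul_comm, hc]
  ring

variable (C : Charts ϖ Bp Bm B0 Rg)

/-- **Coordinates `0` ⟹ the cocycle is a product of principal units of the two charts modulo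
`ϖ^(k+1) B0`.** -/
theorem trivial_of_coord_eq_zero (T : Transport C 𝔪 ip im k qp qm q0)
    (Λ : Lift C 𝔪 k qp qm q0) (H : Hyp 𝔪 ip im ε) (L : Line ϖ Bp Bm B0 Rg) {fp fm u : F}
    (h1p : IsOne ϖ Rg fp) (h1m : IsOne ϖ Rg fm) (h : L.IsCocycle (k + 1) fp fm u)
    (hc : H.coord (q0 ⟨u, h.1⟩) = 0) :
    ∃ wp wm : F, (∃ a ∈ Bp, wp = 1 + ϖ * a) ∧ (∃ a ∈ Bm, wm = 1 + ϖ * a) ∧
      ∃ c ∈ B0, u = wp * wm + ϖ ^ (k + 1) * c := by
  have hu1 := Line.IsCocycle.isOne C L h1p h1m h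
  have hmem := T.q0_sub_one_mem h.1 hu1
  have hrel := H.coord_spec hmem
  rw [hc, beta_zero] at hrel
  obtain ⟨wp, wm, hwp, hwm, e⟩ := hrel
  obtain ⟨a, ha⟩ := Λ.lift_p wp hwp
  obtain ⟨b, hb⟩ := Λ.lift_m wm hwm
  rw [one_mul, ← ha, ← hb, T.compat_p, T.compat_m, ← map_mul] at e
  have hker : q0 (⟨u, h.1⟩ - ⟨_, C.p_le (1 + ⟨ϖ, C.mem_p⟩ * a).2⟩ *
      ⟨_, C.m_le (1 + ⟨ϖ, C.mem_m⟩ * b).2⟩) = 0 := by
    rw [map_sub, e, sub_self]
  obtain ⟨c, hc'⟩ := Λ.ker_0 _ hker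
  have hc'' : u - (1 + ϖ * (a : F)) * (1 + ϖ * (b : F)) = ϖ ^ (k + 1) * (c : F) :=
    congrArg Subtype.val hc'
  refine ⟨1 + ϖ * a, 1 + ϖ * b, ⟨a, a.2, rfl⟩, ⟨b, b.2, rfl⟩, c, c.2, ?_⟩
  linear_combination hc''

/-- **(C6), one level.**  If the `ϖ`-power torsion of `H¹` of the line bundle is killed by
`ϖ ^ n₀` and the Čech coordinates of its class vanish at ONE level `k + 1 > n₀`, the line bundle
has a global generator `s ∈ Lp ⊓ Lm`, `s ≡ 1`. -/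
theorem exists_isOne_mem_of_coord_eq_zero (T : Transport C 𝔪 ip im k qp qm q0)
    (Λ : Lift C 𝔪 k qp qm q0) (H : Hyp 𝔪 ip im ε) (L : Line ϖ Bp Bm B0 Rg) {n₀ : ℕ}
    (hT : BoundedTorsion L n₀) (hk : n₀ < k + 1) {fp fm u : F}
    (hfp : fp ∈ L.Lp) (h1p : IsOne ϖ Rg fp) (hfm : fm ∈ L.Lm) (h1m : IsOne ϖ Rg fm)
    (h : L.IsCocycle (k + 1) fp fm u) (hc : H.coord (q0 ⟨u, h.1⟩) = 0) :
    ∃ s ∈ L.Lp, s ∈ L.Lm ∧ IsOne ϖ Rg s := by
  obtain ⟨wp, wm, hwp, hwm, hu⟩ := trivial_of_coord_eq_zero C T Λ H L h1p h1m h hc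
  exact exists_isOne_mem_of_trivial C L hT hk hfp h1p hfm h1m h hwp hwm hu

theorem exists_ne_zero_mem_of_coord_eq_zero (T : Transport C 𝔪 ip im k qp qm q0)
    (Λ : Lift C 𝔪 k qp qm q0) (H : Hyp 𝔪 ip im ε) (L : Line ϖ Bp Bm B0 Rg) {n₀ : ℕ}
    (hT : BoundedTorsion L n₀) (hk : n₀ < k + 1) {fp fm u : F}
    (hfp : fp ∈ L.Lp) (h1p : IsOne ϖ Rg fp) (hfm : fm ∈ L.Lm) (h1m : IsOne ϖ Rg fm)
    (h : L.IsCocycle (k + 1) fp fm u) (hc : H.coord (q0 ⟨u, h.1⟩) = 0) :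
    ∃ s : F, s ≠ 0 ∧ s ∈ L.Lp ∧ s ∈ L.Lm := by
  obtain ⟨s, hsLp, hsLm, hs1⟩ :=
    exists_isOne_mem_of_coord_eq_zero C T Λ H L hT hk hfp h1p hfm h1m h hc
  exact ⟨s, isOne_ne_zero C hs1, hsLp, hsLm⟩

end Transport

/-! ### descent of "coordinates `0`" along an injective change of level -/

section Descent

variable {S : Type*} [CommRing S]
variable {Cp Cm C0 : Type*} [CommRing Cp] [CommRing Cm] [CommRing C0]
  [Algebra S Cp] [Algebra S Cm] [Algebra S C0]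
variable {𝔪 : Ideal S} {ip : Cp →ₐ[S] C0} {im : Cm →ₐ[S] C0} {g : ℕ} {ε : Fin g → C0}
variable {S' : Type*} [CommRing S']
variable {Cp' Cm' C0' : Type*} [CommRing Cp'] [CommRing Cm'] [CommRing C0']
  [Algebra S' Cp'] [Algebra S' Cm'] [Algebra S' C0']
variable {𝔪' : Ideal S'} {ip' : Cp' →ₐ[S'] C0'} {im' : Cm' →ₐ[S'] C0'} {ε' : Fin g → C0'}
variable {φ : S →+* S'} {ψp : Cp →+* Cp'} {ψm : Cm →+* Cm'} {ψ0 : C0 →+* C0'}

/-- If the coordinates vanish after an (on the base injective) change of level `S_L ↪ S_{L'}`, they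
vanish at the level `L`. -/
theorem coord_eq_zero_of_map (M : Morph 𝔪 ip im ε 𝔪' ip' im' ε' φ ψp ψm ψ0)
    (H : Hyp 𝔪 ip im ε) (H' : Hyp 𝔪' ip' im' ε') (hφ : Function.Injective φ) {u : C0}
    (hu : u - 1 ∈ ext C0 𝔪) (h : H'.coord (ψ0 u) = 0) : H.coord u = 0 := by
  rw [M.coord_map H H' hu] at h
  funext i
  have := congrFun h i
  simp only [Pi.zero_apply] at this ⊢
  exact hφ (by rw [this, map_zero])

/-- More generally the coordinates at the level `L` are determined by those at the level `L'`. -/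
theorem coord_eq_of_map (M : Morph 𝔪 ip im ε 𝔪' ip' im' ε' φ ψp ψm ψ0)
    (H : Hyp 𝔪 ip im ε) (H' : Hyp 𝔪' ip' im' ε') (hφ : Function.Injective φ) {u v : C0}
    (hu : u - 1 ∈ ext C0 𝔪) (hv : v - 1 ∈ ext C0 𝔪) (h : H'.coord (ψ0 u) = H'.coord (ψ0 v)) :
    H.coord u = H.coord v := by
  rw [M.coord_map H H' hu, M.coord_map H H' hv] at h
  funext i
  exact hφ (congrFun h i)

end Descent

end Fermat.Agent.S19.Cech.SepWire
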