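/-
S19 / Čech route, block CECH-3B (helper2): **finiteness of `H¹` of a pair of lattices on the two-chart
cover of the `j`-line, without dévissage**, and the Nakayama / valuation end of the separation
statement Č3.

* `exists_finset_le_sup` (B1, abstract Laurent lemma): `O`-submodules `Lp, Lm ≤ F` with `j·Lp ⊆ Lp`,
  `j⁻¹·Lm ⊆ Lm`, `Lp` spanned over `O` by the monomials `jⁿ e` (`e ∈ s` finite), `j^{-a e} e ∈ Lm`,
  and `L0` with `∀ x ∈ L0, ∃ t, j^t x ∈ Lp`:  `L0 ≤ Lp ⊔ Lm ⊔ span_O T` for a finite set `T`.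
* `h1FG` / `h1FG_of_le_sup` : hence `Separation.H1FG Lp Lm L0` (`O` noetherian);
  `bounded_torsion` : over a discrete valuation ring the `ϖ`-power torsion of `L0/(Lp+Lm)` is bounded
  (elementwise form); `finite_quotient` : `L0/(Lp+Lm)` is a finite `O`-module (`O` noetherian).
* `chart_exists_finset_le_sup`, `chart_h1FG`, `chart_boundedTorsion`, `chart_bounded_torsion` (B2):
  the same for a finitely generated module `Lp` over the chart `chartAlg O F {j}` of N4 and a module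
  `Lm` over `chartAlg O F {j⁻¹}` with `Lp ⊆ chartAlg O F {j, j⁻¹}·Lm`, `L0 = chartAlg O F {j, j⁻¹}·Lp`.
* `exists_sub_one_mem_and_smul_mem_span` (C, Nakayama): `L` f.g., `L ≤ B s + I L` ⟹ `∃ b ≡ 1 (I)`,
  `b L ⊆ B s`;  `exists_mul_eq_of_gen_mod` (D): hence `L ⊆ P·s` for every valuation ring `P` of `F`
  containing a local subring `R ⊇ B` in which `ϖ` is not a unit.
-/
import Mathlib
import Fermat.Agent.N4.Chart
import Fermat.Agent.N4.ChartFinite
import Fermat.Agent.N4.IntClosure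
import Fermat.Agent.N4.FormalFunctions
import Fermat.Agent.S19.Cech.Separation

set_option autoImplicit false
set_option linter.unusedSectionVars false

open Fermat.Agent.N4.Chart Fermat.Agent.N4.ChartFinite

namespace Fermat.Agent.S19.Cech.SheafFinite

/-! ### (B1) the abstract Laurent lemma -/

section Laurent

variable {O F : Type*} [CommRing O] [Field F] [Algebra O F]

/-- The finitely many "middle" Laurent monomials `j^{-k} e`, `k < A`, `e ∈ s`. -/
noncomputable def middle (j : F) (s : Finset F) (A : ℕ) : Finset F := by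
  classical
  exact (Finset.range A ×ˢ s).image (fun p : ℕ × F => (j⁻¹) ^ p.1 * p.2)

theorem mem_middle {j : F} {s : Finset F} {A k : ℕ} {e : F} (hk : k < A) (he : e ∈ s) :
    (j⁻¹) ^ k * e ∈ middle j s A := by
  classical
  unfold middle
  exact Finset.mem_image.mpr ⟨(k, e), Finset.mem_product.mpr ⟨Finset.mem_range.mpr hk, he⟩, rfl⟩

theorem pow_mul_mem {j : F} {L : Submodule O F} (h : ∀ x ∈ L, j * x ∈ L) (n : ℕ) {x : F}
    (hx : x ∈ L) : j ^ n * x ∈ L := by
  induction n with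
  | zero => simpa using hx
  | succ n ih =>
    rw [pow_succ', mul_assoc]
    exact h _ ih

variable (j : F) (hj : j ≠ 0) (Lp Lm : Submodule O F)
  (hjp : ∀ x ∈ Lp, j * x ∈ Lp) (hjm : ∀ x ∈ Lm, j⁻¹ * x ∈ Lm)
  (s : Finset F) (hs : ∀ e ∈ s, e ∈ Lp) (a : F → ℕ) (ha : ∀ e ∈ s, (j⁻¹) ^ a e * e ∈ Lm)
  (A : ℕ) (hA : ∀ e ∈ s, a e ≤ A)

include hj hjp hjm hs ha hA in
theorem inv_pow_mul_monomial_mem (n m : ℕ) {e : F} (he : e ∈ s) :
    (j⁻¹) ^ n * (j ^ m * e) ∈ Lp ⊔ Lm ⊔ Submodule.span O (middle j s A : Set F) := by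
  rcases le_or_gt n m with h | h
  · -- `= j^(m-n) e ∈ Lp`
    obtain ⟨d, rfl⟩ := Nat.exists_eq_add_of_le h
    have : (j⁻¹) ^ n * (j ^ (n + d) * e) = j ^ d * e := by
      rw [pow_add, inv_pow]
      field_simp
    rw [this]
    exact Submodule.mem_sup_left (Submodule.mem_sup_left (pow_mul_mem hjp d (hs e he)))
  · obtain ⟨d, rfl⟩ := Nat.exists_eq_add_of_le h.le
    have e1 : (j⁻¹) ^ (m + d) * (j ^ m * e) = (j⁻¹) ^ d * e := by
      rw [pow_add, inv_pow, inv_pow]
      field_simp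
    rw [e1]
    rcases le_or_gt (a e) d with h' | h'
    · obtain ⟨d', rfl⟩ := Nat.exists_eq_add_of_le h'
      have : (j⁻¹) ^ (a e + d') * e = (j⁻¹) ^ d' * ((j⁻¹) ^ a e * e) := by
        rw [pow_add]; ring
      rw [this]
      exact Submodule.mem_sup_left (Submodule.mem_sup_right (pow_mul_mem hjm d' (ha e he)))
    · exact Submodule.mem_sup_right
        (Submodule.subset_span (mem_middle (lt_of_lt_of_le h' (hA e he)) he))

include hj hjp hjm hs ha hA in
theorem inv_pow_mul_mem_of_mem_span (n : ℕ) {x : F}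
    (hx : x ∈ Submodule.span O (monomials j s)) :
    (j⁻¹) ^ n * x ∈ Lp ⊔ Lm ⊔ Submodule.span O (middle j s A : Set F) := by
  induction hx using Submodule.span_induction with
  | mem y hy =>
    obtain ⟨m, e, he, rfl⟩ := hy
    exact inv_pow_mul_monomial_mem j hj Lp Lm hjp hjm s hs a ha A hA n m he
  | zero => simp
  | add x y _ _ hx hy => rw [mul_add]; exact add_mem hx hy
  | smul c x _ hx => rw [mul_smul_comm]; exact Submodule.smul_mem _ c hx

/-- **(B1) abstract Laurent lemma.**  `L0 ≤ Lp + Lm + span_O T` with `T` finite. -/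
theorem exists_finset_le_sup (j : F) (hj : j ≠ 0) (Lp Lm L0 : Submodule O F)
    (hjp : ∀ x ∈ Lp, j * x ∈ Lp) (hjm : ∀ x ∈ Lm, j⁻¹ * x ∈ Lm)
    (s : Finset F) (hs : ∀ e ∈ s, e ∈ Lp) (hspan : Lp ≤ Submodule.span O (monomials j s))
    (ha : ∀ e ∈ s, ∃ a : ℕ, (j⁻¹) ^ a * e ∈ Lm)
    (h0 : ∀ x ∈ L0, ∃ t : ℕ, j ^ t * x ∈ Lp) :
    ∃ T : Finset F, L0 ≤ Lp ⊔ Lm ⊔ Submodule.span O (T : Set F) := by
  classical
  choose! a ha using ha
  refine ⟨middle j s (s.sup a), fun x hx => ?_⟩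
  obtain ⟨t, ht⟩ := h0 x hx
  have key := inv_pow_mul_mem_of_mem_span j hj Lp Lm hjp hjm s hs a ha (s.sup a)
    (fun e he => Finset.le_sup (f := a) he) t (hspan ht)
  have : (j⁻¹) ^ t * (j ^ t * x) = x := by
    rw [inv_pow]; field_simp
  rwa [this] at key

/-- `(Lp + Lm + span T)/(Lp + Lm)` is a finitely generated module. -/
theorem finite_sup_span_quotient (Lp Lm : Submodule O F) (T : Finset F) :
    Module.Finite O ((Lp ⊔ Lm ⊔ Submodule.span O (T : Set F) : Submodule O F) ⧸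
      (Lp ⊔ Lm).comap (Lp ⊔ Lm ⊔ Submodule.span O (T : Set F)).subtype) := by
  classical
  set P : Submodule O F := Lp ⊔ Lm ⊔ Submodule.span O (T : Set F) with hP
  set Q : Submodule O P := (Lp ⊔ Lm).comap P.subtype with hQ
  have hT' : ∀ e ∈ T, e ∈ P := fun e he =>
    Submodule.mem_sup_right (Submodule.subset_span he)
  let T' : Finset P := T.attach.image (fun e => ⟨e.1, hT' e.1 e.2⟩)
  refine ⟨⟨T'.image Q.mkQ, ?_⟩⟩
  rw [Finset.coe_image, ← Submodule.map_span, eq_top_iff]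
  rintro y -
  obtain ⟨x, rfl⟩ := Q.mkQ_surjective y
  obtain ⟨x, hxP⟩ := x
  obtain ⟨u, hu, v, hv, rfl⟩ := Submodule.mem_sup.mp hxP
  have hvmem : (⟨v, Submodule.mem_sup_right hv⟩ : P) ∈ Submodule.span O (T' : Set P) := by
    have : ∀ w (hw : w ∈ Submodule.span O (T : Set F)),
        (⟨w, Submodule.mem_sup_right hw⟩ : P) ∈ Submodule.span O (T' : Set P) := by
      intro w hw
      induction hw using Submodule.span_induction with
      | mem y hy =>
        refine Submodule.subset_span ?_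
        rw [Finset.mem_coe, Finset.mem_image]
        exact ⟨⟨y, hy⟩, Finset.mem_attach _ _, rfl⟩
      | zero => exact Submodule.zero_mem _
      | add x y hx hy ihx ihy => exact Submodule.add_mem _ ihx ihy
      | smul c x hx ihx => exact Submodule.smul_mem _ c ihx
    exact this v hv
  have hsplit : (⟨u + v, hxP⟩ : P) =
      (⟨u, Submodule.mem_sup_left hu⟩ : P) + ⟨v, Submodule.mem_sup_right hv⟩ := rfl
  rw [hsplit, map_add]
  have hu0 : Q.mkQ (⟨u, Submodule.mem_sup_left hu⟩ : P) = 0 := by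
    rw [Submodule.mkQ_apply, Submodule.Quotient.mk_eq_zero]
    exact hu
  rw [hu0, zero_add]
  exact Submodule.mem_map_of_mem hvmem

/-- Elementwise bounded torsion of `(Lp + Lm + span T)/(Lp + Lm)` over a discrete valuation ring. -/
theorem bounded_torsion_of_le_sup [IsDomain O] [IsDiscreteValuationRing O] (ϖ : O)
    (Lp Lm L0 : Submodule O F) (T : Finset F)
    (hT : L0 ≤ Lp ⊔ Lm ⊔ Submodule.span O (T : Set F)) :
    ∃ c : ℕ, ∀ (n : ℕ) (z : F), z ∈ L0 → ϖ ^ n • z ∈ Lp ⊔ Lm → ϖ ^ c • z ∈ Lp ⊔ Lm := by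
  classical
  set P : Submodule O F := Lp ⊔ Lm ⊔ Submodule.span O (T : Set F) with hP
  set Q : Submodule O P := (Lp ⊔ Lm).comap P.subtype with hQ
  have hfin : Module.Finite O (P ⧸ Q) := finite_sup_span_quotient Lp Lm T
  obtain ⟨c, hc⟩ := Fermat.Agent.N4.FormalFunctions.exists_pow_smul_eq_zero_of_finite
    (O := O) (M := P ⧸ Q) ϖ
  refine ⟨c, fun n z hz hn => ?_⟩
  have hzP : z ∈ P := hT hz
  have h1 : ϖ ^ n • (Q.mkQ ⟨z, hzP⟩) = 0 := by
    rw [← map_smul, Submodule.mkQ_apply, Submodule.Quotient.mk_eq_zero]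
    exact hn
  have h2 := hc n _ h1
  rw [← map_smul, Submodule.mkQ_apply, Submodule.Quotient.mk_eq_zero] at h2
  exact h2

/-- `L0/(Lp + Lm)` is a finite module over a noetherian ring when `L0 ≤ Lp + Lm + span T`. -/
theorem finite_quotient_of_le_sup [IsNoetherianRing O]
    (Lp Lm L0 : Submodule O F) (T : Finset F)
    (hT : L0 ≤ Lp ⊔ Lm ⊔ Submodule.span O (T : Set F)) :
    Module.Finite O (L0 ⧸ (Lp ⊔ Lm).comap L0.subtype) := by
  classical
  set P : Submodule O F := Lp ⊔ Lm ⊔ Submodule.span O (T : Set F) with hP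
  set Q : Submodule O P := (Lp ⊔ Lm).comap P.subtype with hQ
  have hfin : Module.Finite O (P ⧸ Q) := finite_sup_span_quotient Lp Lm T
  have : IsNoetherian O (P ⧸ Q) := isNoetherian_of_isNoetherianRing_of_finite O _
  let ι : L0 →ₗ[O] P := Submodule.inclusion hT
  let f : (L0 ⧸ (Lp ⊔ Lm).comap L0.subtype) →ₗ[O] (P ⧸ Q) :=
    Submodule.mapQ _ Q ι (by
      intro x hx
      exact hx)
  refine Module.Finite.of_injective f ?_
  rw [← LinearMap.ker_eq_bot, eq_bot_iff]
  intro y hy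
  obtain ⟨x, rfl⟩ := Submodule.mkQ_surjective _ y
  rw [LinearMap.mem_ker, Submodule.mkQ_apply] at hy
  have hy' : Q.mkQ (ι x) = 0 := hy
  rw [Submodule.mkQ_apply, Submodule.Quotient.mk_eq_zero] at hy'
  rw [Submodule.mem_bot, Submodule.mkQ_apply, Submodule.Quotient.mk_eq_zero]
  exact hy'

/-- **(B1), torsion form.** -/
theorem bounded_torsion [IsDomain O] [IsDiscreteValuationRing O] (ϖ : O)
    (j : F) (hj : j ≠ 0) (Lp Lm L0 : Submodule O F)
    (hjp : ∀ x ∈ Lp, j * x ∈ Lp) (hjm : ∀ x ∈ Lm, j⁻¹ * x ∈ Lm)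
    (s : Finset F) (hs : ∀ e ∈ s, e ∈ Lp) (hspan : Lp ≤ Submodule.span O (monomials j s))
    (ha : ∀ e ∈ s, ∃ a : ℕ, (j⁻¹) ^ a * e ∈ Lm)
    (h0 : ∀ x ∈ L0, ∃ t : ℕ, j ^ t * x ∈ Lp) :
    ∃ c : ℕ, ∀ (n : ℕ) (z : F), z ∈ L0 → ϖ ^ n • z ∈ Lp ⊔ Lm → ϖ ^ c • z ∈ Lp ⊔ Lm := by
  obtain ⟨T, hT⟩ := exists_finset_le_sup j hj Lp Lm L0 hjp hjm s hs hspan ha h0
  exact bounded_torsion_of_le_sup ϖ Lp Lm L0 T hT

/-- **(B1), finiteness form**: `H¹ = L0/(Lp + Lm)` is a finite `O`-module. -/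
theorem finite_quotient [IsNoetherianRing O]
    (j : F) (hj : j ≠ 0) (Lp Lm L0 : Submodule O F)
    (hjp : ∀ x ∈ Lp, j * x ∈ Lp) (hjm : ∀ x ∈ Lm, j⁻¹ * x ∈ Lm)
    (s : Finset F) (hs : ∀ e ∈ s, e ∈ Lp) (hspan : Lp ≤ Submodule.span O (monomials j s))
    (ha : ∀ e ∈ s, ∃ a : ℕ, (j⁻¹) ^ a * e ∈ Lm)
    (h0 : ∀ x ∈ L0, ∃ t : ℕ, j ^ t * x ∈ Lp) :
    Module.Finite O (L0 ⧸ (Lp ⊔ Lm).comap L0.subtype) := by
  obtain ⟨T, hT⟩ := exists_finset_le_sup j hj Lp Lm L0 hjp hjm s hs hspan ha h0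
  exact finite_quotient_of_le_sup Lp Lm L0 T hT

/-- `H1FG` (in the vocabulary of `Separation.lean`) from `L0 ≤ Lp + Lm + span T`. -/
theorem h1FG_of_le_sup [IsNoetherianRing O] (Lp Lm L0 : Submodule O F) (T : Finset F)
    (hT : L0 ≤ Lp ⊔ Lm ⊔ Submodule.span O (T : Set F)) :
    Fermat.Agent.S19.Cech.Separation.H1FG Lp Lm L0 := by
  unfold Fermat.Agent.S19.Cech.Separation.H1FG
  set q := (Lp ⊔ Lm).mkQ with hq
  have h1 : L0.map q ≤ (Submodule.span O (T : Set F)).map q := by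
    calc L0.map q ≤ (Lp ⊔ Lm ⊔ Submodule.span O (T : Set F)).map q := Submodule.map_mono hT
      _ = (Submodule.span O (T : Set F)).map q := by
        rw [Submodule.map_sup, hq, Submodule.mkQ_map_self, bot_sup_eq]
  have h2 : ((Submodule.span O (T : Set F)).map q).FG :=
    (Submodule.fg_span (Finset.finite_toSet T)).map q
  have : IsNoetherian O ↥((Submodule.span O (T : Set F)).map q) :=
    isNoetherian_of_fg_of_noetherian _ h2
  have h3 : ((L0.map q).comap ((Submodule.span O (T : Set F)).map q).subtype).FG :=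
    IsNoetherian.noetherian _
  have h4 := h3.map ((Submodule.span O (T : Set F)).map q).subtype
  rwa [Submodule.map_comap_subtype, inf_eq_right.mpr h1] at h4

/-- **(B1), `H1FG` form** (the hypothesis of `Separation.exists_boundedTorsion_of_h1FG` and
`SeparationApprox.exists_forall_global_approx`). -/
theorem h1FG [IsNoetherianRing O]
    (j : F) (hj : j ≠ 0) (Lp Lm L0 : Submodule O F)
    (hjp : ∀ x ∈ Lp, j * x ∈ Lp) (hjm : ∀ x ∈ Lm, j⁻¹ * x ∈ Lm)
    (s : Finset F) (hs : ∀ e ∈ s, e ∈ Lp) (hspan : Lp ≤ Submodule.span O (monomials j s))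
    (ha : ∀ e ∈ s, ∃ a : ℕ, (j⁻¹) ^ a * e ∈ Lm)
    (h0 : ∀ x ∈ L0, ∃ t : ℕ, j ^ t * x ∈ Lp) :
    Fermat.Agent.S19.Cech.Separation.H1FG Lp Lm L0 := by
  obtain ⟨T, hT⟩ := exists_finset_le_sup j hj Lp Lm L0 hjp hjm s hs hspan ha h0
  exact h1FG_of_le_sup Lp Lm L0 T hT

end Laurent

/-! ### (B2) the chart form -/

section Chart

variable {O F : Type*} [CommRing O] [Field F] [Algebra O F]

/-- An element of the span of `L` over the localised chart is carried into `L` by a power of `s`. -/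
theorem exists_pow_mul_mem_of_mem_span {S S' : Set F} {s : F} (hs : s ∈ S) (hs0 : s ≠ 0)
    (hS' : S' = insert s⁻¹ S) (L : Submodule (chartAlg O F S) F) {x : F}
    (hx : x ∈ Submodule.span (chartAlg O F S') (L : Set F)) : ∃ n : ℕ, s ^ n * x ∈ L := by
  subst hS'
  have hsmem : ∀ (k : ℕ) {z : F}, z ∈ L → s ^ k * z ∈ L := by
    intro k z hz
    have : s ^ k * z = (⟨s, subset_chartAlg S hs⟩ ^ k : chartAlg O F S) • z := by
      rw [Subalgebra.smul_def]; rfl
    rw [this]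
    exact L.smul_mem _ hz
  induction hx using Submodule.span_induction with
  | mem y hy => exact ⟨0, by simpa using hy⟩
  | zero => exact ⟨0, by simp⟩
  | add x y _ _ hx hy =>
    obtain ⟨n, hn⟩ := hx
    obtain ⟨m, hm⟩ := hy
    refine ⟨n + m, ?_⟩
    have : s ^ (n + m) * (x + y) = s ^ m * (s ^ n * x) + s ^ n * (s ^ m * y) := by ring
    rw [this]
    exact L.add_mem (hsmem m hn) (hsmem n hm)
  | smul b x _ hx =>
    obtain ⟨n, hn⟩ := hx
    obtain ⟨m, hm⟩ := exists_pow_mul_mem_chartAlg (O := O) hs hs0 b.2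
    refine ⟨m + n, ?_⟩
    have : s ^ (m + n) * (b • x) = (⟨s ^ m * (b : F), hm⟩ : chartAlg O F S) • (s ^ n * x) := by
      rw [Subalgebra.smul_def, Subalgebra.smul_def]
      simp only [smul_eq_mul]
      ring
    rw [this]
    exact L.smul_mem _ hn

/-- `c * e` is an `O`-combination of monomials for `c ∈ O[j]`. -/
theorem adjoin_mul_mem_span_monomials (j : F) (s : Finset F) {c e : F}
    (hc : c ∈ Algebra.adjoin O {j}) (he : e ∈ s) :
    c * e ∈ Submodule.span O (monomials j s) := by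
  rw [Algebra.adjoin_singleton_eq_range_aeval] at hc
  obtain ⟨P, hP⟩ := hc
  rw [← hP]
  show Polynomial.aeval j P * e ∈ _
  rw [Polynomial.aeval_eq_sum_range, Finset.sum_mul]
  refine Submodule.sum_mem _ fun k _ => ?_
  rw [smul_mul_assoc]
  exact Submodule.smul_mem _ _ (Submodule.subset_span ⟨k, e, he, rfl⟩)

end Chart

section ChartMain

open IntermediateField

variable {O K F : Type*} [CommRing O] [IsDomain O] [Field K] [Algebra O K] [IsFractionRing O K]
  [Field F] [Algebra K F] [Algebra O F] [IsScalarTower O K F] (j : F)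

/-- A finitely generated module over the chart `chartAlg O F {j}` is spanned over `O` by the
monomials `jⁿ e`, `e` in a finite subset of it. -/
theorem exists_finset_span_monomials [IsIntegrallyClosed O] [IsNoetherianRing O] [CharZero K]
    (hj : Transcendental K j) [FiniteDimensional K⟮j⟯ F]
    (Lp : Submodule (chartAlg O F {j}) F) (hLp : Lp.FG) :
    ∃ s : Finset F, (∀ e ∈ s, e ∈ Lp) ∧ ∀ x ∈ Lp, x ∈ Submodule.span O (monomials j s) := by
  classical
  obtain ⟨s₀, hs₀, hspan₀⟩ :=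
    Fermat.Agent.N4.IntClosure.exists_finset_span_chartAlg (O := O) (K := K) j hj
  obtain ⟨G, hG⟩ := hLp
  have hGL : ∀ g ∈ G, g ∈ Lp := fun g hg => hG ▸ Submodule.subset_span hg
  refine ⟨(s₀ ×ˢ G).image (fun p : F × F => p.1 * p.2), ?_, ?_⟩
  · intro e he
    obtain ⟨⟨e₀, g⟩, hp, rfl⟩ := Finset.mem_image.mp he
    obtain ⟨he₀, hg⟩ := Finset.mem_product.mp hp
    have : e₀ * g = (⟨e₀, hs₀ e₀ he₀⟩ : chartAlg O F {j}) • g := by
      rw [Subalgebra.smul_def]; rfl
    simp only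
    rw [this]
    exact Lp.smul_mem _ (hGL g hg)
  · intro x hx
    rw [← hG, Submodule.mem_span_finset] at hx
    obtain ⟨f, -, rfl⟩ := hx
    refine Submodule.sum_mem _ fun g hg => ?_
    obtain ⟨c, hc, hfc⟩ := hspan₀ (f g : F) (f g).2
    have : f g • g = ∑ e ∈ s₀, c e * (e * g) := by
      rw [Subalgebra.smul_def, smul_eq_mul, hfc, Finset.sum_mul]
      exact Finset.sum_congr rfl fun e _ => by ring
    rw [this]
    refine Submodule.sum_mem _ fun e he => ?_
    exact adjoin_mul_mem_span_monomials j _ (hc e)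
      (Finset.mem_image.mpr ⟨(e, g), Finset.mem_product.mpr ⟨he, hg⟩, rfl⟩)

/-- **(B2).**  `Lp` a finitely generated module over `chartAlg O F {j}`, `Lm` a module over
`chartAlg O F {j⁻¹}`, `Lp` contained in the span of `Lm` over the overlap chart
`chartAlg O F {j, j⁻¹}`, and `L0` = the span of `Lp` over the overlap chart:
`L0 ≤ Lp + Lm + span_O T` with `T` finite. -/
theorem chart_exists_finset_le_sup [IsIntegrallyClosed O] [IsNoetherianRing O] [CharZero K]
    (hj : Transcendental K j) [FiniteDimensional K⟮j⟯ F]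
    (Lp : Submodule (chartAlg O F {j}) F) (hLp : Lp.FG)
    (Lm : Submodule (chartAlg O F {j⁻¹}) F)
    (hle : (Lp : Set F) ⊆ Submodule.span (chartAlg O F {j, j⁻¹}) (Lm : Set F)) :
    ∃ T : Finset F,
      (Submodule.span (chartAlg O F {j, j⁻¹}) (Lp : Set F)).restrictScalars O ≤
        Lp.restrictScalars O ⊔ Lm.restrictScalars O ⊔ Submodule.span O (T : Set F) := by
  classical
  have hj0 : j ≠ 0 := fun h0 => hj (h0 ▸ isAlgebraic_zero)
  obtain ⟨s, hs, hspan⟩ := exists_finset_span_monomials (K := K) j hj Lp hLp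
  have hjp : ∀ x ∈ Lp.restrictScalars O, j * x ∈ Lp.restrictScalars O := by
    intro x hx
    have : j * x = (⟨j, subset_chartAlg _ (Set.mem_singleton _)⟩ : chartAlg O F {j}) • x := by
      rw [Subalgebra.smul_def]; rfl
    rw [this]
    exact Lp.smul_mem _ hx
  have hjm : ∀ x ∈ Lm.restrictScalars O, j⁻¹ * x ∈ Lm.restrictScalars O := by
    intro x hx
    have : j⁻¹ * x =
        (⟨j⁻¹, subset_chartAlg _ (Set.mem_singleton _)⟩ : chartAlg O F {j⁻¹}) • x := by
      rw [Subalgebra.smul_def]; rfl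
    rw [this]
    exact Lm.smul_mem _ hx
  have ha : ∀ e ∈ s, ∃ a : ℕ, (j⁻¹) ^ a * e ∈ Lm.restrictScalars O := by
    intro e he
    exact exists_pow_mul_mem_of_mem_span (O := O) (S := {j⁻¹}) (S' := {j, j⁻¹}) (s := j⁻¹)
      (Set.mem_singleton _) (inv_ne_zero hj0) (by rw [inv_inv]) Lm (hle (hs e he))
  have h0 : ∀ x ∈ (Submodule.span (chartAlg O F {j, j⁻¹}) (Lp : Set F)).restrictScalars O,
      ∃ t : ℕ, j ^ t * x ∈ Lp.restrictScalars O := by
    intro x hx
    exact exists_pow_mul_mem_of_mem_span (O := O) (S := {j}) (S' := {j, j⁻¹}) (s := j)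
      (Set.mem_singleton _) hj0 (Set.pair_comm _ _) Lp hx
  exact exists_finset_le_sup j hj0 (Lp.restrictScalars O) (Lm.restrictScalars O)
    ((Submodule.span (chartAlg O F {j, j⁻¹}) (Lp : Set F)).restrictScalars O) hjp hjm s hs
    (fun x hx => hspan x hx) ha h0

/-- **(B2), `H1FG` form.** -/
theorem chart_h1FG [IsIntegrallyClosed O] [IsNoetherianRing O] [CharZero K]
    (hj : Transcendental K j) [FiniteDimensional K⟮j⟯ F]
    (Lp : Submodule (chartAlg O F {j}) F) (hLp : Lp.FG)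
    (Lm : Submodule (chartAlg O F {j⁻¹}) F)
    (hle : (Lp : Set F) ⊆ Submodule.span (chartAlg O F {j, j⁻¹}) (Lm : Set F)) :
    Fermat.Agent.S19.Cech.Separation.H1FG (Lp.restrictScalars O) (Lm.restrictScalars O)
      ((Submodule.span (chartAlg O F {j, j⁻¹}) (Lp : Set F)).restrictScalars O) := by
  obtain ⟨T, hT⟩ := chart_exists_finset_le_sup (K := K) j hj Lp hLp Lm hle
  exact h1FG_of_le_sup _ _ _ T hT

/-- **(B2), `BoundedTorsion` form.** -/
theorem chart_boundedTorsion [IsIntegrallyClosed O] [IsNoetherianRing O] [CharZero K] (ϖ : O)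
    (hj : Transcendental K j) [FiniteDimensional K⟮j⟯ F]
    (Lp : Submodule (chartAlg O F {j}) F) (hLp : Lp.FG)
    (Lm : Submodule (chartAlg O F {j⁻¹}) F)
    (hle : (Lp : Set F) ⊆ Submodule.span (chartAlg O F {j, j⁻¹}) (Lm : Set F)) :
    ∃ n₀ : ℕ, Fermat.Agent.S19.Cech.Separation.BoundedTorsion ϖ
      ((Submodule.span (chartAlg O F {j, j⁻¹}) (Lp : Set F)).restrictScalars O)
      (Lp.restrictScalars O ⊔ Lm.restrictScalars O) n₀ :=
  Fermat.Agent.S19.Cech.Separation.exists_boundedTorsion_of_h1FG ϖ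
    (chart_h1FG (K := K) j hj Lp hLp Lm hle)

/-- **(B2), elementwise torsion form.** -/
theorem chart_bounded_torsion [IsIntegrallyClosed O] [IsNoetherianRing O] [CharZero K] (ϖ : O)
    (hj : Transcendental K j) [FiniteDimensional K⟮j⟯ F]
    (Lp : Submodule (chartAlg O F {j}) F) (hLp : Lp.FG)
    (Lm : Submodule (chartAlg O F {j⁻¹}) F)
    (hle : (Lp : Set F) ⊆ Submodule.span (chartAlg O F {j, j⁻¹}) (Lm : Set F)) :
    ∃ c : ℕ, ∀ (n : ℕ) (z : F), z ∈ Submodule.span (chartAlg O F {j, j⁻¹}) (Lp : Set F) →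
      (∃ x ∈ Lp, ∃ y ∈ Lm, ϖ ^ n • z = x + y) → ∃ x ∈ Lp, ∃ y ∈ Lm, ϖ ^ c • z = x + y := by
  obtain ⟨c, hc⟩ := chart_boundedTorsion (K := K) j ϖ hj Lp hLp Lm hle
  refine ⟨c, fun n z hz hn => ?_⟩
  obtain ⟨x, hx, y, hy, hxy⟩ := hn
  have := hc n z hz (by
    rw [hxy]
    exact Submodule.add_mem _ (Submodule.mem_sup_left hx) (Submodule.mem_sup_right hy))
  obtain ⟨x', hx', y', hy', h'⟩ := Submodule.mem_sup.mp this
  exact ⟨x', hx', y', hy', h'.symm⟩

end ChartMain

/-! ### (C) Nakayama, (D) the valuation end -/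

section Nakayama

variable {B M : Type*} [CommRing B] [AddCommGroup M] [Module B M]

/-- **(C) Nakayama.**  If the finitely generated module `L` is generated by `s` modulo `I·L`, there
is `b ≡ 1 (I)` with `b·L ⊆ B·s`. -/
theorem exists_sub_one_mem_and_smul_mem_span (I : Ideal B) (L : Submodule B M) (hL : L.FG) (s : M)
    (hgen : L ≤ Submodule.span B {s} ⊔ I • L) :
    ∃ b : B, b - 1 ∈ I ∧ ∀ x ∈ L, b • x ∈ Submodule.span B {s} := by
  set q := (Submodule.span B ({s} : Set M)).mkQ with hq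
  set N : Submodule B (M ⧸ Submodule.span B ({s} : Set M)) := L.map q with hN
  have hNfg : N.FG := hL.map q
  have hle : N ≤ I • N := by
    rw [hN, ← Submodule.map_smul'']
    intro y hy
    obtain ⟨x, hx, rfl⟩ := hy
    obtain ⟨u, hu, v, hv, rfl⟩ := Submodule.mem_sup.mp (hgen hx)
    rw [map_add]
    have : q u = 0 := by
      rw [hq, Submodule.mkQ_apply, Submodule.Quotient.mk_eq_zero]
      exact hu
    rw [this, zero_add]
    exact Submodule.mem_map_of_mem hv
  obtain ⟨b, hb1, hb⟩ :=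
    Submodule.exists_sub_one_mem_and_smul_eq_zero_of_fg_of_le_smul I N hNfg hle
  refine ⟨b, hb1, fun x hx => ?_⟩
  have := hb (q x) (Submodule.mem_map_of_mem hx)
  rwa [← map_smul, hq, Submodule.mkQ_apply, Submodule.Quotient.mk_eq_zero] at this

end Nakayama

section Valuation

variable {O F : Type*} [CommRing O] [Field F] [Algebra O F]

/-- **(D).**  `B` a subalgebra of the field `F`, `L ≤ F` a finitely generated `B`-module generated by
`s` modulo `ϖ·L`.  If `R ⊆ F` is a local subring containing `B` in which `ϖ` is not a unit and `P` a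
valuation ring of `F` containing `R`, then `L ⊆ P·s`. -/
theorem exists_mul_eq_of_gen_mod (B : Subalgebra O F) (ϖ : O) (L : Submodule B F) (hL : L.FG)
    (s : F) (hgen : ∀ x ∈ L, ∃ b : B, ∃ y ∈ L, x = b • s + ϖ • y)
    (R : Subring F) [IsLocalRing R] (hBR : ∀ b ∈ B, b ∈ R)
    (hϖ : ∀ h : algebraMap O F ϖ ∈ R, (⟨algebraMap O F ϖ, h⟩ : R) ∈ IsLocalRing.maximalIdeal R)
    (P : ValuationSubring F) (hRP : ∀ r ∈ R, r ∈ P) :
    ∀ x ∈ L, ∃ c ∈ P, x = c * s := by
  have hgen' : L ≤ Submodule.span B {s} ⊔ Ideal.span {algebraMap O B ϖ} • L := by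
    intro x hx
    obtain ⟨b, y, hy, rfl⟩ := hgen x hx
    refine Submodule.add_mem _ (Submodule.mem_sup_left
      (Submodule.smul_mem _ b (Submodule.subset_span rfl))) (Submodule.mem_sup_right ?_)
    have : ϖ • y = algebraMap O B ϖ • y := by
      rw [algebraMap_smul]
    rw [this]
    exact Submodule.smul_mem_smul (Ideal.subset_span rfl) hy
  obtain ⟨b, hb1, hb⟩ := exists_sub_one_mem_and_smul_mem_span _ L hL s hgen'
  obtain ⟨b', hb'⟩ := Ideal.mem_span_singleton'.mp hb1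
  -- `b` is a unit of `R`
  have hϖR : algebraMap O F ϖ ∈ R := hBR _ (B.algebraMap_mem ϖ)
  have hbR : (b : F) ∈ R := hBR _ b.2
  have hb'R : (b' : F) ∈ R := hBR _ b'.2
  have hunit : IsUnit (⟨(b : F), hbR⟩ : R) := by
    have h1 : (⟨(b : F), hbR⟩ : R) = 1 + ⟨(b' : F), hb'R⟩ * ⟨algebraMap O F ϖ, hϖR⟩ := by
      apply Subtype.ext
      have := congrArg (fun z : B => (z : F)) hb'
      simp only [Subalgebra.coe_mul, Subalgebra.coe_sub, Subalgebra.coe_one,
        Subalgebra.coe_algebraMap] at this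
      push_cast
      linear_combination -this
    rw [h1]
    by_contra hnu
    have hmem : (1 + ⟨(b' : F), hb'R⟩ * ⟨algebraMap O F ϖ, hϖR⟩ : R) ∈
        IsLocalRing.maximalIdeal R := (IsLocalRing.mem_maximalIdeal _).mpr hnu
    have h2 : (⟨(b' : F), hb'R⟩ * ⟨algebraMap O F ϖ, hϖR⟩ : R) ∈ IsLocalRing.maximalIdeal R :=
      Ideal.mul_mem_left _ _ (hϖ hϖR)
    have h3 : (1 : R) ∈ IsLocalRing.maximalIdeal R := by
      have := Ideal.sub_mem _ hmem h2
      simp at this
    exact (IsLocalRing.maximalIdeal.isMaximal R).ne_top ((Ideal.eq_top_iff_one _).mpr h3)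
  obtain ⟨⟨u, v, huv, hvu⟩, hu⟩ := hunit
  have hu' : (u : F) = b := congrArg Subtype.val hu
  have hbv : (b : F) * (v : F) = 1 := by
    have := congrArg Subtype.val huv
    simpa [hu'] using this
  intro x hx
  obtain ⟨a, ha⟩ := Submodule.mem_span_singleton.mp (hb x hx)
  refine ⟨(v : F) * (a : F), P.mul_mem _ _ (hRP _ v.2) (hRP _ (hBR _ a.2)), ?_⟩
  have h4 : (a : F) * s = (b : F) * x := by
    have := ha
    rw [Subalgebra.smul_def, Subalgebra.smul_def] at this
    simpa using this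
  calc x = ((b : F) * (v : F)) * x := by rw [hbv, one_mul]
    _ = (v : F) * ((b : F) * x) := by ring
    _ = (v : F) * (a : F) * s := by rw [← h4]; ring

end Valuation

end Fermat.Agent.S19.Cech.SheafFinite
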