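/-
S19 / Čech-units route, leaf **[SEPW]** of the DAG v1, part 2 (helper5): the separation axiom (C6)
AT ONE LEVEL `(K, O)` for the divisorial chart modules `ℒ_?(D)` of `DivModule.lean` (helper18).

Setting of `DivModule.lean` / `SheafFinite.lean`: `O` a noetherian integrally closed domain with
fraction field `K` of characteristic `0`, `F / K` a function field, `j ∈ F` transcendental with
`F / K(j)` finite, `W` a Gauss ring for the charts of the `j`-line (`GaussRing j W`),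
`D : Divisor K F`.

* `h1FG`, `exists_boundedTorsion` : **[FIN]** for the divisorial modules:
  `H¹(D) = ℒ₀(D)/(ℒ₊(D) + ℒ₋(D))` is a finitely generated `O`-module and its `ϖ`-power torsion is
  killed by one power `ϖ ^ n₀` (`SheafFinite.chart_h1FG` + `DivModule` (G2), (G3)).
* `exists_lineBoundedTorsion` : the same in the vocabulary of a `Cocycle.Line` with the carriers
  `ℒ₊(D), ℒ₋(D), ℒ₀(D)` (the `lineOf D` of [GEN]).
* `isPrincipal_of_compatible` : a compatible pair modulo `ϖ ^ k`, `k > n₀`, with `+`-component `≡ 1`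
  ⟹ `D` principal (for `deg D = 0`).
* `isPrincipal_of_trivial` : a cocycle of the line bundle which is trivial modulo `ϖ ^ k` for ONE
  `k > n₀` ⟹ `D` principal.
* `isPrincipal_of_coord_eq_zero` : **(C6) at one level**: all Čech coordinates of the class of `D`
  vanish at ONE level `k + 1 > n₀` ⟹ `D` principal.
-/
import Fermat.Agent.S19.Cech.SepWire
import Fermat.Agent.S19.Cech.DivModule
import Fermat.Agent.S19.Cech.SheafFinite

set_option autoImplicit false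
set_option linter.unusedSectionVars false

open AlgebraicCurve IntermediateField
open Fermat.Agent.N4.Chart
open Fermat.Agent.S19.Cech Fermat.Agent.S19.Cech.Cocycle Fermat.Agent.S19.Cech.DivModule

namespace Fermat.Agent.S19.Cech.SepWireDiv

variable {O K F : Type*} [CommRing O] [IsDomain O] [Field K] [Algebra O K] [IsFractionRing O K]
  [Field F] [Algebra K F] [Algebra O F] [IsScalarTower O K F] [CharZero K]
  {j : F} {W : Subalgebra O F} (h : GaussRing j W) (D : Divisor K F)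
  [IsIntegrallyClosed O] [IsNoetherianRing O] (hj : Transcendental K j) [FiniteDimensional K⟮j⟯ F]

include h hj

/-! ### [FIN] for the divisorial modules -/

/-- `H¹(D) = ℒ₀(D)/(ℒ₊(D) + ℒ₋(D))` is a finitely generated `O`-module. -/
theorem h1FG : Separation.H1FG (Lp W j D) (Lm W j D) (L0 W j D) := by
  have h1 := SheafFinite.chart_h1FG (K := K) j hj (LpB h D) (LpB_fg h D hj) (LmB h D)
    (LpB_subset_span_LmB h D hj)
  rw [restrictScalars_LpB, restrictScalars_LmB] at h1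
  have h2 : (Submodule.span (chartAlg O F {j, j⁻¹}) (LpB h D : Set F)).restrictScalars O =
      L0 W j D := by
    apply SetLike.coe_injective
    rw [Submodule.coe_restrictScalars]
    exact span_LpB_eq h D hj
  rwa [h2] at h1

/-- The `ϖ`-power torsion of `H¹(D)` is killed by one power of `ϖ`. -/
theorem exists_boundedTorsion (ϖ : O) :
    ∃ n₀ : ℕ, Separation.BoundedTorsion ϖ (L0 W j D) (Lp W j D ⊔ Lm W j D) n₀ :=
  Separation.exists_boundedTorsion_of_h1FG ϖ (h1FG h D hj)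

variable {ϖ : O} {Bp Bm B0 Rg : Subring F}

/-- The same for a `Cocycle.Line` with the carriers `ℒ₊(D), ℒ₋(D), ℒ₀(D)`. -/
theorem exists_lineBoundedTorsion (L : Line (algebraMap O F ϖ) Bp Bm B0 Rg)
    (hLp : ∀ x, x ∈ L.Lp ↔ x ∈ Lp W j D) (hLm : ∀ x, x ∈ L.Lm ↔ x ∈ Lm W j D)
    (hL0 : ∀ x, x ∈ L.L0 → x ∈ L0 W j D) : ∃ n₀ : ℕ, SepWire.BoundedTorsion L n₀ := by
  obtain ⟨n₀, hn₀⟩ := exists_boundedTorsion h D hj ϖ
  exact ⟨n₀, SepWire.boundedTorsion_of_submodule L rfl (fun x => (hLp x).symm)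
    (fun x => (hLm x).symm) hL0 hn₀⟩

/-! ### (C6) at one level -/

/-- A global generator of the line bundle of a divisor of degree `0` trivialises the divisor. -/
theorem isPrincipal_of_isOne_mem (hdeg : Divisor.degree D = 0)
    (C : Charts (algebraMap O F ϖ) Bp Bm B0 Rg) (L : Line (algebraMap O F ϖ) Bp Bm B0 Rg)
    (hLp : ∀ x, x ∈ L.Lp ↔ x ∈ Lp W j D) (hLm : ∀ x, x ∈ L.Lm ↔ x ∈ Lm W j D) {s : F}
    (hsp : s ∈ L.Lp) (hsm : s ∈ L.Lm) (hs1 : IsOne (algebraMap O F ϖ) Rg s) :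
    D ∈ Divisor.principal (K := K) (F := F) :=
  isPrincipal_of_mem j hj hdeg (SepWire.isOne_ne_zero C hs1) ((hLp s).mp hsp) ((hLm s).mp hsm)

/-- A compatible pair modulo `ϖ ^ k`, `k > n₀`, whose `+`-component is `≡ 1`, trivialises the
divisor. -/
theorem isPrincipal_of_compatible (hdeg : Divisor.degree D = 0)
    (C : Charts (algebraMap O F ϖ) Bp Bm B0 Rg) (L : Line (algebraMap O F ϖ) Bp Bm B0 Rg)
    (hLp : ∀ x, x ∈ L.Lp ↔ x ∈ Lp W j D) (hLm : ∀ x, x ∈ L.Lm ↔ x ∈ Lm W j D)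
    {n₀ k : ℕ} (hT : SepWire.BoundedTorsion L n₀) (hk : n₀ < k) {sp sm y : F}
    (hsp : sp ∈ L.Lp) (hsm : sm ∈ L.Lm) (h1 : IsOne (algebraMap O F ϖ) Rg sp) (hy : y ∈ L.L0)
    (e : sp = sm + algebraMap O F ϖ ^ k * y) : D ∈ Divisor.principal (K := K) (F := F) := by
  obtain ⟨s, hs, hs', hs1⟩ := SepWire.exists_isOne_mem_of_compatible C L hT hk hsp hsm h1 hy e
  exact isPrincipal_of_isOne_mem h D hj hdeg C L hLp hLm hs hs' hs1

/-- A cocycle of the line bundle which is trivial modulo `ϖ ^ k` for ONE `k > n₀` trivialises the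
divisor. -/
theorem isPrincipal_of_trivial (hdeg : Divisor.degree D = 0)
    (C : Charts (algebraMap O F ϖ) Bp Bm B0 Rg) (L : Line (algebraMap O F ϖ) Bp Bm B0 Rg)
    (hLp : ∀ x, x ∈ L.Lp ↔ x ∈ Lp W j D) (hLm : ∀ x, x ∈ L.Lm ↔ x ∈ Lm W j D)
    {n₀ k : ℕ} (hT : SepWire.BoundedTorsion L n₀) (hk : n₀ < k) {fp fm u wp wm : F}
    (hfp : fp ∈ L.Lp) (h1p : IsOne (algebraMap O F ϖ) Rg fp) (hfm : fm ∈ L.Lm)
    (h1m : IsOne (algebraMap O F ϖ) Rg fm) (hc : L.IsCocycle k fp fm u)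
    (hwp : ∃ a ∈ Bp, wp = 1 + algebraMap O F ϖ * a) (hwm : ∃ a ∈ Bm, wm = 1 + algebraMap O F ϖ * a)
    (hu : ∃ c ∈ B0, u = wp * wm + algebraMap O F ϖ ^ k * c) :
    D ∈ Divisor.principal (K := K) (F := F) := by
  obtain ⟨s, hs, hs', hs1⟩ :=
    SepWire.exists_isOne_mem_of_trivial C L hT hk hfp h1p hfm h1m hc hwp hwm hu
  exact isPrincipal_of_isOne_mem h D hj hdeg C L hLp hLm hs hs' hs1

section Coord

variable {S : Type*} [CommRing S]
variable {Cp Cm C0 : Type*} [CommRing Cp] [CommRing Cm] [CommRing C0]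
  [Algebra S Cp] [Algebra S Cm] [Algebra S C0]
variable {𝔪 : Ideal S} {ip : Cp →ₐ[S] C0} {im : Cm →ₐ[S] C0} {k : ℕ}
  {qp : Bp →+* Cp} {qm : Bm →+* Cm} {q0 : B0 →+* C0} {g : ℕ} {ε : Fin g → C0}

/-- **(C6) at one level.**  If all Čech coordinates of the class of the line bundle of `D`
(`deg D = 0`) vanish at ONE level `k + 1 > n₀`, then `D` is principal. -/
theorem isPrincipal_of_coord_eq_zero (hdeg : Divisor.degree D = 0)
    (C : Charts (algebraMap O F ϖ) Bp Bm B0 Rg) (L : Line (algebraMap O F ϖ) Bp Bm B0 Rg)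
    (hLp : ∀ x, x ∈ L.Lp ↔ x ∈ Lp W j D) (hLm : ∀ x, x ∈ L.Lm ↔ x ∈ Lm W j D)
    {n₀ : ℕ} (hT : SepWire.BoundedTorsion L n₀) (hk : n₀ < k + 1)
    (T : Transport C 𝔪 ip im k qp qm q0) (Λ : SepWire.Lift C 𝔪 k qp qm q0) (H : Hyp 𝔪 ip im ε)
    {fp fm u : F} (hfp : fp ∈ L.Lp) (h1p : IsOne (algebraMap O F ϖ) Rg fp) (hfm : fm ∈ L.Lm)
    (h1m : IsOne (algebraMap O F ϖ) Rg fm) (hc : L.IsCocycle (k + 1) fp fm u)
    (hcoord : H.coord (q0 ⟨u, hc.1⟩) = 0) : D ∈ Divisor.principal (K := K) (F := F) := by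
  obtain ⟨s, hs, hs', hs1⟩ :=
    SepWire.exists_isOne_mem_of_coord_eq_zero C T Λ H L hT hk hfp h1p hfm h1m hc hcoord
  exact isPrincipal_of_isOne_mem h D hj hdeg C L hLp hLm hs hs' hs1

/-- The same with the existence of the bound `n₀` (depending only on `D` and the level) made
explicit: **there is `n₀` such that vanishing of the coordinates at any ONE level `k + 1 > n₀`
forces `D` to be principal.** -/
theorem exists_bound_isPrincipal_of_coord_eq_zero (hdeg : Divisor.degree D = 0)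
    (C : Charts (algebraMap O F ϖ) Bp Bm B0 Rg) (L : Line (algebraMap O F ϖ) Bp Bm B0 Rg)
    (hLp : ∀ x, x ∈ L.Lp ↔ x ∈ Lp W j D) (hLm : ∀ x, x ∈ L.Lm ↔ x ∈ Lm W j D)
    (hL0 : ∀ x, x ∈ L.L0 → x ∈ L0 W j D) :
    ∃ n₀ : ℕ, ∀ {S : Type*} [CommRing S] {Cp Cm C0 : Type*} [CommRing Cp] [CommRing Cm]
      [CommRing C0] [Algebra S Cp] [Algebra S Cm] [Algebra S C0] {𝔪 : Ideal S} {ip : Cp →ₐ[S] C0}
      {im : Cm →ₐ[S] C0} {k : ℕ} {qp : Bp →+* Cp} {qm : Bm →+* Cm} {q0 : B0 →+* C0} {g : ℕ}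
      {ε : Fin g → C0}, n₀ < k + 1 → Transport C 𝔪 ip im k qp qm q0 →
      SepWire.Lift C 𝔪 k qp qm q0 → ∀ (H : Hyp 𝔪 ip im ε) {fp fm u : F}, fp ∈ L.Lp →
      IsOne (algebraMap O F ϖ) Rg fp → fm ∈ L.Lm → IsOne (algebraMap O F ϖ) Rg fm →
      ∀ hc : L.IsCocycle (k + 1) fp fm u, H.coord (q0 ⟨u, hc.1⟩) = 0 →
      D ∈ Divisor.principal (K := K) (F := F) := by
  obtain ⟨n₀, hT⟩ := exists_lineBoundedTorsion h D hj L hLp hLm hL0
  exact ⟨n₀, fun hk T Λ H _ _ _ hfp h1p hfm h1m hc hcoord =>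
    isPrincipal_of_coord_eq_zero h D hj hdeg C L hLp hLm hT hk T Λ H hfp h1p hfm h1m hc hcoord⟩

end Coord

end Fermat.Agent.S19.Cech.SepWireDiv
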