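/-
S19 / Čech route, node [GAUSS-N4] (helper18): the CONCRETE Gauss ring at a level `(K, N, O)` of N4
and the instances of `DivModule.GaussRing`, `Cocycle.Charts`, `Cocycle.Line`, `H1FG` for it.

`K` a field of characteristic zero, `O ⊆ K` a discrete valuation ring with fraction field `K`,
`FF K N ⊆ K((q))` the function field, `j = jF K N`, charts `Rfin = B₊`, `Rinf = B₋`, `Rmid = B₀`.
The Gauss ring is `W_K := N4.FibreEmbedding.gaussSubalgebra K N O` — the elements of the function
field whose `q`-expansion lies in the Gauss ring `gaussRing ↥O K` of `K((q))` (quotients `a / b`,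
`a, b ∈ O((q))`, `b̄ ≠ 0`).

Hypotheses: only the primality of the two special fibres `𝔪_O Rfin`, `𝔪_O Rinf`
(`= HasFibreEmbedding.isPrime` of `StarStatement`, available at every good level:
`N4F/C/LevelTargets.starStatement_level`).

* `inv_mem_gaussSubalgebra` : an element of `W_K` with nonzero reduction is a unit of `W_K`;
* `one_add_mul_isUnit` : `1 + ϖ r`, `r ∈ W_K`, is a unit of `W_K` (`ϖ` non-unit of `O`);
* `gaussRing_of_isPrime`, `gaussRing_of_star` : `DivModule.GaussRing (jF K N) W_K`;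
* `charts_of_star` : `Cocycle.Charts ϖ Rfin Rinf Rmid W_K` for a uniformiser `ϖ`;
* `lineOf`, `h1FG`, `exists_lineBoundedTorsion`, `isPrincipal_of_common` : the specialisations of
  `DivLine.lineOf`, `SepWireDiv.h1FG`, `SepWireDiv.exists_lineBoundedTorsion`,
  `DivModule.isPrincipal_of_mem` to this situation.
-/
import Mathlib
import Fermat.Agent.N4.FibreEmbedding
import Fermat.Agent.N4.ModPolySetting
import Fermat.Agent.S19.Cech.DivLine
import Fermat.Agent.S19.Cech.SepWireDiv

set_option autoImplicit false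
set_option linter.unusedSectionVars false
set_option linter.style.haveILetI false

open AlgebraicCurve IntermediateField ModularCurve
open Fermat.Agent.S28.Gauss Fermat.Agent.N4.Chart Fermat.Agent.N4.Setting
open Fermat.Agent.N4.FibreEmbedding Fermat.Agent.S19.Cech.DivModule

noncomputable section

namespace Fermat.Agent.S19.Cech.GaussN4

variable (K : Type) [Field K] (N : ℕ) (O : Subring K) [IsDiscreteValuationRing ↥O]
  [IsFractionRing ↥O K]

/-- Shortcut instance (the search through the instances of `IntermediateField` is slow). -/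
local instance instModuleFF : Module ↥O (FF K N) := Algebra.toModule

/-- The Gauss ring at the level `(K, N, O)`. -/
abbrev WK : Subalgebra ↥O (FF K N) := gaussSubalgebra K N O

/-- An element of the Gauss ring with nonzero reduction is a unit of the Gauss ring. -/
theorem inv_mem_gaussSubalgebra {x : FF K N} (hx : x ∈ gaussSubalgebra K N O)
    (hne : theta K N O ⟨x, hx⟩ ≠ 0) : x⁻¹ ∈ gaussSubalgebra K N O := by
  rw [mem_gaussSubalgebra_iff]
  have h' := inv_mem_gaussRing_of_gaussRed_ne_zero
    (x := (⟨((x : FF K N) : LaurentSeries K), hx⟩ : gaussRing ↥O K)) (by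
      rw [theta_apply] at hne
      exact hne)
  have hc : ((x⁻¹ : FF K N) : LaurentSeries K) = ((x : FF K N) : LaurentSeries K)⁻¹ :=
    IntermediateField.coe_inv _ _
  rw [hc]
  exact h'

/-- The reduction of `1 + c r`, `c` a non-unit of `O`, is `1`. -/
theorem theta_one_add_mul {c : ↥O} (hc : ¬ IsUnit c) (r : gaussSubalgebra K N O) :
    theta K N O (1 + algebraMap ↥O (gaussSubalgebra K N O) c * r) = 1 := by
  rw [map_add, map_one, map_mul, theta_algebraMap]
  have : IsLocalRing.residue ↥O c = 0 := by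
    rw [IsLocalRing.residue_eq_zero_iff]
    exact (IsLocalRing.mem_maximalIdeal c).mpr hc
  rw [this, map_zero, zero_mul, add_zero]

/-- **`𝔪_O` lies in the Jacobson radical of the Gauss ring.** -/
theorem one_add_mul_isUnit {c : ↥O} (hc : ¬ IsUnit c) :
    ∀ r ∈ gaussSubalgebra K N O, ∃ s ∈ gaussSubalgebra K N O,
      (1 + algebraMap ↥O (FF K N) c * r) * s = 1 := by
  intro r hr
  have hx : 1 + algebraMap ↥O (FF K N) c * r ∈ gaussSubalgebra K N O :=
    Subalgebra.add_mem _ (Subalgebra.one_mem _)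
      (Subalgebra.mul_mem _ (Subalgebra.algebraMap_mem _ c) hr)
  have hθ : theta K N O ⟨_, hx⟩ = 1 := by
    have := theta_one_add_mul K N O hc ⟨r, hr⟩
    rw [← this]
    congr 1
  have hne : theta K N O ⟨_, hx⟩ ≠ 0 := by rw [hθ]; exact one_ne_zero
  refine ⟨_, inv_mem_gaussSubalgebra K N O hx hne, mul_inv_cancel₀ ?_⟩
  intro h0
  apply hne
  have : (⟨_, hx⟩ : gaussSubalgebra K N O) = 0 := Subtype.ext h0
  rw [this, map_zero]

section Star

variable [CharZero K] [NeZero N]

/-- **The Gauss ring at a level is a `DivModule.GaussRing`** as soon as the two special fibres are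
integral. -/
theorem gaussRing_of_isPrime (hfin : (fibreIdeal K N O (Rfin K N O)).IsPrime)
    (hinf : (fibreIdeal K N O (Rinf K N O)).IsPrime) :
    GaussRing (jF K N) (gaussSubalgebra K N O) := by
  obtain ⟨ϖ, hϖ⟩ := IsDiscreteValuationRing.exists_irreducible ↥O
  have htr : Transcendental (IsLocalRing.ResidueField ↥O)
      (theta K N O ⟨jF K N, jF_mem_gaussSubalgebra K N O⟩) := by
    rw [theta_jF]
    exact Fermat.Agent.S24.FFBasics.transcendental_jqModC _
  have htr' : Transcendental (IsLocalRing.ResidueField ↥O)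
      (theta K N O ⟨(jF K N)⁻¹, jF_inv_mem_gaussSubalgebra K N O⟩) := by
    rw [theta_jF_inv]
    intro halg
    exact Fermat.Agent.S24.FFBasics.transcendental_jqModC _ (by simpa using halg.inv)
  refine GaussRing.of_irreducible (jF K N) hϖ ?_ ?_ ?_
  · intro x hx
    refine chartAlg_le_gaussSubalgebra K N O (S := {jF K N, (jF K N)⁻¹}) ?_ hx
    rintro y (rfl | hy)
    · exact jF_mem_gaussSubalgebra K N O
    · rw [Set.mem_singleton_iff.mp hy]
      exact jF_inv_mem_gaussSubalgebra K N O
  · intro f hf hm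
    refine mem_chartAlg_of_pow_mul_mem K N O (jF_mem_gaussSubalgebra K N O)
      (ker_rho_eq K N O _ htr hfin) hϖ 1 f hf ?_
    rwa [pow_one]
  · intro f hf hm
    refine mem_chartAlg_of_pow_mul_mem K N O (jF_inv_mem_gaussSubalgebra K N O)
      (ker_rho_eq K N O _ htr' hinf) hϖ 1 f hf ?_
    rwa [pow_one]

/-- The same from `StarStatement`. -/
theorem gaussRing_of_star (hstar : StarStatement K N O) :
    GaussRing (jF K N) (gaussSubalgebra K N O) :=
  gaussRing_of_isPrime K N O hstar.1.isPrime hstar.2.isPrime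

variable {K N O}
variable (hstar : StarStatement K N O)

include hstar

/-- **The charts of the `j`-line at a level and the Gauss ring form a `Cocycle.Charts`** (for any
nonzero non-unit `ϖ` of `O`, e.g. a uniformiser). -/
theorem charts_of_star {ϖ : ↥O} (hϖ0 : ϖ ≠ 0) (hϖ : ¬ IsUnit ϖ) :
    Cocycle.Charts (algebraMap ↥O (FF K N) ϖ) (Rfin K N O).toSubring (Rinf K N O).toSubring
      (Rmid K N O).toSubring (gaussSubalgebra K N O).toSubring :=
  DivLine.charts (K := K) (gaussRing_of_star K N O hstar)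
    (Fermat.Agent.N4.FFAlgebraic.transcendental_jF K N) hϖ0 (one_add_mul_isUnit K N O hϖ)

/-- `FF K N` is finite over `K(j)` (instance form, local to this file). -/
theorem finiteDimensional_FF' : FiniteDimensional K⟮jF K N⟯ (FF K N) :=
  Fermat.Agent.N4.ModPolySetting.finiteDimensional_FF K N

/-- **The `Cocycle.Line` of a divisor at a level**; only the reduction fields are hypotheses. -/
def lineOf {ϖ : ↥O} (hϖ0 : ϖ ≠ 0) (D : Divisor K (FF K N))
    (red_p : ∀ x ∈ Lp (gaussSubalgebra K N O) (jF K N) D, ∃ b ∈ Rfin K N O,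
      ∃ r ∈ gaussSubalgebra K N O, x = b + algebraMap ↥O (FF K N) ϖ * r)
    (red_m : ∀ x ∈ Lm (gaussSubalgebra K N O) (jF K N) D, ∃ b ∈ Rinf K N O,
      ∃ r ∈ gaussSubalgebra K N O, x = b + algebraMap ↥O (FF K N) ϖ * r) :
    Cocycle.Line (algebraMap ↥O (FF K N) ϖ) (Rfin K N O).toSubring (Rinf K N O).toSubring
      (Rmid K N O).toSubring (gaussSubalgebra K N O).toSubring :=
  haveI := Fermat.Agent.N4.ModPolySetting.finiteDimensional_FF K N
  DivLine.lineOf (K := K) (gaussRing_of_star K N O hstar)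
    (Fermat.Agent.N4.FFAlgebraic.transcendental_jF K N) hϖ0 D red_p red_m

variable {ϖ : ↥O} (hϖ0 : ϖ ≠ 0) (D : Divisor K (FF K N))
    (red_p : ∀ x ∈ Lp (gaussSubalgebra K N O) (jF K N) D, ∃ b ∈ Rfin K N O,
      ∃ r ∈ gaussSubalgebra K N O, x = b + algebraMap ↥O (FF K N) ϖ * r)
    (red_m : ∀ x ∈ Lm (gaussSubalgebra K N O) (jF K N) D, ∃ b ∈ Rinf K N O,
      ∃ r ∈ gaussSubalgebra K N O, x = b + algebraMap ↥O (FF K N) ϖ * r)

@[simp] theorem mem_lineOf_Lp {x : FF K N} :
    x ∈ (lineOf hstar hϖ0 D red_p red_m).Lp ↔ x ∈ Lp (gaussSubalgebra K N O) (jF K N) D := Iff.rfl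

@[simp] theorem mem_lineOf_Lm {x : FF K N} :
    x ∈ (lineOf hstar hϖ0 D red_p red_m).Lm ↔ x ∈ Lm (gaussSubalgebra K N O) (jF K N) D := Iff.rfl

@[simp] theorem mem_lineOf_L0 {x : FF K N} :
    x ∈ (lineOf hstar hϖ0 D red_p red_m).L0 ↔ x ∈ L0 (gaussSubalgebra K N O) (jF K N) D := Iff.rfl

/-- **Finiteness of `H¹(ℒ(D))` at a level** (helper5's `SepWireDiv.h1FG`, specialised). -/
theorem h1FG :
    Separation.H1FG (Lp (gaussSubalgebra K N O) (jF K N) D)
      (Lm (gaussSubalgebra K N O) (jF K N) D) (L0 (gaussSubalgebra K N O) (jF K N) D) :=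
  haveI := Fermat.Agent.N4.ModPolySetting.finiteDimensional_FF K N
  SepWireDiv.h1FG (K := K) (gaussRing_of_star K N O hstar) D
    (Fermat.Agent.N4.FFAlgebraic.transcendental_jF K N)

/-- **The `ϖ`-power torsion of `H¹(ℒ(D))` is bounded**, in the vocabulary of the line `lineOf D`. -/
theorem exists_lineBoundedTorsion :
    ∃ n₀ : ℕ, SepWire.BoundedTorsion (lineOf hstar hϖ0 D red_p red_m) n₀ :=
  haveI := Fermat.Agent.N4.ModPolySetting.finiteDimensional_FF K N
  SepWireDiv.exists_lineBoundedTorsion (K := K) (gaussRing_of_star K N O hstar) D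
    (Fermat.Agent.N4.FFAlgebraic.transcendental_jF K N) (lineOf hstar hϖ0 D red_p red_m)
    (fun _ => Iff.rfl) (fun _ => Iff.rfl) (fun _ hx => hx)

omit hstar in
/-- **(G5) at a level**: a common nonzero section of `ℒ₊(D)` and `ℒ₋(D)`, `deg D = 0`, makes `D`
principal. -/
theorem isPrincipal_of_common {D : Divisor K (FF K N)} {s : FF K N} (hs : s ≠ 0)
    (hp : s ∈ Lp (gaussSubalgebra K N O) (jF K N) D)
    (hm : s ∈ Lm (gaussSubalgebra K N O) (jF K N) D) (hdeg : Divisor.degree D = 0) :
    D ∈ Divisor.principal (K := K) (F := FF K N) :=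
  haveI := Fermat.Agent.N4.ModPolySetting.finiteDimensional_FF K N
  isPrincipal_of_mem (jF K N) (Fermat.Agent.N4.FFAlgebraic.transcendental_jF K N) hdeg hs hp hm

end Star

end Fermat.Agent.S19.Cech.GaussN4
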