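/-
S19 / Čech-units route: **algebraic glue for the wiring of the contract fields (C5) `law` and (C3)
`equivariant`** (consumers: `Cech/CoordOfLines.lean`, `Geo/Instance.lean`).

* `span_image_pow_eq_bot`, `span_range_pow_eq_bot` : finitely many elements with `a i ^ m = 0`
  generate an ideal `𝔫` with `𝔫 ^ (k * m + 1) = 0` (explicit exponent: the polynomials of the
  contract must be chosen before the points);
* `Hyp.of_nil`, `Hyp.coord_eq_of_le`, `Hyp.add_eq_of_le` : the coordinates and the law do not depend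
  on the nilpotent ideal;
* `add_eq_eval₂_of_pow_eq_zero` : the law on representatives with `a i ^ m = 0`, `b i ^ m = 0` is
  given by `lawPoly hH (2 * g * m + 1)` made at the base level;
* `coord_eq_eval₂_of_pow_eq_zero` : the same for the change of frame, `chgPoly ε hH₂ (g * m + 1)`.
-/
import Fermat.Agent.S19.Cech.ChangeBase

set_option autoImplicit false

universe u

namespace Fermat.Agent.S19.Cech

open TensorProduct MvPolynomial

/-! ### explicit nilpotency -/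

section Nilpotent

variable {R : Type*} [CommRing R]

theorem span_image_pow_eq_bot {ι : Type*} [DecidableEq ι] (a : ι → R) {m : ℕ}
    (s : Finset ι) (h : ∀ i ∈ s, a i ^ m = 0) :
    Ideal.span (a '' (s : Set ι)) ^ (s.card * m + 1) = ⊥ := by
  induction s using Finset.induction_on with
  | empty => simp
  | insert i s hi ih =>
    have ih' := ih (fun j hj => h j (Finset.mem_insert_of_mem hj))
    have e1 : Ideal.span (a '' ((insert i s : Finset ι) : Set ι))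
        = Ideal.span {a i} ⊔ Ideal.span (a '' (s : Set ι)) := by
      rw [Finset.coe_insert, Set.image_insert_eq, Ideal.span_insert]
    have e2 : (insert i s).card * m + 1 = m + (s.card * m + 1) := by
      rw [Finset.card_insert_of_notMem hi]; ring
    rw [e1, e2, eq_bot_iff]
    refine le_trans Ideal.sup_pow_add_le_pow_sup_pow ?_
    rw [ih', Ideal.span_singleton_pow, h i (Finset.mem_insert_self i s)]
    simp

theorem span_range_pow_eq_bot {ι : Type*} [Fintype ι] (a : ι → R) {m : ℕ}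
    (h : ∀ i, a i ^ m = 0) : Ideal.span (Set.range a) ^ (Fintype.card ι * m + 1) = ⊥ := by
  classical
  have := span_image_pow_eq_bot a (Finset.univ : Finset ι) (fun i _ => h i)
  rwa [Finset.coe_univ, Set.image_univ, Finset.card_univ] at this

end Nilpotent

/-! ### independence of the nilpotent ideal -/

section SubIdeal

variable {S : Type*} [CommRing S]
variable {Cp Cm C0 : Type*} [CommRing Cp] [CommRing Cm] [CommRing C0]
  [Algebra S Cp] [Algebra S Cm] [Algebra S C0]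
variable {𝔪 𝔫 : Ideal S} {ip : Cp →ₐ[S] C0} {im : Cm →ₐ[S] C0} {g : ℕ} {ε : Fin g → C0}

/-- `Hyp` depends on the ideal only through its nilpotency. -/
theorem Hyp.of_nil (H : Hyp 𝔪 ip im ε) (h : ∃ N : ℕ, 𝔫 ^ N = ⊥) : Hyp 𝔫 ip im ε :=
  ⟨h, H.gen, H.h0, H.h0', H.h1⟩

theorem morph_of_le (hle : 𝔫 ≤ 𝔪) :
    Morph 𝔫 ip im ε 𝔪 ip im ε (RingHom.id S) (RingHom.id Cp) (RingHom.id Cm) (RingHom.id C0) where
  map_mem := fun _ hs => hle hs
  comm_p := fun _ => rfl
  comm_m := fun _ => rfl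
  alg_p := fun _ => rfl
  alg_m := fun _ => rfl
  alg_0 := fun _ => rfl
  eps := fun _ => rfl

/-- the coordinates do not depend on the nilpotent ideal -/
theorem Hyp.coord_eq_of_le (H𝔫 : Hyp 𝔫 ip im ε) (H𝔪 : Hyp 𝔪 ip im ε) (hle : 𝔫 ≤ 𝔪) {u : C0}
    (hu : u - 1 ∈ ext C0 𝔫) : H𝔪.coord u = H𝔫.coord u := by
  have := (morph_of_le (ip := ip) (im := im) (ε := ε) hle).coord_map H𝔫 H𝔪 hu
  simpa using this

/-- the group law does not depend on the nilpotent ideal -/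
theorem Hyp.add_eq_of_le (H𝔫 : Hyp 𝔫 ip im ε) (H𝔪 : Hyp 𝔪 ip im ε) (hle : 𝔫 ≤ 𝔪)
    {a b : Fin g → S} (ha : ∀ i, a i ∈ 𝔫) (hb : ∀ i, b i ∈ 𝔫) : H𝔪.add a b = H𝔫.add a b := by
  have := (morph_of_le (ip := ip) (im := im) (ε := ε) hle).add_map H𝔫 H𝔪 ha hb
  simpa using this

end SubIdeal

/-! ### the universal polynomials on representatives of bounded nilpotency -/

section Packaged

variable {O : Type u} [CommRing O] {O' : Type*} [CommRing O'] (θ : O →+* O')
variable {S' : Type*} [CommRing S'] [Algebra O' S']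
variable {Ap Am A0 : Type*} [CommRing Ap] [CommRing Am] [CommRing A0]
  [Algebra O Ap] [Algebra O Am] [Algebra O A0]
variable {Ap' Am' A0' : Type*} [CommRing Ap'] [CommRing Am'] [CommRing A0']
  [Algebra O' Ap'] [Algebra O' Am'] [Algebra O' A0']
variable {ip : Ap →ₐ[O] A0} {im : Am →ₐ[O] A0} {g : ℕ} {ε : Fin g → A0}
variable {ip' : Ap' →ₐ[O'] A0'} {im' : Am' →ₐ[O'] A0'} {ε' : Fin g → A0'}

/-- **(C5) in packaged form**: in a situation over `O'` receiving a morphism from the base situation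
over `O`, for ANY nilpotent ideal `𝔪'` and points `a, b ∈ 𝔪'^g` with `a i ^ m = 0 = b i ^ m`, the
sum `a ⊞ b` is given by the polynomials `lawPoly hH (2 * g * m + 1)` made at the base level. -/
theorem add_eq_eval₂_of_pow_eq_zero (hH : HypAll ip im ε)
    (τp : Ap →+* Ap') (hτp : ∀ o, τp (algebraMap O Ap o) = algebraMap O' Ap' (θ o))
    (τm : Am →+* Am') (hτm : ∀ o, τm (algebraMap O Am o) = algebraMap O' Am' (θ o))
    (τ0 : A0 →+* A0') (hτ0 : ∀ o, τ0 (algebraMap O A0 o) = algebraMap O' A0' (θ o))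
    (hip : ∀ x, τ0 (ip x) = ip' (τp x)) (him : ∀ y, τ0 (im y) = im' (τm y))
    (hε : ∀ i, τ0 (ε i) = ε' i) {𝔪' : Ideal S'}
    (H' : Hyp 𝔪' (mapS S' ip') (mapS S' im') (epsS S' ε')) {a b : Fin g → S'} {m : ℕ}
    (ha : ∀ i, a i ∈ 𝔪') (hb : ∀ i, b i ∈ 𝔪') (ham : ∀ i, a i ^ m = 0) (hbm : ∀ i, b i ^ m = 0) :
    H'.add a b = fun i =>
      eval₂ ((algebraMap O' S').comp θ) (Sum.elim a b) (lawPoly hH (2 * g * m + 1) i) := by
  set 𝔫 : Ideal S' := Ideal.span (Set.range (Sum.elim a b)) with h𝔫def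
  have hle : 𝔫 ≤ 𝔪' := by
    rw [h𝔫def, Ideal.span_le]
    rintro _ ⟨k | k, rfl⟩
    · exact ha k
    · exact hb k
  have hpow : 𝔫 ^ (2 * g * m + 1) = ⊥ := by
    have h1 := span_range_pow_eq_bot (Sum.elim a b) (m := m) (by
      rintro (k | k)
      · exact ham k
      · exact hbm k)
    have hd : Fintype.card (Fin g ⊕ Fin g) * m + 1 = 2 * g * m + 1 := by
      rw [Fintype.card_sum, Fintype.card_fin]; ring
    rwa [hd] at h1
  have H𝔫 : Hyp 𝔫 (mapS S' ip') (mapS S' im') (epsS S' ε') := H'.of_nil ⟨_, hpow⟩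
  have ha' : ∀ i, a i ∈ 𝔫 := fun i => Ideal.subset_span ⟨Sum.inl i, rfl⟩
  have hb' : ∀ i, b i ∈ 𝔫 := fun i => Ideal.subset_span ⟨Sum.inr i, rfl⟩
  rw [Hyp.add_eq_of_le H𝔫 H' hle ha' hb']
  exact add_eq_eval₂ θ hH τp hτp τm hτm τ0 hτ0 hip him hε hpow H𝔫 ha' hb'

/-- **(C3) in packaged form**: change of frame `ε' → ε₂'` on a unit `u ≡ 1` whose `ε'`-coordinates
`c` satisfy `c i ^ m = 0`, by the polynomials `chgPoly ε hH₂ (g * m + 1)` made at the base level. -/
theorem coord_eq_eval₂_of_pow_eq_zero {ε₂ : Fin g → A0} {ε₂' : Fin g → A0'}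
    (hH₂ : HypAll ip im ε₂)
    (τp : Ap →+* Ap') (hτp : ∀ o, τp (algebraMap O Ap o) = algebraMap O' Ap' (θ o))
    (τm : Am →+* Am') (hτm : ∀ o, τm (algebraMap O Am o) = algebraMap O' Am' (θ o))
    (τ0 : A0 →+* A0') (hτ0 : ∀ o, τ0 (algebraMap O A0 o) = algebraMap O' A0' (θ o))
    (hip : ∀ x, τ0 (ip x) = ip' (τp x)) (him : ∀ y, τ0 (im y) = im' (τm y))
    (hε : ∀ i, τ0 (ε i) = ε' i) (hε₂ : ∀ i, τ0 (ε₂ i) = ε₂' i) {𝔪' : Ideal S'}
    (H' : Hyp 𝔪' (mapS S' ip') (mapS S' im') (epsS S' ε'))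
    (H₂' : Hyp 𝔪' (mapS S' ip') (mapS S' im') (epsS S' ε₂')) {u : S' ⊗[O'] A0'}
    (hu : u - 1 ∈ ext (S' ⊗[O'] A0') 𝔪') {m : ℕ} (hcm : ∀ i, H'.coord u i ^ m = 0) :
    H₂'.coord u = fun i =>
      eval₂ ((algebraMap O' S').comp θ) (H'.coord u) (chgPoly ε hH₂ (g * m + 1) i) := by
  set c := H'.coord u with hc
  have hcmem : ∀ i, c i ∈ 𝔪' := H'.coord_mem u
  set 𝔫 : Ideal S' := Ideal.span (Set.range c) with h𝔫def
  have hle : 𝔫 ≤ 𝔪' := by
    rw [h𝔫def, Ideal.span_le]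
    rintro _ ⟨k, rfl⟩
    exact hcmem k
  have hpow : 𝔫 ^ (g * m + 1) = ⊥ := by
    have h1 := span_range_pow_eq_bot c (m := m) hcm
    rwa [Fintype.card_fin] at h1
  have H𝔫 : Hyp 𝔫 (mapS S' ip') (mapS S' im') (epsS S' ε') := H'.of_nil ⟨_, hpow⟩
  have H₂𝔫 : Hyp 𝔫 (mapS S' ip') (mapS S' im') (epsS S' ε₂') := H₂'.of_nil ⟨_, hpow⟩
  have hc' : ∀ i, c i ∈ 𝔫 := fun i => Ideal.subset_span ⟨i, rfl⟩
  have hβ : beta (epsS S' ε') c - 1 ∈ ext (S' ⊗[O'] A0') 𝔫 := beta_sub_one_mem _ hc'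
  -- step 1: replace `u` by `beta ε' c`
  have h1 : H₂'.coord u = H₂'.coord (beta (epsS S' ε') c) :=
    H₂'.coord_congr (beta_sub_one_mem _ hcmem) (H'.coord_spec hu)
  -- step 2: pass to the small ideal
  have h2 : H₂'.coord (beta (epsS S' ε') c) = H₂𝔫.coord (beta (epsS S' ε') c) :=
    Hyp.coord_eq_of_le H₂𝔫 H₂' hle hβ
  -- step 3: the universal polynomials
  have h3 := coord_eq_eval₂ θ hH₂ τp hτp τm hτm τ0 hτ0 hip him hε hε₂ hpow H𝔫 H₂𝔫 hβ
  rw [H𝔫.coord_beta hc'] at h3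
  rw [h1, h2, h3]

end Packaged

end Fermat.Agent.S19.Cech
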