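/-
S19 / Čech-units route, leaf [WIRE] part B' (statements by helper3, board #2277): **the two polynomial
lemmas on representatives at one situation `(level L, precision n)`**.

* `RepQb.add`   : the group law on representatives is given by the polynomials `lawPoly` made at the
  base level `K₁` (field `law` of the contract `Coord/Defs.lean`);
* `RepQb.twist` : a `σ`-semilinear morphism of situations which moves the frame (`ε ↦ εσ = σ ε`)
  transports representatives up to the change-of-frame polynomials `chgPoly` made at the base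
  level (field `equivariant`).

In both statements the polynomials depend only on `(g, e, n)`, not on the level: the universal
identities are applied with the NON-maximal nilpotent ideal generated by the coordinates themselves
(`WireAlgebra.lean`).
-/
import Fermat.Agent.S19.Cech.CoordOfLines
import Fermat.Agent.S19.Cech.WireAlgebra
import Fermat.Agent.S19.Cech.RedTuple

set_option autoImplicit false

namespace Fermat.Agent.S19.Cech.WireLaw

open Fermat.Agent.S19.Abs Fermat.Agent.S19.Coord Fermat.Agent.S19.Cech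
  Fermat.Agent.S19.Cech.CoordOfLines TensorProduct MvPolynomial

variable {ℓ n : ℕ} {A : ValuationSubring Qb}

/-! ### auxiliary -/

theorem apply_mem_lpow_of_forall {σ : Qb →+* Qb} (hσA : ∀ x ∈ A, σ x ∈ A) {m : ℕ} {x : Qb}
    (hx : x ∈ lpow A ℓ m) : σ x ∈ lpow A ℓ m := by
  obtain ⟨y, hy, rfl⟩ := hx
  exact ⟨σ y, hσA y hy, by rw [map_mul, map_pow, map_natCast]⟩

/-- `π x ^ (e n) = 0` when `ι x ^ e ∈ ℓ A` -/
theorem BaseQuot.pow_eq_zero {O S : Type*} [CommRing O] [CommRing S] {ι : O →+* Qb} {π : O →+* S}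
    {𝔪 : Ideal S} (hB : BaseQuot ℓ n A ι π 𝔪) {e : ℕ} {x : O} (hx : ι x ^ e ∈ lpow A ℓ 1) :
    π x ^ (e * n) = 0 := by
  rw [← map_pow, hB.ker_iff, map_pow]
  exact RedTuple.pow_mem_lpow_mul hx n

theorem ι_eval₂ {O₁ O : Type*} [CommRing O₁] [CommRing O] {κ : Type*} (ι : O →+* Qb)
    (j : O₁ →+* O) (x : κ → O) (P : MvPolynomial κ O₁) :
    ι (eval₂ j x P) = aeval (fun k => ι (x k)) (MvPolynomial.map (ι.comp j) P) := by
  rw [eval₂_comp_left ι j x P, aeval_def, eval₂_map]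
  congr 1

theorem π_eval₂ {O₁ O S : Type*} [CommRing O₁] [CommRing O] [CommRing S] [Algebra O₁ S]
    {κ : Type*} (π : O →+* S) (j : O₁ →+* O) (hj : ∀ c, π (j c) = algebraMap O₁ S c) (x : κ → O)
    (P : MvPolynomial κ O₁) : π (eval₂ j x P) = aeval (fun k => π (x k)) P := by
  rw [eval₂_comp_left π j x P, aeval_def]
  congr 1
  exact RingHom.ext hj

/-! ### the group law -/

section Add

variable {O₁ : Type} [CommRing O₁]
variable {Ap Am A0 : Type*} [CommRing Ap] [CommRing Am] [CommRing A0]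
  [Algebra O₁ Ap] [Algebra O₁ Am] [Algebra O₁ A0]
variable {ip₁ : Ap →ₐ[O₁] A0} {im₁ : Am →ₐ[O₁] A0} {g : ℕ} {ε₁ : Fin g → A0}
variable {S : Type} [CommRing S] [Algebra O₁ S]
variable {Cp Cm C0 : Type*} [CommRing Cp] [CommRing Cm] [CommRing C0]
  [Algebra S Cp] [Algebra S Cm] [Algebra S C0]
variable {𝔪 : Ideal S} {ip : Cp →ₐ[S] C0} {im : Cm →ₐ[S] C0} {ε : Fin g → C0}
variable {O : Type*} [CommRing O] {ι : O →+* Qb} {π : O →+* S}
variable {Jb : Type*} [AddCommGroup Jb] {K : Jb → C0 → Prop}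
variable {ψp : S ⊗[O₁] Ap →+* Cp} {ψm : S ⊗[O₁] Am →+* Cm} {ψ0 : S ⊗[O₁] A0 →+* C0}

/-- **(C5) at one situation**: the sum of two classes is represented by the values of the base-level
polynomials `lawPoly hH (2 g e n + 1)` at representatives `a, a'` with `a_i^e, a'_i^e ∈ ℓ A`. -/
theorem RepQb.add (hB : BaseQuot ℓ n A ι π 𝔪) (hK : KImg 𝔪 ip im K) (H : Hyp 𝔪 ip im ε)
    (hH : HypAll ip₁ im₁ ε₁)
    (M : Morph 𝔪 (mapS S ip₁) (mapS S im₁) (epsS S ε₁) 𝔪 ip im ε (RingHom.id S) ψp ψm ψ0)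
    (j : O₁ →+* O) (hj : ∀ c, π (j c) = algebraMap O₁ S c) (e : ℕ) {z z' : Jb}
    {a a' : Fin g → Qb} (h : RepQb A H ι π K z a) (h' : RepQb A H ι π K z' a')
    (hb : ∀ i, a i ^ e ∈ lpow A ℓ 1) (hb' : ∀ i, a' i ^ e ∈ lpow A ℓ 1) :
    RepQb A H ι π K (z + z') (fun i => MvPolynomial.aeval (Sum.elim a a')
      (MvPolynomial.map (ι.comp j) (lawPoly hH (2 * g * e * n + 1) i))) := by
  obtain ⟨-, a₀, ha₀, v, hv, hπ⟩ := h
  obtain ⟨-, a₀', ha₀', v', hv', hπ'⟩ := h'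
  set t : Fin g → S := fun i => π (a₀ i) with ht
  set t' : Fin g → S := fun i => π (a₀' i) with ht'
  have htv : t = H.coord v := funext hπ
  have htv' : t' = H.coord v' := funext hπ'
  have htm : ∀ i, t i ∈ 𝔪 := fun i => by rw [htv]; exact H.coord_mem v i
  have htm' : ∀ i, t' i ∈ 𝔪 := fun i => by rw [htv']; exact H.coord_mem v' i
  have htpow : ∀ i, t i ^ (e * n) = 0 := fun i => by
    apply BaseQuot.pow_eq_zero hB
    rw [ha₀]; exact hb i
  have htpow' : ∀ i, t' i ^ (e * n) = 0 := fun i => by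
    apply BaseQuot.pow_eq_zero hB
    rw [ha₀']; exact hb' i
  -- the small ideal
  set 𝔫 : Ideal S := Ideal.span (Set.range (Sum.elim t t')) with h𝔫def
  have hle : 𝔫 ≤ 𝔪 := by
    rw [h𝔫def, Ideal.span_le]
    rintro _ ⟨k | k, rfl⟩
    · exact htm k
    · exact htm' k
  have hpow : 𝔫 ^ (2 * g * e * n + 1) = ⊥ := by
    have h1 := span_range_pow_eq_bot (Sum.elim t t') (m := e * n) (by
      rintro (k | k)
      · exact htpow k
      · exact htpow' k)
    have hd : Fintype.card (Fin g ⊕ Fin g) * (e * n) + 1 = 2 * g * e * n + 1 := by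
      rw [Fintype.card_sum, Fintype.card_fin]; ring
    rwa [hd] at h1
  have ht𝔫 : ∀ i, t i ∈ 𝔫 := fun i => Ideal.subset_span ⟨Sum.inl i, rfl⟩
  have ht𝔫' : ∀ i, t' i ∈ 𝔫 := fun i => Ideal.subset_span ⟨Sum.inr i, rfl⟩
  -- the law in the base-level model over `S`
  have H₁ : Hyp 𝔪 (mapS S ip₁) (mapS S im₁) (epsS S ε₁) := hH S 𝔪 H.nil
  have e1 : H.add t t' = H₁.add t t' := by
    have := M.add_map H₁ H htm htm'
    simpa using this
  have e2 : H₁.add t t' = (hH S 𝔫 ⟨_, hpow⟩).add t t' :=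
    Hyp.add_eq_of_le (hH S 𝔫 ⟨_, hpow⟩) H₁ hle ht𝔫 ht𝔫'
  have e3 := hH.add_eq_aeval (2 * g * e * n + 1) S hpow ht𝔫 ht𝔫'
  -- the new representative
  set a₀'' : Fin g → O := fun i =>
    eval₂ j (Sum.elim a₀ a₀') (lawPoly hH (2 * g * e * n + 1) i) with ha₀''
  have hιa : ∀ i, ι (a₀'' i) = MvPolynomial.aeval (Sum.elim a a')
      (MvPolynomial.map (ι.comp j) (lawPoly hH (2 * g * e * n + 1) i)) := by
    intro i
    rw [ha₀'', ι_eval₂]
    congr 2
    funext k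
    rcases k with k | k
    · exact ha₀ k
    · exact ha₀' k
  have hπa : ∀ i, π (a₀'' i) = H.coord (v * v') i := by
    intro i
    rw [H.coord_mul (hK.sub_one hv) (hK.sub_one hv'), ← htv, ← htv', e1, e2, e3, ha₀'',
      π_eval₂ π j hj]
    congr 2
    funext k
    rcases k with k | k <;> rfl
  refine ⟨fun i => ?_, a₀'', hιa, v * v', hK.mul hv hv', hπa⟩
  beta_reduce
  rw [← hιa i, ← hB.mem_iff, hπa]
  exact H.coord_mem _ i

end Add

/-! ### the twisted equivariance -/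

section Twist

variable {O₁ : Type} [CommRing O₁]
variable {Ap Am A0 : Type*} [CommRing Ap] [CommRing Am] [CommRing A0]
  [Algebra O₁ Ap] [Algebra O₁ Am] [Algebra O₁ A0]
variable {ip₁ : Ap →ₐ[O₁] A0} {im₁ : Am →ₐ[O₁] A0} {g : ℕ} {ε₁ : Fin g → A0}
variable {S : Type*} [CommRing S]
variable {Cp Cm C0 : Type*} [CommRing Cp] [CommRing Cm] [CommRing C0]
  [Algebra S Cp] [Algebra S Cm] [Algebra S C0]
variable {𝔪 : Ideal S} {ip : Cp →ₐ[S] C0} {im : Cm →ₐ[S] C0} {ε : Fin g → C0}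
variable {O : Type*} [CommRing O] {ι : O →+* Qb} {π : O →+* S}
variable {Jb : Type*} [AddCommGroup Jb] {K : Jb → C0 → Prop}
variable {S' : Type} [CommRing S'] [Algebra O₁ S']
variable {Cp' Cm' C0' : Type*} [CommRing Cp'] [CommRing Cm'] [CommRing C0']
  [Algebra S' Cp'] [Algebra S' Cm'] [Algebra S' C0']
variable {𝔪' : Ideal S'} {ip' : Cp' →ₐ[S'] C0'} {im' : Cm' →ₐ[S'] C0'} {ε' : Fin g → C0'}
variable {O' : Type*} [CommRing O'] {ι' : O' →+* Qb} {π' : O' →+* S'}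
variable {Jb' : Type*} [AddCommGroup Jb'] {K' : Jb' → C0' → Prop}
variable {ψp' : S' ⊗[O₁] Ap →+* Cp'} {ψm' : S' ⊗[O₁] Am →+* Cm'} {ψ0' : S' ⊗[O₁] A0 →+* C0'}
variable {φ : S →+* S'} {χp : Cp →+* Cp'} {χm : Cm →+* Cm'} {χ0 : C0 →+* C0'}

/-- **(C3) at one situation**: a `σ`-semilinear morphism of situations moving the frame `ε` to
`εσ = ψ0' (1 ⊗ εt)` (`εt = σ ε₁` at the base level) transports a representative `a` with
`a_i^e ∈ ℓ A` to the values at `σ a` of the base-level change-of-frame polynomials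
`chgPoly εt hH (g e n + 1)`. -/
theorem RepQb.twist (hB' : BaseQuot ℓ n A ι' π' 𝔪') (hK : KImg 𝔪 ip im K) (H : Hyp 𝔪 ip im ε)
    (H' : Hyp 𝔪' ip' im' ε') (hH : HypAll ip₁ im₁ ε₁)
    (M' : Morph 𝔪' (mapS S' ip₁) (mapS S' im₁) (epsS S' ε₁) 𝔪' ip' im' ε' (RingHom.id S')
      ψp' ψm' ψ0')
    (j' : O₁ →+* O') (hj' : ∀ c, π' (j' c) = algebraMap O₁ S' c)
    (εt : Fin g → A0) (εσ : Fin g → C0') (hεσ : ∀ i, εσ i = ψ0' ((1 : S') ⊗ₜ[O₁] εt i))
    (Mσ : Morph 𝔪 ip im ε 𝔪' ip' im' εσ φ χp χm χ0)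
    (θ : O →+* O') (hθ : ∀ x, φ (π x) = π' (θ x)) (σ : Qb →+* Qb)
    (hσ : ∀ x, ι' (θ x) = σ (ι x)) (hσA : ∀ x ∈ A, σ x ∈ A)
    (act : Jb → Jb') (hKK' : ∀ z v, K z v → K' (act z) (χ0 v)) (e : ℕ) {z : Jb}
    {a : Fin g → Qb} (h : RepQb A H ι π K z a) (hb : ∀ i, a i ^ e ∈ lpow A ℓ 1) :
    RepQb A H' ι' π' K' (act z) (fun i => MvPolynomial.aeval (fun k => σ (a k))
      (MvPolynomial.map (ι'.comp j') (chgPoly εt hH (g * e * n + 1) i))) := by
  obtain ⟨-, a₀, ha₀, v, hv, hπ⟩ := h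
  set t : Fin g → S := H.coord v with ht
  have htπ : ∀ i, t i = π (a₀ i) := fun i => (hπ i).symm
  set c : Fin g → S' := fun i => φ (t i) with hc
  have hcθ : ∀ i, c i = π' (θ (a₀ i)) := fun i => by rw [hc]; simp only; rw [htπ, hθ]
  have hcm : ∀ i, c i ∈ 𝔪' := fun i => Mσ.map_mem _ (H.coord_mem v i)
  have hcpow : ∀ i, c i ^ (e * n) = 0 := fun i => by
    rw [hcθ]
    apply BaseQuot.pow_eq_zero hB'
    rw [hσ, ha₀, ← map_pow]
    exact apply_mem_lpow_of_forall hσA (hb i)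
  -- the small ideal
  set 𝔫' : Ideal S' := Ideal.span (Set.range c) with h𝔫def
  have hle : 𝔫' ≤ 𝔪' := by
    rw [h𝔫def, Ideal.span_le]
    rintro _ ⟨k, rfl⟩
    exact hcm k
  have hpow : 𝔫' ^ (g * e * n + 1) = ⊥ := by
    have h1 := span_range_pow_eq_bot c (m := e * n) hcpow
    have hd : Fintype.card (Fin g) * (e * n) + 1 = g * e * n + 1 := by
      rw [Fintype.card_fin]; ring
    rwa [hd] at h1
  have hc𝔫 : ∀ i, c i ∈ 𝔫' := fun i => Ideal.subset_span ⟨i, rfl⟩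
  -- step 1: `χ0 v ~ beta εσ c`
  have hrel : Rel 𝔪' ip' im' (χ0 v) (beta εσ c) := by
    have := Mσ.map_rel (H.coord_spec (hK.sub_one hv))
    rwa [Mσ.map_beta] at this
  -- step 2: `beta εσ c` comes from the base-level model over `S'`
  have hβ : beta εσ c = ψ0' (beta (epsS S' εt) c) := by
    unfold beta
    rw [map_prod]
    refine Finset.prod_congr rfl fun i _ => ?_
    rw [map_add, map_one, map_mul, M'.alg_0, hεσ]
    rfl
  have H₁' : Hyp 𝔪' (mapS S' ip₁) (mapS S' im₁) (epsS S' ε₁) := hH S' 𝔪' H'.nil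
  have hβ1 : beta (epsS S' εt) c - 1 ∈ ext (S' ⊗[O₁] A0) 𝔪' := beta_sub_one_mem _ hcm
  have hβ𝔫 : beta (epsS S' εt) c - 1 ∈ ext (S' ⊗[O₁] A0) 𝔫' := beta_sub_one_mem _ hc𝔫
  have e1 : H'.coord (χ0 v) = H'.coord (beta εσ c) :=
    H'.coord_congr (beta_sub_one_mem _ hcm) hrel
  have e2 : H'.coord (ψ0' (beta (epsS S' εt) c)) = H₁'.coord (beta (epsS S' εt) c) := by
    have := M'.coord_map H₁' H' hβ1
    simpa using this
  have e3 : H₁'.coord (beta (epsS S' εt) c)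
      = (hH S' 𝔫' ⟨_, hpow⟩).coord (beta (epsS S' εt) c) :=
    Hyp.coord_eq_of_le (hH S' 𝔫' ⟨_, hpow⟩) H₁' hle hβ𝔫
  have e4 := hH.coord_beta_eq_aeval εt (g * e * n + 1) S' hpow hc𝔫
  -- the new representative
  set a₀'' : Fin g → O' := fun i =>
    eval₂ j' (fun k => θ (a₀ k)) (chgPoly εt hH (g * e * n + 1) i) with ha₀''
  have hιa : ∀ i, ι' (a₀'' i) = MvPolynomial.aeval (fun k => σ (a k))
      (MvPolynomial.map (ι'.comp j') (chgPoly εt hH (g * e * n + 1) i)) := by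
    intro i
    rw [ha₀'', ι_eval₂]
    congr 2
    funext k
    rw [hσ, ha₀]
  have hπa : ∀ i, π' (a₀'' i) = H'.coord (χ0 v) i := by
    intro i
    rw [e1, hβ, e2, e3, e4, ha₀'', π_eval₂ π' j' hj']
    congr 2
    funext k
    exact (hcθ k).symm
  refine ⟨fun i => ?_, a₀'', hιa, χ0 v, hKK' z v hv, hπa⟩
  beta_reduce
  rw [← hιa i, ← hB'.mem_iff, hπa]
  exact H'.coord_mem _ i

end Twist

end Fermat.Agent.S19.Cech.WireLaw
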