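/-
S19 / Čech-units route, leaf [WIRE] (helper3), **part C: a family of situations gives the level-wise
representatives `Coord.OfLevels.LevelReps`.**

`Sit ℓ A Jb g n O₁` bundles ONE situation `(level L, precision n)` of `CoordOfLines.lean`
(the rings `S, Cp, Cm, C0`, the frame, `Hyp`, the base ring `O → ℚ̄`, `π : O → S`, `BaseQuot`, the
cocycle images `K` with `KImg`) together with the structure maps from the base level `O₁`
(`Algebra O₁ S`, `j : O₁ → O`).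

Morphisms of situations (all `Prop`-valued, existentially quantified ring homs):
* `Sit.IsHom X Y σ act`   : a `Morph` over `σ : ℚ̄ → ℚ̄` preserving the frames and mapping cocycles of
  `z` to cocycles of `act z` (level inclusion, lowering the precision, inertia);
* `Sit.IsBased X ip₁ im₁ ε₁` : `X` receives the base-level situation (a `Morph` over `id_S` from
  `S ⊗[O₁] A_?`);
* `Sit.IsTwist X Y ip₁ im₁ ε₁ σ act εt` : a `σ`-semilinear `Morph` moving the frame to the image of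
  the base-level family `εt = σ ε₁`.

`levelReps` : a family `X L m` (situation of level `L` and precision `m + 1`) with these morphisms
gives `LevelReps`; composing with `LevelReps.toLevelCoordSystem` this is the whole abstract wiring
of the geometric layer: **[INST] has to construct the family and the morphisms, nothing else.**
-/
import Fermat.Agent.S19.Coord.OfLevels
import Fermat.Agent.S19.Cech.WireLaw

set_option autoImplicit false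

namespace Fermat.Agent.S19.Cech.CoordFamily

open Fermat.Agent.S19.Abs Fermat.Agent.S19.Coord Fermat.Agent.S19.Cech
  Fermat.Agent.S19.Cech.CoordOfLines Fermat.Agent.S19.Coord.OfLevels Fermat.Agent.S19.Order
  TensorProduct MvPolynomial

/-- One situation `(level, precision n)`, bundled, over the base level `O₁`. -/
structure Sit (ℓ : ℕ) (A : ValuationSubring Qb) (Jb : Type) [AddCommGroup Jb] (g n : ℕ)
    (O₁ : Type) [CommRing O₁] where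
  S : Type
  [cS : CommRing S]
  [aS : Algebra O₁ S]
  Cp : Type
  Cm : Type
  C0 : Type
  [cCp : CommRing Cp]
  [cCm : CommRing Cm]
  [cC0 : CommRing C0]
  [aCp : Algebra S Cp]
  [aCm : Algebra S Cm]
  [aC0 : Algebra S C0]
  𝔪 : Ideal S
  ip : Cp →ₐ[S] C0
  im : Cm →ₐ[S] C0
  ε : Fin g → C0
  H : Hyp 𝔪 ip im ε
  O : Type
  [cO : CommRing O]
  ι : O →+* Qb
  π : O →+* S
  hB : BaseQuot ℓ n A ι π 𝔪
  K : Jb → C0 → Prop
  hK : KImg 𝔪 ip im K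
  j : O₁ →+* O
  hj : ∀ c, π (j c) = algebraMap O₁ S c

attribute [instance] Sit.cS Sit.aS Sit.cCp Sit.cCm Sit.cC0 Sit.aCp Sit.aCm Sit.aC0 Sit.cO

section

variable {ℓ : ℕ} {A : ValuationSubring Qb} {Jb : Type} [AddCommGroup Jb] {g : ℕ}
variable {O₁ : Type} [CommRing O₁]
variable {Ap Am A0 : Type} [CommRing Ap] [CommRing Am] [CommRing A0]
  [Algebra O₁ Ap] [Algebra O₁ Am] [Algebra O₁ A0]

namespace Sit

/-- the representatives at a situation -/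
def R {n : ℕ} (X : Sit ℓ A Jb g n O₁) (z : Jb) (a : Fin g → Qb) : Prop :=
  RepQb A X.H X.ι X.π X.K z a

/-- a morphism of situations over `σ`, preserving the frames -/
def IsHom {n n' : ℕ} (X : Sit ℓ A Jb g n O₁) (Y : Sit ℓ A Jb g n' O₁) (σ : Qb →+* Qb)
    (act : Jb → Jb) : Prop :=
  ∃ (φ : X.S →+* Y.S) (ψp : X.Cp →+* Y.Cp) (ψm : X.Cm →+* Y.Cm) (ψ0 : X.C0 →+* Y.C0)
    (θ : X.O →+* Y.O),
    Morph X.𝔪 X.ip X.im X.ε Y.𝔪 Y.ip Y.im Y.ε φ ψp ψm ψ0 ∧ (∀ x, φ (X.π x) = Y.π (θ x)) ∧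
      (∀ x, Y.ι (θ x) = σ (X.ι x)) ∧ ∀ z v, X.K z v → Y.K (act z) (ψ0 v)

/-- the situation receives the base-level situation `(ip₁, im₁, ε₁)` -/
def IsBased {n : ℕ} (X : Sit ℓ A Jb g n O₁) (ip₁ : Ap →ₐ[O₁] A0) (im₁ : Am →ₐ[O₁] A0)
    (ε₁ : Fin g → A0) : Prop :=
  ∃ (ψp : X.S ⊗[O₁] Ap →+* X.Cp) (ψm : X.S ⊗[O₁] Am →+* X.Cm) (ψ0 : X.S ⊗[O₁] A0 →+* X.C0),
    Morph X.𝔪 (mapS X.S ip₁) (mapS X.S im₁) (epsS X.S ε₁) X.𝔪 X.ip X.im X.ε (RingHom.id X.S)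
      ψp ψm ψ0

/-- a `σ`-semilinear morphism of situations moving the frame to the image of the base-level
family `εt` -/
def IsTwist {n : ℕ} (X Y : Sit ℓ A Jb g n O₁) (ip₁ : Ap →ₐ[O₁] A0) (im₁ : Am →ₐ[O₁] A0)
    (ε₁ : Fin g → A0) (σ : Qb →+* Qb) (act : Jb → Jb) (εt : Fin g → A0) : Prop :=
  ∃ (ψp' : Y.S ⊗[O₁] Ap →+* Y.Cp) (ψm' : Y.S ⊗[O₁] Am →+* Y.Cm) (ψ0' : Y.S ⊗[O₁] A0 →+* Y.C0)
    (εσ : Fin g → Y.C0) (φ : X.S →+* Y.S) (χp : X.Cp →+* Y.Cp) (χm : X.Cm →+* Y.Cm)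
    (χ0 : X.C0 →+* Y.C0) (θ : X.O →+* Y.O),
    Morph Y.𝔪 (mapS Y.S ip₁) (mapS Y.S im₁) (epsS Y.S ε₁) Y.𝔪 Y.ip Y.im Y.ε (RingHom.id Y.S)
      ψp' ψm' ψ0' ∧
    (∀ i, εσ i = ψ0' ((1 : Y.S) ⊗ₜ[O₁] εt i)) ∧
    Morph X.𝔪 X.ip X.im X.ε Y.𝔪 Y.ip Y.im εσ φ χp χm χ0 ∧
    (∀ x, φ (X.π x) = Y.π (θ x)) ∧ (∀ x, Y.ι (θ x) = σ (X.ι x)) ∧
    ∀ z v, X.K z v → Y.K (act z) (χ0 v)

variable {n n' : ℕ}

theorem R_nonunit {X : Sit ℓ A Jb g n O₁} {z : Jb} {a : Fin g → Qb} (h : X.R z a) (i : Fin g) :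
    a i ∈ A.nonunits := h.1 i

theorem R_unique (X : Sit ℓ A Jb g n O₁) {z : Jb} {a a' : Fin g → Qb} (h : X.R z a)
    (h' : X.R z a') (i : Fin g) : a i - a' i ∈ lpow A ℓ n :=
  RepQb.unique X.hB X.hK h h' i

theorem R_zero (X : Sit ℓ A Jb g n O₁) : X.R 0 0 := RepQb.zero X.hK X.H

theorem exists_R (X : Sit ℓ A Jb g n O₁) {z : Jb} {v : X.C0} (hv : X.K z v) : ∃ a, X.R z a :=
  RepQb.exists_of_K X.hB X.H hv

theorem IsHom.map {X : Sit ℓ A Jb g n O₁} {Y : Sit ℓ A Jb g n' O₁} {σ : Qb →+* Qb}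
    {act : Jb → Jb} (h : X.IsHom Y σ act) {z : Jb} {a : Fin g → Qb} (ha : X.R z a) :
    Y.R (act z) (fun i => σ (a i)) := by
  obtain ⟨φ, ψp, ψm, ψ0, θ, M, hθ, hσ, hKK⟩ := h
  exact RepQb.map Y.hB X.hK X.H Y.H M θ hθ σ hσ act hKK ha

theorem IsBased.add {X : Sit ℓ A Jb g n O₁} {ip₁ : Ap →ₐ[O₁] A0} {im₁ : Am →ₐ[O₁] A0}
    {ε₁ : Fin g → A0} (h : X.IsBased ip₁ im₁ ε₁) (hH : HypAll ip₁ im₁ ε₁) (e : ℕ) {z z' : Jb}
    {a a' : Fin g → Qb} (ha : X.R z a) (ha' : X.R z' a') (hb : ∀ i, a i ^ e ∈ lpow A ℓ 1)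
    (hb' : ∀ i, a' i ^ e ∈ lpow A ℓ 1) :
    X.R (z + z') (fun i => MvPolynomial.aeval (Sum.elim a a')
      (MvPolynomial.map (X.ι.comp X.j) (lawPoly hH (2 * g * e * n + 1) i))) := by
  obtain ⟨ψp, ψm, ψ0, M⟩ := h
  exact WireLaw.RepQb.add X.hB X.hK X.H hH M X.j X.hj e ha ha' hb hb'

theorem IsTwist.map {X Y : Sit ℓ A Jb g n O₁} {ip₁ : Ap →ₐ[O₁] A0} {im₁ : Am →ₐ[O₁] A0}
    {ε₁ : Fin g → A0} {σ : Qb →+* Qb} {act : Jb → Jb} {εt : Fin g → A0}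
    (h : X.IsTwist Y ip₁ im₁ ε₁ σ act εt) (hH : HypAll ip₁ im₁ ε₁) (hσA : ∀ x ∈ A, σ x ∈ A)
    (e : ℕ) {z : Jb} {a : Fin g → Qb} (ha : X.R z a) (hb : ∀ i, a i ^ e ∈ lpow A ℓ 1) :
    Y.R (act z) (fun i => MvPolynomial.aeval (fun k => σ (a k))
      (MvPolynomial.map (Y.ι.comp Y.j) (chgPoly εt hH (g * e * n + 1) i))) := by
  obtain ⟨ψp', ψm', ψ0', εσ, φ, χp, χm, χ0, θ, M', hεσ, Mσ, hθ, hσ, hKK⟩ := h
  exact WireLaw.RepQb.twist Y.hB X.hK X.H Y.H hH M' Y.j Y.hj εt εσ hεσ Mσ θ hθ σ hσ hσA act hKK e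
    ha hb

end Sit

/-! ### the family -/

variable {actJ : GQ → Jb → Jb}

/-- a polynomial over the base level, mapped to `ℚ̄`, has coefficients in `R^nr` -/
theorem unrCoeffs_map {ι₁ : O₁ →+* Qb} (hι₁ : ∀ c, IsUnr A (ι₁ c)) {κ : Type*}
    (P : MvPolynomial κ O₁) : UnrCoeffs A (MvPolynomial.map ι₁ P) := by
  intro m
  rw [MvPolynomial.coeff_map]
  exact hι₁ _

/-- `σ (P^(σ⁻¹)(a)) = P(σ a)` -/
theorem apply_aeval_map_inv (σ : GQ) {κ : Type*} (P : MvPolynomial κ Qb) (a : κ → Qb) :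
    σ (MvPolynomial.aeval a (MvPolynomial.map ((σ⁻¹ : GQ) : Qb →+* Qb) P))
      = MvPolynomial.aeval (fun k => σ (a k)) P := by
  rw [UnrPoly.apply_aeval, MvPolynomial.map_map]
  have : ((σ : GQ) : Qb →+* Qb).comp ((σ⁻¹ : GQ) : Qb →+* Qb) = RingHom.id Qb := by
    ext x
    change σ (σ⁻¹ x) = x
    change (σ * σ⁻¹) x = x
    rw [mul_inv_cancel]; rfl
  rw [this, MvPolynomial.map_id]

/-- **The level-wise representatives of a family of situations.**  `X L m` is the situation of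
level `L` and precision `m + 1`. -/
noncomputable def levelReps (J1 : AddSubgroup Jb) {Lv : Type} (le : Lv → Lv → Prop)
    (hdir : ∀ L L', ∃ L'', le L L'' ∧ le L' L'')
    (X : Lv → (m : ℕ) → Sit ℓ A Jb g (m + 1) O₁)
    {ip₁ : Ap →ₐ[O₁] A0} {im₁ : Am →ₐ[O₁] A0} {ε₁ : Fin g → A0} (hH : HypAll ip₁ im₁ ε₁)
    (ι₁ : O₁ →+* Qb) (hι₁ : ∀ c, IsUnr A (ι₁ c))
    (hι : ∀ L m c, (X L m).ι ((X L m).j c) = ι₁ c)
    (hbased : ∀ L m, (X L m).IsBased ip₁ im₁ ε₁)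
    (hlift : ∀ L L' m, le L L' → (X L m).IsHom (X L' m) (RingHom.id Qb) id)
    (hmono : ∀ L m, (X L (m + 1)).IsHom (X L m) (RingHom.id Qb) id)
    (hinertia : ∀ σ ∈ A.inertiaSubgroupIn ℚ, ∀ L m,
      ∃ L', (X L m).IsHom (X L' m) ((σ : GQ) : Qb →+* Qb) (actJ σ))
    (htwist : ∀ σ ∈ A.decompositionSubgroup ℚ, ∃ εt : Fin g → A0, ∀ L m,
      ∃ L', (X L m).IsTwist (X L' m) ip₁ im₁ ε₁ ((σ : GQ) : Qb →+* Qb) (actJ σ) εt)
    (hmem : ∀ L m z v, (X L m).K z v → z ∈ J1)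
    (hex : ∀ z ∈ J1, ∃ L, ∀ m, ∃ v, (X L m).K z v)
    (hfixed : ∀ L, ∃ E : IntermediateField ℚ Qb, FiniteDimensional ℚ E ∧
      ∀ m x, ∀ σ ∈ A.inertiaSubgroupIn ℚ, (∀ y ∈ E, σ y = y) → σ ((X L m).ι x) = (X L m).ι x) :
    LevelReps ℓ A Jb actJ where
  g := g
  J1 := J1
  Lv := Lv
  le := le
  R := fun L n z a => ∃ m, n = m + 1 ∧ (X L m).R z a
  directed := hdir
  mem_J1 := by
    rintro L n z a ⟨m, -, -, a₀, -, v, hv, -⟩
    exact hmem L m z v hv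
  nonunit := by
    rintro L n z a ⟨m, -, h⟩
    exact h.1
  exists_rep := by
    intro z hz
    obtain ⟨L, hL⟩ := hex z hz
    refine ⟨L, fun n hn => ?_⟩
    obtain ⟨m, rfl⟩ : ∃ m, n = m + 1 := ⟨n - 1, by omega⟩
    obtain ⟨v, hv⟩ := hL m
    obtain ⟨a, ha⟩ := (X L m).exists_R hv
    exact ⟨a, m, rfl, ha⟩
  fixed := by
    intro L
    obtain ⟨E, hE, hfix⟩ := hfixed L
    refine ⟨E, hE, ?_⟩
    rintro n z a ⟨m, -, -, a₀, ha₀, -⟩ σ hσ hσE i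
    rw [← ha₀ i]
    exact hfix m (a₀ i) σ hσ hσE
  unique := by
    rintro L n z a a' ⟨m, rfl, h⟩ ⟨m', hm', h'⟩ i
    obtain rfl : m' = m := by omega
    exact (X L m').R_unique h h' i
  lift := by
    rintro L L' n z a hle ⟨m, rfl, h⟩
    exact ⟨m, rfl, by simpa using (hlift L L' m hle).map h⟩
  mono := by
    rintro L n z a hn ⟨m, hm, h⟩
    obtain ⟨m', rfl⟩ : ∃ m', n = m' + 1 := ⟨n - 1, by omega⟩
    obtain rfl : m = m' + 1 := by omega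
    exact ⟨m', rfl, by simpa using (hmono L m').map h⟩
  zero := by
    intro n hn
    obtain ⟨m, rfl⟩ : ∃ m, n = m + 1 := ⟨n - 1, by omega⟩
    obtain ⟨L⟩ : Nonempty Lv := by
      obtain ⟨L, -⟩ := hex 0 J1.zero_mem
      exact ⟨L⟩
    exact ⟨L, m, rfl, (X L m).R_zero⟩
  law := by
    intro n e hn he
    obtain ⟨m, rfl⟩ : ∃ m, n = m + 1 := ⟨n - 1, by omega⟩
    refine ⟨fun i => MvPolynomial.map ι₁ (lawPoly hH (2 * g * e * (m + 1) + 1) i),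
      fun i => unrCoeffs_map hι₁ _, ?_⟩
    rintro L z z' a a' ⟨m₁, hm₁, h⟩ ⟨m₂, hm₂, h'⟩ hb hb'
    have e₁ : m₁ = m := by omega
    have e₂ : m₂ = m := by omega
    subst e₁
    subst e₂
    refine ⟨m₂, rfl, ?_⟩
    have hιj : (X L m₂).ι.comp (X L m₂).j = ι₁ := RingHom.ext fun c => hι L m₂ c
    have := (hbased L m₂).add hH e h h' hb hb'
    rwa [hιj] at this
  twist := by
    intro σ hσ n e hn he
    obtain ⟨m, rfl⟩ : ∃ m, n = m + 1 := ⟨n - 1, by omega⟩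
    obtain ⟨εt, hεt⟩ := htwist σ hσ
    refine ⟨fun i => MvPolynomial.map ((σ⁻¹ : GQ) : Qb →+* Qb)
      (MvPolynomial.map ι₁ (chgPoly εt hH (g * e * (m + 1) + 1) i)),
      fun i => UnrPoly.UnrCoeffs.map_of_mem_decomposition (inv_mem_decomposition hσ)
        (unrCoeffs_map hι₁ _), ?_⟩
    rintro L z a ⟨m₁, hm₁, h⟩ hb
    have e₁ : m = m₁ := by omega
    subst e₁
    obtain ⟨L', hL'⟩ := hεt L m
    refine ⟨L', m, rfl, ?_⟩
    have hιj : (X L' m).ι.comp (X L' m).j = ι₁ := RingHom.ext fun c => hι L' m c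
    have := hL'.map hH (fun x hx => UnrPoly.apply_mem_of_mem_decomposition hσ hx) e h hb
    rw [hιj] at this
    have e1 : (fun i => σ (MvPolynomial.aeval a (MvPolynomial.map ((σ⁻¹ : GQ) : Qb →+* Qb)
        (MvPolynomial.map ι₁ (chgPoly εt hH (g * e * (m + 1) + 1) i)))))
        = fun i => MvPolynomial.aeval (fun k => ((σ : GQ) : Qb →+* Qb) (a k))
          (MvPolynomial.map ι₁ (chgPoly εt hH (g * e * (m + 1) + 1) i)) := by
      funext i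
      exact apply_aeval_map_inv σ _ a
    rw [e1]
    exact this
  inertia := by
    rintro σ hσ L n z a ⟨m, rfl, h⟩
    obtain ⟨L', hL'⟩ := hinertia σ hσ L m
    exact ⟨L', m, rfl, hL'.map h⟩

/-- **The contract `LevelCoordSystem` from a family of situations.**  Separation enters at ONE
level per class (`hsep`): a class `z` has a level `L₀` carrying cocycles of all precisions and a
bound `m₀` such that the vanishing of the coordinates of a cocycle at `(L₀, m)`, `m ≥ m₀`, forces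
`z = 0` (`SepWire`). -/
noncomputable def levelCoordSystem (hA : A.LiesOverPrime ℓ) (J1 U : AddSubgroup Jb) {Lv : Type}
    (le : Lv → Lv → Prop) (hdir : ∀ L L', ∃ L'', le L L'' ∧ le L' L'')
    (X : Lv → (m : ℕ) → Sit ℓ A Jb g (m + 1) O₁)
    {ip₁ : Ap →ₐ[O₁] A0} {im₁ : Am →ₐ[O₁] A0} {ε₁ : Fin g → A0} (hH : HypAll ip₁ im₁ ε₁)
    (ι₁ : O₁ →+* Qb) (hι₁ : ∀ c, IsUnr A (ι₁ c))
    (hι : ∀ L m c, (X L m).ι ((X L m).j c) = ι₁ c)
    (hbased : ∀ L m, (X L m).IsBased ip₁ im₁ ε₁)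
    (hlift : ∀ L L' m, le L L' → (X L m).IsHom (X L' m) (RingHom.id Qb) id)
    (hmono : ∀ L m, (X L (m + 1)).IsHom (X L m) (RingHom.id Qb) id)
    (hinertia : ∀ σ ∈ A.inertiaSubgroupIn ℚ, ∀ L m,
      ∃ L', (X L m).IsHom (X L' m) ((σ : GQ) : Qb →+* Qb) (actJ σ))
    (htwist : ∀ σ ∈ A.decompositionSubgroup ℚ, ∃ εt : Fin g → A0, ∀ L m,
      ∃ L', (X L m).IsTwist (X L' m) ip₁ im₁ ε₁ ((σ : GQ) : Qb →+* Qb) (actJ σ) εt)
    (hmem : ∀ L m z v, (X L m).K z v → z ∈ J1)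
    (hex : ∀ z ∈ J1, ∃ L, ∀ m, ∃ v, (X L m).K z v)
    (hfixed : ∀ L, ∃ E : IntermediateField ℚ Qb, FiniteDimensional ℚ E ∧
      ∀ m x, ∀ σ ∈ A.inertiaSubgroupIn ℚ, (∀ y ∈ E, σ y = y) → σ ((X L m).ι x) = (X L m).ι x)
    (hsep : ∀ z ∈ J1, ∃ L₀, (∀ m, ∃ v, (X L₀ m).K z v) ∧ ∃ m₀, ∀ m, m₀ ≤ m → ∀ v,
      (X L₀ m).K z v → (X L₀ m).H.coord v = 0 → z = 0)
    (J1_stable : ∀ σ ∈ A.decompositionSubgroup ℚ, ∀ z ∈ J1, actJ σ z ∈ J1)
    (inertia_sub_mem : ∀ σ ∈ A.inertiaSubgroupIn ℚ, ∀ y : Jb, actJ σ y - y ∈ J1)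
    (U_fixed : ∀ σ ∈ A.inertiaSubgroupIn ℚ, ∀ z ∈ U, actJ σ z = z)
    (U_stable : ∀ σ ∈ A.decompositionSubgroup ℚ, ∀ z ∈ U, actJ σ z ∈ U)
    (exists_lift : ∀ y : Jb, ∃ x ∈ U, y - x ∈ J1) : LevelCoordSystem ℓ A Jb actJ :=
  (levelReps (actJ := actJ) J1 le hdir X hH ι₁ hι₁ hι hbased hlift hmono hinertia htwist hmem hex
    hfixed).toLevelCoordSystem hA U J1_stable
    (by
      intro z hz h
      obtain ⟨L₀, hK₀, m₀, hm₀⟩ := hsep z hz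
      obtain ⟨L, a, ⟨m, hm, ha⟩, ha0⟩ := h (m₀ + 1) (Nat.succ_pos m₀)
      obtain rfl : m₀ = m := by omega
      obtain ⟨v₀, hv₀⟩ := hK₀ m₀
      obtain ⟨a₀, ha₀⟩ := (X L₀ m₀).exists_R hv₀
      obtain ⟨L', h1, h2⟩ := hdir L₀ L
      have h3 : (X L' m₀).R z a₀ := by simpa using (hlift L₀ L' m₀ h1).map ha₀
      have h4 : (X L' m₀).R z a := by simpa using (hlift L L' m₀ h2).map ha
      have h5 : ∀ i, a₀ i ∈ lpow A ℓ (m₀ + 1) := by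
        intro i
        have := UnrPoly.add_mem_lpow ((X L' m₀).R_unique h3 h4 i) (ha0 i)
        rwa [sub_add_cancel] at this
      exact hm₀ m₀ le_rfl v₀ hv₀ (RepQb.coord_eq_zero (X L₀ m₀).hB (X L₀ m₀).hK ha₀ h5 hv₀))
    inertia_sub_mem U_fixed U_stable exists_lift

end

end Fermat.Agent.S19.Cech.CoordFamily
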