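/-
S19 / Čech-units route, leaf **[SEPW]** of the DAG v1, part 3 (helper5): the `Transport` and the
`Lift` properties for the TENSOR MODELS of the deformation situation (DAG v1, ruling R3(b)):

  `q_? : B_? ⟶ (O ⧸ I) ⊗[O] B_?`,  `b ↦ 1 ⊗ b`,   `I = (π ^ (k + 1))`,

for `O`-subalgebras `Bp, Bm ≤ B0` of a domain `F` (the two charts and their overlap at one level
`(K, O)`), `S = O ⧸ I`, `𝔪 = (π)·S`, `ip = mapS S (inclusion)`, `im = mapS S (inclusion)` — the
situation on which `Hyp` is produced by `HypBaseChange.hyp_baseChange` / `Base.hyp`.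

* `qRed I B : B →+* (O ⧸ I) ⊗[O] B` (on the underlying subring of `B`), `qRed_surjective`,
  `qRed_eq_zero_iff` (`ker = I·B`), `qRed_algebraMap`;
* `transport : Cocycle.Transport C 𝔪 (mapS S ip) (mapS S im) k (qRed ..) (qRed ..) (qRed ..)`;
* `lift : SepWire.Lift C 𝔪 k (qRed ..) (qRed ..) (qRed ..)`;
* `exists_isOne_mem_of_coord_eq_zero` : the abstract (C6) for the tensor model;
* `isPrincipal_of_coord_eq_zero` : **(C6) at one level, tensor-model form**, for the divisorial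
  modules of `DivModule.lean` on the charts `chartAlg O F {j}`, `chartAlg O F {j⁻¹}`,
  `chartAlg O F {j, j⁻¹}`.
-/
import Fermat.Agent.S19.Cech.SepWireDiv
import Fermat.Agent.S19.Cech.BaseHyp

set_option autoImplicit false
set_option linter.unusedSectionVars false

open TensorProduct
open Fermat.Agent.S19.Cech Fermat.Agent.S19.Cech.Cocycle

namespace Fermat.Agent.S19.Cech.SepWireTensor

section Red

variable {O : Type*} [CommRing O] {F : Type*} [CommRing F] [Algebra O F]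

/-- The reduction map `B → (O ⧸ I) ⊗[O] B`, `b ↦ 1 ⊗ b`, on the underlying subring of `B`. -/
noncomputable def qRed (I : Ideal O) (B : Subalgebra O F) : ↥B.toSubring →+* (O ⧸ I) ⊗[O] ↥B :=
  (Algebra.TensorProduct.includeRight : ↥B →ₐ[O] (O ⧸ I) ⊗[O] ↥B).toRingHom

theorem qRed_apply (I : Ideal O) (B : Subalgebra O F) (b : ↥B.toSubring) :
    qRed I B b = (1 : O ⧸ I) ⊗ₜ[O] (⟨b.1, b.2⟩ : ↥B) := rfl

theorem qRed_surjective (I : Ideal O) (B : Subalgebra O F) : Function.Surjective (qRed I B) := by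
  intro t
  induction t using TensorProduct.induction_on with
  | zero => exact ⟨0, map_zero _⟩
  | tmul s b =>
    obtain ⟨o, rfl⟩ := Ideal.Quotient.mk_surjective s
    refine ⟨⟨(o • b : ↥B).1, (o • b : ↥B).2⟩, ?_⟩
    rw [qRed_apply]
    have h1 : (Ideal.Quotient.mk I o : O ⧸ I) = o • (1 : O ⧸ I) := by
      rw [Algebra.smul_def, mul_one]; rfl
    rw [h1, TensorProduct.smul_tmul]
  | add x y hx hy =>
    obtain ⟨a, rfl⟩ := hx
    obtain ⟨b, rfl⟩ := hy
    exact ⟨a + b, map_add _ _ _⟩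

/-- the image of a constant -/
theorem qRed_algebraMap (I : Ideal O) (B : Subalgebra O F) (o : O)
    (h : algebraMap O F o ∈ B.toSubring) :
    qRed I B ⟨algebraMap O F o, h⟩ =
      algebraMap (O ⧸ I) ((O ⧸ I) ⊗[O] ↥B) (Ideal.Quotient.mk I o) := by
  rw [qRed_apply, Algebra.TensorProduct.algebraMap_apply]
  have h1 : (⟨algebraMap O F o, h⟩ : ↥B) = o • (1 : ↥B) := by
    apply Subtype.ext
    rw [Algebra.smul_def, mul_one]; rfl
  have h2 : (Ideal.Quotient.mk I o : O ⧸ I) = o • (1 : O ⧸ I) := by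
    rw [Algebra.smul_def, mul_one]; rfl
  rw [h1, h2, ← TensorProduct.smul_tmul]
  rfl

/-- the kernel of the reduction map is `I·B` -/
theorem mem_smul_top_of_qRed_eq_zero (I : Ideal O) (B : Subalgebra O F) (b : ↥B.toSubring)
    (h : qRed I B b = 0) : (⟨b.1, b.2⟩ : ↥B) ∈ I • (⊤ : Submodule O ↥B) := by
  have h1 := congrArg (TensorProduct.quotTensorEquivQuotSMul (↥B) I) h
  rw [qRed_apply, TensorProduct.quotTensorEquivQuotSMul_mk_one_tmul, map_zero,
    Submodule.Quotient.mk_eq_zero] at h1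
  exact h1

/-- for a principal ideal: `ker = c·B` -/
theorem exists_eq_mul_of_qRed_eq_zero {I : Ideal O} {c : O} (hI : I = Ideal.span {c})
    (B : Subalgebra O F) (b : ↥B.toSubring) (h : qRed I B b = 0) :
    ∃ b' : ↥B.toSubring, (b : F) = algebraMap O F c * (b' : F) := by
  have h1 := mem_smul_top_of_qRed_eq_zero I B b h
  rw [hI, Submodule.ideal_span_singleton_smul, Submodule.mem_smul_pointwise_iff_exists] at h1
  obtain ⟨x, -, hx⟩ := h1
  refine ⟨⟨x.1, x.2⟩, ?_⟩
  have h2 : ((c • x : ↥B) : F) = (b : F) := congrArg Subtype.val hx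
  rw [← h2, Algebra.smul_def]
  rfl

end Red

section Main

variable {O : Type*} [CommRing O] {F : Type*} [CommRing F] [IsDomain F] [Algebra O F]
  {Bp Bm B0 : Subalgebra O F} {Rg : Subring F} (hp : Bp ≤ B0) (hm : Bm ≤ B0)
  {π : O} (C : Charts (algebraMap O F π) Bp.toSubring Bm.toSubring B0.toSubring Rg)
  {I : Ideal O} {k : ℕ} (hI : I = Ideal.span {π ^ (k + 1)})
  {𝔪 : Ideal (O ⧸ I)} (h𝔪 : 𝔪 = Ideal.span {Ideal.Quotient.mk I π})

include hI h𝔪

/-- **The `Transport` of the tensor model.** -/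
theorem transport :
    Transport C 𝔪 (mapS (O ⧸ I) (Subalgebra.inclusion hp)) (mapS (O ⧸ I) (Subalgebra.inclusion hm))
      k (qRed I Bp) (qRed I Bm) (qRed I B0) where
  compat_p := fun b => by
    rw [qRed_apply, qRed_apply, mapS_tmul]
    rfl
  compat_m := fun b => by
    rw [qRed_apply, qRed_apply, mapS_tmul]
    rfl
  unif_p := ⟨Ideal.Quotient.mk I π, by rw [h𝔪]; exact Ideal.subset_span rfl,
    qRed_algebraMap I Bp π C.mem_p⟩
  unif_m := ⟨Ideal.Quotient.mk I π, by rw [h𝔪]; exact Ideal.subset_span rfl,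
    qRed_algebraMap I Bm π C.mem_m⟩
  unif_0 := ⟨Ideal.Quotient.mk I π, by rw [h𝔪]; exact Ideal.subset_span rfl,
    qRed_algebraMap I B0 π C.mem_0⟩
  kill := by
    have h1 : (⟨algebraMap O F π ^ (k + 1), B0.toSubring.pow_mem C.mem_0 (k + 1)⟩ :
        ↥B0.toSubring) = ⟨algebraMap O F (π ^ (k + 1)), by
          rw [map_pow]; exact B0.toSubring.pow_mem C.mem_0 (k + 1)⟩ := by
      apply Subtype.ext
      simp only [map_pow]
    rw [h1, qRed_algebraMap, (Ideal.Quotient.eq_zero_iff_mem).mpr, map_zero]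
    rw [hI]
    exact Ideal.subset_span rfl

/-- **The `Lift` properties of the tensor model.** -/
theorem lift : SepWire.Lift C 𝔪 k (qRed I Bp) (qRed I Bm) (qRed I B0) where
  lift_p := SepWire.lift_of_surjective C.mem_p (qRed I Bp) (qRed_surjective I Bp) h𝔪
    (qRed_algebraMap I Bp π C.mem_p)
  lift_m := SepWire.lift_of_surjective C.mem_m (qRed I Bm) (qRed_surjective I Bm) h𝔪
    (qRed_algebraMap I Bm π C.mem_m)
  ker_0 := fun b hb => by
    obtain ⟨c, hc⟩ := exists_eq_mul_of_qRed_eq_zero hI B0 b hb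
    refine ⟨c, Subtype.ext ?_⟩
    rw [hc, map_pow]
    rfl

variable {g : ℕ} {ε : Fin g → (O ⧸ I) ⊗[O] ↥B0}

include C in
/-- **Abstract (C6) for the tensor model**: if the `π`-power torsion of `H¹` of the line bundle is
killed by `π ^ n₀` and the Čech coordinates of its class in `Ĵ(O ⧸ π^(k+1))` vanish for ONE
`k + 1 > n₀`, the line bundle has a global generator. -/
theorem exists_isOne_mem_of_coord_eq_zero
    (H : Hyp 𝔪 (mapS (O ⧸ I) (Subalgebra.inclusion hp)) (mapS (O ⧸ I) (Subalgebra.inclusion hm)) ε)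
    (L : Line (algebraMap O F π) Bp.toSubring Bm.toSubring B0.toSubring Rg) {n₀ : ℕ}
    (hT : SepWire.BoundedTorsion L n₀) (hk : n₀ < k + 1) {fp fm u : F}
    (hfp : fp ∈ L.Lp) (h1p : IsOne (algebraMap O F π) Rg fp) (hfm : fm ∈ L.Lm)
    (h1m : IsOne (algebraMap O F π) Rg fm) (hc : L.IsCocycle (k + 1) fp fm u)
    (hcoord : H.coord (qRed I B0 ⟨u, hc.1⟩) = 0) :
    ∃ s ∈ L.Lp, s ∈ L.Lm ∧ IsOne (algebraMap O F π) Rg s :=
  SepWire.exists_isOne_mem_of_coord_eq_zero C (transport hp hm C hI h𝔪) (lift C hI h𝔪) H L hT hk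
    hfp h1p hfm h1m hc hcoord

end Main

/-! ### (C6) at one level, tensor-model form, for the divisorial modules -/

section Div

open AlgebraicCurve IntermediateField
open Fermat.Agent.N4.Chart Fermat.Agent.S19.Cech.DivModule

variable {O K F : Type*} [CommRing O] [IsDomain O] [Field K] [Algebra O K] [IsFractionRing O K]
  [Field F] [Algebra K F] [Algebra O F] [IsScalarTower O K F] [CharZero K]
  {j : F} {W : Subalgebra O F} (h : GaussRing j W) (D : Divisor K F)
  [IsIntegrallyClosed O] [IsNoetherianRing O] (hj : Transcendental K j) [FiniteDimensional K⟮j⟯ F]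

/-- the inclusion of the chart `j ≠ ∞` into the overlap -/
theorem fin_le_mid (j : F) : chartAlg O F {j} ≤ chartAlg O F {j, j⁻¹} :=
  fun _ hx => chartAlg_mono (singleton_subset_pair j) hx

/-- the inclusion of the chart `j ≠ 0` into the overlap -/
theorem inf_le_mid (j : F) : chartAlg O F {j⁻¹} ≤ chartAlg O F {j, j⁻¹} :=
  fun _ hx => chartAlg_mono (singleton_inv_subset_pair j) hx

variable {Rg : Subring F} {π : O}
  (C : Charts (algebraMap O F π) (chartAlg O F {j}).toSubring (chartAlg O F {j⁻¹}).toSubring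
    (chartAlg O F {j, j⁻¹}).toSubring Rg)
  {I : Ideal O} {k : ℕ} (hI : I = Ideal.span {π ^ (k + 1)})
  {𝔪 : Ideal (O ⧸ I)} (h𝔪 : 𝔪 = Ideal.span {Ideal.Quotient.mk I π})
  {g : ℕ} {ε : Fin g → (O ⧸ I) ⊗[O] ↥(chartAlg O F {j, j⁻¹})}

include h hj hI h𝔪 C in
/-- **(C6) at one level, tensor-model form.**  `D` a divisor of degree `0` at the level `(K, O)`,
`L` its line bundle (carriers `ℒ₊(D)`, `ℒ₋(D)`, `ℒ₀(D)`), `n₀` a bound for the `π`-power torsion of
`H¹(D)` (`SepWireDiv.exists_lineBoundedTorsion`).  If the Čech coordinates of the class of `L` in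
`Ĵ(O ⧸ π^(k+1))` — computed in the tensor model `(O ⧸ π^(k+1)) ⊗[O] B_?` — vanish for ONE
`k + 1 > n₀`, then `D` is principal. -/
theorem isPrincipal_of_coord_eq_zero (hdeg : Divisor.degree D = 0)
    (L : Line (algebraMap O F π) (chartAlg O F {j}).toSubring (chartAlg O F {j⁻¹}).toSubring
      (chartAlg O F {j, j⁻¹}).toSubring Rg)
    (hLp : ∀ x, x ∈ L.Lp ↔ x ∈ Lp W j D) (hLm : ∀ x, x ∈ L.Lm ↔ x ∈ Lm W j D)
    {n₀ : ℕ} (hT : SepWire.BoundedTorsion L n₀) (hk : n₀ < k + 1)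
    (H : Hyp 𝔪 (mapS (O ⧸ I) (Subalgebra.inclusion (fin_le_mid (O := O) j)))
      (mapS (O ⧸ I) (Subalgebra.inclusion (inf_le_mid (O := O) j))) ε)
    {fp fm u : F} (hfp : fp ∈ L.Lp) (h1p : IsOne (algebraMap O F π) Rg fp) (hfm : fm ∈ L.Lm)
    (h1m : IsOne (algebraMap O F π) Rg fm) (hc : L.IsCocycle (k + 1) fp fm u)
    (hcoord : H.coord (qRed I (chartAlg O F {j, j⁻¹}) ⟨u, hc.1⟩) = 0) :
    D ∈ Divisor.principal (K := K) (F := F) :=
  SepWireDiv.isPrincipal_of_coord_eq_zero h D hj hdeg C L hLp hLm hT hk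
    (transport (fin_le_mid j) (inf_le_mid j) C hI h𝔪) (lift C hI h𝔪) H hfp h1p hfm h1m hc hcoord

end Div

end Fermat.Agent.S19.Cech.SepWireTensor
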