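/-
S19 / Čech-units route, leaf [TRANSPORT] (helper21): **transport of the abstract cocycle data of
`Cocycle.lean` along ring homomorphisms of the ambient ring.**  Mathlib only (+ `Cocycle`).
(For the idelic data of `Idele.lean` the corresponding lemmas are `Idele.Rel.map`,
`Idele.IsSol.map`.)

Two situations are covered by the same lemmas:

* **Galois**: `φ` an automorphism of the ambient field (`Galois.gal N σ` on `Fb N`, `σ ∈ D_A`)
  preserving the charts `Bp, Bm, B0` and the Gauss ring `Rg` of a Galois-stable level, with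
  `φ ϖ = c ϖ`, `c` a unit of the base;
* **change of level** `K ≤ K'`: `φ` the inclusion, `φ ϖ_K = c ϖ_{K'} ^ e`.

Contents:

* `IsOne.map`, `isCocycle_map` : `IsOne` and `Line.IsCocycle` along a ring homomorphism
  (`IsCocycle k ↦ IsCocycle (e * k)`);
* `Equivariant` : the hypotheses for an isomorphism `φ : F ≃+* F'` (`φ ϖ = c ϖ'`, `c` a unit of
  `Bp' ⊓ Bm'`, `φ` maps `Bp, Bm, B0, Rg` ONTO `Bp', Bm', B0', Rg'`); `Equivariant.symm`;
* `Equivariant.charts` : transport of `Charts`;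
* `Equivariant.mapLine` : the image `φ(L)` of a `Line`, with `mem_mapLine_Lp/Lm/L0`;
  `Equivariant.isOne_iff`, `Equivariant.isCocycle_mapLine_iff`;
* `Equivariant.isCocycle_of_image` : the form used for divisorial modules: if `L'` is ANY line
  with `L'.L0 ⊇ φ(L.L0)` (e.g. `L' = lineOf (σ • D)`), cocycles of `L` map to cocycles of `L'`.
-/
import Mathlib
import Fermat.Agent.S19.Cech.Cocycle

set_option autoImplicit false
set_option linter.unusedSectionVars false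

namespace Fermat.Agent.S19.Cech.TransportAut

open Fermat.Agent.S19.Cech.Cocycle

variable {F F' : Type*} [CommRing F] [IsDomain F] [CommRing F'] [IsDomain F']

/-! ### Along a ring homomorphism -/

section Hom

variable {ϖ : F} {ϖ' c : F'} {Bp Bm B0 Rg : Subring F} {Bp' Bm' B0' Rg' : Subring F'}

/-- `f ≡ 1 mod ϖ Rg ⟹ φ f ≡ 1 mod ϖ' Rg'`, when `φ ϖ = c ϖ'ᵉ`, `e ≥ 1`. -/
theorem IsOne.map (φ : F →+* F') {e : ℕ} (he : 1 ≤ e) (hϖ : φ ϖ = c * ϖ' ^ e) (hc : c ∈ Rg')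
    (hϖ' : ϖ' ∈ Rg') (hR : ∀ r ∈ Rg, φ r ∈ Rg') {f : F} (h : IsOne ϖ Rg f) :
    IsOne ϖ' Rg' (φ f) := by
  obtain ⟨r, hr, rfl⟩ := h
  obtain ⟨e, rfl⟩ := Nat.exists_eq_add_of_le he
  refine ⟨c * ϖ' ^ e * φ r, Rg'.mul_mem (Rg'.mul_mem hc (Rg'.pow_mem hϖ' e)) (hR r hr), ?_⟩
  rw [map_add, map_one, map_mul, hϖ]
  ring

/-- **Cocycles along a ring homomorphism**: `IsCocycle k` for `L` gives `IsCocycle (e k)` for any
line `L'` of the target whose overlap module contains the image of the one of `L`. -/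
theorem isCocycle_map (φ : F →+* F') {e : ℕ} (hϖ : φ ϖ = c * ϖ' ^ e)
    (L : Line ϖ Bp Bm B0 Rg) (L' : Line ϖ' Bp' Bm' B0' Rg') (hc : c ∈ B0')
    (hB0 : ∀ b ∈ B0, φ b ∈ B0') (hL0 : ∀ x ∈ L.L0, φ x ∈ L'.L0) {k : ℕ} {fp fm u : F}
    (h : L.IsCocycle k fp fm u) : L'.IsCocycle (e * k) (φ fp) (φ fm) (φ u) := by
  obtain ⟨hu, y, hy, e1⟩ := h
  refine ⟨hB0 u hu, c ^ k * φ y, L'.smul_0 _ (B0'.pow_mem hc k) _ (hL0 y hy), ?_⟩
  rw [e1, map_add, map_mul, map_mul, map_pow, hϖ]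
  ring

end Hom

/-! ### Along an isomorphism -/

section Iso

variable {ϖ : F} {ϖ' : F'} {Bp Bm B0 Rg : Subring F} {Bp' Bm' B0' Rg' : Subring F'}

/-- **The hypotheses of transport along an isomorphism** `φ : F ≃+* F'` of the ambient rings:
`φ ϖ = c ϖ'` with `c` a unit of `Bp' ⊓ Bm'` (inverse `d`), and `φ` maps the four rings onto the
four rings. -/
structure Equivariant (φ : F ≃+* F') (ϖ : F) (ϖ' c d : F') (Bp Bm B0 Rg : Subring F)
    (Bp' Bm' B0' Rg' : Subring F') : Prop where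
  map_ϖ : φ ϖ = c * ϖ'
  mul_inv : c * d = 1
  c_mem_p : c ∈ Bp'
  c_mem_m : c ∈ Bm'
  d_mem_p : d ∈ Bp'
  d_mem_m : d ∈ Bm'
  mem_p : ∀ x, φ x ∈ Bp' ↔ x ∈ Bp
  mem_m : ∀ x, φ x ∈ Bm' ↔ x ∈ Bm
  mem_0 : ∀ x, φ x ∈ B0' ↔ x ∈ B0
  mem_R : ∀ x, φ x ∈ Rg' ↔ x ∈ Rg

namespace Equivariant

variable {φ : F ≃+* F'} {c d : F'}

/-- The inverse transport. -/
theorem symm (T : Equivariant φ ϖ ϖ' c d Bp Bm B0 Rg Bp' Bm' B0' Rg') :
    Equivariant φ.symm ϖ' ϖ (φ.symm d) (φ.symm c) Bp' Bm' B0' Rg' Bp Bm B0 Rg where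
  map_ϖ := by
    apply φ.injective
    rw [map_mul, φ.apply_symm_apply, φ.apply_symm_apply, T.map_ϖ, ← mul_assoc, mul_comm d c,
      T.mul_inv, one_mul]
  mul_inv := by
    apply φ.injective
    rw [map_mul, φ.apply_symm_apply, φ.apply_symm_apply, map_one, mul_comm, T.mul_inv]
  c_mem_p := (T.mem_p _).1 (by rw [φ.apply_symm_apply]; exact T.d_mem_p)
  c_mem_m := (T.mem_m _).1 (by rw [φ.apply_symm_apply]; exact T.d_mem_m)
  d_mem_p := (T.mem_p _).1 (by rw [φ.apply_symm_apply]; exact T.c_mem_p)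
  d_mem_m := (T.mem_m _).1 (by rw [φ.apply_symm_apply]; exact T.c_mem_m)
  mem_p x := by rw [← T.mem_p, φ.apply_symm_apply]
  mem_m x := by rw [← T.mem_m, φ.apply_symm_apply]
  mem_0 x := by rw [← T.mem_0, φ.apply_symm_apply]
  mem_R x := by rw [← T.mem_R, φ.apply_symm_apply]

variable (T : Equivariant φ ϖ ϖ' c d Bp Bm B0 Rg Bp' Bm' B0' Rg')
include T

theorem map_ϖ' : ϖ' = d * φ ϖ := by
  rw [T.map_ϖ, ← mul_assoc, mul_comm d c, T.mul_inv, one_mul]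

/-- Transport of the ring-level hypotheses. -/
theorem charts (C : Charts ϖ Bp Bm B0 Rg) : Charts ϖ' Bp' Bm' B0' Rg' := by
  have hp : ∀ x ∈ Bp, φ x ∈ Bp' := fun x hx => (T.mem_p x).2 hx
  have hm : ∀ x ∈ Bm, φ x ∈ Bm' := fun x hx => (T.mem_m x).2 hx
  have hp_le : Bp' ≤ B0' := by
    intro x hx
    have h1 : φ.symm x ∈ Bp := (T.mem_p _).1 (by rwa [φ.apply_symm_apply])
    have h2 := (T.mem_0 _).2 (C.p_le h1)
    rwa [φ.apply_symm_apply] at h2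
  have hm_le : Bm' ≤ B0' := by
    intro x hx
    have h1 : φ.symm x ∈ Bm := (T.mem_m _).1 (by rwa [φ.apply_symm_apply])
    have h2 := (T.mem_0 _).2 (C.m_le h1)
    rwa [φ.apply_symm_apply] at h2
  have hle_R : B0' ≤ Rg' := by
    intro x hx
    have h1 : φ.symm x ∈ B0 := (T.mem_0 _).1 (by rwa [φ.apply_symm_apply])
    have h2 := (T.mem_R _).2 (C.le_R h1)
    rwa [φ.apply_symm_apply] at h2
  have hcR : c ∈ Rg' := hle_R (hp_le T.c_mem_p)
  have hdR : d ∈ Rg' := hle_R (hp_le T.d_mem_p)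
  -- `ϖ' r' = φ (ϖ · φ⁻¹(d r'))`
  have key : ∀ r' : F', ϖ' * r' = φ (ϖ * φ.symm (d * r')) := by
    intro r'
    rw [map_mul, φ.apply_symm_apply, T.map_ϖ]
    calc ϖ' * r' = (c * d) * (ϖ' * r') := by rw [T.mul_inv, one_mul]
      _ = c * ϖ' * (d * r') := by ring
  have hsat : ∀ (B : Subring F) (B' : Subring F'), (∀ x, φ x ∈ B' ↔ x ∈ B) → c ∈ B' →
      (∀ r ∈ Rg, ϖ * r ∈ B → r ∈ B) → ∀ r' ∈ Rg', ϖ' * r' ∈ B' → r' ∈ B' := by
    intro B B' hB hcB hs r' hr' h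
    rw [key r', hB] at h
    have h1 : φ.symm (d * r') ∈ Rg :=
      (T.mem_R _).1 (by rw [φ.apply_symm_apply]; exact Rg'.mul_mem hdR hr')
    have h2 := (hB _).2 (hs _ h1 h)
    rw [φ.apply_symm_apply] at h2
    have h3 : r' = c * (d * r') := by rw [← mul_assoc, T.mul_inv, one_mul]
    rw [h3]
    exact B'.mul_mem hcB h2
  refine ⟨?_, ?_, ?_, hp_le, hm_le, hle_R, ?_, ?_, ?_, ?_⟩
  · intro h0
    have h1 : φ ϖ = 0 := by rw [T.map_ϖ, h0, mul_zero]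
    exact C.ne_zero (φ.injective (by rw [h1, map_zero]))
  · rw [T.map_ϖ']
    exact Bp'.mul_mem T.d_mem_p (hp ϖ C.mem_p)
  · rw [T.map_ϖ']
    exact Bm'.mul_mem T.d_mem_m (hm ϖ C.mem_m)
  · intro r' hr'
    have h1 : φ.symm (d * r') ∈ Rg :=
      (T.mem_R _).1 (by rw [φ.apply_symm_apply]; exact Rg'.mul_mem hdR hr')
    obtain ⟨s, hs, e⟩ := C.unit _ h1
    refine ⟨φ s, (T.mem_R s).2 hs, ?_⟩
    rw [key r', ← map_one φ, ← map_add, ← map_mul, e]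
  · exact hsat Bp Bp' T.mem_p T.c_mem_p C.sat_p
  · exact hsat Bm Bm' T.mem_m T.c_mem_m C.sat_m
  · exact hsat B0 B0' T.mem_0 (hp_le T.c_mem_p) C.sat_0

/-- `f ≡ 1 mod ϖ Rg ⟺ φ f ≡ 1 mod ϖ' Rg'`. -/
theorem isOne_iff (hcR : c ∈ Rg') (hdR : d ∈ Rg') {f : F} :
    IsOne ϖ' Rg' (φ f) ↔ IsOne ϖ Rg f := by
  constructor
  · rintro ⟨r', hr', e⟩
    refine ⟨φ.symm (d * r'), (T.mem_R _).1 (by
      rw [φ.apply_symm_apply]; exact Rg'.mul_mem hdR hr'), ?_⟩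
    apply φ.injective
    rw [e, map_add, map_one, map_mul, φ.apply_symm_apply, T.map_ϖ]
    calc 1 + ϖ' * r' = 1 + (c * d) * (ϖ' * r') := by rw [T.mul_inv, one_mul]
      _ = 1 + c * ϖ' * (d * r') := by ring
  · rintro ⟨r, hr, rfl⟩
    refine ⟨c * φ r, Rg'.mul_mem hcR ((T.mem_R r).2 hr), ?_⟩
    rw [map_add, map_one, map_mul, T.map_ϖ]
    ring

/-- **The image of a line** under the isomorphism `φ`. -/
def mapLine (C : Charts ϖ Bp Bm B0 Rg) (L : Line ϖ Bp Bm B0 Rg) :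
    Line ϖ' Bp' Bm' B0' Rg' :=
  have hcR : c ∈ Rg' := by
    have := (T.charts C)
    exact this.le_R (this.p_le T.c_mem_p)
  have hdR : d ∈ Rg' := by
    have := (T.charts C)
    exact this.le_R (this.p_le T.d_mem_p)
  have hc0 : c ∈ B0' := (T.charts C).p_le T.c_mem_p
  have key : ∀ r' : F', ϖ' * r' = φ (ϖ * φ.symm (d * r')) := by
    intro r'
    rw [map_mul, φ.apply_symm_apply, T.map_ϖ]
    calc ϖ' * r' = (c * d) * (ϖ' * r') := by rw [T.mul_inv, one_mul]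
      _ = c * ϖ' * (d * r') := by ring
  have hsmul : ∀ (B : Subring F) (B' : Subring F') (M : AddSubgroup F),
      (∀ x, φ x ∈ B' ↔ x ∈ B) → (∀ b ∈ B, ∀ x ∈ M, b * x ∈ M) →
      ∀ b' ∈ B', ∀ x' ∈ M.map (φ : F →+ F'), b' * x' ∈ M.map (φ : F →+ F') := by
    rintro B B' M hB hs b' hb' _ ⟨x, hx, rfl⟩
    have h1 : φ.symm b' ∈ B := (hB _).1 (by rwa [φ.apply_symm_apply])
    refine ⟨φ.symm b' * x, hs _ h1 x hx, ?_⟩
    show φ (φ.symm b' * x) = b' * φ x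
    rw [map_mul, φ.apply_symm_apply]
  have hsat : ∀ (B : Subring F) (B' : Subring F') (M : AddSubgroup F),
      (∀ x, φ x ∈ B' ↔ x ∈ B) → c ∈ B' → (∀ b ∈ B, ∀ x ∈ M, b * x ∈ M) →
      (∀ r ∈ Rg, ϖ * r ∈ M → r ∈ M) →
      ∀ r' ∈ Rg', ϖ' * r' ∈ M.map (φ : F →+ F') → r' ∈ M.map (φ : F →+ F') := by
    rintro B B' M hB hcB hs hsat r' hr' ⟨x, hx, e⟩
    have e' : φ x = φ (ϖ * φ.symm (d * r')) := by
      rw [← key r']; exact e
    have h1 : φ.symm (d * r') ∈ Rg :=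
      (T.mem_R _).1 (by rw [φ.apply_symm_apply]; exact Rg'.mul_mem hdR hr')
    have h2 : φ.symm (d * r') ∈ M := hsat _ h1 (φ.injective e' ▸ hx)
    have h3 : φ.symm c ∈ B := (hB _).1 (by rwa [φ.apply_symm_apply])
    refine ⟨φ.symm c * φ.symm (d * r'), hs _ h3 _ h2, ?_⟩
    show φ (φ.symm c * φ.symm (d * r')) = r'
    rw [map_mul, φ.apply_symm_apply, φ.apply_symm_apply, ← mul_assoc, T.mul_inv, one_mul]
  { Lp := L.Lp.map (φ : F →+ F')
    Lm := L.Lm.map (φ : F →+ F')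
    L0 := L.L0.map (φ : F →+ F')
    smul_p := hsmul Bp Bp' L.Lp T.mem_p L.smul_p
    smul_m := hsmul Bm Bm' L.Lm T.mem_m L.smul_m
    smul_0 := hsmul B0 B0' L.L0 T.mem_0 L.smul_0
    p_le := AddSubgroup.map_mono L.p_le
    m_le := AddSubgroup.map_mono L.m_le
    le_R := by
      rintro _ ⟨x, hx, rfl⟩
      exact (T.mem_R x).2 (L.le_R x hx)
    sat_p := hsat Bp Bp' L.Lp T.mem_p T.c_mem_p L.smul_p L.sat_p
    sat_m := hsat Bm Bm' L.Lm T.mem_m T.c_mem_m L.smul_m L.sat_m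
    sat_0 := hsat B0 B0' L.L0 T.mem_0 hc0 L.smul_0 L.sat_0
    red_p := by
      rintro _ ⟨x, hx, rfl⟩
      obtain ⟨b, hb, r, hr, rfl⟩ := L.red_p x hx
      refine ⟨φ b, (T.mem_p b).2 hb, c * φ r, Rg'.mul_mem hcR ((T.mem_R r).2 hr), ?_⟩
      show φ (b + ϖ * r) = _
      rw [map_add, map_mul, T.map_ϖ]
      ring
    red_m := by
      rintro _ ⟨x, hx, rfl⟩
      obtain ⟨b, hb, r, hr, rfl⟩ := L.red_m x hx
      refine ⟨φ b, (T.mem_m b).2 hb, c * φ r, Rg'.mul_mem hcR ((T.mem_R r).2 hr), ?_⟩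
      show φ (b + ϖ * r) = _
      rw [map_add, map_mul, T.map_ϖ]
      ring
    loc_p := by
      rintro _ ⟨x, hx, rfl⟩
      obtain ⟨b, hb, y, hy, rfl⟩ := L.loc_p x hx
      exact ⟨φ b, (T.mem_0 b).2 hb, φ y, ⟨y, hy, rfl⟩, map_mul φ b y⟩
    loc_m := by
      rintro _ ⟨x, hx, rfl⟩
      obtain ⟨b, hb, y, hy, rfl⟩ := L.loc_m x hx
      exact ⟨φ b, (T.mem_0 b).2 hb, φ y, ⟨y, hy, rfl⟩, map_mul φ b y⟩ }

theorem mem_mapLine_Lp (C : Charts ϖ Bp Bm B0 Rg) (L : Line ϖ Bp Bm B0 Rg) {x : F} :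
    φ x ∈ (T.mapLine C L).Lp ↔ x ∈ L.Lp := by
  constructor
  · rintro ⟨y, hy, e⟩
    exact φ.injective e ▸ hy
  · intro hx
    exact ⟨x, hx, rfl⟩

theorem mem_mapLine_Lm (C : Charts ϖ Bp Bm B0 Rg) (L : Line ϖ Bp Bm B0 Rg) {x : F} :
    φ x ∈ (T.mapLine C L).Lm ↔ x ∈ L.Lm := by
  constructor
  · rintro ⟨y, hy, e⟩
    exact φ.injective e ▸ hy
  · intro hx
    exact ⟨x, hx, rfl⟩

theorem mem_mapLine_L0 (C : Charts ϖ Bp Bm B0 Rg) (L : Line ϖ Bp Bm B0 Rg) {x : F} :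
    φ x ∈ (T.mapLine C L).L0 ↔ x ∈ L.L0 := by
  constructor
  · rintro ⟨y, hy, e⟩
    exact φ.injective e ▸ hy
  · intro hx
    exact ⟨x, hx, rfl⟩

/-- **Cocycles of `L` map to cocycles of any line containing `φ(L.L0)`** (the form used for
divisorial modules: `L' = lineOf (σ • D)`, `L = lineOf D`). -/
theorem isCocycle_of_image (C' : Charts ϖ' Bp' Bm' B0' Rg') (L : Line ϖ Bp Bm B0 Rg)
    (L' : Line ϖ' Bp' Bm' B0' Rg') (hL0 : ∀ x ∈ L.L0, φ x ∈ L'.L0) {k : ℕ} {fp fm u : F}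
    (h : L.IsCocycle k fp fm u) : L'.IsCocycle k (φ fp) (φ fm) (φ u) := by
  have h1 := isCocycle_map (φ : F →+* F') (e := 1) (c := c) (ϖ' := ϖ')
    (by rw [pow_one]; exact T.map_ϖ) L L' (C'.p_le T.c_mem_p)
    (fun b hb => (T.mem_0 b).2 hb) hL0 h
  rwa [one_mul] at h1

/-- Cocycles of `L` and of its image correspond. -/
theorem isCocycle_mapLine_iff (C : Charts ϖ Bp Bm B0 Rg) (L : Line ϖ Bp Bm B0 Rg) {k : ℕ}
    {fp fm u : F} :
    (T.mapLine C L).IsCocycle k (φ fp) (φ fm) (φ u) ↔ L.IsCocycle k fp fm u := by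
  constructor
  · rintro ⟨hu, _, ⟨y, hy, rfl⟩, e⟩
    have hd0 : d ∈ B0' := (T.charts C).p_le T.d_mem_p
    have hd0' : φ.symm d ∈ B0 := (T.mem_0 _).1 (by rwa [φ.apply_symm_apply])
    refine ⟨(T.mem_0 u).1 hu, φ.symm d ^ k * y,
      L.smul_0 _ (B0.pow_mem hd0' k) y hy, ?_⟩
    apply φ.injective
    have e2 : ϖ' ^ k = d ^ k * φ ϖ ^ k := by
      rw [T.map_ϖ', mul_pow]
    have e3 : φ fp = φ u * φ fm + ϖ' ^ k * φ y := e
    rw [map_add, map_mul, map_mul, map_mul, map_pow, map_pow, φ.apply_symm_apply, e3, e2]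
    ring
  · intro h
    exact T.isCocycle_of_image (T.charts C) L (T.mapLine C L)
      (fun x hx => (T.mem_mapLine_L0 C L).2 hx) h

end Equivariant

end Iso

end Fermat.Agent.S19.Cech.TransportAut
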