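/-
S19 / Čech-units route, level bookkeeping: **functoriality of the level inclusions** of
`Cech/LevelBasis` (`lvlIncl`, `ffMap (lvlIncl _)`, `baseMapIncl`, `finIncl`, `infIncl`, `midIncl`):
they compose along `K ≤ K₁ ≤ K₂` and are the identity for `K ≤ K`.

Consumer: the hypothesis `hε : τ0 (ε₀ i) = ε₀' i` of `ChangeBase.morph_chg` for the level inclusion
`L ≤ L'` when the frames are the images `midIncl (K₀ ≤ L) ε₁`, `midIncl (K₀ ≤ L') ε₁` of the base
frame ([INST] `hlift`).
-/
import Mathlib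
import Fermat.Agent.S19.Cech.LevelBasis

set_option autoImplicit false
set_option linter.unusedSectionVars false

open ModularCurve AlgebraicCurve

noncomputable section

namespace Fermat.Agent.S19.Cech.LevelInclComp

open Fermat.Agent.S19.Cech.LevelBasis
open Fermat.Agent.N4.Chart Fermat.Agent.N4.Setting Fermat.Agent.N4.BaseDescent
open Fermat.Agent.N4F.C Fermat.Agent.N4F.C.Levels

local notation "Qb" => AlgebraicClosure ℚ

variable (A : ValuationSubring Qb) (N : ℕ) [NeZero N]
variable {K K₁ K₂ : IntermediateField ℚ Qb} (h₁ : K ≤ K₁) (h₂ : K₁ ≤ K₂)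

/-! ### composition -/

theorem lvlIncl_lvlIncl (x : Lvl K) :
    lvlIncl h₂ (lvlIncl h₁ x) = lvlIncl (h₁.trans h₂) x :=
  (algebraMap (Lvl K₂) Qb).injective rfl

theorem lvlIncl_comp : (lvlIncl h₂).comp (lvlIncl h₁) = lvlIncl (h₁.trans h₂) :=
  RingHom.ext fun x => lvlIncl_lvlIncl h₁ h₂ x

theorem ffMap_lvlIncl_lvlIncl (f : FF (Lvl K) N) :
    ffMap (lvlIncl h₂) N (ffMap (lvlIncl h₁) N f) = ffMap (lvlIncl (h₁.trans h₂)) N f := by
  apply Subtype.ext
  rw [coe_ffMap, coe_ffMap, coe_ffMap, coeffMap_coeffMap]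
  exact coeffMap_congr (lvlIncl_comp h₁ h₂) _

theorem baseMapIncl_baseMapIncl (c : ↥(baseRing A K)) :
    baseMapIncl A h₂ (baseMapIncl A h₁ c) = baseMapIncl A (h₁.trans h₂) c :=
  Subtype.ext (lvlIncl_lvlIncl h₁ h₂ (c : Lvl K))

theorem baseMapIncl_comp :
    (baseMapIncl A h₂).comp (baseMapIncl A h₁) = baseMapIncl A (h₁.trans h₂) :=
  RingHom.ext fun c => baseMapIncl_baseMapIncl A h₁ h₂ c

theorem finIncl_finIncl (x : ↥(Rfin (Lvl K) N (baseRing A K))) :
    finIncl A N h₂ (finIncl A N h₁ x) = finIncl A N (h₁.trans h₂) x := by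
  apply Subtype.ext
  rw [coe_finMap, coe_finMap, coe_finMap]
  exact ffMap_lvlIncl_lvlIncl N h₁ h₂ _

theorem infIncl_infIncl (x : ↥(Rinf (Lvl K) N (baseRing A K))) :
    infIncl A N h₂ (infIncl A N h₁ x) = infIncl A N (h₁.trans h₂) x := by
  apply Subtype.ext
  rw [coe_infMap, coe_infMap, coe_infMap]
  exact ffMap_lvlIncl_lvlIncl N h₁ h₂ _

/-- **the image at `K₂` of the image at `K₁` of a frame at `K` is its image at `K₂`** -/
theorem midIncl_midIncl (x : ↥(Rmid (Lvl K) N (baseRing A K))) :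
    midIncl A N h₂ (midIncl A N h₁ x) = midIncl A N (h₁.trans h₂) x := by
  apply Subtype.ext
  rw [coe_midMap, coe_midMap, coe_midMap]
  exact ffMap_lvlIncl_lvlIncl N h₁ h₂ _

theorem finIncl_comp :
    (finIncl A N h₂).comp (finIncl A N h₁) = finIncl A N (h₁.trans h₂) :=
  RingHom.ext fun x => finIncl_finIncl A N h₁ h₂ x

theorem infIncl_comp :
    (infIncl A N h₂).comp (infIncl A N h₁) = infIncl A N (h₁.trans h₂) :=
  RingHom.ext fun x => infIncl_infIncl A N h₁ h₂ x

theorem midIncl_comp :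
    (midIncl A N h₂).comp (midIncl A N h₁) = midIncl A N (h₁.trans h₂) :=
  RingHom.ext fun x => midIncl_midIncl A N h₁ h₂ x

/-! ### proof irrelevance and identity -/

theorem lvlIncl_self (h : K ≤ K) (x : Lvl K) : lvlIncl h x = x :=
  (algebraMap (Lvl K) Qb).injective rfl

theorem lvlIncl_self_eq (h : K ≤ K) : lvlIncl h = RingHom.id (Lvl K) :=
  RingHom.ext fun x => lvlIncl_self h x

theorem ffMap_lvlIncl_self (h : K ≤ K) (f : FF (Lvl K) N) : ffMap (lvlIncl h) N f = f := by
  apply Subtype.ext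
  rw [coe_ffMap, coeffMap_congr (lvlIncl_self_eq h), coeffMap_id]

theorem baseMapIncl_self (h : K ≤ K) (c : ↥(baseRing A K)) : baseMapIncl A h c = c :=
  Subtype.ext (lvlIncl_self h (c : Lvl K))

theorem finIncl_self (h : K ≤ K) (x : ↥(Rfin (Lvl K) N (baseRing A K))) :
    finIncl A N h x = x := by
  apply Subtype.ext
  rw [coe_finMap]
  exact ffMap_lvlIncl_self N h _

theorem infIncl_self (h : K ≤ K) (x : ↥(Rinf (Lvl K) N (baseRing A K))) :
    infIncl A N h x = x := by
  apply Subtype.ext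
  rw [coe_infMap]
  exact ffMap_lvlIncl_self N h _

theorem midIncl_self (h : K ≤ K) (x : ↥(Rmid (Lvl K) N (baseRing A K))) :
    midIncl A N h x = x := by
  apply Subtype.ext
  rw [coe_midMap]
  exact ffMap_lvlIncl_self N h _

/-! ### the frames -/

/-- **`hε` of `morph_chg` for the level inclusion `L ≤ L'`**: the frame at `L'` induced by the
base frame is the image of the frame at `L`. -/
theorem midIncl_frame {g : ℕ} (ε₁ : Fin g → ↥(Rmid (Lvl K) N (baseRing A K))) (i : Fin g) :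
    midIncl A N h₂ ((fun i => midIncl A N h₁ (ε₁ i)) i)
      = (fun i => midIncl A N (h₁.trans h₂) (ε₁ i)) i :=
  midIncl_midIncl A N h₁ h₂ (ε₁ i)

end Fermat.Agent.S19.Cech.LevelInclComp
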