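/-
S19 / Čech route (helper18): **the kernel of the reduction map on the Gauss ring of a level is
`ϖ W_K`**.

Setting of `N4/FibreEmbedding`: `O ⊆ K` a discrete valuation ring with fraction field `K`,
`W_K = gaussSubalgebra K N O ⊆ FF K N`, reduction `theta K N O : W_K →+* κ((q))`.

* `exists_eq_mul_of_theta_eq_zero` : `x ∈ W_K`, `theta x = 0` ⟹ `x = ϖ r` with `r ∈ W_K`;
* `theta_eq_zero_iff` : `theta x = 0 ↔ ∃ r ∈ W_K, x = ϖ r`;
* `exists_eq_add_mul_of_theta_eq` : `x, b ∈ W_K` with the same reduction ⟹ `x = b + ϖ r`, `r ∈ W_K`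
  (the shape of `Cocycle.Line.red_p / red_m`);
* `exists_eq_one_add_mul_of_theta_eq_one` : `theta x = 1` ⟹ `x = 1 + ϖ r` (`Cocycle.IsOne`);
* at a good level `(Lvl K, baseRing A K)`: the same with the `Q̄`-level reduction
  `thetaBar A N (levK N K x)` in place of `theta` (`exists_eq_mul_of_thetaBar_levK_eq_zero`,
  `exists_eq_add_mul_of_thetaBar_levK_eq`, `isOne_of_thetaBar_levK_eq_one`).
-/
import Mathlib
import Fermat.Agent.N4.FibreEmbedding
import Fermat.Agent.N4F.C.LevelTheta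
import Fermat.Agent.S19.Cech.Cocycle

set_option autoImplicit false
set_option linter.unusedSectionVars false
set_option linter.style.haveILetI false

open ModularCurve
open Fermat.Agent.S28.Gauss Fermat.Agent.N4.Chart Fermat.Agent.N4.Setting
open Fermat.Agent.N4.FibreEmbedding

noncomputable section

namespace Fermat.Agent.S19.Cech.GaussKer

section Generic

variable (K : Type) [Field K] (N : ℕ) (O : Subring K) [IsDiscreteValuationRing ↥O]
  [IsFractionRing ↥O K]

/-- **The kernel of the reduction on the Gauss ring is generated by a uniformiser.** -/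
theorem exists_eq_mul_of_theta_eq_zero {ϖ : ↥O} (hϖ : Irreducible ϖ) {x : FF K N}
    (hx : x ∈ gaussSubalgebra K N O) (h0 : theta K N O ⟨x, hx⟩ = 0) :
    ∃ r ∈ gaussSubalgebra K N O, x = algebraMap ↥O (FF K N) ϖ * r := by
  have hx' := hx
  obtain ⟨a, b, hb, hab⟩ := hx'
  have hred : red ↥O a = 0 := by
    rw [theta_apply, gaussRed_eq (⟨((x : FF K N) : LaurentSeries K), hx⟩ : gaussRing ↥O K) hb hab]
      at h0
    exact (div_eq_zero_iff.mp h0).resolve_right hb
  obtain ⟨a', rfl⟩ := exists_smul_eq_of_red_eq_zero hϖ hred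
  have hϖF : algebraMap ↥O (FF K N) ϖ ≠ 0 := Fermat.Agent.N4.FibreEmbedding.algebraMap_ne_zero K N O hϖ.ne_zero
  have hϖS : ((algebraMap ↥O (FF K N) ϖ : FF K N) : LaurentSeries K) ≠ 0 := by
    intro h
    exact hϖF (Subtype.ext h)
  have hcoe : ((algebraMap ↥O (FF K N) ϖ : FF K N) : LaurentSeries K) =
      emb ↥O K (HahnSeries.C ϖ) := coe_algebraMap K N O ϖ
  refine ⟨(algebraMap ↥O (FF K N) ϖ)⁻¹ * x, ?_, ?_⟩
  · rw [mem_gaussSubalgebra_iff]
    refine ⟨a', b, hb, ?_⟩
    apply mul_left_cancel₀ hϖS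
    have h1 : ((algebraMap ↥O (FF K N) ϖ : FF K N) : LaurentSeries K) *
        ((((algebraMap ↥O (FF K N) ϖ)⁻¹ * x : FF K N) : LaurentSeries K) * emb ↥O K b) =
        ((x : FF K N) : LaurentSeries K) * emb ↥O K b := by
      rw [← mul_assoc]
      congr 1
      have : algebraMap ↥O (FF K N) ϖ * ((algebraMap ↥O (FF K N) ϖ)⁻¹ * x) = x := by
        rw [← mul_assoc, mul_inv_cancel₀ hϖF, one_mul]
      exact congrArg (fun z : FF K N => (z : LaurentSeries K)) this
    rw [h1]
    have hab' : ((x : FF K N) : LaurentSeries K) * emb ↥O K b = emb ↥O K (ϖ • a') := hab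
    rw [hab', hcoe, ← map_mul, HahnSeries.C_mul_eq_smul]
  · rw [← mul_assoc, mul_inv_cancel₀ hϖF, one_mul]

/-- The reduction of a multiple of a non-unit constant is zero. -/
theorem theta_mul_eq_zero {c : ↥O} (hc : ¬ IsUnit c) {r : FF K N} (hr : r ∈ gaussSubalgebra K N O)
    (hx : algebraMap ↥O (FF K N) c * r ∈ gaussSubalgebra K N O) :
    theta K N O ⟨algebraMap ↥O (FF K N) c * r, hx⟩ = 0 := by
  have h1 : (⟨algebraMap ↥O (FF K N) c * r, hx⟩ : gaussSubalgebra K N O) =
      algebraMap ↥O (gaussSubalgebra K N O) c * ⟨r, hr⟩ := Subtype.ext rfl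
  rw [h1, map_mul, theta_algebraMap]
  have : IsLocalRing.residue ↥O c = 0 := by
    rw [IsLocalRing.residue_eq_zero_iff]
    exact (IsLocalRing.mem_maximalIdeal c).mpr hc
  rw [this, map_zero, zero_mul]

theorem theta_eq_zero_iff {ϖ : ↥O} (hϖ : Irreducible ϖ) {x : FF K N}
    (hx : x ∈ gaussSubalgebra K N O) :
    theta K N O ⟨x, hx⟩ = 0 ↔ ∃ r ∈ gaussSubalgebra K N O, x = algebraMap ↥O (FF K N) ϖ * r := by
  constructor
  · exact exists_eq_mul_of_theta_eq_zero K N O hϖ hx
  · rintro ⟨r, hr, rfl⟩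
    exact theta_mul_eq_zero K N O hϖ.not_isUnit hr hx

/-- Two elements of the Gauss ring with the same reduction differ by an element of `ϖ W_K`
(the shape of `Cocycle.Line.red_p`, `red_m`). -/
theorem exists_eq_add_mul_of_theta_eq {ϖ : ↥O} (hϖ : Irreducible ϖ) {x b : FF K N}
    (hx : x ∈ gaussSubalgebra K N O) (hb : b ∈ gaussSubalgebra K N O)
    (h : theta K N O ⟨x, hx⟩ = theta K N O ⟨b, hb⟩) :
    ∃ r ∈ gaussSubalgebra K N O, x = b + algebraMap ↥O (FF K N) ϖ * r := by
  have hxb : x - b ∈ gaussSubalgebra K N O := Subalgebra.sub_mem _ hx hb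
  have h0 : theta K N O ⟨x - b, hxb⟩ = 0 := by
    have h1 : (⟨x - b, hxb⟩ : gaussSubalgebra K N O) = ⟨x, hx⟩ - ⟨b, hb⟩ := Subtype.ext rfl
    rw [h1, map_sub, h, sub_self]
  obtain ⟨r, hr, e⟩ := exists_eq_mul_of_theta_eq_zero K N O hϖ hxb h0
  exact ⟨r, hr, by rw [← e]; ring⟩

/-- An element of the Gauss ring with reduction `1` is `≡ 1` modulo `ϖ W_K`. -/
theorem exists_eq_one_add_mul_of_theta_eq_one {ϖ : ↥O} (hϖ : Irreducible ϖ) {x : FF K N}
    (hx : x ∈ gaussSubalgebra K N O) (h : theta K N O ⟨x, hx⟩ = 1) :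
    ∃ r ∈ gaussSubalgebra K N O, x = 1 + algebraMap ↥O (FF K N) ϖ * r := by
  refine exists_eq_add_mul_of_theta_eq K N O hϖ hx (Subalgebra.one_mem _) ?_
  rw [h]
  exact (map_one (theta K N O)).symm

/-- The same in the vocabulary of `Cocycle.IsOne`. -/
theorem isOne_of_theta_eq_one {ϖ : ↥O} (hϖ : Irreducible ϖ) {x : FF K N}
    (hx : x ∈ gaussSubalgebra K N O) (h : theta K N O ⟨x, hx⟩ = 1) :
    Cocycle.IsOne (algebraMap ↥O (FF K N) ϖ) (gaussSubalgebra K N O).toSubring x :=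
  exists_eq_one_add_mul_of_theta_eq_one K N O hϖ hx h

/-- Conversely `f ≡ 1` modulo `ϖ W_K` has reduction `1`. -/
theorem theta_eq_one_of_isOne {c : ↥O} (hc : ¬ IsUnit c) {x : FF K N}
    (h : Cocycle.IsOne (algebraMap ↥O (FF K N) c) (gaussSubalgebra K N O).toSubring x) :
    ∃ hx : x ∈ gaussSubalgebra K N O, theta K N O ⟨x, hx⟩ = 1 := by
  obtain ⟨r, hr, rfl⟩ := h
  have hr' : r ∈ gaussSubalgebra K N O := hr
  have hm : algebraMap ↥O (FF K N) c * r ∈ gaussSubalgebra K N O :=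
    Subalgebra.mul_mem _ (Subalgebra.algebraMap_mem _ c) hr'
  have hx : 1 + algebraMap ↥O (FF K N) c * r ∈ gaussSubalgebra K N O :=
    Subalgebra.add_mem _ (Subalgebra.one_mem _) hm
  refine ⟨hx, ?_⟩
  have h1 : (⟨1 + algebraMap ↥O (FF K N) c * r, hx⟩ : gaussSubalgebra K N O) =
      1 + ⟨algebraMap ↥O (FF K N) c * r, hm⟩ := Subtype.ext rfl
  rw [h1, map_add, map_one, theta_mul_eq_zero K N O hc hr' hm, add_zero]

end Generic

section Level

open Fermat.Agent.N4F.C Fermat.Agent.N4F.C.Levels Fermat.Agent.N4F.C.LevelCharts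
open Fermat.Agent.N4F.C.LevelTheta

variable (A : ValuationSubring Qb) (N : ℕ) [NeZero N] (K : IntermediateField ℚ Qb)
  [IsDiscreteValuationRing ↥(baseRing A K)]

/-- The level reduction vanishes iff the `Q̄`-level reduction does. -/
theorem theta_eq_zero_iff_thetaBar_levK {x : FF (Lvl K) N}
    (hx : x ∈ gaussSubalgebra (Lvl K) N (baseRing A K)) :
    theta (Lvl K) N (baseRing A K) ⟨x, hx⟩ = 0 ↔ thetaBar A N (levK N K x) = 0 := by
  rw [thetaBar_levK A N K hx]
  constructor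
  · intro h
    rw [h, map_zero]
  · intro h
    exact coeffMap_iotaK_injective A K (h.trans (map_zero _).symm)

/-- **Kernel of the `Q̄`-level reduction on the Gauss ring of a level.** -/
theorem exists_eq_mul_of_thetaBar_levK_eq_zero {ϖ : ↥(baseRing A K)} (hϖ : Irreducible ϖ)
    {x : FF (Lvl K) N} (hx : x ∈ gaussSubalgebra (Lvl K) N (baseRing A K))
    (h0 : thetaBar A N (levK N K x) = 0) :
    ∃ r ∈ gaussSubalgebra (Lvl K) N (baseRing A K),
      x = algebraMap ↥(baseRing A K) (FF (Lvl K) N) ϖ * r :=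
  exists_eq_mul_of_theta_eq_zero (Lvl K) N (baseRing A K) hϖ hx
    ((theta_eq_zero_iff_thetaBar_levK A N K hx).mpr h0)

/-- Two elements of the Gauss ring of a level with the same `Q̄`-level reduction differ by an
element of `ϖ W_K`. -/
theorem exists_eq_add_mul_of_thetaBar_levK_eq {ϖ : ↥(baseRing A K)} (hϖ : Irreducible ϖ)
    {x b : FF (Lvl K) N} (hx : x ∈ gaussSubalgebra (Lvl K) N (baseRing A K))
    (hb : b ∈ gaussSubalgebra (Lvl K) N (baseRing A K))
    (h : thetaBar A N (levK N K x) = thetaBar A N (levK N K b)) :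
    ∃ r ∈ gaussSubalgebra (Lvl K) N (baseRing A K),
      x = b + algebraMap ↥(baseRing A K) (FF (Lvl K) N) ϖ * r := by
  refine exists_eq_add_mul_of_theta_eq (Lvl K) N (baseRing A K) hϖ hx hb ?_
  apply coeffMap_iotaK_injective A K
  rw [← thetaBar_levK A N K hx, ← thetaBar_levK A N K hb, h]

/-- An element of the Gauss ring of a level with `Q̄`-level reduction `1` is `≡ 1` modulo
`ϖ W_K`. -/
theorem isOne_of_thetaBar_levK_eq_one {ϖ : ↥(baseRing A K)} (hϖ : Irreducible ϖ)
    {x : FF (Lvl K) N} (hx : x ∈ gaussSubalgebra (Lvl K) N (baseRing A K))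
    (h : thetaBar A N (levK N K x) = 1) :
    Cocycle.IsOne (algebraMap ↥(baseRing A K) (FF (Lvl K) N) ϖ)
      (gaussSubalgebra (Lvl K) N (baseRing A K)).toSubring x := by
  refine isOne_of_theta_eq_one (Lvl K) N (baseRing A K) hϖ hx ?_
  apply coeffMap_iotaK_injective A K
  rw [← thetaBar_levK A N K hx, h, map_one]

end Level

end Fermat.Agent.S19.Cech.GaussKer
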