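/-
S19 / Čech route (helper18): **the Gauss ring of a level is the trace of the `Q̄`-level Gauss ring**:
`W_K = levK⁻¹ (gaussSub A N)`.

For a level `K ⊆ Q̄` with `baseRing A K = A ∩ K` a discrete valuation ring,
`W_K = gaussSubalgebra (Lvl K) N (baseRing A K)`:

* `mem_gaussSubalgebra_of_levK_mem` : `levK N K x ∈ gaussSub A N → x ∈ W_K`
  (`W_K` is a valuation ring of `F_K`, and an element outside has an inverse with zero reduction);
* `mem_gaussSubalgebra_iff_levK` : `x ∈ W_K ↔ levK N K x ∈ gaussSub A N`;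
* `mem_of_levK_eq` : for two levels `K`, `K'` and `x ∈ F_K`, `x' ∈ F_{K'}` with the same image in
  `Fb N`: `x ∈ W_K ↔ x' ∈ W_{K'}` — so `W_{K'} ∩ F_K = W_K` ((M1) of [LMON]);
* `isOne_of_levK` : `levK w ∈ gaussSub A N` and `thetaBar A N (levK w) = 1` ⟹ `IsOne ϖ_K W_K w`
  (Gauss units of reduction `1` defined over the level, e.g. the output of [H90]);
* `isOne_levK_iff` : the converse included; `isOne_of_levK_eq` : `IsOne` is independent of the level:
  `IsOne ϖ_K W_K x ↔ IsOne ϖ_{K'} W_{K'} x'` when `levK x = levK' x'`.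
-/
import Mathlib
import Fermat.Agent.N4F.E.GaussDVR
import Fermat.Agent.S19.Cech.GaussKer

set_option autoImplicit false
set_option linter.unusedSectionVars false
set_option linter.style.haveILetI false

open ModularCurve
open Fermat.Agent.S28.Gauss Fermat.Agent.N4.Chart Fermat.Agent.N4.Setting
open Fermat.Agent.N4.FibreEmbedding
open Fermat.Agent.N4F.C Fermat.Agent.N4F.C.Levels Fermat.Agent.N4F.C.LevelCharts
open Fermat.Agent.N4F.C.LevelTheta

noncomputable section

namespace Fermat.Agent.S19.Cech.GaussLevel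

variable (A : ValuationSubring Qb) (N : ℕ) [NeZero N] (K : IntermediateField ℚ Qb)
  [IsDiscreteValuationRing ↥(baseRing A K)]

/-- **An element of `F_K` whose image in `Fb N` lies in the Gauss ring over `A` lies in the Gauss
ring of the level.** -/
theorem mem_gaussSubalgebra_of_levK_mem {x : FF (Lvl K) N} (h : levK N K x ∈ gaussSub A N) :
    x ∈ gaussSubalgebra (Lvl K) N (baseRing A K) := by
  by_contra hx
  have hx0 : x ≠ 0 := by
    rintro rfl
    exact hx (Subalgebra.zero_mem _)
  rcases Fermat.Agent.N4F.E.GaussDVR.mem_or_inv_mem (Lvl K) N (baseRing A K) x hx0 with h1 | ⟨hinv, h0⟩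
  · exact hx h1
  · have h2 := levK_mem_gaussSub_and_thetaBar A N K hinv
    rw [h0, map_zero] at h2
    have h3 := thetaBar_mul (A := A) (N := N) h h2.1
    rw [h2.2, mul_zero, ← map_mul, mul_inv_cancel₀ hx0, map_one, thetaBar_one] at h3
    exact one_ne_zero h3

theorem mem_gaussSubalgebra_iff_levK {x : FF (Lvl K) N} :
    x ∈ gaussSubalgebra (Lvl K) N (baseRing A K) ↔ levK N K x ∈ gaussSub A N :=
  ⟨levK_mem_gaussSub A N K, mem_gaussSubalgebra_of_levK_mem A N K⟩

/-- `thetaBar (levK x) = 1` iff the level reduction of `x` is `1`. -/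
theorem theta_eq_one_iff_thetaBar_levK {x : FF (Lvl K) N}
    (hx : x ∈ gaussSubalgebra (Lvl K) N (baseRing A K)) :
    theta (Lvl K) N (baseRing A K) ⟨x, hx⟩ = 1 ↔ thetaBar A N (levK N K x) = 1 := by
  rw [thetaBar_levK A N K hx]
  constructor
  · intro h
    rw [h, map_one]
  · intro h
    exact coeffMap_iotaK_injective A K (h.trans (map_one _).symm)

/-- **Gauss units of reduction `1` defined over a level are `≡ 1` modulo `ϖ_K W_K`.** -/
theorem isOne_of_levK {ϖ : ↥(baseRing A K)} (hϖ : Irreducible ϖ) {w : FF (Lvl K) N}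
    (hw : levK N K w ∈ gaussSub A N) (h1 : thetaBar A N (levK N K w) = 1) :
    Cocycle.IsOne (algebraMap ↥(baseRing A K) (FF (Lvl K) N) ϖ)
      (gaussSubalgebra (Lvl K) N (baseRing A K)).toSubring w :=
  GaussKer.isOne_of_thetaBar_levK_eq_one A N K hϖ (mem_gaussSubalgebra_of_levK_mem A N K hw) h1

/-- `IsOne ϖ_K W_K w` in terms of the `Q̄`-level reduction. -/
theorem isOne_levK_iff {ϖ : ↥(baseRing A K)} (hϖ : Irreducible ϖ) {w : FF (Lvl K) N} :
    Cocycle.IsOne (algebraMap ↥(baseRing A K) (FF (Lvl K) N) ϖ)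
      (gaussSubalgebra (Lvl K) N (baseRing A K)).toSubring w ↔
      levK N K w ∈ gaussSub A N ∧ thetaBar A N (levK N K w) = 1 := by
  constructor
  · intro h
    obtain ⟨hx, h1⟩ := GaussKer.theta_eq_one_of_isOne (Lvl K) N (baseRing A K) hϖ.not_isUnit h
    exact ⟨levK_mem_gaussSub A N K hx, (theta_eq_one_iff_thetaBar_levK A N K hx).mp h1⟩
  · rintro ⟨hw, h1⟩
    exact isOne_of_levK A N K hϖ hw h1

section TwoLevels

variable (K' : IntermediateField ℚ Qb) [IsDiscreteValuationRing ↥(baseRing A K')]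

/-- **(M1) for the Gauss rings**: membership in the Gauss ring of a level only depends on the image
in `Fb N`; in particular `W_{K'} ∩ F_K = W_K`. -/
theorem mem_of_levK_eq {x : FF (Lvl K) N} {x' : FF (Lvl K') N} (h : levK N K x = levK N K' x') :
    x ∈ gaussSubalgebra (Lvl K) N (baseRing A K) ↔
      x' ∈ gaussSubalgebra (Lvl K') N (baseRing A K') := by
  rw [mem_gaussSubalgebra_iff_levK A N K, mem_gaussSubalgebra_iff_levK A N K', h]

/-- **`IsOne` is independent of the level.** -/
theorem isOne_of_levK_eq {ϖ : ↥(baseRing A K)} (hϖ : Irreducible ϖ) {ϖ' : ↥(baseRing A K')}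
    (hϖ' : Irreducible ϖ') {x : FF (Lvl K) N} {x' : FF (Lvl K') N}
    (h : levK N K x = levK N K' x') :
    Cocycle.IsOne (algebraMap ↥(baseRing A K) (FF (Lvl K) N) ϖ)
      (gaussSubalgebra (Lvl K) N (baseRing A K)).toSubring x ↔
    Cocycle.IsOne (algebraMap ↥(baseRing A K') (FF (Lvl K') N) ϖ')
      (gaussSubalgebra (Lvl K') N (baseRing A K')).toSubring x' := by
  rw [isOne_levK_iff A N K hϖ, isOne_levK_iff A N K' hϖ', h]

end TwoLevels

end Fermat.Agent.S19.Cech.GaussLevel
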