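/-
S19, Čech route, block CECH-2D (helper11), part 0: **constants on the special fibre of `X₀(N)`**.

For a prime `ℓ ∤ N` and a valuation subring `A ⊂ ℚ̄` over `ℓ` (residue field `κ = Kap A`, algebraically
closed), a function `c ∈ Ft A N = κ(j(q^d) : d ∣ N)` without zeros and poles (at the prelude places
of `Ft A N / κ`) is a constant: `const_of_forall_ord_eq_zero`.  Consequently two functions with the
same divisor differ by a constant (`exists_const_mul_of_ord_eq`).

Proof: the abstract statement `N4/SpecialFibreConst.const_of_ord_eq_zero` applied to the two Dedekind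
charts `SigmaFin κ N ∋ j`, `SigmaInf κ N ∋ j⁻¹` of `N4F/C/ChartFibre` (Dedekind with fraction field
`Ft A N` by `ChartFactsProof.chartFacts_fin/_inf`).
-/
import Mathlib
import Fermat.Agent.N4F.C.MainFinal
import Fermat.Agent.N4.SpecialFibreConst
import Fermat.Agent.N4.S18Glue.Const

set_option autoImplicit false
set_option linter.unusedSectionVars false
set_option linter.style.haveILetI false
set_option synthInstance.maxHeartbeats 400000
set_option maxHeartbeats 800000

open ModularCurve AlgebraicCurve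

noncomputable section

namespace Fermat.Agent.S19.Cech.FibreConstants

open Fermat.Agent.N4F.C Fermat.Agent.N4F.C.Main Fermat.Agent.N4F.C.Centre
  Fermat.Agent.N4F.C.ChartFibre Fermat.Agent.N4F.C.ChartFactsProof
  Fermat.Agent.N4.Chart Fermat.Agent.N4.Setting

section Generic

variable {k E : Type*} [Field k] [Field E] [Algebra k E]

/-- Integrality over `k[s]` is transported along a `k`-algebra homomorphism. -/
theorem isIntegral_map_adjoin {F' : Type*} [Field F'] [Algebra k F'] (φ : F' →ₐ[k] E) (s y : F')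
    (h : IsIntegral (Algebra.adjoin k {s}) y) : IsIntegral (Algebra.adjoin k {φ s}) (φ y) := by
  have hle : ∀ x ∈ Algebra.adjoin k {s}, φ x ∈ Algebra.adjoin k {φ s} := by
    intro x hx
    have h1 : φ x ∈ (Algebra.adjoin k {s}).map φ := ⟨x, hx, rfl⟩
    rwa [AlgHom.map_adjoin, Set.image_singleton] at h1
  let f : ↥(Algebra.adjoin k {s}) →+* ↥(Algebra.adjoin k {φ s}) :=
    (φ.toRingHom.comp (Algebra.adjoin k {s}).val.toRingHom).codRestrict
      (Algebra.adjoin k {φ s}).toSubring (fun x => hle x x.2)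
  exact IsIntegral.map_of_comp_eq f φ.toRingHom (RingHom.ext fun x => rfl) h

end Generic

variable {A : ValuationSubring Qb} {N : ℕ} [NeZero N] {ℓ : ℕ}
  (hℓ : ℓ.Prime) (hA : A.LiesOverPrime ℓ) (hℓN : ¬ ℓ ∣ N)

include hℓ hA hℓN

/-- **Constants on the special fibre**: a function on the special fibre without zeros and poles is
a constant. -/
theorem const_of_forall_ord_eq_zero (c : Ft A N) (hc : c ≠ 0)
    (h : ∀ Q : Place (Kap A) (Ft A N), Q.ord c = 0) :
    ∃ a : Kap A, algebraMap (Kap A) (Ft A N) a = c := by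
  haveI : IsAlgClosed (Kap A) := Fermat.Agent.N4.BigDVR.isAlgClosed_residueField A
  have Hfin := chartFacts_fin hℓ hA hℓN
  have Hinf := chartFacts_inf hℓ hA hℓN
  haveI := Hfin.dedekind
  haveI := Hinf.dedekind
  haveI := Hfin.frac
  haveI := Hinf.frac
  set Fbar : IntermediateField (Kap A) (LaurentSeries (Kap A)) :=
    modularFunctionFieldFullC (Kap A) N with hFbar
  set Bp : Subalgebra (Kap A) (LaurentSeries (Kap A)) := (SigmaFin (Kap A) N).map Fbar.val with hBp
  set Bm : Subalgebra (Kap A) (LaurentSeries (Kap A)) := (SigmaInf (Kap A) N).map Fbar.val with hBm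
  haveI : IsDedekindDomain ↥Bp :=
    Fermat.Agent.N4.S18Glue.isDedekindDomain_of_ringEquiv
      ((SigmaFin (Kap A) N).equivMapOfInjective Fbar.val Subtype.val_injective).toRingEquiv
  haveI : IsDedekindDomain ↥Bm :=
    Fermat.Agent.N4.S18Glue.isDedekindDomain_of_ringEquiv
      ((SigmaInf (Kap A) N).equivMapOfInjective Fbar.val Subtype.val_injective).toRingEquiv
  have hj0 : jF (Kap A) N ≠ 0 := by
    intro h0
    have := congrArg Subtype.val h0
    rw [coe_jF] at this
    exact Fermat.Agent.S24.FFBasics.transcendental_jqModC (Kap A)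
      (this ▸ isAlgebraic_zero)
  have hfrac : ∀ (Sg : Subalgebra (Kap A) (Ft A N)) [IsFractionRing ↥Sg (Ft A N)],
      ∀ x ∈ Fbar, ∃ a ∈ Sg.map Fbar.val, ∃ b ∈ Sg.map Fbar.val, b ≠ 0 ∧ x * b = a := by
    intro Sg _ x hx
    obtain ⟨a, b, hb, hab⟩ := IsFractionRing.div_surjective (A := ↥Sg) (⟨x, hx⟩ : Ft A N)
    have hb0 : (b : Ft A N) ≠ 0 := fun h0 => nonZeroDivisors.ne_zero hb (Subtype.ext h0)
    refine ⟨((a : Ft A N) : LaurentSeries (Kap A)), ⟨(a : Ft A N), a.2, rfl⟩,
      ((b : Ft A N) : LaurentSeries (Kap A)), ⟨(b : Ft A N), b.2, rfl⟩,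
      fun h0 => hb0 (Subtype.ext h0), ?_⟩
    have h1 : (⟨x, hx⟩ : Ft A N) * (b : Ft A N) = (a : Ft A N) := by
      rw [← hab]
      exact div_mul_cancel₀ _ (fun h0 => hb0 h0)
    exact congrArg Subtype.val h1
  refine Fermat.Agent.N4.SpecialFibreConst.const_of_ord_eq_zero Fbar Bp Bm (jqModC (Kap A))
    (Fermat.Agent.S24.FFBasics.transcendental_jqModC (Kap A)) (jqModC_mem_full (Kap A) N)
    ⟨jF (Kap A) N, subset_chartAlg _ (Set.mem_singleton _), coe_jF (Kap A) N⟩
    ⟨(jF (Kap A) N)⁻¹, subset_chartAlg _ (Set.mem_singleton _), ?_⟩ ?_ ?_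
    (hfrac (SigmaFin (Kap A) N)) (hfrac (SigmaInf (Kap A) N)) c hc h
  · show ((((jF (Kap A) N)⁻¹ : Ft A N)) : LaurentSeries (Kap A)) = _
    rw [← coe_jF (Kap A) N]
    rfl
  · rintro x ⟨y, hy, rfl⟩
    have := isIntegral_map_adjoin Fbar.val (jF (Kap A) N) y hy
    rwa [show Fbar.val (jF (Kap A) N) = jqModC (Kap A) from coe_jF (Kap A) N] at this
  · rintro x ⟨y, hy, rfl⟩
    have := isIntegral_map_adjoin Fbar.val (jF (Kap A) N)⁻¹ y hy
    rwa [show Fbar.val (jF (Kap A) N)⁻¹ = (jqModC (Kap A))⁻¹ from by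
      rw [map_inv₀]; congr 1] at this

/-- Two nonzero functions on the special fibre with the same divisor differ by a nonzero
constant. -/
theorem exists_const_mul_of_ord_eq (f g : Ft A N) (hf : f ≠ 0) (hg : g ≠ 0)
    (h : ∀ Q : Place (Kap A) (Ft A N), Q.ord f = Q.ord g) :
    ∃ a : Kap A, a ≠ 0 ∧ f = algebraMap (Kap A) (Ft A N) a * g := by
  have hc : f / g ≠ 0 := div_ne_zero hf hg
  obtain ⟨a, ha⟩ := const_of_forall_ord_eq_zero hℓ hA hℓN (f / g) hc (fun Q => by
    rw [div_eq_mul_inv, Q.ord_mul hf (inv_ne_zero hg), Q.ord_inv, h Q, add_neg_cancel])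
  refine ⟨a, ?_, ?_⟩
  · rintro rfl
    rw [map_zero] at ha
    exact hc ha.symm
  · rw [ha, div_mul_cancel₀ _ hg]

end Fermat.Agent.S19.Cech.FibreConstants
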