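/-
S19, Čech route, block CECH-2D (helper11), part A: **the dictionary between classes of `J₀(N)(ℚ̄)` in
the kernel of reduction and divisors with ZERO reduction** (ℚ̄-level; no finite level enters here).

`ℓ ∤ N` a prime, `A ⊂ ℚ̄` a valuation subring over `ℓ`, `κ = Kap A`, `rC = Main.rC hℓ hA hℓN` the
canonical place reduction `Place ℚ̄ (Fb N) → Place κ (Ft A N)` of N4-FULL block C.

* `redC hℓ hA hℓN : JZero N →+ JZeroC κ N` — the reduction map built DIRECTLY on `rC`
  (`reductionPic0Along rC …`; the frozen `reductionModL` is built on a `choose`n place map and agrees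
  with `redC` on torsion, `N4F/ReductionTorsion`); `redC_mk`.
* Gauss units: `IsGaussUnit w` (`w ∈ gaussSub A N`, reduction in `Ft A N`, nonzero) with `mul`, `inv`,
  `of_series`, `const`.
* `exists_gaussUnit_of_principal` : every principal divisor `E` is `div w` for a Gauss unit `w` with
  `mapDomain rC E = div (thetaFt w)` ((T2)+(T3)).
* `exists_lift_adjoin`, `exists_lift_Ft` : every function on the special fibre is `ỹ_r / ỹ_s` for two
  polynomials `y_r, y_s` in the `j(q^d)` with coefficients in any subring `A₀ ⊆ A` mapping ONTO `κ`.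
* **(Z1)** `exists_rep_of_redC_eq_zero` : a class in the kernel of `redC` is the class of a degree-zero
  divisor `D` with `mapDomain rC D = 0`; general form `exists_lift_of_redC_eq_zero`.
* **(Z2)** `exists_gauss_unit_of_rep` : two zero-reduction representatives of the same class differ by
  `div w`, `w` a Gauss unit with `thetaFt w = 1`.
* **(Z3)** transport: `mapDomain_rC_gal_smul`, `mapDomain_rC_gal_smul_eq_zero_iff`, `redC_gal_smul`,
  `redC_gal_smul_eq_zero_iff` (`σ` in the decomposition group), `redC_inertia`,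
  `redC_inertia_sub` (`σ • y - y ∈ ker redC` for `σ` in the inertia group).
-/
import Mathlib
import Fermat.Agent.N4F.C.MainFinal
import Fermat.Agent.N4F.E.ChartInfTheta
import Fermat.Agent.S19.Cech.FibreConstants

set_option autoImplicit false
set_option linter.unusedSectionVars false
set_option linter.style.haveILetI false
set_option synthInstance.maxHeartbeats 400000
set_option maxHeartbeats 800000

open ModularCurve AlgebraicCurve

noncomputable section

namespace Fermat.Agent.S19.Cech.ClassDict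

open Fermat.Agent.N4F.C Fermat.Agent.N4F.C.Main Fermat.Agent.N4F.C.MainFinal
  Fermat.Agent.N4F.C.Centre Fermat.Agent.N4F.E.ChartInfTheta

/-! ### Generic: coefficientwise lifting of polynomials in the `j(q^d)` -/

section Lift

/-- Every polynomial in the `j(q^d)`, `d ∣ N`, over `k` is the coefficientwise image under a
surjection `ψ : R → k` of such a polynomial over `R`. -/
theorem exists_lift_adjoin {R k L : Type*} [CommRing R] [Field k] [Field L] (φ : R →+* L)
    (ψ : R →+* k) (hψ : Function.Surjective ψ) (N : ℕ) [NeZero N] {x : LaurentSeries k}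
    (hx : x ∈ Algebra.adjoin k (divisorExpansionsC k N)) :
    ∃ y : LaurentSeries R, coeffMap φ y ∈ Algebra.adjoin L (divisorExpansionsC L N) ∧
      coeffMap ψ y = x := by
  induction hx using Algebra.adjoin_induction with
  | mem x hx =>
    obtain ⟨d, hd, hdN, rfl⟩ := hx
    refine ⟨qExpand R d (jqModC R), ?_, ?_⟩
    · rw [coeffMap_qExpand, coeffMap_jqModC]
      exact Algebra.subset_adjoin ⟨d, hd, hdN, rfl⟩
    · rw [coeffMap_qExpand, coeffMap_jqModC]
  | algebraMap c =>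
    obtain ⟨a, rfl⟩ := hψ c
    refine ⟨HahnSeries.single 0 a, ?_, ?_⟩
    · rw [coeffMap_single, ← algebraMap_laurentSeries_eq_single]
      exact Subalgebra.algebraMap_mem _ _
    · rw [coeffMap_single, ← algebraMap_laurentSeries_eq_single]
  | add x y _ _ hx hy =>
    obtain ⟨a, ha1, ha2⟩ := hx
    obtain ⟨b, hb1, hb2⟩ := hy
    exact ⟨a + b, by rw [map_add]; exact add_mem ha1 hb1, by rw [map_add, ha2, hb2]⟩
  | mul x y _ _ hx hy =>
    obtain ⟨a, ha1, ha2⟩ := hx
    obtain ⟨b, hb1, hb2⟩ := hy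
    exact ⟨a * b, by rw [map_mul]; exact mul_mem ha1 hb1, by rw [map_mul, ha2, hb2]⟩

end Lift

variable {A : ValuationSubring Qb} {N : ℕ} [NeZero N] {ℓ : ℕ}

/-! ### Gauss units -/

section GaussUnit

/-- A **Gauss unit**: an element of the Gauss ring of `Fb N` whose reduction is a nonzero element of
the function field of the special fibre. -/
def IsGaussUnit (A : ValuationSubring Qb) (N : ℕ) [NeZero N] (w : Fb N) : Prop :=
  w ∈ gaussSub A N ∧ thetaBar A N w ∈ modularFunctionFieldFullC (Kap A) N ∧ thetaBar A N w ≠ 0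

theorem IsGaussUnit.coe_thetaFt {w : Fb N} (h : IsGaussUnit A N w) :
    ((thetaFt A N w : Ft A N) : LaurentSeries (Kap A)) = thetaBar A N w :=
  coe_thetaFt_of_mem h.2.1

theorem IsGaussUnit.thetaFt_ne_zero {w : Fb N} (h : IsGaussUnit A N w) : thetaFt A N w ≠ 0 := by
  intro h0
  apply h.2.2
  rw [← h.coe_thetaFt, h0]
  rfl

theorem IsGaussUnit.ne_zero {w : Fb N} (h : IsGaussUnit A N w) : w ≠ 0 := by
  rintro rfl
  exact h.2.2 thetaBar_zero

theorem isGaussUnit_one : IsGaussUnit A N (1 : Fb N) :=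
  ⟨(gaussSub A N).one_mem, by rw [thetaBar_one]; exact one_mem _, by
    rw [thetaBar_one]; exact one_ne_zero⟩

theorem IsGaussUnit.mul {w w' : Fb N} (h : IsGaussUnit A N w) (h' : IsGaussUnit A N w') :
    IsGaussUnit A N (w * w') :=
  ⟨(gaussSub A N).mul_mem h.1 h'.1, by rw [thetaBar_mul h.1 h'.1]; exact mul_mem h.2.1 h'.2.1, by
    rw [thetaBar_mul h.1 h'.1]; exact mul_ne_zero h.2.2 h'.2.2⟩

theorem IsGaussUnit.thetaFt_mul {w w' : Fb N} (h : IsGaussUnit A N w) (h' : IsGaussUnit A N w') :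
    thetaFt A N (w * w') = thetaFt A N w * thetaFt A N w' :=
  Centre.thetaFt_mul h.1 h'.1 h.2.1 h'.2.1

theorem IsGaussUnit.inv {w : Fb N} (h : IsGaussUnit A N w) : IsGaussUnit A N w⁻¹ :=
  ⟨inv_mem_gaussSub h.1 h.2.2, by rw [thetaBar_inv h.1 h.2.2]; exact inv_mem h.2.1, by
    rw [thetaBar_inv h.1 h.2.2]; exact inv_ne_zero h.2.2⟩

theorem IsGaussUnit.thetaFt_inv {w : Fb N} (h : IsGaussUnit A N w) :
    thetaFt A N w⁻¹ = (thetaFt A N w)⁻¹ := by
  have h1 := h.inv.thetaFt_mul h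
  rw [inv_mul_cancel₀ h.ne_zero, thetaFt_one] at h1
  exact eq_inv_of_mul_eq_one_left h1.symm

/-- A series with coefficients in `A` lying in `Fb N`, whose coefficientwise reduction is a nonzero
element of `Ft A N`, is a Gauss unit. -/
theorem isGaussUnit_of_series (y : LaurentSeries ↥A)
    (hy : coeffMap A.subtype y ∈ modularFunctionFieldBar N)
    (hyk : coeffMap (IsLocalRing.residue ↥A) y ∈ modularFunctionFieldFullC (Kap A) N)
    (hne : coeffMap (IsLocalRing.residue ↥A) y ≠ 0) :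
    IsGaussUnit A N (⟨coeffMap A.subtype y, hy⟩ : Fb N) := by
  have hg : (⟨coeffMap A.subtype y, hy⟩ : Fb N) ∈ gaussSub A N :=
    ⟨y, 1, by rw [map_one]; exact one_ne_zero, by rw [map_one, mul_one]; rfl⟩
  exact ⟨hg, by rw [thetaBar_of_coeffs]; exact hyk, by rw [thetaBar_of_coeffs]; exact hne⟩

theorem thetaFt_of_series (y : LaurentSeries ↥A)
    (hy : coeffMap A.subtype y ∈ modularFunctionFieldBar N)
    (hyk : coeffMap (IsLocalRing.residue ↥A) y ∈ modularFunctionFieldFullC (Kap A) N) :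
    thetaFt A N (⟨coeffMap A.subtype y, hy⟩ : Fb N) =
      (⟨coeffMap (IsLocalRing.residue ↥A) y, hyk⟩ : Ft A N) := by
  apply Subtype.ext
  rw [coe_thetaFt_of_mem (by rw [thetaBar_of_coeffs]; exact hyk), thetaBar_of_coeffs]

/-- A unit of `A` is a Gauss unit. -/
theorem isGaussUnit_const {c : ↥A} (hc : IsLocalRing.residue ↥A c ≠ 0) :
    IsGaussUnit A N (algebraMap Qb (Fb N) (c : Qb)) := by
  refine ⟨const_mem_gaussSub c, ?_, ?_⟩
  · rw [thetaBar_const]
    exact (algebraMap (Kap A) (Ft A N) (IsLocalRing.residue ↥A c)).2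
  · rw [thetaBar_const, algebraMap_laurentSeries_eq_single]
    intro h0
    apply hc
    have := congrArg (fun s : LaurentSeries (Kap A) => s.coeff 0) h0
    simpa using this

end GaussUnit

variable (hℓ : ℓ.Prime) (hA : A.LiesOverPrime ℓ) (hℓN : ¬ ℓ ∣ N)

/-! ### The reduction map built on `rC` -/

/-- **The reduction map of `J₀(N)(ℚ̄)` at `A`**, built on the canonical place reduction `rC`. -/
def redC : JZero N →+ JZeroC (Kap A) N :=
  reductionPic0Along (rC hℓ hA hℓN) (MainFinal.isPlaceReductionModL_rC hℓ hA hℓN)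
    (principalGeneratedByIntegral hℓ hA hℓN)

theorem redC_mk (D : Divisor.degZero (K := Qb) (F := Fb N)) :
    redC hℓ hA hℓN (Pic0.mk D) =
      Pic0.mk (reductionDegZeroAlong (rC hℓ hA hℓN) (MainFinal.isPlaceReductionModL_rC hℓ hA hℓN).1 D) :=
  rfl

include hℓ hA hℓN

/-- `redC z = 0` for the class of `D` iff the push-forward of `D` under `rC` is principal. -/
theorem redC_mk_eq_zero_iff (D : Divisor.degZero (K := Qb) (F := Fb N)) :
    redC hℓ hA hℓN (Pic0.mk D) = 0 ↔
      Divisor.IsPrincipal (Finsupp.mapDomain (rC hℓ hA hℓN) (D : Divisor Qb (Fb N))) := by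
  rw [redC_mk]
  show (QuotientAddGroup.mk _ : JZeroC (Kap A) N) = 0 ↔ _
  rw [QuotientAddGroup.eq_zero_iff, AddSubgroup.mem_addSubgroupOf, coe_reductionDegZeroAlong]
  rfl

/-! ### Principal divisors and Gauss units -/

/-- **(T2) + (T3)**: every principal divisor `E` of `Fb N` is the divisor of a Gauss unit `w`, and
its push-forward under `rC` is the divisor of the reduction of `w`. -/
theorem exists_gaussUnit_of_principal {E : Divisor Qb (Fb N)}
    (hE : E ∈ Divisor.principal (K := Qb) (F := Fb N)) :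
    ∃ w : Fb N, IsGaussUnit A N w ∧ (∀ P, E P = P.ord w) ∧
      ∀ Q, Finsupp.mapDomain (rC hℓ hA hℓN) E Q = Q.ord (thetaFt A N w) := by
  have hE' := principalGeneratedByIntegral hℓ hA hℓN hE
  clear hE
  induction hE' using AddSubgroup.closure_induction with
  | mem E hE =>
    obtain ⟨y, hy, hyk, hne, hEy⟩ := hE
    refine ⟨⟨coeffMap A.subtype y, hy⟩, isGaussUnit_of_series y hy hyk hne, hEy, fun Q => ?_⟩
    rw [thetaFt_of_series y hy hyk]
    exact (MainFinal.isPlaceReductionModL_rC hℓ hA hℓN).2 y hy hyk hne E hEy Q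
  | zero =>
    refine ⟨1, isGaussUnit_one, fun P => by simp, fun Q => ?_⟩
    rw [Finsupp.mapDomain_zero, thetaFt_one, Place.ord_one]
    rfl
  | add E E' _ _ hE hE' =>
    obtain ⟨w, hw, h1, h2⟩ := hE
    obtain ⟨w', hw', h1', h2'⟩ := hE'
    refine ⟨w * w', hw.mul hw', fun P => ?_, fun Q => ?_⟩
    · rw [Finsupp.add_apply, h1 P, h1' P, P.ord_mul hw.ne_zero hw'.ne_zero]
    · rw [Finsupp.mapDomain_add, Finsupp.add_apply, h2 Q, h2' Q, hw.thetaFt_mul hw',
        Q.ord_mul hw.thetaFt_ne_zero hw'.thetaFt_ne_zero]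
  | neg E _ hE =>
    obtain ⟨w, hw, h1, h2⟩ := hE
    refine ⟨w⁻¹, hw.inv, fun P => ?_, fun Q => ?_⟩
    · rw [Finsupp.neg_apply, h1 P, P.ord_inv]
    · rw [← Finsupp.mapDomain.addMonoidHom_apply, map_neg, Finsupp.mapDomain.addMonoidHom_apply,
        Finsupp.neg_apply, h2 Q, hw.thetaFt_inv, Q.ord_inv]

/-! ### Lifting functions on the special fibre -/

/-- Every function on the special fibre is a quotient `ỹ_r / ỹ_s` of the coefficientwise reductions
of two polynomials in the `j(q^d)` with coefficients in a subring `A₀ ⊆ A` mapping onto `κ`. -/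
theorem exists_lift_Ft (A₀ : Subring ↥A)
    (hA₀ : ∀ c : Kap A, ∃ a ∈ A₀, IsLocalRing.residue ↥A a = c) (h : Ft A N) (hh : h ≠ 0) :
    ∃ (yr ys : LaurentSeries ↥A₀)
      (hyr : coeffMap A.subtype (coeffMap A₀.subtype yr) ∈ modularFunctionFieldBar N)
      (hys : coeffMap A.subtype (coeffMap A₀.subtype ys) ∈ modularFunctionFieldBar N)
      (hkr : coeffMap (IsLocalRing.residue ↥A) (coeffMap A₀.subtype yr) ∈
        modularFunctionFieldFullC (Kap A) N)
      (hks : coeffMap (IsLocalRing.residue ↥A) (coeffMap A₀.subtype ys) ∈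
        modularFunctionFieldFullC (Kap A) N),
      coeffMap (IsLocalRing.residue ↥A) (coeffMap A₀.subtype yr) ≠ 0 ∧
      coeffMap (IsLocalRing.residue ↥A) (coeffMap A₀.subtype ys) ≠ 0 ∧
      h * (⟨coeffMap (IsLocalRing.residue ↥A) (coeffMap A₀.subtype ys), hks⟩ : Ft A N) =
        ⟨coeffMap (IsLocalRing.residue ↥A) (coeffMap A₀.subtype yr), hkr⟩ := by
  have hmem : (h : LaurentSeries (Kap A)) ∈
      IntermediateField.adjoin (Kap A) (divisorExpansionsC (Kap A) N) := h.2
  rw [IntermediateField.mem_adjoin_iff_div] at hmem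
  obtain ⟨r, hr, s, hs, hrs⟩ := hmem
  have hh0 : (h : LaurentSeries (Kap A)) ≠ 0 := fun h0 => hh (Subtype.ext h0)
  have hs0 : s ≠ 0 := by
    rintro rfl
    exact hh0 (by rw [hrs, div_zero])
  have hr0 : r ≠ 0 := by
    rintro rfl
    exact hh0 (by rw [hrs, zero_div])
  have hψ : Function.Surjective ((IsLocalRing.residue ↥A).comp A₀.subtype) := by
    intro c
    obtain ⟨a, ha, rfl⟩ := hA₀ c
    exact ⟨⟨a, ha⟩, rfl⟩
  obtain ⟨yr, hyr1, hyr2⟩ := exists_lift_adjoin (A.subtype.comp A₀.subtype)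
    ((IsLocalRing.residue ↥A).comp A₀.subtype) hψ N hr
  obtain ⟨ys, hys1, hys2⟩ := exists_lift_adjoin (A.subtype.comp A₀.subtype)
    ((IsLocalRing.residue ↥A).comp A₀.subtype) hψ N hs
  have hbar : ∀ x : LaurentSeries Qb, x ∈ Algebra.adjoin Qb (divisorExpansionsC Qb N) →
      x ∈ modularFunctionFieldBar N := by
    intro x hx
    rw [Levels.bar_eq_full]
    exact IntermediateField.algebra_adjoin_le_adjoin Qb _ hx
  have hfull : ∀ x : LaurentSeries (Kap A),
      x ∈ Algebra.adjoin (Kap A) (divisorExpansionsC (Kap A) N) →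
      x ∈ modularFunctionFieldFullC (Kap A) N := fun x hx =>
    IntermediateField.algebra_adjoin_le_adjoin (Kap A) _ hx
  rw [← coeffMap_coeffMap] at hyr1 hyr2 hys1 hys2
  refine ⟨yr, ys, hbar _ hyr1, hbar _ hys1, by rw [hyr2]; exact hfull _ hr,
    by rw [hys2]; exact hfull _ hs, by rw [hyr2]; exact hr0, by rw [hys2]; exact hs0, ?_⟩
  apply Subtype.ext
  show (h : LaurentSeries (Kap A)) *
      coeffMap (IsLocalRing.residue ↥A) (coeffMap A₀.subtype ys) =
    coeffMap (IsLocalRing.residue ↥A) (coeffMap A₀.subtype yr)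
  rw [hys2, hyr2, hrs, div_mul_cancel₀ _ hs0]

/-! ### (Z1): zero-reduction representatives -/

/-- **(Z1), general form.**  If the class of `D₀` lies in the kernel of `redC`, then the push-forward
of `D₀` is the divisor of `ỹ_r / ỹ_s` for two polynomials `y_r, y_s` in the `j(q^d)` with
coefficients in `A₀` (any subring of `A` mapping onto `κ`). -/
theorem exists_lift_of_redC_eq_zero (A₀ : Subring ↥A)
    (hA₀ : ∀ c : Kap A, ∃ a ∈ A₀, IsLocalRing.residue ↥A a = c)
    (D₀ : Divisor.degZero (K := Qb) (F := Fb N)) (hz : redC hℓ hA hℓN (Pic0.mk D₀) = 0) :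
    ∃ (yr ys : LaurentSeries ↥A₀)
      (hyr : coeffMap A.subtype (coeffMap A₀.subtype yr) ∈ modularFunctionFieldBar N)
      (hys : coeffMap A.subtype (coeffMap A₀.subtype ys) ∈ modularFunctionFieldBar N),
      IsGaussUnit A N (⟨_, hyr⟩ : Fb N) ∧ IsGaussUnit A N (⟨_, hys⟩ : Fb N) ∧
      ∀ Q, Finsupp.mapDomain (rC hℓ hA hℓN) (D₀ : Divisor Qb (Fb N)) Q =
        Q.ord (thetaFt A N (⟨_, hyr⟩ : Fb N)) - Q.ord (thetaFt A N (⟨_, hys⟩ : Fb N)) := by
  rw [redC_mk_eq_zero_iff] at hz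
  obtain ⟨h, hh, hD⟩ := hz
  obtain ⟨yr, ys, hyr, hys, hkr, hks, hr0, hs0, hmul⟩ := exists_lift_Ft hℓ hA hℓN A₀ hA₀ h hh
  refine ⟨yr, ys, hyr, hys, isGaussUnit_of_series _ hyr hkr hr0,
    isGaussUnit_of_series _ hys hks hs0, fun Q => ?_⟩
  rw [hD Q, thetaFt_of_series _ hyr hkr, thetaFt_of_series _ hys hks, ← hmul,
    Q.ord_mul hh (fun h0 => hs0 (congrArg Subtype.val h0)), add_sub_cancel_right]

/-- **(Z1).**  A class in the kernel of `redC` is the class of a degree-zero divisor whose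
push-forward under `rC` is ZERO. -/
theorem exists_rep_of_redC_eq_zero {z : JZero N} (hz : redC hℓ hA hℓN z = 0) :
    ∃ D : Divisor.degZero (K := Qb) (F := Fb N), Pic0.mk D = z ∧
      Finsupp.mapDomain (rC hℓ hA hℓN) (D : Divisor Qb (Fb N)) = 0 := by
  classical
  obtain ⟨D₀, rfl⟩ := Pic0.mk_surjective z
  obtain ⟨yr, ys, hyr, hys, hur, hus, hform⟩ :=
    exists_lift_of_redC_eq_zero hℓ hA hℓN ⊤ (fun c => by
      obtain ⟨a, rfl⟩ := IsLocalRing.residue_surjective c
      exact ⟨a, Subring.mem_top a, rfl⟩) D₀ hz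
  have hPD : HasPrincipalDivisors Qb (Fb N) := Fermat.Agent.N4F.A.LevelMaps.hasPrincipalDivisors_bar N
  obtain ⟨Dr, hDr, hDr0⟩ := hPD.exists_divisor _ hur.ne_zero
  obtain ⟨Ds, hDs, hDs0⟩ := hPD.exists_divisor _ hus.ne_zero
  have hT2 : ∀ {y : Fb N} (hu : IsGaussUnit A N y) {E : Divisor Qb (Fb N)}
      (hE : ∀ P, E P = P.ord y) (hyA : ∃ (s : LaurentSeries ↥A) (hs : coeffMap A.subtype s ∈
        modularFunctionFieldBar N), y = ⟨coeffMap A.subtype s, hs⟩),
      ∀ Q, Finsupp.mapDomain (rC hℓ hA hℓN) E Q = Q.ord (thetaFt A N y) := by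
    intro y hu E hE hyA Q
    obtain ⟨s, hs, rfl⟩ := hyA
    have hk : coeffMap (IsLocalRing.residue ↥A) s ∈ modularFunctionFieldFullC (Kap A) N := by
      have := hu.2.1
      rwa [thetaBar_of_coeffs] at this
    have hne : coeffMap (IsLocalRing.residue ↥A) s ≠ 0 := by
      have := hu.2.2
      rwa [thetaBar_of_coeffs] at this
    rw [thetaFt_of_series s hs hk]
    exact (MainFinal.isPlaceReductionModL_rC hℓ hA hℓN).2 s hs hk hne E hE Q
  have hD0 : (D₀ : Divisor Qb (Fb N)) - Dr + Ds ∈ Divisor.degZero (K := Qb) (F := Fb N) := by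
    rw [Divisor.mem_degZero, map_add, map_sub, hDr0, hDs0, sub_zero, add_zero]
    exact D₀.2
  refine ⟨⟨(D₀ : Divisor Qb (Fb N)) - Dr + Ds, hD0⟩, ?_, ?_⟩
  · symm
    show (QuotientAddGroup.mk D₀ : JZero N) = QuotientAddGroup.mk _
    rw [QuotientAddGroup.eq_iff_sub_mem, AddSubgroup.mem_addSubgroupOf]
    have hsub : ((D₀ - ⟨(D₀ : Divisor Qb (Fb N)) - Dr + Ds, hD0⟩ :
        Divisor.degZero (K := Qb) (F := Fb N)) : Divisor Qb (Fb N)) = Dr - Ds := by
      rw [AddSubgroupClass.coe_sub]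
      show (D₀ : Divisor Qb (Fb N)) - ((D₀ : Divisor Qb (Fb N)) - Dr + Ds) = Dr - Ds
      abel
    rw [hsub]
    exact AddSubgroup.sub_mem _ ⟨_, hur.ne_zero, hDr⟩ ⟨_, hus.ne_zero, hDs⟩
  · ext Q
    show Finsupp.mapDomain (rC hℓ hA hℓN) ((D₀ : Divisor Qb (Fb N)) - Dr + Ds) Q = 0
    rw [Finsupp.mapDomain_add, Finsupp.mapDomain_sub, Finsupp.add_apply, Finsupp.sub_apply,
      hform Q, hT2 hur hDr ⟨_, hyr, rfl⟩ Q, hT2 hus hDs ⟨_, hys, rfl⟩ Q]
    ring

/-! ### (Z2): uniqueness of zero-reduction representatives -/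

/-- **(Z2).**  Two zero-reduction representatives of the same class differ by the divisor of a Gauss
unit `w` whose reduction is `1`. -/
theorem exists_gauss_unit_of_rep {D D' : Divisor.degZero (K := Qb) (F := Fb N)}
    (h : (Pic0.mk D : JZero N) = Pic0.mk D')
    (hD : Finsupp.mapDomain (rC hℓ hA hℓN) (D : Divisor Qb (Fb N)) = 0)
    (hD' : Finsupp.mapDomain (rC hℓ hA hℓN) (D' : Divisor Qb (Fb N)) = 0) :
    ∃ w : Fb N, IsGaussUnit A N w ∧ thetaFt A N w = 1 ∧
      ∀ P, P.ord w = (D : Divisor Qb (Fb N)) P - (D' : Divisor Qb (Fb N)) P := by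
  have hmem : ((D : Divisor Qb (Fb N)) - D') ∈ Divisor.principal (K := Qb) (F := Fb N) := by
    have h1 : (QuotientAddGroup.mk D : JZero N) = QuotientAddGroup.mk D' := h
    rw [QuotientAddGroup.eq_iff_sub_mem, AddSubgroup.mem_addSubgroupOf] at h1
    simpa using h1
  obtain ⟨w, hw, hdiv, hred⟩ := exists_gaussUnit_of_principal hℓ hA hℓN hmem
  have hzero : ∀ Q : Place (Kap A) (Ft A N), Q.ord (thetaFt A N w) = 0 := by
    intro Q
    rw [← hred Q, Finsupp.mapDomain_sub, hD, hD', sub_zero]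
    rfl
  obtain ⟨a, ha⟩ := FibreConstants.const_of_forall_ord_eq_zero hℓ hA hℓN _ hw.thetaFt_ne_zero hzero
  obtain ⟨c, rfl⟩ := IsLocalRing.residue_surjective a
  have hc : IsLocalRing.residue ↥A c ≠ 0 := by
    intro h0
    rw [h0, map_zero] at ha
    exact hw.thetaFt_ne_zero ha.symm
  have hcu : IsGaussUnit A N (algebraMap Qb (Fb N) (c : Qb)) := isGaussUnit_const hc
  have hc0 : (c : Qb) ≠ 0 := by
    intro h0
    apply hc
    have : c = 0 := Subtype.ext h0
    rw [this, map_zero]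
  refine ⟨w * (algebraMap Qb (Fb N) (c : Qb))⁻¹, hw.mul hcu.inv, ?_, fun P => ?_⟩
  · rw [hw.thetaFt_mul hcu.inv, hcu.thetaFt_inv, thetaFt_const, ← ha]
    exact mul_inv_cancel₀ (by rw [ha]; exact hw.thetaFt_ne_zero)
  · rw [P.ord_mul hw.ne_zero (inv_ne_zero hcu.ne_zero), P.ord_inv,
      Fermat.Agent.S24.Hurwitz.ord_algebraMap P hc0, neg_zero, add_zero, ← hdiv P,
      Finsupp.sub_apply]

/-! ### (Z3): transport under the decomposition and inertia groups -/

/-- **(T4)** on divisors. -/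
theorem mapDomain_rC_gal_smul (σ : A.decompositionSubgroup ℚ) (D : Divisor Qb (Fb N)) :
    Finsupp.mapDomain (rC hℓ hA hℓN) (Galois.gal N (σ : Qb ≃ₐ[ℚ] Qb) • D) =
      CoeffAut.coeffAut (Kap A) N (Galois.resAut ℚ A σ) •
        Finsupp.mapDomain (rC hℓ hA hℓN) D :=
  Galois.mapDomain_gal_smul (σ : Qb ≃ₐ[ℚ] Qb) (Galois.resAut ℚ A σ)
    (rC_galois_smul hℓ hA hℓN σ) D

/-- The decomposition group maps zero-reduction divisors to zero-reduction divisors. -/
theorem mapDomain_rC_gal_smul_eq_zero_iff (σ : A.decompositionSubgroup ℚ) (D : Divisor Qb (Fb N)) :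
    Finsupp.mapDomain (rC hℓ hA hℓN) (Galois.gal N (σ : Qb ≃ₐ[ℚ] Qb) • D) = 0 ↔
      Finsupp.mapDomain (rC hℓ hA hℓN) D = 0 := by
  rw [mapDomain_rC_gal_smul]
  exact smul_eq_zero_iff_eq (β := Divisor (Kap A) (Ft A N))
    (CoeffAut.coeffAut (Kap A) N (Galois.resAut ℚ A σ))

/-- Equivariance of `redC` under the decomposition group. -/
theorem redC_gal_smul (σ : A.decompositionSubgroup ℚ) (x : JZero N) :
    redC hℓ hA hℓN ((σ : Qb ≃ₐ[ℚ] Qb) • x) =
      CoeffAut.coeffAut (Kap A) N (Galois.resAut ℚ A σ) • redC hℓ hA hℓN x :=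
  Galois.reductionPic0Along_galois_smul _ _ (σ : Qb ≃ₐ[ℚ] Qb) (Galois.resAut ℚ A σ)
    (rC_galois_smul hℓ hA hℓN σ) x

/-- The kernel of `redC` is stable under the decomposition group. -/
theorem redC_gal_smul_eq_zero_iff (σ : A.decompositionSubgroup ℚ) (x : JZero N) :
    redC hℓ hA hℓN ((σ : Qb ≃ₐ[ℚ] Qb) • x) = 0 ↔ redC hℓ hA hℓN x = 0 := by
  rw [redC_gal_smul]
  exact smul_eq_zero_iff_eq (β := JZeroC (Kap A) N)
    (CoeffAut.coeffAut (Kap A) N (Galois.resAut ℚ A σ))

/-- `redC` is invariant under the inertia group. -/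
theorem redC_inertia {τ : Qb ≃ₐ[ℚ] Qb} (hτ : τ ∈ A.inertiaSubgroupIn ℚ) (x : JZero N) :
    redC hℓ hA hℓN (τ • x) = redC hℓ hA hℓN x :=
  Galois.reductionPic0Along_inertia _ _ (rC_galois_smul hℓ hA hℓN) hτ x

/-- `τ • y - y` lies in the kernel of `redC` for `τ` in the inertia group. -/
theorem redC_inertia_sub {τ : Qb ≃ₐ[ℚ] Qb} (hτ : τ ∈ A.inertiaSubgroupIn ℚ) (y : JZero N) :
    redC hℓ hA hℓN (τ • y - y) = 0 := by
  rw [map_sub, redC_inertia hℓ hA hℓN hτ, sub_self]

end Fermat.Agent.S19.Cech.ClassDict
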