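/-
S19, Čech route, block CECH-2D (helper11), part B: **divisors at a finite level**.

`K ⊆ ℚ̄` a level (`O_K = baseRing A K = A ∩ K` a DVR), `F_K = FF (Lvl K) N`, `levK : F_K → Fb N`,
`restrictK : Place ℚ̄ (Fb N) → Place K F_K`.

* `levelDiv K D := Finsupp.mapDomain (restrictK N K) D` — the push-down of a divisor of `Fb N` to the
  level `K`;
* **(L1)** `restrictK_injective_of_residueTrivial`, `levelDiv_restrictK`
  (`levelDiv K D (restrictK P) = D P` when the support of `D` and `P` are `K`-rational),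
  `exists_of_mem_support_levelDiv`, `levelDiv_add/neg/sub/zero`;
* **(L2)** `levelDiv_eq_ord` : if `D = div (levK w)` and the zeros and poles of `levK w` are
  `K`-rational, then `levelDiv K D v = v.ord w` for EVERY place `v` of `F_K`;
* `RhoData` : the reduction `ρ : R → Ft A N` of a level chart (`R = Rfin` or `Rinf`), repackaging
  `Formula.ChartLevel.exists_rho`; `ChartLevel.exists_rhoData`, `RhoData.chartData`;
* **(L3)** `rC_eq_iff_centredAt_fin/_inf` : for a `K`-rational `P` and a place `Q` of the special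
  fibre on the chart, `rC P = Q ↔ restrictK P` is `CentredAt Q`; and the sum formulas
  `sum_levelDiv_centredAt_fin/_inf` :
  `∑_{v ∈ supp, v CentredAt Q} levelDiv K D v = (mapDomain rC D) Q`; in particular
  `sum_levelDiv_centredAt_eq_zero_fin/_inf` for zero-reduction divisors;
* **(L4)** `exists_chart_frac_of_gaussUnit` : a Gauss unit `w = levK w_K` with `thetaFt w = 1` is
  `x / y` with `x, y` in the level chart, `ρ y ≠ 0`, `ρ x = ρ y` (i.e. `w_K ∈ 1 + ϖ·R_(ϖ)`).
* `exists_level` : ONE good level for finitely many constants, functions and places, with the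
  `ChartLevel` data of both charts.
-/
import Mathlib
import Fermat.Agent.N4F.C.MainFinal
import Fermat.Agent.N4F.C.CentreLevel
import Fermat.Agent.S19.Cech.ClassDict

set_option autoImplicit false
set_option linter.unusedSectionVars false
set_option linter.style.haveILetI false
set_option synthInstance.maxHeartbeats 400000
set_option maxHeartbeats 800000

open ModularCurve AlgebraicCurve
open Fermat.Agent.N4.Setting Fermat.Agent.S24
open Fermat.Agent.S24.PlaceDeriv (ResidueTrivial)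

noncomputable section

namespace Fermat.Agent.S19.Cech.LevelDiv

open Fermat.Agent.N4F.C Fermat.Agent.N4F.C.Main Fermat.Agent.N4F.C.Centre
  Fermat.Agent.N4F.C.Levels Fermat.Agent.N4F.C.LevelCharts Fermat.Agent.N4F.C.LocalMult
  Fermat.Agent.N4F.C.Formula Fermat.Agent.N4F.C.ChartFactsProof
  Fermat.Agent.S19.Cech.ClassDict

/-! ### (L1): the push-down of a divisor to a level -/

section LevelDiv

variable {N : ℕ} [NeZero N] (K : IntermediateField ℚ Qb)

/-- The push-down of a divisor of `ℚ̄·F_N` to the level `K`. -/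
def levelDiv (D : Divisor Qb (Fb N)) : Divisor (Lvl K) (FF (Lvl K) N) :=
  Finsupp.mapDomain (restrictK N K) D

@[simp] theorem levelDiv_zero : levelDiv K (0 : Divisor Qb (Fb N)) = 0 := Finsupp.mapDomain_zero

theorem levelDiv_add (D D' : Divisor Qb (Fb N)) :
    levelDiv K (D + D') = levelDiv K D + levelDiv K D' := Finsupp.mapDomain_add

theorem levelDiv_neg (D : Divisor Qb (Fb N)) : levelDiv K (-D) = -levelDiv K D := by
  unfold levelDiv
  rw [← Finsupp.mapDomain.addMonoidHom_apply, map_neg, Finsupp.mapDomain.addMonoidHom_apply]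

theorem levelDiv_sub (D D' : Divisor Qb (Fb N)) :
    levelDiv K (D - D') = levelDiv K D - levelDiv K D' := Finsupp.mapDomain_sub

theorem levelDiv_single (P : Place Qb (Fb N)) (n : ℤ) :
    levelDiv K (Finsupp.single P n) = Finsupp.single (restrictK N K P) n :=
  Finsupp.mapDomain_single

/-- Two places of `ℚ̄·F_N` with the same `K`-rational restriction coincide. -/
theorem restrictK_injective_of_residueTrivial {P P' : Place Qb (Fb N)}
    (hP : ResidueTrivial (restrictK N K P)) (h : restrictK N K P = restrictK N K P') : P = P' :=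
  (existsUnique_extendsK N K hP).unique (extends_restrictK N K P)
    (by rw [h]; exact extends_restrictK N K P')

/-- **(L1)** the value of the push-down at the restriction of a rational place. -/
theorem levelDiv_restrictK (D : Divisor Qb (Fb N))
    (hrat : ∀ P ∈ D.support, ResidueTrivial (restrictK N K P)) (P : Place Qb (Fb N))
    (hP : ResidueTrivial (restrictK N K P)) : levelDiv K D (restrictK N K P) = D P := by
  refine Finsupp.mapDomain_apply' {P | ResidueTrivial (restrictK N K P)} D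
    (fun P' hP' => hrat P' (Finset.mem_coe.mp hP')) ?_ hP
  intro P₁ h₁ P₂ _ h
  exact restrictK_injective_of_residueTrivial K h₁ h

/-- A place in the support of the push-down is the restriction of a place in the support. -/
theorem exists_of_mem_support_levelDiv (D : Divisor Qb (Fb N))
    {v : Place (Lvl K) (FF (Lvl K) N)} (hv : v ∈ (levelDiv K D).support) :
    ∃ P ∈ D.support, restrictK N K P = v := by
  classical
  have h := Finsupp.mapDomain_support hv
  rw [Finset.mem_image] at h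
  exact h

theorem exists_of_levelDiv_ne_zero (D : Divisor Qb (Fb N))
    {v : Place (Lvl K) (FF (Lvl K) N)} (hv : levelDiv K D v ≠ 0) :
    ∃ P ∈ D.support, restrictK N K P = v :=
  exists_of_mem_support_levelDiv K D (Finsupp.mem_support_iff.mpr hv)

/-- **(L2)** the push-down of the divisor of a function of the level is its divisor at the level,
when the zeros and poles of the function are rational over the level. -/
theorem levelDiv_eq_ord (D : Divisor Qb (Fb N)) (w : FF (Lvl K) N)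
    (hD : ∀ P, D P = P.ord (levK N K w))
    (hrat : ∀ P ∈ D.support, ResidueTrivial (restrictK N K P))
    (v : Place (Lvl K) (FF (Lvl K) N)) : levelDiv K D v = v.ord w := by
  have hratP : ∀ P : Place Qb (Fb N), P.ord (levK N K w) ≠ 0 →
      ResidueTrivial (restrictK N K P) := fun P hP =>
    hrat P (Finsupp.mem_support_iff.mpr (by rw [hD]; exact hP))
  by_cases hv : v.ord w = 0
  · rw [hv]
    by_contra hne
    obtain ⟨P, hPs, rfl⟩ := exists_of_levelDiv_ne_zero K D hne
    have h1 := Finsupp.mem_support_iff.mp hPs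
    rw [hD, ord_levK_restrictK N K P (hrat P hPs)] at h1
    exact h1 hv
  · obtain ⟨-, P, hPord, rfl⟩ := residueTrivial_of_ord_ne_zeroK N K w hratP v hv
    have hPs : P ∈ D.support := Finsupp.mem_support_iff.mpr (by rw [hD]; exact hPord)
    rw [levelDiv_restrictK K D hrat P (hrat P hPs), hD, ord_levK_restrictK N K P (hrat P hPs)]

/-- The fibre sum of the push-down: for a predicate `C` on the places of the level such that, on the
support of `D`, `r P = Q ↔ C (restrictK P)`. -/
theorem sum_levelDiv_eq_mapDomain {β : Type*} (r : Place Qb (Fb N) → β) (D : Divisor Qb (Fb N))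
    (hrat : ∀ P ∈ D.support, ResidueTrivial (restrictK N K P)) (Q : β)
    (C : Place (Lvl K) (FF (Lvl K) N) → Prop) [DecidablePred C]
    (h1 : ∀ P ∈ D.support, r P = Q ↔ C (restrictK N K P)) :
    ∑ v ∈ (levelDiv K D).support.filter C, levelDiv K D v = Finsupp.mapDomain r D Q := by
  classical
  rw [mapDomain_apply_eq_sum]
  symm
  refine Finset.sum_nbij (restrictK N K) ?_ ?_ ?_ ?_
  · intro P hP
    rw [Finset.mem_filter] at hP
    rw [Finset.mem_filter, Finsupp.mem_support_iff, levelDiv_restrictK K D hrat P (hrat P hP.1)]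
    exact ⟨Finsupp.mem_support_iff.mp hP.1, (h1 P hP.1).mp hP.2⟩
  · intro P hP P' _ h
    rw [Finset.coe_filter, Set.mem_setOf_eq] at hP
    exact restrictK_injective_of_residueTrivial K (hrat P hP.1) h
  · intro v hv
    rw [Finset.coe_filter, Set.mem_setOf_eq] at hv
    obtain ⟨P, hPs, rfl⟩ := exists_of_mem_support_levelDiv K D hv.1
    exact ⟨P, by rw [Finset.coe_filter, Set.mem_setOf_eq]; exact ⟨hPs, (h1 P hPs).mpr hv.2⟩, rfl⟩
  · intro P hP
    rw [Finset.mem_filter] at hP
    rw [levelDiv_restrictK K D hrat P (hrat P hP.1)]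

end LevelDiv

/-! ### The reduction of a level chart -/

section Rho

variable {A : ValuationSubring Qb} {N : ℕ} [NeZero N]
  {K : IntermediateField ℚ Qb} [IsDiscreteValuationRing ↥(baseRing A K)]
  {R : Subalgebra ↥(baseRing A K) (FF (Lvl K) N)}

/-- **The reduction of a level chart** `R` (`= Rfin` or `Rinf` of the level `K`, generator
`gen = j` or `j⁻¹`): a uniformiser `ϖ` of `O_K` and `ρ : R → Ft A N`, `ρ = thetaFt ∘ levK`, with
kernel `(ϖ)`, Dedekind quotient, `Frac ρ(R) = Ft A N`.  Repackaging of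
`Formula.ChartLevel.exists_rho`. -/
structure RhoData (A : ValuationSubring Qb) (N : ℕ) [NeZero N] (K : IntermediateField ℚ Qb)
    [IsDiscreteValuationRing ↥(baseRing A K)] (R : Subalgebra ↥(baseRing A K) (FF (Lvl K) N))
    (gen : Fb N) (ϖ : ↥(baseRing A K)) (ρ : ↥R →+* Ft A N) : Prop where
  irreducible : Irreducible ϖ
  lev_gauss : ∀ x : R, levK N K (x : FF (Lvl K) N) ∈ gaussSub A N
  rho_eq : ∀ x : R, ρ x = thetaFt A N (levK N K (x : FF (Lvl K) N))
  coe_rho : ∀ x : R, ((ρ x : Ft A N) : LaurentSeries (Kap A)) =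
    thetaBar A N (levK N K (x : FF (Lvl K) N))
  dedekind : IsDedekindDomain (↥R ⧸ Ideal.span {algebraMap ↥(baseRing A K) ↥R ϖ})
  ker_eq : RingHom.ker ρ = Ideal.span {algebraMap ↥(baseRing A K) ↥R ϖ}
  frac : ∀ z : Ft A N, ∃ a b : R, ρ b ≠ 0 ∧ z * ρ b = ρ a
  mem : ∀ Q : Place (Kap A) (Ft A N), thetaFt A N gen ∈ Q.toValuationSubring →
    ∀ x : R, ρ x ∈ Q.toValuationSubring
  compat : ∀ (y' : LaurentSeries ↥(baseRing A K))
    (hy' : coeffMap (baseRing A K).subtype y' ∈ modularFunctionFieldFullC (Lvl K) N),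
    coeffMap (IsLocalRing.residue ↥(baseRing A K)) y' ≠ 0 →
    ∃ a b : R, ρ b ≠ 0 ∧ (⟨_, hy'⟩ : FF (Lvl K) N) * (b : FF (Lvl K) N) = (a : FF (Lvl K) N)

theorem exists_rhoData {Rt : Subalgebra ↥A (Fb N)} {gen : Fb N}
    (hcl : ChartLevel A N K R Rt gen) : ∃ ϖ ρ, RhoData A N K R gen ϖ ρ := by
  obtain ⟨ϖ, ρ, hϖ, hρc, hded, hker, hfrac, hmemQ, hcompat⟩ := hcl.exists_rho
  refine ⟨ϖ, ρ, hϖ, hcl.lev_gauss, fun x => ?_, hρc, hded, hker, hfrac, hmemQ, hcompat⟩
  apply Subtype.ext
  rw [coe_thetaFt_of_mem (by rw [← hρc x]; exact (ρ x).2), hρc x]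

variable {gen : Fb N} {ϖ : ↥(baseRing A K)} {ρ : ↥R →+* Ft A N}

/-- The `LocalMult.ChartData` at a place `Q` of the special fibre lying on the chart. -/
theorem RhoData.chartData (h : RhoData A N K R gen ϖ ρ) (Q : Place (Kap A) (Ft A N))
    (hQ : thetaFt A N gen ∈ Q.toValuationSubring) : ChartData ϖ ρ Q :=
  { irreducible := h.irreducible, dedekind := h.dedekind, ker_eq := h.ker_eq, frac := h.frac,
    mem := h.mem Q hQ }

theorem RhoData.chartData' (h : RhoData A N K R gen ϖ ρ) (Q : Place (Kap A) (Ft A N))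
    (hQ : ∀ x : R, ρ x ∈ Q.toValuationSubring) : ChartData ϖ ρ Q :=
  { irreducible := h.irreducible, dedekind := h.dedekind, ker_eq := h.ker_eq, frac := h.frac,
    mem := hQ }

/-- `ρ x = 0 ↔ ϖ ∣ x` in the chart. -/
theorem RhoData.rho_eq_zero_iff (h : RhoData A N K R gen ϖ ρ) (x : R) :
    ρ x = 0 ↔ ∃ y : R, x = algebraMap ↥(baseRing A K) ↥R ϖ * y := by
  rw [← RingHom.mem_ker, h.ker_eq, Ideal.mem_span_singleton']
  constructor
  · rintro ⟨y, hy⟩
    exact ⟨y, by rw [← hy, mul_comm]⟩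
  · rintro ⟨y, hy⟩
    exact ⟨y, by rw [hy, mul_comm]⟩

end Rho

/-! ### (L3): centres at the level and the canonical place reduction -/

section Centres

variable {A : ValuationSubring Qb} {N : ℕ} [NeZero N] {ℓ : ℕ}
  (hℓ : ℓ.Prime) (hA : A.LiesOverPrime ℓ) (hℓN : ¬ ℓ ∣ N)
  {K : IntermediateField ℚ Qb} [IsDiscreteValuationRing ↥(baseRing A K)]
  [IsFractionRing ↥(baseRing A K) (Lvl K)]

include hℓ hA hℓN

/-- `j⁻¹` is `A`-integral at `P` iff `j̄⁻¹` is regular at `rC P`. -/
theorem intAt_jb_inv_iff (P : Place Qb (Fb N)) :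
    IntAt A P (N4F.C.jb N)⁻¹ ↔ (jt A N)⁻¹ ∈ (rC hℓ hA hℓN P).toValuationSubring := by
  have Hfin := chartFacts_fin hℓ hA hℓN
  have Hinf := chartFacts_inf hℓ hA hℓN
  constructor
  · intro hinv
    have h := rCan_inf Hfin Hinf P hinv (N4F.C.jb N)⁻¹ Centre.jb_inv_mem_RtInf _ (valAt_spec hinv)
    rw [CentreLevel.thetaFt_jb_inv Hfin Hinf] at h
    exact mem_of_sub_const_mem_nonunits _ h
  · intro hmem
    rcases Formula.intAt_or_inv A P (N4F.C.jb N)⁻¹ with h | ⟨c, hcm, hc⟩
    · exact h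
    · exfalso
      rw [inv_inv] at hc
      have hj : IntAt A P (N4F.C.jb N) := ⟨c, hc⟩
      have h := rCan_fin Hfin Hinf P hj (N4F.C.jb N) Centre.jb_mem_RtFin c hc
      rw [Centre.thetaFt_jb, (IsLocalRing.residue_eq_zero_iff c).2 hcm, map_zero, sub_zero] at h
      have h1 := Centre.mul_mem_nonunits _ hmem h
      have hjt : jt A N ≠ 0 := jF_ne_zero (Kap A) N
      rw [inv_mul_cancel₀ hjt, ValuationSubring.mem_nonunits_iff, map_one] at h1
      exact lt_irrefl _ h1

variable {ϖ : ↥(baseRing A K)}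

/-- **(L3), finite chart.**  For a `K`-rational place `P` and a place `Q` of the special fibre on
the finite chart: `rC P = Q` iff the restriction of `P` to the level is centred at `Q`. -/
theorem rC_eq_iff_centredAt_fin {ρ : ↥(Rfin (Lvl K) N (baseRing A K)) →+* Ft A N}
    (hρ : RhoData A N K (Rfin (Lvl K) N (baseRing A K)) (N4F.C.jb N) ϖ ρ)
    [IsNoetherianRing ↥(Rfin (Lvl K) N (baseRing A K))]
    [IsFractionRing ↥(Rfin (Lvl K) N (baseRing A K)) (FF (Lvl K) N)]
    (Q : Place (Kap A) (Ft A N)) (hQ : jt A N ∈ Q.toValuationSubring)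
    (P : Place Qb (Fb N)) (hres : ResidueTrivial (restrictK N K P)) :
    rC hℓ hA hℓN P = Q ↔ CentredAt ↥(baseRing A K) ρ Q (restrictK N K P) := by
  have Hfin := chartFacts_fin hℓ hA hℓN
  have Hinf := chartFacts_inf hℓ hA hℓN
  have hQ' : thetaFt A N (N4F.C.jb N) ∈ Q.toValuationSubring := by rw [Centre.thetaFt_jb]; exact hQ
  constructor
  · rintro rfl
    have hj : IntAt A P (N4F.C.jb N) := (CentreLevel.intAt_jb_iff Hfin Hinf P).2 hQ
    exact CentreLevel.centredAt_restrictK_fin Hfin Hinf K P hj hres ρ hρ.rho_eq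
  · intro hcen
    have hj : IntAt A P (N4F.C.jb N) := by
      obtain ⟨c, hc⟩ := hcen.exists_const (jFin (Lvl K) N (baseRing A K))
      have h1 : levK N K (jF (Lvl K) N) - algebraMap Qb (Fb N) ((baseIncl A K c : ↥A) : Qb) ∈
          P.toValuationSubring.nonunits := sub_mem_nonunits_of_restrictK hc
      rw [levK_jF] at h1
      exact ⟨baseIncl A K c, h1⟩
    have hcen' := CentreLevel.centredAt_restrictK_fin Hfin Hinf K P hj hres ρ hρ.rho_eq
    have hQP : thetaFt A N (N4F.C.jb N) ∈ (rC hℓ hA hℓN P).toValuationSubring := by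
      rw [Centre.thetaFt_jb]
      exact (CentreLevel.intAt_jb_iff Hfin Hinf P).1 hj
    exact eq_of_centredAt (hρ.chartData _ hQP) (hρ.chartData Q hQ') hcen' hcen

/-- **(L3), chart at infinity.** -/
theorem rC_eq_iff_centredAt_inf {ρ : ↥(Rinf (Lvl K) N (baseRing A K)) →+* Ft A N}
    (hρ : RhoData A N K (Rinf (Lvl K) N (baseRing A K)) (N4F.C.jb N)⁻¹ ϖ ρ)
    [IsNoetherianRing ↥(Rinf (Lvl K) N (baseRing A K))]
    [IsFractionRing ↥(Rinf (Lvl K) N (baseRing A K)) (FF (Lvl K) N)]
    (Q : Place (Kap A) (Ft A N)) (hQ : (jt A N)⁻¹ ∈ Q.toValuationSubring)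
    (P : Place Qb (Fb N)) (hres : ResidueTrivial (restrictK N K P)) :
    rC hℓ hA hℓN P = Q ↔ CentredAt ↥(baseRing A K) ρ Q (restrictK N K P) := by
  have Hfin := chartFacts_fin hℓ hA hℓN
  have Hinf := chartFacts_inf hℓ hA hℓN
  have hQ' : thetaFt A N (N4F.C.jb N)⁻¹ ∈ Q.toValuationSubring := by
    rw [CentreLevel.thetaFt_jb_inv Hfin Hinf]; exact hQ
  constructor
  · rintro rfl
    have hinv : IntAt A P (N4F.C.jb N)⁻¹ := (intAt_jb_inv_iff hℓ hA hℓN P).2 hQ
    exact CentreLevel.centredAt_restrictK_inf Hfin Hinf K P hinv hres ρ hρ.rho_eq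
  · intro hcen
    have hinv : IntAt A P (N4F.C.jb N)⁻¹ := by
      obtain ⟨c, hc⟩ := hcen.exists_const (jInvInf (Lvl K) N (baseRing A K))
      have h1 : levK N K (jF (Lvl K) N)⁻¹ - algebraMap Qb (Fb N) ((baseIncl A K c : ↥A) : Qb) ∈
          P.toValuationSubring.nonunits := sub_mem_nonunits_of_restrictK hc
      rw [levK_jF_inv] at h1
      exact ⟨baseIncl A K c, h1⟩
    have hcen' := CentreLevel.centredAt_restrictK_inf Hfin Hinf K P hinv hres ρ hρ.rho_eq
    have hQP : thetaFt A N (N4F.C.jb N)⁻¹ ∈ (rC hℓ hA hℓN P).toValuationSubring := by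
      rw [CentreLevel.thetaFt_jb_inv Hfin Hinf]
      exact (intAt_jb_inv_iff hℓ hA hℓN P).1 hinv
    exact eq_of_centredAt (hρ.chartData _ hQP) (hρ.chartData Q hQ') hcen' hcen

/-- **(L3), sum formula, finite chart**: the sum of the push-down of `D` over the places of the level
centred at `Q` is the value at `Q` of the push-forward of `D` under `rC`. -/
theorem sum_levelDiv_centredAt_fin {ρ : ↥(Rfin (Lvl K) N (baseRing A K)) →+* Ft A N}
    (hρ : RhoData A N K (Rfin (Lvl K) N (baseRing A K)) (N4F.C.jb N) ϖ ρ)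
    [IsNoetherianRing ↥(Rfin (Lvl K) N (baseRing A K))]
    [IsFractionRing ↥(Rfin (Lvl K) N (baseRing A K)) (FF (Lvl K) N)]
    (Q : Place (Kap A) (Ft A N)) (hQ : jt A N ∈ Q.toValuationSubring)
    [DecidablePred (fun v : Place (Lvl K) (FF (Lvl K) N) => CentredAt ↥(baseRing A K) ρ Q v)]
    (D : Divisor Qb (Fb N)) (hrat : ∀ P ∈ D.support, ResidueTrivial (restrictK N K P)) :
    ∑ v ∈ (levelDiv K D).support.filter (CentredAt ↥(baseRing A K) ρ Q), levelDiv K D v =
      Finsupp.mapDomain (rC hℓ hA hℓN) D Q :=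
  sum_levelDiv_eq_mapDomain K (rC hℓ hA hℓN) D hrat Q _ fun P hP =>
    rC_eq_iff_centredAt_fin hℓ hA hℓN hρ Q hQ P (hrat P hP)

/-- **(L3), sum formula, chart at infinity.** -/
theorem sum_levelDiv_centredAt_inf {ρ : ↥(Rinf (Lvl K) N (baseRing A K)) →+* Ft A N}
    (hρ : RhoData A N K (Rinf (Lvl K) N (baseRing A K)) (N4F.C.jb N)⁻¹ ϖ ρ)
    [IsNoetherianRing ↥(Rinf (Lvl K) N (baseRing A K))]
    [IsFractionRing ↥(Rinf (Lvl K) N (baseRing A K)) (FF (Lvl K) N)]
    (Q : Place (Kap A) (Ft A N)) (hQ : (jt A N)⁻¹ ∈ Q.toValuationSubring)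
    [DecidablePred (fun v : Place (Lvl K) (FF (Lvl K) N) => CentredAt ↥(baseRing A K) ρ Q v)]
    (D : Divisor Qb (Fb N)) (hrat : ∀ P ∈ D.support, ResidueTrivial (restrictK N K P)) :
    ∑ v ∈ (levelDiv K D).support.filter (CentredAt ↥(baseRing A K) ρ Q), levelDiv K D v =
      Finsupp.mapDomain (rC hℓ hA hℓN) D Q :=
  sum_levelDiv_eq_mapDomain K (rC hℓ hA hℓN) D hrat Q _ fun P hP =>
    rC_eq_iff_centredAt_inf hℓ hA hℓN hρ Q hQ P (hrat P hP)

end Centres

/-! ### (L4): Gauss units defined over a level are fractions of the level chart -/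

section GaussUnitLevel

variable {A : ValuationSubring Qb} {N : ℕ} [NeZero N]
  {K : IntermediateField ℚ Qb} [IsDiscreteValuationRing ↥(baseRing A K)]
  {R : Subalgebra ↥(baseRing A K) (FF (Lvl K) N)} {gen : Fb N} {ϖ : ↥(baseRing A K)}
  {ρ : ↥R →+* Ft A N}

theorem RhoData.isGaussUnit_lev (hρ : RhoData A N K R gen ϖ ρ) {x : R} (hx : ρ x ≠ 0) :
    IsGaussUnit A N (levK N K (x : FF (Lvl K) N)) := by
  refine ⟨hρ.lev_gauss x, ?_, ?_⟩
  · rw [← hρ.coe_rho x]; exact (ρ x).2
  · rw [← hρ.coe_rho x]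
    exact fun h0 => hx (Subtype.ext h0)

/-- `thetaFt (w · levK y) = thetaFt w · ρ y` for `w` in the Gauss ring with reduction in `Ft A N`. -/
theorem RhoData.thetaFt_mul_lev (hρ : RhoData A N K R gen ϖ ρ) {w : Fb N}
    (hw : w ∈ gaussSub A N) (hw' : thetaBar A N w ∈ modularFunctionFieldFullC (Kap A) N) (y : R) :
    thetaFt A N (w * levK N K (y : FF (Lvl K) N)) = thetaFt A N w * ρ y := by
  rw [Centre.thetaFt_mul hw (hρ.lev_gauss y) hw' (by rw [← hρ.coe_rho y]; exact (ρ y).2),
    ← hρ.rho_eq y]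

/-- **(L4)**: a Gauss unit `w = levK w_K` defined over the level `K` is a quotient `x / y` of elements
of the level chart with `ρ y ≠ 0` and `ρ x = thetaFt w · ρ y`.  In particular, if `thetaFt w = 1`
then `w_K = x / y` with `ρ x = ρ y`, i.e. `w_K ∈ 1 + ϖ · R_(ϖ)`. -/
theorem exists_chart_frac_of_gaussUnit (hρ : RhoData A N K R gen ϖ ρ)
    [IsNoetherianRing ↥R] [IsFractionRing ↥R (FF (Lvl K) N)]
    (wK : FF (Lvl K) N) (hw : IsGaussUnit A N (levK N K wK)) :
    ∃ x y : R, ρ y ≠ 0 ∧ ρ x = thetaFt A N (levK N K wK) * ρ y ∧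
      wK * (y : FF (Lvl K) N) = (x : FF (Lvl K) N) := by
  haveI : IsDomain ↥R := inferInstance
  set p : ↥R := algebraMap ↥(baseRing A K) ↥R ϖ with hp
  have hρp : ρ p = 0 := by
    rw [← RingHom.mem_ker, hρ.ker_eq]
    exact Ideal.subset_span rfl
  have hpnu : ¬ IsUnit p := by
    intro hu
    have := hu.map ρ
    rw [hρp] at this
    exact not_isUnit_zero this
  have hp0 : (p : FF (Lvl K) N) ≠ 0 := by
    intro h0
    have : p = 0 := Subtype.ext h0
    exact hpnu (by
      exfalso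
      have hirr := hρ.irreducible.ne_zero
      apply hirr
      have hinj : Function.Injective (algebraMap ↥(baseRing A K) ↥R) := by
        intro a b hab
        have h1 := congrArg (fun z : ↥R => (z : FF (Lvl K) N)) hab
        have h2 : algebraMap ↥(baseRing A K) (FF (Lvl K) N) a =
            algebraMap ↥(baseRing A K) (FF (Lvl K) N) b := h1
        exact FaithfulSMul.algebraMap_injective ↥(baseRing A K) (FF (Lvl K) N) h2
      exact hinj (by rw [← hp, this, map_zero]))
  have hnd : ∀ z : R, ¬ p ∣ z → ρ z ≠ 0 := by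
    intro z hz h0
    obtain ⟨y, hy⟩ := (hρ.rho_eq_zero_iff z).1 h0
    exact hz ⟨y, hy⟩
  have hw0 : wK ≠ 0 := by
    rintro rfl
    exact hw.ne_zero (map_zero _)
  obtain ⟨a, b, hb, hab⟩ := IsFractionRing.div_surjective (A := ↥R) wK
  have hb0 : b ≠ 0 := nonZeroDivisors.ne_zero hb
  have hbF : (b : FF (Lvl K) N) ≠ 0 := fun h0 => hb0 (Subtype.ext h0)
  have ha0 : a ≠ 0 := by
    rintro rfl
    rw [map_zero, zero_div] at hab
    exact hw0 hab.symm
  have hmulab : wK * (b : FF (Lvl K) N) = (a : FF (Lvl K) N) := by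
    rw [← hab]
    exact div_mul_cancel₀ _ hbF
  obtain ⟨m, a', ha', rfl⟩ := WfDvdMonoid.max_power_factor' ha0 hpnu
  obtain ⟨n, b', hb', rfl⟩ := WfDvdMonoid.max_power_factor' hb0 hpnu
  have hρa' := hnd a' ha'
  have hρb' := hnd b' hb'
  have hwg := hw.1
  have hwF := hw.2.1
  have hθ0 : thetaFt A N (levK N K wK) ≠ 0 := hw.thetaFt_ne_zero
  have hcoe : ∀ (k : ℕ) (z : R), ((p ^ k * z : ↥R) : FF (Lvl K) N) =
      (p : FF (Lvl K) N) ^ k * (z : FF (Lvl K) N) := fun k z => by
    rw [MulMemClass.coe_mul, SubmonoidClass.coe_pow]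
  rw [hcoe, hcoe] at hmulab
  rcases le_or_gt n m with hnm | hnm
  · -- `m = n + d`
    obtain ⟨d, rfl⟩ := Nat.exists_eq_add_of_le hnm
    have h1 : wK * (b' : FF (Lvl K) N) = ((p ^ d * a' : ↥R) : FF (Lvl K) N) := by
      rw [hcoe]
      apply mul_left_cancel₀ (pow_ne_zero n hp0)
      have e : (p : FF (Lvl K) N) ^ n * (wK * (b' : FF (Lvl K) N)) =
          wK * ((p : FF (Lvl K) N) ^ n * (b' : FF (Lvl K) N)) := by ring
      rw [e, hmulab, pow_add, mul_assoc]
    have h2 : thetaFt A N (levK N K wK) * ρ b' = ρ (p ^ d * a') := by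
      rw [hρ.rho_eq (p ^ d * a'), ← h1, map_mul (levK N K), hρ.thetaFt_mul_lev hwg hwF b']
    rw [map_mul, map_pow, hρp] at h2
    rcases Nat.eq_zero_or_pos d with rfl | hd
    · refine ⟨a', b', hρb', ?_, ?_⟩
      · rw [pow_zero, one_mul] at h2
        exact h2.symm
      · rw [h1, pow_zero, one_mul]
    · exfalso
      rw [zero_pow hd.ne', zero_mul] at h2
      exact mul_ne_zero hθ0 hρb' h2
  · -- `n = m + d`, `d > 0`
    obtain ⟨d, rfl⟩ := Nat.exists_eq_add_of_lt hnm
    exfalso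
    have h1 : wK * ((p ^ (d + 1) * b' : ↥R) : FF (Lvl K) N) = (a' : FF (Lvl K) N) := by
      rw [hcoe]
      apply mul_left_cancel₀ (pow_ne_zero m hp0)
      rw [← hmulab]
      ring
    have h2 : thetaFt A N (levK N K wK) * ρ (p ^ (d + 1) * b') = ρ a' := by
      rw [hρ.rho_eq a', ← h1, map_mul (levK N K), hρ.thetaFt_mul_lev hwg hwF]
    rw [map_mul, map_pow, hρp, zero_pow (Nat.succ_ne_zero d), zero_mul, mul_zero] at h2
    exact hρa' h2.symm

end GaussUnitLevel

/-! ### One good level for finitely many data -/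

section ExistsLevel

open Fermat.Agent.N4.BigDVR

variable {A : ValuationSubring Qb} {N : ℕ} [NeZero N] {ℓ : ℕ}

/-- **One good level** containing finitely many constants `C`, over which finitely many functions
`T` are defined and finitely many places `S` are rational, together with the chart data of both
charts. -/
theorem exists_level (hℓ : ℓ.Prime) (hA : A.LiesOverPrime ℓ) (hℓN : ¬ ℓ ∣ N)
    (C : Finset Qb) (T : Finset (Fb N)) (S : Finset (Place Qb (Fb N))) :
    ∃ (K : IntermediateField ℚ Qb) (_ : IsDiscreteValuationRing ↥(baseRing A K))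
      (_ : IsAlgClosed (IsLocalRing.ResidueField ↥(baseRing A K))),
      GoodBase (Lvl K) N (baseRing A K) ℓ ∧ (∀ ξ ∈ goodRoots A, ξ ∈ K) ∧
      (∀ c ∈ C, c ∈ K) ∧ (∀ t ∈ T, t ∈ Set.range (levK N K)) ∧
      (∀ P ∈ S, ResidueTrivial (restrictK N K P)) ∧
      ChartLevel A N K (Rfin (Lvl K) N (baseRing A K)) (RtFin A N) (N4F.C.jb N) ∧
      ChartLevel A N K (Rinf (Lvl K) N (baseRing A K)) (RtInf A N) (N4F.C.jb N)⁻¹ := by
  obtain ⟨K, hC, ⟨hDVR, hAC, hGB, -, hroots⟩, hT, hS, -, -⟩ :=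
    exists_level_of_finite A N hℓ hA hℓN C T S
  obtain ⟨h1, h2⟩ := MainFinal.levelHyp hℓ hA hℓN K hGB hroots
  exact ⟨K, hDVR, hAC, hGB, hroots, hC, hT, hS, h1, h2⟩

end ExistsLevel

end Fermat.Agent.S19.Cech.LevelDiv
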