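/-
S19 / Čech-units route, leaf [LMON] (owner helper2; this file: co-typist helper12), parts (M3), (M4):
**the divisorial chart modules, the generators `≡ 1` and the cocycles are monotone in the level.**

Levels `K ≤ K'` (intermediate fields of `Q̄/ℚ`), `φ := ffMap (LevelBasis.lvlIncl hKK') N : F_K → F_{K'}`
(`levK N K' ∘ φ = levK N K`, `LevelBasis.levK_ffMap`); `D` a divisor of `Fb N = Q̄·F_N` with
`K`-rational support.

* `levelDiv_restrictK_eq` : (L1) without a rationality hypothesis on the place: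
  `levelDiv K D (restrictK P) = D P` for EVERY place `P` of `Fb N`;
* `adicValuation_levK_le_iff` : `ord_P (levK f) + D P ≥ 0 ↔ ord_{P|K} f + D P ≥ 0`;
* `residueTrivial_restrictK_of_le` : rationality of a place goes up with the level;
* **`mem_LD_levelDiv_iff`** (M3, intrinsic form): for `c (restrictK P) ↔ C P`,
  `f ∈ LD W c (levelDiv K D) ↔ f ∈ W ∧ ∀ P : Place Q̄ (Fb N), C P → ord_P (levK f) + D P ≥ 0`:
  the chart module of the level `K` is cut out inside `W` by conditions at the places of `Fb N`,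
  which do not depend on the level; `mem_Lp_levelDiv_iff`, `mem_Lm_levelDiv_iff`,
  `mem_L0_levelDiv_iff`;
* **`LD_levelDiv_mono`** (M3): `f ∈ LD W c (levelDiv K D)`, `levK N K' f' = levK N K f`, `f' ∈ W'`
  `⟹ f' ∈ LD W' c' (levelDiv K' D)` (no inclusion of levels needed);
  `ffMap_mem_Lp_levelDiv`, `ffMap_mem_Lm_levelDiv`, `ffMap_mem_L0_levelDiv` for `K ≤ K'`
  (abstract Gauss rings `W`, `W'` with `φ W ⊆ W'`);
* (M1) `ffMap_mem_gaussSubalgebra_iff` (from helper18's `GaussLevel.mem_of_levK_eq`);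
* (M4) concrete package for the lines `GaussN4.lineOf` of the two levels, with
  `hϖ : DvrExt.oIncl A hKK' ϖ = u * ϖ' ^ e` (helper24's `exists_unit_mul_pow_level`):
  `ffMap_algebraMap_uniformiser`, **`isOne_ffMap`** (a), `ffMap_mem_lineOf_Lp/_Lm/_L0`,
  **`isCocycle_ffMap`** (b): `IsCocycle k fp fm u₀` at `K` gives
  `IsCocycle (e * k) (φ fp) (φ fm) (φ u₀)` at `K'`;
* **`kappa_ffMap`**, **`kImage_ffMap`** (c): the cocycle part `hKK'` of `RepQb.map` /
  `Sit.IsHom` for the inclusion of levels, for line predicates `Λ`, `Λ'` whose lines are the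
  `lineOf (levelDiv · D)`.
-/
import Mathlib
import Fermat.Agent.S19.Cech.LevelDiv
import Fermat.Agent.S19.Cech.DivModule
import Fermat.Agent.S19.Cech.LevelBasis
import Fermat.Agent.S19.Cech.TransportAut
import Fermat.Agent.S19.Cech.CoordOfLines
import Fermat.Agent.S19.Cech.GaussN4
import Fermat.Agent.S19.Cech.GaussLevel
import Fermat.Agent.S19.Cech.DvrExt

set_option autoImplicit false
set_option linter.unusedSectionVars false
set_option linter.style.haveILetI false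
set_option synthInstance.maxHeartbeats 400000
set_option maxHeartbeats 800000

open ModularCurve AlgebraicCurve
open Fermat.Agent.N4.Setting Fermat.Agent.S24
open Fermat.Agent.S24.PlaceDeriv (ResidueTrivial)

noncomputable section

namespace Fermat.Agent.S19.Cech.LineLevelMono

open Fermat.Agent.N4F.C Fermat.Agent.N4F.C.Levels Fermat.Agent.N4F.C.LevelCharts
  Fermat.Agent.S19.Cech.LevelDiv Fermat.Agent.S19.Cech.DivModule WithZero

/-! ### Places of `Fb N` and of a level -/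

section Places

variable {N : ℕ} [NeZero N] (K : IntermediateField ℚ Qb)

/-- **(L1) for every place**: the push-down of a divisor with `K`-rational support takes the value
`D P` at the restriction of ANY place `P` of `Fb N`. -/
theorem levelDiv_restrictK_eq (D : Divisor Qb (Fb N))
    (hrat : ∀ P ∈ D.support, ResidueTrivial (restrictK N K P)) (P : Place Qb (Fb N)) :
    levelDiv K D (restrictK N K P) = D P := by
  by_cases hP : P ∈ D.support
  · exact levelDiv_restrictK K D hrat P (hrat P hP)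
  · rw [Finsupp.notMem_support_iff.mp hP]
    by_contra hne
    obtain ⟨P', hP', hPP'⟩ := exists_of_levelDiv_ne_zero K D hne
    have h := restrictK_injective_of_residueTrivial K (hrat P' hP') hPP'
    exact hP (h ▸ hP')

/-- The condition `ord_P (levK f) + D P ≥ 0` at a place `P` of `Fb N` is the condition
`ord_v f + D P ≥ 0` at its restriction `v` to the level, when the support of `D` is `K`-rational. -/
theorem adicValuation_levK_le_iff (D : Divisor Qb (Fb N))
    (hrat : ∀ P ∈ D.support, ResidueTrivial (restrictK N K P)) (P : Place Qb (Fb N))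
    (f : FF (Lvl K) N) :
    P.adicValuation (levK N K f) ≤ exp (D P) ↔ (restrictK N K P).adicValuation f ≤ exp (D P) := by
  by_cases hP : P ∈ D.support
  · rw [Place.adicValuation_le_exp_iff, Place.adicValuation_le_exp_iff,
      ord_levK_restrictK N K P (hrat P hP), map_eq_zero_iff (levK N K) (levK N K).injective]
  · rw [Finsupp.notMem_support_iff.mp hP, exp_zero, ← mem_place_iff, ← mem_place_iff,
      mem_restrictK_iff]

/-- **Rationality is monotone in the level**: a place of `Fb N` whose restriction to `F_K` has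
residue field `K` restricts to a place of `F_{K'}` with residue field `K'`, for `K ≤ K'`. -/
theorem residueTrivial_restrictK_of_le {K K' : IntermediateField ℚ Qb} (hKK' : K ≤ K')
    (P : Place Qb (Fb N)) (h : ResidueTrivial (restrictK N K P)) :
    ResidueTrivial (restrictK N K' P) := by
  refine residueTrivial_of_extends (extends_restrictK N K' P) (residueTrivial_bar N P)
    {g | ∃ σ : Qb ≃ₐ[ℚ] Qb,
      (∀ a : Lvl K', σ (algebraMap (Lvl K') Qb a) = algebraMap (Lvl K') Qb a) ∧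
      g = arithmeticGalois (modularFunctionFieldFull N) σ} ?_ ?_ ?_
  · rintro g ⟨σ, hσ, rfl⟩
    have hσK : ∀ a : Lvl K, σ (algebraMap (Lvl K) Qb a) = algebraMap (Lvl K) Qb a := fun a =>
      hσ ((IntermediateField.inclusion hKK') a)
    have hext : PlaceExtend.Extends Qb (levK N K) (restrictK N K P)
        (arithmeticGalois (modularFunctionFieldFull N) σ • P) := by
      intro f
      rw [mem_restrictK_iff, SemilinearAut.smul_toValuationSubring]
      conv_lhs => rw [← arithmeticGalois_smul_lev N (Lvl K) σ hσK f]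
      exact ValuationSubring.smul_mem_pointwise_smul_iff
    exact (existsUnique_extendsK N K h).unique hext (extends_restrictK N K P)
  · rintro g ⟨σ, hσ, rfl⟩ f
    exact arithmeticGalois_smul_lev N (Lvl K') σ hσ f
  · intro c hc
    refine hasFixedField_lvl K' c fun σ hσ => ?_
    exact hc _ ⟨σ, hσ, rfl⟩

end Places

/-! ### (M3): the chart modules of a level, cut out by the places of `Fb N` -/

section LD

variable {N : ℕ} [NeZero N] (K : IntermediateField ℚ Qb)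
variable {O : Type*} [CommRing O] [IsDomain O] [Algebra O (Lvl K)] [IsFractionRing O (Lvl K)]
  [Algebra O (FF (Lvl K) N)] [IsScalarTower O (Lvl K) (FF (Lvl K) N)]

/-- **(M3), intrinsic form.**  For a divisor `D` of `Fb N` with `K`-rational support and a condition
`c` on the places of the level which is the restriction of a condition `C` on the places of
`Fb N`: the module `LD W c (levelDiv K D)` of the level `K` is cut out inside `W` by the conditions
`ord_P (levK f) + D P ≥ 0` at the places `P` of `Fb N` satisfying `C` — conditions which do not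
depend on the level. -/
theorem mem_LD_levelDiv_iff (D : Divisor Qb (Fb N))
    (hrat : ∀ P ∈ D.support, ResidueTrivial (restrictK N K P))
    (W : Subalgebra O (FF (Lvl K) N)) {c : Place (Lvl K) (FF (Lvl K) N) → Prop}
    {C : Place Qb (Fb N) → Prop} (hcC : ∀ P, c (restrictK N K P) ↔ C P) {f : FF (Lvl K) N} :
    f ∈ LD W c (levelDiv K D) ↔
      f ∈ W ∧ ∀ P : Place Qb (Fb N), C P → P.adicValuation (levK N K f) ≤ exp (D P) := by
  rw [mem_LD_iff]
  refine and_congr_right fun _ => ⟨fun h P hP => ?_, fun h v hv => ?_⟩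
  · rw [adicValuation_levK_le_iff K D hrat, ← levelDiv_restrictK_eq K D hrat P]
    exact h _ ((hcC P).mpr hP)
  · obtain ⟨P, hext, -⟩ := exists_extendsK N K v
    have hv' : v = restrictK N K P := eq_restrictK_of_extends N K hext
    subst hv'
    rw [levelDiv_restrictK_eq K D hrat P, ← adicValuation_levK_le_iff K D hrat]
    exact h P ((hcC P).mp hv)

/-- The chart `j ≠ ∞` at the level and in `Fb N`. -/
theorem inChart_restrictK_iff (P : Place Qb (Fb N)) :
    InChart (jF (Lvl K) N) (restrictK N K P) ↔ InChart (Fermat.Agent.N4F.C.jb N) P := by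
  unfold InChart
  rw [mem_restrictK_iff, levK_jF]

/-- The chart `j ≠ 0` at the level and in `Fb N`. -/
theorem inChart_inv_restrictK_iff (P : Place Qb (Fb N)) :
    InChart (jF (Lvl K) N)⁻¹ (restrictK N K P) ↔ InChart (Fermat.Agent.N4F.C.jb N)⁻¹ P := by
  unfold InChart
  rw [mem_restrictK_iff, levK_jF_inv]

/-- The overlap at the level and in `Fb N`. -/
theorem inBoth_restrictK_iff (P : Place Qb (Fb N)) :
    InBoth (jF (Lvl K) N) (restrictK N K P) ↔ InBoth (Fermat.Agent.N4F.C.jb N) P := by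
  unfold InBoth
  rw [inChart_restrictK_iff, inChart_inv_restrictK_iff]

variable (D : Divisor Qb (Fb N)) (hrat : ∀ P ∈ D.support, ResidueTrivial (restrictK N K P))
  (W : Subalgebra O (FF (Lvl K) N))

include hrat in
/-- `ℒ₊` of the level `K`, cut out by the places of `Fb N`. -/
theorem mem_Lp_levelDiv_iff {f : FF (Lvl K) N} :
    f ∈ Lp W (jF (Lvl K) N) (levelDiv K D) ↔
      f ∈ W ∧ ∀ P : Place Qb (Fb N), InChart (Fermat.Agent.N4F.C.jb N) P →
        P.adicValuation (levK N K f) ≤ exp (D P) :=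
  mem_LD_levelDiv_iff K D hrat W (inChart_restrictK_iff K)

include hrat in
/-- `ℒ₋` of the level `K`, cut out by the places of `Fb N`. -/
theorem mem_Lm_levelDiv_iff {f : FF (Lvl K) N} :
    f ∈ Lm W (jF (Lvl K) N) (levelDiv K D) ↔
      f ∈ W ∧ ∀ P : Place Qb (Fb N), InChart (Fermat.Agent.N4F.C.jb N)⁻¹ P →
        P.adicValuation (levK N K f) ≤ exp (D P) :=
  mem_LD_levelDiv_iff K D hrat W (inChart_inv_restrictK_iff K)

include hrat in
/-- `ℒ₀` of the level `K`, cut out by the places of `Fb N`. -/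
theorem mem_L0_levelDiv_iff {f : FF (Lvl K) N} :
    f ∈ L0 W (jF (Lvl K) N) (levelDiv K D) ↔
      f ∈ W ∧ ∀ P : Place Qb (Fb N), InBoth (Fermat.Agent.N4F.C.jb N) P →
        P.adicValuation (levK N K f) ≤ exp (D P) :=
  mem_LD_levelDiv_iff K D hrat W (inBoth_restrictK_iff K)

end LD

/-! ### (M3): monotonicity in the level -/

section Mono

open Fermat.Agent.N4.BaseDescent Fermat.Agent.S19.Cech.LevelBasis

variable {N : ℕ} [NeZero N] {K K' : IntermediateField ℚ Qb}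
variable {O : Type*} [CommRing O] [IsDomain O] [Algebra O (Lvl K)] [IsFractionRing O (Lvl K)]
  [Algebra O (FF (Lvl K) N)] [IsScalarTower O (Lvl K) (FF (Lvl K) N)]
variable {O' : Type*} [CommRing O'] [IsDomain O'] [Algebra O' (Lvl K')]
  [IsFractionRing O' (Lvl K')] [Algebra O' (FF (Lvl K') N)]
  [IsScalarTower O' (Lvl K') (FF (Lvl K') N)]

/-- **(M3).**  Let `D` be a divisor of `Fb N` whose support is rational over the two levels `K`, `K'`,
and let `c`, `c'` be the restrictions of the same condition `C` on the places of `Fb N`.  If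
`f ∈ LD W c (levelDiv K D)` and `f' ∈ W'` has the same image in `Fb N` as `f`, then
`f' ∈ LD W' c' (levelDiv K' D)`. -/
theorem LD_levelDiv_mono (D : Divisor Qb (Fb N))
    (hrat : ∀ P ∈ D.support, ResidueTrivial (restrictK N K P))
    (hrat' : ∀ P ∈ D.support, ResidueTrivial (restrictK N K' P))
    (W : Subalgebra O (FF (Lvl K) N)) (W' : Subalgebra O' (FF (Lvl K') N))
    {c : Place (Lvl K) (FF (Lvl K) N) → Prop} {c' : Place (Lvl K') (FF (Lvl K') N) → Prop}
    {C : Place Qb (Fb N) → Prop} (hcC : ∀ P, c (restrictK N K P) ↔ C P)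
    (hc'C : ∀ P, c' (restrictK N K' P) ↔ C P)
    {f : FF (Lvl K) N} {f' : FF (Lvl K') N} (hff' : levK N K' f' = levK N K f) (hf' : f' ∈ W')
    (hf : f ∈ LD W c (levelDiv K D)) : f' ∈ LD W' c' (levelDiv K' D) := by
  rw [mem_LD_levelDiv_iff K' D hrat' W' hc'C, hff']
  exact ⟨hf', ((mem_LD_levelDiv_iff K D hrat W hcC).mp hf).2⟩

variable (hKK' : K ≤ K') (D : Divisor Qb (Fb N))
  (hrat : ∀ P ∈ D.support, ResidueTrivial (restrictK N K P))
  (W : Subalgebra O (FF (Lvl K) N)) (W' : Subalgebra O' (FF (Lvl K') N))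
  (hWW' : ∀ w ∈ W, ffMap (lvlIncl hKK') N w ∈ W')

include hrat hWW'

/-- **(M3) for `ℒ₊`**, `K ≤ K'`: the inclusion `F_K → F_{K'}` maps `ℒ₊` of the level `K` into `ℒ₊` of
the level `K'` (for a divisor with `K`-rational support; `hWW'` is (M1) for the Gauss rings). -/
theorem ffMap_mem_Lp_levelDiv {f : FF (Lvl K) N}
    (hf : f ∈ Lp W (jF (Lvl K) N) (levelDiv K D)) :
    ffMap (lvlIncl hKK') N f ∈ Lp W' (jF (Lvl K') N) (levelDiv K' D) :=
  LD_levelDiv_mono D hrat (fun P hP => residueTrivial_restrictK_of_le hKK' P (hrat P hP)) W W'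
    (inChart_restrictK_iff K) (inChart_restrictK_iff K') (levK_ffMap N hKK' f)
    (hWW' f hf.1) hf

/-- **(M3) for `ℒ₋`**, `K ≤ K'`. -/
theorem ffMap_mem_Lm_levelDiv {f : FF (Lvl K) N}
    (hf : f ∈ Lm W (jF (Lvl K) N) (levelDiv K D)) :
    ffMap (lvlIncl hKK') N f ∈ Lm W' (jF (Lvl K') N) (levelDiv K' D) :=
  LD_levelDiv_mono D hrat (fun P hP => residueTrivial_restrictK_of_le hKK' P (hrat P hP)) W W'
    (inChart_inv_restrictK_iff K) (inChart_inv_restrictK_iff K') (levK_ffMap N hKK' f)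
    (hWW' f hf.1) hf

/-- **(M3) for `ℒ₀`**, `K ≤ K'`. -/
theorem ffMap_mem_L0_levelDiv {f : FF (Lvl K) N}
    (hf : f ∈ L0 W (jF (Lvl K) N) (levelDiv K D)) :
    ffMap (lvlIncl hKK') N f ∈ L0 W' (jF (Lvl K') N) (levelDiv K' D) :=
  LD_levelDiv_mono D hrat (fun P hP => residueTrivial_restrictK_of_le hKK' P (hrat P hP)) W W'
    (inBoth_restrictK_iff K) (inBoth_restrictK_iff K') (levK_ffMap N hKK' f)
    (hWW' f hf.1) hf

end Mono

/-! ### (M4): generators and cocycles of the lines `GaussN4.lineOf`, from the level `K` to `K'` -/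

section Concrete

open Fermat.Agent.N4.BaseDescent Fermat.Agent.N4.FibreEmbedding
  Fermat.Agent.S19.Cech.LevelBasis Fermat.Agent.S19.Cech.DvrExt
  Fermat.Agent.S19.Cech.Cocycle Fermat.Agent.S19.Cech.TransportAut

variable (A : ValuationSubring Qb) {N : ℕ} [NeZero N] {K K' : IntermediateField ℚ Qb}
  (hKK' : K ≤ K')

/-- `φ (ϖ_K) = u · ϖ_{K'} ^ e` inside the function fields, from the same relation in the base
rings (`DvrExt.exists_unit_mul_pow_level`). -/
theorem ffMap_algebraMap_uniformiser {ϖ : ↥(baseRing A K)} {ϖ' u : ↥(baseRing A K')} {e : ℕ}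
    (hϖ : oIncl A hKK' ϖ = u * ϖ' ^ e) :
    ffMap (lvlIncl hKK') N (algebraMap ↥(baseRing A K) (FF (Lvl K) N) ϖ) =
      algebraMap ↥(baseRing A K') (FF (Lvl K') N) u *
        algebraMap ↥(baseRing A K') (FF (Lvl K') N) ϖ' ^ e := by
  rw [ffMap_algebraMap_base (lvlIncl hKK') N (baseRing A K) (baseRing A K') (lvlIncl_mem A hKK'),
    ← map_pow, ← map_mul]
  exact congrArg _ hϖ

variable [IsDiscreteValuationRing ↥(baseRing A K)] [IsFractionRing ↥(baseRing A K) (Lvl K)]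
  [IsDiscreteValuationRing ↥(baseRing A K')] [IsFractionRing ↥(baseRing A K') (Lvl K')]

/-- **(M1) for the Gauss rings**: `W_K ⊆ W_{K'}` and `W_{K'} ∩ F_K = W_K`
(from helper18's `GaussLevel.mem_of_levK_eq`). -/
theorem ffMap_mem_gaussSubalgebra_iff {x : FF (Lvl K) N} :
    ffMap (lvlIncl hKK') N x ∈ gaussSubalgebra (Lvl K') N (baseRing A K') ↔
      x ∈ gaussSubalgebra (Lvl K) N (baseRing A K) :=
  (GaussLevel.mem_of_levK_eq A N K K' (levK_ffMap N hKK' x).symm).symm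

theorem ffMap_mem_gaussSubalgebra {x : FF (Lvl K) N}
    (hx : x ∈ gaussSubalgebra (Lvl K) N (baseRing A K)) :
    ffMap (lvlIncl hKK') N x ∈ gaussSubalgebra (Lvl K') N (baseRing A K') :=
  (ffMap_mem_gaussSubalgebra_iff A hKK').mpr hx

/-- **(M4)(a)**: generators `≡ 1` stay generators `≡ 1` at the bigger level. -/
theorem isOne_ffMap
    {ϖ : ↥(baseRing A K)} {ϖ' u : ↥(baseRing A K')} {e : ℕ} (he : 1 ≤ e)
    (hϖ : oIncl A hKK' ϖ = u * ϖ' ^ e) {f : FF (Lvl K) N}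
    (h : IsOne (algebraMap ↥(baseRing A K) (FF (Lvl K) N) ϖ)
      (gaussSubalgebra (Lvl K) N (baseRing A K)).toSubring f) :
    IsOne (algebraMap ↥(baseRing A K') (FF (Lvl K') N) ϖ')
      (gaussSubalgebra (Lvl K') N (baseRing A K')).toSubring (ffMap (lvlIncl hKK') N f) :=
  IsOne.map (ffMap (lvlIncl hKK') N) he (ffMap_algebraMap_uniformiser A hKK' hϖ)
    ((gaussSubalgebra (Lvl K') N (baseRing A K')).algebraMap_mem u)
    ((gaussSubalgebra (Lvl K') N (baseRing A K')).algebraMap_mem ϖ')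
    (fun _ hr => ffMap_mem_gaussSubalgebra A hKK' hr) h

variable (hstar : StarStatement (Lvl K) N (baseRing A K))
  (hstar' : StarStatement (Lvl K') N (baseRing A K'))
  {ϖ : ↥(baseRing A K)} (hϖ0 : ϖ ≠ 0) {ϖ' : ↥(baseRing A K')} (hϖ0' : ϖ' ≠ 0)
  (D : Divisor Qb (Fb N)) (hrat : ∀ P ∈ D.support, ResidueTrivial (restrictK N K P))
  (rp : ∀ x ∈ Lp (gaussSubalgebra (Lvl K) N (baseRing A K)) (jF (Lvl K) N) (levelDiv K D),
    ∃ b ∈ Rfin (Lvl K) N (baseRing A K), ∃ r ∈ gaussSubalgebra (Lvl K) N (baseRing A K),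
      x = b + algebraMap ↥(baseRing A K) (FF (Lvl K) N) ϖ * r)
  (rm : ∀ x ∈ Lm (gaussSubalgebra (Lvl K) N (baseRing A K)) (jF (Lvl K) N) (levelDiv K D),
    ∃ b ∈ Rinf (Lvl K) N (baseRing A K), ∃ r ∈ gaussSubalgebra (Lvl K) N (baseRing A K),
      x = b + algebraMap ↥(baseRing A K) (FF (Lvl K) N) ϖ * r)
  (rp' : ∀ x ∈ Lp (gaussSubalgebra (Lvl K') N (baseRing A K')) (jF (Lvl K') N) (levelDiv K' D),
    ∃ b ∈ Rfin (Lvl K') N (baseRing A K'), ∃ r ∈ gaussSubalgebra (Lvl K') N (baseRing A K'),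
      x = b + algebraMap ↥(baseRing A K') (FF (Lvl K') N) ϖ' * r)
  (rm' : ∀ x ∈ Lm (gaussSubalgebra (Lvl K') N (baseRing A K')) (jF (Lvl K') N) (levelDiv K' D),
    ∃ b ∈ Rinf (Lvl K') N (baseRing A K'), ∃ r ∈ gaussSubalgebra (Lvl K') N (baseRing A K'),
      x = b + algebraMap ↥(baseRing A K') (FF (Lvl K') N) ϖ' * r)

include hrat

/-- `φ (ℒ₊_K(D)) ⊆ ℒ₊_{K'}(D)` in the vocabulary of the lines. -/
theorem ffMap_mem_lineOf_Lp {x : FF (Lvl K) N}
    (hx : x ∈ (GaussN4.lineOf hstar hϖ0 (levelDiv K D) rp rm).Lp) :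
    ffMap (lvlIncl hKK') N x ∈ (GaussN4.lineOf hstar' hϖ0' (levelDiv K' D) rp' rm').Lp :=
  ffMap_mem_Lp_levelDiv hKK' D hrat _ _ (fun _ hw => ffMap_mem_gaussSubalgebra A hKK' hw) hx

/-- `φ (ℒ₋_K(D)) ⊆ ℒ₋_{K'}(D)` in the vocabulary of the lines. -/
theorem ffMap_mem_lineOf_Lm {x : FF (Lvl K) N}
    (hx : x ∈ (GaussN4.lineOf hstar hϖ0 (levelDiv K D) rp rm).Lm) :
    ffMap (lvlIncl hKK') N x ∈ (GaussN4.lineOf hstar' hϖ0' (levelDiv K' D) rp' rm').Lm :=
  ffMap_mem_Lm_levelDiv hKK' D hrat _ _ (fun _ hw => ffMap_mem_gaussSubalgebra A hKK' hw) hx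

/-- `φ (ℒ₀_K(D)) ⊆ ℒ₀_{K'}(D)` in the vocabulary of the lines. -/
theorem ffMap_mem_lineOf_L0 {x : FF (Lvl K) N}
    (hx : x ∈ (GaussN4.lineOf hstar hϖ0 (levelDiv K D) rp rm).L0) :
    ffMap (lvlIncl hKK') N x ∈ (GaussN4.lineOf hstar' hϖ0' (levelDiv K' D) rp' rm').L0 :=
  ffMap_mem_L0_levelDiv hKK' D hrat _ _ (fun _ hw => ffMap_mem_gaussSubalgebra A hKK' hw) hx

/-- **(M4)(b)**: a cocycle of precision `ϖ_K ^ k` of the line of `D` at the level `K` is a cocycle of
precision `ϖ_{K'} ^ (e k)` of the line of `D` at the level `K'` (same generators). -/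
theorem isCocycle_ffMap {u : ↥(baseRing A K')} {e : ℕ} (hϖ : oIncl A hKK' ϖ = u * ϖ' ^ e)
    {k : ℕ} {fp fm u₀ : FF (Lvl K) N}
    (h : (GaussN4.lineOf hstar hϖ0 (levelDiv K D) rp rm).IsCocycle k fp fm u₀) :
    (GaussN4.lineOf hstar' hϖ0' (levelDiv K' D) rp' rm').IsCocycle (e * k)
      (ffMap (lvlIncl hKK') N fp) (ffMap (lvlIncl hKK') N fm) (ffMap (lvlIncl hKK') N u₀) :=
  isCocycle_map (ffMap (lvlIncl hKK') N) (ffMap_algebraMap_uniformiser A hKK' hϖ) _ _
    ((Rmid (Lvl K') N (baseRing A K')).algebraMap_mem u)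
    (fun _ hb => ffMap_mem_Rmid (lvlIncl hKK') N (baseRing A K) (baseRing A K')
      (lvlIncl_mem A hKK') hb)
    (fun _ hx => ffMap_mem_lineOf_L0 A hKK' hstar hstar' hϖ0 hϖ0' D hrat rp rm rp' rm' hx) h

end Concrete

/-! ### (c): the cocycle part of the morphisms of situations -/

section KHom

open Fermat.Agent.S19.Cech.Cocycle Fermat.Agent.S19.Cech.TransportAut
  Fermat.Agent.S19.Cech.CoordOfLines

variable {F F' : Type*} [CommRing F] [IsDomain F] [CommRing F'] [IsDomain F']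
  {ϖ : F} {ϖ' c : F'} {Bp Bm B0 Rg : Subring F} {Bp' Bm' B0' Rg' : Subring F'}
  {Jb Jb' : Type*} [AddCommGroup Jb] [AddCommGroup Jb']

/-- Lowering the precision of a cocycle. -/
theorem isCocycle_mono_le (C : Charts ϖ Bp Bm B0 Rg) (L : Line ϖ Bp Bm B0 Rg) {m n : ℕ}
    (hmn : m ≤ n) {fp fm u : F} (h : L.IsCocycle n fp fm u) : L.IsCocycle m fp fm u := by
  obtain ⟨d, rfl⟩ := Nat.exists_eq_add_of_le hmn
  induction d with
  | zero => exact h
  | succ d ih => exact ih (Nat.le_add_right _ _) (Line.IsCocycle.mono C L h)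

/-- **Abstract transfer of the cocycle predicate** along a ring homomorphism `φ : F → F'` of the
ambient rings with `φ ϖ = c ϖ' ^ e`, `e ≥ 1`, `φ B0 ⊆ B0'`, `φ Rg ⊆ Rg'`, when every line of `Λ` is
mapped into a line of `Λ'` (of the class `act z`): cocycles of precision `ϖ ^ (k+1)` are mapped to
cocycles of precision `ϖ' ^ (k'+1)` for `k' + 1 ≤ e (k + 1)`. -/
theorem kappa_map (φ : F →+* F') (C' : Charts ϖ' Bp' Bm' B0' Rg') {e : ℕ} (he : 1 ≤ e)
    (hϖ : φ ϖ = c * ϖ' ^ e) (hc : c ∈ B0') (hB0 : ∀ b ∈ B0, φ b ∈ B0')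
    (hR : ∀ r ∈ Rg, φ r ∈ Rg')
    {Λ : Jb → Line ϖ Bp Bm B0 Rg → Prop} {Λ' : Jb' → Line ϖ' Bp' Bm' B0' Rg' → Prop}
    (act : Jb → Jb')
    (hΛ : ∀ z L, Λ z L → ∃ L', Λ' (act z) L' ∧ (∀ x ∈ L.Lp, φ x ∈ L'.Lp) ∧
      (∀ x ∈ L.Lm, φ x ∈ L'.Lm) ∧ (∀ x ∈ L.L0, φ x ∈ L'.L0))
    {k k' : ℕ} (hk : k' + 1 ≤ e * (k + 1)) {z : Jb} {u : F} (h : kappa Λ k z u) :
    kappa Λ' k' (act z) (φ u) := by
  obtain ⟨L, hL, fp, hfp, fm, hfm, h1p, h1m, hcoc⟩ := h
  obtain ⟨L', hL', hp, hm, h0⟩ := hΛ z L hL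
  have hone : ∀ f, IsOne ϖ Rg f → IsOne ϖ' Rg' (φ f) := fun f hf =>
    IsOne.map φ he hϖ (C'.le_R hc) C'.mem_R hR hf
  refine ⟨L', hL', φ fp, hp fp hfp, φ fm, hm fm hfm, hone fp h1p, hone fm h1m, ?_⟩
  exact isCocycle_mono_le C' L' hk (isCocycle_map φ hϖ L L' hc hB0 h0 hcoc)

/-- The same for the images of the cocycles under transports `q0`, `q0'` compatible with `ψ0`:
this is the hypothesis `hKK'` of `CoordOfLines.RepQb.map` (the last clause of `Sit.IsHom`). -/
theorem kImage_map (φ : F →+* F') (C' : Charts ϖ' Bp' Bm' B0' Rg') {e : ℕ} (he : 1 ≤ e)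
    (hϖ : φ ϖ = c * ϖ' ^ e) (hc : c ∈ B0') (hB0 : ∀ b ∈ B0, φ b ∈ B0')
    (hR : ∀ r ∈ Rg, φ r ∈ Rg')
    {Λ : Jb → Line ϖ Bp Bm B0 Rg → Prop} {Λ' : Jb' → Line ϖ' Bp' Bm' B0' Rg' → Prop}
    (act : Jb → Jb')
    (hΛ : ∀ z L, Λ z L → ∃ L', Λ' (act z) L' ∧ (∀ x ∈ L.Lp, φ x ∈ L'.Lp) ∧
      (∀ x ∈ L.Lm, φ x ∈ L'.Lm) ∧ (∀ x ∈ L.L0, φ x ∈ L'.L0))
    {k k' : ℕ} (hk : k' + 1 ≤ e * (k + 1))
    {C0 C0' : Type*} [CommRing C0] [CommRing C0'] (q0 : B0 →+* C0) (q0' : B0' →+* C0')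
    (ψ0 : C0 →+* C0') (hψ : ∀ (b : F) (hb : b ∈ B0), ψ0 (q0 ⟨b, hb⟩) = q0' ⟨φ b, hB0 b hb⟩)
    {z : Jb} {v : C0} (h : kImage q0 (kappa Λ k) z v) :
    kImage q0' (kappa Λ' k') (act z) (ψ0 v) := by
  obtain ⟨u, hu, huB, rfl⟩ := h
  exact ⟨φ u, kappa_map φ C' he hϖ hc hB0 hR act hΛ hk hu, hB0 u huB, hψ u huB⟩

end KHom

section KHomLevel

open Fermat.Agent.N4.BaseDescent Fermat.Agent.N4.FibreEmbedding
  Fermat.Agent.S19.Cech.LevelBasis Fermat.Agent.S19.Cech.DvrExt
  Fermat.Agent.S19.Cech.Cocycle Fermat.Agent.S19.Cech.TransportAut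
  Fermat.Agent.S19.Cech.CoordOfLines

variable (A : ValuationSubring Qb) {N : ℕ} [NeZero N] {K K' : IntermediateField ℚ Qb}
  (hKK' : K ≤ K')
  [IsDiscreteValuationRing ↥(baseRing A K)] [IsFractionRing ↥(baseRing A K) (Lvl K)]
  [IsDiscreteValuationRing ↥(baseRing A K')] [IsFractionRing ↥(baseRing A K') (Lvl K')]
  (hstar : StarStatement (Lvl K) N (baseRing A K))
  (hstar' : StarStatement (Lvl K') N (baseRing A K'))
  {ϖ : ↥(baseRing A K)} (hϖ0 : ϖ ≠ 0) {ϖ' : ↥(baseRing A K')} (hϖ0' : ϖ' ≠ 0)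
  (hϖ'nu : ¬ IsUnit ϖ')
  {Jb : Type*} [AddCommGroup Jb]
  {Λ : Jb → Line (algebraMap ↥(baseRing A K) (FF (Lvl K) N) ϖ)
    (Rfin (Lvl K) N (baseRing A K)).toSubring (Rinf (Lvl K) N (baseRing A K)).toSubring
    (Rmid (Lvl K) N (baseRing A K)).toSubring
    (gaussSubalgebra (Lvl K) N (baseRing A K)).toSubring → Prop}
  {Λ' : Jb → Line (algebraMap ↥(baseRing A K') (FF (Lvl K') N) ϖ')
    (Rfin (Lvl K') N (baseRing A K')).toSubring (Rinf (Lvl K') N (baseRing A K')).toSubring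
    (Rmid (Lvl K') N (baseRing A K')).toSubring
    (gaussSubalgebra (Lvl K') N (baseRing A K')).toSubring → Prop}

/-- The hypothesis on the line predicates of the two levels: every line of `Λ z` is the line
`lineOf (levelDiv K D)` of a divisor `D` of `Fb N` with `K`-rational support whose line
`lineOf (levelDiv K' D)` at the level `K'` belongs to `Λ' z`. -/
def LinesLift : Prop :=
  ∀ z L, Λ z L → ∃ (D : Divisor Qb (Fb N))
    (_ : ∀ P ∈ D.support, ResidueTrivial (restrictK N K P))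
    (rp : ∀ x ∈ Lp (gaussSubalgebra (Lvl K) N (baseRing A K)) (jF (Lvl K) N) (levelDiv K D),
      ∃ b ∈ Rfin (Lvl K) N (baseRing A K), ∃ r ∈ gaussSubalgebra (Lvl K) N (baseRing A K),
        x = b + algebraMap ↥(baseRing A K) (FF (Lvl K) N) ϖ * r)
    (rm : ∀ x ∈ Lm (gaussSubalgebra (Lvl K) N (baseRing A K)) (jF (Lvl K) N) (levelDiv K D),
      ∃ b ∈ Rinf (Lvl K) N (baseRing A K), ∃ r ∈ gaussSubalgebra (Lvl K) N (baseRing A K),
        x = b + algebraMap ↥(baseRing A K) (FF (Lvl K) N) ϖ * r)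
    (rp' : ∀ x ∈ Lp (gaussSubalgebra (Lvl K') N (baseRing A K')) (jF (Lvl K') N)
        (levelDiv K' D),
      ∃ b ∈ Rfin (Lvl K') N (baseRing A K'), ∃ r ∈ gaussSubalgebra (Lvl K') N (baseRing A K'),
        x = b + algebraMap ↥(baseRing A K') (FF (Lvl K') N) ϖ' * r)
    (rm' : ∀ x ∈ Lm (gaussSubalgebra (Lvl K') N (baseRing A K')) (jF (Lvl K') N)
        (levelDiv K' D),
      ∃ b ∈ Rinf (Lvl K') N (baseRing A K'), ∃ r ∈ gaussSubalgebra (Lvl K') N (baseRing A K'),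
        x = b + algebraMap ↥(baseRing A K') (FF (Lvl K') N) ϖ' * r),
    L = GaussN4.lineOf hstar hϖ0 (levelDiv K D) rp rm ∧
      Λ' z (GaussN4.lineOf hstar' hϖ0' (levelDiv K' D) rp' rm')

variable {A hstar hstar' hϖ0 hϖ0'}

include hϖ'nu in
/-- **(c), level inclusion**: cocycles of precision `ϖ_K ^ (k+1)` of the classes at the level `K` are
cocycles of precision `ϖ_{K'} ^ (k'+1)` at the level `K'`, `k' + 1 ≤ e (k + 1)`. -/
theorem kappa_ffMap (hΛ : LinesLift A hstar hstar' hϖ0 hϖ0' (Λ := Λ) (Λ' := Λ'))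
    {u : ↥(baseRing A K')} {e : ℕ} (he : 1 ≤ e) (hϖ : oIncl A hKK' ϖ = u * ϖ' ^ e)
    {k k' : ℕ} (hk : k' + 1 ≤ e * (k + 1)) {z : Jb} {u₀ : FF (Lvl K) N}
    (h : kappa Λ k z u₀) : kappa Λ' k' z (ffMap (lvlIncl hKK') N u₀) := by
  refine kappa_map (ffMap (lvlIncl hKK') N) (GaussN4.charts_of_star hstar' hϖ0' hϖ'nu) he
    (ffMap_algebraMap_uniformiser A hKK' hϖ)
    ((Rmid (Lvl K') N (baseRing A K')).algebraMap_mem u)
    (fun _ hb => ffMap_mem_Rmid (lvlIncl hKK') N (baseRing A K) (baseRing A K')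
      (lvlIncl_mem A hKK') hb)
    (fun _ hr => ffMap_mem_gaussSubalgebra A hKK' hr) id ?_ hk h
  intro z L hL
  obtain ⟨D, hrat, rp, rm, rp', rm', rfl, hL'⟩ := hΛ z L hL
  exact ⟨_, hL',
    fun _ hx => ffMap_mem_lineOf_Lp A hKK' hstar hstar' hϖ0 hϖ0' D hrat rp rm rp' rm' hx,
    fun _ hx => ffMap_mem_lineOf_Lm A hKK' hstar hstar' hϖ0 hϖ0' D hrat rp rm rp' rm' hx,
    fun _ hx => ffMap_mem_lineOf_L0 A hKK' hstar hstar' hϖ0 hϖ0' D hrat rp rm rp' rm' hx⟩

include hϖ'nu in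
/-- **(c), level inclusion, image form**: the clause `∀ z v, X.K z v → Y.K z (ψ0 v)` of `Sit.IsHom`
for the inclusion of levels (`K = kImage q0 (kappa Λ k)`). -/
theorem kImage_ffMap (hΛ : LinesLift A hstar hstar' hϖ0 hϖ0' (Λ := Λ) (Λ' := Λ'))
    {u : ↥(baseRing A K')} {e : ℕ} (he : 1 ≤ e) (hϖ : oIncl A hKK' ϖ = u * ϖ' ^ e)
    {k k' : ℕ} (hk : k' + 1 ≤ e * (k + 1))
    {C0 C0' : Type*} [CommRing C0] [CommRing C0']
    (q0 : (Rmid (Lvl K) N (baseRing A K)).toSubring →+* C0)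
    (q0' : (Rmid (Lvl K') N (baseRing A K')).toSubring →+* C0') (ψ0 : C0 →+* C0')
    (hψ : ∀ (b : FF (Lvl K) N) (hb : b ∈ (Rmid (Lvl K) N (baseRing A K)).toSubring),
      ψ0 (q0 ⟨b, hb⟩) = q0' ⟨ffMap (lvlIncl hKK') N b,
        ffMap_mem_Rmid (lvlIncl hKK') N (baseRing A K) (baseRing A K') (lvlIncl_mem A hKK') hb⟩)
    {z : Jb} {v : C0} (h : kImage q0 (kappa Λ k) z v) :
    kImage q0' (kappa Λ' k') z (ψ0 v) := by
  obtain ⟨u₀, hu, huB, rfl⟩ := h
  exact ⟨_, kappa_ffMap hKK' hϖ'nu hΛ he hϖ hk hu, _, hψ u₀ huB⟩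

end KHomLevel

end Fermat.Agent.S19.Cech.LineLevelMono
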