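/-
S19 / Čech-units route, leaf [GEN] (helper13), ABSTRACT part.  Pure commutative algebra, Mathlib +
`Cocycle.lean` only.

Setting: `F` a domain, `ϖ ∈ F`, subrings `B ≤ Rg` of `F` (a chart and the Gauss valuation ring),
`ϖ ∈ B`.  "Reduction modulo `ϖ Rg`" of an element `x ∈ Rg` lies in the special fibre `B / ϖ` of the
chart iff `x = b + ϖ r` with `b ∈ B`, `r ∈ Rg`.

* `exists_red_of_local` : **gluing of reductions** (`B̃ = ⋂ 𝒪̃_x`): if for every maximal ideal `𝔪 ∋ ϖ`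
  of `B` some multiple `s x`, `s ∈ B ∖ 𝔪`, reduces into `B`, then `x` reduces into `B`.
* `exists_isOne_of_local` : **existence of a generator**: if `L` is a `B`-submodule of `F` such that
  for every maximal ideal `𝔪 ∋ ϖ` of `B` some element of `L` reduces to an element of `B ∖ 𝔪`, then
  `L` contains an element `≡ 1 mod ϖ Rg`.

Both are the statement "an ideal of `B` containing `ϖ` and contained in no maximal ideal containing
`ϖ` is the unit ideal".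
-/
import Mathlib
import Fermat.Agent.S19.Cech.Cocycle

set_option autoImplicit false

namespace Fermat.Agent.S19.Cech.GeneratorsAbs

open Fermat.Agent.S19.Cech.Cocycle

variable {F : Type*} [CommRing F] {ϖ : F} {B Rg : Subring F}

/-- An ideal of `B` which contains `ϖ` and is contained in no maximal ideal containing `ϖ` is the
unit ideal. -/
theorem eq_top_of_forall_maximal (hϖ : ϖ ∈ B) (I : Ideal B) (hI : (⟨ϖ, hϖ⟩ : B) ∈ I)
    (h : ∀ 𝔪 : Ideal B, 𝔪.IsMaximal → (⟨ϖ, hϖ⟩ : B) ∈ 𝔪 → ∃ s : B, s ∉ 𝔪 ∧ s ∈ I) : I = ⊤ := by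
  by_contra hne
  obtain ⟨𝔪, h𝔪, hle⟩ := Ideal.exists_le_maximal I hne
  obtain ⟨s, hs, hsI⟩ := h 𝔪 h𝔪 (hle hI)
  exact hs (hle hsI)

/-- The elements of `B` which multiply `x` into `B + ϖ Rg`. -/
def redIdeal (ϖ : F) (hB : B ≤ Rg) (x : F) : Ideal B where
  carrier := {s | ∃ b ∈ B, ∃ r ∈ Rg, (s : F) * x = b + ϖ * r}
  add_mem' := by
    rintro s s' ⟨b, hb, r, hr, h⟩ ⟨b', hb', r', hr', h'⟩
    refine ⟨b + b', B.add_mem hb hb', r + r', Rg.add_mem hr hr', ?_⟩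
    push_cast
    linear_combination h + h'
  zero_mem' := ⟨0, B.zero_mem, 0, Rg.zero_mem, by simp⟩
  smul_mem' := by
    rintro c s ⟨b, hb, r, hr, h⟩
    refine ⟨c * b, B.mul_mem c.2 hb, c * r, Rg.mul_mem (hB c.2) hr, ?_⟩
    simp only [smul_eq_mul, Subring.coe_mul]
    linear_combination (c : F) * h

/-- **Gluing of reductions.**  If `x ∈ Rg` and for every maximal ideal `𝔪 ∋ ϖ` of the chart `B` there
is `s ∈ B ∖ 𝔪` such that `s x` reduces into `B`, then `x` reduces into `B`. -/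
theorem exists_red_of_local (hB : B ≤ Rg) (hϖ : ϖ ∈ B) {x : F} (hx : x ∈ Rg)
    (h : ∀ 𝔪 : Ideal B, 𝔪.IsMaximal → (⟨ϖ, hϖ⟩ : B) ∈ 𝔪 →
      ∃ s : B, s ∉ 𝔪 ∧ ∃ b ∈ B, ∃ r ∈ Rg, (s : F) * x = b + ϖ * r) :
    ∃ b ∈ B, ∃ r ∈ Rg, x = b + ϖ * r := by
  have hI : (⟨ϖ, hϖ⟩ : B) ∈ redIdeal ϖ hB x := ⟨0, B.zero_mem, x, hx, by simp⟩
  have htop := eq_top_of_forall_maximal hϖ (redIdeal ϖ hB x) hI h
  have h1 : (1 : B) ∈ redIdeal ϖ hB x := by rw [htop]; trivial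
  obtain ⟨b, hb, r, hr, h⟩ := h1
  exact ⟨b, hb, r, hr, by simpa using h⟩

/-- The reductions (in `B`) of the elements of a `B`-submodule `L`. -/
def genIdeal (hB : B ≤ Rg) (L : AddSubgroup F) (smul : ∀ b ∈ B, ∀ x ∈ L, b * x ∈ L) : Ideal B where
  carrier := {b | ∃ f ∈ L, ∃ r ∈ Rg, f = (b : F) + ϖ * r}
  add_mem' := by
    rintro b b' ⟨f, hf, r, hr, h⟩ ⟨f', hf', r', hr', h'⟩
    refine ⟨f + f', L.add_mem hf hf', r + r', Rg.add_mem hr hr', ?_⟩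
    push_cast
    linear_combination h + h'
  zero_mem' := ⟨0, L.zero_mem, 0, Rg.zero_mem, by simp⟩
  smul_mem' := by
    rintro c b ⟨f, hf, r, hr, h⟩
    refine ⟨c * f, smul c c.2 f hf, c * r, Rg.mul_mem (hB c.2) hr, ?_⟩
    simp only [smul_eq_mul, Subring.coe_mul]
    linear_combination (c : F) * h

/-- **Existence of a generator.**  Let `L` be a `B`-submodule of `F`.  If for every maximal ideal
`𝔪 ∋ ϖ` of `B` some `f ∈ L` is congruent modulo `ϖ Rg` to an element of `B ∖ 𝔪`, then `L` contains an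
element `≡ 1 mod ϖ Rg`. -/
theorem exists_isOne_of_local (hB : B ≤ Rg) (hϖ : ϖ ∈ B) (L : AddSubgroup F)
    (smul : ∀ b ∈ B, ∀ x ∈ L, b * x ∈ L)
    (h : ∀ 𝔪 : Ideal B, 𝔪.IsMaximal → (⟨ϖ, hϖ⟩ : B) ∈ 𝔪 →
      ∃ s : B, s ∉ 𝔪 ∧ ∃ f ∈ L, ∃ r ∈ Rg, f = (s : F) + ϖ * r) :
    ∃ f ∈ L, IsOne ϖ Rg f := by
  have hI : (⟨ϖ, hϖ⟩ : B) ∈ genIdeal (ϖ := ϖ) hB L smul :=
    ⟨0, L.zero_mem, -1, Rg.neg_mem Rg.one_mem, by simp⟩
  have htop := eq_top_of_forall_maximal hϖ (genIdeal (ϖ := ϖ) hB L smul) hI h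
  have h1 : (1 : B) ∈ genIdeal (ϖ := ϖ) hB L smul := by rw [htop]; trivial
  obtain ⟨f, hf, r, hr, h⟩ := h1
  exact ⟨f, hf, r, hr, by simpa using h⟩

end Fermat.Agent.S19.Cech.GeneratorsAbs
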