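/-
S19 / Čech-units route, block CECH-2A (helper21): **the abstract engine
"local equations (ideles `≡ 1 mod ϖ`) ⟹ two-chart Čech cocycle modulo `ϖⁿ`"**.

Ambient commutative ring `F` (in the application: the function field of the modular curve over a
level `K`), `ϖ ∈ F` (a uniformiser of the base), `W ⊆ F` the local ring of the model at the generic
point of the special fibre (Gauss valuation ring), `R ⊆ W` a chart, `S x ⊆ W` (`x : X`) the local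
rings of the chart at the closed points of its special fibre.

* `OneAdd ϖ S u`  : `u ∈ 1 + ϖ S`;
* `Rel ϖ n S W f g` : `f ∈ g · (1 + ϖ S) · (1 + ϖⁿ W)`;
* `ChartSys ϖ W R S` : the hypotheses on a chart: `glue` (sheaf property modulo `ϖⁿ`) and `approx`
  (additive strong approximation on the special fibre);
* `ChartSys.exists_global` (**multiplicative strong approximation**): an idele `g` with values in
  `1 + ϖ W`, almost everywhere in `1 + ϖ S x`, is, modulo `ϖⁿ`, everywhere locally equivalent to ONE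
  global `f ∈ 1 + ϖ W`;
* `ChartSys.rel_of_forall_rel` : two global elements which are everywhere locally equivalent are
  equivalent over the chart `R`;
* `IsSol`, `exists_isSol`, `IsSol.mul`, `isSol_diag`, `IsSol.congr`, `IsSol.unique` : the Čech cocycle
  `f₊ / f₋ ∈ (1 + ϖ R₀)(1 + ϖⁿ W)` of an idele on a two-chart system, its multiplicativity, triviality on
  diagonal (= principal) ideles, and its uniqueness up to `(1 + ϖ R₊)(1 + ϖ R₋)` modulo `ϖⁿ R₀`.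

Pure commutative algebra (Mathlib only).
-/
import Mathlib

set_option autoImplicit false

namespace Fermat.Agent.S19.Cech.Idele

variable {F : Type*} [CommRing F]

/-- `u ∈ 1 + ϖ S`. -/
def OneAdd (ϖ : F) (S : Subring F) (u : F) : Prop := ∃ s ∈ S, u = 1 + ϖ * s

/-- `f ∈ g · (1 + ϖ S) · (1 + ϖⁿ W)`. -/
def Rel (ϖ : F) (n : ℕ) (S W : Subring F) (f g : F) : Prop :=
  ∃ s ∈ S, ∃ v ∈ W, f = g * (1 + ϖ * s) * (1 + ϖ ^ n * v)

/-- The elements of `1 + ϖ S` have inverses in `1 + ϖ S`. -/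
def HasInv (ϖ : F) (S : Subring F) : Prop :=
  ∀ s ∈ S, ∃ s' ∈ S, (1 + ϖ * s) * (1 + ϖ * s') = 1

section Basic

variable {ϖ : F} {S W : Subring F}

theorem oneAdd_one : OneAdd ϖ S 1 := ⟨0, S.zero_mem, by ring⟩

theorem OneAdd.mono {S' : Subring F} (h : S ≤ S') {u : F} (hu : OneAdd ϖ S u) : OneAdd ϖ S' u := by
  obtain ⟨s, hs, rfl⟩ := hu
  exact ⟨s, h hs, rfl⟩

theorem OneAdd.mul (hϖ : ϖ ∈ S) {u u' : F} (hu : OneAdd ϖ S u) (hu' : OneAdd ϖ S u') :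
    OneAdd ϖ S (u * u') := by
  obtain ⟨s, hs, rfl⟩ := hu
  obtain ⟨s', hs', rfl⟩ := hu'
  exact ⟨s + s' + ϖ * s * s', S.add_mem (S.add_mem hs hs') (S.mul_mem (S.mul_mem hϖ hs) hs'),
    by ring⟩

theorem HasInv.exists_inv (hS : HasInv ϖ S) {u : F} (hu : OneAdd ϖ S u) :
    ∃ u', OneAdd ϖ S u' ∧ u * u' = 1 := by
  obtain ⟨s, hs, rfl⟩ := hu
  obtain ⟨s', hs', h⟩ := hS s hs
  exact ⟨1 + ϖ * s', ⟨s', hs', rfl⟩, h⟩

/-- Inverses of the elements of `1 + ϖ^(m+1) W` inside `1 + ϖ^(m+1) W`. -/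
theorem HasInv.pow (hW : HasInv ϖ W) (hϖ : ϖ ∈ W) (m : ℕ) {v : F} (hv : v ∈ W) :
    ∃ v' ∈ W, (1 + ϖ ^ (m + 1) * v) * (1 + ϖ ^ (m + 1) * v') = 1 := by
  obtain ⟨w', hw', h⟩ := hW (ϖ ^ m * v) (W.mul_mem (W.pow_mem hϖ m) hv)
  refine ⟨-(v * (1 + ϖ * w')), W.neg_mem (W.mul_mem hv (W.add_mem W.one_mem (W.mul_mem hϖ hw'))), ?_⟩
  have h' : (1 + ϖ ^ (m + 1) * v) * (1 + ϖ * w') = 1 := by
    linear_combination h
  linear_combination (-(ϖ ^ (m + 1) * v)) * h'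

theorem Rel.refl (f : F) (n : ℕ) : Rel ϖ n S W f f :=
  ⟨0, S.zero_mem, 0, W.zero_mem, by ring⟩

theorem Rel.mono {S' : Subring F} (h : S ≤ S') {n : ℕ} {f g : F} (hfg : Rel ϖ n S W f g) :
    Rel ϖ n S' W f g := by
  obtain ⟨s, hs, v, hv, e⟩ := hfg
  exact ⟨s, h hs, v, hv, e⟩

theorem Rel.trans (hϖS : ϖ ∈ S) (hϖW : ϖ ∈ W) {n : ℕ} {f g h : F} (hfg : Rel ϖ n S W f g)
    (hgh : Rel ϖ n S W g h) : Rel ϖ n S W f h := by
  obtain ⟨s, hs, v, hv, rfl⟩ := hfg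
  obtain ⟨s', hs', v', hv', rfl⟩ := hgh
  refine ⟨s + s' + ϖ * s * s', S.add_mem (S.add_mem hs hs') (S.mul_mem (S.mul_mem hϖS hs) hs'),
    v + v' + ϖ ^ n * v * v',
    W.add_mem (W.add_mem hv hv') (W.mul_mem (W.mul_mem (W.pow_mem hϖW n) hv) hv'), by ring⟩

theorem Rel.mul (hϖS : ϖ ∈ S) (hϖW : ϖ ∈ W) {n : ℕ} {f g f' g' : F} (h : Rel ϖ n S W f g)
    (h' : Rel ϖ n S W f' g') : Rel ϖ n S W (f * f') (g * g') := by
  obtain ⟨s, hs, v, hv, rfl⟩ := h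
  obtain ⟨s', hs', v', hv', rfl⟩ := h'
  refine ⟨s + s' + ϖ * s * s', S.add_mem (S.add_mem hs hs') (S.mul_mem (S.mul_mem hϖS hs) hs'),
    v + v' + ϖ ^ n * v * v',
    W.add_mem (W.add_mem hv hv') (W.mul_mem (W.mul_mem (W.pow_mem hϖW n) hv) hv'), by ring⟩

theorem Rel.symm (hS : HasInv ϖ S) (hW : HasInv ϖ W) (hϖW : ϖ ∈ W) {m : ℕ} {f g : F}
    (h : Rel ϖ (m + 1) S W f g) : Rel ϖ (m + 1) S W g f := by
  obtain ⟨s, hs, v, hv, rfl⟩ := h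
  obtain ⟨s', hs', e⟩ := hS s hs
  obtain ⟨v', hv', e'⟩ := hW.pow hϖW m hv
  refine ⟨s', hs', v', hv', ?_⟩
  calc g = g * ((1 + ϖ * s) * (1 + ϖ * s')) * ((1 + ϖ ^ (m + 1) * v) * (1 + ϖ ^ (m + 1) * v')) := by
        rw [e, e']; ring
    _ = g * (1 + ϖ * s) * (1 + ϖ ^ (m + 1) * v) * (1 + ϖ * s') * (1 + ϖ ^ (m + 1) * v') := by ring

/-- Multiplying by an element of `1 + ϖ S` does not change the class. -/
theorem Rel.mul_oneAdd_right (hS : HasInv ϖ S) (hϖS : ϖ ∈ S) {n : ℕ} {f g u : F}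
    (h : Rel ϖ n S W f g) (hu : OneAdd ϖ S u) : Rel ϖ n S W f (g * u) := by
  obtain ⟨s, hs, v, hv, rfl⟩ := h
  obtain ⟨u', hu', e⟩ := hS.exists_inv hu
  obtain ⟨t, ht, et⟩ := OneAdd.mul hϖS hu' (⟨s, hs, rfl⟩ : OneAdd ϖ S (1 + ϖ * s))
  refine ⟨t, ht, v, hv, ?_⟩
  rw [← et]
  calc g * (1 + ϖ * s) * (1 + ϖ ^ n * v) = g * (u * u') * (1 + ϖ * s) * (1 + ϖ ^ n * v) := by
        rw [e]; ring
    _ = g * u * (u' * (1 + ϖ * s)) * (1 + ϖ ^ n * v) := by ring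

end Basic

/-! ### One chart -/

/-- **The hypotheses on a chart** `R` with local rings `S x` at the closed points `x : X` of its
special fibre, inside the local ring `W` of the generic point of the special fibre. -/
structure ChartSys (ϖ : F) (W R : Subring F) {X : Type*} (S : X → Subring F) : Prop where
  ϖ_mem : ϖ ∈ R
  R_le : ∀ x, R ≤ S x
  S_le : ∀ x, S x ≤ W
  R_le_W : R ≤ W
  invW : HasInv ϖ W
  invS : ∀ x, HasInv ϖ (S x)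
  /-- every element of `W` is regular at almost all closed points -/
  almost : ∀ w ∈ W, {x | w ∉ S x}.Finite
  /-- sheaf property modulo `ϖⁿ` -/
  glue : ∀ (n : ℕ), ∀ w ∈ W, (∀ x, ∃ s ∈ S x, ∃ v ∈ W, w = s + ϖ ^ n * v) →
    ∃ r ∈ R, ∃ v ∈ W, w = r + ϖ ^ n * v
  /-- additive strong approximation on the special fibre -/
  approx : ∀ (T : Finset X) (a : X → F), (∀ x, a x ∈ W) → ∃ b ∈ W,
    (∀ x ∈ T, ∃ s ∈ S x, ∃ v ∈ W, b - a x = s + ϖ * v) ∧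
      (∀ x, x ∉ T → ∃ s ∈ S x, ∃ v ∈ W, b = s + ϖ * v)

namespace ChartSys

variable {ϖ : F} {W R : Subring F} {X : Type*} {S : X → Subring F}

theorem ϖ_mem_S (H : ChartSys ϖ W R S) (x : X) : ϖ ∈ S x := H.R_le x H.ϖ_mem

theorem ϖ_mem_W (H : ChartSys ϖ W R S) : ϖ ∈ W := H.R_le_W H.ϖ_mem

/-- The induction step of strong approximation, at one point. -/
theorem step_aux (H : ChartSys ϖ W R S) (x : X) (m : ℕ) {f gx s w b b' σ ω : F}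
    (hs : s ∈ S x) (hσ : σ ∈ S x) (hω : ω ∈ W) (hb' : b' ∈ W)
    (hf : f = gx * (1 + ϖ * s) * (1 + ϖ ^ (m + 1) * w))
    (hbb' : (1 + ϖ ^ (m + 1) * b) * (1 + ϖ ^ (m + 1) * b') = 1)
    (hbw : b - w = σ + ϖ * ω) :
    Rel ϖ (m + 2) (S x) W (f * (1 + ϖ ^ (m + 1) * b')) gx := by
  have hϖS := H.ϖ_mem_S x
  have hϖW := H.ϖ_mem_W
  -- inverse of `1 - ϖ^(m+1) σ`
  obtain ⟨σ', hσ', e⟩ := H.invS x (-(ϖ ^ m * σ))
    ((S x).neg_mem ((S x).mul_mem ((S x).pow_mem hϖS m) hσ))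
  have hσ'W : σ' ∈ W := H.S_le x hσ'
  have hσW : σ ∈ W := H.S_le x hσ
  refine ⟨s - ϖ ^ m * σ - ϖ ^ (m + 1) * s * σ, ?_,
    -((ϖ ^ m * σ * b' + ω * (1 + ϖ ^ (m + 1) * b')) * (1 + ϖ * σ')), ?_, ?_⟩
  · exact (S x).sub_mem ((S x).sub_mem hs ((S x).mul_mem ((S x).pow_mem hϖS m) hσ))
      ((S x).mul_mem ((S x).mul_mem ((S x).pow_mem hϖS (m + 1)) hs) hσ)
  · refine W.neg_mem (W.mul_mem (W.add_mem (W.mul_mem (W.mul_mem (W.pow_mem hϖW m) hσW) hb')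
      (W.mul_mem hω (W.add_mem W.one_mem (W.mul_mem (W.pow_mem hϖW (m + 1)) hb'))))
      (W.add_mem W.one_mem (W.mul_mem hϖW hσ'W)))
  · have hw : w = b - σ - ϖ * ω := by linear_combination -hbw
    have e1 : (1 - ϖ ^ (m + 1) * σ) * (1 + ϖ * σ') = 1 := by
      linear_combination e
    rw [hf, hw]
    linear_combination (gx * (1 + ϖ * s)) * hbb'
      + (gx * (1 + ϖ * s) * ϖ ^ (m + 2) *
        (ϖ ^ m * σ * b' + ω * (1 + ϖ ^ (m + 1) * b'))) * e1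

/-- **Multiplicative strong approximation** modulo `ϖ^(m+1)`. -/
theorem exists_global_succ (H : ChartSys ϖ W R S) (g : X → F) (hg : ∀ x, OneAdd ϖ W (g x))
    (hfin : {x | ¬ OneAdd ϖ (S x) (g x)}.Finite) (m : ℕ) :
    ∃ f, OneAdd ϖ W f ∧ ∀ x, Rel ϖ (m + 1) (S x) W f (g x) := by
  classical
  have hϖW := H.ϖ_mem_W
  induction m with
  | zero =>
    refine ⟨1, oneAdd_one, fun x => ?_⟩
    obtain ⟨u', ⟨w', hw', rfl⟩, e⟩ := H.invW.exists_inv (hg x)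
    exact ⟨0, (S x).zero_mem, w', hw', by rw [zero_add, pow_one, mul_zero, add_zero, mul_one, e]⟩
  | succ m ih =>
    obtain ⟨f, ⟨a, ha, rfl⟩, hf⟩ := ih
    set T : Finset X := hfin.toFinset ∪ (H.almost a ha).toFinset with hT
    -- the error terms, chosen to vanish outside `T`
    have key : ∀ x, ∃ w ∈ W, (x ∉ T → w = 0) ∧
        ∃ s ∈ S x, 1 + ϖ * a = g x * (1 + ϖ * s) * (1 + ϖ ^ (m + 1) * w) := by
      intro x
      by_cases hx : x ∈ T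
      · obtain ⟨s, hs, v, hv, e⟩ := hf x
        exact ⟨v, hv, fun h => absurd hx h, s, hs, e⟩
      · have hx1 : OneAdd ϖ (S x) (g x) := by
          by_contra h
          exact hx (Finset.mem_union_left _ (hfin.mem_toFinset.2 h))
        have hx2 : a ∈ S x := by
          by_contra h
          exact hx (Finset.mem_union_right _ ((H.almost a ha).mem_toFinset.2 h))
        obtain ⟨u', hu', e⟩ := (H.invS x).exists_inv hx1
        obtain ⟨s, hs, es⟩ := OneAdd.mul (H.ϖ_mem_S x) hu' (⟨a, hx2, rfl⟩ : OneAdd ϖ (S x) (1 + ϖ * a))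
        refine ⟨0, W.zero_mem, fun _ => rfl, s, hs, ?_⟩
        rw [← es, mul_zero, add_zero, mul_one, ← mul_assoc, e, one_mul]
    choose w hwW hw0 hw using key
    obtain ⟨b, hbW, hbT, hbT'⟩ := H.approx T w hwW
    obtain ⟨b', hb'W, hbb'⟩ := H.invW.pow hϖW m hbW
    refine ⟨(1 + ϖ * a) * (1 + ϖ ^ (m + 1) * b'), ?_, fun x => ?_⟩
    · refine OneAdd.mul hϖW ⟨a, ha, rfl⟩ ⟨ϖ ^ m * b', W.mul_mem (W.pow_mem hϖW m) hb'W, by ring⟩
    · obtain ⟨s, hs, e⟩ := hw x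
      have hbw : ∃ σ ∈ S x, ∃ ω ∈ W, b - w x = σ + ϖ * ω := by
        by_cases hx : x ∈ T
        · exact hbT x hx
        · obtain ⟨σ, hσ, ω, hω, e'⟩ := hbT' x hx
          exact ⟨σ, hσ, ω, hω, by rw [hw0 x hx, sub_zero, e']⟩
      obtain ⟨σ, hσ, ω, hω, e'⟩ := hbw
      exact H.step_aux x m hs hσ hω hb'W e hbb' e'

/-- **Multiplicative strong approximation**: an idele `g` with values in `1 + ϖ W`, almost everywhere
in `1 + ϖ S x`, is modulo `ϖⁿ` (`n ≥ 1`) locally equivalent, at every `x`, to one global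
`f ∈ 1 + ϖ W`. -/
theorem exists_global (H : ChartSys ϖ W R S) {n : ℕ} (hn : 1 ≤ n) (g : X → F)
    (hg : ∀ x, OneAdd ϖ W (g x)) (hfin : {x | ¬ OneAdd ϖ (S x) (g x)}.Finite) :
    ∃ f, OneAdd ϖ W f ∧ ∀ x, Rel ϖ n (S x) W f (g x) := by
  obtain ⟨m, rfl⟩ := Nat.exists_eq_add_of_le' hn
  exact H.exists_global_succ g hg hfin m

/-- Two elements of `1 + ϖ W` which are locally equivalent modulo `ϖ^(m+1)` at every closed point
of the chart are equivalent over the chart `R`. -/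
theorem rel_of_forall_rel (H : ChartSys ϖ W R S) (hϖ : ϖ ∈ nonZeroDivisors F) (m : ℕ) {f f' : F}
    (hf : OneAdd ϖ W f) (hf' : OneAdd ϖ W f') (h : ∀ x, Rel ϖ (m + 1) (S x) W f f') :
    Rel ϖ (m + 1) R W f f' := by
  have hϖW := H.ϖ_mem_W
  obtain ⟨a, ha, rfl⟩ := hf
  obtain ⟨u'', ⟨a'', ha'', rfl⟩, e''⟩ := H.invW.exists_inv hf'
  -- `f / f' = 1 + ϖ c`
  set c : F := a + a'' + ϖ * a * a'' with hc
  have hcW : c ∈ W := W.add_mem (W.add_mem ha ha'') (W.mul_mem (W.mul_mem hϖW ha) ha'')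
  have hfc : (1 + ϖ * a) * (1 + ϖ * a'') = 1 + ϖ * c := by rw [hc]; ring
  have hloc : ∀ x, ∃ s ∈ S x, ∃ v ∈ W, c = s + ϖ ^ m * v := by
    intro x
    obtain ⟨s, hs, v, hv, e⟩ := h x
    refine ⟨s, hs, v * (1 + ϖ * s),
      W.mul_mem hv (W.add_mem W.one_mem (W.mul_mem hϖW (H.S_le x hs))), ?_⟩
    have h1 : ϖ * c = ϖ * (s + ϖ ^ m * (v * (1 + ϖ * s))) := by
      have : 1 + ϖ * c = (1 + ϖ * s) * (1 + ϖ ^ (m + 1) * v) := by
        rw [← hfc, e]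
        linear_combination ((1 + ϖ * s) * (1 + ϖ ^ (m + 1) * v)) * e''
      linear_combination this
    exact (mul_cancel_left_mem_nonZeroDivisors hϖ).1 h1
  obtain ⟨r, hr, v₀, hv₀, ec⟩ := H.glue m c hcW hloc
  obtain ⟨ρ', ⟨ρ, hρ, rfl⟩, eρ⟩ := H.invW.exists_inv (⟨r, H.R_le_W hr, rfl⟩ : OneAdd ϖ W (1 + ϖ * r))
  refine ⟨r, hr, v₀ * (1 + ϖ * ρ), W.mul_mem hv₀ (W.add_mem W.one_mem (W.mul_mem hϖW hρ)), ?_⟩
  have h2 : (1 + ϖ * r) * (1 + ϖ ^ (m + 1) * (v₀ * (1 + ϖ * ρ))) = 1 + ϖ * c := by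
    rw [ec]
    linear_combination (ϖ ^ (m + 1) * v₀) * eρ
  calc 1 + ϖ * a = (1 + ϖ * a) * (f' * (1 + ϖ * a'')) := by rw [e'', mul_one]
    _ = f' * ((1 + ϖ * a) * (1 + ϖ * a'')) := by ring
    _ = f' * (1 + ϖ * r) * (1 + ϖ ^ (m + 1) * (v₀ * (1 + ϖ * ρ))) := by
        rw [hfc, ← h2]; ring

end ChartSys

/-! ### Weakening the exponent, transport along ring homomorphisms -/

section Transport

variable {ϖ : F} {S W : Subring F}

theorem Rel.of_succ (hϖW : ϖ ∈ W) {n : ℕ} {f g : F} (h : Rel ϖ (n + 1) S W f g) :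
    Rel ϖ n S W f g := by
  obtain ⟨s, hs, v, hv, rfl⟩ := h
  exact ⟨s, hs, ϖ * v, W.mul_mem hϖW hv, by ring⟩

theorem Rel.of_le (hϖW : ϖ ∈ W) {n n' : ℕ} (hn : n ≤ n') {f g : F} (h : Rel ϖ n' S W f g) :
    Rel ϖ n S W f g := by
  induction n', hn using Nat.le_induction with
  | base => exact h
  | succ k _ ih => exact ih (h.of_succ hϖW)

variable {F' : Type*} [CommRing F'] {ϖ' : F'} {S' W' : Subring F'}

/-- Transport of `OneAdd` along a ring homomorphism `φ` with `φ ϖ = ϖ' c`. -/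
theorem OneAdd.map (φ : F →+* F') {c : F'} (hφ : φ ϖ = ϖ' * c) (hc : c ∈ S')
    (hS : ∀ s ∈ S, φ s ∈ S') {u : F} (hu : OneAdd ϖ S u) : OneAdd ϖ' S' (φ u) := by
  obtain ⟨s, hs, rfl⟩ := hu
  exact ⟨c * φ s, S'.mul_mem hc (hS s hs), by rw [map_add, map_one, map_mul, hφ]; ring⟩

/-- Transport of `Rel` along a ring homomorphism `φ` with `φ ϖ = ϖ' c`. -/
theorem Rel.map (φ : F →+* F') {c : F'} (hφ : φ ϖ = ϖ' * c) (hc : c ∈ S') (hcW : c ∈ W')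
    (hS : ∀ s ∈ S, φ s ∈ S') (hW : ∀ w ∈ W, φ w ∈ W') {n : ℕ} {f g : F}
    (h : Rel ϖ n S W f g) : Rel ϖ' n S' W' (φ f) (φ g) := by
  obtain ⟨s, hs, v, hv, rfl⟩ := h
  refine ⟨c * φ s, S'.mul_mem hc (hS s hs), c ^ n * φ v,
    W'.mul_mem (W'.pow_mem hcW n) (hW v hv), ?_⟩
  simp only [map_mul, map_add, map_one, map_pow, hφ]
  ring

end Transport

/-! ### Two charts: the Čech cocycle of an idele -/

/-- **A two-chart system**: charts `R₊`, `R₋` with closed points `X₊`, `X₋ ⊆ X`, and their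
intersection `R₀` with closed points `X₊ ∩ X₋`. -/
structure TwoChartSys (ϖ : F) (W Rp Rm R0 : Subring F) {X : Type*} (S : X → Subring F)
    (Xp Xm : Set X) : Prop where
  hp : ChartSys ϖ W Rp (fun x : Xp => S x)
  hm : ChartSys ϖ W Rm (fun x : Xm => S x)
  h0 : ChartSys ϖ W R0 (fun x : ↥(Xp ∩ Xm) => S x)
  Rp_le : Rp ≤ R0
  Rm_le : Rm ≤ R0
  nzd : ϖ ∈ nonZeroDivisors F
  /-- `R₀ ∩ ϖⁿ W = ϖⁿ R₀` -/
  sat : ∀ (n : ℕ), ∀ r ∈ R0, ∀ v ∈ W, r = ϖ ^ n * v → ∃ z ∈ R0, r = ϖ ^ n * z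

/-- `(f₊, f₋, r₀)` **solves the idele `g` modulo `ϖⁿ`**: `f_±` is locally equivalent to `g` at all
closed points of the chart `±`, and `f₊ = f₋ (1 + ϖ r₀)` modulo `1 + ϖⁿ W`.  The class of
`1 + ϖ r₀` in `(R₀/ϖⁿ)ˣ` modulo `(1 + ϖ R₊)(1 + ϖ R₋)` is the Čech cocycle of `g`. -/
structure IsSol (ϖ : F) (W R0 : Subring F) {X : Type*} (S : X → Subring F) (Xp Xm : Set X)
    (n : ℕ) (g : X → F) (fp fm r0 : F) : Prop where
  fp_mem : OneAdd ϖ W fp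
  fm_mem : OneAdd ϖ W fm
  r0_mem : r0 ∈ R0
  relp : ∀ x ∈ Xp, Rel ϖ n (S x) W fp (g x)
  relm : ∀ x ∈ Xm, Rel ϖ n (S x) W fm (g x)
  eq : ∃ v ∈ W, fp = fm * (1 + ϖ * r0) * (1 + ϖ ^ n * v)

section TwoCharts

variable {ϖ : F} {W Rp Rm R0 : Subring F} {X : Type*} {S : X → Subring F} {Xp Xm : Set X}

namespace TwoChartSys

theorem ϖ_mem_W (H : TwoChartSys ϖ W Rp Rm R0 S Xp Xm) : ϖ ∈ W := H.h0.ϖ_mem_W

theorem ϖ_mem_S_p (H : TwoChartSys ϖ W Rp Rm R0 S Xp Xm) {x : X} (hx : x ∈ Xp) : ϖ ∈ S x :=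
  H.hp.ϖ_mem_S ⟨x, hx⟩

theorem ϖ_mem_S_m (H : TwoChartSys ϖ W Rp Rm R0 S Xp Xm) {x : X} (hx : x ∈ Xm) : ϖ ∈ S x :=
  H.hm.ϖ_mem_S ⟨x, hx⟩

/-- **Existence of the Čech cocycle** of an idele, modulo `ϖ^(m+1)`. -/
theorem exists_isSol (H : TwoChartSys ϖ W Rp Rm R0 S Xp Xm) (g : X → F)
    (hg : ∀ x, OneAdd ϖ W (g x)) (hfin : {x | ¬ OneAdd ϖ (S x) (g x)}.Finite) (m : ℕ) :
    ∃ fp fm r0, IsSol ϖ W R0 S Xp Xm (m + 1) g fp fm r0 := by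
  have hϖW := H.ϖ_mem_W
  obtain ⟨fp, hfp, hp⟩ := H.hp.exists_global_succ (fun x : Xp => g x) (fun x => hg x)
    (hfin.preimage Subtype.val_injective.injOn) m
  obtain ⟨fm, hfm, hm⟩ := H.hm.exists_global_succ (fun x : Xm => g x) (fun x => hg x)
    (hfin.preimage Subtype.val_injective.injOn) m
  have h0 : ∀ x : ↥(Xp ∩ Xm), Rel ϖ (m + 1) (S x) W fp fm := by
    intro x
    have h1 := hp ⟨x, x.2.1⟩
    have h2 := hm ⟨x, x.2.2⟩
    exact h1.trans (H.ϖ_mem_S_p x.2.1) hϖW (h2.symm (H.h0.invS x) H.h0.invW hϖW)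
  obtain ⟨r0, hr0, v, hv, e⟩ := H.h0.rel_of_forall_rel H.nzd m hfp hfm h0
  exact ⟨fp, fm, r0, hfp, hfm, hr0, fun x hx => hp ⟨x, hx⟩, fun x hx => hm ⟨x, hx⟩, v, hv, e⟩

end TwoChartSys

namespace IsSol

theorem of_succ (hϖW : ϖ ∈ W) {n : ℕ} {g : X → F} {fp fm r0 : F}
    (h : IsSol ϖ W R0 S Xp Xm (n + 1) g fp fm r0) : IsSol ϖ W R0 S Xp Xm n g fp fm r0 := by
  obtain ⟨v, hv, e⟩ := h.eq
  exact ⟨h.fp_mem, h.fm_mem, h.r0_mem, fun x hx => (h.relp x hx).of_succ hϖW,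
    fun x hx => (h.relm x hx).of_succ hϖW, ϖ * v, W.mul_mem hϖW hv, by rw [e]; ring⟩

theorem of_le (hϖW : ϖ ∈ W) {n n' : ℕ} (hn : n ≤ n') {g : X → F} {fp fm r0 : F}
    (h : IsSol ϖ W R0 S Xp Xm n' g fp fm r0) : IsSol ϖ W R0 S Xp Xm n g fp fm r0 := by
  induction n', hn using Nat.le_induction with
  | base => exact h
  | succ k _ ih => exact ih (h.of_succ hϖW)

/-- **Multiplicativity** of the cocycle. -/
theorem mul (H : TwoChartSys ϖ W Rp Rm R0 S Xp Xm) {n : ℕ} {g g' : X → F}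
    {fp fm r0 fp' fm' r0' : F} (h : IsSol ϖ W R0 S Xp Xm n g fp fm r0)
    (h' : IsSol ϖ W R0 S Xp Xm n g' fp' fm' r0') :
    IsSol ϖ W R0 S Xp Xm n (fun x => g x * g' x) (fp * fp') (fm * fm')
      (r0 + r0' + ϖ * r0 * r0') := by
  have hϖW := H.ϖ_mem_W
  obtain ⟨v, hv, e⟩ := h.eq
  obtain ⟨v', hv', e'⟩ := h'.eq
  refine ⟨h.fp_mem.mul hϖW h'.fp_mem, h.fm_mem.mul hϖW h'.fm_mem,
    R0.add_mem (R0.add_mem h.r0_mem h'.r0_mem)
      (R0.mul_mem (R0.mul_mem H.h0.ϖ_mem h.r0_mem) h'.r0_mem),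
    fun x hx => (h.relp x hx).mul (H.ϖ_mem_S_p hx) hϖW (h'.relp x hx),
    fun x hx => (h.relm x hx).mul (H.ϖ_mem_S_m hx) hϖW (h'.relm x hx),
    v + v' + ϖ ^ n * v * v',
    W.add_mem (W.add_mem hv hv') (W.mul_mem (W.mul_mem (W.pow_mem hϖW n) hv) hv'), ?_⟩
  rw [e, e']; ring

/-- **A diagonal (= principal) idele has trivial cocycle.** -/
theorem diag (n : ℕ) {h : F} (hh : OneAdd ϖ W h) :
    IsSol ϖ W R0 S Xp Xm n (fun _ : X => h) h h 0 :=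
  ⟨hh, hh, R0.zero_mem, fun _ _ => Rel.refl _ _, fun _ _ => Rel.refl _ _, 0, W.zero_mem, by ring⟩

/-- Changing the local equations by local units `≡ 1` does not change the solutions. -/
theorem congr (H : TwoChartSys ϖ W Rp Rm R0 S Xp Xm) {n : ℕ} {g : X → F} {fp fm r0 : F}
    (h : IsSol ϖ W R0 S Xp Xm n g fp fm r0) (u : X → F) (hu : ∀ x, OneAdd ϖ (S x) (u x)) :
    IsSol ϖ W R0 S Xp Xm n (fun x => g x * u x) fp fm r0 :=
  ⟨h.fp_mem, h.fm_mem, h.r0_mem,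
    fun x hx => (h.relp x hx).mul_oneAdd_right (H.hp.invS ⟨x, hx⟩) (H.ϖ_mem_S_p hx) (hu x),
    fun x hx => (h.relm x hx).mul_oneAdd_right (H.hm.invS ⟨x, hx⟩) (H.ϖ_mem_S_m hx) (hu x), h.eq⟩

/-- **Uniqueness of the cocycle**: two solutions of the same idele modulo `ϖ^(m+1)` have cocycles
which differ by `(1 + ϖ R₊)(1 + ϖ R₋)`, modulo `ϖ^(m+1) R₀`. -/
theorem unique (H : TwoChartSys ϖ W Rp Rm R0 S Xp Xm) {m : ℕ} {g : X → F}
    {fp fm r0 fp' fm' r0' : F} (h : IsSol ϖ W R0 S Xp Xm (m + 1) g fp fm r0)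
    (h' : IsSol ϖ W R0 S Xp Xm (m + 1) g fp' fm' r0') :
    ∃ rp ∈ Rp, ∃ rm ∈ Rm, ∃ z ∈ R0,
      (1 + ϖ * r0') * (1 + ϖ * rp) = (1 + ϖ * rm) * (1 + ϖ * r0) + ϖ ^ (m + 1) * z := by
  have hϖW := H.ϖ_mem_W
  have hϖ0 := H.h0.ϖ_mem
  have hp : ∀ x : Xp, Rel ϖ (m + 1) (S x) W fp fp' := fun x =>
    (h.relp x x.2).trans (H.ϖ_mem_S_p x.2) hϖW
      ((h'.relp x x.2).symm (H.hp.invS x) H.hp.invW hϖW)
  have hm : ∀ x : Xm, Rel ϖ (m + 1) (S x) W fm fm' := fun x =>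
    (h.relm x x.2).trans (H.ϖ_mem_S_m x.2) hϖW
      ((h'.relm x x.2).symm (H.hm.invS x) H.hm.invW hϖW)
  obtain ⟨rp, hrp, vp, hvp, ep⟩ := H.hp.rel_of_forall_rel H.nzd m h.fp_mem h'.fp_mem hp
  obtain ⟨rm, hrm, vm, hvm, em⟩ := H.hm.rel_of_forall_rel H.nzd m h.fm_mem h'.fm_mem hm
  obtain ⟨v, hv, e⟩ := h.eq
  obtain ⟨v', hv', e'⟩ := h'.eq
  obtain ⟨im', -, eim⟩ := H.h0.invW.exists_inv h'.fm_mem
  have hrpW := H.hp.R_le_W hrp
  have hrmW := H.hm.R_le_W hrm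
  have hr0W := H.h0.R_le_W h.r0_mem
  have hr0'W := H.h0.R_le_W h'.r0_mem
  have hPW : ϖ ^ (m + 1) ∈ W := W.pow_mem hϖW _
  have hoW : ∀ {t : F}, t ∈ W → 1 + ϖ * t ∈ W := fun ht => W.add_mem W.one_mem (W.mul_mem hϖW ht)
  -- the identity after cancelling `fm'`
  have key : (1 + ϖ * r0') * (1 + ϖ * rp) * ((1 + ϖ ^ (m + 1) * v') * (1 + ϖ ^ (m + 1) * vp)) =
      (1 + ϖ * rm) * (1 + ϖ * r0) * ((1 + ϖ ^ (m + 1) * vm) * (1 + ϖ ^ (m + 1) * v)) := by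
    have h1 : fm' * ((1 + ϖ * r0') * (1 + ϖ * rp) *
        ((1 + ϖ ^ (m + 1) * v') * (1 + ϖ ^ (m + 1) * vp))) =
        fm' * ((1 + ϖ * rm) * (1 + ϖ * r0) *
          ((1 + ϖ ^ (m + 1) * vm) * (1 + ϖ ^ (m + 1) * v))) := by
      calc _ = fp' * (1 + ϖ * rp) * (1 + ϖ ^ (m + 1) * vp) := by rw [e']; ring
        _ = fp := ep.symm
        _ = fm * (1 + ϖ * r0) * (1 + ϖ ^ (m + 1) * v) := e
        _ = _ := by rw [em]; ring
    have h2 := congrArg (fun t => im' * t) h1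
    simp only [← mul_assoc] at h2
    rw [mul_comm im' fm', eim] at h2
    simpa [mul_assoc] using h2
  -- `A - B ∈ ϖ^(m+1) W ∩ R₀`
  set A : F := (1 + ϖ * r0') * (1 + ϖ * rp) with hA
  set B : F := (1 + ϖ * rm) * (1 + ϖ * r0) with hB
  have hAW : A ∈ W := W.mul_mem (hoW hr0'W) (hoW hrpW)
  have hBW : B ∈ W := W.mul_mem (hoW hrmW) (hoW hr0W)
  have hAB0 : A - B ∈ R0 := by
    have ho0 : ∀ {t : F}, t ∈ R0 → 1 + ϖ * t ∈ R0 :=
      fun ht => R0.add_mem R0.one_mem (R0.mul_mem hϖ0 ht)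
    exact R0.sub_mem (R0.mul_mem (ho0 h'.r0_mem) (ho0 (H.Rp_le hrp)))
      (R0.mul_mem (ho0 (H.Rm_le hrm)) (ho0 h.r0_mem))
  have hABW : A - B = ϖ ^ (m + 1) *
      (B * (vm + v + ϖ ^ (m + 1) * vm * v) - A * (v' + vp + ϖ ^ (m + 1) * v' * vp)) := by
    linear_combination key
  obtain ⟨z, hz, ez⟩ := H.sat (m + 1) (A - B) hAB0 _
    (W.sub_mem (W.mul_mem hBW (W.add_mem (W.add_mem hvm hv) (W.mul_mem (W.mul_mem hPW hvm) hv)))
      (W.mul_mem hAW (W.add_mem (W.add_mem hv' hvp) (W.mul_mem (W.mul_mem hPW hv') hvp)))) hABW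
  exact ⟨rp, hrp, rm, hrm, z, hz, by linear_combination ez⟩

/-- **Transport of solutions** along a ring homomorphism `φ : F → F'` with `φ ϖ = ϖ' c` (Galois
automorphisms: `c = 1`; change of level: `ϖ = ϖ'ᵉ · unit`) and a map `e` of closed points which is
onto the closed points of each chart. -/
theorem map {F' : Type*} [CommRing F'] {ϖ' : F'} {W' R0' : Subring F'} {X' : Type*}
    {S' : X' → Subring F'} {Xp' Xm' : Set X'} (φ : F →+* F') (e : X → X') {c : F'}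
    (hφ : φ ϖ = ϖ' * c) (hcS : ∀ x', c ∈ S' x') (hcW : c ∈ W') (hcR : c ∈ R0')
    (hS : ∀ x, ∀ s ∈ S x, φ s ∈ S' (e x)) (hW : ∀ w ∈ W, φ w ∈ W') (hR : ∀ r ∈ R0, φ r ∈ R0')
    (hep : ∀ x' ∈ Xp', ∃ x ∈ Xp, e x = x') (hem : ∀ x' ∈ Xm', ∃ x ∈ Xm, e x = x')
    {n : ℕ} {g : X → F} {g' : X' → F'} (hg : ∀ x, g' (e x) = φ (g x)) {fp fm r0 : F}
    (h : IsSol ϖ W R0 S Xp Xm n g fp fm r0) :
    IsSol ϖ' W' R0' S' Xp' Xm' n g' (φ fp) (φ fm) (c * φ r0) := by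
  obtain ⟨v, hv, ev⟩ := h.eq
  refine ⟨h.fp_mem.map φ hφ hcW hW, h.fm_mem.map φ hφ hcW hW, R0'.mul_mem hcR (hR _ h.r0_mem),
    ?_, ?_, c ^ n * φ v, W'.mul_mem (W'.pow_mem hcW n) (hW v hv), ?_⟩
  · intro x' hx'
    obtain ⟨x, hx, rfl⟩ := hep x' hx'
    rw [hg]
    exact (h.relp x hx).map φ hφ (hcS _) hcW (hS x) hW
  · intro x' hx'
    obtain ⟨x, hx, rfl⟩ := hem x' hx'
    rw [hg]
    exact (h.relm x hx).map φ hφ (hcS _) hcW (hS x) hW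
  · rw [ev]
    simp only [map_mul, map_add, map_one, map_pow, hφ]
    ring

end IsSol

end TwoCharts

end Fermat.Agent.S19.Cech.Idele
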