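/-
S19 / Čech-units route, block CECH-2B (helper21): **the hypotheses `ChartSys` of the idelic engine
(`S19/Cech/Idele.lean`) for a chart with Dedekind special fibre.**

`R` a noetherian domain with fraction field `F`, `ϖ ∈ R` nonzero with `R / ϖ` a Dedekind domain which
is not a field (the hypotheses of `N4/Cover/Globalize`).  Closed points of the special fibre:
`Pt R ϖ` = maximal ideals of `R` containing `ϖ`.  Local rings `S 𝔫 = R_𝔫`, `W = R_(ϖ)`, all inside `F`.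

* `exists_crt_elt` : the Dedekind input (a partition of unity adapted to a principal ideal and a point);
* `hasInv_locSub`, `finite_not_mem_locSub`, `glue_locSub`, `approx_locSub` : the fields of `ChartSys`;
* `chartSys` : `ChartSys ϖ R_(ϖ) R (𝔫 ↦ R_𝔫)`;
* `sat_locSub` : `R ∩ ϖⁿ R_(ϖ) = ϖⁿ R`;
* `ChartSys.comap_equiv` : reindexing of the closed points.
-/
import Mathlib
import Fermat.Agent.N4.Cover.Globalize
import Fermat.Agent.S19.Cech.Idele

set_option autoImplicit false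
set_option linter.unusedSectionVars false
set_option linter.style.haveILetI false

namespace Fermat.Agent.S19.Cech.IdeleDedekind

open Fermat.Agent.N4.Cover.Globalize Fermat.Agent.S19.Cech.Idele

/-! ### The Dedekind input -/

/-- In a Dedekind domain, for `β ≠ 0` and a nonzero maximal ideal `𝔭` there is `c` with
`c ≡ 1` in `A_𝔭 / β` and `c ≡ 0` in `A_𝔮 / β` for all maximal `𝔮 ≠ 𝔭`. -/
theorem exists_crt_elt {A : Type*} [CommRing A] [IsDedekindDomain A] {β : A} (hβ : β ≠ 0)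
    (𝔭 : Ideal A) (h𝔭 : 𝔭.IsMaximal) (h𝔭0 : 𝔭 ≠ ⊥) :
    ∃ c : A, (∃ s, s ∉ 𝔭 ∧ ∃ a, s * (c - 1) = a * β) ∧
      ∀ 𝔮 : Ideal A, 𝔮.IsMaximal → 𝔮 ≠ 𝔭 → ∃ s, s ∉ 𝔮 ∧ ∃ a, s * c = a * β := by
  have hI : Ideal.span {β} ≠ (0 : Ideal A) := by
    rw [Ideal.zero_eq_bot, Ne, Ideal.span_singleton_eq_bot]; exact hβ
  have hirr : Irreducible 𝔭 := (Ideal.prime_of_isPrime h𝔭0 h𝔭.isPrime).irreducible
  obtain ⟨e, 𝔟, h𝔟, hfac⟩ := WfDvdMonoid.max_power_factor hI hirr
  have h𝔟' : ¬ 𝔟 ≤ 𝔭 := fun h => h𝔟 (Ideal.dvd_iff_le.2 h)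
  have hsup : 𝔭 ⊔ 𝔟 = ⊤ := by
    by_contra hne
    exact h𝔟' (by rw [h𝔭.eq_of_le hne le_sup_left]; exact le_sup_right)
  have hsup' : 𝔭 ^ e ⊔ 𝔟 = ⊤ := Ideal.pow_sup_eq_top hsup
  obtain ⟨p, hp, c, hc, hpc⟩ := Submodule.mem_sup.1 (hsup' ▸ Submodule.mem_top : (1 : A) ∈ 𝔭 ^ e ⊔ 𝔟)
  have hc1 : c - 1 ∈ 𝔭 ^ e := by
    have : c - 1 = -p := by linear_combination hpc
    rw [this]; exact (𝔭 ^ e).neg_mem hp
  refine ⟨c, ?_, ?_⟩
  · obtain ⟨s, hs𝔟, hs𝔭⟩ := SetLike.not_le_iff_exists.1 h𝔟'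
    refine ⟨s, hs𝔭, ?_⟩
    have hmem : s * (c - 1) ∈ Ideal.span {β} := by
      rw [hfac, mul_comm (𝔭 ^ e) 𝔟]; exact Ideal.mul_mem_mul hs𝔟 hc1
    obtain ⟨a, ha⟩ := Ideal.mem_span_singleton'.1 hmem
    exact ⟨a, ha.symm⟩
  · intro 𝔮 h𝔮 hne
    have hnle : ¬ 𝔭 ^ e ≤ 𝔮 := by
      intro hle
      have h1 : 𝔭 ≤ 𝔮 := h𝔮.isPrime.le_of_pow_le hle
      exact hne (h𝔭.eq_of_le h𝔮.ne_top h1).symm
    obtain ⟨s, hs𝔭, hs𝔮⟩ := SetLike.not_le_iff_exists.1 hnle
    refine ⟨s, hs𝔮, ?_⟩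
    have hmem : s * c ∈ Ideal.span {β} := by
      rw [hfac]; exact Ideal.mul_mem_mul hs𝔭 hc
    obtain ⟨a, ha⟩ := Ideal.mem_span_singleton'.1 hmem
    exact ⟨a, ha.symm⟩

/-! ### Local rings inside the fraction field -/

section Loc

variable {R F : Type*} [CommRing R] [IsDomain R] [Field F] [Algebra R F] [IsFractionRing R F]

/-- The localisation `R_P` as a subring of the fraction field. -/
noncomputable abbrev locSub (P : Ideal R) [P.IsPrime] : Subring F := (locAt (F := F) P).toSubring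

/-- The image of `R` in its fraction field, as a subring. -/
abbrev ringSub (R F : Type*) [CommRing R] [Field F] [Algebra R F] : Subring F :=
  (algebraMap R F).range

theorem algebraMap_ne_zero_of_not_mem {P : Ideal R} {s : R} (hs : s ∉ P) :
    algebraMap R F s ≠ 0 := by
  intro h0
  have : s = 0 := (IsFractionRing.injective R F) (by rw [h0, map_zero])
  exact hs (this ▸ P.zero_mem)

theorem mem_locSub_iff (P : Ideal R) [P.IsPrime] (x : F) :
    x ∈ locSub (F := F) P ↔ ∃ a s : R, s ∉ P ∧ x = algebraMap R F a / algebraMap R F s := by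
  rw [locSub, Subalgebra.mem_toSubring, mem_locAt_iff]
  constructor
  · rintro ⟨a, s, hs, h⟩
    exact ⟨a, s, hs, by rw [← h, mul_div_assoc, div_self (algebraMap_ne_zero_of_not_mem hs), mul_one]⟩
  · rintro ⟨a, s, hs, rfl⟩
    exact ⟨a, s, hs, div_mul_cancel₀ _ (algebraMap_ne_zero_of_not_mem hs)⟩

theorem algebraMap_mem_locSub (P : Ideal R) [P.IsPrime] (r : R) :
    algebraMap R F r ∈ locSub (F := F) P :=
  (locAt (F := F) P).algebraMap_mem r

theorem ringSub_le_locSub (P : Ideal R) [P.IsPrime] : ringSub R F ≤ locSub (F := F) P := by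
  rintro _ ⟨r, rfl⟩
  exact algebraMap_mem_locSub P r

theorem locSub_mono {P Q : Ideal R} [P.IsPrime] [Q.IsPrime] (h : P ≤ Q) :
    locSub (F := F) Q ≤ locSub (F := F) P := by
  intro x hx
  rw [mem_locSub_iff] at hx ⊢
  obtain ⟨a, s, hs, rfl⟩ := hx
  exact ⟨a, s, fun hsP => hs (h hsP), rfl⟩

/-- `1 + ϖ R_P ⊆ R_Pˣ`, with inverses in `1 + ϖ R_P`, when `ϖ ∈ P`. -/
theorem hasInv_locSub (P : Ideal R) [hP : P.IsPrime] {ϖ : R} (hϖ : ϖ ∈ P) :
    HasInv (algebraMap R F ϖ) (locSub (F := F) P) := by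
  intro x hx
  rw [mem_locSub_iff] at hx
  obtain ⟨a, s, hs, rfl⟩ := hx
  have hs' : s + ϖ * a ∉ P := by
    intro h
    have : s = (s + ϖ * a) - ϖ * a := by ring
    exact hs (this ▸ P.sub_mem h (P.mul_mem_right _ hϖ))
  have h1 := algebraMap_ne_zero_of_not_mem (F := F) hs
  have h2 := algebraMap_ne_zero_of_not_mem (F := F) hs'
  refine ⟨-(algebraMap R F a / algebraMap R F (s + ϖ * a)), ?_, ?_⟩
  · refine (locSub (F := F) P).neg_mem ?_
    rw [mem_locSub_iff]
    exact ⟨a, s + ϖ * a, hs', rfl⟩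
  · rw [map_add, map_mul] at h2 ⊢
    field_simp
    ring

end Loc

/-! ### The chart -/

section Chart

variable {R F : Type*} [CommRing R] [IsDomain R] [Field F] [Algebra R F] [IsFractionRing R F]

/-- The closed points of the special fibre `ϖ = 0` of `Spec R`. -/
def Pt (R : Type*) [CommRing R] (ϖ : R) : Type _ := {𝔫 : Ideal R // 𝔫.IsMaximal ∧ ϖ ∈ 𝔫}

instance (ϖ : R) (x : Pt R ϖ) : x.1.IsMaximal := x.2.1

instance (ϖ : R) (x : Pt R ϖ) : x.1.IsPrime := x.2.1.isPrime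

/-- `R ∩ ϖⁿ R_(ϖ) = ϖⁿ R`. -/
theorem sat_locSub {ϖ : R} (hϖ : Prime ϖ) [hP : (Ideal.span {ϖ}).IsPrime] (n : ℕ) :
    ∀ r ∈ ringSub R F, ∀ v ∈ locSub (F := F) (Ideal.span {ϖ}), r = algebraMap R F ϖ ^ n * v →
      ∃ z ∈ ringSub R F, r = algebraMap R F ϖ ^ n * z := by
  rintro _ ⟨r, rfl⟩ v hv e
  rw [mem_locSub_iff] at hv
  obtain ⟨a, s, hs, rfl⟩ := hv
  have hs0 := algebraMap_ne_zero_of_not_mem (F := F) hs
  have h1 : s * r = ϖ ^ n * a := by
    apply IsFractionRing.injective R F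
    rw [map_mul, map_mul, map_pow]
    rw [e]
    field_simp
  have hnd : ¬ ϖ ∣ s := fun h => hs (Ideal.mem_span_singleton.2 h)
  obtain ⟨z, hz⟩ := hϖ.pow_dvd_of_dvd_mul_left n hnd ⟨a, h1⟩
  exact ⟨algebraMap R F z, ⟨z, rfl⟩, by rw [hz, map_mul, map_pow]⟩

variable [IsNoetherianRing R]

/-- Every element of `R_(ϖ)` is regular at almost all closed points of the special fibre. -/
theorem finite_not_mem_locSub {ϖ : R} (hD : IsDedekindDomain (R ⧸ Ideal.span {ϖ}))
    [hP : (Ideal.span {ϖ}).IsPrime] {w : F} (hw : w ∈ locSub (F := F) (Ideal.span {ϖ})) :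
    {x : Pt R ϖ | w ∉ locSub (F := F) x.1}.Finite := by
  rw [mem_locSub_iff] at hw
  obtain ⟨a, b, hb, rfl⟩ := hw
  set I : Ideal R := Ideal.span {ϖ, b} with hI
  have hfin : I.minimalPrimes.Finite := Ideal.finite_minimalPrimes_of_isNoetherianRing R I
  have hinj : Function.Injective (fun x : Pt R ϖ => x.1) := Subtype.val_injective
  refine (hfin.preimage hinj.injOn).subset ?_
  intro x hx
  have hbx : b ∈ x.1 := by
    by_contra hbx
    exact hx ((mem_locSub_iff _ _).2 ⟨a, b, hbx, rfl⟩)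
  have hIx : I ≤ x.1 := by
    rw [hI, Ideal.span_le]
    rintro y (rfl | rfl)
    · exact x.2.2
    · exact hbx
  refine ⟨⟨x.2.1.isPrime, hIx⟩, ?_⟩
  rintro 𝔮 ⟨h𝔮, hI𝔮⟩ h𝔮x
  -- `𝔮` is maximal, because its image in the Dedekind domain `R / ϖ` is a nonzero prime
  haveI := hD
  set mk := Ideal.Quotient.mk (Ideal.span {ϖ}) with hmk
  have hϖ𝔮 : Ideal.span {ϖ} ≤ 𝔮 := by
    rw [Ideal.span_le, Set.singleton_subset_iff]
    exact hI𝔮 (Ideal.subset_span (Set.mem_insert _ _))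
  have hker : RingHom.ker mk ≤ 𝔮 := by rw [hmk, Ideal.mk_ker]; exact hϖ𝔮
  have hprime : (𝔮.map mk).IsPrime := Ideal.map_isPrime_of_surjective Ideal.Quotient.mk_surjective hker
  have hcomap : (𝔮.map mk).comap mk = 𝔮 := by
    rw [Ideal.comap_map_of_surjective mk Ideal.Quotient.mk_surjective, ← RingHom.ker_eq_comap_bot]
    exact sup_eq_left.2 hker
  have hne : 𝔮.map mk ≠ ⊥ := by
    intro h0
    have hb𝔮 : b ∈ 𝔮 := hI𝔮 (Ideal.subset_span (Set.mem_insert_of_mem _ rfl))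
    have : mk b ∈ 𝔮.map mk := Ideal.mem_map_of_mem _ hb𝔮
    rw [h0, Ideal.mem_bot, hmk, Ideal.Quotient.eq_zero_iff_mem] at this
    exact hb this
  have hmax : (𝔮.map mk).IsMaximal := hprime.isMaximal hne
  have h𝔮max : 𝔮.IsMaximal := by
    rw [← hcomap]
    exact Ideal.comap_isMaximal_of_surjective mk Ideal.Quotient.mk_surjective
  exact (h𝔮max.eq_of_le x.2.1.ne_top h𝔮x).ge

/-- **Sheaf property modulo `ϖⁿ`.** -/
theorem glue_locSub {ϖ : R} [hP : (Ideal.span {ϖ}).IsPrime] (n : ℕ) {w : F}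
    (hw : w ∈ locSub (F := F) (Ideal.span {ϖ}))
    (h : ∀ x : Pt R ϖ, ∃ s ∈ locSub (F := F) x.1, ∃ v ∈ locSub (F := F) (Ideal.span {ϖ}),
      w = s + algebraMap R F ϖ ^ n * v) :
    ∃ r ∈ ringSub R F, ∃ v ∈ locSub (F := F) (Ideal.span {ϖ}),
      w = r + algebraMap R F ϖ ^ n * v := by
  set W := locSub (F := F) (Ideal.span {ϖ}) with hW
  -- the conductor ideal
  let 𝔠 : Ideal R :=
    { carrier := {r | ∃ r' : R, ∃ v ∈ W, algebraMap R F r * w = algebraMap R F r' +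
        algebraMap R F ϖ ^ n * v}
      add_mem' := by
        rintro a b ⟨a', va, hva, ea⟩ ⟨b', vb, hvb, eb⟩
        exact ⟨a' + b', va + vb, W.add_mem hva hvb, by rw [map_add, add_mul, ea, eb, map_add]; ring⟩
      zero_mem' := ⟨0, 0, W.zero_mem, by simp⟩
      smul_mem' := by
        rintro c a ⟨a', va, hva, ea⟩
        refine ⟨c * a', algebraMap R F c * va, W.mul_mem (algebraMap_mem_locSub _ c) hva, ?_⟩
        rw [smul_eq_mul, map_mul, mul_assoc, ea, map_mul]; ring }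
  have htop : 𝔠 = ⊤ := by
    by_contra hne
    obtain ⟨𝔫, h𝔫, hle⟩ := Ideal.exists_le_maximal 𝔠 hne
    have hϖn : ϖ ^ n ∈ 𝔠 := ⟨0, w, hw, by rw [map_pow, map_zero, zero_add]⟩
    by_cases hϖ𝔫 : ϖ ∈ 𝔫
    · obtain ⟨s, hs, v, hv, e⟩ := h ⟨𝔫, h𝔫, hϖ𝔫⟩
      rw [mem_locSub_iff] at hs
      obtain ⟨a, t, ht, rfl⟩ := hs
      have ht0 := algebraMap_ne_zero_of_not_mem (F := F) ht
      have : t ∈ 𝔠 := by
        refine ⟨a, algebraMap R F t * v, W.mul_mem (algebraMap_mem_locSub _ t) hv, ?_⟩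
        rw [e]; field_simp
      exact ht (hle this)
    · exact hϖ𝔫 (h𝔫.isPrime.mem_of_pow_mem n (hle hϖn))
  obtain ⟨r', v, hv, e⟩ : (1 : R) ∈ 𝔠 := htop ▸ Submodule.mem_top
  exact ⟨algebraMap R F r', ⟨r', rfl⟩, v, hv, by rw [← e, map_one, one_mul]⟩

/-! ### Additive strong approximation -/

/-- `t ∈ R_𝔫 + ϖ R_(ϖ)`. -/
def InSum (ϖ : R) [(Ideal.span {ϖ}).IsPrime] (x : Pt R ϖ) (t : F) : Prop :=
  ∃ s ∈ locSub (F := F) x.1, ∃ v ∈ locSub (F := F) (Ideal.span {ϖ}), t = s + algebraMap R F ϖ * v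

theorem InSum.add {ϖ : R} [(Ideal.span {ϖ}).IsPrime] {x : Pt R ϖ} {t t' : F}
    (h : InSum (F := F) ϖ x t) (h' : InSum (F := F) ϖ x t') : InSum (F := F) ϖ x (t + t') := by
  obtain ⟨s, hs, v, hv, rfl⟩ := h
  obtain ⟨s', hs', v', hv', rfl⟩ := h'
  exact ⟨s + s', Subring.add_mem _ hs hs', v + v', Subring.add_mem _ hv hv', by ring⟩

theorem inSum_zero {ϖ : R} [(Ideal.span {ϖ}).IsPrime] (x : Pt R ϖ) : InSum (F := F) ϖ x 0 :=
  ⟨0, Subring.zero_mem _, 0, Subring.zero_mem _, by ring⟩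

/-- The image of a closed point in the special fibre. -/
theorem map_isMaximal {ϖ : R} (x : Pt R ϖ) :
    (x.1.map (Ideal.Quotient.mk (Ideal.span {ϖ}))).IsMaximal := by
  rcases Ideal.map_eq_top_or_isMaximal_of_surjective (Ideal.Quotient.mk (Ideal.span {ϖ}))
    Ideal.Quotient.mk_surjective x.2.1 with h | h
  · exfalso
    have hker : RingHom.ker (Ideal.Quotient.mk (Ideal.span {ϖ})) ≤ x.1 := by
      rw [Ideal.mk_ker, Ideal.span_le, Set.singleton_subset_iff]; exact x.2.2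
    have hcomap : (x.1.map (Ideal.Quotient.mk (Ideal.span {ϖ}))).comap
        (Ideal.Quotient.mk (Ideal.span {ϖ})) = x.1 := by
      rw [Ideal.comap_map_of_surjective _ Ideal.Quotient.mk_surjective, ← RingHom.ker_eq_comap_bot]
      exact sup_eq_left.2 hker
    rw [h, Ideal.comap_top] at hcomap
    exact x.2.1.ne_top hcomap.symm
  · exact h

theorem comap_map_pt {ϖ : R} (x : Pt R ϖ) :
    (x.1.map (Ideal.Quotient.mk (Ideal.span {ϖ}))).comap (Ideal.Quotient.mk (Ideal.span {ϖ})) =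
      x.1 := by
  have hker : RingHom.ker (Ideal.Quotient.mk (Ideal.span {ϖ})) ≤ x.1 := by
    rw [Ideal.mk_ker, Ideal.span_le, Set.singleton_subset_iff]; exact x.2.2
  rw [Ideal.comap_map_of_surjective _ Ideal.Quotient.mk_surjective, ← RingHom.ker_eq_comap_bot]
  exact sup_eq_left.2 hker

theorem not_mem_of_mk_not_mem {ϖ : R} (x : Pt R ϖ) {s : R}
    (hs : Ideal.Quotient.mk (Ideal.span {ϖ}) s ∉ x.1.map (Ideal.Quotient.mk (Ideal.span {ϖ}))) :
    s ∉ x.1 := fun h => hs (Ideal.mem_map_of_mem _ h)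

/-- The key computation: from `s c' = a' β + r ϖ` to `c' α / β ∈ R_𝔫 + ϖ R_(ϖ)`. -/
theorem inSum_of_eq {ϖ : R} [hP : (Ideal.span {ϖ}).IsPrime] (x : Pt R ϖ) {α β s c' a' r : R}
    (hβ : β ∉ Ideal.span {ϖ}) (hs : s ∉ x.1) (e : s * c' = a' * β + r * ϖ) :
    InSum (F := F) ϖ x (algebraMap R F c' * (algebraMap R F α / algebraMap R F β)) := by
  have hsϖ : s ∉ Ideal.span {ϖ} := fun h =>
    hs ((Ideal.span_le.2 (Set.singleton_subset_iff.2 x.2.2)) h)
  have hsβ : s * β ∉ Ideal.span {ϖ} := fun h => (hP.mem_or_mem h).elim hsϖ hβ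
  have h1 := algebraMap_ne_zero_of_not_mem (F := F) hs
  have h2 := algebraMap_ne_zero_of_not_mem (F := F) hβ
  refine ⟨algebraMap R F (a' * α) / algebraMap R F s, (mem_locSub_iff _ _).2 ⟨_, s, hs, rfl⟩,
    algebraMap R F (r * α) / algebraMap R F (s * β), (mem_locSub_iff _ _).2 ⟨_, _, hsβ, rfl⟩, ?_⟩
  have e' : algebraMap R F s * algebraMap R F c' =
      algebraMap R F a' * algebraMap R F β + algebraMap R F r * algebraMap R F ϖ := by
    rw [← map_mul, e, map_add, map_mul, map_mul]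
  simp only [map_mul]
  field_simp
  linear_combination (algebraMap R F α) * e'

/-- Strong approximation at one point. -/
theorem exists_onePoint {ϖ : R} (hD : IsDedekindDomain (R ⧸ Ideal.span {ϖ}))
    (hnf : ¬ IsField (R ⧸ Ideal.span {ϖ})) [hP : (Ideal.span {ϖ}).IsPrime] (x : Pt R ϖ) {a : F}
    (ha : a ∈ locSub (F := F) (Ideal.span {ϖ})) :
    ∃ g ∈ locSub (F := F) (Ideal.span {ϖ}), InSum (F := F) ϖ x (g - a) ∧
      ∀ y : Pt R ϖ, y ≠ x → InSum (F := F) ϖ y g := by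
  haveI := hD
  set mk := Ideal.Quotient.mk (Ideal.span {ϖ}) with hmk
  rw [mem_locSub_iff] at ha
  obtain ⟨α, β, hβ, rfl⟩ := ha
  have hβ0 : mk β ≠ 0 := by
    rw [hmk, Ne, Ideal.Quotient.eq_zero_iff_mem]; exact hβ
  have h𝔭 := map_isMaximal x
  have h𝔭0 : x.1.map mk ≠ ⊥ := Ring.ne_bot_of_isMaximal_of_not_isField h𝔭 hnf
  obtain ⟨cbar, ⟨sbar, hsbar, abar, e1⟩, h2⟩ := exists_crt_elt hβ0 (x.1.map mk) h𝔭 h𝔭0
  obtain ⟨c, rfl⟩ := Ideal.Quotient.mk_surjective cbar
  obtain ⟨s, rfl⟩ := Ideal.Quotient.mk_surjective sbar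
  obtain ⟨a', rfl⟩ := Ideal.Quotient.mk_surjective abar
  have hs : s ∉ x.1 := not_mem_of_mk_not_mem x hsbar
  refine ⟨algebraMap R F c * (algebraMap R F α / algebraMap R F β), ?_, ?_, ?_⟩
  · exact Subring.mul_mem _ (algebraMap_mem_locSub _ c) ((mem_locSub_iff _ _).2 ⟨α, β, hβ, rfl⟩)
  · -- at `x`
    have hmem : s * (c - 1) - a' * β ∈ Ideal.span {ϖ} := by
      rw [← Ideal.Quotient.eq_zero_iff_mem, map_sub, map_mul, map_mul, map_sub, map_one]
      rw [← hmk, e1, sub_self]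
    obtain ⟨r, hr⟩ := Ideal.mem_span_singleton'.1 hmem
    have e : s * (c - 1) = a' * β + r * ϖ := by linear_combination -hr
    have := inSum_of_eq (F := F) x (α := α) hβ hs e
    have h0 : algebraMap R F c * (algebraMap R F α / algebraMap R F β) -
        algebraMap R F α / algebraMap R F β =
        algebraMap R F (c - 1) * (algebraMap R F α / algebraMap R F β) := by
      rw [map_sub, map_one]; ring
    rw [h0]; exact this
  · intro y hy
    have h𝔮 := map_isMaximal y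
    have hne : y.1.map mk ≠ x.1.map mk := by
      intro h
      apply hy
      apply Subtype.ext
      rw [← comap_map_pt y, ← comap_map_pt x, ← hmk, h]
    obtain ⟨s'bar, hs'bar, a''bar, e2⟩ := h2 (y.1.map mk) h𝔮 hne
    obtain ⟨s', rfl⟩ := Ideal.Quotient.mk_surjective s'bar
    obtain ⟨a'', rfl⟩ := Ideal.Quotient.mk_surjective a''bar
    have hs' : s' ∉ y.1 := not_mem_of_mk_not_mem y hs'bar
    have hmem : s' * c - a'' * β ∈ Ideal.span {ϖ} := by
      rw [← Ideal.Quotient.eq_zero_iff_mem, map_sub, map_mul, map_mul]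
      rw [← hmk, e2, sub_self]
    obtain ⟨r, hr⟩ := Ideal.mem_span_singleton'.1 hmem
    have e : s' * c = a'' * β + r * ϖ := by linear_combination -hr
    exact inSum_of_eq (F := F) y (α := α) hβ hs' e

/-- **Additive strong approximation** on the special fibre. -/
theorem approx_locSub {ϖ : R} (hD : IsDedekindDomain (R ⧸ Ideal.span {ϖ}))
    (hnf : ¬ IsField (R ⧸ Ideal.span {ϖ})) [hP : (Ideal.span {ϖ}).IsPrime]
    (T : Finset (Pt R ϖ)) (a : Pt R ϖ → F) (ha : ∀ x, a x ∈ locSub (F := F) (Ideal.span {ϖ})) :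
    ∃ b ∈ locSub (F := F) (Ideal.span {ϖ}),
      (∀ x ∈ T, InSum (F := F) ϖ x (b - a x)) ∧ (∀ x, x ∉ T → InSum (F := F) ϖ x b) := by
  classical
  induction T using Finset.induction_on with
  | empty =>
    exact ⟨0, Subring.zero_mem _, fun x hx => absurd hx (Finset.notMem_empty x),
      fun x _ => inSum_zero x⟩
  | insert x₀ T' hx₀ ih =>
    obtain ⟨b', hb', h1, h2⟩ := ih
    obtain ⟨g, hg, hgx, hgy⟩ := exists_onePoint (F := F) hD hnf x₀
      (Subring.sub_mem _ (ha x₀) hb')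
    refine ⟨b' + g, Subring.add_mem _ hb' hg, ?_, ?_⟩
    · intro x hx
      rcases Finset.mem_insert.1 hx with rfl | hx'
      · have : b' + g - a x = g - (a x - b') := by ring
        rw [this]; exact hgx
      · have hne : x ≠ x₀ := fun h => hx₀ (h ▸ hx')
        have : b' + g - a x = (b' - a x) + g := by ring
        rw [this]; exact (h1 x hx').add (hgy x hne)
    · intro x hx
      have hne : x ≠ x₀ := fun h => hx (h ▸ Finset.mem_insert_self _ _)
      have hx' : x ∉ T' := fun h => hx (Finset.mem_insert_of_mem h)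
      exact (h2 x hx').add (hgy x hne)

/-- **The idelic hypotheses for a chart with Dedekind special fibre.** -/
theorem chartSys {ϖ : R} (hD : IsDedekindDomain (R ⧸ Ideal.span {ϖ}))
    (hnf : ¬ IsField (R ⧸ Ideal.span {ϖ})) [hP : (Ideal.span {ϖ}).IsPrime] :
    ChartSys (algebraMap R F ϖ) (locSub (F := F) (Ideal.span {ϖ})) (ringSub R F)
      (fun x : Pt R ϖ => locSub (F := F) x.1) where
  ϖ_mem := ⟨ϖ, rfl⟩
  R_le x := ringSub_le_locSub x.1
  S_le x := locSub_mono (Ideal.span_le.2 (Set.singleton_subset_iff.2 x.2.2))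
  R_le_W := ringSub_le_locSub _
  invW := hasInv_locSub _ (Ideal.mem_span_singleton_self ϖ)
  invS x := hasInv_locSub x.1 x.2.2
  almost _ hw := finite_not_mem_locSub hD hw
  glue n _ hw h := glue_locSub n hw h
  approx T a ha := approx_locSub hD hnf T a ha

end Chart

/-! ### Reindexing the closed points -/

theorem chartSys_comap_equiv {F : Type*} [CommRing F] {ϖ : F} {W R : Subring F} {X Y : Type*}
    {S : X → Subring F} (e : Y ≃ X) (H : ChartSys ϖ W R S) :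
    ChartSys ϖ W R (fun y => S (e y)) where
  ϖ_mem := H.ϖ_mem
  R_le y := H.R_le (e y)
  S_le y := H.S_le (e y)
  R_le_W := H.R_le_W
  invW := H.invW
  invS y := H.invS (e y)
  almost w hw := (H.almost w hw).preimage e.injective.injOn
  glue n w hw h := H.glue n w hw fun x => by simpa using h (e.symm x)
  approx T a ha := by
    classical
    obtain ⟨b, hb, h1, h2⟩ := H.approx (T.map e.toEmbedding) (fun x => a (e.symm x))
      (fun x => ha _)
    refine ⟨b, hb, fun y hy => ?_, fun y hy => ?_⟩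
    · have := h1 (e y) (Finset.mem_map_of_mem _ hy)
      simpa using this
    · refine h2 (e y) fun hmem => hy ?_
      obtain ⟨y', hy', e'⟩ := Finset.mem_map.1 hmem
      have : y' = y := e.injective e'
      exact this ▸ hy'

end Fermat.Agent.S19.Cech.IdeleDedekind
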