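/-
S19 / Čech-units route, block CECH-2E (P) (helper21): **closed points of a chart with Dedekind special
fibre = places of the residue function field containing the reduced chart.**

`R` a commutative ring, `ϖ ∈ R`, `ρ : R → F'` a ring homomorphism with kernel `ϖ R` into a function
field `F' / k'` such that `R / ϖ` is a Dedekind domain, `F'` is the fraction field of `ρ(R)` and
`k' ⊆ ρ(R)` (`ChartRed`).  Then (`S24.placeEquiv` for the Dedekind `k'`-algebra `ρ(R)`)

  `Q ↦ closedPoint ρ Q = ρ⁻¹(𝔪_Q)`

is a bijection from the places `Q` of `F' / k'` with `ρ(R) ⊆ 𝒪_Q` onto the maximal ideals of `R`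
containing `ϖ` (`IdeleDedekind.Pt R ϖ`): `ChartRed.placeEquivPt`, `ChartRed.coe_placeEquivPt`.
-/
import Mathlib
import Fermat.Agent.N4F.C.LocalMult
import Fermat.Agent.S24.PlaceDict
import Fermat.Agent.S19.Cech.IdeleDedekind

set_option autoImplicit false
set_option linter.unusedSectionVars false
set_option linter.style.haveILetI false

namespace Fermat.Agent.S19.Cech.IdelePlaces

open AlgebraicCurve IsDedekindDomain Fermat.Agent.N4F.C.LocalMult
  Fermat.Agent.S19.Cech.IdeleDedekind

/-- Dedekind domains are preserved by ring isomorphisms. -/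
theorem isDedekindDomain_of_equiv {A B : Type*} [CommRing A] [CommRing B]
    [IsDedekindDomain A] (e : A ≃+* B) : IsDedekindDomain B := by
  haveI : IsDomain B := e.symm.toMulEquiv.isDomain
  haveI : IsNoetherianRing B := isNoetherianRing_of_ringEquiv A e
  haveI : Ring.DimensionLEOne B := Ring.DimensionLEOne.of_ringEquiv e.symm
  haveI : IsIntegrallyClosed B := IsIntegrallyClosed.of_equiv e
  exact { }

variable {R k' F' : Type*} [CommRing R] [Field k'] [Field F'] [Algebra k' F']

/-- **A chart with its reduction map**: `ρ : R → F'` with kernel `ϖ R`, Dedekind special fibre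
`R / ϖ` with fraction field `F'`, containing the constants `k'`. -/
structure ChartRed (k' : Type*) [Field k'] [Algebra k' F'] (ϖ : R) (ρ : R →+* F') : Prop where
  ker_eq : RingHom.ker ρ = Ideal.span {ϖ}
  dedekind : IsDedekindDomain (R ⧸ Ideal.span {ϖ})
  frac : ∀ z : F', ∃ a b : R, ρ b ≠ 0 ∧ z * ρ b = ρ a
  const : ∀ c : k', ∃ a : R, ρ a = algebraMap k' F' c

namespace ChartRed

variable {ϖ : R} {ρ : R →+* F'} (H : ChartRed k' ϖ ρ)

/-- The reduced chart `ρ(R)`, as a `k'`-subalgebra of `F'`. -/
def img : Subalgebra k' F' :=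
  { ρ.range.toSubsemiring with
    algebraMap_mem' := fun c => by
      obtain ⟨a, ha⟩ := H.const c
      exact ⟨a, ha⟩ }

theorem mem_img_iff {z : F'} : z ∈ H.img ↔ ∃ r : R, ρ r = z := Iff.rfl

/-- `ρ`, with values in the reduced chart. -/
def toImg : R →+* H.img := ρ.codRestrict H.img fun r => ⟨r, rfl⟩

@[simp] theorem coe_toImg (r : R) : ((H.toImg r : H.img) : F') = ρ r := rfl

theorem toImg_surjective : Function.Surjective H.toImg := by
  rintro ⟨_, r, rfl⟩
  exact ⟨r, rfl⟩

theorem ker_toImg : RingHom.ker H.toImg = Ideal.span {ϖ} := by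
  rw [← H.ker_eq]
  ext r
  rw [RingHom.mem_ker, RingHom.mem_ker]
  exact ⟨fun h => congrArg Subtype.val h, fun h => Subtype.ext h⟩

/-- `R / ϖ ≃ ρ(R)`. -/
noncomputable def equivImg : (R ⧸ Ideal.span {ϖ}) ≃+* H.img :=
  (Ideal.quotEquivOfEq H.ker_toImg.symm).trans
    (RingHom.quotientKerEquivOfSurjective H.toImg_surjective)

theorem isDedekindDomain_img : IsDedekindDomain H.img :=
  haveI := H.dedekind
  isDedekindDomain_of_equiv H.equivImg

theorem isFractionRing_img : IsFractionRing H.img F' := by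
  refine (isLocalization_iff _ _).mpr ⟨?_, ?_, ?_⟩
  · rintro ⟨y, hy⟩
    have hy0 : y ≠ 0 := nonZeroDivisors.ne_zero hy
    have : algebraMap H.img F' y ≠ 0 := fun h => hy0 (Subtype.ext h)
    exact this.isUnit
  · intro z
    obtain ⟨a, b, hb, hab⟩ := H.frac z
    have hb0 : H.toImg b ≠ 0 := fun h => hb (congrArg Subtype.val h)
    exact ⟨(H.toImg a, ⟨H.toImg b, mem_nonZeroDivisors_of_ne_zero hb0⟩), hab⟩
  · intro x y h
    exact ⟨1, by rw [Subtype.ext (show (x : F') = y from h)]⟩

/-! ### Primes of the reduced chart and closed points of the chart -/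

/-- The closed point of `R` attached to a nonzero prime of the reduced chart. -/
noncomputable def ptOfSpec (w : @HeightOneSpectrum H.img _) : Pt R ϖ :=
  ⟨w.asIdeal.comap H.toImg, by
    haveI := H.isDedekindDomain_img
    haveI : w.asIdeal.IsMaximal := w.isMaximal
    exact Ideal.comap_isMaximal_of_surjective _ H.toImg_surjective, by
    rw [Ideal.mem_comap]
    have h0 : H.toImg ϖ = 0 := by
      rw [← RingHom.mem_ker, H.ker_toImg]
      exact Ideal.mem_span_singleton_self ϖ
    rw [h0]
    exact w.asIdeal.zero_mem⟩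

theorem ker_le_pt (x : Pt R ϖ) : RingHom.ker H.toImg ≤ x.1 := by
  rw [H.ker_toImg, Ideal.span_le, Set.singleton_subset_iff]
  exact x.2.2

/-- The nonzero prime of the reduced chart attached to a closed point of `R`. -/
noncomputable def specOfPt (hnf : ¬ IsField (R ⧸ Ideal.span {ϖ})) (x : Pt R ϖ) :
    @HeightOneSpectrum H.img _ :=
  ⟨x.1.map H.toImg, Ideal.map_isPrime_of_surjective H.toImg_surjective (H.ker_le_pt x), by
    intro hbot
    apply hnf
    have hle : x.1 ≤ Ideal.span {ϖ} := by
      rw [← H.ker_toImg, RingHom.ker_eq_comap_bot, ← hbot]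
      exact Ideal.le_comap_map
    have heq : x.1 = Ideal.span {ϖ} :=
      le_antisymm hle (by rw [← H.ker_toImg]; exact H.ker_le_pt x)
    have hmax : (Ideal.span {ϖ} : Ideal R).IsMaximal := heq ▸ x.2.1
    exact (Ideal.Quotient.maximal_ideal_iff_isField_quotient _).1 hmax⟩

/-- Closed points of the chart ↔ nonzero primes of the reduced chart. -/
noncomputable def ptEquivSpec (hnf : ¬ IsField (R ⧸ Ideal.span {ϖ})) :
    Pt R ϖ ≃ @HeightOneSpectrum H.img _ where
  toFun := H.specOfPt hnf
  invFun := H.ptOfSpec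
  left_inv x := by
    apply Subtype.ext
    show (x.1.map H.toImg).comap H.toImg = x.1
    rw [Ideal.comap_map_of_surjective _ H.toImg_surjective, ← RingHom.ker_eq_comap_bot]
    exact sup_eq_left.2 (H.ker_le_pt x)
  right_inv w := by
    apply HeightOneSpectrum.ext
    show (w.asIdeal.comap H.toImg).map H.toImg = w.asIdeal
    exact Ideal.map_comap_of_surjective _ H.toImg_surjective _

/-! ### Places containing the reduced chart -/

/-- The places of `F' / k'` containing the reduced chart. -/
abbrev OnChart (ρ : R →+* F') (Q : Place k' F') : Prop := ∀ r : R, ρ r ∈ Q.toValuationSubring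

include H

theorem onChart_iff (Q : Place k' F') :
    OnChart ρ Q ↔ ∀ b : H.img, algebraMap H.img F' b ∈ Q.toValuationSubring := by
  constructor
  · rintro h ⟨_, r, rfl⟩
    exact h r
  · intro h r
    exact h (H.toImg r)

/-- The closed point `ρ⁻¹(𝔪_Q)` is the closed point attached to the centre of `Q` on the reduced
chart. -/
theorem closedPoint_eq (Q : Place k' F') (hQ : OnChart ρ Q) :
    closedPoint ρ Q hQ =
      (Fermat.Agent.S24.center (R := H.img) Q ((H.onChart_iff Q).1 hQ)).comap H.toImg := by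
  ext r
  rw [mem_closedPoint_iff, Ideal.mem_comap,
    ValuationSubring.mem_nonunits_iff_exists_mem_maximalIdeal]
  constructor
  · rintro ⟨h1, h2⟩
    exact h2
  · intro h
    exact ⟨hQ r, h⟩

/-- A place containing the reduced chart shows that the special fibre is not a field. -/
theorem not_isField_of_onChart (Q : Place k' F') (hQ : OnChart ρ Q) :
    ¬ IsField (R ⧸ Ideal.span {ϖ}) := by
  intro hf
  obtain ⟨a, ha, hρa⟩ := exists_mem_closedPoint_rho_ne_zero ρ Q hQ H.frac
  have hmax : (Ideal.span {ϖ} : Ideal R).IsMaximal :=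
    (Ideal.Quotient.maximal_ideal_iff_isField_quotient _).2 hf
  have hle : Ideal.span {ϖ} ≤ closedPoint ρ Q hQ := by
    rw [← H.ker_eq]
    intro r hr
    rw [RingHom.mem_ker] at hr
    rw [mem_closedPoint_iff, hr]
    exact zero_mem_nonunits Q
  have heq := hmax.eq_of_le (closedPoint_isPrime ρ Q hQ).ne_top hle
  have : a ∈ RingHom.ker ρ := by rw [H.ker_eq, heq]; exact ha
  exact hρa this

/-- **Closed points of the chart ↔ places containing the reduced chart.** -/
noncomputable def placeEquivPt (hnf : ¬ IsField (R ⧸ Ideal.span {ϖ})) :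
    {Q : Place k' F' // OnChart ρ Q} ≃ Pt R ϖ :=
  haveI := H.isDedekindDomain_img
  haveI := H.isFractionRing_img
  ((Equiv.subtypeEquivRight fun Q => H.onChart_iff Q).trans
    (Fermat.Agent.S24.placeEquiv (K := k') (F := F') (R := H.img)).symm).trans
    (H.ptEquivSpec hnf).symm

theorem coe_placeEquivPt (hnf : ¬ IsField (R ⧸ Ideal.span {ϖ}))
    (Q : {Q : Place k' F' // OnChart ρ Q}) :
    (H.placeEquivPt hnf Q).1 = closedPoint ρ Q.1 Q.2 := by
  rw [H.closedPoint_eq Q.1 Q.2]
  rfl

/-- The closed point of a place on the chart, as an element of `Pt R ϖ`. -/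
noncomputable def closedPt (Q : Place k' F') (hQ : OnChart ρ Q) : Pt R ϖ :=
  H.placeEquivPt (H.not_isField_of_onChart Q hQ) ⟨Q, hQ⟩

theorem coe_closedPt (Q : Place k' F') (hQ : OnChart ρ Q) :
    (H.closedPt Q hQ).1 = closedPoint ρ Q hQ :=
  H.coe_placeEquivPt _ ⟨Q, hQ⟩

theorem closedPoint_isMaximal' (Q : Place k' F') (hQ : OnChart ρ Q) :
    (closedPoint ρ Q hQ).IsMaximal := by
  rw [← H.coe_closedPt Q hQ]
  exact (H.closedPt Q hQ).2.1

theorem mem_closedPoint (Q : Place k' F') (hQ : OnChart ρ Q) : ϖ ∈ closedPoint ρ Q hQ := by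
  rw [← H.coe_closedPt Q hQ]
  exact (H.closedPt Q hQ).2.2

/-- Surjectivity, in elementary form: every closed point of the chart is the closed point of a
place on the chart. -/
theorem exists_place_of_pt (x : Pt R ϖ) (hnf : ¬ IsField (R ⧸ Ideal.span {ϖ})) :
    ∃ (Q : Place k' F') (hQ : OnChart ρ Q), closedPoint ρ Q hQ = x.1 := by
  obtain ⟨Q, hQ⟩ := (H.placeEquivPt hnf).surjective x
  exact ⟨Q.1, Q.2, by rw [← H.coe_placeEquivPt hnf Q, hQ]⟩

/-- Injectivity, in elementary form. -/
theorem place_eq_of_closedPoint_eq {Q Q' : Place k' F'} (hQ : OnChart ρ Q) (hQ' : OnChart ρ Q')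
    (h : closedPoint ρ Q hQ = closedPoint ρ Q' hQ') : Q = Q' := by
  have hnf := H.not_isField_of_onChart Q hQ
  have h1 : H.placeEquivPt hnf ⟨Q, hQ⟩ = H.placeEquivPt hnf ⟨Q', hQ'⟩ := by
    apply Subtype.ext
    rw [H.coe_placeEquivPt, H.coe_placeEquivPt]
    exact h
  exact congrArg Subtype.val ((H.placeEquivPt hnf).injective h1)

end ChartRed

end Fermat.Agent.S19.Cech.IdelePlaces
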