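/-
S19, Čech-units route, node CECH-2C (helper1): LOCAL EQUATIONS of divisors at a closed point of the
special fibre of a regular chart, from `N4F/C/LocalMult` (Layer 1).

Setting (= Layer 1 of `LocalMult`): `O` a discrete valuation ring with uniformiser `ϖ`, `K = Frac O`,
`F / K` a function field, `S ⊆ F` a noetherian local domain with `Frac S = F` (the local ring of a
chart of the model at a closed point `x̃` of the special fibre), `π = ϖ` prime in `S`, `S / π` a
principal ideal ring, and a LOCAL PARAMETER `t ∈ S`: `(t, π) = 𝔪_S`, `π ∤ t`.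

* `prime_of_span_pair`, `prime_sub_const` : `t` and `t − τ` (`τ ∈ ϖ O`) are prime elements;
* `exists_place_sub_const`, `exists_param_of_residueTrivial`, `param_unique`, `place_eq_of_param` :
  the rational places containing `S` (the residue disc of `x̃`) are in bijection with `ϖ O` by
  `v ↦ τ_v = t(v)`, the centre of `v` being `(t − τ_v)`  (no Hensel);
* `exists_factorisation` : every `s ∈ S` prime to `π` whose zeros in the disc are rational is
  `unit · ∏ (t − τ)` over a multiset of `τ ∈ ϖ O`; `ord_factorisation` : the multiplicity of `τ_v` is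
  `ord_v s`.
-/
import Mathlib
import Fermat.Agent.N4F.C.LocalMult

set_option autoImplicit false
set_option linter.unusedSectionVars false
set_option linter.style.haveILetI false

namespace Fermat.Agent.S19.Cech.LocalEq

open AlgebraicCurve IsLocalRing
open Fermat.Agent.S24.PlaceDeriv (ResidueTrivial)
open Fermat.Agent.S24.PlaceExtend (mem_iff_ord_nonneg ord_pos_of_mem_nonunits mem_nonunits_of_ord_pos)
open Fermat.Agent.N4.Cover
open Fermat.Agent.N4F.C.LocalMult

section Param

variable {O K F S : Type*}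
  [CommRing O] [IsDomain O] [IsDiscreteValuationRing O]
  [Field K] [Algebra O K] [IsFractionRing O K]
  [Field F] [Algebra K F] [Algebra O F] [IsScalarTower O K F]
  [CommRing S] [IsDomain S] [IsNoetherianRing S] [IsLocalRing S]
  [Algebra S F] [IsFractionRing S F] [Algebra O S] [IsScalarTower O S F]

variable {ϖ : O}

/-- **(K0)** A local parameter is a prime element: if `(t, π) = 𝔪_S`, `π` is prime, `S / π` is a
principal ideal ring and `π ∤ t`, then `t` is prime. -/
theorem prime_of_span_pair {π t : S} (hπ : Prime π)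
    (hPID : IsPrincipalIdealRing (S ⧸ Ideal.span {π}))
    (ht : Ideal.span {t, π} = maximalIdeal S) (htπ : ¬ π ∣ t) : Prime t := by
  haveI : UniqueFactorizationMonoid S := LocalUFD.uniqueFactorizationMonoid hπ hPID
  have ht0 : t ≠ 0 := fun h => htπ (h ▸ dvd_zero π)
  have htm : t ∈ maximalIdeal S := by rw [← ht]; exact Ideal.subset_span (by simp)
  have htnu : ¬ IsUnit t := (mem_maximalIdeal _).1 htm
  obtain ⟨p, hp, c, rfl⟩ := WfDvdMonoid.exists_irreducible_factor htnu ht0
  have hpp : Prime p := UniqueFactorizationMonoid.irreducible_iff_prime.1 hp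
  -- `c` is a unit: otherwise `p ∈ 𝔪 = (p c, π)` gives `p (1 - x c) = y π`, hence `π ∣ p ∣ t`
  suffices hc : IsUnit c from (associated_mul_unit_right p c hc).prime_iff.1 hpp
  by_contra hc
  have hpm : p ∈ maximalIdeal S := (mem_maximalIdeal _).2 hp.not_isUnit
  rw [← ht] at hpm
  obtain ⟨x, y, hxy⟩ := Ideal.mem_span_pair.1 hpm
  have h1 : p * (1 - x * c) = y * π := by linear_combination -hxy
  have hu1 : IsUnit (1 - x * c) :=
    isUnit_one_sub_self_of_mem_nonunits _ (by
      rw [← mem_maximalIdeal]; exact Ideal.mul_mem_left _ _ ((mem_maximalIdeal _).2 hc))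
  have hπp : π ∣ p := by
    have : π ∣ p * (1 - x * c) := ⟨y, by rw [h1, mul_comm]⟩
    exact (hπ.dvd_or_dvd this).resolve_right fun h => hπ.not_isUnit (isUnit_of_dvd_unit h hu1)
  exact htπ (hπp.mul_right c)

/-! ### The residue disc: rational places containing `S` ↔ `ϖ O` -/

section Disc

variable (hϖ : Irreducible ϖ) (hπ : Prime (algebraMap O S ϖ))
  (hPID : IsPrincipalIdealRing (S ⧸ Ideal.span {algebraMap O S ϖ}))
  {t : S} (ht : Ideal.span {t, algebraMap O S ϖ} = maximalIdeal S)
  (htπ : ¬ algebraMap O S ϖ ∣ t)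

include hϖ in
/-- A non-unit of `O` maps into `π S`. -/
theorem dvd_algebraMap_of_not_isUnit {τ : O} (hτ : ¬ IsUnit τ) :
    algebraMap O S ϖ ∣ algebraMap O S τ := by
  have h : τ ∈ maximalIdeal O := (mem_maximalIdeal _).2 hτ
  rw [hϖ.maximalIdeal_eq, Ideal.mem_span_singleton] at h
  exact (algebraMap O S).map_dvd h

include hϖ ht in
/-- `(t − τ, π) = 𝔪_S` for `τ ∈ ϖ O`. -/
theorem span_sub_const {τ : O} (hτ : ¬ IsUnit τ) :
    Ideal.span {t - algebraMap O S τ, algebraMap O S ϖ} = maximalIdeal S := by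
  obtain ⟨c, hc⟩ := dvd_algebraMap_of_not_isUnit (S := S) hϖ hτ
  rw [← ht]
  have hπ1 : algebraMap O S ϖ ∈ Ideal.span {t, algebraMap O S ϖ} :=
    Ideal.subset_span (by simp)
  have hπ2 : algebraMap O S ϖ ∈ Ideal.span {t - algebraMap O S τ, algebraMap O S ϖ} :=
    Ideal.subset_span (by simp)
  have h1 : t - algebraMap O S τ ∈ Ideal.span {t, algebraMap O S ϖ} := by
    rw [hc]
    exact Ideal.sub_mem _ (Ideal.subset_span (by simp)) (Ideal.mul_mem_right _ _ hπ1)
  have h2 : t ∈ Ideal.span {t - algebraMap O S τ, algebraMap O S ϖ} := by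
    have h : (t - algebraMap O S τ) + algebraMap O S ϖ * c ∈
        Ideal.span {t - algebraMap O S τ, algebraMap O S ϖ} :=
      Ideal.add_mem _ (Ideal.subset_span (by simp)) (Ideal.mul_mem_right _ _ hπ2)
    rwa [← hc, sub_add_cancel] at h
  apply le_antisymm
  · rw [Ideal.span_le, Set.insert_subset_iff, Set.singleton_subset_iff]
    exact ⟨h1, hπ1⟩
  · rw [Ideal.span_le, Set.insert_subset_iff, Set.singleton_subset_iff]
    exact ⟨h2, hπ2⟩

include hϖ htπ in
theorem not_dvd_sub_const {τ : O} (hτ : ¬ IsUnit τ) :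
    ¬ algebraMap O S ϖ ∣ t - algebraMap O S τ := fun h =>
  htπ (by
    have := dvd_add h (dvd_algebraMap_of_not_isUnit (S := S) hϖ hτ)
    rwa [sub_add_cancel] at this)

include hϖ hπ hPID ht htπ in
/-- **(K1)** `t − τ` is a prime element for every `τ ∈ ϖ O`. -/
theorem prime_sub_const {τ : O} (hτ : ¬ IsUnit τ) : Prime (t - algebraMap O S τ) :=
  prime_of_span_pair hπ hPID (span_sub_const hϖ ht hτ) (not_dvd_sub_const hϖ htπ hτ)

include hϖ hπ hPID ht htπ in
/-- **(K1)** existence: for every `τ ∈ ϖ O` there is a place containing `S` at which `t − τ`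
vanishes. -/
theorem exists_place_sub_const {τ : O} (hτ : ¬ IsUnit τ) :
    ∃ v : Place K F, Contains S v ∧
      algebraMap S F (t - algebraMap O S τ) ∈ v.toValuationSubring.nonunits := by
  have hp := prime_sub_const hϖ hπ hPID ht htπ hτ
  refine exists_place_of_prime_of_not_dvd (K := K) (F := F) hϖ hp fun h => ?_
  exact not_dvd_sub_const hϖ htπ hτ ((hp.dvd_prime_iff_associated hπ).1 h).symm.dvd

variable {v : Place K F}

include hϖ hπ hPID ht htπ in
/-- The centre of a place containing `S` at which `t − τ` vanishes is `(t − τ)`. -/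
theorem centre_eq_of_param (hv : Contains S v) {τ : O} (hτ : ¬ IsUnit τ)
    (hvτ : algebraMap S F (t - algebraMap O S τ) ∈ v.toValuationSubring.nonunits) :
    centreIdeal hv = Ideal.span {t - algebraMap O S τ} :=
  centreIdeal_eq_span_of_mem hϖ hπ.not_isUnit hPID hv (prime_sub_const hϖ hπ hPID ht htπ hτ) hvτ

include hϖ hπ ht in
/-- **(K2)** a rational place containing `S` has a parameter value `τ_v = t(v) ∈ ϖ O`. -/
theorem exists_param_of_residueTrivial (hres : ResidueTrivial v) (hv : Contains S v) :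
    ∃ τ : O, ¬ IsUnit τ ∧
      algebraMap S F (t - algebraMap O S τ) ∈ v.toValuationSubring.nonunits := by
  obtain ⟨c, hc⟩ := exists_const_mem_O hϖ hπ.not_isUnit hres hv t
  rw [← map_sub] at hc
  refine ⟨c, fun hcu => ?_, hc⟩
  have htm : t ∈ maximalIdeal S := by rw [← ht]; exact Ideal.subset_span (by simp)
  have hu : IsUnit (t - algebraMap O S c) := by
    by_contra hnu
    have h1 : t - algebraMap O S c ∈ maximalIdeal S := (mem_maximalIdeal _).2 hnu
    have h2 : algebraMap O S c ∈ maximalIdeal S := by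
      have := (maximalIdeal S).sub_mem htm h1
      rwa [sub_sub_cancel] at this
    exact (mem_maximalIdeal _).1 h2 (hcu.map _)
  exact not_mem_nonunits_of_isUnit hv hu hc

/-- **(K3)** the parameter value is unique. -/
theorem param_unique {τ τ' : O}
    (h : algebraMap S F (t - algebraMap O S τ) ∈ v.toValuationSubring.nonunits)
    (h' : algebraMap S F (t - algebraMap O S τ') ∈ v.toValuationSubring.nonunits) : τ = τ' := by
  by_contra hne
  have hd : τ' - τ ≠ 0 := sub_ne_zero.2 (Ne.symm hne)
  have h1 := nonunits_sub v h h'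
  rw [← map_sub] at h1
  have h2 : t - algebraMap O S τ - (t - algebraMap O S τ') = algebraMap O S (τ' - τ) := by
    rw [map_sub]; ring
  rw [h2] at h1
  exact algebraMap_O_not_mem_nonunits (K := K) v hd h1

include hϖ hπ hPID ht htπ in
/-- **(K3)** a place containing `S` is determined by its parameter value. -/
theorem place_eq_of_param {v' : Place K F} (hv : Contains S v) (hv' : Contains S v') {τ : O}
    (hτ : ¬ IsUnit τ)
    (h : algebraMap S F (t - algebraMap O S τ) ∈ v.toValuationSubring.nonunits)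
    (h' : algebraMap S F (t - algebraMap O S τ) ∈ v'.toValuationSubring.nonunits) : v = v' :=
  eq_of_centre_eq hv hv' (prime_sub_const hϖ hπ hPID ht htπ hτ)
    (centre_eq_of_param hϖ hπ hPID ht htπ hv hτ h)
    (centre_eq_of_param hϖ hπ hPID ht htπ hv' hτ h')

include hϖ hπ hPID ht htπ in
/-- The order of `t − τ` at a place with parameter value `τ_v`: `1` if `τ = τ_v`, else `0`. -/
theorem ord_sub_const (hv : Contains S v) {τv : O} (hτv : ¬ IsUnit τv)
    (h : algebraMap S F (t - algebraMap O S τv) ∈ v.toValuationSubring.nonunits) (τ : O)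
    [Decidable (τ = τv)] :
    v.ord (algebraMap S F (t - algebraMap O S τ)) = if τ = τv then 1 else 0 := by
  split_ifs with hττ
  · subst hττ
    exact ord_generator_eq_one hv (prime_sub_const hϖ hπ hPID ht htπ hτv)
      (centre_eq_of_param hϖ hπ hPID ht htπ hv hτv h)
  · apply ord_eq_zero_of_not_mem_centre hv
    rw [mem_centreIdeal_iff]
    exact fun h' => hττ (param_unique h' h)

end Disc

/-! ### Factorisation of elements of `S` prime to `π` -/

section Factor

variable (hϖ : Irreducible ϖ) (hπ : Prime (algebraMap O S ϖ))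
  (hPID : IsPrincipalIdealRing (S ⧸ Ideal.span {algebraMap O S ϖ}))
  {t : S} (ht : Ideal.span {t, algebraMap O S ϖ} = maximalIdeal S)
  (htπ : ¬ algebraMap O S ϖ ∣ t)

/-- The product `∏ (t − τ)^{e τ}` attached to `e : O →₀ ℕ`. -/
noncomputable def linProd (t : S) (e : O →₀ ℕ) : S :=
  e.prod fun τ n => (t - algebraMap O S τ) ^ n

theorem linProd_zero (t : S) : linProd (O := O) t 0 = 1 := Finsupp.prod_zero_index

theorem linProd_add (t : S) (e e' : O →₀ ℕ) :
    linProd t (e + e') = linProd t e * linProd t e' := by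
  classical
  exact Finsupp.prod_add_index' (fun _ => pow_zero _) (fun _ _ _ => pow_add _ _ _)

theorem linProd_single (t : S) (τ : O) (n : ℕ) :
    linProd t (Finsupp.single τ n) = (t - algebraMap O S τ) ^ n :=
  Finsupp.prod_single_index (pow_zero _)

include hϖ hπ hPID ht htπ in
/-- **(C1) Factorisation.** An element `s ≠ 0` of `S` prime to `π`, all of whose zeros among the
places containing `S` are rational, is a unit times a product of linear factors `t − τ`, `τ ∈ ϖ O`. -/
theorem exists_factorisation (s : S) : s ≠ 0 → ¬ algebraMap O S ϖ ∣ s →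
    (∀ v : Place K F, Contains S v → algebraMap S F s ∈ v.toValuationSubring.nonunits →
      ResidueTrivial v) →
    ∃ (u : S) (e : O →₀ ℕ), IsUnit u ∧ (∀ τ ∈ e.support, ¬ IsUnit τ) ∧ s = u * linProd t e := by
  classical
  haveI : UniqueFactorizationMonoid S := LocalUFD.uniqueFactorizationMonoid hπ hPID
  induction s using UniqueFactorizationMonoid.induction_on_prime with
  | h₁ => intro h; exact absurd rfl h
  | h₂ u hu =>
    intro _ _ _
    exact ⟨u, 0, hu, by simp, by rw [linProd_zero, mul_one]⟩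
  | h₃ a p ha0 hp ih =>
    intro _ hsπ hrat
    have hpπ : ¬ algebraMap O S ϖ ∣ p := fun h => hsπ (Dvd.dvd.mul_right h a)
    have haπ : ¬ algebraMap O S ϖ ∣ a := fun h => hsπ (Dvd.dvd.mul_left h p)
    have hpπ' : ¬ p ∣ algebraMap O S ϖ := fun h =>
      hpπ ((hp.dvd_prime_iff_associated hπ).1 h).symm.dvd
    obtain ⟨vp, hvp, hpvp⟩ := exists_place_of_prime_of_not_dvd (K := K) (F := F) hϖ hp hpπ'
    have hcp : centreIdeal hvp = Ideal.span {p} :=
      centreIdeal_eq_span_of_mem hϖ hπ.not_isUnit hPID hvp hp hpvp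
    have hsvp : algebraMap S F (p * a) ∈ vp.toValuationSubring.nonunits := by
      rw [map_mul, mul_comm]
      exact mul_mem_nonunits vp (hvp a) hpvp
    have hvprat : ResidueTrivial vp := hrat vp hvp hsvp
    obtain ⟨τ, hτ, hτv⟩ := exists_param_of_residueTrivial hϖ hπ ht hvprat hvp
    have hcτ := centre_eq_of_param hϖ hπ hPID ht htπ hvp hτ hτv
    have hassoc : Associated (t - algebraMap O S τ) p := by
      rw [← Ideal.span_singleton_eq_span_singleton, ← hcp, ← hcτ]
    obtain ⟨w, hw⟩ := hassoc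
    obtain ⟨u, e, hu, he, hae⟩ := ih ha0 haπ (fun v hv hav => hrat v hv (by
      rw [map_mul]
      exact mul_mem_nonunits v (hv p) hav))
    refine ⟨(w : S) * u, e + Finsupp.single τ 1, w.isUnit.mul hu, ?_, ?_⟩
    · intro τ' hτ'
      rcases Finset.mem_union.1 (Finsupp.support_add hτ') with h | h
      · exact he τ' h
      · rw [Finset.mem_singleton.1 (Finsupp.support_single_subset h)]
        exact hτ
    · rw [linProd_add, linProd_single, pow_one, ← hw, hae]
      ring

end Factor

/-! ### Orders of the factors -/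

section Ord

variable (hϖ : Irreducible ϖ) (hπ : Prime (algebraMap O S ϖ))
  (hPID : IsPrincipalIdealRing (S ⧸ Ideal.span {algebraMap O S ϖ}))
  {t : S} (ht : Ideal.span {t, algebraMap O S ϖ} = maximalIdeal S)
  (htπ : ¬ algebraMap O S ϖ ∣ t)

variable {v : Place K F}

/-- Units of `S` have order `0` at every place containing `S`. -/
theorem ord_unit (hv : Contains S v) {u : S} (hu : IsUnit u) : v.ord (algebraMap S F u) = 0 :=
  ord_eq_zero_of_not_mem_centre hv fun h =>
    not_mem_nonunits_of_isUnit hv hu ((mem_centreIdeal_iff hv).1 h)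

include hϖ hπ hPID ht htπ in
theorem sub_const_ne_zero (τ : O) : t - algebraMap O S τ ≠ 0 := by
  by_cases hτ : IsUnit τ
  · intro h
    have htm : t ∈ maximalIdeal S := by rw [← ht]; exact Ideal.subset_span (by simp)
    rw [sub_eq_zero] at h
    rw [h] at htm
    exact (mem_maximalIdeal _).1 htm (hτ.map _)
  · exact (prime_sub_const hϖ hπ hPID ht htπ hτ).ne_zero

include hϖ hπ hPID ht htπ in
theorem linProd_ne_zero (e : O →₀ ℕ) : linProd t e ≠ 0 := by
  rw [linProd, Finsupp.prod_ne_zero_iff]
  exact fun τ _ => pow_ne_zero _ (sub_const_ne_zero hϖ hπ hPID ht htπ τ)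

include hϖ hπ hPID ht htπ in
/-- The order of `∏ (t − τ)^{e τ}` at the place with parameter value `τ_v` is `e τ_v`. -/
theorem ord_linProd (hv : Contains S v) {τv : O} (hτv : ¬ IsUnit τv)
    (h : algebraMap S F (t - algebraMap O S τv) ∈ v.toValuationSubring.nonunits) (e : O →₀ ℕ) :
    v.ord (algebraMap S F (linProd t e)) = e τv := by
  classical
  have hinj : Function.Injective (algebraMap S F) := IsFractionRing.injective S F
  have hne : ∀ e : O →₀ ℕ, algebraMap S F (linProd t e) ≠ 0 := fun e h0 =>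
    linProd_ne_zero hϖ hπ hPID ht htπ e (hinj (by rw [h0, map_zero]))
  induction e using Finsupp.induction_linear with
  | zero => rw [linProd_zero, map_one, v.ord_one]; simp
  | add f g hf hg =>
    rw [linProd_add, map_mul, v.ord_mul (hne f) (hne g), hf, hg, Finsupp.add_apply]
    push_cast; ring
  | single a b =>
    rw [linProd_single, map_pow, ← zpow_natCast, v.ord_zpow,
      ord_sub_const hϖ hπ hPID ht htπ hv hτv h a, Finsupp.single_apply]
    split_ifs <;> simp

include hϖ hπ hPID ht htπ in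
theorem ord_unit_mul_linProd (hv : Contains S v) {τv : O} (hτv : ¬ IsUnit τv)
    (h : algebraMap S F (t - algebraMap O S τv) ∈ v.toValuationSubring.nonunits) {u : S}
    (hu : IsUnit u) (e : O →₀ ℕ) :
    v.ord (algebraMap S F (u * linProd t e)) = e τv := by
  have hinj : Function.Injective (algebraMap S F) := IsFractionRing.injective S F
  have h1 : algebraMap S F u ≠ 0 := fun h0 => hu.ne_zero (hinj (by rw [h0, map_zero]))
  have h2 : algebraMap S F (linProd t e) ≠ 0 := fun h0 =>
    linProd_ne_zero hϖ hπ hPID ht htπ e (hinj (by rw [h0, map_zero]))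
  rw [map_mul, v.ord_mul h1 h2, ord_unit hv hu, zero_add, ord_linProd hϖ hπ hPID ht htπ hv hτv h]

end Ord

/-! ### The sets `π W` and `1 + π W`, `W = S_(π) ⊆ F` -/

section PiW

variable {π : S}

/-- `x ∈ π W`, where `W = S_(π)`: `x = π a / b` with `π ∤ b`. -/
def InPiW (π : S) (x : F) : Prop :=
  ∃ a b : S, ¬ π ∣ b ∧ x * algebraMap S F b = algebraMap S F (π * a)

/-- `x ∈ 1 + π W`. -/
def OnePlusPiW (π : S) (x : F) : Prop := InPiW π (x - 1)

theorem inPiW_zero (hπ : Prime π) : InPiW (F := F) π 0 :=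
  ⟨0, 1, fun h => hπ.not_isUnit (isUnit_of_dvd_one h), by simp⟩

theorem InPiW.add (hπ : Prime π) {x y : F} (hx : InPiW π x) (hy : InPiW π y) :
    InPiW π (x + y) := by
  obtain ⟨a, b, hb, h⟩ := hx
  obtain ⟨a', b', hb', h'⟩ := hy
  refine ⟨a * b' + a' * b, b * b', fun hd => (hπ.dvd_or_dvd hd).elim hb hb', ?_⟩
  simp only [map_mul, map_add] at h h' ⊢
  linear_combination (algebraMap S F b') * h + (algebraMap S F b) * h'

theorem InPiW.neg {x : F} (hx : InPiW π x) : InPiW π (-x) := by
  obtain ⟨a, b, hb, h⟩ := hx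
  refine ⟨-a, b, hb, ?_⟩
  simp only [map_mul, map_neg] at h ⊢
  linear_combination -h

theorem InPiW.mul (hπ : Prime π) {x y : F} (hx : InPiW π x) (hy : InPiW π y) :
    InPiW π (x * y) := by
  obtain ⟨a, b, hb, h⟩ := hx
  obtain ⟨a', b', hb', h'⟩ := hy
  refine ⟨π * a * a', b * b', fun hd => (hπ.dvd_or_dvd hd).elim hb hb', ?_⟩
  simp only [map_mul] at h h' ⊢
  linear_combination (y * algebraMap S F b') * h + (algebraMap S F π * algebraMap S F a) * h'

/-- An element of `S` lying in `π W` is divisible by `π`. -/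
theorem dvd_of_inPiW_algebraMap (hπ : Prime π) {s : S} (h : InPiW π (algebraMap S F s)) :
    π ∣ s := by
  obtain ⟨a, b, hb, h⟩ := h
  rw [← map_mul] at h
  have h1 : s * b = π * a := IsFractionRing.injective S F h
  exact (hπ.dvd_or_dvd ⟨a, h1⟩).resolve_right hb

theorem inPiW_algebraMap (hπ : Prime π) (s : S) : InPiW π (algebraMap S F (π * s)) :=
  ⟨s, 1, fun h => hπ.not_isUnit (isUnit_of_dvd_one h), by simp⟩

theorem onePlusPiW_one (hπ : Prime π) : OnePlusPiW (F := F) π 1 := by
  rw [OnePlusPiW, sub_self]; exact inPiW_zero hπ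

theorem OnePlusPiW.mul (hπ : Prime π) {x y : F} (hx : OnePlusPiW π x) (hy : OnePlusPiW π y) :
    OnePlusPiW π (x * y) := by
  have : x * y - 1 = (x - 1) + (y - 1) + (x - 1) * (y - 1) := by ring
  rw [OnePlusPiW, this]
  exact ((InPiW.add hπ hx hy).add hπ (InPiW.mul hπ hx hy))

theorem OnePlusPiW.ne_zero {x : F} (hx : OnePlusPiW π x) : x ≠ 0 := by
  rintro rfl
  obtain ⟨a, b, hb, h⟩ := hx
  have h1 : -b = π * a := IsFractionRing.injective S F (by rw [map_neg, ← h]; ring)
  exact hb ((dvd_neg).1 ⟨a, h1⟩)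

theorem OnePlusPiW.inv {x : F} (hx : OnePlusPiW π x) : OnePlusPiW π x⁻¹ := by
  have hx0 := hx.ne_zero
  obtain ⟨a, b, hb, h⟩ := hx
  refine ⟨-a, b + π * a, fun hd => hb ((dvd_add_left (dvd_mul_right π a)).1 hd), ?_⟩
  simp only [map_mul, map_add, map_neg] at h ⊢
  field_simp
  linear_combination -h

theorem OnePlusPiW.zpow (hπ : Prime π) {x : F} (hx : OnePlusPiW π x) (n : ℤ) :
    OnePlusPiW π (x ^ n) := by
  have hnat : ∀ k : ℕ, OnePlusPiW π (x ^ k) := by
    intro k
    induction k with
    | zero => rw [pow_zero]; exact onePlusPiW_one hπ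
    | succ k ih => rw [pow_succ]; exact ih.mul hπ hx
  cases n with
  | ofNat k => rw [Int.ofNat_eq_natCast, zpow_natCast]; exact hnat k
  | negSucc k => rw [zpow_negSucc]; exact (hnat (k + 1)).inv

theorem OnePlusPiW.div (hπ : Prime π) {x y : F} (hx : OnePlusPiW π x) (hy : OnePlusPiW π y) :
    OnePlusPiW π (x / y) := by
  rw [div_eq_mul_inv]; exact hx.mul hπ hy.inv

theorem onePlusPiW_algebraMap (hπ : Prime π) (s : S) :
    OnePlusPiW π (algebraMap S F (1 + π * s)) := by
  rw [OnePlusPiW, map_add, map_one, add_sub_cancel_left]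
  exact inPiW_algebraMap hπ s

/-- **(W1)** `(1 + π W) ∩ S = 1 + π S`. -/
theorem exists_eq_of_onePlusPiW_algebraMap (hπ : Prime π) {s : S}
    (h : OnePlusPiW π (algebraMap S F s)) : ∃ s' : S, s = 1 + π * s' := by
  rw [OnePlusPiW, ← map_one (algebraMap S F), ← map_sub] at h
  obtain ⟨s', hs'⟩ := dvd_of_inPiW_algebraMap hπ h
  exact ⟨s', by rw [← hs']; ring⟩

theorem onePlusPiW_finsupp_prod (hπ : Prime π) {ι : Type*} (e : ι →₀ ℤ) (f : ι → F)
    (hf : ∀ i ∈ e.support, OnePlusPiW π (f i)) :
    OnePlusPiW π (e.prod fun i n => f i ^ n) := by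
  classical
  rw [Finsupp.prod]
  refine Finset.prod_induction _ (OnePlusPiW π) (fun _ _ hx hy => hx.mul hπ hy)
    (onePlusPiW_one hπ) fun i hi => (hf i hi).zpow hπ _

end PiW

/-! ### Functions in `1 + π W`: the local equation of the divisor -/

section Principal

variable (hϖ : Irreducible ϖ) (hπ : Prime (algebraMap O S ϖ))
  (hPID : IsPrincipalIdealRing (S ⧸ Ideal.span {algebraMap O S ϖ}))
  {t : S} (ht : Ideal.span {t, algebraMap O S ϖ} = maximalIdeal S)
  (htπ : ¬ algebraMap O S ϖ ∣ t)

/-- The elementary factor `1 − τ / t ∈ 1 + π W`. -/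
noncomputable def fac (t : S) (τ : O) : F :=
  1 - algebraMap S F (algebraMap O S τ) / algebraMap S F t

/-- The product `∏ (1 − τ / t)^{e τ}`. -/
noncomputable def facProd (t : S) (e : O →₀ ℕ) : F := e.prod fun τ n => fac (F := F) t τ ^ n

theorem algebraMap_sub_const {t : S} (ht0 : t ≠ 0) (τ : O) :
    algebraMap S F (t - algebraMap O S τ) = algebraMap S F t * fac t τ := by
  have : algebraMap S F t ≠ 0 := fun h => ht0 (IsFractionRing.injective S F (by rw [h, map_zero]))
  rw [fac, map_sub]
  field_simp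

include hϖ htπ in
theorem fac_mem {τ : O} (hτ : ¬ IsUnit τ) : OnePlusPiW (F := F) (algebraMap O S ϖ) (fac t τ) := by
  obtain ⟨c, hc⟩ := dvd_algebraMap_of_not_isUnit (S := S) hϖ hτ
  have ht0 : t ≠ 0 := fun h => htπ (h ▸ dvd_zero _)
  have : algebraMap S F t ≠ 0 := fun h => ht0 (IsFractionRing.injective S F (by rw [h, map_zero]))
  refine ⟨-c, t, htπ, ?_⟩
  rw [fac, hc]
  simp only [map_mul, map_neg]
  field_simp
  ring

include hϖ hπ htπ in
theorem facProd_mem {e : O →₀ ℕ} (he : ∀ τ ∈ e.support, ¬ IsUnit τ) :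
    OnePlusPiW (F := F) (algebraMap O S ϖ) (facProd t e) := by
  classical
  rw [facProd, Finsupp.prod]
  refine Finset.prod_induction _ (OnePlusPiW (algebraMap O S ϖ)) (fun _ _ hx hy => hx.mul hπ hy)
    (onePlusPiW_one hπ) fun τ hτ => ?_
  have := (fac_mem (F := F) hϖ htπ (he τ hτ)).zpow hπ (e τ)
  rwa [zpow_natCast] at this

theorem algebraMap_linProd {t : S} (ht0 : t ≠ 0) (e : O →₀ ℕ) :
    algebraMap S F (linProd t e) =
      algebraMap S F t ^ (e.sum fun _ n => n) * facProd t e := by
  rw [linProd, facProd, map_finsuppProd, Finsupp.sum, ← Finset.prod_pow_eq_pow_sum, Finsupp.prod,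
    Finsupp.prod, ← Finset.prod_mul_distrib]
  refine Finset.prod_congr rfl fun τ _ => ?_
  rw [map_pow, algebraMap_sub_const ht0, mul_pow]

include hϖ in
/-- Modulo `π`, `∏ (t − τ)^{e τ} ≡ t^{|e|}`. -/
theorem dvd_linProd_sub_pow {e : O →₀ ℕ} (he : ∀ τ ∈ e.support, ¬ IsUnit τ) :
    algebraMap O S ϖ ∣ linProd t e - t ^ (e.sum fun _ n => n) := by
  rw [← Ideal.mem_span_singleton, ← Ideal.Quotient.eq, linProd, map_finsuppProd, map_pow,
    Finsupp.sum, ← Finset.prod_pow_eq_pow_sum, Finsupp.prod]
  refine Finset.prod_congr rfl fun τ hτ => ?_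
  rw [map_pow, map_sub]
  have : Ideal.Quotient.mk (Ideal.span {algebraMap O S ϖ}) (algebraMap O S τ) = 0 := by
    rw [Ideal.Quotient.eq_zero_iff_mem, Ideal.mem_span_singleton]
    exact dvd_algebraMap_of_not_isUnit hϖ (he τ hτ)
  rw [this, sub_zero]

include hπ ht htπ in
/-- Comparing `u_a t^k` and `u_b t^l` modulo `π`. -/
theorem deg_eq_and_unit_congr {ua ub : S} (hua : IsUnit ua) (hub : IsUnit ub) {k l : ℕ}
    (h : algebraMap O S ϖ ∣ ua * t ^ k - ub * t ^ l) :
    k = l ∧ algebraMap O S ϖ ∣ ua - ub := by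
  have htm : t ∈ maximalIdeal S := by rw [← ht]; exact Ideal.subset_span (by simp)
  have hπm : algebraMap O S ϖ ∈ maximalIdeal S := (mem_maximalIdeal _).2 hπ.not_isUnit
  have htk : ∀ n : ℕ, ¬ algebraMap O S ϖ ∣ t ^ n := fun n hd => htπ (hπ.dvd_of_dvd_pow hd)
  -- the asymmetric step
  have aux : ∀ {x y : S} {m n : ℕ}, IsUnit x → m < n →
      algebraMap O S ϖ ∣ x * t ^ m - y * t ^ n → False := by
    intro x y m n hx hmn hd
    obtain ⟨d, rfl⟩ := Nat.exists_eq_add_of_lt hmn
    have e1 : x * t ^ m - y * t ^ (m + d + 1) = t ^ m * (x - y * t ^ (d + 1)) := by ring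
    rw [e1] at hd
    obtain ⟨z, hz⟩ := (hπ.dvd_or_dvd hd).resolve_left (htk m)
    have hxm : x ∈ maximalIdeal S := by
      have : x = y * t ^ (d + 1) + algebraMap O S ϖ * z := by rw [← hz]; ring
      rw [this]
      refine Ideal.add_mem _ (Ideal.mul_mem_left _ _ ?_) (Ideal.mul_mem_right _ _ hπm)
      rw [pow_succ]
      exact Ideal.mul_mem_left _ _ htm
    exact (mem_maximalIdeal _).1 hxm hx
  have hkl : k = l := by
    rcases lt_trichotomy k l with h1 | h1 | h1
    · exact (aux hua h1 h).elim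
    · exact h1
    · exact (aux hub h1 (by rw [← dvd_neg, neg_sub]; exact h)).elim
  refine ⟨hkl, ?_⟩
  subst hkl
  have e1 : ua * t ^ k - ub * t ^ k = t ^ k * (ua - ub) := by ring
  rw [e1] at h
  exact (hπ.dvd_or_dvd h).resolve_left (htk k)

end Principal

section Main

variable (hϖ : Irreducible ϖ) (hπ : Prime (algebraMap O S ϖ))
  (hPID : IsPrincipalIdealRing (S ⧸ Ideal.span {algebraMap O S ϖ}))
  {t : S} (ht : Ideal.span {t, algebraMap O S ϖ} = maximalIdeal S)
  (htπ : ¬ algebraMap O S ϖ ∣ t)

theorem ord_div' (v : Place K F) {x y : F} (hx : x ≠ 0) (hy : y ≠ 0) :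
    v.ord (x / y) = v.ord x - v.ord y := by
  rw [div_eq_mul_inv, v.ord_mul hx (inv_ne_zero hy), v.ord_inv]; ring

include hϖ hπ hPID ht htπ in
/-- **(C2) Local equation of a function `w ∈ 1 + π W`.**  If all zeros and poles of `w` among the
places containing `S` are rational, then `w = (1 + π s) · ∏ (1 − τ/t)^{e_a τ} / ∏ (1 − τ/t)^{e_b τ}`
with `s ∈ S`, and `e_a τ_v − e_b τ_v = ord_v w` at the place `v` with parameter value `τ_v`. -/
theorem exists_eq_unit_mul_facProd (w : F) (hw : OnePlusPiW (algebraMap O S ϖ) w)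
    (hrat : ∀ v : Place K F, Contains S v → v.ord w ≠ 0 → ResidueTrivial v) :
    ∃ (s : S) (ea eb : O →₀ ℕ), (∀ τ ∈ ea.support, ¬ IsUnit τ) ∧ (∀ τ ∈ eb.support, ¬ IsUnit τ) ∧
      w = algebraMap S F (1 + algebraMap O S ϖ * s) * (facProd t ea / facProd t eb) ∧
      ∀ v : Place K F, Contains S v → ∀ τv : O, ¬ IsUnit τv →
        algebraMap S F (t - algebraMap O S τv) ∈ v.toValuationSubring.nonunits →
        v.ord w = (ea τv : ℤ) - eb τv := by
  classical
  haveI : UniqueFactorizationMonoid S := LocalUFD.uniqueFactorizationMonoid hπ hPID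
  have hinj : Function.Injective (algebraMap S F) := IsFractionRing.injective S F
  set π : S := algebraMap O S ϖ with hπdef
  have ht0 : t ≠ 0 := fun h => htπ (h ▸ dvd_zero _)
  -- reduced fraction
  obtain ⟨a, ⟨b, hbnz⟩, hrel, hab⟩ := IsFractionRing.exists_reduced_fraction (A := S) w
  have hb0 : b ≠ 0 := nonZeroDivisors.ne_zero hbnz
  have hb0F : algebraMap S F b ≠ 0 := fun h => hb0 (hinj (by rw [h, map_zero]))
  have hwab : w = algebraMap S F a / algebraMap S F b := by
    rw [← hab, IsFractionRing.mk'_eq_div]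
  have ha0 : a ≠ 0 := by
    rintro rfl
    rw [map_zero, zero_div] at hwab
    exact hw.ne_zero hwab
  have ha0F : algebraMap S F a ≠ 0 := fun h => ha0 (hinj (by rw [h, map_zero]))
  -- the congruence `w ≡ 1`
  obtain ⟨a', b', hb', h⟩ := hw
  have hrelS : a * b' = b * (b' + π * a') := by
    apply hinj
    have h1 : w * algebraMap S F b' = algebraMap S F b' + algebraMap S F (π * a') := by
      rw [← h]; ring
    rw [map_mul, map_mul, map_add, ← h1, hwab]
    field_simp
  have hnotboth : ¬ (π ∣ a ∧ π ∣ b) := fun ⟨h1, h2⟩ => hπ.not_isUnit (hrel h1 h2)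
  have hπb : ¬ π ∣ b := by
    intro hd
    have h1 : π ∣ a * b' := by rw [hrelS]; exact hd.mul_right _
    exact hnotboth ⟨(hπ.dvd_or_dvd h1).resolve_right hb', hd⟩
  have hπa : ¬ π ∣ a := by
    intro hd
    have h1 : π ∣ b * (b' + π * a') := by rw [← hrelS]; exact hd.mul_right _
    rcases hπ.dvd_or_dvd h1 with h2 | h2
    · exact hnotboth ⟨hd, h2⟩
    · exact hb' ((dvd_add_left (dvd_mul_right π a')).1 h2)
  have hπab : π ∣ a - b := by
    have h1 : (a - b) * b' = π * (b * a') := by
      have := hrelS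
      linear_combination this
    exact (hπ.dvd_or_dvd ⟨b * a', h1⟩).resolve_right hb'
  -- order of `w`
  have hordw : ∀ v : Place K F, v.ord w = v.ord (algebraMap S F a) - v.ord (algebraMap S F b) :=
    fun v => by rw [hwab, ord_div' v ha0F hb0F]
  -- rationality of the zeros of `a` and `b`
  have hcop : ∀ (v : Place K F) (hv : Contains S v) {x y : S}, x ≠ 0 → IsRelPrime x y →
      algebraMap S F x ∈ v.toValuationSubring.nonunits →
      0 < v.ord (algebraMap S F x) ∧ v.ord (algebraMap S F y) = 0 := by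
    intro v hv x y hx0 hxy hx
    have hx0F : algebraMap S F x ≠ 0 := fun h => hx0 (hinj (by rw [h, map_zero]))
    obtain ⟨p, hp, hc⟩ := exists_centre_generator hϖ hπ.not_isUnit hPID hv
    have hpx : p ∣ x := by
      rw [← Ideal.mem_span_singleton, ← hc, mem_centreIdeal_iff]; exact hx
    have hpy : y ∉ centreIdeal hv := by
      rw [hc, Ideal.mem_span_singleton]
      exact fun hpy => hp.not_isUnit (hxy hpx hpy)
    exact ⟨(mem_nonunits_iff_ord_pos v hx0F).1 hx, ord_eq_zero_of_not_mem_centre hv hpy⟩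
  have hrata : ∀ v : Place K F, Contains S v →
      algebraMap S F a ∈ v.toValuationSubring.nonunits → ResidueTrivial v := by
    intro v hv hav
    obtain ⟨h1, h2⟩ := hcop v hv ha0 hrel hav
    exact hrat v hv (by rw [hordw, h2]; omega)
  have hratb : ∀ v : Place K F, Contains S v →
      algebraMap S F b ∈ v.toValuationSubring.nonunits → ResidueTrivial v := by
    intro v hv hbv
    obtain ⟨h1, h2⟩ := hcop v hv hb0 hrel.symm hbv
    exact hrat v hv (by rw [hordw, h2]; omega)
  -- factorisations
  obtain ⟨ua, ea, hua, hea, hfa⟩ := exists_factorisation hϖ hπ hPID ht htπ a ha0 hπa hrata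
  obtain ⟨ub, eb, hub, heb, hfb⟩ := exists_factorisation hϖ hπ hPID ht htπ b hb0 hπb hratb
  -- degrees and units
  have hcong : π ∣ ua * t ^ (ea.sum fun _ n => n) - ub * t ^ (eb.sum fun _ n => n) := by
    have h1 := dvd_linProd_sub_pow (t := t) hϖ hea
    have h2 := dvd_linProd_sub_pow (t := t) hϖ heb
    have e1 : ua * t ^ (ea.sum fun _ n => n) - ub * t ^ (eb.sum fun _ n => n) =
        (a - b) - ua * (linProd t ea - t ^ (ea.sum fun _ n => n)) +
          ub * (linProd t eb - t ^ (eb.sum fun _ n => n)) := by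
      rw [hfa, hfb]; ring
    rw [e1]
    exact dvd_add (dvd_sub hπab (h1.mul_left _)) (h2.mul_left _)
  obtain ⟨hdeg, ⟨z, hz⟩⟩ := deg_eq_and_unit_congr hπ ht htπ hua hub hcong
  obtain ⟨ub', hub'⟩ := hub
  refine ⟨z * ((ub'⁻¹ : Sˣ) : S), ea, eb, hea, heb, ?_, ?_⟩
  · have htF : algebraMap S F t ≠ 0 := fun h => ht0 (hinj (by rw [h, map_zero]))
    have hubF : algebraMap S F ub ≠ 0 := by
      rw [← hub']; exact fun h => ub'.ne_zero (hinj (by rw [h, map_zero]))
    have hfbF : facProd (F := F) t eb ≠ 0 := (facProd_mem hϖ hπ htπ heb).ne_zero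
    have e1 : algebraMap S F (1 + π * (z * ((ub'⁻¹ : Sˣ) : S))) * algebraMap S F ub =
        algebraMap S F ua := by
      rw [← map_mul]
      congr 1
      have h3 : ((ub'⁻¹ : Sˣ) : S) * ub = 1 := by rw [← hub']; exact Units.inv_mul ub'
      have : ua = ub + π * z := by rw [← hz]; ring
      rw [this]
      linear_combination (π * z) * h3
    rw [hwab, hfa, hfb, map_mul, map_mul, algebraMap_linProd ht0, algebraMap_linProd ht0, hdeg,
      ← e1]
    field_simp
  · intro v hv τv hτv hvτ
    rw [hordw, hfa, hfb, ord_unit_mul_linProd hϖ hπ hPID ht htπ hv hτv hvτ hua,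
      ord_unit_mul_linProd hϖ hπ hPID ht htπ hv hτv hvτ ⟨ub', hub'⟩]

end Main

/-! ### The local equation of a divisor -/

section Idele

variable (hϖ : Irreducible ϖ) (hπ : Prime (algebraMap O S ϖ))
  (hPID : IsPrincipalIdealRing (S ⧸ Ideal.span {algebraMap O S ϖ}))
  {t : S} (ht : Ideal.span {t, algebraMap O S ϖ} = maximalIdeal S)
  (htπ : ¬ algebraMap O S ϖ ∣ t)

variable (S) in
/-- `v` lies in the residue disc of the closed point of `S` and is rational. -/
def InDisc (v : Place K F) : Prop := Contains S v ∧ ResidueTrivial v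

open Classical in
/-- The parameter value `τ_v = t(v)` of a place (junk value `1` if there is none). -/
noncomputable def paramOf (t : S) (v : Place K F) : O :=
  if h : ∃ τ : O, ¬ IsUnit τ ∧
      algebraMap S F (t - algebraMap O S τ) ∈ v.toValuationSubring.nonunits then h.choose else 1

include hϖ hπ ht in
theorem paramOf_spec {v : Place K F} (hv : InDisc S v) :
    ¬ IsUnit (paramOf (O := O) t v) ∧
      algebraMap S F (t - algebraMap O S (paramOf t v)) ∈ v.toValuationSubring.nonunits := by
  have h := exists_param_of_residueTrivial hϖ hπ ht hv.2 hv.1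
  rw [paramOf, dif_pos h]
  exact h.choose_spec

include hϖ hπ ht in
theorem paramOf_eq {v : Place K F} (hv : InDisc S v) {τ : O}
    (hτ : algebraMap S F (t - algebraMap O S τ) ∈ v.toValuationSubring.nonunits) :
    paramOf t v = τ :=
  param_unique (paramOf_spec hϖ hπ ht hv).2 hτ

open Classical in
/-- The part of a divisor supported on the rational places of the residue disc. -/
noncomputable def discPart (S : Type*) [CommRing S] [Algebra S F] (D : Place K F →₀ ℤ) :
    Place K F →₀ ℤ :=
  D.filter (InDisc S)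

theorem discPart_add (D D' : Place K F →₀ ℤ) :
    discPart S (D + D') = discPart S D + discPart S D' := by
  classical
  exact Finsupp.filter_add

theorem discPart_apply (D : Place K F →₀ ℤ) {v : Place K F} (hv : InDisc S v) :
    discPart S D v = D v := by
  classical
  exact Finsupp.filter_apply_pos _ _ hv

theorem inDisc_of_mem_support_discPart {D : Place K F →₀ ℤ} {v : Place K F}
    (hv : v ∈ (discPart S D).support) : InDisc S v := by
  classical
  rw [discPart, Finsupp.support_filter, Finset.mem_filter] at hv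
  exact hv.2

/-- **The local equation** of the divisor `D` at the closed point of `S`, normalised in `1 + π W`:
`∏_{v in the disc} (1 − τ_v / t)^{D v}`. -/
noncomputable def localEq (t : S) (D : Place K F →₀ ℤ) : F :=
  (discPart S D).prod fun v n => fac (F := F) t (paramOf (O := O) t v) ^ n

include hϖ hπ hPID ht htπ in
theorem fac_ne_zero (τ : O) : fac (F := F) t τ ≠ 0 := by
  have ht0 : t ≠ 0 := fun h => htπ (h ▸ dvd_zero _)
  have h1 := algebraMap_sub_const (F := F) ht0 τ
  intro h0
  rw [h0, mul_zero] at h1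
  exact sub_const_ne_zero hϖ hπ hPID ht htπ τ (IsFractionRing.injective S F (by rw [h1, map_zero]))

include hϖ hπ hPID ht htπ in
theorem localEq_add (D D' : Place K F →₀ ℤ) :
    localEq (O := O) t (D + D') = localEq (O := O) t D * localEq (O := O) t D' := by
  classical
  rw [localEq, localEq, localEq, discPart_add]
  exact Finsupp.prod_add_index' (fun _ => zpow_zero _)
    (fun v _ _ => zpow_add₀ (fac_ne_zero hϖ hπ hPID ht htπ _) _ _)

theorem localEq_zero : localEq (O := O) (F := F) t (0 : Place K F →₀ ℤ) = 1 := by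
  classical
  rw [localEq, discPart, Finsupp.filter_zero, Finsupp.prod_zero_index]

include hϖ hπ hPID ht htπ in
theorem localEq_neg (D : Place K F →₀ ℤ) :
    localEq (O := O) t (-D) = (localEq (O := O) (F := F) t D)⁻¹ := by
  have h := localEq_add hϖ hπ hPID ht htπ (F := F) D (-D)
  rw [add_neg_cancel, localEq_zero] at h
  exact eq_inv_of_mul_eq_one_right h.symm

/-- The local equation is `1` if no point of the support lies in the residue disc. -/
theorem localEq_eq_one {D : Place K F →₀ ℤ} (h : ∀ v ∈ D.support, ¬ Contains S v) :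
    localEq (O := O) (F := F) t D = 1 := by
  classical
  have : discPart S D = 0 := by
    rw [discPart, Finsupp.filter_eq_zero_iff]
    intro v hv
    by_contra hne
    exact h v (Finsupp.mem_support_iff.2 hne) hv.1
  rw [localEq, this, Finsupp.prod_zero_index]

include hϖ hπ ht htπ in
/-- The local equation lies in `1 + π W`. -/
theorem localEq_mem (D : Place K F →₀ ℤ) :
    OnePlusPiW (algebraMap O S ϖ) (localEq (O := O) (F := F) t D) := by
  rw [localEq]
  exact onePlusPiW_finsupp_prod hπ _ _ fun v hv =>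
    fac_mem hϖ htπ (paramOf_spec hϖ hπ ht (inDisc_of_mem_support_discPart hv)).1

end Idele

/-! ### Principal divisors: `localEq (div w) ∈ w · (1 + π S)` -/

section PrincipalDiv

variable (hϖ : Irreducible ϖ) (hπ : Prime (algebraMap O S ϖ))
  (hPID : IsPrincipalIdealRing (S ⧸ Ideal.span {algebraMap O S ϖ}))
  {t : S} (ht : Ideal.span {t, algebraMap O S ϖ} = maximalIdeal S)
  (htπ : ¬ algebraMap O S ϖ ∣ t)

include hϖ hπ hPID ht htπ in
/-- The quotient `∏ fac^{e_a} / ∏ fac^{e_b}` as a `Finsupp.prod` with integer exponents. -/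
theorem facProd_div_facProd (ea eb : O →₀ ℕ) :
    (ea.mapRange (Nat.cast : ℕ → ℤ) Nat.cast_zero - eb.mapRange (Nat.cast : ℕ → ℤ) Nat.cast_zero).prod
        (fun τ n => fac (F := F) t τ ^ n) = facProd t ea / facProd t eb := by
  classical
  have h0 : ∀ τ : O, fac (F := F) t τ ^ (0 : ℤ) = 1 := fun _ => zpow_zero _
  rw [sub_eq_add_neg, Finsupp.prod_add_index' h0
    (fun τ _ _ => zpow_add₀ (fac_ne_zero hϖ hπ hPID ht htπ τ) _ _),
    Finsupp.prod_neg_index h0, Finsupp.prod_mapRange_index h0,
    Finsupp.prod_mapRange_index (fun τ => by rw [neg_zero]; exact h0 τ), div_eq_mul_inv, facProd,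
    facProd, Finsupp.prod, Finsupp.prod, Finsupp.prod, Finsupp.prod, ← Finset.prod_inv_distrib]
  congr 1
  · exact Finset.prod_congr rfl fun τ _ => zpow_natCast _ _
  · exact Finset.prod_congr rfl fun τ _ => by rw [zpow_neg, zpow_natCast]

include hϖ hπ hPID ht htπ in
/-- **Principal divisors.**  For `w ∈ 1 + π W` whose zeros and poles in the residue disc are
rational, and a divisor `D` that agrees with `div w` on the disc,
`w = (1 + π s) · localEq t D` for some `s ∈ S`. -/
theorem localEq_principal (w : F) (hw : OnePlusPiW (algebraMap O S ϖ) w)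
    (hrat : ∀ v : Place K F, Contains S v → v.ord w ≠ 0 → ResidueTrivial v)
    (D : Place K F →₀ ℤ) (hD : ∀ v : Place K F, Contains S v → D v = v.ord w) :
    ∃ s : S, w = algebraMap S F (1 + algebraMap O S ϖ * s) * localEq (O := O) t D := by
  classical
  obtain ⟨s, ea, eb, hea, heb, hw', hord⟩ :=
    exists_eq_unit_mul_facProd hϖ hπ hPID ht htπ w hw hrat
  refine ⟨s, ?_⟩
  rw [hw']
  congr 1
  rw [← facProd_div_facProd hϖ hπ hPID ht htπ, localEq]
  have h0 : ∀ τ : O, fac (F := F) t τ ^ (0 : ℤ) = 1 := fun _ => zpow_zero _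
  rw [← Finsupp.prod_mapDomain_index (f := paramOf (O := O) t) (h := fun τ n => fac (F := F) t τ ^ n) h0
    (fun τ _ _ => zpow_add₀ (fac_ne_zero hϖ hπ hPID ht htπ τ) _ _)]
  congr 1
  -- the two finitely supported functions on `O` agree
  ext τ
  rw [Finsupp.sub_apply, Finsupp.mapRange_apply, Finsupp.mapRange_apply]
  have hinj : Set.InjOn (paramOf (O := O) t) {v : Place K F | InDisc S v} := by
    intro v hv v' hv' hvv'
    have h1 := paramOf_spec hϖ hπ ht hv
    have h2 := paramOf_spec hϖ hπ ht hv'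
    rw [← hvv'] at h2
    exact place_eq_of_param hϖ hπ hPID ht htπ hv.1 hv'.1 h1.1 h1.2 h2.2
  have hsupp : ((discPart S D).support : Set (Place K F)) ⊆ {v : Place K F | InDisc S v} :=
    fun v hv => inDisc_of_mem_support_discPart hv
  by_cases hex : ∃ v ∈ (discPart S D).support, paramOf (O := O) t v = τ
  · obtain ⟨v, hv, rfl⟩ := hex
    have hvd : InDisc S v := inDisc_of_mem_support_discPart hv
    have hsp := paramOf_spec hϖ hπ ht hvd
    rw [Finsupp.mapDomain_apply' _ _ hsupp hinj hvd, discPart_apply D hvd, hD v hvd.1,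
      hord v hvd.1 _ hsp.1 hsp.2]
  · have hz : Finsupp.mapDomain (paramOf (O := O) t) (discPart S D) τ = 0 := by
      rw [← Finsupp.notMem_support_iff]
      intro hτ
      obtain ⟨v, hv, hvτ⟩ := Finset.mem_image.1 (Finsupp.mapDomain_support hτ)
      exact hex ⟨v, hv, hvτ⟩
    rw [hz]
    by_cases hτu : IsUnit τ
    · have h1 : ea τ = 0 := by
        rw [← Finsupp.notMem_support_iff]; exact fun h => hea τ h hτu
      have h2 : eb τ = 0 := by
        rw [← Finsupp.notMem_support_iff]; exact fun h => heb τ h hτu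
      rw [h1, h2]; simp
    · by_contra hne
      obtain ⟨v₀, hv₀, hvτ⟩ := exists_place_sub_const (K := K) (F := F) hϖ hπ hPID ht htπ hτu
      have hordv := hord v₀ hv₀ τ hτu hvτ
      have hne' : v₀.ord w ≠ 0 := by rw [hordv]; exact fun h => hne h
      have hvd : InDisc S v₀ := ⟨hv₀, hrat v₀ hv₀ hne'⟩
      apply hex
      refine ⟨v₀, ?_, paramOf_eq hϖ hπ ht hvd hvτ⟩
      rw [Finsupp.mem_support_iff, discPart_apply D hvd, hD v₀ hv₀]
      exact hne'

end PrincipalDiv

end Param

end Fermat.Agent.S19.Cech.LocalEq
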