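/-
S19 / Čech-units route, joint Č2, leaf [LEQ] part 2 (helper1; DAG v1 #2208, helper18 #2192):
**the exact local equation of a divisor at a closed point of a chart, and the lemma (LG)**.

* Layer 1 (setting of `LocalEq.lean`: `S` a two-dimensional regular local ring with parameters
  `(t, π)`): `linEq t D = ∏_{v in the disc} (t − τ_v)^{D v}` with
  `ord_{v'} (linEq t D) = (discPart S D) v'` at EVERY place `v' ⊇ S` (`ord_linEq`), the relation
  `localEq t D = linEq t D · t^{−deg}` and `localEq t D = linEq t D` for divisors of local degree `0`,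
  `IsGaussUnit` (quotients of elements of `S` prime to `π`).
* Prime avoidance (`exists_smul_mem_of_local`): `R ⊆ F` a domain, `𝔫` a prime of `R`, `g ∈ Fˣ` with
  finitely many poles and `0 ≤ ord_v g + D v` at all places containing `R_𝔫`; then there is
  `r ∈ R ∖ 𝔫` with `0 ≤ ord_P (r g) + D P` at ALL places `P ⊇ R`.
* Layer 2 (`LocalMult.ChartData`): existence of a local parameter (`ChartData.exists_param`), and
  **(LG)** `ChartData.exists_smul_linEq_mem`, `ChartData.exists_generator`.
-/
import Mathlib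
import Fermat.Agent.S19.Cech.LocalEq

set_option autoImplicit false
set_option linter.unusedSectionVars false
set_option linter.style.haveILetI false

namespace Fermat.Agent.S19.Cech.LocalEqChart

open AlgebraicCurve IsLocalRing
open Fermat.Agent.S24.PlaceDeriv (ResidueTrivial)
open Fermat.Agent.S24.PlaceExtend (mem_iff_ord_nonneg ord_pos_of_mem_nonunits mem_nonunits_of_ord_pos)
open Fermat.Agent.N4.Cover
open Fermat.Agent.N4F.C.LocalMult
open Fermat.Agent.S19.Cech.LocalEq

/-! ### Orders of products -/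

section OrdProd

variable {K F : Type*} [Field K] [Field F] [Algebra K F] (v : Place K F)

theorem ord_finset_prod {ι : Type*} (s : Finset ι) (g : ι → F) (hg : ∀ i ∈ s, g i ≠ 0) :
    v.ord (∏ i ∈ s, g i) = ∑ i ∈ s, v.ord (g i) := by
  classical
  induction s using Finset.induction_on with
  | empty => simp
  | insert a s ha ih =>
    rw [Finset.prod_insert ha, Finset.sum_insert ha,
      v.ord_mul (hg a (Finset.mem_insert_self a s))
        (Finset.prod_ne_zero_iff.2 fun i hi => hg i (Finset.mem_insert_of_mem hi)),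
      ih fun i hi => hg i (Finset.mem_insert_of_mem hi)]

theorem ord_finsupp_prod_zpow {ι : Type*} (e : ι →₀ ℤ) (f : ι → F)
    (hf : ∀ i ∈ e.support, f i ≠ 0) :
    v.ord (e.prod fun i n => f i ^ n) = e.sum fun i n => n * v.ord (f i) := by
  rw [Finsupp.prod, Finsupp.sum, ord_finset_prod v _ _ fun i hi => zpow_ne_zero _ (hf i hi)]
  exact Finset.sum_congr rfl fun i _ => v.ord_zpow _ _

theorem ord_pow (x : F) (n : ℕ) : v.ord (x ^ n) = n * v.ord x := by
  rw [← zpow_natCast, v.ord_zpow]

omit [Field K] [Algebra K F] in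
theorem zpow_finset_sum {ι : Type*} {a : F} (ha : a ≠ 0) (s : Finset ι) (n : ι → ℤ) :
    a ^ (∑ i ∈ s, n i) = ∏ i ∈ s, a ^ n i := by
  classical
  induction s using Finset.induction_on with
  | empty => simp
  | insert b s hb ih => rw [Finset.sum_insert hb, Finset.prod_insert hb, zpow_add₀ ha, ih]

end OrdProd

/-! ### Layer 1: the exact local equation -/

section Layer1

variable {O K F S : Type*}
  [CommRing O] [IsDomain O] [IsDiscreteValuationRing O]
  [Field K] [Algebra O K] [IsFractionRing O K]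
  [Field F] [Algebra K F] [Algebra O F] [IsScalarTower O K F]
  [CommRing S] [IsDomain S] [IsNoetherianRing S] [IsLocalRing S]
  [Algebra S F] [IsFractionRing S F] [Algebra O S] [IsScalarTower O S F]

variable {ϖ : O}

variable (hϖ : Irreducible ϖ) (hπ : Prime (algebraMap O S ϖ))
  (hPID : IsPrincipalIdealRing (S ⧸ Ideal.span {algebraMap O S ϖ}))
  {t : S} (ht : Ideal.span {t, algebraMap O S ϖ} = maximalIdeal S)
  (htπ : ¬ algebraMap O S ϖ ∣ t)

include hϖ hπ hPID ht htπ in
/-- The order of `t − τ` (with `τ` the parameter value of `v`) at ANY place `v' ⊇ S`, rational or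
not: `1` if `v' = v`, else `0`. -/
theorem ord_sub_param {v v' : Place K F} (hv : Contains S v) (hv' : Contains S v') {τ : O}
    (hτ : ¬ IsUnit τ)
    (h : algebraMap S F (t - algebraMap O S τ) ∈ v.toValuationSubring.nonunits)
    [Decidable (v' = v)] :
    v'.ord (algebraMap S F (t - algebraMap O S τ)) = if v' = v then 1 else 0 := by
  split_ifs with hvv
  · subst hvv
    exact ord_generator_eq_one hv' (prime_sub_const hϖ hπ hPID ht htπ hτ)
      (centre_eq_of_param hϖ hπ hPID ht htπ hv' hτ h)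
  · apply ord_eq_zero_of_not_mem_centre hv'
    rw [mem_centreIdeal_iff]
    exact fun h' => hvv (place_eq_of_param hϖ hπ hPID ht htπ hv' hv hτ h' h)

/-- **The exact local equation** of `D` at the closed point of `S`:
`∏_{v in the disc} (t − τ_v)^{D v}`. -/
noncomputable def linEq (t : S) (D : Place K F →₀ ℤ) : F :=
  (discPart S D).prod fun v n =>
    algebraMap S F (t - algebraMap O S (paramOf (O := O) t v)) ^ n

include hϖ hπ hPID ht htπ in
theorem algebraMap_sub_const_ne_zero (τ : O) :
    algebraMap S F (t - algebraMap O S τ) ≠ 0 := fun h0 =>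
  sub_const_ne_zero hϖ hπ hPID ht htπ τ (IsFractionRing.injective S F (by rw [h0, map_zero]))

include hϖ hπ hPID ht htπ in
theorem linEq_ne_zero (D : Place K F →₀ ℤ) : linEq (O := O) (F := F) t D ≠ 0 := by
  rw [linEq, Finsupp.prod_ne_zero_iff]
  exact fun v _ => zpow_ne_zero _ (algebraMap_sub_const_ne_zero hϖ hπ hPID ht htπ _)

include hϖ hπ hPID ht htπ in
theorem linEq_add (D D' : Place K F →₀ ℤ) :
    linEq (O := O) t (D + D') = linEq (O := O) (F := F) t D * linEq (O := O) t D' := by
  classical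
  rw [linEq, linEq, linEq, discPart_add]
  exact Finsupp.prod_add_index' (fun _ => zpow_zero _)
    (fun v _ _ => zpow_add₀ (algebraMap_sub_const_ne_zero hϖ hπ hPID ht htπ _) _ _)

theorem linEq_zero : linEq (O := O) (F := F) t (0 : Place K F →₀ ℤ) = 1 := by
  classical
  rw [linEq, discPart, Finsupp.filter_zero, Finsupp.prod_zero_index]

include hϖ hπ hPID ht htπ in
theorem linEq_neg (D : Place K F →₀ ℤ) :
    linEq (O := O) t (-D) = (linEq (O := O) (F := F) t D)⁻¹ := by
  have h := linEq_add hϖ hπ hPID ht htπ (F := F) D (-D)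
  rw [add_neg_cancel, linEq_zero] at h
  exact eq_inv_of_mul_eq_one_right h.symm

include hϖ hπ hPID ht htπ in
/-- **The order of the exact local equation** at every place containing `S` (rational or not) is
the coefficient of the disc part of `D`. -/
theorem ord_linEq (D : Place K F →₀ ℤ) {v' : Place K F} (hv' : Contains S v') :
    v'.ord (linEq (O := O) t D) = discPart S D v' := by
  classical
  rw [linEq, ord_finsupp_prod_zpow v' _ _ fun v _ =>
    algebraMap_sub_const_ne_zero hϖ hπ hPID ht htπ _, Finsupp.sum]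
  have hterm : ∀ v ∈ (discPart S D).support,
      discPart S D v * v'.ord (algebraMap S F (t - algebraMap O S (paramOf (O := O) t v))) =
        if v = v' then discPart S D v' else 0 := by
    intro v hv
    have hd := inDisc_of_mem_support_discPart hv
    have hs := paramOf_spec hϖ hπ ht hd
    rw [ord_sub_param hϖ hπ hPID ht htπ hd.1 hv' hs.1 hs.2]
    by_cases hvv : v' = v
    · subst hvv; simp
    · rw [if_neg hvv, if_neg (Ne.symm hvv), mul_zero]
  rw [Finset.sum_congr rfl hterm, Finset.sum_ite_eq' (discPart S D).support v']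
  split_ifs with hmem
  · rfl
  · exact (Finsupp.notMem_support_iff.1 hmem).symm

include hϖ hπ hPID ht htπ in
theorem ord_linEq_of_inDisc (D : Place K F →₀ ℤ) {v' : Place K F} (hv' : InDisc S v') :
    v'.ord (linEq (O := O) t D) = D v' := by
  rw [ord_linEq hϖ hπ hPID ht htπ D hv'.1, discPart_apply D hv']

include hϖ hπ hPID ht htπ in
theorem ord_linEq_of_not_residueTrivial (D : Place K F →₀ ℤ) {v' : Place K F}
    (hv' : Contains S v') (hres : ¬ ResidueTrivial v') :
    v'.ord (linEq (O := O) t D) = 0 := by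
  classical
  rw [ord_linEq hϖ hπ hPID ht htπ D hv', discPart]
  exact Finsupp.filter_apply_neg _ _ fun h => hres h.2

/-- The local degree of `D` at the closed point of `S`. -/
noncomputable def localDeg (S : Type*) [CommRing S] [Algebra S F] (D : Place K F →₀ ℤ) : ℤ :=
  (discPart S D).sum fun _ n => n

include hϖ hπ hPID ht htπ in
/-- `localEq t D = linEq t D · t^{−deg}`. -/
theorem localEq_eq_linEq_mul (D : Place K F →₀ ℤ) :
    localEq (O := O) (F := F) t D =
      linEq (O := O) t D * (algebraMap S F t) ^ (-(localDeg S D)) := by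
  have ht0 : t ≠ 0 := fun h => htπ (h ▸ dvd_zero _)
  have htF : algebraMap S F t ≠ 0 := fun h =>
    ht0 (IsFractionRing.injective S F (by rw [h, map_zero]))
  rw [localEq, linEq, localDeg, zpow_neg, Finsupp.sum, zpow_finset_sum htF,
    ← Finset.prod_inv_distrib, Finsupp.prod, Finsupp.prod, ← Finset.prod_mul_distrib]
  refine Finset.prod_congr rfl fun v _ => ?_
  rw [algebraMap_sub_const ht0, mul_zpow, mul_comm (algebraMap S F t ^ _), mul_assoc,
    mul_inv_cancel₀ (zpow_ne_zero _ htF), mul_one]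

include hϖ hπ hPID ht htπ in
/-- For a divisor of local degree `0` the normalised and the exact local equations agree. -/
theorem localEq_eq_linEq {D : Place K F →₀ ℤ} (hdeg : localDeg S D = 0) :
    localEq (O := O) (F := F) t D = linEq (O := O) t D := by
  rw [localEq_eq_linEq_mul hϖ hπ hPID ht htπ, hdeg, neg_zero, zpow_zero, mul_one]

include hϖ hπ hPID ht htπ in
theorem ord_localEq {D : Place K F →₀ ℤ} (hdeg : localDeg S D = 0) {v' : Place K F}
    (hv' : Contains S v') : v'.ord (localEq (O := O) t D) = discPart S D v' := by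
  rw [localEq_eq_linEq hϖ hπ hPID ht htπ hdeg, ord_linEq hϖ hπ hPID ht htπ D hv']

end Layer1

/-! ### Gauss units: quotients of elements prime to `π` -/

section Gauss

variable {S F : Type*} [CommRing S] [IsDomain S] [Field F] [Algebra S F] [IsFractionRing S F]
  {π : S}

/-- `x = a / b` with `a, b ∈ S` prime to `π`: a unit of `W = S_(π)`. -/
def IsGaussUnit (π : S) (x : F) : Prop :=
  ∃ a b : S, ¬ π ∣ a ∧ ¬ π ∣ b ∧ x * algebraMap S F b = algebraMap S F a

theorem isGaussUnit_one (hπ : Prime π) : IsGaussUnit (F := F) π 1 :=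
  ⟨1, 1, hπ.not_dvd_one, hπ.not_dvd_one, by simp⟩

theorem isGaussUnit_algebraMap (hπ : Prime π) {s : S} (hs : ¬ π ∣ s) :
    IsGaussUnit π (algebraMap S F s) :=
  ⟨s, 1, hs, hπ.not_dvd_one, by simp⟩

theorem IsGaussUnit.mul (hπ : Prime π) {x y : F} (hx : IsGaussUnit π x) (hy : IsGaussUnit π y) :
    IsGaussUnit π (x * y) := by
  obtain ⟨a, b, ha, hb, h⟩ := hx
  obtain ⟨a', b', ha', hb', h'⟩ := hy
  refine ⟨a * a', b * b', fun hd => ?_, fun hd => ?_, ?_⟩
  · exact (hπ.dvd_or_dvd hd).elim ha ha'
  · exact (hπ.dvd_or_dvd hd).elim hb hb'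
  · rw [map_mul, map_mul, ← h, ← h']; ring

theorem IsGaussUnit.ne_zero {x : F} (hx : IsGaussUnit π x) : x ≠ 0 := by
  obtain ⟨a, b, ha, _, h⟩ := hx
  rintro rfl
  rw [zero_mul] at h
  have : a = 0 := IsFractionRing.injective S F (by rw [← h, map_zero])
  exact ha (this ▸ dvd_zero π)

theorem IsGaussUnit.inv {x : F} (hx : IsGaussUnit π x) : IsGaussUnit π x⁻¹ := by
  have hx0 := hx.ne_zero
  obtain ⟨a, b, ha, hb, h⟩ := hx
  exact ⟨b, a, hb, ha, by rw [← h, ← mul_assoc, inv_mul_cancel₀ hx0, one_mul]⟩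

theorem IsGaussUnit.pow (hπ : Prime π) {x : F} (hx : IsGaussUnit π x) (n : ℕ) :
    IsGaussUnit π (x ^ n) := by
  induction n with
  | zero => rw [pow_zero]; exact isGaussUnit_one hπ
  | succ n ih => rw [pow_succ]; exact ih.mul hπ hx

theorem IsGaussUnit.zpow (hπ : Prime π) {x : F} (hx : IsGaussUnit π x) (n : ℤ) :
    IsGaussUnit π (x ^ n) := by
  cases n with
  | ofNat n => rw [Int.ofNat_eq_natCast, zpow_natCast]; exact hx.pow hπ n
  | negSucc n => rw [zpow_negSucc]; exact (hx.pow hπ _).inv

theorem isGaussUnit_finsupp_prod (hπ : Prime π) {ι : Type*} (e : ι →₀ ℤ) (f : ι → F)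
    (hf : ∀ i ∈ e.support, IsGaussUnit π (f i)) :
    IsGaussUnit π (e.prod fun i n => f i ^ n) := by
  classical
  rw [Finsupp.prod]
  exact Finset.prod_induction _ (IsGaussUnit π) (fun _ _ hx hy => hx.mul hπ hy)
    (isGaussUnit_one hπ) fun i hi => (hf i hi).zpow hπ _

/-- Elements of `1 + π W` are Gauss units. -/
theorem isGaussUnit_of_onePlusPiW {x : F} (hx : OnePlusPiW π x) :
    IsGaussUnit π x := by
  obtain ⟨a, b, hb, h⟩ := hx
  refine ⟨b + π * a, b, fun hd => hb ?_, hb, ?_⟩
  · have := dvd_sub hd (dvd_mul_right π a)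
    rwa [add_sub_cancel_right] at this
  · rw [map_add, ← h]; ring

end Gauss

section Layer1Gauss

variable {O K F S : Type*}
  [CommRing O] [IsDomain O] [IsDiscreteValuationRing O]
  [Field K] [Algebra O K] [IsFractionRing O K]
  [Field F] [Algebra K F] [Algebra O F] [IsScalarTower O K F]
  [CommRing S] [IsDomain S] [IsNoetherianRing S] [IsLocalRing S]
  [Algebra S F] [IsFractionRing S F] [Algebra O S] [IsScalarTower O S F]

variable {ϖ : O}

variable (hϖ : Irreducible ϖ) (hπ : Prime (algebraMap O S ϖ))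
  (hPID : IsPrincipalIdealRing (S ⧸ Ideal.span {algebraMap O S ϖ}))
  {t : S} (ht : Ideal.span {t, algebraMap O S ϖ} = maximalIdeal S)
  (htπ : ¬ algebraMap O S ϖ ∣ t)

include hϖ hπ ht htπ in
/-- The exact local equation is a Gauss unit. -/
theorem isGaussUnit_linEq (D : Place K F →₀ ℤ) :
    IsGaussUnit (algebraMap O S ϖ) (linEq (O := O) (F := F) t D) := by
  rw [linEq]
  exact isGaussUnit_finsupp_prod hπ _ _ fun v hv =>
    isGaussUnit_algebraMap hπ
      (not_dvd_sub_const hϖ htπ (paramOf_spec hϖ hπ ht (inDisc_of_mem_support_discPart hv)).1)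

end Layer1Gauss

/-! ### Prime avoidance: from the local ring `R_𝔫` to the chart `R` -/

section Avoid

variable {K F R : Type*} [Field K] [Field F] [Algebra K F]
  [CommRing R] [IsDomain R] [Algebra R F] [IsFractionRing R F]

/-- A place containing `R` but not the local ring `R_𝔫` kills an element of `R ∖ 𝔫`. -/
theorem exists_mem_nonunits_of_not_contains {𝔫 : Ideal R} [𝔫.IsPrime] {P : Place K F}
    (hR : ∀ x : R, algebraMap R F x ∈ P.toValuationSubring)
    (hP : ¬ Contains (Globalize.locAt (F := F) 𝔫) P) :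
    ∃ s : R, s ∉ 𝔫 ∧ algebraMap R F s ∈ P.toValuationSubring.nonunits := by
  by_contra hcon0
  have hcon : ∀ s : R, s ∉ 𝔫 → algebraMap R F s ∉ P.toValuationSubring.nonunits :=
    fun s hs h => hcon0 ⟨s, hs, h⟩
  apply hP
  intro x
  obtain ⟨a, s, hs, hx⟩ := (Globalize.mem_locAt_iff 𝔫 (x : F)).1 x.2
  have hs0 : algebraMap R F s ≠ 0 := fun h0 =>
    hs ((IsFractionRing.injective R F (by rw [h0, map_zero]) : s = 0) ▸ 𝔫.zero_mem)
  have hinv := inv_mem_of_not_mem_nonunits P (hR s) (hcon s hs)
  have : algebraMap (Globalize.locAt (F := F) 𝔫) F x =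
      algebraMap R F a * (algebraMap R F s)⁻¹ := by
    show (x : F) = _
    rw [← hx, mul_assoc, mul_inv_cancel₀ hs0, mul_one]
  rw [this]
  exact P.toValuationSubring.mul_mem _ _ (hR a) hinv

/-- **Prime avoidance.**  Let `g ≠ 0` have finitely many poles and satisfy `0 ≤ ord_v g + D v` at all
places `v` containing the local ring `R_𝔫`.  Then there is `r ∈ R ∖ 𝔫` with
`0 ≤ ord_P (r g) + D P` at ALL places `P` containing `R`. -/
theorem exists_smul_mem_of_local {𝔫 : Ideal R} [𝔫.IsPrime] (D : Place K F →₀ ℤ) {g : F}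
    (hg : g ≠ 0) (hfin : {P : Place K F | P.ord g < 0}.Finite)
    (hloc : ∀ P : Place K F, Contains (Globalize.locAt (F := F) 𝔫) P → 0 ≤ P.ord g + D P) :
    ∃ r : R, r ∉ 𝔫 ∧ ∀ P : Place K F, (∀ x : R, algebraMap R F x ∈ P.toValuationSubring) →
      0 ≤ P.ord (algebraMap R F r * g) + D P := by
  classical
  have hinj : Function.Injective (algebraMap R F) := IsFractionRing.injective R F
  -- the finite set of bad places
  set T : Finset (Place K F) := (hfin.toFinset ∪ D.support).filter fun P =>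
    (∀ x : R, algebraMap R F x ∈ P.toValuationSubring) ∧ P.ord g + D P < 0 with hT
  have hbad : ∀ P : Place K F, (∀ x : R, algebraMap R F x ∈ P.toValuationSubring) →
      P.ord g + D P < 0 → P ∈ T := by
    intro P hPR hlt
    rw [hT, Finset.mem_filter, Finset.mem_union]
    refine ⟨?_, hPR, hlt⟩
    by_cases hneg : P.ord g < 0
    · exact Or.inl (hfin.mem_toFinset.2 hneg)
    · refine Or.inr (Finsupp.mem_support_iff.2 fun h0 => ?_)
      rw [h0] at hlt
      omega
  have hex : ∀ P : Place K F, ∃ s : R, P ∈ T →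
      (s ∉ 𝔫 ∧ algebraMap R F s ∈ P.toValuationSubring.nonunits) := by
    intro P
    by_cases hPT : P ∈ T
    · rw [hT, Finset.mem_filter] at hPT
      obtain ⟨s, hs, hsP⟩ := exists_mem_nonunits_of_not_contains (𝔫 := 𝔫) hPT.2.1
        (fun hc => by have := hloc P hc; omega)
      exact ⟨s, fun _ => ⟨hs, hsP⟩⟩
    · exact ⟨1, fun h => absurd h hPT⟩
  choose s hs using hex
  set N : Place K F → ℕ := fun P => (-(P.ord g + D P)).toNat with hN
  refine ⟨∏ P ∈ T, s P ^ N P, ?_, ?_⟩
  · have : ∏ P ∈ T, s P ^ N P ∈ 𝔫.primeCompl :=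
      Submonoid.prod_mem _ fun P hP => Submonoid.pow_mem _ (hs P hP).1 _
    exact this
  · intro P hPR
    have hs0 : ∀ P' ∈ T, s P' ≠ 0 := fun P' hP' h0 => (hs P' hP').1 (h0 ▸ 𝔫.zero_mem)
    have hr0 : ∀ T' : Finset (Place K F), T' ⊆ T → (∏ P' ∈ T', s P' ^ N P') ≠ 0 :=
      fun T' hT' => Finset.prod_ne_zero_iff.2 fun P' hP' => pow_ne_zero _ (hs0 P' (hT' hP'))
    have hrF : ∀ x : R, x ≠ 0 → algebraMap R F x ≠ 0 := fun x hx h0 =>
      hx (hinj (by rw [h0, map_zero]))
    have hnn : ∀ x : R, x ≠ 0 → 0 ≤ P.ord (algebraMap R F x) := fun x hx =>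
      (mem_iff_ord_nonneg P (hrF x hx)).1 (hPR x)
    rw [P.ord_mul (hrF _ (hr0 T (Finset.Subset.refl T))) hg]
    by_cases hPT : P ∈ T
    · rw [← Finset.mul_prod_erase T _ hPT, map_mul,
        P.ord_mul (hrF _ (pow_ne_zero _ (hs0 P hPT))) (hrF _ (hr0 _ (Finset.erase_subset P T))),
        map_pow, ord_pow]
      have h1 := hnn _ (hr0 _ (Finset.erase_subset P T))
      have h2 : 1 ≤ P.ord (algebraMap R F (s P)) := by
        have := (mem_nonunits_iff_ord_pos P (hrF _ (hs0 P hPT))).1 (hs P hPT).2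
        omega
      have h3 : (N P : ℤ) ≤ (N P : ℤ) * P.ord (algebraMap R F (s P)) := by
        nlinarith [Int.natCast_nonneg (N P)]
      have h4 : -(P.ord g + D P) ≤ (N P : ℤ) := by
        rw [hN]; exact Int.self_le_toNat _
      omega
    · have h1 := hnn _ (hr0 T (Finset.Subset.refl T))
      have h2 : 0 ≤ P.ord g + D P := by
        by_contra hlt
        exact hPT (hbad P hPR (not_le.1 hlt))
      omega

end Avoid

/-! ### Layer 2: a closed point of a chart -/

section Layer2

variable {O K F R k' F' : Type*}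
  [CommRing O] [IsDomain O] [IsDiscreteValuationRing O]
  [Field K] [Algebra O K] [IsFractionRing O K]
  [Field F] [Algebra K F] [Algebra O F] [IsScalarTower O K F]
  [CommRing R] [IsDomain R] [IsNoetherianRing R] [Algebra R F] [IsFractionRing R F]
  [Algebra O R] [IsScalarTower O R F]
  [Field k'] [Field F'] [Algebra k' F']

variable {ϖ : O} {ρ : R →+* F'} {Q : Place k' F'}

include K in
/-- **A local parameter exists** at every closed point of the chart: a lift `t ∈ S = R_𝔫` of a
uniformiser of `𝒪_Q` satisfies `(t, π) = 𝔪_S` and `π ∤ t`. -/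
theorem chart_exists_param (h : ChartData ϖ ρ Q) :
    ∃ t : h.locRing F,
      Ideal.span {t, algebraMap O (h.locRing F) ϖ} = maximalIdeal (h.locRing F) ∧
        ¬ algebraMap O (h.locRing F) ϖ ∣ t := by
  obtain ⟨τ, hτ⟩ := IsDiscreteValuationRing.exists_irreducible Q.toValuationSubring
  obtain ⟨t, ht⟩ := h.rhoS_surjective K (F := F) τ
  have hker := h.ker_rhoS (F := F)
  have hπm : algebraMap O (h.locRing F) ϖ ∈ maximalIdeal (h.locRing F) :=
    (mem_maximalIdeal _).2 (h.prime_and_pid K (F := F)).1.not_isUnit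
  refine ⟨t, le_antisymm ?_ ?_, ?_⟩
  · rw [Ideal.span_le]
    rintro x (rfl | rfl)
    · rw [SetLike.mem_coe, mem_maximalIdeal, mem_nonunits_iff]
      intro hu
      exact hτ.not_isUnit (ht ▸ hu.map (h.rhoS F))
    · exact hπm
  · intro s hs
    have h1 := h.rhoS_mem_maximalIdeal hs
    rw [hτ.maximalIdeal_eq, Ideal.mem_span_singleton] at h1
    obtain ⟨c, hc⟩ := h1
    obtain ⟨s', rfl⟩ := h.rhoS_surjective K (F := F) c
    have h2 : s - t * s' ∈ RingHom.ker (h.rhoS F) := by
      rw [RingHom.mem_ker, map_sub, map_mul, ht, hc, sub_self]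
    rw [hker, Ideal.mem_span_singleton] at h2
    obtain ⟨s'', hs''⟩ := h2
    rw [Ideal.mem_span_pair]
    exact ⟨s', s'', by rw [mul_comm s'' _, ← hs'']; ring⟩
  · intro hd
    have : t ∈ RingHom.ker (h.rhoS F) := by
      rw [hker, Ideal.mem_span_singleton]; exact hd
    rw [RingHom.mem_ker, ht] at this
    exact hτ.ne_zero this

/-- Elements of the local ring as fractions of elements of the chart. -/
theorem chart_exists_num_den (h : ChartData ϖ ρ Q) (s : h.locRing F) :
    ∃ r u : R, u ∉ h.pt ∧ ρ u ≠ 0 ∧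
      algebraMap (h.locRing F) F s * algebraMap R F u = algebraMap R F r ∧
      (¬ algebraMap O (h.locRing F) ϖ ∣ s → ρ r ≠ 0) := by
  obtain ⟨r, u, hu, hx⟩ := (Globalize.mem_locAt_iff h.pt (s : F)).1 s.2
  have hρu : ρ u ≠ 0 := fun h0 => hu ((mem_closedPoint_iff ρ Q h.mem).2 (by
    rw [h0]; exact zero_mem_nonunits Q))
  refine ⟨r, u, hu, hρu, hx, fun hs hρr => hs ?_⟩
  have hr : r ∈ RingHom.ker ρ := hρr
  rw [h.ker_eq, Ideal.mem_span_singleton] at hr
  obtain ⟨r', rfl⟩ := hr
  have hu0 : algebraMap R F u ≠ 0 := fun h0 =>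
    hu ((IsFractionRing.injective R F (by rw [h0, map_zero]) : u = 0) ▸ h.pt.zero_mem)
  have hmem : algebraMap R F r' * (algebraMap R F u)⁻¹ ∈ h.locRing F :=
    (Globalize.mem_locAt_iff h.pt _).2 ⟨r', u, hu, by
      rw [mul_assoc, inv_mul_cancel₀ hu0, mul_one]⟩
  refine ⟨⟨_, hmem⟩, Subtype.ext ?_⟩
  show (s : F) = algebraMap O F ϖ * (algebraMap R F r' * (algebraMap R F u)⁻¹)
  have hx' : (s : F) * algebraMap R F u = algebraMap R F (algebraMap O R ϖ * r') := hx
  rw [map_mul, ← IsScalarTower.algebraMap_apply O R F] at hx'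
  rw [← mul_assoc, ← hx', mul_assoc, mul_inv_cancel₀ hu0, mul_one]

/-- Gauss units of the local ring are quotients of elements of the chart with nonzero
reduction. -/
theorem chart_gaussUnit (h : ChartData ϖ ρ Q) {x : F}
    (hx : IsGaussUnit (algebraMap O (h.locRing F) ϖ) x) :
    ∃ a b : R, ρ a ≠ 0 ∧ ρ b ≠ 0 ∧ x * algebraMap R F b = algebraMap R F a := by
  obtain ⟨a, b, ha, hb, hab⟩ := hx
  obtain ⟨ra, ua, _, hρua, hxa, hρra⟩ := chart_exists_num_den h a
  obtain ⟨rb, ub, _, hρub, hxb, hρrb⟩ := chart_exists_num_den h b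
  refine ⟨ra * ub, rb * ua, ?_, ?_, ?_⟩
  · rw [map_mul]; exact mul_ne_zero (hρra ha) hρub
  · rw [map_mul]; exact mul_ne_zero (hρrb hb) hρua
  · rw [map_mul, map_mul, ← hxa, ← hxb, ← hab]; ring

/-- Elements of `1 + π W` in terms of the chart. -/
theorem chart_onePlusPiW (h : ChartData ϖ ρ Q) {x : F}
    (hx : OnePlusPiW (algebraMap O (h.locRing F) ϖ) x) :
    ∃ a b : R, ρ b ≠ 0 ∧
      (x - 1) * algebraMap R F b = algebraMap R F (algebraMap O R ϖ * a) := by
  obtain ⟨a, b, hb, hab⟩ := hx
  obtain ⟨ra, ua, _, hρua, hxa, _⟩ := chart_exists_num_den h a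
  obtain ⟨rb, ub, _, hρub, hxb, hρrb⟩ := chart_exists_num_den h b
  refine ⟨ra * ub, rb * ua, ?_, ?_⟩
  · rw [map_mul]; exact mul_ne_zero (hρrb hb) hρua
  · have hπ : algebraMap (h.locRing F) F (algebraMap O (h.locRing F) ϖ) =
        algebraMap R F (algebraMap O R ϖ) := by
      rw [← IsScalarTower.algebraMap_apply O (h.locRing F) F,
        ← IsScalarTower.algebraMap_apply O R F]
    rw [map_mul] at hab
    rw [map_mul, map_mul, map_mul, ← hxa, ← hxb, ← hπ]
    linear_combination (algebraMap R F ua * algebraMap R F ub) * hab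

include K in
/-- **(LG), exact form.**  Let `𝔫` be the closed point of the chart `R` defined by `Q`, `t` a local
parameter, and `D` a divisor whose points in the residue disc of `𝔫` are rational.  Then there is
`r ∈ R ∖ 𝔫` such that `r · (linEq t D)⁻¹` satisfies `0 ≤ ord_P + D P` at ALL places `P ⊇ R`
(prime avoidance kills the finitely many stray poles). -/
theorem chart_exists_smul_linEq_mem [HasPrincipalDivisors K F] (h : ChartData ϖ ρ Q)
    {t : h.locRing F}
    (ht : Ideal.span {t, algebraMap O (h.locRing F) ϖ} = maximalIdeal (h.locRing F))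
    (htπ : ¬ algebraMap O (h.locRing F) ϖ ∣ t) (D : Place K F →₀ ℤ)
    (hrat : ∀ v ∈ D.support, Contains (h.locRing F) v → ResidueTrivial v) :
    ∃ r : R, r ∉ h.pt ∧ ∀ P : Place K F, (∀ x : R, algebraMap R F x ∈ P.toValuationSubring) →
      0 ≤ P.ord (algebraMap R F r * (linEq (O := O) t D)⁻¹) + D P := by
  classical
  obtain ⟨hπ, hPID⟩ := h.prime_and_pid K (F := F)
  have hϖ := h.irreducible
  have hg : (linEq (O := O) (F := F) t D)⁻¹ ≠ 0 :=
    inv_ne_zero (linEq_ne_zero hϖ hπ hPID ht htπ D)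
  have hfin : {P : Place K F | P.ord (linEq (O := O) (F := F) t D)⁻¹ < 0}.Finite := by
    obtain ⟨E, hE, _⟩ := HasPrincipalDivisors.exists_divisor (K := K) _ hg
    refine Set.Finite.subset E.support.finite_toSet fun P hP => ?_
    rw [Finset.mem_coe, Finsupp.mem_support_iff, hE P]
    exact ne_of_lt hP
  refine exists_smul_mem_of_local (𝔫 := h.pt) D hg hfin fun P hP => ?_
  rw [P.ord_inv, ord_linEq hϖ hπ hPID ht htπ D hP]
  by_cases hres : ResidueTrivial P
  · rw [discPart_apply D ⟨hP, hres⟩]; omega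
  · have h1 : discPart (h.locRing F) D P = 0 := by
      rw [discPart]; exact Finsupp.filter_apply_neg _ _ fun hd => hres hd.2
    have h2 : D P = 0 := by
      by_contra hne
      exact hres (hrat P (Finsupp.mem_support_iff.2 hne) hP)
    rw [h1, h2]; omega

include K in
/-- **(LG), the form consumed by [GEN].**  If moreover the local degree of `D` at the closed point
is `0`, the local generator `g` can be taken in `1 + ϖ W`:  there are `r ∈ R ∖ 𝔫` and `g` with
`g − 1 = ϖ a / b` (`a, b ∈ R`, `b` with nonzero reduction), `ord_v g = −D v` at every place in the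
residue disc, and `0 ≤ ord_P (r g) + D P` at all places `P ⊇ R`. -/
theorem chart_exists_generator [HasPrincipalDivisors K F] (h : ChartData ϖ ρ Q)
    (D : Place K F →₀ ℤ)
    (hrat : ∀ v ∈ D.support, Contains (h.locRing F) v → ResidueTrivial v)
    (hdeg : localDeg (h.locRing F) D = 0) :
    ∃ (r : R) (g : F), r ∉ h.pt ∧
      (∃ a b : R, ρ b ≠ 0 ∧
        (g - 1) * algebraMap R F b = algebraMap R F (algebraMap O R ϖ * a)) ∧
      (∀ v : Place K F, Contains (h.locRing F) v → v.ord g + D v = 0) ∧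
      ∀ P : Place K F, (∀ x : R, algebraMap R F x ∈ P.toValuationSubring) →
        0 ≤ P.ord (algebraMap R F r * g) + D P := by
  classical
  obtain ⟨hπ, hPID⟩ := h.prime_and_pid K (F := F)
  have hϖ := h.irreducible
  obtain ⟨t, ht, htπ⟩ := chart_exists_param (K := K) (F := F) h
  obtain ⟨r, hr, hrP⟩ := chart_exists_smul_linEq_mem (K := K) h ht htπ D hrat
  refine ⟨r, (linEq (O := O) t D)⁻¹, hr, ?_, fun v hv => ?_, hrP⟩
  · apply chart_onePlusPiW h
    rw [← localEq_eq_linEq hϖ hπ hPID ht htπ hdeg]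
    exact (localEq_mem hϖ hπ ht htπ D).inv
  · rw [v.ord_inv, ord_linEq hϖ hπ hPID ht htπ D hv]
    by_cases hres : ResidueTrivial v
    · rw [discPart_apply D ⟨hv, hres⟩]; omega
    · have h1 : discPart (h.locRing F) D v = 0 := by
        rw [discPart]; exact Finsupp.filter_apply_neg _ _ fun hd => hres hd.2
      have h2 : D v = 0 := by
        by_contra hne
        exact hres (hrat v (Finsupp.mem_support_iff.2 hne) hv)
      rw [h1, h2]; omega

include K in
/-- The local degree in the language of `CentredAt`. -/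
theorem chart_localDeg_eq (h : ChartData ϖ ρ Q) (D : Place K F →₀ ℤ)
    (hrat : ∀ v ∈ D.support, ResidueTrivial v) [DecidablePred (CentredAt (K := K) (F := F) O ρ Q)] :
    localDeg (h.locRing F) D = ∑ v ∈ D.support.filter (CentredAt O ρ Q), D v := by
  classical
  rw [localDeg, Finsupp.sum, discPart, Finsupp.support_filter]
  have hset : D.support.filter (InDisc (h.locRing F)) = D.support.filter (CentredAt O ρ Q) := by
    refine Finset.filter_congr fun v hv => ?_
    rw [h.centredAt_iff (hrat v hv)]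
    exact ⟨fun hd => hd.1, fun hc => ⟨hc, hrat v hv⟩⟩
  rw [← hset]
  refine Finset.sum_congr rfl fun v hv => ?_
  exact Finsupp.filter_apply_pos _ _ (Finset.mem_filter.1 hv).2

end Layer2

end Fermat.Agent.S19.Cech.LocalEqChart
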