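/-
S19 / Čech-units route, leaf [GEN] (helper13), CONCRETE part: **the line `𝓛(D)` of a divisor with
trivial reduction at a good level `K`, its generators `≡ 1`, sums and change of divisor.**

Setting: `K ⊆ ℚ̄` a level with `LevelPack A N K` (DVR `O_K = baseRing A K`, prime special fibres, full
residue field), the two charts `Rfin`, `Rinf` of `F_K = FF (Lvl K) N` with their reductions
(`LevelDiv.RhoData`, or `Formula.ChartLevel`), the Gauss ring `W_K = gaussSubalgebra` (`WK A N K`),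
`D` a divisor of `ℚ̄·F_N` with `mapDomain rC D = 0` and `K`-rational support, `D_K = levelDiv K D`,
`ϖ` any uniformiser of `O_K`.

* Kit (`W_K` = localisation of a chart at its special fibre): `exists_frac`, `mem_WK_of_frac`,
  `thetaBar_levK_mem`, `thetaFt_levK_mul/add`, `exists_eq_mul_of_thetaFt_eq_zero`
  (kernel of the reduction `= ϖ W_K`), `isGaussUnit_levK`, `exists_eq_one_add_of_thetaFt_eq_one`.
* Transfer: `ord_levK_add_nonneg` (the conditions of `ℒ(D_K)` at `restrictK P` give those of `D` at `P`).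
* Generic chart `chartAlg {t}` (`t = j` or `j⁻¹`): `exists_rho_eq_thetaFt`, **`red_of_chart`**
  (helper4/helper10's `ord_thetaFt_nonneg_of_forall` + "Dedekind chart `= ⋂ 𝒪_Q`"),
  **`exists_gen_of_chart`** (helper1's `chart_exists_generator` at every closed point + helper21's
  `ChartRed.exists_place_of_pt` + the ideal argument of `GeneratorsAbs`).
* Both charts: `red_fin`, `red_inf`, `exists_gen_fin`, `exists_gen_inf`; `charts`, **`lineOf`**
  (`RhoData` version), **`lineOfCL`** (`ChartLevel` version, no `ρ` in the signature), and the four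
  fields of `CoordOfLines.LineSys`: `exists_gens(_CL)`, `one_mem_lineOf(CL)_zero`,
  `mul_mem_lineOf(CL)_add`, `mul_mem_lineOf(CL)_of_gaussUnit`.
-/
import Mathlib
import Fermat.Agent.S19.Cech.LevelDiv
import Fermat.Agent.S19.Cech.DivModule
import Fermat.Agent.S19.Cech.GeneratorsAbs
import Fermat.Agent.S19.Cech.LocalEqChart
import Fermat.Agent.S19.Cech.IdelePlaces
import Fermat.Agent.S19.Geo.FibreRegular
import Fermat.Agent.N4F.C.LevelTheta
import Fermat.Agent.N4.S18Glue.NotField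
import Fermat.Agent.S19.Cech.GaussN4

set_option autoImplicit false
set_option linter.unusedSectionVars false
set_option linter.style.haveILetI false
set_option synthInstance.maxHeartbeats 400000
set_option maxHeartbeats 800000

open ModularCurve AlgebraicCurve
open Fermat.Agent.N4.Setting Fermat.Agent.S24
open Fermat.Agent.S24.PlaceDeriv (ResidueTrivial)

noncomputable section

namespace Fermat.Agent.S19.Cech.Generators

open Fermat.Agent.N4F.C Fermat.Agent.N4F.C.Main Fermat.Agent.N4F.C.Centre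
  Fermat.Agent.N4F.C.Levels Fermat.Agent.N4F.C.LevelCharts Fermat.Agent.N4F.C.LocalMult
  Fermat.Agent.N4F.C.Formula
  Fermat.Agent.S19.Cech.ClassDict Fermat.Agent.S19.Cech.LevelDiv
  Fermat.Agent.N4.FibreEmbedding Fermat.Agent.N4F.C.LevelTheta

section Kit

variable {A : ValuationSubring Qb} {N : ℕ} [NeZero N]
  {K : IntermediateField ℚ Qb} [IsDiscreteValuationRing ↥(baseRing A K)]

/-- The Gauss ring of the level `K` (`q`-expansion Gauss ring). -/
abbrev WK (A : ValuationSubring Qb) (N : ℕ) [NeZero N] (K : IntermediateField ℚ Qb)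
    [IsDiscreteValuationRing ↥(baseRing A K)] :
    Subalgebra ↥(baseRing A K) (FF (Lvl K) N) :=
  gaussSubalgebra (Lvl K) N (baseRing A K)

theorem Rfin_le_WK : Rfin (Lvl K) N (baseRing A K) ≤ WK A N K :=
  chartAlg_le_gaussSubalgebra (Lvl K) N (baseRing A K)
    (Set.singleton_subset_iff.mpr (jF_mem_gaussSubalgebra (Lvl K) N (baseRing A K)))

theorem Rinf_le_WK : Rinf (Lvl K) N (baseRing A K) ≤ WK A N K :=
  chartAlg_le_gaussSubalgebra (Lvl K) N (baseRing A K)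
    (Set.singleton_subset_iff.mpr (jF_inv_mem_gaussSubalgebra (Lvl K) N (baseRing A K)))

/-- Inverses of elements of the Gauss ring with nonzero reduction. -/
theorem inv_mem_WK {x : FF (Lvl K) N} (hx : x ∈ WK A N K)
    (hθ : theta (Lvl K) N (baseRing A K) ⟨x, hx⟩ ≠ 0) : x⁻¹ ∈ WK A N K := by
  rw [mem_gaussSubalgebra_iff]
  rw [theta_apply] at hθ
  have h' := Fermat.Agent.S28.Gauss.inv_mem_gaussRing_of_gaussRed_ne_zero hθ
  have hc : ((x⁻¹ : FF (Lvl K) N) : LaurentSeries (Lvl K)) =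
      ((x : FF (Lvl K) N) : LaurentSeries (Lvl K))⁻¹ := IntermediateField.coe_inv _ _
  rw [hc]
  exact h'

variable {R : Subalgebra ↥(baseRing A K) (FF (Lvl K) N)} {gen : Fb N} {ϖ : ↥(baseRing A K)}
  {ρ : ↥R →+* Ft A N}

theorem theta_ne_zero_of_rho_ne_zero (hρ : RhoData A N K R gen ϖ ρ) {x : R}
    (hx : (x : FF (Lvl K) N) ∈ WK A N K) (h : ρ x ≠ 0) :
    theta (Lvl K) N (baseRing A K) ⟨x, hx⟩ ≠ 0 := by
  intro h0
  apply h
  apply Subtype.ext
  rw [hρ.coe_rho x, thetaBar_levK A N K hx, h0, map_zero]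
  rfl

/-- A quotient `a / b` of elements of the chart with `ρ b ≠ 0` lies in the Gauss ring. -/
theorem mem_WK_of_frac (hρ : RhoData A N K R gen ϖ ρ) (hR : R ≤ WK A N K) {f : FF (Lvl K) N}
    {a b : R} (hb : ρ b ≠ 0) (h : f * (b : FF (Lvl K) N) = (a : FF (Lvl K) N)) :
    f ∈ WK A N K := by
  have hbW := hR b.2
  have hinv := inv_mem_WK hbW (theta_ne_zero_of_rho_ne_zero hρ hbW hb)
  have hb0 : (b : FF (Lvl K) N) ≠ 0 := by
    intro h0
    apply hb
    have : b = 0 := Subtype.ext h0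
    rw [this, map_zero]
  have : f = (a : FF (Lvl K) N) * (b : FF (Lvl K) N)⁻¹ := by
    rw [← h, mul_assoc, mul_inv_cancel₀ hb0, mul_one]
  rw [this]
  exact (WK A N K).mul_mem (hR a.2) hinv

theorem rho_pi (hρ : RhoData A N K R gen ϖ ρ) :
    ρ (algebraMap ↥(baseRing A K) ↥R ϖ) = 0 := by
  rw [← RingHom.mem_ker, hρ.ker_eq]
  exact Ideal.subset_span rfl

/-- **The Gauss ring is the localisation of the chart at the special fibre.** -/
theorem exists_frac (hρ : RhoData A N K R gen ϖ ρ)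
    [IsNoetherianRing ↥R] [IsFractionRing ↥R (FF (Lvl K) N)]
    {f : FF (Lvl K) N} (hf : f ∈ WK A N K) :
    ∃ a b : R, ρ b ≠ 0 ∧ f * (b : FF (Lvl K) N) = (a : FF (Lvl K) N) := by
  haveI : IsDomain ↥R := inferInstance
  rcases eq_or_ne f 0 with rfl | hf0
  · exact ⟨0, 1, by rw [map_one]; exact one_ne_zero, by simp⟩
  set p : ↥R := algebraMap ↥(baseRing A K) ↥R ϖ with hp
  have hρp : ρ p = 0 := rho_pi hρ
  have hpnu : ¬ IsUnit p := by
    intro hu
    have := hu.map ρ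
    rw [hρp] at this
    exact not_isUnit_zero this
  have hnd : ∀ z : R, ¬ p ∣ z → ρ z ≠ 0 := by
    intro z hz h0
    obtain ⟨y, hy⟩ := (hρ.rho_eq_zero_iff z).1 h0
    exact hz ⟨y, hy⟩
  obtain ⟨a, b, hb, hab⟩ := IsFractionRing.div_surjective (A := ↥R) f
  have hb0 : b ≠ 0 := nonZeroDivisors.ne_zero hb
  have hbF : (b : FF (Lvl K) N) ≠ 0 := fun h0 => hb0 (Subtype.ext h0)
  have ha0 : a ≠ 0 := by
    rintro rfl
    rw [map_zero, zero_div] at hab
    exact hf0 hab.symm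
  have hmulab : f * (b : FF (Lvl K) N) = (a : FF (Lvl K) N) := by
    rw [← hab]
    exact div_mul_cancel₀ _ hbF
  obtain ⟨m, a', ha', rfl⟩ := WfDvdMonoid.max_power_factor' ha0 hpnu
  obtain ⟨n, b', hb', rfl⟩ := WfDvdMonoid.max_power_factor' hb0 hpnu
  have hρa' := hnd a' ha'
  have hρb' := hnd b' hb'
  have hp0 : (p : FF (Lvl K) N) ≠ 0 := by
    intro h0
    apply hρ.irreducible.ne_zero
    have h2 : algebraMap ↥(baseRing A K) (FF (Lvl K) N) ϖ =
        algebraMap ↥(baseRing A K) (FF (Lvl K) N) 0 := by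
      rw [map_zero]; exact h0
    exact FaithfulSMul.algebraMap_injective ↥(baseRing A K) (FF (Lvl K) N) h2
  have hcoe : ∀ (k : ℕ) (z : R), ((p ^ k * z : ↥R) : FF (Lvl K) N) =
      (p : FF (Lvl K) N) ^ k * (z : FF (Lvl K) N) := fun k z => by
    rw [MulMemClass.coe_mul, SubmonoidClass.coe_pow]
  rw [hcoe, hcoe] at hmulab
  rcases le_or_gt n m with hnm | hnm
  · obtain ⟨d, rfl⟩ := Nat.exists_eq_add_of_le hnm
    refine ⟨p ^ d * a', b', hρb', ?_⟩
    rw [hcoe]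
    apply mul_left_cancel₀ (pow_ne_zero n hp0)
    have e : (p : FF (Lvl K) N) ^ n * (f * (b' : FF (Lvl K) N)) =
        f * ((p : FF (Lvl K) N) ^ n * (b' : FF (Lvl K) N)) := by ring
    rw [e, hmulab, pow_add, mul_assoc]
  · obtain ⟨d, rfl⟩ := Nat.exists_eq_add_of_lt hnm
    exfalso
    have h1 : f * ((p ^ (d + 1) * b' : ↥R) : FF (Lvl K) N) = (a' : FF (Lvl K) N) := by
      rw [hcoe]
      apply mul_left_cancel₀ (pow_ne_zero m hp0)
      rw [← hmulab]
      ring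
    have h2 := congrArg (fun z => N4F.C.thetaBar A N (levK N K z)) h1
    beta_reduce at h2
    rw [map_mul, N4F.C.thetaBar_mul (levK_mem_gaussSub A N K hf) (hρ.lev_gauss _),
      ← hρ.coe_rho, ← hρ.coe_rho, map_mul, map_pow, hρp, zero_pow (Nat.succ_ne_zero d),
      zero_mul] at h2
    apply hρa'
    apply Subtype.ext
    rw [← h2]
    simp

/-- The reduction of an element of the Gauss ring of the level lies in the function field of the
special fibre, and is computed by any fraction of the chart. -/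
theorem thetaBar_levK_mul (hρ : RhoData A N K R gen ϖ ρ) {f : FF (Lvl K) N} (hf : f ∈ WK A N K)
    {a b : R} (h : f * (b : FF (Lvl K) N) = (a : FF (Lvl K) N)) :
    N4F.C.thetaBar A N (levK N K f) * ((ρ b : Ft A N) : LaurentSeries (Kap A)) =
      ((ρ a : Ft A N) : LaurentSeries (Kap A)) := by
  rw [hρ.coe_rho, hρ.coe_rho, ← N4F.C.thetaBar_mul (levK_mem_gaussSub A N K hf) (hρ.lev_gauss _),
    ← map_mul, h]

theorem thetaBar_levK_mem (hρ : RhoData A N K R gen ϖ ρ)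
    [IsNoetherianRing ↥R] [IsFractionRing ↥R (FF (Lvl K) N)]
    {f : FF (Lvl K) N} (hf : f ∈ WK A N K) :
    N4F.C.thetaBar A N (levK N K f) ∈ modularFunctionFieldFullC (Kap A) N := by
  obtain ⟨a, b, hb, hab⟩ := exists_frac hρ hf
  have h1 := thetaBar_levK_mul hρ hf hab
  have hb0 : ((ρ b : Ft A N) : LaurentSeries (Kap A)) ≠ 0 := fun h0 => hb (Subtype.ext h0)
  have h2 : N4F.C.thetaBar A N (levK N K f) =
      ((ρ a : Ft A N) : LaurentSeries (Kap A)) * ((ρ b : Ft A N) : LaurentSeries (Kap A))⁻¹ := by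
    rw [← h1, mul_assoc, mul_inv_cancel₀ hb0, mul_one]
  rw [h2]
  exact mul_mem (ρ a).2 (inv_mem (ρ b).2)

theorem thetaFt_levK_mul (hρ : RhoData A N K R gen ϖ ρ)
    [IsNoetherianRing ↥R] [IsFractionRing ↥R (FF (Lvl K) N)]
    {f : FF (Lvl K) N} (hf : f ∈ WK A N K)
    {a b : R} (h : f * (b : FF (Lvl K) N) = (a : FF (Lvl K) N)) :
    thetaFt A N (levK N K f) * ρ b = ρ a := by
  rw [← hρ.thetaFt_mul_lev (levK_mem_gaussSub A N K hf) (thetaBar_levK_mem hρ hf) b, ← map_mul, h,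
    hρ.rho_eq a]

/-- `thetaFt ∘ levK` is additive on the Gauss ring of the level. -/
theorem thetaFt_levK_add (hρ : RhoData A N K R gen ϖ ρ)
    [IsNoetherianRing ↥R] [IsFractionRing ↥R (FF (Lvl K) N)]
    {f g : FF (Lvl K) N} (hf : f ∈ WK A N K) (hg : g ∈ WK A N K) :
    thetaFt A N (levK N K (f + g)) = thetaFt A N (levK N K f) + thetaFt A N (levK N K g) := by
  rw [map_add]
  exact Centre.thetaFt_add (levK_mem_gaussSub A N K hf) (levK_mem_gaussSub A N K hg)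
    (thetaBar_levK_mem hρ hf) (thetaBar_levK_mem hρ hg)

theorem thetaFt_levK_mul' (hρ : RhoData A N K R gen ϖ ρ)
    [IsNoetherianRing ↥R] [IsFractionRing ↥R (FF (Lvl K) N)]
    {f g : FF (Lvl K) N} (hf : f ∈ WK A N K) (hg : g ∈ WK A N K) :
    thetaFt A N (levK N K (f * g)) = thetaFt A N (levK N K f) * thetaFt A N (levK N K g) := by
  rw [map_mul]
  exact Centre.thetaFt_mul (levK_mem_gaussSub A N K hf) (levK_mem_gaussSub A N K hg)
    (thetaBar_levK_mem hρ hf) (thetaBar_levK_mem hρ hg)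

/-- The kernel of the reduction on the Gauss ring of the level is `ϖ W`. -/
theorem exists_eq_mul_of_thetaFt_eq_zero (hρ : RhoData A N K R gen ϖ ρ) (hR : R ≤ WK A N K)
    [IsNoetherianRing ↥R] [IsFractionRing ↥R (FF (Lvl K) N)]
    {f : FF (Lvl K) N} (hf : f ∈ WK A N K) (h0 : thetaFt A N (levK N K f) = 0) :
    ∃ r ∈ WK A N K, f = algebraMap ↥(baseRing A K) (FF (Lvl K) N) ϖ * r := by
  obtain ⟨a, b, hb, hab⟩ := exists_frac hρ hf
  have h1 := thetaFt_levK_mul hρ hf hab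
  rw [h0, zero_mul] at h1
  obtain ⟨a', rfl⟩ := (hρ.rho_eq_zero_iff a).1 h1.symm
  have hb0 : (b : FF (Lvl K) N) ≠ 0 := by
    intro h0
    apply hb
    have : b = 0 := Subtype.ext h0
    rw [this, map_zero]
  refine ⟨(a' : FF (Lvl K) N) * (b : FF (Lvl K) N)⁻¹, ?_, ?_⟩
  · exact mem_WK_of_frac hρ hR (a := a') (b := b) hb
      (by rw [mul_assoc, inv_mul_cancel₀ hb0, mul_one])
  · have : f = ((algebraMap ↥(baseRing A K) ↥R ϖ * a' : ↥R) : FF (Lvl K) N) *
        (b : FF (Lvl K) N)⁻¹ := by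
      rw [← hab, mul_assoc, mul_inv_cancel₀ hb0, mul_one]
    rw [this, MulMemClass.coe_mul, mul_assoc]
    rfl

/-- Elements of the Gauss ring of the level with nonzero reduction are Gauss units. -/
theorem isGaussUnit_levK (hρ : RhoData A N K R gen ϖ ρ)
    [IsNoetherianRing ↥R] [IsFractionRing ↥R (FF (Lvl K) N)]
    {f : FF (Lvl K) N} (hf : f ∈ WK A N K) (h0 : thetaFt A N (levK N K f) ≠ 0) :
    IsGaussUnit A N (levK N K f) := by
  refine ⟨levK_mem_gaussSub A N K hf, thetaBar_levK_mem hρ hf, fun h => h0 ?_⟩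
  apply Subtype.ext
  rw [coe_thetaFt_of_mem (thetaBar_levK_mem hρ hf), h]
  rfl

/-- `w ∈ W` with reduction `1` is `≡ 1` modulo `ϖ W`. -/
theorem exists_eq_one_add_of_thetaFt_eq_one (hρ : RhoData A N K R gen ϖ ρ) (hR : R ≤ WK A N K)
    [IsNoetherianRing ↥R] [IsFractionRing ↥R (FF (Lvl K) N)]
    {w : FF (Lvl K) N} (hw : w ∈ WK A N K) (h1 : thetaFt A N (levK N K w) = 1) :
    ∃ r ∈ WK A N K, w = 1 + algebraMap ↥(baseRing A K) (FF (Lvl K) N) ϖ * r := by
  have hneg : (-1 : FF (Lvl K) N) ∈ WK A N K := (WK A N K).neg_mem (WK A N K).one_mem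
  have h2 : thetaFt A N (levK N K (w + -1)) = 0 := by
    rw [thetaFt_levK_add hρ hw hneg, h1]
    have : thetaFt A N (levK N K (-1 : FF (Lvl K) N)) = -1 := by
      have h3 := thetaFt_levK_add hρ (WK A N K).one_mem hneg
      rw [add_neg_cancel, map_zero, Centre.thetaFt_zero, map_one, Centre.thetaFt_one] at h3
      exact (neg_eq_of_add_eq_zero_right h3.symm).symm
    rw [map_neg, map_one] at this ⊢
    rw [this, add_neg_cancel]
  obtain ⟨r, hr, hwr⟩ := exists_eq_mul_of_thetaFt_eq_zero hρ hR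
    ((WK A N K).add_mem hw hneg) h2
  exact ⟨r, hr, by rw [← hwr]; ring⟩

end Kit

/-! ### Transfer of the divisorial conditions from the level to `ℚ̄` -/

section Transfer

open Fermat.Agent.S19.Cech.DivModule

variable {A : ValuationSubring Qb} {N : ℕ} [NeZero N]
  {K : IntermediateField ℚ Qb} [IsDiscreteValuationRing ↥(baseRing A K)]

/-- The value of the push-down of `D` at the restriction of a place outside the support. -/
theorem levelDiv_restrictK_of_not_mem (D : Divisor Qb (Fb N))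
    (hrat : ∀ P ∈ D.support, ResidueTrivial (restrictK N K P)) (P : Place Qb (Fb N))
    (hP : P ∉ D.support) : levelDiv K D (restrictK N K P) = 0 := by
  by_contra hne
  obtain ⟨P', hP', h⟩ := exists_of_levelDiv_ne_zero K D hne
  have := restrictK_injective_of_residueTrivial K (hrat P' hP') h
  exact hP (this ▸ hP')

/-- **Transfer.**  If `f` satisfies the divisorial condition of `levelDiv K D` at the restriction of
`P` to the level, then `levK f` satisfies the condition of `D` at `P`. -/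
theorem ord_levK_add_nonneg (D : Divisor Qb (Fb N))
    (hrat : ∀ P ∈ D.support, ResidueTrivial (restrictK N K P))
    {W : Subalgebra ↥(baseRing A K) (FF (Lvl K) N)}
    {c : Place (Lvl K) (FF (Lvl K) N) → Prop} {f : FF (Lvl K) N} (hf0 : f ≠ 0)
    (hf : f ∈ LD W c (levelDiv K D)) (P : Place Qb (Fb N)) (hc : c (restrictK N K P)) :
    0 ≤ P.ord (levK N K f) + D P := by
  have h1 := ((mem_LD_iff_ord hf0).1 hf).2 (restrictK N K P) hc
  by_cases hP : P ∈ D.support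
  · rw [levelDiv_restrictK K D hrat P (hrat P hP)] at h1
    rw [ord_levK_restrictK N K P (hrat P hP)]
    exact h1
  · rw [levelDiv_restrictK_of_not_mem D hrat P hP, add_zero] at h1
    have h2 : D P = 0 := Finsupp.notMem_support_iff.mp hP
    rw [h2, add_zero]
    have h3 : f ∈ (restrictK N K P).toValuationSubring :=
      (mem_iff_ord_nonneg _ hf0).2 h1
    rw [mem_restrictK_iff] at h3
    have hl0 : levK N K f ≠ 0 := by
      intro h0
      exact hf0 ((levK N K).toRingHom.injective (h0.trans (map_zero _).symm))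
    exact (mem_iff_ord_nonneg P hl0).1 h3

end Transfer

/-! ### `red_p`, `red_m`: the reduction of a section lies in the reduced chart -/

section Red

open Fermat.Agent.S19.Cech.DivModule Fermat.Agent.S19.Cech.IdelePlaces
  Fermat.Agent.N4.Chart Fermat.Agent.S19.Geo.FibreRegular

variable {A : ValuationSubring Qb} {N : ℕ} [NeZero N] {ℓ : ℕ}
  (hℓ : ℓ.Prime) (hA : A.LiesOverPrime ℓ) (hℓN : ¬ ℓ ∣ N)
  {K : IntermediateField ℚ Qb} [IsDiscreteValuationRing ↥(baseRing A K)]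

section ChartRedOfRho

variable {R : Subalgebra ↥(baseRing A K) (FF (Lvl K) N)} {gen : Fb N} {ϖ : ↥(baseRing A K)}
  {ρ : ↥R →+* Ft A N}

/-- The reduction of a constant of the level. -/
theorem rho_algebraMap (hρ : RhoData A N K R gen ϖ ρ) (a : ↥(baseRing A K)) :
    ρ (algebraMap ↥(baseRing A K) ↥R a) =
      algebraMap (Kap A) (Ft A N) (iotaK A K (IsLocalRing.residue _ a)) := by
  rw [hρ.rho_eq, iotaK_residue]
  show thetaFt A N (levK N K (algebraMap ↥(baseRing A K) (FF (Lvl K) N) a)) = _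
  rw [levK_algebraMap]
  exact Centre.thetaFt_const (baseIncl A K a)

/-- The `IdelePlaces.ChartRed` structure of a level chart (the residue field of the level is the
full residue field). -/
theorem chartRed (hρ : RhoData A N K R gen ϖ ρ) (hbij : Function.Bijective (iotaK A K)) :
    ChartRed (Kap A) (algebraMap ↥(baseRing A K) ↥R ϖ) ρ where
  ker_eq := hρ.ker_eq
  dedekind := hρ.dedekind
  frac := hρ.frac
  const := fun c => by
    obtain ⟨c₀, rfl⟩ := hbij.2 c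
    obtain ⟨a₀, rfl⟩ := IsLocalRing.residue_surjective c₀
    exact ⟨algebraMap ↥(baseRing A K) ↥R a₀, rho_algebraMap hρ a₀⟩

end ChartRedOfRho

variable {t : FF (Lvl K) N} {gen : Fb N} {ϖ : ↥(baseRing A K)}
  {ρ : ↥(chartAlg ↥(baseRing A K) (FF (Lvl K) N) {t}) →+* Ft A N}

include hℓ hA hℓN in
/-- The reduction of a section of `𝓛(D)` over a chart, `D` with trivial reduction on the chart, lies
in the reduced chart. -/
theorem exists_rho_eq_thetaFt
    (hρ : RhoData A N K (chartAlg ↥(baseRing A K) (FF (Lvl K) N) {t}) gen ϖ ρ)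
    [IsNoetherianRing ↥(chartAlg ↥(baseRing A K) (FF (Lvl K) N) {t})]
    [IsFractionRing ↥(chartAlg ↥(baseRing A K) (FF (Lvl K) N) {t}) (FF (Lvl K) N)]
    (hbij : Function.Bijective (iotaK A K)) (htg : levK N K t = gen)
    (hcen : ∀ (P : Place Qb (Fb N)) (Q : Place (Kap A) (Ft A N)),
      thetaFt A N gen ∈ Q.toValuationSubring → rC hℓ hA hℓN P = Q → gen ∈ P.toValuationSubring)
    (D : Divisor Qb (Fb N))
    (hD : ∀ Q : Place (Kap A) (Ft A N), thetaFt A N gen ∈ Q.toValuationSubring →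
      Finsupp.mapDomain (rC hℓ hA hℓN) D Q = 0)
    (hrat : ∀ P ∈ D.support, ResidueTrivial (restrictK N K P))
    {f : FF (Lvl K) N} (hf : f ∈ LD (WK A N K) (InChart t) (levelDiv K D))
    (hU : thetaFt A N (levK N K f) ≠ 0) :
    ∃ x : chartAlg ↥(baseRing A K) (FF (Lvl K) N) {t}, ρ x = thetaFt A N (levK N K f) := by
  have H := chartRed hρ hbij
  haveI := H.isDedekindDomain_img
  haveI := H.isFractionRing_img
  have hfU := isGaussUnit_levK hρ hf.1 hU
  have hf0 : f ≠ 0 := by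
    rintro rfl
    apply hU
    rw [map_zero, Centre.thetaFt_zero]
  have hmem : thetaFt A N (levK N K f) ∈ H.img := by
    refine mem_of_forall_mem_place H.img _ fun Q hQ => ?_
    have hQgen : thetaFt A N gen ∈ Q.toValuationSubring := by
      have h1 := hQ (ρ (chartGen (Set.mem_singleton t))) ⟨_, rfl⟩
      rwa [hρ.rho_eq, coe_chartGen, htg] at h1
    have h2 := Fermat.Agent.S19.Geo.GaussFormula.ord_thetaFt_nonneg_of_forall hℓ hA hℓN hfU D Q
      (hD Q hQgen) (fun P hPQ => ord_levK_add_nonneg D hrat hf0 hf P (by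
        show t ∈ (restrictK N K P).toValuationSubring
        rw [mem_restrictK_iff, htg]
        exact hcen P Q hQgen hPQ))
    exact (mem_iff_ord_nonneg Q hfU.thetaFt_ne_zero).2 h2
  exact (H.mem_img_iff).1 hmem

include hℓ hA hℓN in
/-- **`red_p` / `red_m`.**  A section of `𝓛(D)` over a chart, `D` with trivial reduction on the
chart, is congruent modulo `ϖ W` to an element of the chart. -/
theorem red_of_chart
    (hρ : RhoData A N K (chartAlg ↥(baseRing A K) (FF (Lvl K) N) {t}) gen ϖ ρ)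
    [IsNoetherianRing ↥(chartAlg ↥(baseRing A K) (FF (Lvl K) N) {t})]
    [IsFractionRing ↥(chartAlg ↥(baseRing A K) (FF (Lvl K) N) {t}) (FF (Lvl K) N)]
    (hR : chartAlg ↥(baseRing A K) (FF (Lvl K) N) {t} ≤ WK A N K)
    (hbij : Function.Bijective (iotaK A K)) (htg : levK N K t = gen)
    (hcen : ∀ (P : Place Qb (Fb N)) (Q : Place (Kap A) (Ft A N)),
      thetaFt A N gen ∈ Q.toValuationSubring → rC hℓ hA hℓN P = Q → gen ∈ P.toValuationSubring)
    (D : Divisor Qb (Fb N))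
    (hD : ∀ Q : Place (Kap A) (Ft A N), thetaFt A N gen ∈ Q.toValuationSubring →
      Finsupp.mapDomain (rC hℓ hA hℓN) D Q = 0)
    (hrat : ∀ P ∈ D.support, ResidueTrivial (restrictK N K P))
    {f : FF (Lvl K) N} (hf : f ∈ LD (WK A N K) (InChart t) (levelDiv K D)) :
    ∃ b ∈ chartAlg ↥(baseRing A K) (FF (Lvl K) N) {t}, ∃ r ∈ WK A N K,
      f = b + algebraMap ↥(baseRing A K) (FF (Lvl K) N) ϖ * r := by
  by_cases hU : thetaFt A N (levK N K f) = 0
  · obtain ⟨r, hr, h⟩ := exists_eq_mul_of_thetaFt_eq_zero hρ hR hf.1 hU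
    exact ⟨0, zero_mem _, r, hr, by rw [zero_add]; exact h⟩
  · obtain ⟨x, hx⟩ := exists_rho_eq_thetaFt hℓ hA hℓN hρ hbij htg hcen D hD hrat hf hU
    have hxW : (-(x : FF (Lvl K) N)) ∈ WK A N K := (WK A N K).neg_mem (hR x.2)
    have h1 : thetaFt A N (levK N K (f + -(x : FF (Lvl K) N))) = 0 := by
      rw [thetaFt_levK_add hρ hf.1 hxW, ← hx]
      have : thetaFt A N (levK N K (-(x : FF (Lvl K) N))) = ρ (-x) := by
        rw [hρ.rho_eq]; rfl
      rw [this, map_neg, add_neg_cancel]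
    obtain ⟨r, hr, h⟩ := exists_eq_mul_of_thetaFt_eq_zero hρ hR
      ((WK A N K).add_mem hf.1 hxW) h1
    exact ⟨x, x.2, r, hr, by rw [← h]; ring⟩

/-- The level function fields have principal divisors. -/
theorem hasPrincipalDivisors_level :
    HasPrincipalDivisors (Lvl K) (FF (Lvl K) N) := by
  haveI := Fermat.Agent.N4.ModPolySetting.finiteDimensional_FF (Lvl K) N
  exact Fermat.Agent.S24.hasPrincipalDivisors (jF (Lvl K) N)

include hℓ hA hℓN in
/-- **Generators.**  If `D` has trivial reduction on the chart and `K`-rational support, `𝓛(D)` of the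
chart contains an element `≡ 1` modulo `ϖ W`. -/
theorem exists_gen_of_chart
    (hρ : RhoData A N K (chartAlg ↥(baseRing A K) (FF (Lvl K) N) {t}) gen ϖ ρ)
    [IsNoetherianRing ↥(chartAlg ↥(baseRing A K) (FF (Lvl K) N) {t})]
    [IsFractionRing ↥(chartAlg ↥(baseRing A K) (FF (Lvl K) N) {t}) (FF (Lvl K) N)]
    (hR : chartAlg ↥(baseRing A K) (FF (Lvl K) N) {t} ≤ WK A N K)
    (hbij : Function.Bijective (iotaK A K)) (htg : levK N K t = gen)
    (hnf : ¬ IsField (↥(chartAlg ↥(baseRing A K) (FF (Lvl K) N) {t}) ⧸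
      Ideal.span {algebraMap ↥(baseRing A K) ↥(chartAlg ↥(baseRing A K) (FF (Lvl K) N) {t}) ϖ}))
    (hcenAt : ∀ Q : Place (Kap A) (Ft A N), thetaFt A N gen ∈ Q.toValuationSubring →
      ∀ P : Place Qb (Fb N), ResidueTrivial (restrictK N K P) →
        (rC hℓ hA hℓN P = Q ↔ CentredAt ↥(baseRing A K) ρ Q (restrictK N K P)))
    (D : Divisor Qb (Fb N))
    (hD : ∀ Q : Place (Kap A) (Ft A N), thetaFt A N gen ∈ Q.toValuationSubring →
      Finsupp.mapDomain (rC hℓ hA hℓN) D Q = 0)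
    (hrat : ∀ P ∈ D.support, ResidueTrivial (restrictK N K P)) :
    ∃ f ∈ LD (WK A N K) (InChart t) (levelDiv K D), ∃ r ∈ WK A N K,
      f = 1 + algebraMap ↥(baseRing A K) (FF (Lvl K) N) ϖ * r := by
  classical
  have H := chartRed hρ hbij
  haveI : HasPrincipalDivisors (Lvl K) (FF (Lvl K) N) := hasPrincipalDivisors_level
  have hBW : ∀ x ∈ chartAlg ↥(baseRing A K) (FF (Lvl K) N) {t}, x ∈ WK A N K := fun x hx => hR hx
  -- the ideal of the reductions of the sections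
  let I : Ideal ↥(chartAlg ↥(baseRing A K) (FF (Lvl K) N) {t}) :=
    { carrier := {b | ∃ f ∈ LD (WK A N K) (InChart t) (levelDiv K D), ∃ r ∈ WK A N K,
        f = (b : FF (Lvl K) N) + algebraMap ↥(baseRing A K) (FF (Lvl K) N) ϖ * r}
      add_mem' := by
        rintro b b' ⟨f, hf, r, hr, h⟩ ⟨f', hf', r', hr', h'⟩
        refine ⟨f + f', add_mem hf hf', r + r', (WK A N K).add_mem hr hr', ?_⟩
        push_cast
        linear_combination h + h'
      zero_mem' := ⟨0, zero_mem _, 0, (WK A N K).zero_mem, by simp⟩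
      smul_mem' := by
        rintro c b ⟨f, hf, r, hr, h⟩
        refine ⟨(c : FF (Lvl K) N) * f, chart_mul_mem_LD t hBW c.2 hf, (c : FF (Lvl K) N) * r,
          (WK A N K).mul_mem (hBW c c.2) hr, ?_⟩
        simp only [smul_eq_mul, MulMemClass.coe_mul]
        linear_combination (c : FF (Lvl K) N) * h }
  have hI : I = ⊤ := by
    by_contra hne
    obtain ⟨𝔪, h𝔪, hle⟩ := Ideal.exists_le_maximal I hne
    have hϖ𝔪 : algebraMap ↥(baseRing A K) ↥(chartAlg ↥(baseRing A K) (FF (Lvl K) N) {t}) ϖ ∈ 𝔪 := by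
      apply hle
      refine ⟨0, zero_mem _, -1, (WK A N K).neg_mem (WK A N K).one_mem, ?_⟩
      show (0 : FF (Lvl K) N) = algebraMap ↥(baseRing A K) (FF (Lvl K) N) ϖ +
        algebraMap ↥(baseRing A K) (FF (Lvl K) N) ϖ * -1
      ring
    obtain ⟨Q, hQ, hcp⟩ := H.exists_place_of_pt ⟨𝔪, h𝔪, hϖ𝔪⟩ hnf
    have h := hρ.chartData' Q hQ
    have hQgen : thetaFt A N gen ∈ Q.toValuationSubring := by
      have h1 := hQ (chartGen (Set.mem_singleton t))
      rwa [hρ.rho_eq, coe_chartGen, htg] at h1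
    have hratK : ∀ v ∈ (levelDiv K D).support, ResidueTrivial v := by
      intro v hv
      obtain ⟨P, hP, rfl⟩ := exists_of_mem_support_levelDiv K D hv
      exact hrat P hP
    have hdeg : Fermat.Agent.S19.Cech.LocalEqChart.localDeg (h.locRing (FF (Lvl K) N))
        (levelDiv K D) = 0 := by
      rw [Fermat.Agent.S19.Cech.LocalEqChart.chart_localDeg_eq (K := Lvl K) h (levelDiv K D) hratK,
        sum_levelDiv_eq_mapDomain K (rC hℓ hA hℓN) D hrat Q _
          (fun P hP => hcenAt Q hQgen P (hrat P hP))]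
      exact hD Q hQgen
    obtain ⟨r, g, hr, ⟨a, b, hb, hab⟩, -, hP⟩ :=
      Fermat.Agent.S19.Cech.LocalEqChart.chart_exists_generator (K := Lvl K) h (levelDiv K D)
        (fun v hv _ => hratK v hv) hdeg
    apply hr
    show r ∈ closedPoint ρ Q h.mem
    have hcp' : closedPoint ρ Q h.mem = 𝔪 := hcp
    rw [hcp']
    apply hle
    -- `g = 1 + ϖ a / b`
    have hb0 : (b : FF (Lvl K) N) ≠ 0 := by
      intro h0
      apply hb
      have : b = 0 := Subtype.ext h0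
      rw [this, map_zero]
    have hab' : (g - 1) * (b : FF (Lvl K) N) =
        algebraMap ↥(baseRing A K) (FF (Lvl K) N) ϖ * (a : FF (Lvl K) N) := hab
    have hqW : (a : FF (Lvl K) N) * (b : FF (Lvl K) N)⁻¹ ∈ WK A N K :=
      mem_WK_of_frac hρ hR (a := a) (b := b) hb (by rw [mul_assoc, inv_mul_cancel₀ hb0, mul_one])
    have hg : g = 1 + algebraMap ↥(baseRing A K) (FF (Lvl K) N) ϖ *
        ((a : FF (Lvl K) N) * (b : FF (Lvl K) N)⁻¹) := by
      have : g - 1 = algebraMap ↥(baseRing A K) (FF (Lvl K) N) ϖ * (a : FF (Lvl K) N) *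
          (b : FF (Lvl K) N)⁻¹ := by
        rw [← hab', mul_assoc, mul_inv_cancel₀ hb0, mul_one]
      rw [mul_assoc] at this
      rw [← this]; ring
    have hgW : g ∈ WK A N K := by
      rw [hg]
      exact (WK A N K).add_mem (WK A N K).one_mem
        ((WK A N K).mul_mem ((WK A N K).algebraMap_mem ϖ) hqW)
    refine ⟨(r : FF (Lvl K) N) * g, ?_, (r : FF (Lvl K) N) *
      ((a : FF (Lvl K) N) * (b : FF (Lvl K) N)⁻¹), (WK A N K).mul_mem (hBW r r.2) hqW, ?_⟩
    · by_cases h0 : (r : FF (Lvl K) N) * g = 0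
      · rw [h0]; exact zero_mem _
      · rw [mem_LD_iff_ord h0]
        refine ⟨(WK A N K).mul_mem (hBW r r.2) hgW, fun P hPc => ?_⟩
        exact hP P (fun x => mem_place_of_mem_chart t hPc x.2)
    · rw [hg]; ring
  have h1 : (1 : ↥(chartAlg ↥(baseRing A K) (FF (Lvl K) N) {t})) ∈ I := by rw [hI]; trivial
  obtain ⟨f, hf, r, hr, h⟩ := h1
  exact ⟨f, hf, r, hr, by simpa using h⟩

end Red

/-! ### Divisorial modules: unit, products, change of divisor -/

section LDAlgebra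

open Fermat.Agent.S19.Cech.DivModule WithZero

variable {O K F : Type*} [CommRing O] [IsDomain O] [Field K] [Algebra O K] [IsFractionRing O K]
  [Field F] [Algebra K F] [Algebra O F] [IsScalarTower O K F]
  {W : Subalgebra O F} {c : Place K F → Prop}

theorem one_mem_LD_zero : (1 : F) ∈ LD W c (0 : Divisor K F) := by
  refine ⟨W.one_mem, fun P _ => ?_⟩
  rw [map_one, Finsupp.zero_apply, exp_zero]

theorem mul_mem_LD_add {D D' : Divisor K F} {f f' : F} (hf : f ∈ LD W c D)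
    (hf' : f' ∈ LD W c D') : f * f' ∈ LD W c (D + D') := by
  refine ⟨W.mul_mem hf.1 hf'.1, fun P hP => ?_⟩
  rw [map_mul, Finsupp.add_apply, exp_add]
  exact mul_le_mul' (hf.2 P hP) (hf'.2 P hP)

/-- Change of divisor by a principal divisor: if `ord_v w = D' v - D v` at all places, then
`w · ℒ(D') ⊆ ℒ(D)`. -/
theorem mul_mem_LD_of_ord {D D' : Divisor K F} {w : F} (hw : w ∈ W) (hw0 : w ≠ 0)
    (hord : ∀ v : Place K F, v.ord w = D' v - D v) {x : F} (hx : x ∈ LD W c D') :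
    w * x ∈ LD W c D := by
  rcases eq_or_ne x 0 with rfl | hx0
  · rw [mul_zero]; exact zero_mem _
  · rw [mem_LD_iff_ord (mul_ne_zero hw0 hx0)]
    refine ⟨W.mul_mem hw hx.1, fun v hv => ?_⟩
    have h1 := ((mem_LD_iff_ord hx0).1 hx).2 v hv
    rw [v.ord_mul hw0 hx0, hord v]
    linarith

end LDAlgebra

/-! ### The two charts of a level: `lineOf`, generators, sums, change of divisor -/

section Final

open Fermat.Agent.S19.Cech.DivModule Fermat.Agent.N4.Chart Fermat.Agent.S19.Geo.FibreRegular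
  Fermat.Agent.S19.Geo.ChartFormula Fermat.Agent.S19.Cech.Cocycle

variable {A : ValuationSubring Qb} {N : ℕ} [NeZero N] {ℓ : ℕ}
  (hℓ : ℓ.Prime) (hA : A.LiesOverPrime ℓ) (hℓN : ¬ ℓ ∣ N)
  {K : IntermediateField ℚ Qb} [IsDiscreteValuationRing ↥(baseRing A K)]
  {ϖ ϖp ϖm : ↥(baseRing A K)}
  {ρp : ↥(Rfin (Lvl K) N (baseRing A K)) →+* Ft A N}
  {ρm : ↥(Rinf (Lvl K) N (baseRing A K)) →+* Ft A N}

/-- Change of uniformiser in a congruence modulo `ϖ W`. -/
theorem change_unif (hϖ : Irreducible ϖ) {ϖ' : ↥(baseRing A K)} (hϖ' : Irreducible ϖ')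
    {x b r : FF (Lvl K) N} (hr : r ∈ WK A N K)
    (h : x = b + algebraMap ↥(baseRing A K) (FF (Lvl K) N) ϖ' * r) :
    ∃ r' ∈ WK A N K, x = b + algebraMap ↥(baseRing A K) (FF (Lvl K) N) ϖ * r' := by
  obtain ⟨u, hu⟩ := IsDiscreteValuationRing.associated_of_irreducible _ hϖ hϖ'
  refine ⟨algebraMap ↥(baseRing A K) (FF (Lvl K) N) (u : ↥(baseRing A K)) * r,
    (WK A N K).mul_mem ((WK A N K).algebraMap_mem _) hr, ?_⟩
  rw [h, ← hu, map_mul]; ring

include hℓ hA hℓN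

/-- **`red_p` at a level.** -/
theorem red_fin (hϖ : Irreducible ϖ)
    (hρp : RhoData A N K (Rfin (Lvl K) N (baseRing A K)) (N4F.C.jb N) ϖp ρp)
    [IsNoetherianRing ↥(Rfin (Lvl K) N (baseRing A K))]
    [IsFractionRing ↥(Rfin (Lvl K) N (baseRing A K)) (FF (Lvl K) N)]
    (hbij : Function.Bijective (iotaK A K)) (D : Divisor Qb (Fb N))
    (hD : Finsupp.mapDomain (rC hℓ hA hℓN) D = 0)
    (hrat : ∀ P ∈ D.support, ResidueTrivial (restrictK N K P)) :
    ∀ x ∈ Lp (WK A N K) (jF (Lvl K) N) (levelDiv K D), ∃ b ∈ Rfin (Lvl K) N (baseRing A K),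
      ∃ r ∈ WK A N K, x = b + algebraMap ↥(baseRing A K) (FF (Lvl K) N) ϖ * r := by
  intro x hx
  obtain ⟨b, hb, r, hr, h⟩ := red_of_chart hℓ hA hℓN hρp Rfin_le_WK hbij (levK_jF N K)
    (fun P Q hQ hPQ => (intAt_jb_of_rC_eq hℓ hA hℓN hQ hPQ).mem) D
    (fun Q _ => by rw [hD]; rfl) hrat hx
  obtain ⟨r', hr', h'⟩ := change_unif hϖ hρp.irreducible hr h
  exact ⟨b, hb, r', hr', h'⟩

/-- **`red_m` at a level.** -/
theorem red_inf (hϖ : Irreducible ϖ)
    (hρm : RhoData A N K (Rinf (Lvl K) N (baseRing A K)) (N4F.C.jb N)⁻¹ ϖm ρm)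
    [IsNoetherianRing ↥(Rinf (Lvl K) N (baseRing A K))]
    [IsFractionRing ↥(Rinf (Lvl K) N (baseRing A K)) (FF (Lvl K) N)]
    (hbij : Function.Bijective (iotaK A K)) (D : Divisor Qb (Fb N))
    (hD : Finsupp.mapDomain (rC hℓ hA hℓN) D = 0)
    (hrat : ∀ P ∈ D.support, ResidueTrivial (restrictK N K P)) :
    ∀ x ∈ Lm (WK A N K) (jF (Lvl K) N) (levelDiv K D), ∃ b ∈ Rinf (Lvl K) N (baseRing A K),
      ∃ r ∈ WK A N K, x = b + algebraMap ↥(baseRing A K) (FF (Lvl K) N) ϖ * r := by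
  intro x hx
  obtain ⟨b, hb, r, hr, h⟩ := red_of_chart hℓ hA hℓN hρm Rinf_le_WK hbij (levK_jF_inv N K)
    (fun P Q hQ hPQ => (mem_iff_ord_nonneg P (inv_ne_zero Centre.jb_ne_zero)).2
      (ord_jb_inv_nonneg_of_rC_eq hℓ hA hℓN hQ hPQ)) D
    (fun Q _ => by rw [hD]; rfl) hrat hx
  obtain ⟨r', hr', h'⟩ := change_unif hϖ hρm.irreducible hr h
  exact ⟨b, hb, r', hr', h'⟩

/-- **Generator on the finite chart.** -/
theorem exists_gen_fin (hϖ : Irreducible ϖ)
    (hρp : RhoData A N K (Rfin (Lvl K) N (baseRing A K)) (N4F.C.jb N) ϖp ρp)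
    [IsNoetherianRing ↥(Rfin (Lvl K) N (baseRing A K))]
    [IsFractionRing ↥(Rfin (Lvl K) N (baseRing A K)) (FF (Lvl K) N)]
    (hbij : Function.Bijective (iotaK A K)) (D : Divisor Qb (Fb N))
    (hD : Finsupp.mapDomain (rC hℓ hA hℓN) D = 0)
    (hrat : ∀ P ∈ D.support, ResidueTrivial (restrictK N K P)) :
    ∃ f ∈ Lp (WK A N K) (jF (Lvl K) N) (levelDiv K D),
      IsOne (algebraMap ↥(baseRing A K) (FF (Lvl K) N) ϖ) (WK A N K).toSubring f := by
  have hnf := Fermat.Agent.N4.S18Glue.not_isField_fibre (Lvl K) N (baseRing A K)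
    (jF_mem_gaussSubalgebra (Lvl K) N (baseRing A K))
    (Fermat.Agent.N4F.C.ChartReduction.transcendental_theta_jF (Lvl K) N (baseRing A K))
    hρp.irreducible
  obtain ⟨f, hf, r, hr, h⟩ := exists_gen_of_chart hℓ hA hℓN hρp Rfin_le_WK hbij (levK_jF N K) hnf
    (fun Q hQ P hres => rC_eq_iff_centredAt_fin hℓ hA hℓN hρp Q
      (by rwa [Centre.thetaFt_jb] at hQ) P hres) D (fun Q _ => by rw [hD]; rfl) hrat
  obtain ⟨r', hr', h'⟩ := change_unif hϖ hρp.irreducible hr h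
  exact ⟨f, hf, r', hr', h'⟩

/-- **Generator on the chart at infinity.** -/
theorem exists_gen_inf (hϖ : Irreducible ϖ)
    (hρm : RhoData A N K (Rinf (Lvl K) N (baseRing A K)) (N4F.C.jb N)⁻¹ ϖm ρm)
    [IsNoetherianRing ↥(Rinf (Lvl K) N (baseRing A K))]
    [IsFractionRing ↥(Rinf (Lvl K) N (baseRing A K)) (FF (Lvl K) N)]
    (hbij : Function.Bijective (iotaK A K)) (D : Divisor Qb (Fb N))
    (hD : Finsupp.mapDomain (rC hℓ hA hℓN) D = 0)
    (hrat : ∀ P ∈ D.support, ResidueTrivial (restrictK N K P)) :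
    ∃ f ∈ Lm (WK A N K) (jF (Lvl K) N) (levelDiv K D),
      IsOne (algebraMap ↥(baseRing A K) (FF (Lvl K) N) ϖ) (WK A N K).toSubring f := by
  have hnf := Fermat.Agent.N4.S18Glue.not_isField_fibre (Lvl K) N (baseRing A K)
    (jF_inv_mem_gaussSubalgebra (Lvl K) N (baseRing A K))
    (transcendental_theta_jF_inv A N K) hρm.irreducible
  have Hfin := Fermat.Agent.N4F.C.ChartFactsProof.chartFacts_fin hℓ hA hℓN
  have Hinf := Fermat.Agent.N4F.C.ChartFactsProof.chartFacts_inf hℓ hA hℓN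
  obtain ⟨f, hf, r, hr, h⟩ := exists_gen_of_chart hℓ hA hℓN hρm Rinf_le_WK hbij
    (levK_jF_inv N K) hnf
    (fun Q hQ P hres => rC_eq_iff_centredAt_inf hℓ hA hℓN hρm Q
      (by rwa [CentreLevel.thetaFt_jb_inv Hfin Hinf] at hQ) P hres) D
    (fun Q _ => by rw [hD]; rfl) hrat
  obtain ⟨r', hr', h'⟩ := change_unif hϖ hρm.irreducible hr h
  exact ⟨f, hf, r', hr', h'⟩

omit hℓ hA hℓN in
/-- A Gauss unit of the level with reduction `1` is `≡ 1` modulo `ϖ W`. -/
theorem isOne_of_gaussUnit (hϖ : Irreducible ϖ)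
    (hρp : RhoData A N K (Rfin (Lvl K) N (baseRing A K)) (N4F.C.jb N) ϖp ρp)
    [IsNoetherianRing ↥(Rfin (Lvl K) N (baseRing A K))]
    [IsFractionRing ↥(Rfin (Lvl K) N (baseRing A K)) (FF (Lvl K) N)]
    (w : FF (Lvl K) N) (hw : IsGaussUnit A N (levK N K w)) (hθ : thetaFt A N (levK N K w) = 1) :
    w ∈ WK A N K ∧
      IsOne (algebraMap ↥(baseRing A K) (FF (Lvl K) N) ϖ) (WK A N K).toSubring w := by
  obtain ⟨a, b, hb, -, hab⟩ := exists_chart_frac_of_gaussUnit hρp w hw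
  have hwW : w ∈ WK A N K := mem_WK_of_frac hρp Rfin_le_WK hb hab
  obtain ⟨r, hr, h⟩ := exists_eq_one_add_of_thetaFt_eq_one hρp Rfin_le_WK hwW hθ
  obtain ⟨r', hr', h'⟩ := change_unif hϖ hρp.irreducible hr h
  exact ⟨hwW, r', hr', h'⟩

omit hℓ hA hℓN in
/-- Change of divisor at the level: if `div (levK w) = D' - D` (supports `K`-rational), then
`w · ℒ(levelDiv K D') ⊆ ℒ(levelDiv K D)` for every family of conditions `c`. -/
theorem mul_mem_LD_levelDiv (D D' : Divisor Qb (Fb N))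
    (hrat : ∀ P ∈ D.support, ResidueTrivial (restrictK N K P))
    (hrat' : ∀ P ∈ D'.support, ResidueTrivial (restrictK N K P))
    {w : FF (Lvl K) N} (hwW : w ∈ WK A N K) (hw0 : w ≠ 0)
    (hdiv : ∀ P : Place Qb (Fb N), P.ord (levK N K w) = D' P - D P)
    {c : Place (Lvl K) (FF (Lvl K) N) → Prop} {x : FF (Lvl K) N}
    (hx : x ∈ LD (WK A N K) c (levelDiv K D')) : w * x ∈ LD (WK A N K) c (levelDiv K D) := by
  classical
  refine mul_mem_LD_of_ord hwW hw0 (fun v => ?_) hx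
  have h1 := levelDiv_eq_ord K (D' - D) w (fun Q => by rw [Finsupp.sub_apply, hdiv Q])
    (fun Q hQ => by
      rcases Finset.mem_union.1 (Finsupp.support_sub hQ) with h | h
      · exact hrat' Q h
      · exact hrat Q h) v
  rw [← h1, levelDiv_sub, Finsupp.sub_apply]

omit hℓ hA hℓN in
/-- The Gauss ring of a level with `LevelPack` is a `DivModule.GaussRing`. -/
theorem gaussRing_pack (P : Fermat.Agent.N4F.C.ChartFactsProof.LevelPack A N K) : GaussRing (jF (Lvl K) N) (WK A N K) :=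
  Fermat.Agent.S19.Cech.GaussN4.gaussRing_of_isPrime (Lvl K) N (baseRing A K) P.primeFin P.primeInf

omit hℓ hA hℓN in
/-- **The `Cocycle.Charts` of a level.** -/
theorem charts (P : Fermat.Agent.N4F.C.ChartFactsProof.LevelPack A N K) (hϖ : Irreducible ϖ) :
    Charts (algebraMap ↥(baseRing A K) (FF (Lvl K) N) ϖ)
      (Rfin (Lvl K) N (baseRing A K)).toSubring (Rinf (Lvl K) N (baseRing A K)).toSubring
      (Rmid (Lvl K) N (baseRing A K)).toSubring (WK A N K).toSubring :=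
  Fermat.Agent.S19.Cech.DivLine.charts (K := Lvl K) (gaussRing_pack P)
    (Fermat.Agent.N4.FFAlgebraic.transcendental_jF (Lvl K) N) hϖ.ne_zero
    (Fermat.Agent.S19.Cech.GaussN4.one_add_mul_isUnit (Lvl K) N (baseRing A K) hϖ.not_isUnit)

/-- **The line of a divisor with trivial reduction and `K`-rational support, at the level `K`:**
`Lp = ℒ₊(D_K)`, `Lm = ℒ₋(D_K)`, `L0 = ℒ₀(D_K)`, `D_K = levelDiv K D`. -/
def lineOf (P : Fermat.Agent.N4F.C.ChartFactsProof.LevelPack A N K) (hϖ : Irreducible ϖ)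
    (hρp : RhoData A N K (Rfin (Lvl K) N (baseRing A K)) (N4F.C.jb N) ϖp ρp)
    (hρm : RhoData A N K (Rinf (Lvl K) N (baseRing A K)) (N4F.C.jb N)⁻¹ ϖm ρm)
    [IsNoetherianRing ↥(Rfin (Lvl K) N (baseRing A K))]
    [IsFractionRing ↥(Rfin (Lvl K) N (baseRing A K)) (FF (Lvl K) N)]
    [IsNoetherianRing ↥(Rinf (Lvl K) N (baseRing A K))]
    [IsFractionRing ↥(Rinf (Lvl K) N (baseRing A K)) (FF (Lvl K) N)]
    (D : Divisor Qb (Fb N)) (hD : Finsupp.mapDomain (rC hℓ hA hℓN) D = 0)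
    (hrat : ∀ P ∈ D.support, ResidueTrivial (restrictK N K P)) :
    Line (algebraMap ↥(baseRing A K) (FF (Lvl K) N) ϖ)
      (Rfin (Lvl K) N (baseRing A K)).toSubring (Rinf (Lvl K) N (baseRing A K)).toSubring
      (Rmid (Lvl K) N (baseRing A K)).toSubring (WK A N K).toSubring :=
  haveI := Fermat.Agent.N4.ModPolySetting.finiteDimensional_FF (Lvl K) N
  Fermat.Agent.S19.Cech.DivLine.lineOf (K := Lvl K) (gaussRing_pack P)
    (Fermat.Agent.N4.FFAlgebraic.transcendental_jF (Lvl K) N) hϖ.ne_zero (levelDiv K D)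
    (red_fin hℓ hA hℓN hϖ hρp P.hbij D hD hrat) (red_inf hℓ hA hℓN hϖ hρm P.hbij D hD hrat)

section LineLemmas

variable (P : Fermat.Agent.N4F.C.ChartFactsProof.LevelPack A N K) (hϖ : Irreducible ϖ)
    (hρp : RhoData A N K (Rfin (Lvl K) N (baseRing A K)) (N4F.C.jb N) ϖp ρp)
    (hρm : RhoData A N K (Rinf (Lvl K) N (baseRing A K)) (N4F.C.jb N)⁻¹ ϖm ρm)
    [IsNoetherianRing ↥(Rfin (Lvl K) N (baseRing A K))]
    [IsFractionRing ↥(Rfin (Lvl K) N (baseRing A K)) (FF (Lvl K) N)]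
    [IsNoetherianRing ↥(Rinf (Lvl K) N (baseRing A K))]
    [IsFractionRing ↥(Rinf (Lvl K) N (baseRing A K)) (FF (Lvl K) N)]
    (D : Divisor Qb (Fb N)) (hD : Finsupp.mapDomain (rC hℓ hA hℓN) D = 0)
    (hrat : ∀ P ∈ D.support, ResidueTrivial (restrictK N K P))

@[simp] theorem mem_lineOf_Lp {x : FF (Lvl K) N} :
    x ∈ (lineOf hℓ hA hℓN P hϖ hρp hρm D hD hrat).Lp ↔
      x ∈ Lp (WK A N K) (jF (Lvl K) N) (levelDiv K D) := Iff.rfl

@[simp] theorem mem_lineOf_Lm {x : FF (Lvl K) N} :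
    x ∈ (lineOf hℓ hA hℓN P hϖ hρp hρm D hD hrat).Lm ↔
      x ∈ Lm (WK A N K) (jF (Lvl K) N) (levelDiv K D) := Iff.rfl

@[simp] theorem mem_lineOf_L0 {x : FF (Lvl K) N} :
    x ∈ (lineOf hℓ hA hℓN P hϖ hρp hρm D hD hrat).L0 ↔
      x ∈ L0 (WK A N K) (jF (Lvl K) N) (levelDiv K D) := Iff.rfl

/-- **`LineSys.gens`**: generators `≡ 1` on both charts. -/
theorem exists_gens :
    ∃ fp ∈ (lineOf hℓ hA hℓN P hϖ hρp hρm D hD hrat).Lp,
      ∃ fm ∈ (lineOf hℓ hA hℓN P hϖ hρp hρm D hD hrat).Lm,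
        IsOne (algebraMap ↥(baseRing A K) (FF (Lvl K) N) ϖ) (WK A N K).toSubring fp ∧
        IsOne (algebraMap ↥(baseRing A K) (FF (Lvl K) N) ϖ) (WK A N K).toSubring fm := by
  obtain ⟨fp, hfp, h1p⟩ := exists_gen_fin hℓ hA hℓN hϖ hρp P.hbij D hD hrat
  obtain ⟨fm, hfm, h1m⟩ := exists_gen_inf hℓ hA hℓN hϖ hρm P.hbij D hD hrat
  exact ⟨fp, hfp, fm, hfm, h1p, h1m⟩

/-- **`LineSys.zero`**: the line of the zero divisor contains `1` on both charts. -/
theorem one_mem_lineOf_zero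
    (h0 : Finsupp.mapDomain (rC hℓ hA hℓN) (0 : Divisor Qb (Fb N)) = 0)
    (hrat0 : ∀ P ∈ (0 : Divisor Qb (Fb N)).support, ResidueTrivial (restrictK N K P)) :
    (1 : FF (Lvl K) N) ∈ (lineOf hℓ hA hℓN P hϖ hρp hρm 0 h0 hrat0).Lp ∧
      (1 : FF (Lvl K) N) ∈ (lineOf hℓ hA hℓN P hϖ hρp hρm 0 h0 hrat0).Lm := by
  simp only [mem_lineOf_Lp, mem_lineOf_Lm, levelDiv_zero]
  exact ⟨one_mem_LD_zero, one_mem_LD_zero⟩

/-- **`LineSys.add`**: products of sections are sections of the line of the sum. -/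
theorem mul_mem_lineOf_add (D' : Divisor Qb (Fb N))
    (hD' : Finsupp.mapDomain (rC hℓ hA hℓN) D' = 0)
    (hrat' : ∀ P ∈ D'.support, ResidueTrivial (restrictK N K P))
    (hDD' : Finsupp.mapDomain (rC hℓ hA hℓN) (D + D') = 0)
    (hratDD' : ∀ P ∈ (D + D').support, ResidueTrivial (restrictK N K P)) :
    (∀ x ∈ (lineOf hℓ hA hℓN P hϖ hρp hρm D hD hrat).Lp,
      ∀ x' ∈ (lineOf hℓ hA hℓN P hϖ hρp hρm D' hD' hrat').Lp,
        x * x' ∈ (lineOf hℓ hA hℓN P hϖ hρp hρm (D + D') hDD' hratDD').Lp) ∧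
    (∀ x ∈ (lineOf hℓ hA hℓN P hϖ hρp hρm D hD hrat).Lm,
      ∀ x' ∈ (lineOf hℓ hA hℓN P hϖ hρp hρm D' hD' hrat').Lm,
        x * x' ∈ (lineOf hℓ hA hℓN P hϖ hρp hρm (D + D') hDD' hratDD').Lm) ∧
    (∀ x ∈ (lineOf hℓ hA hℓN P hϖ hρp hρm D hD hrat).L0,
      ∀ x' ∈ (lineOf hℓ hA hℓN P hϖ hρp hρm D' hD' hrat').L0,
        x * x' ∈ (lineOf hℓ hA hℓN P hϖ hρp hρm (D + D') hDD' hratDD').L0) := by
  simp only [mem_lineOf_Lp, mem_lineOf_Lm, mem_lineOf_L0, levelDiv_add]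
  exact ⟨fun x hx x' hx' => mul_mem_LD_add hx hx', fun x hx x' hx' => mul_mem_LD_add hx hx',
    fun x hx x' hx' => mul_mem_LD_add hx hx'⟩

/-- **`LineSys.indep`**: two divisors differing by the divisor of a Gauss unit `w` of the level with
reduction `1`: `w ≡ 1` modulo `ϖ W` and `w · 𝓛(D') ⊆ 𝓛(D)` on the three charts. -/
theorem mul_mem_lineOf_of_gaussUnit (D' : Divisor Qb (Fb N))
    (hD' : Finsupp.mapDomain (rC hℓ hA hℓN) D' = 0)
    (hrat' : ∀ P ∈ D'.support, ResidueTrivial (restrictK N K P))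
    (w : FF (Lvl K) N) (hw : IsGaussUnit A N (levK N K w)) (hθ : thetaFt A N (levK N K w) = 1)
    (hdiv : ∀ P : Place Qb (Fb N), P.ord (levK N K w) = D' P - D P) :
    IsOne (algebraMap ↥(baseRing A K) (FF (Lvl K) N) ϖ) (WK A N K).toSubring w ∧
    (∀ x ∈ (lineOf hℓ hA hℓN P hϖ hρp hρm D' hD' hrat').Lp,
      w * x ∈ (lineOf hℓ hA hℓN P hϖ hρp hρm D hD hrat).Lp) ∧
    (∀ x ∈ (lineOf hℓ hA hℓN P hϖ hρp hρm D' hD' hrat').Lm,
      w * x ∈ (lineOf hℓ hA hℓN P hϖ hρp hρm D hD hrat).Lm) ∧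
    (∀ x ∈ (lineOf hℓ hA hℓN P hϖ hρp hρm D' hD' hrat').L0,
      w * x ∈ (lineOf hℓ hA hℓN P hϖ hρp hρm D hD hrat).L0) := by
  obtain ⟨hwW, hone⟩ := isOne_of_gaussUnit hϖ hρp w hw hθ
  have hw0 : w ≠ 0 := by
    rintro rfl
    exact hw.ne_zero (map_zero _)
  simp only [mem_lineOf_Lp, mem_lineOf_Lm, mem_lineOf_L0]
  exact ⟨hone, fun x hx => mul_mem_LD_levelDiv D D' hrat hrat' hwW hw0 hdiv hx,
    fun x hx => mul_mem_LD_levelDiv D D' hrat hrat' hwW hw0 hdiv hx,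
    fun x hx => mul_mem_LD_levelDiv D D' hrat hrat' hwW hw0 hdiv hx⟩

end LineLemmas

/-! #### The same with the `ChartLevel` data of the two charts (no `ρ` in the signature) -/

section CL

/-- `red_p` from `ChartLevel`. -/
theorem red_fin_CL (P : Fermat.Agent.N4F.C.ChartFactsProof.LevelPack A N K) (hϖ : Irreducible ϖ)
    (hclp : ChartLevel A N K (Rfin (Lvl K) N (baseRing A K)) (RtFin A N) (N4F.C.jb N))
    (D : Divisor Qb (Fb N)) (hD : Finsupp.mapDomain (rC hℓ hA hℓN) D = 0)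
    (hrat : ∀ P ∈ D.support, ResidueTrivial (restrictK N K P)) :
    ∀ x ∈ Lp (WK A N K) (jF (Lvl K) N) (levelDiv K D), ∃ b ∈ Rfin (Lvl K) N (baseRing A K),
      ∃ r ∈ WK A N K, x = b + algebraMap ↥(baseRing A K) (FF (Lvl K) N) ϖ * r := by
  obtain ⟨ϖp, ρp, hρp⟩ := exists_rhoData hclp
  haveI := hclp.noeth
  haveI := hclp.frac
  exact red_fin hℓ hA hℓN hϖ hρp P.hbij D hD hrat

/-- `red_m` from `ChartLevel`. -/
theorem red_inf_CL (P : Fermat.Agent.N4F.C.ChartFactsProof.LevelPack A N K) (hϖ : Irreducible ϖ)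
    (hclm : ChartLevel A N K (Rinf (Lvl K) N (baseRing A K)) (RtInf A N) (N4F.C.jb N)⁻¹)
    (D : Divisor Qb (Fb N)) (hD : Finsupp.mapDomain (rC hℓ hA hℓN) D = 0)
    (hrat : ∀ P ∈ D.support, ResidueTrivial (restrictK N K P)) :
    ∀ x ∈ Lm (WK A N K) (jF (Lvl K) N) (levelDiv K D), ∃ b ∈ Rinf (Lvl K) N (baseRing A K),
      ∃ r ∈ WK A N K, x = b + algebraMap ↥(baseRing A K) (FF (Lvl K) N) ϖ * r := by
  obtain ⟨ϖm, ρm, hρm⟩ := exists_rhoData hclm
  haveI := hclm.noeth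
  haveI := hclm.frac
  exact red_inf hℓ hA hℓN hϖ hρm P.hbij D hD hrat

/-- **The line of a divisor with trivial reduction and `K`-rational support at a level `K`**, from
`LevelPack` and the `ChartLevel` data of the two charts. -/
def lineOfCL (P : Fermat.Agent.N4F.C.ChartFactsProof.LevelPack A N K) (hϖ : Irreducible ϖ)
    (hclp : ChartLevel A N K (Rfin (Lvl K) N (baseRing A K)) (RtFin A N) (N4F.C.jb N))
    (hclm : ChartLevel A N K (Rinf (Lvl K) N (baseRing A K)) (RtInf A N) (N4F.C.jb N)⁻¹)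
    (D : Divisor Qb (Fb N)) (hD : Finsupp.mapDomain (rC hℓ hA hℓN) D = 0)
    (hrat : ∀ P ∈ D.support, ResidueTrivial (restrictK N K P)) :
    Line (algebraMap ↥(baseRing A K) (FF (Lvl K) N) ϖ)
      (Rfin (Lvl K) N (baseRing A K)).toSubring (Rinf (Lvl K) N (baseRing A K)).toSubring
      (Rmid (Lvl K) N (baseRing A K)).toSubring (WK A N K).toSubring :=
  haveI := Fermat.Agent.N4.ModPolySetting.finiteDimensional_FF (Lvl K) N
  Fermat.Agent.S19.Cech.DivLine.lineOf (K := Lvl K) (gaussRing_pack P)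
    (Fermat.Agent.N4.FFAlgebraic.transcendental_jF (Lvl K) N) hϖ.ne_zero (levelDiv K D)
    (red_fin_CL hℓ hA hℓN P hϖ hclp D hD hrat) (red_inf_CL hℓ hA hℓN P hϖ hclm D hD hrat)

variable (P : Fermat.Agent.N4F.C.ChartFactsProof.LevelPack A N K) (hϖ : Irreducible ϖ)
    (hclp : ChartLevel A N K (Rfin (Lvl K) N (baseRing A K)) (RtFin A N) (N4F.C.jb N))
    (hclm : ChartLevel A N K (Rinf (Lvl K) N (baseRing A K)) (RtInf A N) (N4F.C.jb N)⁻¹)
    (D : Divisor Qb (Fb N)) (hD : Finsupp.mapDomain (rC hℓ hA hℓN) D = 0)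
    (hrat : ∀ P ∈ D.support, ResidueTrivial (restrictK N K P))

@[simp] theorem mem_lineOfCL_Lp {x : FF (Lvl K) N} :
    x ∈ (lineOfCL hℓ hA hℓN P hϖ hclp hclm D hD hrat).Lp ↔
      x ∈ Lp (WK A N K) (jF (Lvl K) N) (levelDiv K D) := Iff.rfl

@[simp] theorem mem_lineOfCL_Lm {x : FF (Lvl K) N} :
    x ∈ (lineOfCL hℓ hA hℓN P hϖ hclp hclm D hD hrat).Lm ↔
      x ∈ Lm (WK A N K) (jF (Lvl K) N) (levelDiv K D) := Iff.rfl

@[simp] theorem mem_lineOfCL_L0 {x : FF (Lvl K) N} :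
    x ∈ (lineOfCL hℓ hA hℓN P hϖ hclp hclm D hD hrat).L0 ↔
      x ∈ L0 (WK A N K) (jF (Lvl K) N) (levelDiv K D) := Iff.rfl

/-- **`LineSys.gens`.** -/
theorem exists_gens_CL :
    ∃ fp ∈ (lineOfCL hℓ hA hℓN P hϖ hclp hclm D hD hrat).Lp,
      ∃ fm ∈ (lineOfCL hℓ hA hℓN P hϖ hclp hclm D hD hrat).Lm,
        IsOne (algebraMap ↥(baseRing A K) (FF (Lvl K) N) ϖ) (WK A N K).toSubring fp ∧
        IsOne (algebraMap ↥(baseRing A K) (FF (Lvl K) N) ϖ) (WK A N K).toSubring fm := by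
  obtain ⟨ϖp, ρp, hρp⟩ := exists_rhoData hclp
  obtain ⟨ϖm, ρm, hρm⟩ := exists_rhoData hclm
  haveI := hclp.noeth
  haveI := hclp.frac
  haveI := hclm.noeth
  haveI := hclm.frac
  obtain ⟨fp, hfp, h1p⟩ := exists_gen_fin hℓ hA hℓN hϖ hρp P.hbij D hD hrat
  obtain ⟨fm, hfm, h1m⟩ := exists_gen_inf hℓ hA hℓN hϖ hρm P.hbij D hD hrat
  exact ⟨fp, hfp, fm, hfm, h1p, h1m⟩

/-- **`LineSys.zero`.** -/
theorem one_mem_lineOfCL_zero
    (h0 : Finsupp.mapDomain (rC hℓ hA hℓN) (0 : Divisor Qb (Fb N)) = 0)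
    (hrat0 : ∀ P ∈ (0 : Divisor Qb (Fb N)).support, ResidueTrivial (restrictK N K P)) :
    (1 : FF (Lvl K) N) ∈ (lineOfCL hℓ hA hℓN P hϖ hclp hclm 0 h0 hrat0).Lp ∧
      (1 : FF (Lvl K) N) ∈ (lineOfCL hℓ hA hℓN P hϖ hclp hclm 0 h0 hrat0).Lm := by
  simp only [mem_lineOfCL_Lp, mem_lineOfCL_Lm, levelDiv_zero]
  exact ⟨one_mem_LD_zero, one_mem_LD_zero⟩

/-- **`LineSys.add`.** -/
theorem mul_mem_lineOfCL_add (D' : Divisor Qb (Fb N))
    (hD' : Finsupp.mapDomain (rC hℓ hA hℓN) D' = 0)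
    (hrat' : ∀ P ∈ D'.support, ResidueTrivial (restrictK N K P))
    (hDD' : Finsupp.mapDomain (rC hℓ hA hℓN) (D + D') = 0)
    (hratDD' : ∀ P ∈ (D + D').support, ResidueTrivial (restrictK N K P)) :
    (∀ x ∈ (lineOfCL hℓ hA hℓN P hϖ hclp hclm D hD hrat).Lp,
      ∀ x' ∈ (lineOfCL hℓ hA hℓN P hϖ hclp hclm D' hD' hrat').Lp,
        x * x' ∈ (lineOfCL hℓ hA hℓN P hϖ hclp hclm (D + D') hDD' hratDD').Lp) ∧
    (∀ x ∈ (lineOfCL hℓ hA hℓN P hϖ hclp hclm D hD hrat).Lm,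
      ∀ x' ∈ (lineOfCL hℓ hA hℓN P hϖ hclp hclm D' hD' hrat').Lm,
        x * x' ∈ (lineOfCL hℓ hA hℓN P hϖ hclp hclm (D + D') hDD' hratDD').Lm) ∧
    (∀ x ∈ (lineOfCL hℓ hA hℓN P hϖ hclp hclm D hD hrat).L0,
      ∀ x' ∈ (lineOfCL hℓ hA hℓN P hϖ hclp hclm D' hD' hrat').L0,
        x * x' ∈ (lineOfCL hℓ hA hℓN P hϖ hclp hclm (D + D') hDD' hratDD').L0) := by
  simp only [mem_lineOfCL_Lp, mem_lineOfCL_Lm, mem_lineOfCL_L0, levelDiv_add]
  exact ⟨fun x hx x' hx' => mul_mem_LD_add hx hx', fun x hx x' hx' => mul_mem_LD_add hx hx',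
    fun x hx x' hx' => mul_mem_LD_add hx hx'⟩

/-- **`LineSys.indep`.** -/
theorem mul_mem_lineOfCL_of_gaussUnit (D' : Divisor Qb (Fb N))
    (hD' : Finsupp.mapDomain (rC hℓ hA hℓN) D' = 0)
    (hrat' : ∀ P ∈ D'.support, ResidueTrivial (restrictK N K P))
    (w : FF (Lvl K) N) (hw : IsGaussUnit A N (levK N K w)) (hθ : thetaFt A N (levK N K w) = 1)
    (hdiv : ∀ P : Place Qb (Fb N), P.ord (levK N K w) = D' P - D P) :
    IsOne (algebraMap ↥(baseRing A K) (FF (Lvl K) N) ϖ) (WK A N K).toSubring w ∧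
    (∀ x ∈ (lineOfCL hℓ hA hℓN P hϖ hclp hclm D' hD' hrat').Lp,
      w * x ∈ (lineOfCL hℓ hA hℓN P hϖ hclp hclm D hD hrat).Lp) ∧
    (∀ x ∈ (lineOfCL hℓ hA hℓN P hϖ hclp hclm D' hD' hrat').Lm,
      w * x ∈ (lineOfCL hℓ hA hℓN P hϖ hclp hclm D hD hrat).Lm) ∧
    (∀ x ∈ (lineOfCL hℓ hA hℓN P hϖ hclp hclm D' hD' hrat').L0,
      w * x ∈ (lineOfCL hℓ hA hℓN P hϖ hclp hclm D hD hrat).L0) := by
  obtain ⟨ϖp, ρp, hρp⟩ := exists_rhoData hclp
  haveI := hclp.noeth
  haveI := hclp.frac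
  obtain ⟨hwW, hone⟩ := isOne_of_gaussUnit hϖ hρp w hw hθ
  have hw0 : w ≠ 0 := by
    rintro rfl
    exact hw.ne_zero (map_zero _)
  simp only [mem_lineOfCL_Lp, mem_lineOfCL_Lm, mem_lineOfCL_L0]
  exact ⟨hone, fun x hx => mul_mem_LD_levelDiv D D' hrat hrat' hwW hw0 hdiv hx,
    fun x hx => mul_mem_LD_levelDiv D D' hrat hrat' hwW hw0 hdiv hx,
    fun x hx => mul_mem_LD_levelDiv D D' hrat hrat' hwW hw0 hdiv hx⟩

end CL

end Final

end Fermat.Agent.S19.Cech.Generators
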