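/-
S19, Čech route, leaf [H90] (helper4; dispatch v2 of helper22): **(Z2) at a FIXED level.**

`ClassDict.exists_gauss_unit_of_rep` (Z2) produces, for two zero-reduction representatives `D, D'` of
the same class, a Gauss unit `w̄ ∈ Fb N` (over `ℚ̄`) with `thetaFt w̄ = 1` and `div w̄ = D - D'`.
`CoordOfLines.LineSys.indep` needs the function AT THE LEVEL `K` over which the supports of `D, D'`
are rational.  No Hilbert 90 is needed:

* `gal_smul_place_eq_of_residueTrivial` : an automorphism `σ` of `ℚ̄` fixing `K` fixes every place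
  of `Fb N` whose restriction to `F_K` is rational (unique extension);
* `ord_gal_smul_eq` : hence `σ • w` and `w` have the same divisor when the zeros and poles of `w`
  are `K`-rational;
* `exists_const_mul_levK` : such a `w` is `c · levK w₁` with `c ∈ ℚ̄ˣ`, `w₁ ∈ F_K` (normalise the
  LEADING `q`-coefficient to `1`; then `σ • w = w` for all `σ` fixing `K`, so the coefficients lie
  in `K`, and `Rational.mem_range_levK_of_coeff_mem` applies).  True for EVERY subfield `K`;
* `mem_of_const_mem_gaussSub`, `exists_unit_of_isGaussUnit_const` : a constant Gauss unit is a unit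
  of `A`;
* **`exists_gauss_unit_of_rep_level`** : at a level `K` with the chart data `ChartLevel` of ONE chart
  and residue field onto `κ(A)`, the constant is absorbed: `w₁ = ϖ^k · a'/b'` with `ρ a', ρ b' ≠ 0`,
  `c ϖ^k ∈ Aˣ`, and dividing by a lift `u ∈ O_Kˣ` of its residue gives `w_K ∈ F_K` with
  `levK w_K` a Gauss unit, `thetaFt (levK w_K) = 1`, `div_K w_K = levelDiv K D - levelDiv K D'`.

REMARK (why the level hypotheses).  The constant `q`-coefficient cannot be used for the
normalisation: a Gauss unit with reduction `1` need not have an `A`-integral `q`-expansion (zeros and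
poles in the residue disc of the cusp `∞`: `(q - a)/(q - b)`, `0 < |a|, |b| < 1`).  With the leading
coefficient the remaining constant `c` has to be compared with `K`, which needs the value group and
the residue field of the Gauss valuation of `F_K`, i.e. the chart data of a good level.
-/
import Mathlib
import Fermat.Agent.S19.Cech.LevelDiv
import Fermat.Agent.S36.Descent.Rational
import Fermat.Agent.P3G.LevelDescent

set_option autoImplicit false
set_option linter.unusedSectionVars false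
set_option linter.style.haveILetI false
set_option synthInstance.maxHeartbeats 400000
set_option maxHeartbeats 800000

open ModularCurve AlgebraicCurve
open Fermat.Agent.N4.Setting Fermat.Agent.S24
open Fermat.Agent.S24.PlaceDeriv (ResidueTrivial)

noncomputable section

namespace Fermat.Agent.S19.Cech.ClassDictLevel

open Fermat.Agent.N4F.C Fermat.Agent.N4F.C.Main Fermat.Agent.N4F.C.Centre
  Fermat.Agent.N4F.C.Levels Fermat.Agent.N4F.C.LevelCharts Fermat.Agent.N4F.C.Formula
  Fermat.Agent.S19.Cech.ClassDict Fermat.Agent.S19.Cech.LevelDiv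

local notation "Γ" => (AlgebraicClosure ℚ ≃ₐ[ℚ] AlgebraicClosure ℚ)

/-! ### Automorphisms fixing the level fix the rational places -/

section Descent

variable {N : ℕ} [NeZero N] (K : IntermediateField ℚ Qb)

/-- An automorphism of `ℚ̄` fixing `K` pointwise fixes `levK (F_K)`. -/
theorem gal_smul_levK {σ : Γ} (hσ : ∀ c ∈ K, σ c = c) (f : FF (Lvl K) N) :
    Galois.gal N σ • levK N K f = levK N K f :=
  arithmeticGalois_smul_lev N (Lvl K) σ (fun a => hσ _ (Lvl.algebraMap_mem K a)) f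

/-- **An automorphism of `ℚ̄` fixing `K` fixes the `K`-rational places** (unique extension). -/
theorem gal_smul_place_eq_of_residueTrivial {σ : Γ} (hσ : ∀ c ∈ K, σ c = c)
    {P : Place Qb (Fb N)} (hP : ResidueTrivial (restrictK N K P)) :
    Galois.gal N σ • P = P := by
  have hint : Fermat.Agent.P3G.LevelDescent.Intertwines (levK N K)
      (1 : SemilinearAut (Lvl K) (FF (Lvl K) N)) (Galois.gal N σ) := by
    intro y
    rw [one_smul]
    exact (gal_smul_levK K hσ y).symm
  have h1 := Fermat.Agent.P3G.LevelDescent.extends_smul hint (extends_restrictK N K P)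
  rw [one_smul] at h1
  exact (existsUnique_extendsK N K hP).unique h1 (extends_restrictK N K P)

/-- If the zeros and poles of `w` are `K`-rational, then `σ • w` has the same divisor as `w` for
every `σ` fixing `K`. -/
theorem ord_gal_smul_eq {σ : Γ} (hσ : ∀ c ∈ K, σ c = c) {w : Fb N}
    (hrat : ∀ P : Place Qb (Fb N), P.ord w ≠ 0 → ResidueTrivial (restrictK N K P))
    (P : Place Qb (Fb N)) : P.ord (Galois.gal N σ • w) = P.ord w := by
  set g := Galois.gal N σ with hg
  have h1 : P.ord (g • w) = (g⁻¹ • P).ord w := by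
    have := SemilinearAut.ord_smul g (g⁻¹ • P) w
    rwa [smul_inv_smul] at this
  rw [h1]
  by_cases hP : P.ord w = 0
  · rw [hP]
    by_contra hne
    have h2 := gal_smul_place_eq_of_residueTrivial K hσ (hrat _ hne)
    rw [← hg, smul_inv_smul] at h2
    rw [← h2] at hne
    exact hne hP
  · have h2 := gal_smul_place_eq_of_residueTrivial K hσ (hrat P hP)
    rw [← hg] at h2
    have h3 : g⁻¹ • P = P := by
      conv_lhs => rw [← h2]
      rw [inv_smul_smul]
    rw [h3]

/-! ### Descent of functions with rational divisor -/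

theorem coe_const_mul (c : Qb) (w : Fb N) (n : ℤ) :
    ((algebraMap Qb (Fb N) c * w : Fb N) : LaurentSeries Qb).coeff n =
      c * (w : LaurentSeries Qb).coeff n := by
  rw [MulMemClass.coe_mul, coe_algebraMap_Fb, algebraMap_laurentSeries_eq_single,
    HahnSeries.coeff_single_zero_mul]

theorem coeff_gal_smul (σ : Γ) (w : Fb N) (n : ℤ) :
    ((Galois.gal N σ • w : Fb N) : LaurentSeries Qb).coeff n = σ ((w : LaurentSeries Qb).coeff n) := by
  rw [Galois.coe_gal_smul]
  rfl

/-- A function whose leading `q`-coefficient is `1` and whose zeros and poles are `K`-rational is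
fixed by every automorphism of `ℚ̄` fixing `K`. -/
theorem gal_smul_eq_self_of_leading {σ : Γ} (hσ : ∀ c ∈ K, σ c = c) {w : Fb N} (hw : w ≠ 0)
    (hrat : ∀ P : Place Qb (Fb N), P.ord w ≠ 0 → ResidueTrivial (restrictK N K P))
    {n₀ : ℤ} (hn₀ : (w : LaurentSeries Qb).coeff n₀ = 1) : Galois.gal N σ • w = w := by
  set g := Galois.gal N σ with hg
  have hgw : g • w ≠ 0 := by
    intro h0
    apply hw
    have := congrArg (fun x => g⁻¹ • x) h0
    simpa using this
  have hquot : g • w * w⁻¹ ≠ 0 := mul_ne_zero hgw (inv_ne_zero hw)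
  obtain ⟨d, hd0, hd⟩ := Fermat.Agent.P3G.LevelDescent.exists_const_of_forall_ord_eq_zero N hquot
    (fun P => by
      rw [P.ord_mul hgw (inv_ne_zero hw), P.ord_inv, ord_gal_smul_eq K hσ hrat P, add_neg_cancel])
  have h1 : g • w = algebraMap Qb (Fb N) d * w := by
    rw [← hd, mul_assoc, inv_mul_cancel₀ hw, mul_one]
  have h2 : ((g • w : Fb N) : LaurentSeries Qb).coeff n₀ =
      ((algebraMap Qb (Fb N) d * w : Fb N) : LaurentSeries Qb).coeff n₀ := by rw [h1]
  rw [coeff_gal_smul, coe_const_mul, hn₀, map_one, mul_one] at h2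
  rw [h1, ← h2, map_one, one_mul]

/-- **Descent of functions with rational divisor** (no Hilbert 90): a function of `ℚ̄ · F_N` whose
zeros and poles are `K`-rational is a constant times a function of the level `K`.  Valid for every
subfield `K` of `ℚ̄`. -/
theorem exists_const_mul_levK {w : Fb N} (hw : w ≠ 0)
    (hrat : ∀ P : Place Qb (Fb N), P.ord w ≠ 0 → ResidueTrivial (restrictK N K P)) :
    ∃ (c : Qb) (w₁ : FF (Lvl K) N), c ≠ 0 ∧ w₁ ≠ 0 ∧
      w = algebraMap Qb (Fb N) c * levK N K w₁ := by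
  have hw' : (w : LaurentSeries Qb) ≠ 0 := fun h => hw (Subtype.ext h)
  set n₀ := (w : LaurentSeries Qb).order with hn₀
  set c₀ := (w : LaurentSeries Qb).coeff n₀ with hc₀
  have hc₀0 : c₀ ≠ 0 := fun h => hw' (HahnSeries.coeff_order_eq_zero.mp h)
  set w' : Fb N := algebraMap Qb (Fb N) c₀⁻¹ * w with hw'def
  have hcu : algebraMap Qb (Fb N) c₀⁻¹ ≠ 0 := by
    rw [Ne, map_eq_zero]
    exact inv_ne_zero hc₀0
  have hw'0 : w' ≠ 0 := mul_ne_zero hcu hw
  have hlead : (w' : LaurentSeries Qb).coeff n₀ = 1 := by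
    rw [hw'def, coe_const_mul, ← hc₀, inv_mul_cancel₀ hc₀0]
  have hrat' : ∀ P : Place Qb (Fb N), P.ord w' ≠ 0 → ResidueTrivial (restrictK N K P) := by
    intro P hP
    apply hrat P
    rwa [hw'def, P.ord_mul hcu hw, Fermat.Agent.S24.Hurwitz.ord_algebraMap P (inv_ne_zero hc₀0),
      zero_add] at hP
  have hcoeff : ∀ n : ℤ, (w' : LaurentSeries Qb).coeff n ∈ K := by
    intro n
    obtain ⟨a, ha⟩ := hasFixedField_intermediateField K ((w' : LaurentSeries Qb).coeff n)
      (fun σ hσ => by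
        have hσ' : ∀ c ∈ K, σ c = c := fun c hc => hσ ⟨c, hc⟩
        have h1 := gal_smul_eq_self_of_leading K hσ' hw'0 hrat' hlead
        have h2 : ((Galois.gal N σ • w' : Fb N) : LaurentSeries Qb).coeff n =
            (w' : LaurentSeries Qb).coeff n := by rw [h1]
        rwa [coeff_gal_smul] at h2)
    rw [← ha]
    exact a.2
  obtain ⟨w₁, hw₁⟩ := Fermat.Agent.S36.Descent.Rational.mem_range_levK_of_coeff_mem N K w' hcoeff
  refine ⟨c₀, w₁, hc₀0, ?_, ?_⟩
  · rintro rfl
    rw [map_zero] at hw₁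
    exact hw'0 hw₁.symm
  · rw [hw₁, hw'def, ← mul_assoc, ← map_mul, mul_inv_cancel₀ hc₀0, map_one, one_mul]

end Descent

/-! ### Constant Gauss units -/

section ConstGauss

variable {A : ValuationSubring Qb} {N : ℕ} [NeZero N]

/-- A constant of the Gauss ring lies in `A`. -/
theorem mem_of_const_mem_gaussSub {c : Qb} (h : algebraMap Qb (Fb N) c ∈ gaussSub A N) : c ∈ A := by
  rw [mem_gaussSub_iff, coe_algebraMap_Fb] at h
  obtain ⟨a, b, hb, hx⟩ := h
  obtain ⟨n, hn⟩ : ∃ n, (GaussBar.redBar ↥A b).coeff n ≠ 0 := by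
    by_contra hcon
    push Not at hcon
    exact hb (HahnSeries.ext (funext hcon))
  rw [GaussBar.redBar_coeff] at hn
  have hunit : IsUnit (b.coeff n) := by
    by_contra hnu
    exact hn ((IsLocalRing.residue_eq_zero_iff _).mpr ((IsLocalRing.mem_maximalIdeal _).mpr hnu))
  have h2 : (algebraMap Qb (LaurentSeries Qb) c * GaussBar.embBar ↥A Qb b).coeff n =
      (GaussBar.embBar ↥A Qb a).coeff n := by rw [hx]
  rw [algebraMap_laurentSeries_eq_single, HahnSeries.coeff_single_zero_mul, GaussBar.embBar_coeff,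
    GaussBar.embBar_coeff] at h2
  obtain ⟨u, hu⟩ := hunit
  have hu0 : ((u : ↥A) : Qb) ≠ 0 := by
    intro h0
    have : (u : ↥A) = 0 := Subtype.ext h0
    exact u.ne_zero this
  have h3 : c = ((a.coeff n * ((u⁻¹ : (↥A)ˣ) : ↥A) : ↥A) : Qb) := by
    have h4 : ((u : ↥A) : Qb) * (((u⁻¹ : (↥A)ˣ) : ↥A) : Qb) = 1 := by
      rw [← MulMemClass.coe_mul, Units.mul_inv]
      rfl
    have h5 : c * ((u : ↥A) : Qb) = ((a.coeff n : ↥A) : Qb) := by
      rw [hu]; exact h2
    rw [MulMemClass.coe_mul, ← h5, mul_assoc, h4, mul_one]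
  rw [h3]
  exact (a.coeff n * ((u⁻¹ : (↥A)ˣ) : ↥A) : ↥A).2

/-- A constant Gauss unit is a unit of `A`. -/
theorem exists_unit_of_isGaussUnit_const {c : Qb}
    (h : IsGaussUnit A N (algebraMap Qb (Fb N) c)) :
    ∃ a : ↥A, (a : Qb) = c ∧ IsLocalRing.residue ↥A a ≠ 0 := by
  have hc := mem_of_const_mem_gaussSub h.1
  refine ⟨⟨c, hc⟩, rfl, fun h0 => h.2.2 ?_⟩
  have := thetaBar_const (A := A) (N := N) ⟨c, hc⟩
  rw [h0, map_zero] at this
  exact this

end ConstGauss

/-! ### A function of a good level is `ϖ^k` times a quotient of chart elements prime to `ϖ` -/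

section Level

variable {A : ValuationSubring Qb} {N : ℕ} [NeZero N]
  {K : IntermediateField ℚ Qb} [IsDiscreteValuationRing ↥(baseRing A K)]
  {R : Subalgebra ↥(baseRing A K) (FF (Lvl K) N)} {gen : Fb N} {ϖ : ↥(baseRing A K)}
  {ρ : ↥R →+* Ft A N}

/-- Every nonzero function of the level is `ϖ^m a' / (ϖ^n b')` with `a', b'` in the chart and
`ρ a', ρ b' ≠ 0`. -/
theorem exists_pow_mul_frac (hρ : RhoData A N K R gen ϖ ρ)
    [IsNoetherianRing ↥R] [IsFractionRing ↥R (FF (Lvl K) N)]
    {w₁ : FF (Lvl K) N} (hw₁ : w₁ ≠ 0) :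
    ∃ (m n : ℕ) (a' b' : R), ρ a' ≠ 0 ∧ ρ b' ≠ 0 ∧
      w₁ * (algebraMap ↥(baseRing A K) (FF (Lvl K) N) ϖ ^ n * (b' : FF (Lvl K) N)) =
        algebraMap ↥(baseRing A K) (FF (Lvl K) N) ϖ ^ m * (a' : FF (Lvl K) N) := by
  haveI : IsDomain ↥R := inferInstance
  set p : ↥R := algebraMap ↥(baseRing A K) ↥R ϖ with hp
  have hρp : ρ p = 0 := by
    rw [← RingHom.mem_ker, hρ.ker_eq]
    exact Ideal.subset_span rfl
  have hpnu : ¬ IsUnit p := by
    intro hu
    have := hu.map ρ
    rw [hρp] at this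
    exact not_isUnit_zero this
  have hnd : ∀ z : R, ¬ p ∣ z → ρ z ≠ 0 := by
    intro z hz h0
    obtain ⟨y, hy⟩ := (hρ.rho_eq_zero_iff z).1 h0
    exact hz ⟨y, hy⟩
  obtain ⟨a, b, hb, hab⟩ := IsFractionRing.div_surjective (A := ↥R) w₁
  have hb0 : b ≠ 0 := nonZeroDivisors.ne_zero hb
  have hbF : (b : FF (Lvl K) N) ≠ 0 := fun h0 => hb0 (Subtype.ext h0)
  have ha0 : a ≠ 0 := by
    rintro rfl
    rw [map_zero, zero_div] at hab
    exact hw₁ hab.symm
  have hmulab : w₁ * (b : FF (Lvl K) N) = (a : FF (Lvl K) N) := by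
    rw [← hab]
    exact div_mul_cancel₀ _ hbF
  obtain ⟨m, a', ha', rfl⟩ := WfDvdMonoid.max_power_factor' ha0 hpnu
  obtain ⟨n, b', hb', rfl⟩ := WfDvdMonoid.max_power_factor' hb0 hpnu
  have hcoe : ∀ (k : ℕ) (z : R), ((p ^ k * z : ↥R) : FF (Lvl K) N) =
      algebraMap ↥(baseRing A K) (FF (Lvl K) N) ϖ ^ k * (z : FF (Lvl K) N) := fun k z => by
    rw [MulMemClass.coe_mul, SubmonoidClass.coe_pow]
    rfl
  rw [hcoe, hcoe] at hmulab
  exact ⟨m, n, a', b', hnd a' ha', hnd b' hb', hmulab⟩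

end Level

/-! ### (Z2) at a fixed level -/

section Main

variable {A : ValuationSubring Qb} {N : ℕ} [NeZero N] {ℓ : ℕ}
  (hℓ : ℓ.Prime) (hA : A.LiesOverPrime ℓ) (hℓN : ¬ ℓ ∣ N)

/-- **(Z2) at a fixed level.**  `K` a level with the chart data `ChartLevel` of one chart and whose
base ring `O_K = A ∩ K` maps onto the residue field of `A`.  Two zero-reduction representatives
`D, D'` of the same class with `K`-rational supports differ by the divisor of a function `w_K` OF THE
LEVEL `K` such that `levK w_K` is a Gauss unit with reduction `1`. -/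
theorem exists_gauss_unit_of_rep_level (K : IntermediateField ℚ Qb)
    [IsDiscreteValuationRing ↥(baseRing A K)]
    {R : Subalgebra ↥(baseRing A K) (FF (Lvl K) N)} {Rt : Subalgebra ↥A (Fb N)} {gen : Fb N}
    (hcl : ChartLevel A N K R Rt gen)
    (hres : ∀ c : ↥A, ∃ u : ↥(baseRing A K),
      IsLocalRing.residue ↥A (baseIncl A K u) = IsLocalRing.residue ↥A c)
    {D D' : Divisor.degZero (K := Qb) (F := Fb N)}
    (h : (Pic0.mk D : JZero N) = Pic0.mk D')
    (hD : Finsupp.mapDomain (rC hℓ hA hℓN) (D : Divisor Qb (Fb N)) = 0)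
    (hD' : Finsupp.mapDomain (rC hℓ hA hℓN) (D' : Divisor Qb (Fb N)) = 0)
    (hrat : ∀ P ∈ (D : Divisor Qb (Fb N)).support, ResidueTrivial (restrictK N K P))
    (hrat' : ∀ P ∈ (D' : Divisor Qb (Fb N)).support, ResidueTrivial (restrictK N K P)) :
    ∃ wK : FF (Lvl K) N, IsGaussUnit A N (levK N K wK) ∧ thetaFt A N (levK N K wK) = 1 ∧
      ∀ v : Place (Lvl K) (FF (Lvl K) N),
        v.ord wK = levelDiv K (D : Divisor Qb (Fb N)) v - levelDiv K (D' : Divisor Qb (Fb N)) v := by
  classical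
  obtain ⟨w, hw, hθ, hdiv⟩ := exists_gauss_unit_of_rep hℓ hA hℓN h hD hD'
  have hsupp : ∀ P : Place Qb (Fb N),
      (D : Divisor Qb (Fb N)) P - (D' : Divisor Qb (Fb N)) P ≠ 0 →
      ResidueTrivial (restrictK N K P) := by
    intro P hP
    by_cases h1 : (D : Divisor Qb (Fb N)) P = 0
    · apply hrat' P
      rw [Finsupp.mem_support_iff]
      intro h2
      rw [h1, h2, sub_zero] at hP
      exact hP rfl
    · exact hrat P (Finsupp.mem_support_iff.mpr h1)
  have hratw : ∀ P : Place Qb (Fb N), P.ord w ≠ 0 → ResidueTrivial (restrictK N K P) :=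
    fun P hP => hsupp P (by rwa [hdiv P] at hP)
  obtain ⟨c, w₁, hc0, hw₁0, hww₁⟩ := exists_const_mul_levK K hw.ne_zero hratw
  haveI := hcl.noeth
  haveI := hcl.frac
  obtain ⟨ϖ, ρ, hρ⟩ := exists_rhoData hcl
  obtain ⟨m, n, a', b', ha', hb', hfrac⟩ := exists_pow_mul_frac hρ hw₁0
  -- everything in `Fb N`
  set α : Fb N := levK N K (a' : FF (Lvl K) N) with hα
  set β : Fb N := levK N K (b' : FF (Lvl K) N) with hβ
  have hαu : IsGaussUnit A N α := hρ.isGaussUnit_lev ha'
  have hβu : IsGaussUnit A N β := hρ.isGaussUnit_lev hb'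
  set ϖq : Qb := ((baseIncl A K ϖ : ↥A) : Qb) with hϖq
  have hϖq0 : ϖq ≠ 0 := by
    intro h0
    apply hρ.irreducible.ne_zero
    apply baseIncl_injective A K
    rw [map_zero]
    exact Subtype.ext h0
  have hlevϖ : levK N K (algebraMap ↥(baseRing A K) (FF (Lvl K) N) ϖ) =
      algebraMap Qb (Fb N) ϖq := by
    rw [levK_algebraMap A N K ϖ]
    rfl
  have hπ0 : algebraMap Qb (Fb N) ϖq ≠ 0 := by
    rw [Ne, map_eq_zero]
    exact hϖq0
  have hfrac' : levK N K w₁ * (algebraMap Qb (Fb N) ϖq ^ n * β) =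
      algebraMap Qb (Fb N) ϖq ^ m * α := by
    have := congrArg (levK N K) hfrac
    rwa [map_mul, map_mul, map_mul, map_pow, map_pow, hlevϖ] at this
  -- the constant
  set c' : Qb := c * ϖq ^ m * (ϖq ^ n)⁻¹ with hc'
  have hconst : algebraMap Qb (Fb N) c' = w * β * α⁻¹ := by
    have hα0 : α ≠ 0 := hαu.ne_zero
    have hβ0 : β ≠ 0 := hβu.ne_zero
    have e1 : levK N K w₁ = algebraMap Qb (Fb N) ϖq ^ m * α *
        (algebraMap Qb (Fb N) ϖq ^ n * β)⁻¹ := by
      rw [← hfrac', mul_assoc, mul_inv_cancel₀ (mul_ne_zero (pow_ne_zero n hπ0) hβ0), mul_one]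
    rw [hww₁, e1, hc', map_mul, map_mul, map_inv₀, map_pow, map_pow]
    field_simp
  have hconstu : IsGaussUnit A N (algebraMap Qb (Fb N) c') := by
    rw [hconst]
    exact (hw.mul hβu).mul hαu.inv
  obtain ⟨a₀, ha₀, hres₀⟩ := exists_unit_of_isGaussUnit_const hconstu
  obtain ⟨u, hu⟩ := hres a₀
  have hures : IsLocalRing.residue ↥A (baseIncl A K u) ≠ 0 := by rw [hu]; exact hres₀
  have huu : IsGaussUnit A N (algebraMap Qb (Fb N) ((baseIncl A K u : ↥A) : Qb)) :=
    isGaussUnit_const hures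
  have ha₀u : IsGaussUnit A N (algebraMap Qb (Fb N) ((a₀ : ↥A) : Qb)) := by
    rw [ha₀]; exact hconstu
  refine ⟨algebraMap ↥(baseRing A K) (FF (Lvl K) N) u *
    ((a' : FF (Lvl K) N) * (b' : FF (Lvl K) N)⁻¹), ?_⟩
  have hlev : levK N K (algebraMap ↥(baseRing A K) (FF (Lvl K) N) u *
      ((a' : FF (Lvl K) N) * (b' : FF (Lvl K) N)⁻¹)) =
      algebraMap Qb (Fb N) ((baseIncl A K u : ↥A) : Qb) *
        (algebraMap Qb (Fb N) ((a₀ : ↥A) : Qb))⁻¹ * w := by
    rw [map_mul, map_mul, map_inv₀, levK_algebraMap A N K u, ha₀, hconst]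
    have hα0 : α ≠ 0 := hαu.ne_zero
    have hβ0 : β ≠ 0 := hβu.ne_zero
    have hw0 : w ≠ 0 := hw.ne_zero
    show algebraMap ↥A (Fb N) (baseIncl A K u) * (α * β⁻¹) = _
    rw [algebraMap_Fb_apply]
    field_simp
  have hgu : IsGaussUnit A N (algebraMap Qb (Fb N) ((baseIncl A K u : ↥A) : Qb) *
      (algebraMap Qb (Fb N) ((a₀ : ↥A) : Qb))⁻¹ * w) := (huu.mul ha₀u.inv).mul hw
  refine ⟨by rw [hlev]; exact hgu, ?_, ?_⟩
  · rw [hlev, (huu.mul ha₀u.inv).thetaFt_mul hw, huu.thetaFt_mul ha₀u.inv, ha₀u.thetaFt_inv,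
      thetaFt_const, thetaFt_const, hθ, mul_one, hu]
    apply mul_inv_cancel₀
    rw [Ne, map_eq_zero]
    exact hres₀
  · intro v
    have hu0 : ((baseIncl A K u : ↥A) : Qb) ≠ 0 := by
      intro h0
      apply hures
      have : baseIncl A K u = 0 := Subtype.ext h0
      rw [this, map_zero]
    have ha₀0 : ((a₀ : ↥A) : Qb) ≠ 0 := by
      intro h0
      apply hres₀
      have : a₀ = 0 := Subtype.ext h0
      rw [this, map_zero]
    have hE : ∀ P : Place Qb (Fb N),
        ((D : Divisor Qb (Fb N)) - (D' : Divisor Qb (Fb N))) P =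
          P.ord (levK N K (algebraMap ↥(baseRing A K) (FF (Lvl K) N) u *
            ((a' : FF (Lvl K) N) * (b' : FF (Lvl K) N)⁻¹))) := by
      intro P
      have hne1 : algebraMap Qb (Fb N) ((baseIncl A K u : ↥A) : Qb) ≠ 0 := huu.ne_zero
      have hne2 : (algebraMap Qb (Fb N) ((a₀ : ↥A) : Qb))⁻¹ ≠ 0 := ha₀u.inv.ne_zero
      rw [hlev, P.ord_mul (mul_ne_zero hne1 hne2) hw.ne_zero, P.ord_mul hne1 hne2, P.ord_inv,
        Fermat.Agent.S24.Hurwitz.ord_algebraMap P hu0,
        Fermat.Agent.S24.Hurwitz.ord_algebraMap P ha₀0, neg_zero, add_zero, zero_add, hdiv P,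
        Finsupp.sub_apply]
    have hratE : ∀ P ∈ ((D : Divisor Qb (Fb N)) - (D' : Divisor Qb (Fb N))).support,
        ResidueTrivial (restrictK N K P) := by
      intro P hP
      apply hsupp P
      rw [← Finsupp.sub_apply]
      exact Finsupp.mem_support_iff.mp hP
    rw [← levelDiv_eq_ord K _ _ hE hratE v, levelDiv_sub, Finsupp.sub_apply]

/-- The residue hypothesis of `exists_gauss_unit_of_rep_level` from the surjectivity of the map of
residue fields `κ(O_K) → κ(A)` (field `hbij` of `LevelPack`, last clause of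
`LevelField.exists_stable_bigLevel_of_finite`). -/
theorem exists_residue_eq_of_surjective (K : IntermediateField ℚ Qb)
    [IsDiscreteValuationRing ↥(baseRing A K)]
    (hsurj : Function.Surjective (IsLocalRing.ResidueField.map (baseIncl A K))) (c : ↥A) :
    ∃ u : ↥(baseRing A K),
      IsLocalRing.residue ↥A (baseIncl A K u) = IsLocalRing.residue ↥A c := by
  obtain ⟨x, hx⟩ := hsurj (IsLocalRing.residue ↥A c)
  obtain ⟨u, rfl⟩ := IsLocalRing.residue_surjective x
  exact ⟨u, by rw [← hx]; rfl⟩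

/-- **(Z2) at a good level** (`GoodBase`, good roots of unity, residue field onto `κ(A)`: every
`bigLevel A E`), finite chart. -/
theorem exists_gauss_unit_of_rep_goodLevel (K : IntermediateField ℚ Qb)
    [IsDiscreteValuationRing ↥(baseRing A K)]
    [IsAlgClosed (IsLocalRing.ResidueField ↥(baseRing A K))]
    (hG : GoodBase (Lvl K) N (baseRing A K) ℓ) (hroots : ∀ ξ ∈ Fermat.Agent.N4.BigDVR.goodRoots A, ξ ∈ K)
    (hsurj : Function.Surjective (IsLocalRing.ResidueField.map (baseIncl A K)))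
    {D D' : Divisor.degZero (K := Qb) (F := Fb N)}
    (h : (Pic0.mk D : JZero N) = Pic0.mk D')
    (hD : Finsupp.mapDomain (rC hℓ hA hℓN) (D : Divisor Qb (Fb N)) = 0)
    (hD' : Finsupp.mapDomain (rC hℓ hA hℓN) (D' : Divisor Qb (Fb N)) = 0)
    (hrat : ∀ P ∈ (D : Divisor Qb (Fb N)).support, ResidueTrivial (restrictK N K P))
    (hrat' : ∀ P ∈ (D' : Divisor Qb (Fb N)).support, ResidueTrivial (restrictK N K P)) :
    ∃ wK : FF (Lvl K) N, IsGaussUnit A N (levK N K wK) ∧ thetaFt A N (levK N K wK) = 1 ∧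
      ∀ v : Place (Lvl K) (FF (Lvl K) N),
        v.ord wK = levelDiv K (D : Divisor Qb (Fb N)) v - levelDiv K (D' : Divisor Qb (Fb N)) v :=
  exists_gauss_unit_of_rep_level hℓ hA hℓN K (MainFinal.levelHyp hℓ hA hℓN K hG hroots).1
    (exists_residue_eq_of_surjective K hsurj) h hD hD' hrat hrat'

end Main

end Fermat.Agent.S19.Cech.ClassDictLevel
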