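/-
S19, Čech route, level bookkeeping for the EXPLICIT level family (helper26; helper22 #2304 1(a)):
levels `bigLevel A E = E(μ_m : ℓ ∤ m)` (`P3G/Gamma`), base level `K₀ = K0 A = bigLevel A ⊥`, and the
action of the decomposition group on `Gal(Q̄/ℚ)`-stable levels.  On top of `Cech/LevelBasis` +
`Cech/LevelFibreConst`.

* `isDiscreteValuationRing_bigLevel`, **`levelPack_bigLevel hℓ hA hℓN E : LevelPack A N (bigLevel A E)`**
  (`E` a number field), `isDiscreteValuationRing_K0`, `levelPack_K0`;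
* `exists_basis_lift_K0` : basis lifts of `H¹` at the base level;
* `exists_basis_bigLevel_of_le`, `hypAll_bigLevel_of_le` (`E ≤ E'`), **`hypAll_bigLevel_of_K0`** :
  `HypAll` at every `bigLevel A E` with the frame chosen at `K₀` — no hypotheses left;
* `sameFibre_of_inverse` (abstract): an invertible semilinear morphism of two-chart models matching
  the uniformisers up to units has `SameFibre`;
* for a stable level `K` (`hK : ∀ τ x, x ∈ K → τ x ∈ K`) and `τ ∈ D_A`:
  `galLvl K hK τ : Lvl K →+* Lvl K` (`= GammaAut.levelAut`), `galLvl_mem`, `ffMap_galLvl`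
  (`ffMap (galLvl …) N f = GammaAut.levelFF K hK N τ • f`), `baseGal / finGal / infGal / midGal`,
  `coe_finGal / coe_infGal / coe_midGal`, `baseGal_apply` (`= GammaAut.baseAut`),
  **`chartHom_gal`** (the `θ, τ_?` + compatibilities of `ChangeBase.morph_chg` for `σ ∈ D_A`),
  inverses, `dvd_baseGal_irreducible`, `sameFibre_gal`, **`exists_basis_gal`** (`σ ε` is again a
  family of basis lifts), `hypAll_gal`;
* `K0_stable`, `bigLevel_stable`; `galLvl_lvlIncl`, `ffMap_galLvl_lvlIncl`, **`midGal_midIncl`**,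
  `finGal_finIncl`, `infGal_infIncl`, `baseGal_baseMapIncl` : `σ` commutes with level inclusions;
* **`hypAll_bigLevel_of_K0_gal`** : `HypAll` at `bigLevel A E` for the twisted frame
  `midIncl (midGal σ (ε i))`, `σ ∈ D_A`, `ε` basis lifts at `K₀`.
-/
import Mathlib
import Fermat.Agent.S19.Cech.LevelFibreConst
import Fermat.Agent.P3G.GammaBase
import Fermat.Agent.P3G.GammaAut

set_option autoImplicit false
set_option linter.unusedSectionVars false
set_option linter.style.haveILetI false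
set_option synthInstance.maxHeartbeats 400000
set_option maxHeartbeats 800000

open ModularCurve AlgebraicCurve

noncomputable section

namespace Fermat.Agent.S19.Cech.LevelBasisBig

open Fermat.Agent.N4.FormalFunctions Fermat.Agent.S19.Cech.TorsionFree
  Fermat.Agent.S19.Cech.LevelBasis Fermat.Agent.S19.Cech.LevelFibreConst
open Fermat.Agent.N4.Chart Fermat.Agent.N4.Setting Fermat.Agent.N4.BaseDescent
  Fermat.Agent.N4.BigDVR
open Fermat.Agent.N4F.C Fermat.Agent.N4F.C.Levels Fermat.Agent.N4F.C.LevelCharts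
  Fermat.Agent.N4F.C.ChartFactsProof
open Fermat.Agent.P3G.Gamma Fermat.Agent.P3G.GammaBase Fermat.Agent.P3G.GammaAut

local notation "Qb" => AlgebraicClosure ℚ
local notation "Γ" => (AlgebraicClosure ℚ ≃ₐ[ℚ] AlgebraicClosure ℚ)

variable {A : ValuationSubring Qb} {ℓ : ℕ} (hℓ : ℓ.Prime) (hA : A.LiesOverPrime ℓ)
  {N : ℕ} [NeZero N] (hℓN : ¬ ℓ ∣ N)

/-! ### `LevelPack` for the explicit levels `bigLevel A E` -/

section Pack

include hℓ hA

/-- The base ring of `bigLevel A E` is a discrete valuation ring. -/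
theorem isDiscreteValuationRing_bigLevel (E : IntermediateField ℚ Qb) [FiniteDimensional ℚ E] :
    IsDiscreteValuationRing ↥(baseRing A (bigLevel A E)) :=
  (bigLevel_spec hℓ hA E).1

include hℓN in
/-- **`LevelPack` for `bigLevel A E`**, `E` a number field. -/
theorem levelPack_bigLevel (E : IntermediateField ℚ Qb) [FiniteDimensional ℚ E]
    [IsDiscreteValuationRing ↥(baseRing A (bigLevel A E))] :
    LevelPack A N (bigLevel A E) := by
  obtain ⟨-, hnu, hAC, hbij⟩ := bigLevel_spec hℓ hA E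
  haveI : IsAlgClosed (IsLocalRing.ResidueField ↥(baseRing A (bigLevel A E))) := hAC
  exact levelPack hℓ hA hℓN (bigLevel A E) (goodBase_of_level hℓ (bigLevel A E) hℓN hnu) hbij
    (goodRoots_subset_bigLevel A E)

end Pack

/-! ### The base level `K₀ = bigLevel A ⊥` and the levels above it -/

section K0

include hℓ hA

theorem isDiscreteValuationRing_K0 : IsDiscreteValuationRing ↥(baseRing A (K0 A)) :=
  isDiscreteValuationRing_bigLevel hℓ hA (⊥ : IntermediateField ℚ Qb)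

include hℓN in
theorem levelPack_K0 [inst : IsDiscreteValuationRing ↥(baseRing A (K0 A))] :
    LevelPack A N (K0 A) :=
  @levelPack_bigLevel A ℓ hℓ hA N _ hℓN (⊥ : IntermediateField ℚ Qb) _ inst

include hℓN in
/-- Basis lifts of `H¹` at the base level `K₀`. -/
theorem exists_basis_lift_K0 :
    ∃ (g : ℕ) (ε : Fin g → ↥(Rmid (Lvl (K0 A)) N (baseRing A (K0 A))))
      (b : Module.Basis (Fin g) ↥(baseRing A (K0 A)) (↥(Rmid (Lvl (K0 A)) N (baseRing A (K0 A))) ⧸
        chartSum (inclFin (Lvl (K0 A)) N (baseRing A (K0 A)))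
          (inclInf (Lvl (K0 A)) N (baseRing A (K0 A))))),
      ∀ i, b i = Submodule.Quotient.mk (ε i) := by
  haveI := isDiscreteValuationRing_K0 hℓ hA
  exact exists_basis_lift_level A N (K0 A) (levelPack_K0 hℓ hA hℓN)

include hℓN in
/-- **Two explicit levels `bigLevel A E ≤ bigLevel A E'`**: basis lifts stay basis lifts. -/
theorem exists_basis_bigLevel_of_le {E E' : IntermediateField ℚ Qb} [FiniteDimensional ℚ E]
    [FiniteDimensional ℚ E'] (hEE' : E ≤ E') {g : ℕ}
    (ε : Fin g → ↥(Rmid (Lvl (bigLevel A E)) N (baseRing A (bigLevel A E))))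
    (b₁ : Module.Basis (Fin g) ↥(baseRing A (bigLevel A E))
      (↥(Rmid (Lvl (bigLevel A E)) N (baseRing A (bigLevel A E))) ⧸
        chartSum (inclFin (Lvl (bigLevel A E)) N (baseRing A (bigLevel A E)))
          (inclInf (Lvl (bigLevel A E)) N (baseRing A (bigLevel A E)))))
    (hb₁ : ∀ i, b₁ i = Submodule.Quotient.mk (ε i)) :
    ∃ b₂ : Module.Basis (Fin g) ↥(baseRing A (bigLevel A E'))
        (↥(Rmid (Lvl (bigLevel A E')) N (baseRing A (bigLevel A E'))) ⧸
          chartSum (inclFin (Lvl (bigLevel A E')) N (baseRing A (bigLevel A E')))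
            (inclInf (Lvl (bigLevel A E')) N (baseRing A (bigLevel A E')))),
      ∀ i, b₂ i = Submodule.Quotient.mk (midIncl A N (bigLevel_mono A hEE') (ε i)) := by
  haveI := isDiscreteValuationRing_bigLevel hℓ hA E
  haveI := isDiscreteValuationRing_bigLevel hℓ hA E'
  exact exists_basis_level' A N (bigLevel_mono A hEE') (levelPack_bigLevel hℓ hA hℓN E)
    (levelPack_bigLevel hℓ hA hℓN E') ε b₁ hb₁

include hℓN in
/-- **`HypAll` at `bigLevel A E'` with the frame chosen at `bigLevel A E`, `E ≤ E'`.** -/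
theorem hypAll_bigLevel_of_le {E E' : IntermediateField ℚ Qb} [FiniteDimensional ℚ E]
    [FiniteDimensional ℚ E'] (hEE' : E ≤ E') {g : ℕ}
    (ε : Fin g → ↥(Rmid (Lvl (bigLevel A E)) N (baseRing A (bigLevel A E))))
    (b₁ : Module.Basis (Fin g) ↥(baseRing A (bigLevel A E))
      (↥(Rmid (Lvl (bigLevel A E)) N (baseRing A (bigLevel A E))) ⧸
        chartSum (inclFin (Lvl (bigLevel A E)) N (baseRing A (bigLevel A E)))
          (inclInf (Lvl (bigLevel A E)) N (baseRing A (bigLevel A E)))))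
    (hb₁ : ∀ i, b₁ i = Submodule.Quotient.mk (ε i)) :
    HypAll (inclFin (Lvl (bigLevel A E')) N (baseRing A (bigLevel A E')))
      (inclInf (Lvl (bigLevel A E')) N (baseRing A (bigLevel A E')))
      (fun i => midIncl A N (bigLevel_mono A hEE') (ε i)) := by
  haveI := isDiscreteValuationRing_bigLevel hℓ hA E
  haveI := isDiscreteValuationRing_bigLevel hℓ hA E'
  exact hypAll_level_of_base A N (bigLevel_mono A hEE') (levelPack_bigLevel hℓ hA hℓN E)
    (levelPack_bigLevel hℓ hA hℓN E') ε b₁ hb₁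

include hℓN in
/-- **`HypAll` at every level `bigLevel A E` with the frame chosen at the base level `K₀`.** -/
theorem hypAll_bigLevel_of_K0 (E : IntermediateField ℚ Qb) [FiniteDimensional ℚ E] {g : ℕ}
    (ε : Fin g → ↥(Rmid (Lvl (K0 A)) N (baseRing A (K0 A))))
    (b₁ : Module.Basis (Fin g) ↥(baseRing A (K0 A)) (↥(Rmid (Lvl (K0 A)) N (baseRing A (K0 A))) ⧸
      chartSum (inclFin (Lvl (K0 A)) N (baseRing A (K0 A)))
        (inclInf (Lvl (K0 A)) N (baseRing A (K0 A)))))
    (hb₁ : ∀ i, b₁ i = Submodule.Quotient.mk (ε i)) :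
    HypAll (inclFin (Lvl (bigLevel A E)) N (baseRing A (bigLevel A E)))
      (inclInf (Lvl (bigLevel A E)) N (baseRing A (bigLevel A E)))
      (fun i => midIncl A N (K0_le_bigLevel A E) (ε i)) := by
  haveI := isDiscreteValuationRing_K0 hℓ hA
  haveI := isDiscreteValuationRing_bigLevel hℓ hA E
  exact hypAll_level_of_base A N (K0_le_bigLevel A E) (levelPack_K0 hℓ hA hℓN)
    (levelPack_bigLevel hℓ hA hℓN E) ε b₁ hb₁

end K0

/-! ### `SameFibre` for an invertible morphism of two-chart models -/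

section Inverse

variable {O₁ O₂ : Type*} [CommRing O₁] [CommRing O₂]
variable {Ap₁ Am₁ A0₁ : Type*} [CommRing Ap₁] [CommRing Am₁] [CommRing A0₁]
  [Algebra O₁ Ap₁] [Algebra O₁ Am₁] [Algebra O₁ A0₁]
variable {Ap₂ Am₂ A0₂ : Type*} [CommRing Ap₂] [CommRing Am₂] [CommRing A0₂]
  [Algebra O₂ Ap₂] [Algebra O₂ Am₂] [Algebra O₂ A0₂]
variable {ip₁ : Ap₁ →ₐ[O₁] A0₁} {im₁ : Am₁ →ₐ[O₁] A0₁}
  {ip₂ : Ap₂ →ₐ[O₂] A0₂} {im₂ : Am₂ →ₐ[O₂] A0₂}
variable {α : O₁ →+* O₂} {τp : Ap₁ →+* Ap₂} {τm : Am₁ →+* Am₂} {τ0 : A0₁ →+* A0₂}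
  {α' : O₂ →+* O₁} {τp' : Ap₂ →+* Ap₁} {τm' : Am₂ →+* Am₁} {τ0' : A0₂ →+* A0₁}
  {π₁ : O₁} {π₂ : O₂}

/-- An invertible (semilinear) morphism of two-chart models which matches the uniformisers up to
units induces "the same special fibre". -/
theorem sameFibre_of_inverse
    (hdvd : π₂ ∣ α π₁) (hdvd' : π₁ ∣ α' π₂)
    (hα : ∀ c, α (α' c) = c) (hp : ∀ x, τp (τp' x) = x) (hm : ∀ y, τm (τm' y) = y)
    (h0 : ∀ z, τ0 (τ0' z) = z) (h0' : ∀ z, τ0' (τ0 z) = z)
    (halg' : ∀ o, τ0' (algebraMap O₂ A0₂ o) = algebraMap O₁ A0₁ (α' o)) :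
    SameFibre ip₁ im₁ ip₂ im₂ α τp τm τ0 π₁ π₂ where
  dvd := hdvd
  res c := ⟨α' c, by rw [hα, sub_self]; exact dvd_zero _⟩
  surj_p x₂ := ⟨τp' x₂, by rw [hp, sub_self]; exact Ideal.zero_mem _⟩
  surj_m y₂ := ⟨τm' y₂, by rw [hm, sub_self]; exact Ideal.zero_mem _⟩
  surj_0 z₂ := ⟨τ0' z₂, by rw [h0, sub_self]; exact Ideal.zero_mem _⟩
  inj_0 z₁ hz₁ := by
    obtain ⟨w, hw⟩ := Ideal.mem_span_singleton'.1 hz₁
    obtain ⟨d, hd⟩ := hdvd'
    refine Ideal.mem_span_singleton'.2 ⟨τ0' w * algebraMap O₁ A0₁ d, ?_⟩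
    have h1 : z₁ = τ0' w * algebraMap O₁ A0₁ (α' π₂) := by
      rw [← h0' z₁, ← hw, map_mul, halg']
    rw [h1, hd, map_mul]
    ring

end Inverse

/-! ### The decomposition group on a `Gal(Q̄/ℚ)`-stable level -/

section Gal

variable (K : IntermediateField ℚ Qb) (hK : ∀ (τ : Γ) (x : Qb), x ∈ K → τ x ∈ K)
  (N : ℕ) [NeZero N]

/-- The restriction of `τ` to a stable level, as a ring endomorphism of `Lvl K`
(`= GammaAut.levelAut K hK τ`). -/
def galLvl (τ : Γ) : Lvl K →+* Lvl K := ((levelAut K hK τ : Lvl K ≃+* Lvl K) : Lvl K →+* Lvl K)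

theorem galLvl_apply (τ : Γ) (x : Lvl K) : galLvl K hK τ x = levelAut K hK τ x := rfl

theorem algebraMap_galLvl (τ : Γ) (x : Lvl K) :
    algebraMap (Lvl K) Qb (galLvl K hK τ x) = τ (algebraMap (Lvl K) Qb x) := rfl

theorem galLvl_mem {τ : Γ} (hτ : τ ∈ A.decompositionSubgroup ℚ) (a : Lvl K)
    (ha : a ∈ baseRing A K) : galLvl K hK τ a ∈ baseRing A K :=
  levelAut_mem_baseRing K hK hτ ha

/-- `ffMap` along `galLvl` is the coefficientwise Galois action `GammaAut.levelFF`. -/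
theorem ffMap_galLvl (τ : Γ) (f : FF (Lvl K) N) :
    ffMap (galLvl K hK τ) N f = levelFF K hK N τ • f := Subtype.ext rfl

theorem ffMap_galLvl_inv (τ : Γ) (f : FF (Lvl K) N) :
    ffMap (galLvl K hK τ⁻¹) N (ffMap (galLvl K hK τ) N f) = f := by
  rw [ffMap_galLvl, ffMap_galLvl, levelFF_inv_smul_smul]

theorem ffMap_galLvl_inv' (τ : Γ) (f : FF (Lvl K) N) :
    ffMap (galLvl K hK τ) N (ffMap (galLvl K hK τ⁻¹) N f) = f := by
  have h := ffMap_galLvl_inv K hK N τ⁻¹ f
  rwa [inv_inv] at h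

variable {τ : Γ} (hτ : τ ∈ A.decompositionSubgroup ℚ)

/-- `τ` on `O_K` (`= GammaAut.baseAut K hK hτ` as a ring homomorphism). -/
abbrev baseGal : ↥(baseRing A K) →+* ↥(baseRing A K) :=
  oMap (galLvl K hK τ) (baseRing A K) (baseRing A K) (galLvl_mem K hK hτ)

/-- `τ` on `R^fin_K`. -/
abbrev finGal : ↥(Rfin (Lvl K) N (baseRing A K)) →+* ↥(Rfin (Lvl K) N (baseRing A K)) :=
  finMap (galLvl K hK τ) N (baseRing A K) (baseRing A K) (galLvl_mem K hK hτ)

/-- `τ` on `R^inf_K`. -/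
abbrev infGal : ↥(Rinf (Lvl K) N (baseRing A K)) →+* ↥(Rinf (Lvl K) N (baseRing A K)) :=
  infMap (galLvl K hK τ) N (baseRing A K) (baseRing A K) (galLvl_mem K hK hτ)

/-- `τ` on `R^mid_K`. -/
abbrev midGal : ↥(Rmid (Lvl K) N (baseRing A K)) →+* ↥(Rmid (Lvl K) N (baseRing A K)) :=
  midMap (galLvl K hK τ) N (baseRing A K) (baseRing A K) (galLvl_mem K hK hτ)

theorem baseGal_apply (a : ↥(baseRing A K)) : baseGal K hK hτ a = baseAut K hK hτ a :=
  Subtype.ext rfl

theorem coe_midGal (x : ↥(Rmid (Lvl K) N (baseRing A K))) :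
    ((midGal K hK N hτ x : ↥(Rmid (Lvl K) N (baseRing A K))) : FF (Lvl K) N) =
      levelFF K hK N τ • (x : FF (Lvl K) N) := by
  rw [coe_midMap, ffMap_galLvl]

theorem coe_finGal (x : ↥(Rfin (Lvl K) N (baseRing A K))) :
    ((finGal K hK N hτ x : ↥(Rfin (Lvl K) N (baseRing A K))) : FF (Lvl K) N) =
      levelFF K hK N τ • (x : FF (Lvl K) N) := by
  rw [coe_finMap, ffMap_galLvl]

theorem coe_infGal (x : ↥(Rinf (Lvl K) N (baseRing A K))) :
    ((infGal K hK N hτ x : ↥(Rinf (Lvl K) N (baseRing A K))) : FF (Lvl K) N) =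
      levelFF K hK N τ • (x : FF (Lvl K) N) := by
  rw [coe_infMap, ffMap_galLvl]

/-- **The `σ`-morphism of the two-chart model of a stable level** (`σ ∈ D_A`, semilinear over
`baseGal`): the data `θ, τ_?` + compatibilities of `ChangeBase.morph_chg`. -/
theorem chartHom_gal :
    ChartHom (inclFin (Lvl K) N (baseRing A K)) (inclInf (Lvl K) N (baseRing A K))
      (inclFin (Lvl K) N (baseRing A K)) (inclInf (Lvl K) N (baseRing A K))
      (baseGal K hK hτ) (finGal K hK N hτ) (infGal K hK N hτ) (midGal K hK N hτ) :=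
  chartHom_level (galLvl K hK τ) N (baseRing A K) (baseRing A K) (galLvl_mem K hK hτ)

theorem midGal_inv (z : ↥(Rmid (Lvl K) N (baseRing A K))) :
    midGal K hK N (inv_mem hτ) (midGal K hK N hτ z) = z := by
  apply Subtype.ext
  rw [coe_midMap, coe_midMap, ffMap_galLvl_inv]

theorem midGal_inv' (z : ↥(Rmid (Lvl K) N (baseRing A K))) :
    midGal K hK N hτ (midGal K hK N (inv_mem hτ) z) = z := by
  apply Subtype.ext
  rw [coe_midMap, coe_midMap, ffMap_galLvl_inv']

theorem finGal_inv' (z : ↥(Rfin (Lvl K) N (baseRing A K))) :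
    finGal K hK N hτ (finGal K hK N (inv_mem hτ) z) = z := by
  apply Subtype.ext
  rw [coe_finMap, coe_finMap, ffMap_galLvl_inv']

theorem infGal_inv' (z : ↥(Rinf (Lvl K) N (baseRing A K))) :
    infGal K hK N hτ (infGal K hK N (inv_mem hτ) z) = z := by
  apply Subtype.ext
  rw [coe_infMap, coe_infMap, ffMap_galLvl_inv']

theorem baseGal_inv' (c : ↥(baseRing A K)) :
    baseGal K hK hτ (baseGal K hK (inv_mem hτ) c) = c := by
  apply Subtype.ext
  apply (algebraMap (Lvl K) Qb).injective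
  show τ (τ⁻¹ (algebraMap (Lvl K) Qb (c : Lvl K))) = _
  rw [AlgEquiv.aut_inv, AlgEquiv.apply_symm_apply]

variable [IsDiscreteValuationRing ↥(baseRing A K)]

/-- `τ ∈ D_A` maps a uniformiser of `O_K` to a multiple of it. -/
theorem dvd_baseGal_irreducible {π : ↥(baseRing A K)} (hπ : Irreducible π) :
    π ∣ baseGal K hK hτ π := by
  rw [← Ideal.mem_span_singleton, ← hπ.maximalIdeal_eq, IsLocalRing.mem_maximalIdeal,
    mem_nonunits_iff]
  intro hu
  have h1 : IsUnit (baseGal K hK (inv_mem hτ) (baseGal K hK hτ π)) := hu.map _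
  have h2 : baseGal K hK (inv_mem hτ) (baseGal K hK hτ π) = π := by
    have h := baseGal_inv' K hK (inv_mem hτ) π
    simpa only [inv_inv] using h
  rw [h2] at h1
  exact hπ.not_isUnit h1

/-- The `σ`-morphism of a stable level has "the same special fibre". -/
theorem sameFibre_gal {π : ↥(baseRing A K)} (hπ : Irreducible π) :
    SameFibre (inclFin (Lvl K) N (baseRing A K)) (inclInf (Lvl K) N (baseRing A K))
      (inclFin (Lvl K) N (baseRing A K)) (inclInf (Lvl K) N (baseRing A K))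
      (baseGal K hK hτ) (finGal K hK N hτ) (infGal K hK N hτ) (midGal K hK N hτ) π π :=
  sameFibre_of_inverse (α' := baseGal K hK (inv_mem hτ)) (τp' := finGal K hK N (inv_mem hτ))
    (τm' := infGal K hK N (inv_mem hτ)) (τ0' := midGal K hK N (inv_mem hτ))
    (dvd_baseGal_irreducible K hK hτ hπ) (dvd_baseGal_irreducible K hK (inv_mem hτ) hπ)
    (baseGal_inv' K hK hτ) (finGal_inv' K hK N hτ) (infGal_inv' K hK N hτ)
    (midGal_inv' K hK N hτ) (midGal_inv K hK N hτ)
    (chartHom_gal K hK N (inv_mem hτ)).alg_0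

/-- **`σ ∈ D_A` maps basis lifts of `H¹(K)` to basis lifts** (the frame `σ ε` of the twisted
equivariance). -/
theorem exists_basis_gal (P : LevelPack A N K) {g : ℕ}
    (ε : Fin g → ↥(Rmid (Lvl K) N (baseRing A K)))
    (b : Module.Basis (Fin g) ↥(baseRing A K) (↥(Rmid (Lvl K) N (baseRing A K)) ⧸
      chartSum (inclFin (Lvl K) N (baseRing A K)) (inclInf (Lvl K) N (baseRing A K))))
    (hb : ∀ i, b i = Submodule.Quotient.mk (ε i)) :
    ∃ b' : Module.Basis (Fin g) ↥(baseRing A K) (↥(Rmid (Lvl K) N (baseRing A K)) ⧸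
        chartSum (inclFin (Lvl K) N (baseRing A K)) (inclInf (Lvl K) N (baseRing A K))),
      ∀ i, b' i = Submodule.Quotient.mk (midGal K hK N hτ (ε i)) := by
  obtain ⟨π, hπ⟩ := IsDiscreteValuationRing.exists_irreducible ↥(baseRing A K)
  haveI := finite_h1_level A N K P
  exact exists_basis_map ε b hb hπ (chartHom_gal K hK N hτ) (sameFibre_gal K hK N hτ hπ)
    (fibreConst_level A N K P hπ) (mul_eq_zero_level A N K hπ)

/-- `HypAll` at a stable level for the frame `σ ε`. -/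
theorem hypAll_gal (P : LevelPack A N K) {g : ℕ}
    (ε : Fin g → ↥(Rmid (Lvl K) N (baseRing A K)))
    (b : Module.Basis (Fin g) ↥(baseRing A K) (↥(Rmid (Lvl K) N (baseRing A K)) ⧸
      chartSum (inclFin (Lvl K) N (baseRing A K)) (inclInf (Lvl K) N (baseRing A K))))
    (hb : ∀ i, b i = Submodule.Quotient.mk (ε i)) :
    HypAll (inclFin (Lvl K) N (baseRing A K)) (inclInf (Lvl K) N (baseRing A K))
      (fun i => midGal K hK N hτ (ε i)) := by
  obtain ⟨b', hb'⟩ := exists_basis_gal K hK N hτ P ε b hb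
  exact hypAll_level A N K P _ b' hb'

end Gal

/-! ### Stable levels in the family `bigLevel A E`, and `σ` versus the level inclusions -/

section GalIncl

/-- The base level `K₀` is stable under `Gal(Q̄/ℚ)`. -/
theorem K0_stable (τ : Γ) (x : Qb) (hx : x ∈ K0 A) : τ x ∈ K0 A :=
  apply_mem_bigLevel (A := A) (⊥ : IntermediateField ℚ Qb)
    (fun σ y hy => by
      obtain ⟨q, rfl⟩ := IntermediateField.mem_bot.1 hy
      rw [AlgEquiv.commutes]
      exact IntermediateField.algebraMap_mem _ q) τ hx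

/-- `bigLevel A E` is stable under `Gal(Q̄/ℚ)` when `E` is. -/
theorem bigLevel_stable (E : IntermediateField ℚ Qb)
    (hE : ∀ (τ : Γ) (x : Qb), x ∈ E → τ x ∈ E) (τ : Γ) (x : Qb) (hx : x ∈ bigLevel A E) :
    τ x ∈ bigLevel A E :=
  apply_mem_bigLevel (A := A) E hE τ hx

variable {K₁ L : IntermediateField ℚ Qb} (hKL : K₁ ≤ L)
  (hK₁ : ∀ (τ : Γ) (x : Qb), x ∈ K₁ → τ x ∈ K₁) (hL : ∀ (τ : Γ) (x : Qb), x ∈ L → τ x ∈ L)
  (N : ℕ) [NeZero N] {τ : Γ} (hτ : τ ∈ A.decompositionSubgroup ℚ)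

/-- `σ` commutes with the inclusion of stable levels (on the base fields). -/
theorem galLvl_lvlIncl (x : Lvl K₁) :
    galLvl L hL τ (lvlIncl hKL x) = lvlIncl hKL (galLvl K₁ hK₁ τ x) :=
  (algebraMap (Lvl L) Qb).injective rfl

/-- `σ` commutes with the inclusion of stable levels (on the function fields). -/
theorem ffMap_galLvl_lvlIncl (f : FF (Lvl K₁) N) :
    ffMap (galLvl L hL τ) N (ffMap (lvlIncl hKL) N f) =
      ffMap (lvlIncl hKL) N (ffMap (galLvl K₁ hK₁ τ) N f) := by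
  apply Subtype.ext
  rw [coe_ffMap, coe_ffMap, coe_ffMap, coe_ffMap, coeffMap_coeffMap, coeffMap_coeffMap]
  exact coeffMap_congr (RingHom.ext fun x => galLvl_lvlIncl hKL hK₁ hL x) _

/-- **`σ` commutes with the level inclusion of the overlap charts**: the frame `σ ε` at level `L`
is the image of the frame `σ ε` at level `K₁`. -/
theorem midGal_midIncl (x : ↥(Rmid (Lvl K₁) N (baseRing A K₁))) :
    midGal L hL N hτ (midIncl A N hKL x) = midIncl A N hKL (midGal K₁ hK₁ N hτ x) := by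
  apply Subtype.ext
  rw [coe_midMap, coe_midMap, coe_midMap, coe_midMap]
  exact ffMap_galLvl_lvlIncl hKL hK₁ hL N _

theorem finGal_finIncl (x : ↥(Rfin (Lvl K₁) N (baseRing A K₁))) :
    finGal L hL N hτ (finIncl A N hKL x) = finIncl A N hKL (finGal K₁ hK₁ N hτ x) := by
  apply Subtype.ext
  rw [coe_finMap, coe_finMap, coe_finMap, coe_finMap]
  exact ffMap_galLvl_lvlIncl hKL hK₁ hL N _

theorem infGal_infIncl (x : ↥(Rinf (Lvl K₁) N (baseRing A K₁))) :
    infGal L hL N hτ (infIncl A N hKL x) = infIncl A N hKL (infGal K₁ hK₁ N hτ x) := by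
  apply Subtype.ext
  rw [coe_infMap, coe_infMap, coe_infMap, coe_infMap]
  exact ffMap_galLvl_lvlIncl hKL hK₁ hL N _

theorem baseGal_baseMapIncl (c : ↥(baseRing A K₁)) :
    baseGal L hL hτ (baseMapIncl A hKL c) = baseMapIncl A hKL (baseGal K₁ hK₁ hτ c) :=
  Subtype.ext (galLvl_lvlIncl hKL hK₁ hL (c : Lvl K₁))

end GalIncl

section TwistedFrame

include hℓ hA hℓN in
/-- **`HypAll` at `bigLevel A E` for the twisted frame `σ ε`**, `ε` basis lifts at the base level
`K₀`, `σ ∈ D_A`: the frame is `midIncl (midGal σ (ε i))` (`= midGal σ (midIncl (ε i))` by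
`midGal_midIncl` when `E` is stable). -/
theorem hypAll_bigLevel_of_K0_gal (E : IntermediateField ℚ Qb) [FiniteDimensional ℚ E]
    {τ : Γ} (hτ : τ ∈ A.decompositionSubgroup ℚ) {g : ℕ}
    (ε : Fin g → ↥(Rmid (Lvl (K0 A)) N (baseRing A (K0 A))))
    (b₁ : Module.Basis (Fin g) ↥(baseRing A (K0 A)) (↥(Rmid (Lvl (K0 A)) N (baseRing A (K0 A))) ⧸
      chartSum (inclFin (Lvl (K0 A)) N (baseRing A (K0 A)))
        (inclInf (Lvl (K0 A)) N (baseRing A (K0 A)))))
    (hb₁ : ∀ i, b₁ i = Submodule.Quotient.mk (ε i)) :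
    HypAll (inclFin (Lvl (bigLevel A E)) N (baseRing A (bigLevel A E)))
      (inclInf (Lvl (bigLevel A E)) N (baseRing A (bigLevel A E)))
      (fun i => midIncl A N (K0_le_bigLevel A E) (midGal (K0 A) K0_stable N hτ (ε i))) := by
  haveI := isDiscreteValuationRing_K0 hℓ hA
  obtain ⟨b', hb'⟩ := exists_basis_gal (K0 A) K0_stable N hτ (levelPack_K0 hℓ hA hℓN) ε b₁ hb₁
  exact hypAll_bigLevel_of_K0 hℓ hA hℓN E _ b' hb'

end TwistedFrame

end Fermat.Agent.S19.Cech.LevelBasisBig
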