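/-
S19, Čech route, leaf [LHYP] (helper19; helper22 #2263 / #2312 / #2320): **`Hyp` at every good level
and the FRAME compatibilities of the level morphisms**, for a variable `F : BaseLevel.Frame A N`
(helper29), in the vocabulary that is on main: helper26's `LevelBasis` / `LevelBasisBig`
(`midIncl`, `midGal`, `chartHom_level`, `chartHom_gal`), helper9's `LevelSitMaps` (`SL`, `mL`),
helper27's `LevelSit.mS`.

* `morph_of_chartHom`, `chgMap_one_tmul` : a `LevelBasis.ChartHom` + `φ : S → S'` over it is a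
  `Cech.Morph` (wrapper of `ChangeBase.morph_chg`).
* `ffMap_ffMap`, `finMap_finMap`, `infMap_infMap`, `midMap_midMap`, `*_congr`, `*_id` : the chart maps
  compose.
* **`hlift`** `midIncl_midIncl` (+ `fin/inf/base` twins), `εL_trans` : the frame of `L'` is the
  image of the frame of `L ≤ L'`.
* **`hinertia`** `midGal_eq_self_of_fixes`, `midGal_midIncl_of_fixes`, `midGal_εL_of_mem_inertia` :
  `σ ∈ I_A` fixes the frame of every stable level (it fixes `K₀` pointwise).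
* **`htwist`** `εt`, `midGal_εL` : for `σ ∈ D_A` the frame goes to the image of
  `εt = σ ε` (computed at the base level); `hypAll_εt`.
* **`Hyp`** `hyp_mL`, `hyp_mS`, `hyp_mS'` : `Hyp` at `(L, n)` in the `mL` shape and in
  the `LevelSit.mS` shape (the argument `H` of `LevelSit.sit`).
-/
import Mathlib
import Fermat.Agent.S19.Cech.LevelBasisBig
import Fermat.Agent.S19.Geo.BaseFrame
import Fermat.Agent.S19.Geo.LevelSitIdeal

set_option autoImplicit false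
set_option linter.unusedSectionVars false
set_option linter.style.haveILetI false

open ModularCurve TensorProduct
open Fermat.Agent.N4.Chart Fermat.Agent.N4.Setting Fermat.Agent.N4.BaseDescent
open Fermat.Agent.N4.FormalFunctions (chartSum)
open Fermat.Agent.S19.Cech.LevelBasis Fermat.Agent.S19.Cech.RedTuple
open Fermat.Agent.N4F.C Fermat.Agent.N4F.C.Levels Fermat.Agent.N4F.C.LevelCharts
open Fermat.Agent.N4F.C.ChartFactsProof (LevelPack)
open Fermat.Agent.P3G.Gamma Fermat.Agent.P3G.GammaBase Fermat.Agent.P3G.GammaAut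
open Fermat.Agent.S19.Cech.LevelBasisBig Fermat.Agent.S19.Geo.BaseLevel
open Fermat.Agent.S19.Geo.LevelSitMaps Fermat.Agent.S19.Geo.LevelSit

namespace Fermat.Agent.S19.Cech.LevelHyp

local notation "Γ" => (AlgebraicClosure ℚ ≃ₐ[ℚ] AlgebraicClosure ℚ)

/-! ## 1. `ChartHom` ⟹ `Morph` -/

section Abstract

variable {O₁ O₂ : Type*} [CommRing O₁] [CommRing O₂]
variable {Ap₁ Am₁ A0₁ : Type*} [CommRing Ap₁] [CommRing Am₁] [CommRing A0₁]
  [Algebra O₁ Ap₁] [Algebra O₁ Am₁] [Algebra O₁ A0₁]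
variable {Ap₂ Am₂ A0₂ : Type*} [CommRing Ap₂] [CommRing Am₂] [CommRing A0₂]
  [Algebra O₂ Ap₂] [Algebra O₂ Am₂] [Algebra O₂ A0₂]
variable {ip₁ : Ap₁ →ₐ[O₁] A0₁} {im₁ : Am₁ →ₐ[O₁] A0₁} {ip₂ : Ap₂ →ₐ[O₂] A0₂}
  {im₂ : Am₂ →ₐ[O₂] A0₂} {α : O₁ →+* O₂} {τp : Ap₁ →+* Ap₂} {τm : Am₁ →+* Am₂}
  {τ0 : A0₁ →+* A0₂}

/-- **A morphism of two-chart models (`LevelBasis.ChartHom`) and a ring hom `φ : S → S'` over it
give a `Cech.Morph`** between the base-changed situations; the target frame `ε'` is any family with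
`τ0 (ε i) = ε' i`. -/
theorem morph_of_chartHom (H : ChartHom ip₁ im₁ ip₂ im₂ α τp τm τ0)
    {S S' : Type*} [CommRing S] [Algebra O₁ S] [CommRing S'] [Algebra O₂ S'] (φ : S →+* S')
    (hφ : ∀ o, φ (algebraMap O₁ S o) = algebraMap O₂ S' (α o)) {g : ℕ} {ε : Fin g → A0₁}
    {ε' : Fin g → A0₂} (hε : ∀ i, τ0 (ε i) = ε' i) {𝔪 : Ideal S} {𝔪' : Ideal S'}
    (hmem : ∀ s ∈ 𝔪, φ s ∈ 𝔪') :
    Morph 𝔪 (mapS S ip₁) (mapS S im₁) (epsS S ε) 𝔪' (mapS S' ip₂) (mapS S' im₂) (epsS S' ε') φ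
      (chgMap α φ hφ τp H.alg_p) (chgMap α φ hφ τm H.alg_m) (chgMap α φ hφ τ0 H.alg_0) :=
  morph_chg α φ hφ τp H.alg_p τm H.alg_m τ0 H.alg_0 H.comm_p H.comm_m hε hmem

/-- `chgMap` on `1 ⊗ a` (the maps `q_? : a ↦ 1 ⊗ a` commute with the `ψ_?` of the morphisms). -/
theorem chgMap_one_tmul {S S' : Type*} [CommRing S] [Algebra O₁ S] [CommRing S'] [Algebra O₂ S']
    (φ : S →+* S') (hφ : ∀ o, φ (algebraMap O₁ S o) = algebraMap O₂ S' (α o))
    (hτ : ∀ o, τ0 (algebraMap O₁ A0₁ o) = algebraMap O₂ A0₂ (α o)) (a : A0₁) :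
    chgMap α φ hφ τ0 hτ ((1 : S) ⊗ₜ[O₁] a) = (1 : S') ⊗ₜ[O₂] τ0 a := by
  rw [chgMap_tmul, map_one]

end Abstract

/-! ## 2. Composition of the chart maps -/

section Compose

variable {K K' K'' : Type} [Field K] [Field K'] [Field K''] (f : K →+* K') (f' : K' →+* K'')
  (N : ℕ)

theorem ffMap_ffMap (x : FF K N) : ffMap f' N (ffMap f N x) = ffMap (f'.comp f) N x :=
  Subtype.ext (coeffMap_coeffMap f' f (x : LaurentSeries K))

omit f f' in
theorem ffMap_congr {f₁ f₂ : K →+* K'} (h : f₁ = f₂) (x : FF K N) :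
    ffMap f₁ N x = ffMap f₂ N x := by
  subst h
  rfl

omit f f' in
theorem ffMap_id (x : FF K N) : ffMap (RingHom.id K) N x = x :=
  Subtype.ext (coeffMap_id (x : LaurentSeries K))

variable (O : Subring K) (O' : Subring K') (O'' : Subring K'')
  (hOO' : ∀ a ∈ O, f a ∈ O') (hO'O'' : ∀ a ∈ O', f' a ∈ O'')

theorem finMap_finMap (hOO'' : ∀ a ∈ O, (f'.comp f) a ∈ O'') (x : ↥(Rfin K N O)) :
    finMap f' N O' O'' hO'O'' (finMap f N O O' hOO' x) = finMap (f'.comp f) N O O'' hOO'' x := by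
  apply Subtype.ext
  rw [coe_finMap, coe_finMap, coe_finMap, ffMap_ffMap]

theorem infMap_infMap (hOO'' : ∀ a ∈ O, (f'.comp f) a ∈ O'') (x : ↥(Rinf K N O)) :
    infMap f' N O' O'' hO'O'' (infMap f N O O' hOO' x) = infMap (f'.comp f) N O O'' hOO'' x := by
  apply Subtype.ext
  rw [coe_infMap, coe_infMap, coe_infMap, ffMap_ffMap]

theorem midMap_midMap (hOO'' : ∀ a ∈ O, (f'.comp f) a ∈ O'') (x : ↥(Rmid K N O)) :
    midMap f' N O' O'' hO'O'' (midMap f N O O' hOO' x) = midMap (f'.comp f) N O O'' hOO'' x := by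
  apply Subtype.ext
  rw [coe_midMap, coe_midMap, coe_midMap, ffMap_ffMap]

omit f f' in
theorem finMap_congr {f₁ f₂ : K →+* K'} (h : f₁ = f₂) (h₁ : ∀ a ∈ O, f₁ a ∈ O')
    (h₂ : ∀ a ∈ O, f₂ a ∈ O') (x : ↥(Rfin K N O)) :
    finMap f₁ N O O' h₁ x = finMap f₂ N O O' h₂ x := by
  subst h
  rfl

omit f f' in
theorem infMap_congr {f₁ f₂ : K →+* K'} (h : f₁ = f₂) (h₁ : ∀ a ∈ O, f₁ a ∈ O')
    (h₂ : ∀ a ∈ O, f₂ a ∈ O') (x : ↥(Rinf K N O)) :
    infMap f₁ N O O' h₁ x = infMap f₂ N O O' h₂ x := by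
  subst h
  rfl

omit f f' in
theorem midMap_congr {f₁ f₂ : K →+* K'} (h : f₁ = f₂) (h₁ : ∀ a ∈ O, f₁ a ∈ O')
    (h₂ : ∀ a ∈ O, f₂ a ∈ O') (x : ↥(Rmid K N O)) :
    midMap f₁ N O O' h₁ x = midMap f₂ N O O' h₂ x := by
  subst h
  rfl

omit f f' in
theorem finMap_id (h : ∀ a ∈ O, (RingHom.id K) a ∈ O) (x : ↥(Rfin K N O)) :
    finMap (RingHom.id K) N O O h x = x := by
  apply Subtype.ext
  rw [coe_finMap, ffMap_id]

omit f f' in
theorem infMap_id (h : ∀ a ∈ O, (RingHom.id K) a ∈ O) (x : ↥(Rinf K N O)) :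
    infMap (RingHom.id K) N O O h x = x := by
  apply Subtype.ext
  rw [coe_infMap, ffMap_id]

omit f f' in
theorem midMap_id (h : ∀ a ∈ O, (RingHom.id K) a ∈ O) (x : ↥(Rmid K N O)) :
    midMap (RingHom.id K) N O O h x = x := by
  apply Subtype.ext
  rw [coe_midMap, ffMap_id]

end Compose

/-! ## 3. Level inclusions compose (`hlift`) -/

section Incl

variable (A : ValuationSubring Qb) (N : ℕ) {K₁ L L' : IntermediateField ℚ Qb} (hKL : K₁ ≤ L)
  (hLL' : L ≤ L')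

theorem lvlIncl_comp :
    (LevelBasis.lvlIncl hLL').comp (LevelBasis.lvlIncl hKL) = LevelBasis.lvlIncl (hKL.trans hLL') :=
  RingHom.ext fun _ => rfl

theorem baseMapIncl_baseMapIncl (c : ↥(baseRing A K₁)) :
    baseMapIncl A hLL' (baseMapIncl A hKL c) = baseMapIncl A (hKL.trans hLL') c := rfl

theorem finIncl_finIncl (x : ↥(Rfin (Lvl K₁) N (baseRing A K₁))) :
    finIncl A N hLL' (finIncl A N hKL x) = finIncl A N (hKL.trans hLL') x := by
  unfold finIncl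
  rw [finMap_finMap (LevelBasis.lvlIncl hKL) (LevelBasis.lvlIncl hLL') N (baseRing A K₁)
    (baseRing A L) (baseRing A L') (LevelBasis.lvlIncl_mem A hKL) (LevelBasis.lvlIncl_mem A hLL')
    (fun a ha => LevelBasis.lvlIncl_mem A (hKL.trans hLL') a ha)]
  exact finMap_congr N _ _ (lvlIncl_comp hKL hLL') _ _ x

theorem infIncl_infIncl (x : ↥(Rinf (Lvl K₁) N (baseRing A K₁))) :
    infIncl A N hLL' (infIncl A N hKL x) = infIncl A N (hKL.trans hLL') x := by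
  unfold infIncl
  rw [infMap_infMap (LevelBasis.lvlIncl hKL) (LevelBasis.lvlIncl hLL') N (baseRing A K₁)
    (baseRing A L) (baseRing A L') (LevelBasis.lvlIncl_mem A hKL) (LevelBasis.lvlIncl_mem A hLL')
    (fun a ha => LevelBasis.lvlIncl_mem A (hKL.trans hLL') a ha)]
  exact infMap_congr N _ _ (lvlIncl_comp hKL hLL') _ _ x

/-- **the frame of `L'` is the image of the frame of `L`** (both induced from `K₁`) -/
theorem midIncl_midIncl (x : ↥(Rmid (Lvl K₁) N (baseRing A K₁))) :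
    midIncl A N hLL' (midIncl A N hKL x) = midIncl A N (hKL.trans hLL') x := by
  unfold midIncl
  rw [midMap_midMap (LevelBasis.lvlIncl hKL) (LevelBasis.lvlIncl hLL') N (baseRing A K₁)
    (baseRing A L) (baseRing A L') (LevelBasis.lvlIncl_mem A hKL) (LevelBasis.lvlIncl_mem A hLL')
    (fun a ha => LevelBasis.lvlIncl_mem A (hKL.trans hLL') a ha)]
  exact midMap_congr N _ _ (lvlIncl_comp hKL hLL') _ _ x

end Incl

/-! ## 4. `σ` fixing a level pointwise (`hinertia`) -/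

section Fix

variable {A : ValuationSubring Qb} (K : IntermediateField ℚ Qb)
  (hK : ∀ (τ : Γ) (x : Qb), x ∈ K → τ x ∈ K) (N : ℕ) [NeZero N] {τ : Γ}
  (hτ : τ ∈ A.decompositionSubgroup ℚ) (hfix : ∀ x ∈ K, τ x = x)

include hfix in
theorem galLvl_eq_id_of_fixes : galLvl K hK τ = RingHom.id (Lvl K) :=
  RingHom.ext fun x => (algebraMap (Lvl K) Qb).injective
    ((algebraMap_galLvl K hK τ x).trans (hfix _ (Lvl.algebraMap_mem K x)))

include hfix in
theorem baseGal_eq_self_of_fixes (c : ↥(baseRing A K)) : baseGal K hK hτ c = c :=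
  Subtype.ext (by
    change galLvl K hK τ (c : Lvl K) = (c : Lvl K)
    rw [galLvl_eq_id_of_fixes K hK hfix]; rfl)

include hfix in
theorem finGal_eq_self_of_fixes (x : ↥(Rfin (Lvl K) N (baseRing A K))) :
    finGal K hK N hτ x = x := by
  unfold finGal
  rw [finMap_congr N _ _ (galLvl_eq_id_of_fixes K hK hfix) _ (fun a ha => ha) x]
  exact finMap_id N _ _ x

include hfix in
theorem infGal_eq_self_of_fixes (x : ↥(Rinf (Lvl K) N (baseRing A K))) :
    infGal K hK N hτ x = x := by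
  unfold infGal
  rw [infMap_congr N _ _ (galLvl_eq_id_of_fixes K hK hfix) _ (fun a ha => ha) x]
  exact infMap_id N _ _ x

include hfix in
/-- an automorphism fixing the level pointwise acts trivially on its overlap chart -/
theorem midGal_eq_self_of_fixes (x : ↥(Rmid (Lvl K) N (baseRing A K))) :
    midGal K hK N hτ x = x := by
  unfold midGal
  rw [midMap_congr N _ _ (galLvl_eq_id_of_fixes K hK hfix) _ (fun a ha => ha) x]
  exact midMap_id N _ _ x

end Fix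

section FixIncl

variable {A : ValuationSubring Qb} {K₁ L : IntermediateField ℚ Qb} (hKL : K₁ ≤ L)
  (hK₁ : ∀ (τ : Γ) (x : Qb), x ∈ K₁ → τ x ∈ K₁) (hL : ∀ (τ : Γ) (x : Qb), x ∈ L → τ x ∈ L)
  (N : ℕ) [NeZero N] {τ : Γ} (hτ : τ ∈ A.decompositionSubgroup ℚ) (hfix : ∀ x ∈ K₁, τ x = x)

include hK₁ hfix in
/-- **`σ` fixing `K₁` pointwise fixes the image in `Rmid(L)` of everything defined over `K₁`.** -/
theorem midGal_midIncl_of_fixes (x : ↥(Rmid (Lvl K₁) N (baseRing A K₁))) :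
    midGal L hL N hτ (midIncl A N hKL x) = midIncl A N hKL x := by
  rw [midGal_midIncl hKL hK₁ hL N hτ x, midGal_eq_self_of_fixes K₁ hK₁ N hτ hfix x]

include hK₁ hfix in
theorem finGal_finIncl_of_fixes (x : ↥(Rfin (Lvl K₁) N (baseRing A K₁))) :
    finGal L hL N hτ (finIncl A N hKL x) = finIncl A N hKL x := by
  rw [finGal_finIncl hKL hK₁ hL N hτ x, finGal_eq_self_of_fixes K₁ hK₁ N hτ hfix x]

include hK₁ hfix in
theorem infGal_infIncl_of_fixes (x : ↥(Rinf (Lvl K₁) N (baseRing A K₁))) :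
    infGal L hL N hτ (infIncl A N hKL x) = infIncl A N hKL x := by
  rw [infGal_infIncl hKL hK₁ hL N hτ x, infGal_eq_self_of_fixes K₁ hK₁ N hτ hfix x]

include hK₁ hfix in
theorem baseGal_baseMapIncl_of_fixes (c : ↥(baseRing A K₁)) :
    baseGal L hL hτ (baseMapIncl A hKL c) = baseMapIncl A hKL c := by
  rw [baseGal_baseMapIncl hKL hK₁ hL hτ c, baseGal_eq_self_of_fixes K₁ hK₁ hτ hfix c]

end FixIncl

/-! ## 5. The frame `F : Frame A N` at the levels -/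

section Frame

variable {A : ValuationSubring Qb} {N : ℕ} [NeZero N] {ℓ : ℕ} (F : Frame A N)
  {L L' : IntermediateField ℚ Qb} (h0 : K0 A ≤ L)

/-- **`hlift`** : the frame of `L'` is the image of the frame of `L ≤ L'`. -/
theorem εL_trans (hLL' : L ≤ L') (i : Fin F.g) :
    midIncl A N hLL' (F.εL h0 i) = F.εL (h0.trans hLL') i :=
  midIncl_midIncl A N h0 hLL' (F.ε i)

variable (hL : ∀ (τ : Γ) (x : Qb), x ∈ L → τ x ∈ L) {σ : Γ}

/-- **`hinertia`** : `σ ∈ I_A` fixes the frame of every stable level `L ⊇ K₀`. -/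
theorem midGal_εL_of_mem_inertia (hℓ : ℓ.Prime) (hA : A.LiesOverPrime ℓ)
    (hσ : σ ∈ A.inertiaSubgroupIn ℚ) (hσD : σ ∈ A.decompositionSubgroup ℚ) (i : Fin F.g) :
    midGal L hL N hσD (F.εL h0 i) = F.εL h0 i :=
  midGal_midIncl_of_fixes h0 K0_stable hL N hσD (fun _ hx => apply_eq_of_mem_K0 hℓ hA hσ hx)
    (F.ε i)

/-- **the twisted frame `εt = σ ε₁`** at the base level, `σ ∈ D_A` (the `εt` of `htwist`). -/
noncomputable def εt (F : Frame A N) {σ : Γ} (hσD : σ ∈ A.decompositionSubgroup ℚ) :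
    Fin F.g → A0 A N :=
  fun i => midGal (K0 A) K0_stable N hσD (F.ε i)

/-- **`htwist`** : `σ ∈ D_A` moves the frame of `L` to the image of the base-level family `εt`. -/
theorem midGal_εL (hσD : σ ∈ A.decompositionSubgroup ℚ) (i : Fin F.g) :
    midGal L hL N hσD (F.εL h0 i) = midIncl A N h0 (εt F hσD i) :=
  midGal_midIncl h0 K0_stable hL N hσD (F.ε i)

/-- for `σ ∈ I_A` the twisted frame is the frame -/
theorem εt_of_mem_inertia (hℓ : ℓ.Prime) (hA : A.LiesOverPrime ℓ)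
    (hσ : σ ∈ A.inertiaSubgroupIn ℚ) (hσD : σ ∈ A.decompositionSubgroup ℚ) (i : Fin F.g) :
    εt F hσD i = F.ε i :=
  midGal_eq_self_of_fixes (K0 A) K0_stable N hσD
    (fun _ hx => apply_eq_of_mem_K0 hℓ hA hσ hx) (F.ε i)

/-- the twisted frame again satisfies `HypAll` at the base level -/
theorem hypAll_εt (hℓ : ℓ.Prime) (hA : A.LiesOverPrime ℓ) (hℓN : ¬ ℓ ∣ N)
    (hσD : σ ∈ A.decompositionSubgroup ℚ) : HypAll (ip₁ A N) (im₁ A N) (εt F hσD) := by
  haveI := dvr_K0 hℓ hA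
  exact hypAll_gal (K0 A) K0_stable N hσD (Fermat.Agent.S19.Geo.BaseLevel.levelPack_K0 hℓ hA hℓN) F.ε F.b F.hb

end Frame

/-! ## 6. `Hyp` at the level `L` and the precision `n` -/

section Hyp

variable {A : ValuationSubring Qb} {N : ℕ} [NeZero N] {ℓ : ℕ} (F : Frame A N)
  {L : IntermediateField ℚ Qb} (h0 : K0 A ≤ L)

/-- `𝔪_L / ℓⁿ` is nilpotent when `O_L` is a discrete valuation ring. -/
theorem mL_nilpotent_of_dvr (L : IntermediateField ℚ Qb)
    [IsDiscreteValuationRing ↥(baseRing A L)] (hℓ0 : ℓ ≠ 0) (n : ℕ) :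
    ∃ M : ℕ, mL A ℓ L n ^ M = ⊥ := by
  obtain ⟨ϖ, hϖ⟩ := IsDiscreteValuationRing.exists_irreducible ↥(baseRing A L)
  have hℓ' : ((ℓ : ℕ) : ↥(baseRing A L)) ≠ 0 := Nat.cast_ne_zero.2 hℓ0
  obtain ⟨e, u, hu⟩ := IsDiscreteValuationRing.eq_unit_mul_pow_irreducible hℓ' hϖ
  refine ⟨e * n, mL_pow_eq_bot L n hϖ.maximalIdeal_eq
    ⟨((u⁻¹ : (↥(baseRing A L))ˣ) : ↥(baseRing A L)), ?_⟩⟩
  rw [hu, mul_comm ((u : ↥(baseRing A L))), mul_assoc, Units.mul_inv, mul_one]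

variable [IsDiscreteValuationRing ↥(baseRing A L)] (P : LevelPack A N L)

include P in
/-- **`Hyp` at `(L, n)` in the `mL` shape** (`S = SL A ℓ L n = O_L ⧸ (ℓⁿ)`, `𝔪 = mL A ℓ L n`, frame the
image of the base frame). -/
theorem hyp_mL (hℓ : ℓ.Prime) (hA : A.LiesOverPrime ℓ) (hℓN : ¬ ℓ ∣ N) (n : ℕ) :
    Hyp (mL A ℓ L n) (mapS (SL A ℓ L n) (inclFin (Lvl L) N (baseRing A L)))
      (mapS (SL A ℓ L n) (inclInf (Lvl L) N (baseRing A L))) (epsS (SL A ℓ L n) (F.εL h0)) :=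
  F.hypAll_level h0 P hℓ hA hℓN (SL A ℓ L n) (mL A ℓ L n) (mL_nilpotent_of_dvr L hℓ.ne_zero n)

include P in
/-- **`Hyp` at `(L, m + 1)` in the `LevelSit.mS` shape** : the argument `H` of `LevelSit.sit`
(`O := OL A L`, `B_? := Rfin/Rinf/Rmid`, `ε₀ := F.εL h0`; `mapS S (inclFin ..)` is definitionally
`mapS S (Subalgebra.inclusion hp)`). -/
theorem hyp_mS (hℓ : ℓ.Prime) (hA : A.LiesOverPrime ℓ) (hℓN : ¬ ℓ ∣ N) {ϖ : OL A L} {e : ℕ}
    (hℓe : Associated ((ℓ : OL A L)) (ϖ ^ e)) (m : ℕ) :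
    Hyp (mS (OL A L) ϖ ℓ m) (mapS (Quo (OL A L) ℓ (m + 1)) (inclFin (Lvl L) N (baseRing A L)))
      (mapS (Quo (OL A L) ℓ (m + 1)) (inclInf (Lvl L) N (baseRing A L)))
      (epsS (Quo (OL A L) ℓ (m + 1)) (F.εL h0)) :=
  F.hypAll_level h0 P hℓ hA hℓN (Quo (OL A L) ℓ (m + 1)) (mS (OL A L) ϖ ℓ m)
    ⟨_, Fermat.Agent.S19.Geo.LevelSitIdeal.mS_pow_eq_bot_of_associated hℓe m⟩

include P in
/-- the same with `Subalgebra.inclusion`, literally the type of the argument `H` of `LevelSit.sit` -/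
theorem hyp_mS' (hℓ : ℓ.Prime) (hA : A.LiesOverPrime ℓ) (hℓN : ¬ ℓ ∣ N) {ϖ : OL A L} {e : ℕ}
    (hℓe : Associated ((ℓ : OL A L)) (ϖ ^ e)) (m : ℕ)
    (hp : Rfin (Lvl L) N (baseRing A L) ≤ Rmid (Lvl L) N (baseRing A L))
    (hm : Rinf (Lvl L) N (baseRing A L) ≤ Rmid (Lvl L) N (baseRing A L)) :
    Hyp (mS (OL A L) ϖ ℓ m) (mapS (Quo (OL A L) ℓ (m + 1)) (Subalgebra.inclusion hp))
      (mapS (Quo (OL A L) ℓ (m + 1)) (Subalgebra.inclusion hm))
      (epsS (Quo (OL A L) ℓ (m + 1)) (F.εL h0)) :=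
  hyp_mS F h0 P hℓ hA hℓN hℓe m

end Hyp

end Fermat.Agent.S19.Cech.LevelHyp
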