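/-
S19, Čech route, base change of the charts (helper19): **base change of a normal ring with reduced
special fibre along a (possibly ramified) extension of discrete valuation rings with the same
residue field is normal.**  Mathlib only.

`B` a commutative ring, `F'` a field containing (the image of) `B`, `π ∈ B` with `B / π B` reduced;
`C ⊆ F'` a subring (the bigger valuation ring `O_L`), integral over `B`, `ϖ ∈ C` with
`C = B + ϖ C` ("same residue field"), `ϖ ∣ π` and `π ∣ ϖ ^ e` in `C`;  `R := B[C] ⊆ F'`.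

* `Hyp.mem_of_mul_mem` : `w` integral over `B`, `ϖ w ∈ R` ⟹ `w ∈ R`  (the radical step; it needs
  `R ∩ π⁻¹ B ⊆ B`-type information, packaged as `Hyp.descend`: `b ∈ B`, `b ∈ π R` ⟹ `b ∈ π B`);
* `Hyp.mem_of_pow_mul_mem`, `Hyp.mem_of_pi_pow_mul_mem` : the same for `ϖ ^ m`, `π ^ s`;
* `isIntegral_iff_mem_adjoin` : for `B` an integrally closed domain with fraction field `F`,
  `F'/F` finite separable with a power basis whose generator lies in `C` and whose discriminant
  divides a power of `π` in `B`: the integral closure of `B` in `F'` is `B[C]`.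
-/
import Mathlib

set_option autoImplicit false

open Polynomial

namespace Fermat.Agent.S19.Cech.RamifiedNormal

section Core

variable {B F' : Type*} [CommRing B] [Field F'] [Algebra B F']

/-- The hypotheses of the core lemma. -/
structure Hyp (π : B) (C : Subring F') (ϖ : F') : Prop where
  /-- `B / π B` is reduced -/
  rad : (Ideal.span {π}).IsRadical
  /-- `ϖ ∈ C`, `ϖ ≠ 0` -/
  mem : ϖ ∈ C
  ne_zero : ϖ ≠ 0
  /-- `C` is integral over `B` -/
  int : ∀ c ∈ C, IsIntegral B c
  /-- `C = B + ϖ C` -/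
  res : ∀ c ∈ C, ∃ a : B, ∃ c' ∈ C, c = algebraMap B F' a + ϖ * c'
  /-- `ϖ ∣ π` in `C` -/
  dvd_pi : ∃ c ∈ C, algebraMap B F' π = ϖ * c
  /-- `π ∣ ϖ ^ e` in `C` -/
  pi_dvd : ∃ (e : ℕ), ∃ c ∈ C, ϖ ^ e = algebraMap B F' π * c
  /-- `π R ∩ B = π B`, where `R = B[C]` -/
  descend : ∀ b : B, (∃ r ∈ Algebra.adjoin B (C : Set F'), algebraMap B F' b = algebraMap B F' π * r) →
    π ∣ b

variable {π : B} {C : Subring F'} {ϖ : F'}

/-- `R = B[C]`. -/
local notation "Rr" => Algebra.adjoin B ((C : Subring F') : Set F')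

theorem subset_R {c : F'} (hc : c ∈ C) : c ∈ Algebra.adjoin B (C : Set F') :=
  Algebra.subset_adjoin hc

/-- `R = B + ϖ R`. -/
theorem Hyp.res_R (h : Hyp π C ϖ) {r : F'} (hr : r ∈ Algebra.adjoin B (C : Set F')) :
    ∃ a : B, ∃ r' ∈ Algebra.adjoin B (C : Set F'), r = algebraMap B F' a + ϖ * r' := by
  induction hr using Algebra.adjoin_induction with
  | mem c hc =>
    obtain ⟨a, c', hc', h1⟩ := h.res c hc
    exact ⟨a, c', subset_R hc', h1⟩
  | algebraMap b => exact ⟨b, 0, zero_mem _, by simp⟩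
  | add x y _ _ hx hy =>
    obtain ⟨a, x', hx', rfl⟩ := hx
    obtain ⟨b, y', hy', rfl⟩ := hy
    exact ⟨a + b, x' + y', add_mem hx' hy', by rw [map_add]; ring⟩
  | mul x y _ hy0 hx hy =>
    obtain ⟨a, x', hx', hxe⟩ := hx
    obtain ⟨b, y', hy', hye⟩ := hy
    refine ⟨a * b, algebraMap B F' a * y' + x' * y, ?_, ?_⟩
    · exact add_mem (mul_mem (Subalgebra.algebraMap_mem _ _) hy') (mul_mem hx' hy0)
    · calc x * y = (algebraMap B F' a + ϖ * x') * y := by rw [← hxe]
        _ = algebraMap B F' a * y + ϖ * (x' * y) := by ring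
        _ = algebraMap B F' a * (algebraMap B F' b + ϖ * y') + ϖ * (x' * y) := by rw [← hye]
        _ = algebraMap B F' (a * b) + ϖ * (algebraMap B F' a * y' + x' * y) := by
          rw [map_mul]; ring

/-- Elements of `B[C]` are integral over `B`. -/
theorem isIntegral_of_mem_adjoin (hint : ∀ c ∈ C, IsIntegral B c) {r : F'}
    (hr : r ∈ Algebra.adjoin B (C : Set F')) : IsIntegral B r := by
  induction hr using Algebra.adjoin_induction with
  | mem c hc => exact hint c hc
  | algebraMap b => exact isIntegral_algebraMap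
  | add x y _ _ hx hy => exact hx.add hy
  | mul x y _ _ hx hy => exact hx.mul hy

/-- Elements of `R` are integral over `B`. -/
theorem Hyp.isIntegral_R (h : Hyp π C ϖ) {r : F'} (hr : r ∈ Algebra.adjoin B (C : Set F')) :
    IsIntegral B r := isIntegral_of_mem_adjoin h.int hr

/-- **The radical step.** -/
theorem Hyp.mem_of_mul_mem (h : Hyp π C ϖ) {w : F'} (hw : IsIntegral B w)
    (hy : ϖ * w ∈ Algebra.adjoin B (C : Set F')) : w ∈ Algebra.adjoin B (C : Set F') := by
  classical
  have hϖR : ϖ ∈ Algebra.adjoin B (C : Set F') := subset_R h.mem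
  obtain ⟨P, hPm, hP⟩ := hw
  set r := P.natDegree with hr
  have hr1 : 1 ≤ r := by
    by_contra h0
    have h0' : P.natDegree = 0 := by omega
    have : P = 1 := hPm.natDegree_eq_zero.mp h0'
    rw [this] at hP
    simp at hP
  -- `y ^ r ∈ ϖ R`
  have hyr : ∃ t ∈ Algebra.adjoin B (C : Set F'), (ϖ * w) ^ r = ϖ * t := by
    have hsum : w ^ r = -∑ i ∈ Finset.range r, algebraMap B F' (P.coeff i) * w ^ i := by
      have := hP
      rw [eval₂_eq_sum_range, Finset.sum_range_succ, ← hr, hPm.coeff_natDegree, map_one,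
        one_mul] at this
      exact eq_neg_of_add_eq_zero_right this
    refine ⟨-∑ i ∈ Finset.range r, algebraMap B F' (P.coeff i) * ϖ ^ (r - 1 - i) * (ϖ * w) ^ i,
      ?_, ?_⟩
    · refine neg_mem (sum_mem fun i _ => ?_)
      exact mul_mem (mul_mem (Subalgebra.algebraMap_mem _ _) (pow_mem hϖR _)) (pow_mem hy _)
    · rw [mul_pow, hsum, mul_neg, mul_neg, Finset.mul_sum, Finset.mul_sum]
      congr 1
      refine Finset.sum_congr rfl fun i hi => ?_
      have hi' : i < r := Finset.mem_range.mp hi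
      have : ϖ ^ r = ϖ * ϖ ^ (r - 1 - i) * ϖ ^ i := by
        rw [← pow_succ', ← pow_add]
        congr 1
        omega
      rw [this, mul_pow]
      ring
  obtain ⟨t, ht, hyt⟩ := hyr
  -- `y = b + ϖ y₁`
  obtain ⟨b, y₁, hy₁, hyb⟩ := h.res_R hy
  -- `b ^ r ∈ ϖ R`
  have hbr : ∃ t' ∈ Algebra.adjoin B (C : Set F'), algebraMap B F' b ^ r = ϖ * t' := by
    obtain ⟨k, hk⟩ : ∃ k ∈ Algebra.adjoin B (C : Set F'),
        algebraMap B F' b ^ r - (ϖ * w) ^ r = (algebraMap B F' b - ϖ * w) * k := by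
      refine ⟨∑ i ∈ Finset.range r, algebraMap B F' b ^ i * (ϖ * w) ^ (r - 1 - i), ?_, ?_⟩
      · exact sum_mem fun i _ => mul_mem (pow_mem (Subalgebra.algebraMap_mem _ _) _) (pow_mem hy _)
      · exact (geom_sum₂_mul _ _ r).symm.trans (mul_comm _ _)
    obtain ⟨hkR, hk⟩ := hk
    refine ⟨t - y₁ * k, sub_mem ht (mul_mem hy₁ hkR), ?_⟩
    have h1 : algebraMap B F' b - ϖ * w = -(ϖ * y₁) := by rw [hyb]; ring
    rw [h1] at hk
    have h2 : algebraMap B F' b ^ r = (ϖ * w) ^ r + -(ϖ * y₁) * k := by rw [← hk]; ring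
    rw [h2, hyt]
    ring
  obtain ⟨t', ht', hbt⟩ := hbr
  -- `b ^ (r e) ∈ π R`, hence `b ∈ π B`
  obtain ⟨e, c, hc, hϖe⟩ := h.pi_dvd
  have hb : π ∣ b ^ (r * e) := by
    apply h.descend
    refine ⟨c * t' ^ e, mul_mem (subset_R hc) (pow_mem ht' _), ?_⟩
    rw [map_pow, pow_mul, hbt, mul_pow, hϖe]
    ring
  have hb' : b ∈ Ideal.span {π} := h.rad ⟨r * e, Ideal.mem_span_singleton.mpr hb⟩
  obtain ⟨b', hb'⟩ := Ideal.mem_span_singleton'.mp hb'
  obtain ⟨c₁, hc₁, hπ⟩ := h.dvd_pi
  -- `y = ϖ y'`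
  have hy' : ϖ * w = ϖ * (algebraMap B F' b' * c₁ + y₁) := by
    rw [hyb, ← hb', map_mul, hπ]
    ring
  have hw' : w = algebraMap B F' b' * c₁ + y₁ := mul_left_cancel₀ h.ne_zero hy'
  rw [hw']
  exact add_mem (mul_mem (Subalgebra.algebraMap_mem _ _) (subset_R hc₁)) hy₁

/-- `z` integral over `B` and `ϖ ^ m z ∈ R` imply `z ∈ R`. -/
theorem Hyp.mem_of_pow_mul_mem (h : Hyp π C ϖ) {z : F'} (hz : IsIntegral B z) :
    ∀ m : ℕ, ϖ ^ m * z ∈ Algebra.adjoin B (C : Set F') → z ∈ Algebra.adjoin B (C : Set F') := by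
  have hϖ : IsIntegral B ϖ := h.int ϖ h.mem
  intro m
  induction m with
  | zero => intro hm; simpa using hm
  | succ m ih =>
    intro hm
    apply ih
    apply h.mem_of_mul_mem ((hϖ.pow m).mul hz)
    rw [← mul_assoc, ← pow_succ']
    exact hm

/-- `z` integral over `B` and `π ^ s z ∈ R` imply `z ∈ R`. -/
theorem Hyp.mem_of_pi_pow_mul_mem (h : Hyp π C ϖ) {z : F'} (hz : IsIntegral B z) (s : ℕ)
    (hs : algebraMap B F' π ^ s * z ∈ Algebra.adjoin B (C : Set F')) :
    z ∈ Algebra.adjoin B (C : Set F') := by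
  obtain ⟨e, c, hc, hpow⟩ := h.pi_dvd
  apply h.mem_of_pow_mul_mem hz (e * s)
  rw [pow_mul, hpow, mul_pow]
  have : algebraMap B F' π ^ s * c ^ s * z = c ^ s * (algebraMap B F' π ^ s * z) := by ring
  rw [this]
  exact mul_mem (pow_mem (subset_R hc) _) hs

end Core

section Field

variable {B F F' : Type*} [CommRing B] [Field F] [Field F'] [Algebra B F] [Algebra F F']
  [Algebra B F'] [IsScalarTower B F F']

/-- The hypothesis `descend` when `B` is integrally closed in a subfield `F` of `F'`. -/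
theorem descend_of_isIntegrallyClosed [IsDomain B] [IsIntegrallyClosed B] [IsFractionRing B F]
    {π : B} (hπ : π ≠ 0) {C : Subring F'} (hint : ∀ c ∈ C, IsIntegral B c) (b : B)
    (hb : ∃ r ∈ Algebra.adjoin B (C : Set F'), algebraMap B F' b = algebraMap B F' π * r) :
    π ∣ b := by
  obtain ⟨r, hr, hbr⟩ := hb
  have hinjF : Function.Injective (algebraMap B F) := IsFractionRing.injective B F
  have hrint : IsIntegral B r := isIntegral_of_mem_adjoin hint hr
  have hπF : algebraMap B F π ≠ 0 := fun h0 => hπ (hinjF (by rw [h0, map_zero]))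
  have hr' : r = algebraMap F F' (algebraMap B F b / algebraMap B F π) := by
    rw [map_div₀, ← IsScalarTower.algebraMap_apply, ← IsScalarTower.algebraMap_apply, hbr,
      mul_div_cancel_left₀]
    rw [IsScalarTower.algebraMap_apply B F F']
    exact fun h0 => hπF ((algebraMap F F').injective (by rw [h0, map_zero]))
  rw [hr'] at hrint
  have h2 : IsIntegral B (algebraMap B F b / algebraMap B F π) :=
    (isIntegral_algebraMap_iff (algebraMap F F').injective).mp hrint
  obtain ⟨b₁, hb₁⟩ := IsIntegrallyClosed.isIntegral_iff.mp h2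
  refine ⟨b₁, hinjF ?_⟩
  rw [map_mul, hb₁, mul_div_cancel₀ _ hπF]

/-- **Base change of a normal domain with reduced special fibre along an extension of discrete
valuation rings with the same residue field is normal.**
`B` an integrally closed domain with fraction field `F`, `π ∈ B` nonzero with `B / π` reduced,
`F'/F` finite separable with power basis `pb`; `C ⊆ F'` a subring, integral over `B`, containing
`pb.gen`, with `ϖ ∈ C`, `C = B + ϖ C`, `ϖ ∣ π`, `π ∣ ϖ ^ e` in `C`; the discriminant of the power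
basis divides a power of `π` in `B`.  Then the integral closure of `B` in `F'` is `B[C]`. -/
theorem isIntegral_iff_mem_adjoin [IsDomain B] [IsIntegrallyClosed B] [IsFractionRing B F]
    [Algebra.IsSeparable F F'] (pb : PowerBasis F F') {π : B} (hπ : π ≠ 0)
    (hrad : (Ideal.span {π}).IsRadical) {C : Subring F'} {ϖ : F'} (hϖ : ϖ ∈ C) (hϖ0 : ϖ ≠ 0)
    (hint : ∀ c ∈ C, IsIntegral B c)
    (hres : ∀ c ∈ C, ∃ a : B, ∃ c' ∈ C, c = algebraMap B F' a + ϖ * c')
    (hdvd : ∃ c ∈ C, algebraMap B F' π = ϖ * c)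
    (hpow : ∃ (e : ℕ), ∃ c ∈ C, ϖ ^ e = algebraMap B F' π * c)
    (hgen : pb.gen ∈ C)
    (hdisc : ∃ (s : ℕ) (c : B),
      algebraMap B F c * Algebra.discr F pb.basis = algebraMap B F (π ^ s))
    (z : F') : IsIntegral B z ↔ z ∈ Algebra.adjoin B (C : Set F') := by
  have : FiniteDimensional F F' := pb.finite
  have hyp : Hyp π C ϖ :=
    ⟨hrad, hϖ, hϖ0, hint, hres, hdvd, hpow, descend_of_isIntegrallyClosed (F := F) hπ hint⟩
  constructor
  · intro hz
    obtain ⟨s, c, hc⟩ := hdisc
    have h1 := Algebra.discr_mul_isIntegral_mem_adjoin (K := F) (B := pb) (hint _ hgen) hz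
    have h1' : Algebra.discr F pb.basis • z ∈ Algebra.adjoin B (C : Set F') :=
      Algebra.adjoin_mono (Set.singleton_subset_iff.mpr hgen) h1
    apply hyp.mem_of_pi_pow_mul_mem hz s
    have h2 : algebraMap B F' π ^ s * z = c • (Algebra.discr F pb.basis • z) := by
      rw [← map_pow, IsScalarTower.algebraMap_apply B F F', ← hc, map_mul, Algebra.smul_def,
        Algebra.smul_def, IsScalarTower.algebraMap_apply B F F', mul_assoc]
    rw [h2]
    exact Subalgebra.smul_mem _ h1' c
  · intro hz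
    exact hyp.isIntegral_R hz

end Field

end Fermat.Agent.S19.Cech.RamifiedNormal
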