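/-
S19, Čech route (helper19): **base change of the charts along a (ramified) extension of the base
discrete valuation ring with the same residue field** — generic form.

`O ⊆ O'` commutative rings (discrete valuation rings in the application), `F ⊆ F'` fields,
`S ⊆ F`;  `B = chartAlg O F S` (integral closure of `O[S]` in `F`),
`B' = chartAlg O' F' S'`, `S' =` image of `S`.

* `adjoin_le_chartAlg` : `B[O'] ⊆ B'`;
* `isIntegral_of_mem_chartAlg` : if `O'` is integral over `O`, every element of `B'` is integral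
  over `B`;
* `mem_chartAlg_iff_mem_adjoin` : under the hypotheses of `RamifiedNormal.isIntegral_iff_mem_adjoin`
  (`B` integrally closed with fraction field `F`, `B / π` reduced, `O'` integral over `O` with the
  same residue field, `ϖ ∣ π ∣ ϖ ^ e` in `O'`, a power basis of `F'/F` with generator in `O'` and
  discriminant dividing a power of `π`) : **`B' = B[O']`**.
-/
import Mathlib
import Fermat.Agent.N4.Chart
import Fermat.Agent.S19.Cech.RamifiedNormal

set_option autoImplicit false
set_option linter.unusedSectionVars false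

open Polynomial Fermat.Agent.N4.Chart

namespace Fermat.Agent.S19.Cech.ChartBaseChange

section Generic

variable {O O' F F' : Type*} [CommRing O] [CommRing O'] [Field F] [Field F']
  [Algebra O F] [Algebra O' F'] [Algebra F F'] [Algebra O O'] [Algebra O F']
  [IsScalarTower O F F'] [IsScalarTower O O' F'] (S : Set F)

/-- Base change maps `O[S]` into `O'[S']`. -/
theorem map_mem_adjoin {x : F} (hx : x ∈ Algebra.adjoin O S) :
    algebraMap F F' x ∈ Algebra.adjoin O' (algebraMap F F' '' S) := by
  induction hx using Algebra.adjoin_induction with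
  | mem y hy => exact Algebra.subset_adjoin ⟨y, hy, rfl⟩
  | algebraMap a =>
    rw [← IsScalarTower.algebraMap_apply O F F', IsScalarTower.algebraMap_apply O O' F']
    exact Subalgebra.algebraMap_mem _ _
  | add y z _ _ hy hz => rw [map_add]; exact add_mem hy hz
  | mul y z _ _ hy hz => rw [map_mul]; exact mul_mem hy hz

/-- Base change maps the chart over `O` into the chart over `O'`. -/
theorem map_mem_chartAlg {x : F} (hx : x ∈ chartAlg O F S) :
    algebraMap F F' x ∈ chartAlg O' F' (algebraMap F F' '' S) := by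
  rw [mem_chartAlg_iff] at hx ⊢
  let ψ : ↥(Algebra.adjoin O S) →+* ↥(Algebra.adjoin O' (algebraMap F F' '' S)) :=
    ((algebraMap F F').comp (algebraMap ↥(Algebra.adjoin O S) F)).codRestrict
      (Algebra.adjoin O' (algebraMap F F' '' S)) (fun a => map_mem_adjoin S a.2)
  exact hx.map_of_comp_eq ψ (algebraMap F F') (by ext; rfl)

/-- `B[O'] ⊆ B'`. -/
theorem adjoin_le_chartAlg {x : F'}
    (hx : x ∈ Algebra.adjoin ↥(chartAlg O F S) ((algebraMap O' F').range : Set F')) :
    x ∈ chartAlg O' F' (algebraMap F F' '' S) := by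
  induction hx using Algebra.adjoin_induction with
  | mem y hy =>
    obtain ⟨c, rfl⟩ := hy
    exact Subalgebra.algebraMap_mem _ c
  | algebraMap b => exact map_mem_chartAlg S b.2
  | add y z _ _ hy hz => exact add_mem hy hz
  | mul y z _ _ hy hz => exact mul_mem hy hz

/-- `O'[S'] ⊆ B[O']`. -/
theorem adjoin_le_adjoin {x : F'} (hx : x ∈ Algebra.adjoin O' (algebraMap F F' '' S)) :
    x ∈ Algebra.adjoin ↥(chartAlg O F S) ((algebraMap O' F').range : Set F') := by
  induction hx using Algebra.adjoin_induction with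
  | mem y hy =>
    obtain ⟨s, hs, rfl⟩ := hy
    exact Subalgebra.algebraMap_mem _ (⟨s, subset_chartAlg S hs⟩ : ↥(chartAlg O F S))
  | algebraMap c => exact Algebra.subset_adjoin ⟨c, rfl⟩
  | add y z _ _ hy hz => exact add_mem hy hz
  | mul y z _ _ hy hz => exact mul_mem hy hz

/-- If `O'` is integral over `O`, the elements of `B'` are integral over `B`. -/
theorem isIntegral_of_mem_chartAlg (hint : ∀ c : O', IsIntegral O (algebraMap O' F' c)) {x : F'}
    (hx : x ∈ chartAlg O' F' (algebraMap F F' '' S)) : IsIntegral ↥(chartAlg O F S) x := by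
  set R := Algebra.adjoin ↥(chartAlg O F S) ((algebraMap O' F').range : Set F') with hR
  -- `x` is integral over `R`
  have h1 : IsIntegral ↥R x := by
    rw [mem_chartAlg_iff] at hx
    let ψ : ↥(Algebra.adjoin O' (algebraMap F F' '' S)) →+* ↥R :=
      ((Algebra.adjoin O' (algebraMap F F' '' S)).val : _ →+* F').codRestrict R.toSubring
        (fun a => adjoin_le_adjoin S a.2)
    exact hx.map_of_comp_eq ψ (RingHom.id F') (by ext; rfl)
  -- `R` is integral over `B`
  have h2 : Algebra.IsIntegral ↥(chartAlg O F S) ↥R := by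
    refine ⟨fun r => ?_⟩
    have h3 : IsIntegral ↥(chartAlg O F S) (r : F') := by
      refine RamifiedNormal.isIntegral_of_mem_adjoin (C := (algebraMap O' F').range) ?_ r.2
      rintro _ ⟨c, rfl⟩
      exact (hint c).tower_top
    exact (isIntegral_algebraMap_iff (A := ↥R) (B := F') Subtype.val_injective).mp h3
  exact isIntegral_trans (A := ↥R) x h1

/-- `algebraMap B F' ∘ algebraMap O B = algebraMap O' F' ∘ algebraMap O O'`. -/
theorem algebraMap_chart_apply (a : O) :
    algebraMap ↥(chartAlg O F S) F' (algebraMap O ↥(chartAlg O F S) a) =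
      algebraMap O' F' (algebraMap O O' a) := by
  rw [← IsScalarTower.algebraMap_apply O O' F', IsScalarTower.algebraMap_apply O F F']
  rfl

/-- **Base change of the chart**: `chartAlg O' F' S' = B[O']`, `B = chartAlg O F S`. -/
theorem mem_chartAlg_iff_mem_adjoin [IsIntegrallyClosed ↥(chartAlg O F S)]
    [IsFractionRing ↥(chartAlg O F S) F] [Algebra.IsSeparable F F']
    (hint : ∀ c : O', IsIntegral O (algebraMap O' F' c))
    (pb : PowerBasis F F') {π : O} (hπ : algebraMap O F π ≠ 0)
    (hrad : (Ideal.span {algebraMap O ↥(chartAlg O F S) π}).IsRadical)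
    {ϖ : O'} (hϖ0 : algebraMap O' F' ϖ ≠ 0)
    (hres : ∀ c : O', ∃ (a : O) (c' : O'), c = algebraMap O O' a + ϖ * c')
    (hdvd : ∃ c : O', algebraMap O O' π = ϖ * c)
    (hpow : ∃ (e : ℕ) (c : O'), ϖ ^ e = algebraMap O O' π * c)
    (hgen : ∃ θ : O', algebraMap O' F' θ = pb.gen)
    (hdisc : ∃ (s : ℕ) (c : O),
      algebraMap O F c * Algebra.discr F pb.basis = algebraMap O F (π ^ s))
    (x : F') :
    x ∈ chartAlg O' F' (algebraMap F F' '' S) ↔
      x ∈ Algebra.adjoin ↥(chartAlg O F S) ((algebraMap O' F').range : Set F') := by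
  refine ⟨fun hx => ?_, adjoin_le_chartAlg S⟩
  have hxint := isIntegral_of_mem_chartAlg S hint hx
  refine (RamifiedNormal.isIntegral_iff_mem_adjoin (B := ↥(chartAlg O F S)) (F := F) pb
    (π := algebraMap O ↥(chartAlg O F S) π) ?_ hrad (C := (algebraMap O' F').range)
    (ϖ := algebraMap O' F' ϖ) ⟨ϖ, rfl⟩ hϖ0 ?_ ?_ ?_ ?_ ?_ ?_ x).mp hxint
  · intro h0
    apply hπ
    have := congrArg (fun b : ↥(chartAlg O F S) => (b : F)) h0
    simpa using this
  · rintro _ ⟨c, rfl⟩
    exact (hint c).tower_top
  · rintro _ ⟨c, rfl⟩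
    obtain ⟨a, c', hc⟩ := hres c
    refine ⟨algebraMap O ↥(chartAlg O F S) a, algebraMap O' F' c', ⟨c', rfl⟩, ?_⟩
    rw [algebraMap_chart_apply (O' := O') S a, hc, map_add, map_mul]
  · obtain ⟨c, hc⟩ := hdvd
    refine ⟨algebraMap O' F' c, ⟨c, rfl⟩, ?_⟩
    rw [algebraMap_chart_apply (O' := O') S π, hc, map_mul]
  · obtain ⟨e, c, hc⟩ := hpow
    refine ⟨e, algebraMap O' F' c, ⟨c, rfl⟩, ?_⟩
    rw [algebraMap_chart_apply (O' := O') S π, ← map_pow, hc, map_mul]
  · obtain ⟨θ, hθ⟩ := hgen
    exact ⟨θ, hθ⟩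
  · obtain ⟨s, c, hc⟩ := hdisc
    refine ⟨s, algebraMap O ↥(chartAlg O F S) c, ?_⟩
    rw [← map_pow]
    exact hc

end Generic

end Fermat.Agent.S19.Cech.ChartBaseChange
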