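/-
S19 / Čech route (helper18): **multiplicative structure of the divisorial chart modules** `ℒ(D)` of
`DivModule` — the inputs of the fields `zero`, `add`, `indep` of `CoordOfLines.LineSys` and of the
"common generator" for a principal divisor.

Setting of `DivModule`: `LD W c D = {f ∈ W | ∀ P, c P → ord_P f + D P ≥ 0}`.

* `one_mem_LD_zero` : `1 ∈ ℒ(0)`;
* `mul_mem_LD_add` : `ℒ(D) · ℒ(D') ⊆ ℒ(D + D')`;
* `LD_le_of_le` : `ℒ` is monotone in `D`;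
* `mem_LD_of_ord_eq` : `w ∈ W`, `ord_P w = E P` on the places concerned ⟹ `w ∈ ℒ(-E)`;
  `mem_LD_of_ord_add_eq_zero` : `ord_P w + D P = 0` ⟹ `w ∈ ℒ(D)` (a generator of `ℒ(D)`);
* `mul_mem_LD_of_ord_eq` : `ord_P w = D' P - D P` ⟹ `w · ℒ(D') ⊆ ℒ(D)`;
  `mul_mem_LD_iff_of_ord_eq` : if moreover `w⁻¹ ∈ W`, `w x ∈ ℒ(D) ↔ x ∈ ℒ(D')`;
* `mul_mem_LD_iff_of_ord_add_eq_zero` : for a generator `w` of `ℒ(D)` with `w⁻¹ ∈ W`:
  `w x ∈ ℒ(D) ↔ x ∈ ℒ(0)`;
* `Lp_zero_le`, `Lm_zero_le` : `ℒ₊(0) = B₊`, `ℒ₋(0) = B₋` ((G1)); `red_p_zero`, `red_m_zero`,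
  `lineZero` : the `Cocycle.Line` of the zero divisor (no geometric input), with `1 ∈ Lp ∩ Lm`
  (`one_mem_lineZero_Lp/Lm`): the field `zero` of `LineSys`;
* `lineOf_mul_Lp/Lm/L0` : the three product inclusions of the field `add` of `LineSys` for the lines
  `DivLine.lineOf`.
-/
import Mathlib
import Fermat.Agent.S19.Cech.DivModule
import Fermat.Agent.S19.Cech.DivLine

set_option autoImplicit false
set_option linter.unusedSectionVars false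
set_option linter.style.haveILetI false

open AlgebraicCurve WithZero IntermediateField
open Fermat.Agent.N4.Chart Fermat.Agent.S19.Cech.DivModule

noncomputable section

namespace Fermat.Agent.S19.Cech.DivModuleMul

variable {O K F : Type*} [CommRing O] [IsDomain O] [Field K] [Algebra O K] [IsFractionRing O K]
  [Field F] [Algebra K F] [Algebra O F] [IsScalarTower O K F]
  {W : Subalgebra O F} {c : Place K F → Prop} {D D' : Divisor K F}

/-- `1 ∈ ℒ(0)`. -/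
theorem one_mem_LD_zero : (1 : F) ∈ LD W c (0 : Divisor K F) :=
  ⟨W.one_mem, fun P _ => by simp⟩

/-- `ℒ(D) · ℒ(D') ⊆ ℒ(D + D')`. -/
theorem mul_mem_LD_add {x x' : F} (hx : x ∈ LD W c D) (hx' : x' ∈ LD W c D') :
    x * x' ∈ LD W c (D + D') :=
  ⟨W.mul_mem hx.1 hx'.1, fun P hP => by
    rw [map_mul, Finsupp.add_apply, exp_add]
    exact mul_le_mul' (hx.2 P hP) (hx'.2 P hP)⟩

/-- `ℒ` is monotone in the divisor. -/
theorem LD_le_of_le (h : ∀ P, c P → D P ≤ D' P) : LD W c D ≤ LD W c D' :=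
  fun _ hf => ⟨hf.1, fun P hP => (hf.2 P hP).trans (exp_le_exp.mpr (h P hP))⟩

/-- An element of `W` with prescribed orders `E` lies in `ℒ(-E)`. -/
theorem mem_LD_of_ord_eq {w : F} (hw : w ∈ W) (hw0 : w ≠ 0) {E : Divisor K F}
    (h : ∀ P, c P → P.ord w = E P) : w ∈ LD W c (-E) := by
  rw [mem_LD_iff_ord hw0]
  refine ⟨hw, fun P hP => ?_⟩
  rw [Finsupp.neg_apply, h P hP]
  omega

/-- An element of `W` with `ord_P w + D P = 0` on the places concerned lies in `ℒ(D)`. -/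
theorem mem_LD_of_ord_add_eq_zero {w : F} (hw : w ∈ W) (hw0 : w ≠ 0)
    (h : ∀ P, c P → P.ord w + D P = 0) : w ∈ LD W c D := by
  rw [mem_LD_iff_ord hw0]
  exact ⟨hw, fun P hP => (h P hP).ge⟩

/-- `ord_P w = D' P - D P` on the places concerned ⟹ `w · ℒ(D') ⊆ ℒ(D)`. -/
theorem mul_mem_LD_of_ord_eq {w x : F} (hw : w ∈ W) (hw0 : w ≠ 0)
    (h : ∀ P, c P → P.ord w = D' P - D P) (hx : x ∈ LD W c D') : w * x ∈ LD W c D := by
  rcases eq_or_ne x 0 with rfl | hx0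
  · rw [mul_zero]
    exact (LD W c D).zero_mem
  rw [mem_LD_iff_ord (mul_ne_zero hw0 hx0)]
  refine ⟨W.mul_mem hw hx.1, fun P hP => ?_⟩
  have h1 := ((mem_LD_iff_ord hx0).mp hx).2 P hP
  rw [P.ord_mul hw0 hx0, h P hP]
  omega

/-- If moreover `w⁻¹ ∈ W`: `w x ∈ ℒ(D) ↔ x ∈ ℒ(D')`. -/
theorem mul_mem_LD_iff_of_ord_eq {w x : F} (hw : w ∈ W) (hwi : w⁻¹ ∈ W) (hw0 : w ≠ 0)
    (h : ∀ P, c P → P.ord w = D' P - D P) : w * x ∈ LD W c D ↔ x ∈ LD W c D' := by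
  refine ⟨fun hx => ?_, mul_mem_LD_of_ord_eq hw hw0 h⟩
  have h' : ∀ P, c P → P.ord w⁻¹ = D P - D' P := by
    intro P hP
    rw [P.ord_inv, h P hP]
    omega
  have := mul_mem_LD_of_ord_eq (D := D') (D' := D) hwi (inv_ne_zero hw0) h' hx
  rwa [← mul_assoc, inv_mul_cancel₀ hw0, one_mul] at this

/-- For a generator `w` of `ℒ(D)` (`ord_P w + D P = 0`) with `w⁻¹ ∈ W`: `w x ∈ ℒ(D) ↔ x ∈ ℒ(0)`. -/
theorem mul_mem_LD_iff_of_ord_add_eq_zero {w x : F} (hw : w ∈ W) (hwi : w⁻¹ ∈ W) (hw0 : w ≠ 0)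
    (h : ∀ P, c P → P.ord w + D P = 0) :
    w * x ∈ LD W c D ↔ x ∈ LD W c (0 : Divisor K F) := by
  refine mul_mem_LD_iff_of_ord_eq hw hwi hw0 fun P hP => ?_
  have := h P hP
  rw [Finsupp.zero_apply]
  omega

/-! ### The line of the zero divisor and products of lines -/

section Lines

variable [CharZero K] {j : F} (h : GaussRing j W) (hj : Transcendental K j)
  [FiniteDimensional K⟮j⟯ F]

include h hj

/-- **(G1)**: `ℒ₊(0) ⊆ B₊`. -/
theorem Lp_zero_le : ∀ x ∈ Lp W j (0 : Divisor K F), x ∈ chartAlg O F {j} := by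
  intro x hx
  refine mem_chartAlg_of_forall_mem j hj h.sat_fin hx.1 fun P hP => ?_
  rw [mem_place_iff]
  simpa using hx.2 P hP

/-- **(G1)**: `ℒ₋(0) ⊆ B₋`. -/
theorem Lm_zero_le : ∀ x ∈ Lm W j (0 : Divisor K F), x ∈ chartAlg O F {j⁻¹} := by
  intro x hx
  haveI := finiteDimensional_inv (K := K) hj
  refine mem_chartAlg_of_forall_mem j⁻¹ (transcendental_inv' hj) h.sat_inf hx.1 fun P hP => ?_
  rw [mem_place_iff]
  simpa using hx.2 P hP

/-- The reduction field `red_p` of `Cocycle.Line` for the zero divisor. -/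
theorem red_p_zero (ϖ : O) : ∀ x ∈ Lp W j (0 : Divisor K F),
    ∃ b ∈ chartAlg O F {j}, ∃ r ∈ W, x = b + algebraMap O F ϖ * r := fun x hx =>
  ⟨x, Lp_zero_le h hj x hx, 0, W.zero_mem, by rw [mul_zero, add_zero]⟩

/-- The reduction field `red_m` of `Cocycle.Line` for the zero divisor. -/
theorem red_m_zero (ϖ : O) : ∀ x ∈ Lm W j (0 : Divisor K F),
    ∃ b ∈ chartAlg O F {j⁻¹}, ∃ r ∈ W, x = b + algebraMap O F ϖ * r := fun x hx =>
  ⟨x, Lm_zero_le h hj x hx, 0, W.zero_mem, by rw [mul_zero, add_zero]⟩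

variable [IsIntegrallyClosed O] [IsNoetherianRing O] {ϖ : O} (hϖ : ϖ ≠ 0)

include hϖ

/-- **The line of the zero divisor** (the trivial bundle). -/
def lineZero : Cocycle.Line (algebraMap O F ϖ) (chartAlg O F {j}).toSubring
    (chartAlg O F {j⁻¹}).toSubring (chartAlg O F {j, j⁻¹}).toSubring W.toSubring :=
  DivLine.lineOf h hj hϖ (0 : Divisor K F) (red_p_zero h hj ϖ) (red_m_zero h hj ϖ)

theorem one_mem_lineZero_Lp : (1 : F) ∈ (lineZero h hj hϖ).Lp :=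
  one_mem_LD_zero (W := W) (c := InChart j)

theorem one_mem_lineZero_Lm : (1 : F) ∈ (lineZero h hj hϖ).Lm :=
  one_mem_LD_zero (W := W) (c := InChart j⁻¹)

variable
  (rp : ∀ x ∈ Lp W j D, ∃ b ∈ chartAlg O F {j}, ∃ r ∈ W, x = b + algebraMap O F ϖ * r)
  (rm : ∀ x ∈ Lm W j D, ∃ b ∈ chartAlg O F {j⁻¹}, ∃ r ∈ W, x = b + algebraMap O F ϖ * r)
  (rp' : ∀ x ∈ Lp W j D', ∃ b ∈ chartAlg O F {j}, ∃ r ∈ W, x = b + algebraMap O F ϖ * r)
  (rm' : ∀ x ∈ Lm W j D', ∃ b ∈ chartAlg O F {j⁻¹}, ∃ r ∈ W, x = b + algebraMap O F ϖ * r)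
  (rp'' : ∀ x ∈ Lp W j (D + D'), ∃ b ∈ chartAlg O F {j}, ∃ r ∈ W, x = b + algebraMap O F ϖ * r)
  (rm'' : ∀ x ∈ Lm W j (D + D'), ∃ b ∈ chartAlg O F {j⁻¹}, ∃ r ∈ W,
    x = b + algebraMap O F ϖ * r)

/-- The field `add` of `LineSys`, chart `+`. -/
theorem lineOf_mul_Lp : ∀ x ∈ (DivLine.lineOf h hj hϖ D rp rm).Lp,
    ∀ x' ∈ (DivLine.lineOf h hj hϖ D' rp' rm').Lp,
      x * x' ∈ (DivLine.lineOf h hj hϖ (D + D') rp'' rm'').Lp :=
  fun _ hx _ hx' => mul_mem_LD_add hx hx'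

/-- The field `add` of `LineSys`, chart `-`. -/
theorem lineOf_mul_Lm : ∀ x ∈ (DivLine.lineOf h hj hϖ D rp rm).Lm,
    ∀ x' ∈ (DivLine.lineOf h hj hϖ D' rp' rm').Lm,
      x * x' ∈ (DivLine.lineOf h hj hϖ (D + D') rp'' rm'').Lm :=
  fun _ hx _ hx' => mul_mem_LD_add hx hx'

/-- The field `add` of `LineSys`, overlap. -/
theorem lineOf_mul_L0 : ∀ x ∈ (DivLine.lineOf h hj hϖ D rp rm).L0,
    ∀ x' ∈ (DivLine.lineOf h hj hϖ D' rp' rm').L0,
      x * x' ∈ (DivLine.lineOf h hj hϖ (D + D') rp'' rm'').L0 :=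
  fun _ hx _ hx' => mul_mem_LD_add hx hx'

end Lines

end Fermat.Agent.S19.Cech.DivModuleMul
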