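/-
S19 / Čech route, concrete side of [TRANSPORT] (helper11): **the Galois action on the places,
divisors and divisorial chart modules of a `Gal(ℚ̄/ℚ)`-stable level**.

`K ⊆ ℚ̄` a stable intermediate field (`hK : ∀ τ x, x ∈ K → τ x ∈ K`; e.g. `bigLevel A E` with `E`
stable), `g_σ := GammaAut.levelFF K hK N σ` the coefficientwise action of `σ` on
`F_K = FF (Lvl K) N` (`levK (g_σ • f) = gal N σ • levK f`, `P3G/GammaAut`).

* (G1) `restrictK_gal_smul` : `restrictK N K (gal N σ • P) = g_σ • restrictK N K P`;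
  `residueTrivial_smul_iff`;
* (G2) `inChart_smul_iff`, `inBoth_smul_iff` (the charts of the `j`-line are stable);
  `adicValuation_smul`;
* (G3) `levelDiv_gal_smul` : `levelDiv K (gal N σ • D) = g_σ • levelDiv K D`;
* (G4) `smul_mem_LD_iff`, `smul_mem_Lp_iff`, `smul_mem_Lm_iff`, `smul_mem_L0_iff` :
  `g_σ • f ∈ ℒ_?(g_σ • D) ↔ f ∈ ℒ_?(D)` for `σ` in the decomposition group (`W` any stable
  subalgebra, e.g. the Gauss ring `gaussSubalgebra`: `GammaGauss.levelFF_smul_mem_gaussSubalgebra_iff`);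
  `levelFF_smul_mem_Lp_iff`, `levelFF_smul_mem_Lm_iff`, `levelFF_smul_mem_L0_iff` (the instances);
  `exists_unit_baseAut_eq`, `exists_unit_levelFF_smul_eq` : `g_σ ϖ = unit · ϖ`;
* (G5) `rho_levelFF_smul` : `ρ (g_σ x) = σ̄ (ρ x)` for the reduction map of a chart (`RhoData`),
  `rho_levelFF_smul_of_mem_inertia`;
* (G6) `gal_smul_levK_of_fixes`, `gal_smul_levK_K0_of_mem_inertia` : automorphisms fixing a level
  act trivially on the image of its function field (inertia fixes everything defined over `K₀`).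
-/
import Mathlib
import Fermat.Agent.P3G.GammaGauss
import Fermat.Agent.S19.Cech.LevelDiv
import Fermat.Agent.S19.Cech.DivModule

set_option autoImplicit false
set_option linter.unusedSectionVars false
set_option linter.style.haveILetI false

open ModularCurve AlgebraicCurve
open Fermat.Agent.N4.Setting Fermat.Agent.S24
open Fermat.Agent.S24.PlaceDeriv (ResidueTrivial)

noncomputable section

namespace Fermat.Agent.S19.Cech.LevelGalois

open Fermat.Agent.N4F.C Fermat.Agent.N4F.C.Levels Fermat.Agent.N4F.C.LevelCharts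
  Fermat.Agent.N4F.C.Galois Fermat.Agent.N4F.C.CoeffAut
  Fermat.Agent.P3G.GammaAut Fermat.Agent.P3G.GammaGauss
  Fermat.Agent.S19.Cech.LevelDiv Fermat.Agent.S19.Cech.DivModule

local notation "Γ" => (AlgebraicClosure ℚ ≃ₐ[ℚ] AlgebraicClosure ℚ)

/-! ### Generalities on semilinear automorphisms and places -/

section General

variable {K F : Type*} [Field K] [Field F] [Algebra K F]

theorem mem_smul_place_iff (g : SemilinearAut K F) (v : Place K F) (f : F) :
    f ∈ (g • v).toValuationSubring ↔ g⁻¹ • f ∈ v.toValuationSubring := by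
  rw [SemilinearAut.smul_toValuationSubring]
  exact ValuationSubring.mem_pointwise_smul_iff_inv_smul_mem

theorem smul_mem_smul_place_iff (g : SemilinearAut K F) (v : Place K F) (f : F) :
    g • f ∈ (g • v).toValuationSubring ↔ f ∈ v.toValuationSubring := by
  rw [mem_smul_place_iff, inv_smul_smul]

theorem mem_nonunits_smul_place_iff (g : SemilinearAut K F) (v : Place K F) (f : F) :
    g • f ∈ (g • v).toValuationSubring.nonunits ↔ f ∈ v.toValuationSubring.nonunits := by
  rw [ValuationSubring.mem_nonunits_iff_or, ValuationSubring.mem_nonunits_iff_or,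
    ← smul_inv'', smul_mem_smul_place_iff, smul_eq_zero_iff_eq]

/-- The adic valuation is transported by a semilinear automorphism. -/
theorem adicValuation_smul (g : SemilinearAut K F) (v : Place K F) (f : F) :
    (g • v).adicValuation (g • f) = v.adicValuation f := by
  rcases eq_or_ne f 0 with rfl | hf
  · simp
  have hgf : g • f ≠ 0 := by rwa [Ne, smul_eq_zero_iff_eq]
  rw [(g • v).adicValuation_eq_exp_neg_ord hgf, v.adicValuation_eq_exp_neg_ord hf,
    SemilinearAut.ord_smul]

/-- Triviality of the residue field is transported by a semilinear automorphism. -/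
theorem residueTrivial_smul {g : SemilinearAut K F} {v : Place K F} (h : ResidueTrivial v) :
    ResidueTrivial (g • v) := by
  intro u
  have hu : g⁻¹ • (u : F) ∈ v.toValuationSubring := (mem_smul_place_iff g v _).mp u.2
  obtain ⟨c, hc⟩ := h ⟨g⁻¹ • (u : F), hu⟩
  refine ⟨SemilinearAut.baseAut g c, ?_⟩
  rw [← ValuationSubring.coe_mem_nonunits_iff] at hc ⊢
  have h1 : g • (g⁻¹ • (u : F) - algebraMap K F c) ∈ (g • v).toValuationSubring.nonunits :=
    (mem_nonunits_smul_place_iff g v _).mpr hc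
  rw [smul_sub, smul_inv_smul, SemilinearAut.smul_algebraMap] at h1
  exact h1

theorem residueTrivial_smul_iff {g : SemilinearAut K F} {v : Place K F} :
    ResidueTrivial (g • v) ↔ ResidueTrivial v := by
  refine ⟨fun h => ?_, residueTrivial_smul⟩
  have h1 := residueTrivial_smul (g := g⁻¹) h
  rwa [inv_smul_smul] at h1

end General

/-! ### (G2), (G4) abstractly: transport of the divisorial chart modules -/

section DivTransport

variable {O K F : Type*} [CommRing O] [IsDomain O] [Field K] [Algebra O K] [IsFractionRing O K]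
  [Field F] [Algebra K F] [Algebra O F] [IsScalarTower O K F]

theorem inChart_smul_iff (g : SemilinearAut K F) {t : F} (ht : g • t = t) (v : Place K F) :
    InChart t (g • v) ↔ InChart t v := by
  unfold InChart
  conv_lhs => rw [← ht]
  exact smul_mem_smul_place_iff g v t

theorem inBoth_smul_iff (g : SemilinearAut K F) {t : F} (ht : g • t = t) (v : Place K F) :
    InBoth t (g • v) ↔ InBoth t v := by
  unfold InBoth
  rw [inChart_smul_iff g ht, inChart_smul_iff g (by rw [smul_inv'', ht])]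

/-- **Transport of `ℒ(D)`**: if `g` preserves `W` and carries the condition `c` to `c'`, then
`g • f ∈ ℒ_{c'}(g • D) ↔ f ∈ ℒ_c(D)`. -/
theorem smul_mem_LD_iff (g : SemilinearAut K F) {W : Subalgebra O F}
    (hW : ∀ f : F, g • f ∈ W ↔ f ∈ W) {c c' : Place K F → Prop}
    (hc : ∀ v : Place K F, c' (g • v) ↔ c v) (D : Divisor K F) (f : F) :
    g • f ∈ LD W c' (g • D) ↔ f ∈ LD W c D := by
  rw [mem_LD_iff, mem_LD_iff, hW]
  refine and_congr_right fun _ => ⟨fun h P hP => ?_, fun h P hP => ?_⟩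
  · have h1 := h (g • P) ((hc P).mpr hP)
    rwa [adicValuation_smul, SemilinearAut.divisor_smul_apply_smul] at h1
  · have hP' : c (g⁻¹ • P) := by
      rw [← hc, smul_inv_smul]
      exact hP
    have h1 := h (g⁻¹ • P) hP'
    rwa [← adicValuation_smul g, smul_inv_smul, ← SemilinearAut.divisor_smul_apply] at h1

theorem smul_mem_Lp_iff (g : SemilinearAut K F) {W : Subalgebra O F}
    (hW : ∀ f : F, g • f ∈ W ↔ f ∈ W) {j : F} (hj : g • j = j) (D : Divisor K F) (f : F) :
    g • f ∈ Lp W j (g • D) ↔ f ∈ Lp W j D :=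
  smul_mem_LD_iff g hW (inChart_smul_iff g hj) D f

theorem smul_mem_Lm_iff (g : SemilinearAut K F) {W : Subalgebra O F}
    (hW : ∀ f : F, g • f ∈ W ↔ f ∈ W) {j : F} (hj : g • j = j) (D : Divisor K F) (f : F) :
    g • f ∈ Lm W j (g • D) ↔ f ∈ Lm W j D :=
  smul_mem_LD_iff g hW (inChart_smul_iff g (by rw [smul_inv'', hj])) D f

theorem smul_mem_L0_iff (g : SemilinearAut K F) {W : Subalgebra O F}
    (hW : ∀ f : F, g • f ∈ W ↔ f ∈ W) {j : F} (hj : g • j = j) (D : Divisor K F) (f : F) :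
    g • f ∈ L0 W j (g • D) ↔ f ∈ L0 W j D :=
  smul_mem_LD_iff g hW (inBoth_smul_iff g hj) D f

end DivTransport

/-! ### (G1): restriction of places to a stable level is equivariant -/

section Level

variable (K : IntermediateField ℚ Qb) (hK : ∀ (τ : Γ) (x : Qb), x ∈ K → τ x ∈ K)
  (N : ℕ) [NeZero N]

theorem levK_levelFF_inv_smul (σ : Γ) (f : FF (Lvl K) N) :
    levK N K ((levelFF K hK N σ)⁻¹ • f) = (gal N σ)⁻¹ • levK N K f := by
  rw [← map_inv, levK_levelFF_smul, gal_inv]

/-- **(G1)** `restrictK (σ • P) = g_σ • restrictK P`. -/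
theorem restrictK_gal_smul (σ : Γ) (P : Place Qb (Fb N)) :
    restrictK N K (gal N σ • P) = levelFF K hK N σ • restrictK N K P := by
  apply Place.ext
  ext f
  rw [mem_restrictK_iff, mem_smul_place_iff, mem_smul_place_iff, mem_restrictK_iff,
    levK_levelFF_inv_smul]

include hK in
theorem residueTrivial_restrictK_gal_smul_iff (σ : Γ) (P : Place Qb (Fb N)) :
    ResidueTrivial (restrictK N K (gal N σ • P)) ↔ ResidueTrivial (restrictK N K P) := by
  rw [restrictK_gal_smul K hK, residueTrivial_smul_iff]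

/-- **(G3)** the push-down of divisors to a stable level is equivariant. -/
theorem levelDiv_gal_smul (σ : Γ) (D : Divisor Qb (Fb N)) :
    levelDiv K (gal N σ • D) = levelFF K hK N σ • levelDiv K D := by
  unfold levelDiv
  rw [SemilinearAut.divisor_smul_def, SemilinearAut.divisor_smul_def,
    ← Finsupp.mapDomain_comp, ← Finsupp.mapDomain_comp]
  congr 1
  funext P
  exact restrictK_gal_smul K hK N σ P

end Level

/-! ### (G6): automorphisms fixing a level act trivially on its function field -/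

section Fixed

variable (K : IntermediateField ℚ Qb) (N : ℕ) [NeZero N]

/-- An automorphism fixing `K` pointwise fixes the image of `F_K` in `ℚ̄ F_N` (no stability of `K`
needed). -/
theorem gal_smul_levK_of_fixes {σ : Γ} (hσ : ∀ c ∈ K, σ c = c) (f : FF (Lvl K) N) :
    gal N σ • levK N K f = levK N K f := by
  apply Subtype.ext
  rw [coe_gal_smul]
  show coeffMap _ (coeffMap (algebraMap (Lvl K) Qb) (f : LaurentSeries (Lvl K))) =
    coeffMap (algebraMap (Lvl K) Qb) (f : LaurentSeries (Lvl K))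
  rw [coeffMap_coeffMap]
  refine coeffMap_congr (RingHom.ext fun c => ?_) _
  exact hσ _ (Lvl.algebraMap_mem K c)

/-- The inertia group fixes the function field of the unramified base level `K₀`. -/
theorem gal_smul_levK_K0_of_mem_inertia {A : ValuationSubring Qb} {ℓ : ℕ} (hℓ : ℓ.Prime)
    (hA : A.LiesOverPrime ℓ) {σ : Γ} (hσ : σ ∈ A.inertiaSubgroupIn ℚ)
    (f : FF (Lvl (Fermat.Agent.P3G.Gamma.K0 A)) N) :
    gal N σ • levK N (Fermat.Agent.P3G.Gamma.K0 A) f = levK N (Fermat.Agent.P3G.Gamma.K0 A) f :=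
  gal_smul_levK_of_fixes _ N (fun _ hc => Fermat.Agent.P3G.Gamma.apply_eq_of_mem_K0 hℓ hA hσ hc) f

end Fixed

/-! ### (G4): the divisorial chart modules of a stable level -/

section LevelModules

open Fermat.Agent.N4.FibreEmbedding

variable (K : IntermediateField ℚ Qb) (hK : ∀ (τ : Γ) (x : Qb), x ∈ K → τ x ∈ K)
  (N : ℕ) [NeZero N] {A : ValuationSubring Qb} [IsDiscreteValuationRing ↥(baseRing A K)]
  [IsFractionRing ↥(baseRing A K) (Lvl K)]

/-- **(G4)** `ℒ₊(σ • D) = g_σ (ℒ₊(D))` at a stable level, for `σ` in the decomposition group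
(`W` = the Gauss ring of the level). -/
theorem levelFF_smul_mem_Lp_iff {σ : Γ} (hσ : σ ∈ A.decompositionSubgroup ℚ)
    (D : Divisor (Lvl K) (FF (Lvl K) N)) (f : FF (Lvl K) N) :
    levelFF K hK N σ • f ∈ Lp (gaussSubalgebra (Lvl K) N (baseRing A K)) (jF (Lvl K) N)
        (levelFF K hK N σ • D) ↔
      f ∈ Lp (gaussSubalgebra (Lvl K) N (baseRing A K)) (jF (Lvl K) N) D :=
  smul_mem_Lp_iff (levelFF K hK N σ)
    (fun _ => levelFF_smul_mem_gaussSubalgebra_iff K hK N hσ) (levelFF_smul_jF K hK N σ) D f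

theorem levelFF_smul_mem_Lm_iff {σ : Γ} (hσ : σ ∈ A.decompositionSubgroup ℚ)
    (D : Divisor (Lvl K) (FF (Lvl K) N)) (f : FF (Lvl K) N) :
    levelFF K hK N σ • f ∈ Lm (gaussSubalgebra (Lvl K) N (baseRing A K)) (jF (Lvl K) N)
        (levelFF K hK N σ • D) ↔
      f ∈ Lm (gaussSubalgebra (Lvl K) N (baseRing A K)) (jF (Lvl K) N) D :=
  smul_mem_Lm_iff (levelFF K hK N σ)
    (fun _ => levelFF_smul_mem_gaussSubalgebra_iff K hK N hσ) (levelFF_smul_jF K hK N σ) D f

theorem levelFF_smul_mem_L0_iff {σ : Γ} (hσ : σ ∈ A.decompositionSubgroup ℚ)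
    (D : Divisor (Lvl K) (FF (Lvl K) N)) (f : FF (Lvl K) N) :
    levelFF K hK N σ • f ∈ L0 (gaussSubalgebra (Lvl K) N (baseRing A K)) (jF (Lvl K) N)
        (levelFF K hK N σ • D) ↔
      f ∈ L0 (gaussSubalgebra (Lvl K) N (baseRing A K)) (jF (Lvl K) N) D :=
  smul_mem_L0_iff (levelFF K hK N σ)
    (fun _ => levelFF_smul_mem_gaussSubalgebra_iff K hK N hσ) (levelFF_smul_jF K hK N σ) D f

/-- The decomposition group multiplies a uniformiser of `O_K` by a unit. -/
theorem exists_unit_baseAut_eq {σ : Γ} (hσ : σ ∈ A.decompositionSubgroup ℚ)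
    {ϖ : ↥(baseRing A K)} (hϖ : Irreducible ϖ) :
    ∃ u : (↥(baseRing A K))ˣ, baseAut K hK hσ ϖ = (u : ↥(baseRing A K)) * ϖ := by
  have h1 : Irreducible (baseAut K hK hσ ϖ) :=
    (MulEquiv.irreducible_iff (baseAut K hK hσ : ↥(baseRing A K) ≃* ↥(baseRing A K))).mpr hϖ
  obtain ⟨u, hu⟩ := IsDiscreteValuationRing.associated_of_irreducible _ hϖ h1
  exact ⟨u, by rw [← hu, mul_comm]⟩

/-- The same inside the function field of the level: `g_σ ϖ = u ϖ`. -/
theorem exists_unit_levelFF_smul_eq {σ : Γ} (hσ : σ ∈ A.decompositionSubgroup ℚ)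
    {ϖ : ↥(baseRing A K)} (hϖ : Irreducible ϖ) :
    ∃ u : (↥(baseRing A K))ˣ,
      levelFF K hK N σ • algebraMap ↥(baseRing A K) (FF (Lvl K) N) ϖ =
        algebraMap ↥(baseRing A K) (FF (Lvl K) N) (u : ↥(baseRing A K)) *
          algebraMap ↥(baseRing A K) (FF (Lvl K) N) ϖ := by
  obtain ⟨u, hu⟩ := exists_unit_baseAut_eq K hK hσ hϖ
  refine ⟨u, ?_⟩
  rw [← map_mul, ← hu]
  exact levelFF_smul_algebraMap_base K hK N hσ ϖ

end LevelModules

/-! ### (G5): the reduction maps of the charts -/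

section Rho

variable (K : IntermediateField ℚ Qb) (hK : ∀ (τ : Γ) (x : Qb), x ∈ K → τ x ∈ K)
  {N : ℕ} [NeZero N] {A : ValuationSubring Qb} [IsDiscreteValuationRing ↥(baseRing A K)]
  {R : Subalgebra ↥(baseRing A K) (FF (Lvl K) N)} {gen : Fb N} {ϖ : ↥(baseRing A K)}
  {ρ : ↥R →+* Ft A N}

/-- **(G5)** `ρ (g_σ x) = σ̄ (ρ x)` for `σ` in the decomposition group. -/
theorem rho_levelFF_smul (h : RhoData A N K R gen ϖ ρ) {σ : Γ}
    (hσ : σ ∈ A.decompositionSubgroup ℚ) (x : R)
    (hx : levelFF K hK N σ • (x : FF (Lvl K) N) ∈ R) :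
    ρ ⟨levelFF K hK N σ • (x : FF (Lvl K) N), hx⟩ =
      coeffAut (Kap A) N (resAut ℚ A ⟨σ, hσ⟩) • ρ x := by
  rw [h.rho_eq, h.rho_eq]
  show thetaFt A N (levK N K (levelFF K hK N σ • (x : FF (Lvl K) N))) = _
  rw [levK_levelFF_smul]
  exact thetaFt_gal_smul (⟨σ, hσ⟩ : A.decompositionSubgroup ℚ) _

/-- Inertia does not change the reduction. -/
theorem rho_levelFF_smul_of_mem_inertia (h : RhoData A N K R gen ϖ ρ) {σ : Γ}
    (hσ : σ ∈ A.inertiaSubgroupIn ℚ) (x : R)
    (hx : levelFF K hK N σ • (x : FF (Lvl K) N) ∈ R) :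
    ρ ⟨levelFF K hK N σ • (x : FF (Lvl K) N), hx⟩ = ρ x := by
  rw [rho_levelFF_smul K hK h (mem_decompositionSubgroup_of_mem_inertia hσ) x hx,
    resAut_eq_one_of_mem_inertia hσ, map_one, one_smul]

end Rho

end Fermat.Agent.S19.Cech.LevelGalois
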