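/-
S19 / Čech route, [INST] input (helper11): **descent of functions with rational divisor to a
level** (needed for `CoordOfLines.LineSys.indep` / `add` AT ONE LEVEL).

* `mem_range_lev_of_coeff_mem` : `(ℚ̄ · F_K) ∩ K((q)) = F_K` — an element of `ℚ̄ F_N` all of whose
  `q`-expansion coefficients lie in `K` comes from `F_K = FF K N` (proof: apply `K`-linear
  functionals `ℚ̄ → K` coefficientwise to a quotient representation over `ℚ̄ · lev(F_K)`);
* `gal_smul_place_eq_of_residueTrivial` : automorphisms fixing `K` fix the places with rational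
  restriction to `F_K`;
* `exists_const_mul_levK` : a function of `ℚ̄ F_N` whose zeros and poles restrict to rational places
  of `F_K` is a constant times a function of `F_K` (normalise the leading `q`-coefficient; no
  Hilbert 90 needed);
* `mem_of_const_mem_gaussSub` : the constants of the Gauss ring are the elements of `A`;
  `exists_gaussUnit_scaling` : every nonzero function of a level is `ϖ^(m-n)` times a Gauss unit;
* `exists_level_gauss_unit_of_rep`, `exists_level_gauss_unit_of_rep'` : **the level form of (Z2)**: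
  two zero-reduction representatives `D, D'` of a class with `K`-rational supports differ by the
  divisor of a function `w_K ∈ F_K` which is a Gauss unit with reduction `1`.
-/
import Mathlib
import Fermat.Agent.S19.Cech.LevelDiv
import Fermat.Agent.S19.Cech.LevelGalois
import Fermat.Agent.P3G.LevelDescent

set_option autoImplicit false
set_option linter.unusedSectionVars false
set_option linter.style.haveILetI false

open ModularCurve AlgebraicCurve
open Fermat.Agent.N4.Setting Fermat.Agent.S24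
open Fermat.Agent.S24.PlaceDeriv (ResidueTrivial)

noncomputable section

namespace Fermat.Agent.S19.Cech.FunctionDescent

open Fermat.Agent.N4F.C Fermat.Agent.N4F.C.Levels

/-! ### Coefficientwise linear functionals -/

section CoeffLin

variable {K : Type} [Field K] [Algebra K Qb]

/-- Coefficientwise application of a `K`-linear functional `ℚ̄ → K`. -/
def coeffLin (lam : Qb →ₗ[K] K) (y : LaurentSeries Qb) : LaurentSeries K := y.map lam

@[simp] theorem coeffLin_coeff (lam : Qb →ₗ[K] K) (y : LaurentSeries Qb) (n : ℤ) :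
    (coeffLin lam y).coeff n = lam (y.coeff n) := rfl

theorem coeffLin_add (lam : Qb →ₗ[K] K) (y y' : LaurentSeries Qb) :
    coeffLin lam (y + y') = coeffLin lam y + coeffLin lam y' := by
  ext n
  simp

theorem support_coeffLin_subset (lam : Qb →ₗ[K] K) (y : LaurentSeries Qb) :
    (coeffLin lam y).support ⊆ y.support := by
  intro n hn
  rw [HahnSeries.mem_support] at hn ⊢
  intro h
  apply hn
  rw [coeffLin_coeff, h, map_zero]

theorem support_coeffMap_subset (u : LaurentSeries K) :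
    (coeffMap (algebraMap K Qb) u).support ⊆ u.support := by
  intro n hn
  rw [HahnSeries.mem_support] at hn ⊢
  intro h
  apply hn
  rw [coeffMap_coeff, h, map_zero]

/-- `Λ` is linear over `K((q))`. -/
theorem coeffLin_coeffMap_mul (lam : Qb →ₗ[K] K) (u : LaurentSeries K) (y : LaurentSeries Qb) :
    coeffLin lam (coeffMap (algebraMap K Qb) u * y) = u * coeffLin lam y := by
  ext n
  rw [coeffLin_coeff, HahnSeries.coeff_mul_left' u.isPWO_support (support_coeffMap_subset u),
    HahnSeries.coeff_mul_right' y.isPWO_support (support_coeffLin_subset lam y), map_sum]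
  refine Finset.sum_congr rfl fun ij _ => ?_
  rw [coeffMap_coeff, coeffLin_coeff, ← Algebra.smul_def, map_smul, smul_eq_mul]

theorem coeffLin_algebraMap (lam : Qb →ₗ[K] K) (c : Qb) :
    coeffLin lam (algebraMap Qb (LaurentSeries Qb) c) = algebraMap K (LaurentSeries K) (lam c) := by
  rw [algebraMap_laurentSeries_eq_single, algebraMap_laurentSeries_eq_single]
  ext n
  rw [coeffLin_coeff, HahnSeries.coeff_single, HahnSeries.coeff_single]
  split_ifs
  · rfl
  · exact map_zero lam

end CoeffLin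

/-! ### `(ℚ̄ · F_K) ∩ K((q)) = F_K` -/

section Descent

variable (K : Type) [Field K] [Algebra K Qb] (N : ℕ) [NeZero N]
  [Algebra K ↥(modularFunctionFieldBar N)] [IsScalarTower K Qb ↥(modularFunctionFieldBar N)]

/-- The `ℚ̄`-span of `lev(F_K)` inside `ℚ̄ F_N`. -/
def levSpan : Submodule Qb (Fb N) := Submodule.span Qb (Set.range (lev K N))

theorem levSpan_eq_adjoin :
    levSpan K N = Subalgebra.toSubmodule (Algebra.adjoin Qb (Set.range (lev K N))) := by
  rw [Algebra.adjoin_eq_span]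
  have h : (Submonoid.closure (Set.range (lev K N)) : Set (Fb N)) = Set.range (lev K N) := by
    have h1 : Set.range (lev K N) =
        (MonoidHom.mrange ((lev K N).toRingHom : FF K N →* Fb N) : Set (Fb N)) := rfl
    rw [h1, Submonoid.closure_eq]
  rw [h]
  rfl

/-- Coefficientwise functionals map `c · y`, `y ∈ ℚ̄ · lev(F_K)`, into `F_K`. -/
theorem coeffLin_mem_of_mem_levSpan (lam : Qb →ₗ[K] K) {y : Fb N} (hy : y ∈ levSpan K N) :
    ∀ c : Qb, coeffLin lam (algebraMap Qb (LaurentSeries Qb) c * (y : LaurentSeries Qb)) ∈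
      modularFunctionFieldFullC K N := by
  unfold levSpan at hy
  induction hy using Submodule.span_induction with
  | mem y hy =>
    obtain ⟨f, rfl⟩ := hy
    intro c
    rw [coe_lev, mul_comm, coeffLin_coeffMap_mul, coeffLin_algebraMap]
    exact mul_mem f.2 ((modularFunctionFieldFullC K N).algebraMap_mem _)
  | zero =>
    intro c
    have : coeffLin lam (algebraMap Qb (LaurentSeries Qb) c * ((0 : Fb N) : LaurentSeries Qb)) = 0 := by
      ext n
      simp
    rw [this]
    exact zero_mem _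
  | add y y' _ _ ih ih' =>
    intro c
    have : coeffLin lam (algebraMap Qb (LaurentSeries Qb) c * ((y + y' : Fb N) : LaurentSeries Qb)) =
        coeffLin lam (algebraMap Qb (LaurentSeries Qb) c * (y : LaurentSeries Qb)) +
        coeffLin lam (algebraMap Qb (LaurentSeries Qb) c * (y' : LaurentSeries Qb)) := by
      rw [← coeffLin_add, ← mul_add]
      rfl
    rw [this]
    exact add_mem (ih c) (ih' c)
  | smul d y _ ih =>
    intro c
    have : algebraMap Qb (LaurentSeries Qb) c * ((d • y : Fb N) : LaurentSeries Qb) =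
        algebraMap Qb (LaurentSeries Qb) (c * d) * (y : LaurentSeries Qb) := by
      rw [map_mul, mul_assoc]
      congr 1
    rw [this]
    exact ih (c * d)

/-- Every element of `ℚ̄ F_N` is a quotient of two elements of `ℚ̄ · lev(F_K)`. -/
theorem exists_quot_levSpan (x : Fb N) :
    ∃ s t : Fb N, s ∈ levSpan K N ∧ t ∈ levSpan K N ∧ s ≠ 0 ∧ x * s = t := by
  have hx : x ∈ (IntermediateField.adjoin Qb (Set.range (lev K N))).toSubfield := by
    rw [adjoin_range_lev]; trivial
  rw [IntermediateField.adjoin_toSubfield, Subfield.mem_closure_iff] at hx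
  obtain ⟨y, hy, z, hz, rfl⟩ := hx
  have hle : Subring.closure (Set.range (algebraMap Qb (Fb N)) ∪ Set.range (lev K N)) ≤
      (Algebra.adjoin Qb (Set.range (lev K N))).toSubring := by
    rw [Subring.closure_le]
    rintro a (⟨c, rfl⟩ | ha)
    · exact Subalgebra.algebraMap_mem _ c
    · exact Algebra.subset_adjoin ha
  have hy' : y ∈ levSpan K N := by
    rw [levSpan_eq_adjoin]; exact hle hy
  have hz' : z ∈ levSpan K N := by
    rw [levSpan_eq_adjoin]; exact hle hz
  by_cases hz0 : z = 0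
  · refine ⟨1, 0, ?_, zero_mem _, one_ne_zero, by rw [hz0, div_zero, zero_mul]⟩
    exact Submodule.subset_span ⟨1, map_one _⟩
  · exact ⟨z, y, hz', hy', hz0, div_mul_cancel₀ y hz0⟩

/-- **`(ℚ̄ · F_K) ∩ K((q)) = F_K`.** -/
theorem mem_range_lev_of_coeff_mem (w : Fb N)
    (hw : ∀ n : ℤ, (w : LaurentSeries Qb).coeff n ∈ Set.range (algebraMap K Qb)) :
    w ∈ Set.range (lev K N) := by
  classical
  -- a `K`-linear retraction of `K → ℚ̄`
  obtain ⟨lam₀, hlam₀⟩ := (Algebra.linearMap K Qb).exists_leftInverse_of_injective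
    (LinearMap.ker_eq_bot.mpr (algebraMap K Qb).injective)
  have hret : ∀ a : K, lam₀ (algebraMap K Qb a) = a := fun a => LinearMap.congr_fun hlam₀ a
  set wK : LaurentSeries K := coeffLin lam₀ (w : LaurentSeries Qb) with hwK
  have hcoe : coeffMap (algebraMap K Qb) wK = (w : LaurentSeries Qb) := by
    ext n
    rw [coeffMap_coeff, coeffLin_coeff]
    obtain ⟨a, ha⟩ := hw n
    rw [← ha, hret]
  obtain ⟨s, t, hs, ht, hs0, hst⟩ := exists_quot_levSpan K N w
  -- a functional which does not kill `s`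
  have hs0' : (s : LaurentSeries Qb) ≠ 0 := fun h => hs0 (Subtype.ext h)
  obtain ⟨n, hn⟩ : ∃ n : ℤ, (s : LaurentSeries Qb).coeff n ≠ 0 := by
    by_contra hcon
    simp only [not_exists, not_not] at hcon
    exact hs0' (HahnSeries.ext (funext hcon))
  obtain ⟨lam, hlam⟩ : ∃ lam : Qb →ₗ[K] K, lam ((s : LaurentSeries Qb).coeff n) ≠ 0 := by
    by_contra hcon
    simp only [not_exists, not_not] at hcon
    exact hn ((Module.forall_dual_apply_eq_zero_iff K _).mp hcon)
  have h1 := coeffLin_mem_of_mem_levSpan K N lam hs 1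
  have h2 := coeffLin_mem_of_mem_levSpan K N lam ht 1
  rw [map_one, one_mul] at h1 h2
  have hmul : coeffLin lam (t : LaurentSeries Qb) = wK * coeffLin lam (s : LaurentSeries Qb) := by
    rw [← coeffLin_coeffMap_mul, hcoe, ← hst]
    rfl
  have hne : coeffLin lam (s : LaurentSeries Qb) ≠ 0 := by
    intro h
    apply hlam
    rw [← coeffLin_coeff, h]
    rfl
  have hwKmem : wK ∈ modularFunctionFieldFullC K N := by
    have : wK = coeffLin lam (t : LaurentSeries Qb) / coeffLin lam (s : LaurentSeries Qb) := by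
      rw [hmul, mul_div_cancel_right₀ _ hne]
    rw [this]
    exact div_mem h2 h1
  exact ⟨⟨wK, hwKmem⟩, Subtype.ext hcoe⟩

end Descent

/-! ### Functions with rational divisor -/

section Rational

open Fermat.Agent.N4F.C.Galois Fermat.Agent.S19.Cech.LevelDiv Fermat.Agent.S19.Cech.LevelGalois
  Fermat.Agent.P3G.LevelDescent

local notation "Γ" => (AlgebraicClosure ℚ ≃ₐ[ℚ] AlgebraicClosure ℚ)

variable (K : IntermediateField ℚ Qb) (N : ℕ) [NeZero N]

/-- An automorphism fixing `K` fixes every place of `ℚ̄ F_N` whose restriction to `F_K` is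
rational. -/
theorem gal_smul_place_eq_of_residueTrivial {σ : Γ} (hσ : ∀ c ∈ K, σ c = c)
    {P : Place Qb (Fb N)} (hP : ResidueTrivial (restrictK N K P)) : gal N σ • P = P := by
  have hres : restrictK N K (gal N σ • P) = restrictK N K P := by
    apply Place.ext
    ext f
    rw [mem_restrictK_iff, mem_restrictK_iff, mem_smul_place_iff]
    have h1 : (gal N σ)⁻¹ • levK N K f = levK N K f := by
      rw [inv_smul_eq_iff, gal_smul_levK_of_fixes K N hσ]
    rw [h1]
  exact (restrictK_injective_of_residueTrivial K hP hres.symm).symm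

theorem coe_algebraMap_mul_coeff (a : Qb) (w : Fb N) (n : ℤ) :
    ((algebraMap Qb (Fb N) a * w : Fb N) : LaurentSeries Qb).coeff n =
      a * (w : LaurentSeries Qb).coeff n := by
  have h1 : ((algebraMap Qb (Fb N) a : Fb N) : LaurentSeries Qb) =
      algebraMap Qb (LaurentSeries Qb) a := rfl
  have h : ((algebraMap Qb (Fb N) a * w : Fb N) : LaurentSeries Qb) =
      HahnSeries.single 0 a * (w : LaurentSeries Qb) := by
    rw [MulMemClass.coe_mul, h1, algebraMap_laurentSeries_eq_single]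
  rw [h, HahnSeries.single_zero_mul_eq_smul, HahnSeries.coeff_smul, smul_eq_mul]

/-- **Descent of functions with rational divisor**: a function of `ℚ̄ F_N` all of whose zeros and
poles restrict to rational places of `F_K` is a constant multiple of a function of `F_K`. -/
theorem exists_const_mul_levK (w : Fb N) (hw : w ≠ 0)
    (hrat : ∀ P : Place Qb (Fb N), P.ord w ≠ 0 → ResidueTrivial (restrictK N K P)) :
    ∃ (c : Qb) (wK : FF (Lvl K) N), c ≠ 0 ∧ w = algebraMap Qb (Fb N) c * levK N K wK := by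
  classical
  have hy0 : (w : LaurentSeries Qb) ≠ 0 := fun h => hw (Subtype.ext h)
  set n₀ := (w : LaurentSeries Qb).order with hn₀
  set c := (w : LaurentSeries Qb).coeff n₀ with hcdef
  have hc : c ≠ 0 := fun h => hy0 (HahnSeries.coeff_order_eq_zero.mp h)
  set w₁ : Fb N := algebraMap Qb (Fb N) c⁻¹ * w with hw₁
  have hci : algebraMap Qb (Fb N) c⁻¹ ≠ 0 := (map_ne_zero _).2 (inv_ne_zero hc)
  have hw₁0 : w₁ ≠ 0 := mul_ne_zero hci hw
  have hlead : (w₁ : LaurentSeries Qb).coeff n₀ = 1 := by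
    rw [hw₁, coe_algebraMap_mul_coeff, ← hcdef, inv_mul_cancel₀ hc]
  have hord : ∀ P : Place Qb (Fb N), P.ord w₁ = P.ord w := by
    intro P
    rw [hw₁, P.ord_mul hci hw, Fermat.Agent.N4F.C.LocalMult.ord_algebraMap, zero_add]
  -- invariance under the automorphisms fixing `K`
  have hinv : ∀ σ : Γ, (∀ x ∈ K, σ x = x) → gal N σ • w₁ = w₁ := by
    intro σ hσ
    have hσP : ∀ P : Place Qb (Fb N), P.ord w₁ ≠ 0 → gal N σ • P = P := fun P hP =>
      gal_smul_place_eq_of_residueTrivial K N hσ (hrat P (by rwa [← hord]))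
    have hordσ : ∀ P : Place Qb (Fb N), P.ord (gal N σ • w₁) = P.ord w₁ := by
      intro P
      have h1 : P.ord (gal N σ • w₁) = ((gal N σ)⁻¹ • P).ord w₁ := by
        have := SemilinearAut.ord_smul (gal N σ) ((gal N σ)⁻¹ • P) w₁
        rwa [smul_inv_smul] at this
      rw [h1]
      by_cases hP : P.ord w₁ = 0
      · by_contra hne
        rw [hP] at hne
        have h2 := hσP _ hne
        rw [smul_inv_smul] at h2
        apply hne
        rw [← h2, hP]
      · have h2 := hσP P hP
        have h3 : (gal N σ)⁻¹ • P = P := by rw [inv_smul_eq_iff, h2]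
        rw [h3]
    have hσw₁0 : gal N σ • w₁ ≠ 0 := by rwa [Ne, smul_eq_zero_iff_eq]
    have ht0 : (gal N σ • w₁) / w₁ ≠ 0 := div_ne_zero hσw₁0 hw₁0
    have htord : ∀ P : Place Qb (Fb N), P.ord ((gal N σ • w₁) / w₁) = 0 := by
      intro P
      rw [div_eq_mul_inv, P.ord_mul hσw₁0 (inv_ne_zero hw₁0), P.ord_inv, hordσ P, add_neg_cancel]
    obtain ⟨a, -, hta⟩ := exists_const_of_forall_ord_eq_zero N ht0 htord
    have h4 : gal N σ • w₁ = algebraMap Qb (Fb N) a * w₁ := by
      rw [← hta, div_mul_cancel₀ _ hw₁0]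
    have h5 : ((gal N σ • w₁ : Fb N) : LaurentSeries Qb).coeff n₀ = 1 := by
      rw [coe_gal_smul, coeffMap_coeff, hlead]
      exact map_one _
    have h6 : ((algebraMap Qb (Fb N) a * w₁ : Fb N) : LaurentSeries Qb).coeff n₀ = a := by
      rw [coe_algebraMap_mul_coeff, hlead, mul_one]
    have ha1 : a = 1 := by rw [← h6, ← h4, h5]
    rw [h4, ha1, map_one, one_mul]
  -- the coefficients of `w₁` lie in `K`
  have hK : ∀ n : ℤ, (w₁ : LaurentSeries Qb).coeff n ∈ Set.range (algebraMap (Lvl K) Qb) := by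
    intro n
    apply hasFixedField_lvl K
    intro σ hσ
    have h := hinv σ (fun x hx => by
      obtain ⟨a, rfl⟩ := (Lvl.mem_range_iff K).mpr hx
      exact hσ a)
    have h' := congrArg (fun z : Fb N => (z : LaurentSeries Qb).coeff n) h
    simp only [coe_gal_smul, coeffMap_coeff] at h'
    exact h'
  obtain ⟨wK, hwK⟩ := mem_range_lev_of_coeff_mem (Lvl K) N w₁ hK
  refine ⟨c, wK, hc, ?_⟩
  show w = algebraMap Qb (Fb N) c * lev (Lvl K) N wK
  rw [hwK, hw₁, ← mul_assoc, ← map_mul, mul_inv_cancel₀ hc, map_one, one_mul]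

end Rational

/-! ### The level form of (Z2) -/

section LevelZ2

open Fermat.Agent.N4F.C.Main Fermat.Agent.N4F.C.Centre Fermat.Agent.N4F.C.LevelCharts
  Fermat.Agent.N4F.C.GaussBar
  Fermat.Agent.S19.Cech.ClassDict Fermat.Agent.S19.Cech.LevelDiv

variable {A : ValuationSubring Qb} {N : ℕ} [NeZero N]

/-- The constants of the Gauss ring are the elements of `A`. -/
theorem mem_of_const_mem_gaussSub {c : Qb} (h : algebraMap Qb (Fb N) c ∈ gaussSub A N) : c ∈ A := by
  rw [mem_gaussSub_iff] at h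
  obtain ⟨a, b, hb, hab⟩ := h
  obtain ⟨n, hn⟩ : ∃ n : ℤ, IsLocalRing.residue ↥A (b.coeff n) ≠ 0 := by
    by_contra hcon
    simp only [not_exists, not_not] at hcon
    exact hb (HahnSeries.ext (funext hcon))
  have hu : IsUnit (b.coeff n) := by
    by_contra hnu
    exact hn ((IsLocalRing.residue_eq_zero_iff _).2 ((IsLocalRing.mem_maximalIdeal _).2 hnu))
  have h1 : ((algebraMap Qb (Fb N) c : Fb N) : LaurentSeries Qb) = HahnSeries.single 0 c := by
    have h2 : ((algebraMap Qb (Fb N) c : Fb N) : LaurentSeries Qb) =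
        algebraMap Qb (LaurentSeries Qb) c := rfl
    rw [h2, algebraMap_laurentSeries_eq_single]
  rw [h1, HahnSeries.single_zero_mul_eq_smul] at hab
  have h3 : (c • embBar ↥A Qb b).coeff n = (embBar ↥A Qb a).coeff n := by rw [hab]
  rw [HahnSeries.coeff_smul, embBar_coeff, embBar_coeff, smul_eq_mul] at h3
  obtain ⟨u, hu'⟩ := hu
  have hbn : ((b.coeff n : ↥A) : Qb) ≠ 0 := by
    intro h0
    have : b.coeff n = 0 := Subtype.ext h0
    rw [this] at hu'
    exact not_isUnit_zero (hu' ▸ u.isUnit)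
  have hc : c = ((a.coeff n * (u⁻¹ : (↥A)ˣ) : ↥A) : Qb) := by
    have h5 : ((u⁻¹ : (↥A)ˣ) : ↥A) * b.coeff n = 1 := by rw [← hu']; exact u.inv_mul
    have h6 : (((u⁻¹ : (↥A)ˣ) : ↥A) : Qb) * ((b.coeff n : ↥A) : Qb) = 1 := by
      have := congrArg (fun z : ↥A => (z : Qb)) h5
      simpa using this
    have h7 : algebraMap ↥A Qb (b.coeff n) = ((b.coeff n : ↥A) : Qb) := rfl
    have h8 : algebraMap ↥A Qb (a.coeff n) = ((a.coeff n : ↥A) : Qb) := rfl
    rw [h7, h8] at h3
    push_cast
    rw [← h3, mul_assoc, mul_comm ((b.coeff n : ↥A) : Qb), h6, mul_one]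
  rw [hc]
  exact (a.coeff n * (u⁻¹ : (↥A)ˣ) : ↥A).2

variable {K : IntermediateField ℚ Qb} [IsDiscreteValuationRing ↥(baseRing A K)]
  {R : Subalgebra ↥(baseRing A K) (FF (Lvl K) N)} {gen : Fb N} {ϖ : ↥(baseRing A K)}
  {ρ : ↥R →+* Ft A N}

/-- Every nonzero function of the level is `ϖ^(m-n)` times a function whose image in `ℚ̄ F_N` is a
Gauss unit. -/
theorem exists_gaussUnit_scaling (hρ : RhoData A N K R gen ϖ ρ)
    [IsNoetherianRing ↥R] [IsFractionRing ↥R (FF (Lvl K) N)]
    (wK : FF (Lvl K) N) (hw0 : wK ≠ 0) :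
    ∃ (m n : ℕ) (u : FF (Lvl K) N), IsGaussUnit A N (levK N K u) ∧
      wK * algebraMap ↥(baseRing A K) (FF (Lvl K) N) ϖ ^ n =
        algebraMap ↥(baseRing A K) (FF (Lvl K) N) ϖ ^ m * u := by
  haveI : IsDomain ↥R := inferInstance
  set p : ↥R := algebraMap ↥(baseRing A K) ↥R ϖ with hp
  have hpF : (p : FF (Lvl K) N) = algebraMap ↥(baseRing A K) (FF (Lvl K) N) ϖ := rfl
  have hρp : ρ p = 0 := by
    rw [← RingHom.mem_ker, hρ.ker_eq]
    exact Ideal.subset_span rfl
  have hpnu : ¬ IsUnit p := by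
    intro hu
    have := hu.map ρ
    rw [hρp] at this
    exact not_isUnit_zero this
  have hnd : ∀ z : R, ¬ p ∣ z → ρ z ≠ 0 := by
    intro z hz h0
    obtain ⟨y, hy⟩ := (hρ.rho_eq_zero_iff z).1 h0
    exact hz ⟨y, hy⟩
  obtain ⟨a, b, hb, hab⟩ := IsFractionRing.div_surjective (A := ↥R) wK
  have hb0 : b ≠ 0 := nonZeroDivisors.ne_zero hb
  have hbF : (b : FF (Lvl K) N) ≠ 0 := fun h0 => hb0 (Subtype.ext h0)
  have ha0 : a ≠ 0 := by
    rintro rfl
    rw [map_zero, zero_div] at hab
    exact hw0 hab.symm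
  have hmulab : wK * (b : FF (Lvl K) N) = (a : FF (Lvl K) N) := by
    rw [← hab]
    exact div_mul_cancel₀ _ hbF
  obtain ⟨m, a', ha', rfl⟩ := WfDvdMonoid.max_power_factor' ha0 hpnu
  obtain ⟨n, b', hb', rfl⟩ := WfDvdMonoid.max_power_factor' hb0 hpnu
  have hρa' := hnd a' ha'
  have hρb' := hnd b' hb'
  have hcoe : ∀ (k : ℕ) (z : R), ((p ^ k * z : ↥R) : FF (Lvl K) N) =
      (p : FF (Lvl K) N) ^ k * (z : FF (Lvl K) N) := fun k z => by
    rw [MulMemClass.coe_mul, SubmonoidClass.coe_pow]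
  rw [hcoe, hcoe] at hmulab
  have hb'F : (b' : FF (Lvl K) N) ≠ 0 := by
    intro h0
    apply hρb'
    have : b' = 0 := Subtype.ext h0
    rw [this, map_zero]
  refine ⟨m, n, (a' : FF (Lvl K) N) / (b' : FF (Lvl K) N), ?_, ?_⟩
  · rw [map_div₀, div_eq_mul_inv]
    exact (hρ.isGaussUnit_lev hρa').mul (hρ.isGaussUnit_lev hρb').inv
  · rw [← hpF]
    field_simp
    rw [← hmulab]
    ring

/-- **Level form of (Z2).**  Two zero-reduction representatives of the same class with `K`-rational
supports differ by the divisor of a function `w_K` of the level `K` which is a Gauss unit with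
reduction `1`. -/
theorem exists_level_gauss_unit_of_rep {ℓ : ℕ} (hℓ : ℓ.Prime) (hA : A.LiesOverPrime ℓ)
    (hℓN : ¬ ℓ ∣ N) (hρ : RhoData A N K R gen ϖ ρ)
    [IsNoetherianRing ↥R] [IsFractionRing ↥R (FF (Lvl K) N)]
    (hres : ∀ c : Kap A, ∃ e : ↥(baseRing A K), IsLocalRing.residue ↥A (baseIncl A K e) = c)
    {D D' : Divisor.degZero (K := Qb) (F := Fb N)}
    (h : (Pic0.mk D : JZero N) = Pic0.mk D')
    (hD : Finsupp.mapDomain (rC hℓ hA hℓN) (D : Divisor Qb (Fb N)) = 0)
    (hD' : Finsupp.mapDomain (rC hℓ hA hℓN) (D' : Divisor Qb (Fb N)) = 0)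
    (hrat : ∀ P ∈ (D : Divisor Qb (Fb N)).support, ResidueTrivial (restrictK N K P))
    (hrat' : ∀ P ∈ (D' : Divisor Qb (Fb N)).support, ResidueTrivial (restrictK N K P)) :
    ∃ wK : FF (Lvl K) N, IsGaussUnit A N (levK N K wK) ∧ thetaFt A N (levK N K wK) = 1 ∧
      ∀ P : Place Qb (Fb N),
        P.ord (levK N K wK) = (D : Divisor Qb (Fb N)) P - (D' : Divisor Qb (Fb N)) P := by
  obtain ⟨w, hw, hθ, hord⟩ := exists_gauss_unit_of_rep hℓ hA hℓN h hD hD'
  have hratw : ∀ P : Place Qb (Fb N), P.ord w ≠ 0 → ResidueTrivial (restrictK N K P) := by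
    intro P hP
    rw [hord P] at hP
    by_cases h1 : (D : Divisor Qb (Fb N)) P = 0
    · have h2 : (D' : Divisor Qb (Fb N)) P ≠ 0 := by
        intro h2
        rw [h1, h2, sub_zero] at hP
        exact hP rfl
      exact hrat' P (Finsupp.mem_support_iff.mpr h2)
    · exact hrat P (Finsupp.mem_support_iff.mpr h1)
  obtain ⟨c, wK₀, hc, hwc⟩ := exists_const_mul_levK K N w hw.ne_zero hratw
  have hwK₀ : wK₀ ≠ 0 := by
    rintro rfl
    rw [map_zero, mul_zero] at hwc
    exact hw.ne_zero hwc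
  obtain ⟨m, n, u, hu, hscal⟩ := exists_gaussUnit_scaling hρ wK₀ hwK₀
  -- the uniformiser as a constant of `ℚ̄`
  set π' : Qb := algebraMap (Lvl K) Qb (ϖ : Lvl K) with hπ'
  have hπ'0 : π' ≠ 0 := by
    rw [hπ', Ne, map_eq_zero_iff _ (algebraMap (Lvl K) Qb).injective]
    intro h0
    exact hρ.irreducible.ne_zero (Subtype.ext h0)
  have hlevϖ : levK N K (algebraMap ↥(baseRing A K) (FF (Lvl K) N) ϖ) =
      algebraMap Qb (Fb N) π' := by
    rw [IsScalarTower.algebraMap_apply ↥(baseRing A K) (Lvl K) (FF (Lvl K) N),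
      CentreLevel.levK_algebraMap_Lvl]
    rfl
  have hscal' := congrArg (levK N K) hscal
  rw [map_mul, map_mul, map_pow, map_pow, hlevϖ] at hscal'
  set c₁ : Qb := c * π' ^ m / π' ^ n with hc₁
  have hc₁0 : c₁ ≠ 0 := div_ne_zero (mul_ne_zero hc (pow_ne_zero _ hπ'0)) (pow_ne_zero _ hπ'0)
  have hu0 : levK N K u ≠ 0 := hu.ne_zero
  have hw1 : w = algebraMap Qb (Fb N) c₁ * levK N K u := by
    have hπn : algebraMap Qb (Fb N) π' ^ n ≠ 0 := pow_ne_zero _ ((map_ne_zero _).2 hπ'0)
    have h1 : levK N K wK₀ = algebraMap Qb (Fb N) π' ^ m * levK N K u /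
        algebraMap Qb (Fb N) π' ^ n := by
      rw [eq_div_iff hπn, hscal']
    rw [hwc, h1, hc₁, map_div₀, map_mul, map_pow, map_pow]
    field_simp
  have hconst : IsGaussUnit A N (algebraMap Qb (Fb N) c₁) := by
    have h1 : algebraMap Qb (Fb N) c₁ = w * (levK N K u)⁻¹ := by
      rw [hw1, mul_assoc, mul_inv_cancel₀ hu0, mul_one]
    rw [h1]
    exact hw.mul hu.inv
  have hc₁A : c₁ ∈ A := mem_of_const_mem_gaussSub hconst.1
  have hc₁res : IsLocalRing.residue ↥A ⟨c₁, hc₁A⟩ ≠ 0 := by
    intro h0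
    have h1 := hconst.thetaFt_ne_zero
    rw [show algebraMap Qb (Fb N) c₁ = algebraMap Qb (Fb N) ((⟨c₁, hc₁A⟩ : ↥A) : Qb) from rfl,
      thetaFt_const, h0, map_zero] at h1
    exact h1 rfl
  obtain ⟨e, he⟩ := hres (IsLocalRing.residue ↥A ⟨c₁, hc₁A⟩)
  have hlev_e : levK N K (algebraMap ↥(baseRing A K) (FF (Lvl K) N) e) =
      algebraMap Qb (Fb N) ((baseIncl A K e : ↥A) : Qb) := by
    rw [levK_algebraMap]
    rfl
  have he0 : IsLocalRing.residue ↥A (baseIncl A K e) ≠ 0 := by rw [he]; exact hc₁res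
  have hge : IsGaussUnit A N (algebraMap Qb (Fb N) ((baseIncl A K e : ↥A) : Qb)) :=
    isGaussUnit_const he0
  refine ⟨algebraMap ↥(baseRing A K) (FF (Lvl K) N) e * u, ?_, ?_, fun P => ?_⟩
  · rw [map_mul, hlev_e]
    exact hge.mul hu
  · rw [map_mul, hlev_e, hge.thetaFt_mul hu, thetaFt_const, he, ← hθ, hw1,
      hconst.thetaFt_mul hu]
    congr 1
    exact (thetaFt_const (⟨c₁, hc₁A⟩ : ↥A)).symm
  · have he00 : algebraMap Qb (Fb N) ((baseIncl A K e : ↥A) : Qb) ≠ 0 := hge.ne_zero
    have hc00 : algebraMap Qb (Fb N) c₁ ≠ 0 := (map_ne_zero _).2 hc₁0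
    rw [← hord P, map_mul, hlev_e, P.ord_mul he00 hu0, hw1, P.ord_mul hc00 hu0,
      Fermat.Agent.N4F.C.LocalMult.ord_algebraMap, Fermat.Agent.N4F.C.LocalMult.ord_algebraMap]

/-- The same with the divisor of `w_K` computed at the level: `div_K w_K = levelDiv (D - D')`. -/
theorem exists_level_gauss_unit_of_rep' {ℓ : ℕ} (hℓ : ℓ.Prime) (hA : A.LiesOverPrime ℓ)
    (hℓN : ¬ ℓ ∣ N) (hρ : RhoData A N K R gen ϖ ρ)
    [IsNoetherianRing ↥R] [IsFractionRing ↥R (FF (Lvl K) N)]
    (hres : ∀ c : Kap A, ∃ e : ↥(baseRing A K), IsLocalRing.residue ↥A (baseIncl A K e) = c)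
    {D D' : Divisor.degZero (K := Qb) (F := Fb N)}
    (h : (Pic0.mk D : JZero N) = Pic0.mk D')
    (hD : Finsupp.mapDomain (rC hℓ hA hℓN) (D : Divisor Qb (Fb N)) = 0)
    (hD' : Finsupp.mapDomain (rC hℓ hA hℓN) (D' : Divisor Qb (Fb N)) = 0)
    (hrat : ∀ P ∈ (D : Divisor Qb (Fb N)).support, ResidueTrivial (restrictK N K P))
    (hrat' : ∀ P ∈ (D' : Divisor Qb (Fb N)).support, ResidueTrivial (restrictK N K P)) :
    ∃ wK : FF (Lvl K) N, wK ≠ 0 ∧ IsGaussUnit A N (levK N K wK) ∧
      thetaFt A N (levK N K wK) = 1 ∧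
      ∀ v : Place (Lvl K) (FF (Lvl K) N),
        v.ord wK = levelDiv K (D : Divisor Qb (Fb N)) v - levelDiv K (D' : Divisor Qb (Fb N)) v := by
  classical
  obtain ⟨wK, hw, hθ, hord⟩ :=
    exists_level_gauss_unit_of_rep hℓ hA hℓN hρ hres h hD hD' hrat hrat'
  refine ⟨wK, ?_, hw, hθ, fun v => ?_⟩
  · rintro rfl
    exact hw.ne_zero (map_zero _)
  · rw [← Finsupp.sub_apply, ← levelDiv_sub]
    refine (levelDiv_eq_ord K _ wK (fun P => by rw [Finsupp.sub_apply, hord P]) ?_ v).symm
    intro P hP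
    have h1 := Finsupp.mem_support_iff.mp hP
    rw [Finsupp.sub_apply] at h1
    by_cases h2 : (D : Divisor Qb (Fb N)) P = 0
    · have h3 : (D' : Divisor Qb (Fb N)) P ≠ 0 := by
        intro h3
        rw [h2, h3, sub_zero] at h1
        exact h1 rfl
      exact hrat' P (Finsupp.mem_support_iff.mpr h3)
    · exact hrat P (Finsupp.mem_support_iff.mpr h2)

end LevelZ2

end Fermat.Agent.S19.Cech.FunctionDescent
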