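/-
S19, Čech route, referee leaf for [GEN] (helper10): **(T2) for an ARBITRARY Gauss unit of `ℚ̄·F_N`.**

`ClassDict.exists_gaussUnit_of_principal` produces, for a principal divisor `E`, SOME Gauss unit `w`
with `div w = E` and `rC_* E = div (thetaFt w)`.  The step (red) of [GEN] needs the formula for a
GIVEN function `f` (an element of the divisorial module `Lp D`, pushed to the `ℚ̄`-level), whose zeros
are not rational at the level, so that the level-wise multiplicity formula
`ChartDataLevel.ord_redFin_eq_sum` (hypothesis `hrat`) does not apply.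

* `mapDomain_rC_eq_ord_thetaFt` : `f` a Gauss unit, `E = div f` ⟹ `rC_* E = div (thetaFt f)`;
* `ord_thetaFt_nonneg_of_forall` : if `ord_P f + D P ≥ 0` at all `P` over `Q` and `(rC_* D) Q = 0`
  then `thetaFt f` is regular at `Q` (the shape used by (red)).
-/
import Mathlib
import Fermat.Agent.S19.Cech.ClassDict
import Fermat.Agent.P3G.GeomStep

set_option autoImplicit false
set_option linter.unusedSectionVars false
set_option linter.style.haveILetI false
set_option synthInstance.maxHeartbeats 400000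
set_option maxHeartbeats 800000

open ModularCurve AlgebraicCurve

noncomputable section

namespace Fermat.Agent.S19.Cech.GaussT2

open Fermat.Agent.N4F.C Fermat.Agent.N4F.C.Main Fermat.Agent.N4F.C.MainFinal
  Fermat.Agent.N4F.C.Centre Fermat.Agent.S19.Cech.ClassDict

variable {A : ValuationSubring Qb} {N : ℕ} [NeZero N] {ℓ : ℕ}

/-- A nonzero constant which is a Gauss unit reduces to a function without zeros and poles. -/
theorem ord_thetaFt_const_eq_zero {c : Qb} (hc : IsGaussUnit A N (algebraMap Qb (Fb N) c))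
    (Q : Place (Kap A) (Ft A N)) : Q.ord (thetaFt A N (algebraMap Qb (Fb N) c)) = 0 := by
  have key : ∀ a : ↥A, IsGaussUnit A N (algebraMap Qb (Fb N) (a : Qb)) →
      Q.ord (thetaFt A N (algebraMap Qb (Fb N) (a : Qb))) = 0 := by
    intro a ha
    rw [thetaFt_const]
    apply Fermat.Agent.S24.Hurwitz.ord_algebraMap Q
    intro h0
    apply ha.thetaFt_ne_zero
    rw [thetaFt_const, h0, map_zero]
  rcases A.mem_or_inv_mem c with h | h
  · exact key ⟨c, h⟩ hc
  · have hinv : IsGaussUnit A N (algebraMap Qb (Fb N) c⁻¹) := by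
      have := hc.inv
      rwa [← map_inv₀] at this
    have h1 := key ⟨c⁻¹, h⟩ hinv
    have h2 : thetaFt A N (algebraMap Qb (Fb N) c⁻¹) = (thetaFt A N (algebraMap Qb (Fb N) c))⁻¹ := by
      rw [map_inv₀]
      exact hc.thetaFt_inv
    have h3 : Q.ord (thetaFt A N (algebraMap Qb (Fb N) c⁻¹)) = 0 := h1
    rw [h2, Q.ord_inv] at h3
    omega

variable (hℓ : ℓ.Prime) (hA : A.LiesOverPrime ℓ) (hℓN : ¬ ℓ ∣ N)
include hℓ hA hℓN

/-- **(T2) for an arbitrary Gauss unit.** -/
theorem mapDomain_rC_eq_ord_thetaFt {f : Fb N} (hf : IsGaussUnit A N f) {E : Divisor Qb (Fb N)}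
    (hE : ∀ P, E P = P.ord f) (Q : Place (Kap A) (Ft A N)) :
    Finsupp.mapDomain (rC hℓ hA hℓN) E Q = Q.ord (thetaFt A N f) := by
  have hmem : E ∈ Divisor.principal (K := Qb) (F := Fb N) := ⟨f, hf.ne_zero, hE⟩
  obtain ⟨w, hw, hdiv, hred⟩ := exists_gaussUnit_of_principal hℓ hA hℓN hmem
  have ht : f * w⁻¹ ≠ 0 := mul_ne_zero hf.ne_zero (inv_ne_zero hw.ne_zero)
  obtain ⟨c, hc0, hc⟩ := Fermat.Agent.P3G.GeomStep.exists_const_of_forall_ord_eq_zero N ht
    (fun P => by
      rw [P.ord_mul hf.ne_zero (inv_ne_zero hw.ne_zero), P.ord_inv, ← hE P, ← hdiv P]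
      ring)
  have hcu : IsGaussUnit A N (algebraMap Qb (Fb N) c) := by
    rw [← hc]
    exact hf.mul hw.inv
  have hfw : f = algebraMap Qb (Fb N) c * w := by
    rw [← hc, mul_assoc, inv_mul_cancel₀ hw.ne_zero, mul_one]
  rw [hred Q, hfw, hcu.thetaFt_mul hw, Q.ord_mul hcu.thetaFt_ne_zero hw.thetaFt_ne_zero,
    ord_thetaFt_const_eq_zero hcu Q, zero_add]

/-- The shape used by (red) of [GEN]: if `ord_P f + D P ≥ 0` at every place `P` of `ℚ̄·F_N` over `Q`
and the push-forward of `D` vanishes at `Q`, then the reduction of the Gauss unit `f` is regular at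
`Q`. -/
theorem ord_thetaFt_nonneg_of_forall {f : Fb N} (hf : IsGaussUnit A N f) (D : Divisor Qb (Fb N))
    (Q : Place (Kap A) (Ft A N)) (hD : Finsupp.mapDomain (rC hℓ hA hℓN) D Q = 0)
    (h : ∀ P : Place Qb (Fb N), rC hℓ hA hℓN P = Q → 0 ≤ P.ord f + D P) :
    0 ≤ Q.ord (thetaFt A N f) := by
  classical
  have hPD : HasPrincipalDivisors Qb (Fb N) :=
    Fermat.Agent.N4F.A.LevelMaps.hasPrincipalDivisors_bar N
  obtain ⟨E, hE, -⟩ := hPD.exists_divisor _ hf.ne_zero
  rw [← mapDomain_rC_eq_ord_thetaFt hℓ hA hℓN hf hE Q]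
  have h1 : Finsupp.mapDomain (rC hℓ hA hℓN) (E + D) Q =
      Finsupp.mapDomain (rC hℓ hA hℓN) E Q := by
    rw [Finsupp.mapDomain_add, Finsupp.add_apply, hD, add_zero]
  rw [← h1, Finsupp.mapDomain, Finsupp.sum_apply]
  apply Finset.sum_nonneg
  intro P _
  show 0 ≤ (Finsupp.single (rC hℓ hA hℓN P) ((E + D) P)) Q
  rw [Finsupp.single_apply]
  split_ifs with hPQ
  · rw [Finsupp.add_apply, hE P]
    exact h P hPQ
  · exact le_refl _

end Fermat.Agent.S19.Cech.GaussT2
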