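/-
S19 / Čech route (helper18): **elements of the Gauss ring of a level reduce into the function field
of the special fibre**, hence are Gauss units of `Fb N` as soon as their reduction is nonzero —
the ingredient "`levK x` is a Gauss unit" of `red_p` / `red_m` ([GEN]).

* `theta_mem_full` (generic `(K, N, O)`): for `z ∈ W_K = gaussSubalgebra K N O`,
  `theta z ∈ modularFunctionFieldFullC κ N` (write `z = a / b`, `a, b ∈ Rfin`, `θ b ≠ 0`);
* `thetaBar_levK_mem_full`, `isGaussUnit_levK`, `thetaBar_eq_zero_or_isGaussUnit_levK` at a good level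
  (`LevelPack A N K`);
* `coe_thetaFt_levK` : `(thetaFt A N (levK z) : κ((q))) = thetaBar A N (levK z)` for `z ∈ W_K`;
  `thetaFt_levK_eq_iff` : equality of `thetaFt` ⟺ equality of `thetaBar`.
-/
import Mathlib
import Fermat.Agent.N4F.E.GaussDVR
import Fermat.Agent.N4F.C.ChartReduction
import Fermat.Agent.N4F.C.ChartFactsProof
import Fermat.Agent.N4F.C.LevelTheta
import Fermat.Agent.S19.Cech.ClassDict

set_option autoImplicit false
set_option linter.unusedSectionVars false
set_option linter.style.haveILetI false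

open ModularCurve
open Fermat.Agent.S28.Gauss Fermat.Agent.N4.Chart Fermat.Agent.N4.Setting
open Fermat.Agent.N4.FibreEmbedding

noncomputable section

namespace Fermat.Agent.S19.Cech.GaussUnitLevel

section Generic

variable (K : Type) [Field K] [CharZero K] (N : ℕ) [NeZero N] (O : Subring K)
  [IsDiscreteValuationRing ↥O] [IsFractionRing ↥O K]

/-- **The reduction of an element of the Gauss ring of a level lies in the function field of the
special fibre.** -/
theorem theta_mem_full (hN : IsUnit ((N : ℕ) : ↥O))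
    (hprime : (fibreIdeal K N O (Rfin K N O)).IsPrime) {z : FF K N}
    (hz : z ∈ gaussSubalgebra K N O) :
    theta K N O ⟨z, hz⟩ ∈ modularFunctionFieldFullC (IsLocalRing.ResidueField ↥O) N := by
  obtain ⟨a, b, hb, hab, hθ⟩ := Fermat.Agent.N4F.E.GaussDVR.exists_frac_Rfin K N O hprime z hz
  have haG : (a : FF K N) ∈ gaussSubalgebra K N O :=
    chartAlg_le_gaussSubalgebra K N O
      (Set.singleton_subset_iff.mpr (jF_mem_gaussSubalgebra K N O)) a.2
  have hbG : (b : FF K N) ∈ gaussSubalgebra K N O :=
    chartAlg_le_gaussSubalgebra K N O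
      (Set.singleton_subset_iff.mpr (jF_mem_gaussSubalgebra K N O)) b.2
  have hθ' : theta K N O ⟨a, haG⟩ = theta K N O ⟨z, hz⟩ * theta K N O ⟨b, hbG⟩ := hθ
  have hbne : theta K N O ⟨b, hbG⟩ ≠ 0 := by
    intro h0
    apply hb
    have htr : Transcendental (IsLocalRing.ResidueField ↥O)
        (theta K N O ⟨jF K N, jF_mem_gaussSubalgebra K N O⟩) := by
      rw [theta_jF]
      exact Fermat.Agent.S24.FFBasics.transcendental_jqModC _
    rw [← ker_rho_eq K N O (jF_mem_gaussSubalgebra K N O) htr hprime]
    exact h0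
  have ha' := Fermat.Agent.N4F.C.ChartReduction.theta_mem_full_of_mem_Rfin K N O hN a.2 haG
  have hb' := Fermat.Agent.N4F.C.ChartReduction.theta_mem_full_of_mem_Rfin K N O hN b.2 hbG
  have e : theta K N O ⟨z, hz⟩ = theta K N O ⟨a, haG⟩ / theta K N O ⟨b, hbG⟩ := by
    rw [hθ', mul_div_assoc, div_self hbne, mul_one]
  rw [e]
  exact div_mem ha' hb'

end Generic

section Level

open Fermat.Agent.N4F.C Fermat.Agent.N4F.C.Levels Fermat.Agent.N4F.C.LevelCharts
open Fermat.Agent.N4F.C.LevelTheta Fermat.Agent.N4F.C.ChartFactsProof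
open Fermat.Agent.S19.Cech.ClassDict

variable {A : ValuationSubring Qb} {N : ℕ} [NeZero N] {K : IntermediateField ℚ Qb}
  [IsDiscreteValuationRing ↥(baseRing A K)] (P : LevelPack A N K)

include P

/-- The `Q̄`-level reduction of an element of the Gauss ring of a level lies in `Ft A N`. -/
theorem thetaBar_levK_mem_full {z : FF (Lvl K) N}
    (hz : z ∈ gaussSubalgebra (Lvl K) N (baseRing A K)) :
    thetaBar A N (levK N K z) ∈ modularFunctionFieldFullC (Kap A) N := by
  haveI := P.frac
  rw [thetaBar_levK A N K hz]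
  exact Fermat.Agent.N4.BaseDescent.coeffMap_mem_full _ N
    (theta_mem_full (Lvl K) N (baseRing A K) P.hN P.primeFin hz)

/-- An element of the Gauss ring of a level with nonzero reduction is a Gauss unit of `Fb N`. -/
theorem isGaussUnit_levK {z : FF (Lvl K) N}
    (hz : z ∈ gaussSubalgebra (Lvl K) N (baseRing A K))
    (hne : thetaBar A N (levK N K z) ≠ 0) : IsGaussUnit A N (levK N K z) :=
  ⟨levK_mem_gaussSub A N K hz, thetaBar_levK_mem_full P hz, hne⟩

/-- Dichotomy for the elements of the Gauss ring of a level. -/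
theorem thetaBar_eq_zero_or_isGaussUnit_levK {z : FF (Lvl K) N}
    (hz : z ∈ gaussSubalgebra (Lvl K) N (baseRing A K)) :
    thetaBar A N (levK N K z) = 0 ∨ IsGaussUnit A N (levK N K z) := by
  by_cases h : thetaBar A N (levK N K z) = 0
  · exact Or.inl h
  · exact Or.inr (isGaussUnit_levK P hz h)

/-- `thetaFt` of an element of the Gauss ring of a level is its `thetaBar`. -/
theorem coe_thetaFt_levK {z : FF (Lvl K) N}
    (hz : z ∈ gaussSubalgebra (Lvl K) N (baseRing A K)) :
    ((thetaFt A N (levK N K z) : Ft A N) : LaurentSeries (Kap A)) = thetaBar A N (levK N K z) :=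
  coe_thetaFt_of_mem (thetaBar_levK_mem_full P hz)

/-- Equality of `thetaFt` and of `thetaBar` are the same for elements of the Gauss ring of a
level. -/
theorem thetaFt_levK_eq_iff {z z' : FF (Lvl K) N}
    (hz : z ∈ gaussSubalgebra (Lvl K) N (baseRing A K))
    (hz' : z' ∈ gaussSubalgebra (Lvl K) N (baseRing A K)) :
    thetaFt A N (levK N K z) = thetaFt A N (levK N K z') ↔
      thetaBar A N (levK N K z) = thetaBar A N (levK N K z') := by
  rw [← coe_thetaFt_levK P hz, ← coe_thetaFt_levK P hz']
  exact ⟨fun h => congrArg _ h, fun h => Subtype.ext h⟩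

end Level

end Fermat.Agent.S19.Cech.GaussUnitLevel
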