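/-
S19 / Čech route, abstract core of [GEN] (helper18, insurance copy for the critical path):
**local generators `≡ unit` at every closed point of the special fibre give a global generator
`≡ 1`.**

`B ≤ Rg` subrings of a commutative ring `F`, `ϖ ∈ B`, `M` an additive subgroup of `F` stable under
multiplication by `B` (the chart module `ℒ_?(D)`).  The set
`I = {b ∈ B | ∃ f ∈ M, f ≡ b mod ϖ Rg}` is an ideal of `B` containing `ϖ`.  If for every maximal ideal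
`𝔪 ∋ ϖ` of `B` there is `f ∈ M` with `f ≡ b mod ϖ Rg`, `b ∉ 𝔪` (LG'), then `I = B`, i.e. there is
`f ∈ M` with `f ≡ 1 mod ϖ Rg` (`exists_isOne_mem`).

* `redIdeal`, `mem_redIdeal_iff`, `pi_mem_redIdeal`;
* `exists_isOne_mem` : (LG') ⟹ `∃ f ∈ M, IsOne ϖ Rg f`;
* `exists_isOne_mem_of_isOne_mul` : the same with (LG') in the form produced by `LocalEqChart`:
  `r g ∈ M`, `r ∈ B ∖ 𝔪`, `IsOne ϖ Rg g`;
* `Line.exists_gens` : both charts of a `Cocycle.Line` — the field `gens` of `LineSys`.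
-/
import Mathlib
import Fermat.Agent.S19.Cech.Cocycle

set_option autoImplicit false
set_option linter.unusedSectionVars false

namespace Fermat.Agent.S19.Cech.GenIdeal

open Fermat.Agent.S19.Cech.Cocycle

variable {F : Type*} [CommRing F] [IsDomain F]

/-- The ideal of the reductions of the elements of `M`: `{b ∈ B | ∃ f ∈ M, f ≡ b mod ϖ Rg}`. -/
def redIdeal (ϖ : F) {B Rg : Subring F} (hBR : B ≤ Rg) (M : AddSubgroup F)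
    (hM : ∀ b ∈ B, ∀ x ∈ M, b * x ∈ M) : Ideal B where
  carrier := {b | ∃ f ∈ M, ∃ r ∈ Rg, f = (b : F) + ϖ * r}
  zero_mem' := ⟨0, M.zero_mem, 0, Rg.zero_mem, by simp⟩
  add_mem' := by
    rintro a b ⟨f, hf, r, hr, e⟩ ⟨f', hf', r', hr', e'⟩
    exact ⟨f + f', M.add_mem hf hf', r + r', Rg.add_mem hr hr', by
      rw [e, e', Subring.coe_add]; ring⟩
  smul_mem' := by
    rintro a b ⟨f, hf, r, hr, e⟩
    refine ⟨(a : F) * f, hM a a.2 f hf, (a : F) * r, Rg.mul_mem (hBR a.2) hr, ?_⟩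
    rw [e, smul_eq_mul, Subring.coe_mul]
    ring

variable {ϖ : F} {B Rg : Subring F} (hBR : B ≤ Rg) (M : AddSubgroup F)
  (hM : ∀ b ∈ B, ∀ x ∈ M, b * x ∈ M)

theorem mem_redIdeal_iff {b : B} :
    b ∈ redIdeal ϖ hBR M hM ↔ ∃ f ∈ M, ∃ r ∈ Rg, f = (b : F) + ϖ * r := Iff.rfl

theorem pi_mem_redIdeal (hϖ : ϖ ∈ B) : (⟨ϖ, hϖ⟩ : B) ∈ redIdeal ϖ hBR M hM :=
  ⟨0, M.zero_mem, -1, Rg.neg_mem Rg.one_mem, by simp⟩

include hBR hM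

/-- **Global generator from local generators.** -/
theorem exists_isOne_mem (hϖ : ϖ ∈ B)
    (hloc : ∀ 𝔪 : Ideal B, 𝔪.IsMaximal → (⟨ϖ, hϖ⟩ : B) ∈ 𝔪 →
      ∃ f ∈ M, ∃ b : B, b ∉ 𝔪 ∧ ∃ r ∈ Rg, f = (b : F) + ϖ * r) :
    ∃ f ∈ M, IsOne ϖ Rg f := by
  by_cases htop : redIdeal ϖ hBR M hM = ⊤
  · have h1 : (1 : B) ∈ redIdeal ϖ hBR M hM := by rw [htop]; trivial
    obtain ⟨f, hf, r, hr, e⟩ := h1
    exact ⟨f, hf, r, hr, by rw [e, Subring.coe_one]⟩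
  · exfalso
    obtain ⟨𝔪, h𝔪, hle⟩ := Ideal.exists_le_maximal _ htop
    obtain ⟨f, hf, b, hb, r, hr, e⟩ := hloc 𝔪 h𝔪 (hle (pi_mem_redIdeal hBR M hM hϖ))
    exact hb (hle ⟨f, hf, r, hr, e⟩)

/-- The same with the local generators in the form `r g`, `r ∈ B ∖ 𝔪`, `g ≡ 1 mod ϖ Rg`
(the output of `LocalEqChart.chart_exists_generator`). -/
theorem exists_isOne_mem_of_isOne_mul (hϖ : ϖ ∈ B)
    (hloc : ∀ 𝔪 : Ideal B, 𝔪.IsMaximal → (⟨ϖ, hϖ⟩ : B) ∈ 𝔪 →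
      ∃ (r : B) (g : F), r ∉ 𝔪 ∧ IsOne ϖ Rg g ∧ (r : F) * g ∈ M) :
    ∃ f ∈ M, IsOne ϖ Rg f := by
  refine exists_isOne_mem hBR M hM hϖ fun 𝔪 h𝔪 hmem => ?_
  obtain ⟨r, g, hr, ⟨s, hs, rfl⟩, hrg⟩ := hloc 𝔪 h𝔪 hmem
  exact ⟨_, hrg, r, hr, (r : F) * s, Rg.mul_mem (hBR r.2) hs, by ring⟩

omit hBR hM

variable {Bp Bm B0 : Subring F}

/-- **The field `gens` of `LineSys`** for a `Cocycle.Line`, from local generators at the closed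
points of the special fibres of the two charts. -/
theorem Line.exists_gens (C : Charts ϖ Bp Bm B0 Rg) (L : Line ϖ Bp Bm B0 Rg)
    (hp : ∀ 𝔪 : Ideal Bp, 𝔪.IsMaximal → (⟨ϖ, C.mem_p⟩ : Bp) ∈ 𝔪 →
      ∃ (r : Bp) (g : F), r ∉ 𝔪 ∧ IsOne ϖ Rg g ∧ (r : F) * g ∈ L.Lp)
    (hm : ∀ 𝔪 : Ideal Bm, 𝔪.IsMaximal → (⟨ϖ, C.mem_m⟩ : Bm) ∈ 𝔪 →
      ∃ (r : Bm) (g : F), r ∉ 𝔪 ∧ IsOne ϖ Rg g ∧ (r : F) * g ∈ L.Lm) :
    ∃ fp ∈ L.Lp, ∃ fm ∈ L.Lm, IsOne ϖ Rg fp ∧ IsOne ϖ Rg fm := by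
  obtain ⟨fp, hfp, h1p⟩ := exists_isOne_mem_of_isOne_mul (C.p_le.trans C.le_R) L.Lp L.smul_p
    C.mem_p hp
  obtain ⟨fm, hfm, h1m⟩ := exists_isOne_mem_of_isOne_mul (C.m_le.trans C.le_R) L.Lm L.smul_m
    C.mem_m hm
  exact ⟨fp, hfp, fm, hfm, h1p, h1m⟩

end Fermat.Agent.S19.Cech.GenIdeal
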