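/-
S19 / Čech-units route, block CECH-2E (N) (helper21): **closed points of the level charts.**

Abstract part (Mathlib + `IdelePlaces`): for a chart `ρ : R → F'` (`ChartRed`) whose reduction is integral
over `k'[ρ t]` with `ρ t` transcendental over `k'`:

* `mul_ne_one_of_isIntegralElem` : `(t - c) u ≠ 1` for `u` integral over `k[t]`, `t` transcendental;
* `ChartRed.not_isField_of_integral` : the special fibre `R / ϖ` is not a field;
* `ChartRed.exists_place_sub_mem_nonunits` : for every constant `c` there is a place `Q` on the chart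
  where `ρ t` takes the value `c`;
* `ChartRed.exists_place_of_maximal` : **every maximal ideal of `R` containing `ϖ` is the closed point
  `ρ⁻¹(𝔪_Q)` of a place `Q` on the chart** (the quantifier of `GeneratorsAbs.exists_isOne_of_local`).

Concrete part: the level charts `Rfin`, `Rinf` of a good level `K` with a reduction `ρ`
(`LevelDiv.RhoData`): `chartRed_of_rhoData`, `exists_place_of_maximal_fin/_inf`,
`exists_place_both` (a place on both charts).
-/
import Mathlib
import Fermat.Agent.S19.Cech.IdelePlaces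
import Fermat.Agent.S19.Cech.LevelDiv

set_option autoImplicit false
set_option linter.unusedSectionVars false
set_option linter.style.haveILetI false

namespace Fermat.Agent.S19.Cech.IdeleN4

open AlgebraicCurve Polynomial Fermat.Agent.N4F.C.LocalMult
  Fermat.Agent.S19.Cech.IdeleDedekind Fermat.Agent.S19.Cech.IdelePlaces

/-! ### An integrality lemma -/

/-- If `t` is transcendental over the field `k` and `u` is integral over `k[t]`, then `t - c` is not
inverted by `u`. -/
theorem mul_ne_one_of_isIntegralElem {k E : Type*} [Field k] [CommRing E] [Algebra k E] {t u : E}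
    (ht : Transcendental k t)
    (hu : ((aeval t : k[X] →ₐ[k] E) : k[X] →+* E).IsIntegralElem u) (c : k) :
    (t - algebraMap k E c) * u ≠ 1 := by
  intro h1
  obtain ⟨q, hq, hqu⟩ := hu
  set f : k[X] →+* E := ((aeval t : k[X] →ₐ[k] E) : k[X] →+* E) with hf
  have hfinj : Function.Injective f := transcendental_iff_injective.mp ht
  set n := q.natDegree with hn
  have ha : f (X - C c) = t - algebraMap k E c := by simp [hf]
  have hQ : f (∑ i ∈ Finset.range (n + 1), q.coeff i * (X - C c) ^ (n - i)) = 0 := by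
    have h2 : f (∑ i ∈ Finset.range (n + 1), q.coeff i * (X - C c) ^ (n - i)) =
        (t - algebraMap k E c) ^ n * eval₂ f u q := by
      rw [eval₂_eq_sum_range, Finset.mul_sum, map_sum]
      refine Finset.sum_congr rfl fun i hi => ?_
      have hi' : i ≤ n := Nat.lt_succ_iff.mp (Finset.mem_range.mp hi)
      rw [map_mul, map_pow, ha]
      have h3 : (t - algebraMap k E c) ^ n =
          (t - algebraMap k E c) ^ (n - i) * (t - algebraMap k E c) ^ i := by
        rw [← pow_add, Nat.sub_add_cancel hi']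
      rw [h3]
      calc f (q.coeff i) * (t - algebraMap k E c) ^ (n - i)
          = f (q.coeff i) * (t - algebraMap k E c) ^ (n - i) *
              ((t - algebraMap k E c) * u) ^ i := by rw [h1, one_pow, mul_one]
        _ = (t - algebraMap k E c) ^ (n - i) * (t - algebraMap k E c) ^ i *
              (f (q.coeff i) * u ^ i) := by rw [mul_pow]; ring
    rw [h2, hqu, mul_zero]
  have hQ0 : (∑ i ∈ Finset.range (n + 1), q.coeff i * (X - C c) ^ (n - i)) = 0 :=
    hfinj (by rw [hQ, map_zero])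
  have hev : (∑ i ∈ Finset.range (n + 1), q.coeff i * (X - C c) ^ (n - i)).eval c = 1 := by
    rw [eval_finsetSum, Finset.sum_eq_single n]
    · rw [Nat.sub_self, pow_zero, mul_one, hn, hq.coeff_natDegree, eval_one]
    · intro i hi hne
      have hi' : i ≤ n := Nat.lt_succ_iff.mp (Finset.mem_range.mp hi)
      have h4 : n - i ≠ 0 := by omega
      rw [eval_mul, eval_pow, eval_sub, eval_X, eval_C, sub_self, zero_pow h4, mul_zero]
    · intro h
      exact absurd (Finset.mem_range.mpr (Nat.lt_succ_self n)) h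
  rw [hQ0, eval_zero] at hev
  exact zero_ne_one hev

/-! ### Closed points of a chart whose reduction is integral over `k'[t̄]` -/

section Abstract

variable {R k' F' : Type*} [CommRing R] [Field k'] [Field F'] [Algebra k' F']
  {ϖ : R} {ρ : R →+* F'} (H : ChartRed k' ϖ ρ) {t : R} (ht : Transcendental k' (ρ t))
  (hint : ∀ r : R, ((aeval (ρ t) : k'[X] →ₐ[k'] F') : k'[X] →+* F').IsIntegralElem (ρ r))

include H ht hint

/-- The special fibre of a chart which is integral over `k'[t̄]`, `t̄` transcendental, is not a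
field. -/
theorem not_isField_of_integral : ¬ IsField (R ⧸ Ideal.span {ϖ}) := by
  intro hf
  have hmax : (Ideal.span {ϖ} : Ideal R).IsMaximal :=
    (Ideal.Quotient.maximal_ideal_iff_isField_quotient _).2 hf
  have ht0 : t ∉ Ideal.span {ϖ} := by
    rw [← H.ker_eq, RingHom.mem_ker]
    intro h0
    rw [h0] at ht
    exact ht isAlgebraic_zero
  obtain ⟨y, i, hi, hyi⟩ := hmax.exists_inv ht0
  have hi0 : ρ i = 0 := by rw [← RingHom.mem_ker, H.ker_eq]; exact hi
  have h2 := congrArg ρ hyi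
  rw [map_add, map_mul, hi0, add_zero, map_one] at h2
  refine mul_ne_one_of_isIntegralElem ht (hint y) 0 ?_
  rw [map_zero, sub_zero, mul_comm]
  exact h2

/-- For every constant `c` there is a place on the chart at which `t̄` takes the value `c`. -/
theorem exists_place_sub_mem_nonunits (c : k') :
    ∃ (Q : Place k' F') (_ : ChartRed.OnChart ρ Q),
      ρ t - algebraMap k' F' c ∈ Q.toValuationSubring.nonunits := by
  obtain ⟨a, ha⟩ := H.const c
  have hϖ0 : ρ ϖ = 0 := by
    rw [← RingHom.mem_ker, H.ker_eq]; exact Ideal.mem_span_singleton_self ϖ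
  have hne : Ideal.span {ϖ, t - a} ≠ (⊤ : Ideal R) := by
    intro htop
    have h1 : (1 : R) ∈ Ideal.span {ϖ, t - a} := by rw [htop]; trivial
    obtain ⟨x, y, hxy⟩ := Ideal.mem_span_pair.mp h1
    have h2 := congrArg ρ hxy
    rw [map_add, map_mul, map_mul, hϖ0, mul_zero, zero_add, map_sub, ha, map_one] at h2
    exact mul_ne_one_of_isIntegralElem ht (hint y) c (by rw [mul_comm]; exact h2)
  obtain ⟨𝔪, h𝔪, hle⟩ := Ideal.exists_le_maximal _ hne
  have hϖ𝔪 : ϖ ∈ 𝔪 := hle (Ideal.subset_span (by simp))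
  obtain ⟨Q, hQ, hQ𝔪⟩ := H.exists_place_of_pt ⟨𝔪, h𝔪, hϖ𝔪⟩ (not_isField_of_integral H ht hint)
  refine ⟨Q, hQ, ?_⟩
  have h3 : t - a ∈ closedPoint ρ Q hQ := by
    rw [hQ𝔪]; exact hle (Ideal.subset_span (by simp))
  rw [mem_closedPoint_iff, map_sub, ha] at h3
  exact h3

/-- **Every maximal ideal of the chart containing `ϖ` is the closed point of a place on the
chart.** -/
theorem exists_place_of_maximal (𝔪 : Ideal R) (h𝔪 : 𝔪.IsMaximal) (hϖ : ϖ ∈ 𝔪) :
    ∃ (Q : Place k' F') (hQ : ∀ r : R, ρ r ∈ Q.toValuationSubring), closedPoint ρ Q hQ = 𝔪 :=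
  H.exists_place_of_pt ⟨𝔪, h𝔪, hϖ⟩ (not_isField_of_integral H ht hint)

/-- A place on the chart at which `t̄` is a unit. -/
theorem exists_place_unit :
    ∃ (Q : Place k' F') (_ : ChartRed.OnChart ρ Q), (ρ t)⁻¹ ∈ Q.toValuationSubring := by
  obtain ⟨Q, hQ, h⟩ := exists_place_sub_mem_nonunits H ht hint 1
  refine ⟨Q, hQ, ?_⟩
  rw [map_one, ValuationSubring.mem_nonunits_iff] at h
  have h1 : Q.toValuationSubring.valuation (ρ t) = 1 := by
    have h2 := Valuation.map_one_add_of_lt (v := Q.toValuationSubring.valuation) h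
    rwa [add_sub_cancel] at h2
  rw [← ValuationSubring.valuation_le_one_iff, map_inv₀, h1, inv_one]

end Abstract

/-! ### The level charts -/

section Concrete

open ModularCurve Fermat.Agent.N4.Setting Fermat.Agent.N4.Chart Fermat.Agent.N4F.C
  Fermat.Agent.N4F.C.Levels Fermat.Agent.N4F.C.LevelCharts Fermat.Agent.N4F.C.Centre
  Fermat.Agent.N4F.C.Formula Fermat.Agent.N4F.C.ChartFibre Fermat.Agent.N4F.C.ChartFactsProof
  Fermat.Agent.N4.BigDVR Fermat.Agent.S19.Cech.LevelDiv

variable {A : ValuationSubring Qb} {N : ℕ} [NeZero N] {K : IntermediateField ℚ Qb}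
  [IsDiscreteValuationRing ↥(baseRing A K)]

section Generic

variable {R : Subalgebra ↥(baseRing A K) (FF (Lvl K) N)} {gen : Fb N} {ϖ : ↥(baseRing A K)}
  {ρ : ↥R →+* Ft A N}

/-- The reduction of a constant of the level. -/
theorem RhoData.rho_algebraMap (h : RhoData A N K R gen ϖ ρ) (c : ↥(baseRing A K)) :
    ρ (algebraMap ↥(baseRing A K) ↥R c) =
      algebraMap (Kap A) (Ft A N) (IsLocalRing.residue ↥A (baseIncl A K c)) := by
  rw [h.rho_eq]
  have h1 : ((algebraMap ↥(baseRing A K) ↥R c : ↥R) : FF (Lvl K) N) =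
      algebraMap ↥(baseRing A K) (FF (Lvl K) N) c := rfl
  rw [h1, levK_algebraMap]
  exact thetaFt_const (baseIncl A K c)

/-- **The level chart with its reduction is a `ChartRed`** (the residue field of the level is the
whole of `κ(A)`). -/
theorem chartRed_of_rhoData (h : RhoData A N K R gen ϖ ρ)
    (hres : Function.Surjective (IsLocalRing.ResidueField.map (baseIncl A K))) :
    ChartRed (Kap A) (algebraMap ↥(baseRing A K) ↥R ϖ) ρ where
  ker_eq := h.ker_eq
  dedekind := h.dedekind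
  frac := h.frac
  const := by
    intro c
    obtain ⟨c', rfl⟩ := hres c
    obtain ⟨c'', rfl⟩ := IsLocalRing.residue_surjective c'
    refine ⟨algebraMap ↥(baseRing A K) ↥R c'', ?_⟩
    rw [RhoData.rho_algebraMap h, IsLocalRing.ResidueField.map_residue]

end Generic

/-! #### The finite chart -/

section Fin

variable [IsFractionRing ↥(baseRing A K) (Lvl K)] {ϖ : ↥(baseRing A K)}
  {ρ : ↥(Rfin (Lvl K) N (baseRing A K)) →+* Ft A N}

theorem rho_jFin (h : RhoData A N K (Rfin (Lvl K) N (baseRing A K)) (Fermat.Agent.N4F.C.jb N) ϖ ρ) :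
    ρ (jFin (Lvl K) N (baseRing A K)) = jF (Kap A) N := by
  rw [h.rho_eq, coe_jFin, levK_jF, thetaFt_jb]

theorem rho_isIntegralElem_fin
    (h : RhoData A N K (Rfin (Lvl K) N (baseRing A K)) (Fermat.Agent.N4F.C.jb N) ϖ ρ)
    (hN : IsUnit ((N : ℕ) : ↥(baseRing A K))) (x : ↥(Rfin (Lvl K) N (baseRing A K))) :
    ((aeval (ρ (jFin (Lvl K) N (baseRing A K))) : (Kap A)[X] →ₐ[Kap A] Ft A N) :
      (Kap A)[X] →+* Ft A N).IsIntegralElem (ρ x) := by
  rw [rho_jFin h, ← Fermat.Agent.N4.IntClosure.mem_chartAlg_singleton_iff, h.rho_eq]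
  exact thetaFt_lev_mem_SigmaFin A N (Lvl K) (baseRing A K) (baseIncl A K) (coe_baseIncl A K) hN x

theorem transcendental_rho_jFin
    (h : RhoData A N K (Rfin (Lvl K) N (baseRing A K)) (Fermat.Agent.N4F.C.jb N) ϖ ρ) :
    Transcendental (Kap A) (ρ (jFin (Lvl K) N (baseRing A K))) := by
  rw [rho_jFin h]
  exact Fermat.Agent.N4.FFAlgebraic.transcendental_jF (Kap A) N

/-- The special fibre of the finite chart of a level is not a field. -/
theorem not_isField_fin
    (h : RhoData A N K (Rfin (Lvl K) N (baseRing A K)) (Fermat.Agent.N4F.C.jb N) ϖ ρ)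
    (hN : IsUnit ((N : ℕ) : ↥(baseRing A K)))
    (hres : Function.Surjective (IsLocalRing.ResidueField.map (baseIncl A K))) :
    ¬ IsField (↥(Rfin (Lvl K) N (baseRing A K)) ⧸
      Ideal.span {algebraMap ↥(baseRing A K) ↥(Rfin (Lvl K) N (baseRing A K)) ϖ}) :=
  not_isField_of_integral (chartRed_of_rhoData h hres) (transcendental_rho_jFin h)
    (rho_isIntegralElem_fin h hN)

/-- **Every maximal ideal of the finite chart of a level containing the uniformiser is the closed
point of a place `Q` of the special fibre with `j̄ ∈ 𝒪_Q`.** -/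
theorem exists_place_of_maximal_fin
    (h : RhoData A N K (Rfin (Lvl K) N (baseRing A K)) (Fermat.Agent.N4F.C.jb N) ϖ ρ)
    (hN : IsUnit ((N : ℕ) : ↥(baseRing A K)))
    (hres : Function.Surjective (IsLocalRing.ResidueField.map (baseIncl A K)))
    (𝔪 : Ideal ↥(Rfin (Lvl K) N (baseRing A K))) (h𝔪 : 𝔪.IsMaximal)
    (hϖ : algebraMap ↥(baseRing A K) ↥(Rfin (Lvl K) N (baseRing A K)) ϖ ∈ 𝔪) :
    ∃ (Q : Place (Kap A) (Ft A N)) (hQ : ∀ x, ρ x ∈ Q.toValuationSubring),
      thetaFt A N (Fermat.Agent.N4F.C.jb N) ∈ Q.toValuationSubring ∧ closedPoint ρ Q hQ = 𝔪 := by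
  obtain ⟨Q, hQ, hQ𝔪⟩ := exists_place_of_maximal (chartRed_of_rhoData h hres)
    (transcendental_rho_jFin h) (rho_isIntegralElem_fin h hN) 𝔪 h𝔪 hϖ
  refine ⟨Q, hQ, ?_, hQ𝔪⟩
  rw [thetaFt_jb, ← rho_jFin h]
  exact hQ _

/-- A place of the special fibre on both charts (`j̄` is a unit at `Q`). -/
theorem exists_place_both_fin
    (h : RhoData A N K (Rfin (Lvl K) N (baseRing A K)) (Fermat.Agent.N4F.C.jb N) ϖ ρ)
    (hN : IsUnit ((N : ℕ) : ↥(baseRing A K)))
    (hres : Function.Surjective (IsLocalRing.ResidueField.map (baseIncl A K))) :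
    ∃ Q : Place (Kap A) (Ft A N), jF (Kap A) N ∈ Q.toValuationSubring ∧
      (jF (Kap A) N)⁻¹ ∈ Q.toValuationSubring := by
  obtain ⟨Q, hQ, hu⟩ := exists_place_unit (chartRed_of_rhoData h hres)
    (transcendental_rho_jFin h) (rho_isIntegralElem_fin h hN)
  rw [rho_jFin h] at hu
  refine ⟨Q, ?_, hu⟩
  rw [← rho_jFin h]
  exact hQ _

end Fin

/-! #### The chart at infinity -/

section Inf

variable [IsFractionRing ↥(baseRing A K) (Lvl K)] {ϖ : ↥(baseRing A K)}
  {ρ : ↥(Rinf (Lvl K) N (baseRing A K)) →+* Ft A N}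

theorem rho_jInvInf
    (h : RhoData A N K (Rinf (Lvl K) N (baseRing A K)) (Fermat.Agent.N4F.C.jb N)⁻¹ ϖ ρ) :
    ρ (jInvInf (Lvl K) N (baseRing A K)) = (jF (Kap A) N)⁻¹ := by
  rw [h.rho_eq, coe_jInvInf, levK_jF_inv, thetaFt_jb_inv]

theorem rho_isIntegralElem_inf
    (h : RhoData A N K (Rinf (Lvl K) N (baseRing A K)) (Fermat.Agent.N4F.C.jb N)⁻¹ ϖ ρ)
    (hN : IsUnit ((N : ℕ) : ↥(baseRing A K))) (x : ↥(Rinf (Lvl K) N (baseRing A K))) :
    ((aeval (ρ (jInvInf (Lvl K) N (baseRing A K))) : (Kap A)[X] →ₐ[Kap A] Ft A N) :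
      (Kap A)[X] →+* Ft A N).IsIntegralElem (ρ x) := by
  rw [rho_jInvInf h, ← Fermat.Agent.N4.IntClosure.mem_chartAlg_singleton_iff, h.rho_eq]
  exact thetaFt_lev_mem_SigmaInf A N (Lvl K) (baseRing A K) (baseIncl A K) (coe_baseIncl A K) hN x

theorem transcendental_rho_jInvInf
    (h : RhoData A N K (Rinf (Lvl K) N (baseRing A K)) (Fermat.Agent.N4F.C.jb N)⁻¹ ϖ ρ) :
    Transcendental (Kap A) (ρ (jInvInf (Lvl K) N (baseRing A K))) := by
  rw [rho_jInvInf h]
  exact Fermat.Agent.N4.FFAlgebraic.transcendental_jF_inv (Kap A) N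

/-- The special fibre of the chart at infinity of a level is not a field. -/
theorem not_isField_inf
    (h : RhoData A N K (Rinf (Lvl K) N (baseRing A K)) (Fermat.Agent.N4F.C.jb N)⁻¹ ϖ ρ)
    (hN : IsUnit ((N : ℕ) : ↥(baseRing A K)))
    (hres : Function.Surjective (IsLocalRing.ResidueField.map (baseIncl A K))) :
    ¬ IsField (↥(Rinf (Lvl K) N (baseRing A K)) ⧸
      Ideal.span {algebraMap ↥(baseRing A K) ↥(Rinf (Lvl K) N (baseRing A K)) ϖ}) :=
  not_isField_of_integral (chartRed_of_rhoData h hres) (transcendental_rho_jInvInf h)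
    (rho_isIntegralElem_inf h hN)

/-- **Every maximal ideal of the chart at infinity of a level containing the uniformiser is the
closed point of a place `Q` of the special fibre with `j̄⁻¹ ∈ 𝒪_Q`.** -/
theorem exists_place_of_maximal_inf
    (h : RhoData A N K (Rinf (Lvl K) N (baseRing A K)) (Fermat.Agent.N4F.C.jb N)⁻¹ ϖ ρ)
    (hN : IsUnit ((N : ℕ) : ↥(baseRing A K)))
    (hres : Function.Surjective (IsLocalRing.ResidueField.map (baseIncl A K)))
    (𝔪 : Ideal ↥(Rinf (Lvl K) N (baseRing A K))) (h𝔪 : 𝔪.IsMaximal)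
    (hϖ : algebraMap ↥(baseRing A K) ↥(Rinf (Lvl K) N (baseRing A K)) ϖ ∈ 𝔪) :
    ∃ (Q : Place (Kap A) (Ft A N)) (hQ : ∀ x, ρ x ∈ Q.toValuationSubring),
      thetaFt A N (Fermat.Agent.N4F.C.jb N)⁻¹ ∈ Q.toValuationSubring ∧
        closedPoint ρ Q hQ = 𝔪 := by
  obtain ⟨Q, hQ, hQ𝔪⟩ := exists_place_of_maximal (chartRed_of_rhoData h hres)
    (transcendental_rho_jInvInf h) (rho_isIntegralElem_inf h hN) 𝔪 h𝔪 hϖ
  refine ⟨Q, hQ, ?_, hQ𝔪⟩
  rw [thetaFt_jb_inv, ← rho_jInvInf h]
  exact hQ _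

end Inf

/-! #### The same, from a `LevelPack` -/

section Pack

variable {ϖ : ↥(baseRing A K)}

theorem chartRed_of_pack {R : Subalgebra ↥(baseRing A K) (FF (Lvl K) N)} {gen : Fb N}
    {ρ : ↥R →+* Ft A N} (P : LevelPack A N K) (h : RhoData A N K R gen ϖ ρ) :
    ChartRed (Kap A) (algebraMap ↥(baseRing A K) ↥R ϖ) ρ :=
  chartRed_of_rhoData h P.hbij.surjective

theorem exists_place_of_maximal_fin_of_pack {ρ : ↥(Rfin (Lvl K) N (baseRing A K)) →+* Ft A N}
    (P : LevelPack A N K)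
    (h : RhoData A N K (Rfin (Lvl K) N (baseRing A K)) (Fermat.Agent.N4F.C.jb N) ϖ ρ)
    (𝔪 : Ideal ↥(Rfin (Lvl K) N (baseRing A K))) (h𝔪 : 𝔪.IsMaximal)
    (hϖ : algebraMap ↥(baseRing A K) ↥(Rfin (Lvl K) N (baseRing A K)) ϖ ∈ 𝔪) :
    ∃ (Q : Place (Kap A) (Ft A N)) (hQ : ∀ x, ρ x ∈ Q.toValuationSubring),
      thetaFt A N (Fermat.Agent.N4F.C.jb N) ∈ Q.toValuationSubring ∧ closedPoint ρ Q hQ = 𝔪 :=
  haveI := P.frac
  exists_place_of_maximal_fin h P.hN P.hbij.surjective 𝔪 h𝔪 hϖ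

theorem exists_place_of_maximal_inf_of_pack {ρ : ↥(Rinf (Lvl K) N (baseRing A K)) →+* Ft A N}
    (P : LevelPack A N K)
    (h : RhoData A N K (Rinf (Lvl K) N (baseRing A K)) (Fermat.Agent.N4F.C.jb N)⁻¹ ϖ ρ)
    (𝔪 : Ideal ↥(Rinf (Lvl K) N (baseRing A K))) (h𝔪 : 𝔪.IsMaximal)
    (hϖ : algebraMap ↥(baseRing A K) ↥(Rinf (Lvl K) N (baseRing A K)) ϖ ∈ 𝔪) :
    ∃ (Q : Place (Kap A) (Ft A N)) (hQ : ∀ x, ρ x ∈ Q.toValuationSubring),
      thetaFt A N (Fermat.Agent.N4F.C.jb N)⁻¹ ∈ Q.toValuationSubring ∧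
        closedPoint ρ Q hQ = 𝔪 :=
  haveI := P.frac
  exists_place_of_maximal_inf h P.hN P.hbij.surjective 𝔪 h𝔪 hϖ

theorem exists_place_both_of_pack {ρ : ↥(Rfin (Lvl K) N (baseRing A K)) →+* Ft A N}
    (P : LevelPack A N K)
    (h : RhoData A N K (Rfin (Lvl K) N (baseRing A K)) (Fermat.Agent.N4F.C.jb N) ϖ ρ) :
    ∃ Q : Place (Kap A) (Ft A N), jF (Kap A) N ∈ Q.toValuationSubring ∧
      (jF (Kap A) N)⁻¹ ∈ Q.toValuationSubring :=
  haveI := P.frac
  exists_place_both_fin h P.hN P.hbij.surjective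

end Pack

end Concrete

end Fermat.Agent.S19.Cech.IdeleN4
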