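/-
S19 / Čech route, leaf [GEN], the ASSEMBLER (helper4; dispatch #2343/#2344 of helper22):
**global generators `≡ 1` of the chart modules `ℒ_±(D)` at a good level from LOCAL generators at the
places of the special fibre.**

Level `K` with `LevelPack A N K`, `ϖ` a uniformiser, `ρ₊ : Rfin → Ft A N`, `ρ₋ : Rinf → Ft A N` the
reductions of the two charts (`LevelDiv.RhoData`), `W_K = gaussSubalgebra (Lvl K) N (baseRing A K)`,
`D` a divisor of the level.

Hypothesis (= the output of GenLocal, helper1; `LocalEqChart.chart_exists_generator`): for every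
place `Q` of the special fibre on the chart there are `r` in the chart, `r ∉ closedPoint ρ Q`, and `g`
with `IsOne ϖ W_K g` and `r · g ∈ ℒ_±(D)`.

* `exists_gen_fin`, `exists_gen_inf` : then `∃ f ∈ ℒ_±(D), IsOne ϖ W_K f`
  (helper18's `GenIdeal.exists_isOne_mem_of_isOne_mul` + helper21's
  `IdeleN4.exists_place_of_maximal_fin/inf_of_pack`: every maximal ideal of the chart containing `ϖ`
  is the closed point of such a `Q`);
* `exists_gens` : both charts at once;
* `exists_gens_lineOf` : the field `gens` of `CoordOfLines.LineSys` for `GaussN4.lineOf … D rp rm`.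
-/
import Mathlib
import Fermat.Agent.S19.Cech.GenIdeal
import Fermat.Agent.S19.Cech.IdeleN4
import Fermat.Agent.S19.Cech.GaussN4

set_option autoImplicit false
set_option linter.unusedSectionVars false
set_option linter.style.haveILetI false
set_option synthInstance.maxHeartbeats 400000
set_option maxHeartbeats 800000

open ModularCurve AlgebraicCurve
open Fermat.Agent.N4.Setting Fermat.Agent.N4.Chart Fermat.Agent.N4.FibreEmbedding

noncomputable section

namespace Fermat.Agent.S19.Cech.GenAssemble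

open Fermat.Agent.N4F.C Fermat.Agent.N4F.C.Levels Fermat.Agent.N4F.C.LevelCharts
  Fermat.Agent.N4F.C.Centre Fermat.Agent.N4F.C.ChartFactsProof Fermat.Agent.N4F.C.LocalMult
  Fermat.Agent.S19.Cech.LevelDiv Fermat.Agent.S19.Cech.DivModule Fermat.Agent.S19.Cech.Cocycle

variable {A : ValuationSubring Qb} {N : ℕ} [NeZero N] {K : IntermediateField ℚ Qb}
  [IsDiscreteValuationRing ↥(baseRing A K)] [IsFractionRing ↥(baseRing A K) (Lvl K)]
  {ϖ : ↥(baseRing A K)}

/-- Shortcut instance (the search through the instances of `IntermediateField` is slow). -/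
local instance instModuleFFLvl : Module ↥(baseRing A K) (FF (Lvl K) N) := Algebra.toModule

/-- **Global generator `≡ 1` of `ℒ₊(D)` from local generators** at the places of the special fibre
on the finite chart. -/
theorem exists_gen_fin (P : LevelPack A N K)
    {ρ : ↥(Rfin (Lvl K) N (baseRing A K)) →+* Ft A N}
    (hρ : RhoData A N K (Rfin (Lvl K) N (baseRing A K)) (Fermat.Agent.N4F.C.jb N) ϖ ρ)
    (D : Divisor (Lvl K) (FF (Lvl K) N))
    (hloc : ∀ (Q : Place (Kap A) (Ft A N)) (hQ : ∀ x, ρ x ∈ Q.toValuationSubring),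
      thetaFt A N (Fermat.Agent.N4F.C.jb N) ∈ Q.toValuationSubring →
      ∃ (r : ↥(Rfin (Lvl K) N (baseRing A K))) (g : FF (Lvl K) N), r ∉ closedPoint ρ Q hQ ∧
        IsOne (algebraMap ↥(baseRing A K) (FF (Lvl K) N) ϖ)
          (gaussSubalgebra (Lvl K) N (baseRing A K)).toSubring g ∧
        (r : FF (Lvl K) N) * g ∈
          Lp (gaussSubalgebra (Lvl K) N (baseRing A K)) (jF (Lvl K) N) D) :
    ∃ f ∈ Lp (gaussSubalgebra (Lvl K) N (baseRing A K)) (jF (Lvl K) N) D,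
      IsOne (algebraMap ↥(baseRing A K) (FF (Lvl K) N) ϖ)
        (gaussSubalgebra (Lvl K) N (baseRing A K)).toSubring f := by
  have hBW : ∀ x ∈ chartAlg ↥(baseRing A K) (FF (Lvl K) N) {jF (Lvl K) N},
      x ∈ gaussSubalgebra (Lvl K) N (baseRing A K) := fun x hx =>
    chartAlg_le_gaussSubalgebra (Lvl K) N (baseRing A K)
      (Set.singleton_subset_iff.mpr (jF_mem_gaussSubalgebra (Lvl K) N (baseRing A K))) hx
  have hBR : (Rfin (Lvl K) N (baseRing A K)).toSubring ≤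
      (gaussSubalgebra (Lvl K) N (baseRing A K)).toSubring := fun x hx => hBW x hx
  have hM : ∀ b ∈ (Rfin (Lvl K) N (baseRing A K)).toSubring,
      ∀ x ∈ (Lp (gaussSubalgebra (Lvl K) N (baseRing A K)) (jF (Lvl K) N) D).toAddSubgroup,
      b * x ∈ (Lp (gaussSubalgebra (Lvl K) N (baseRing A K)) (jF (Lvl K) N) D).toAddSubgroup :=
    fun b hb x hx => chart_mul_mem_LD (jF (Lvl K) N) hBW hb hx
  have hϖmem : algebraMap ↥(baseRing A K) (FF (Lvl K) N) ϖ ∈
      (Rfin (Lvl K) N (baseRing A K)).toSubring :=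
    Subalgebra.algebraMap_mem (Rfin (Lvl K) N (baseRing A K)) ϖ
  obtain ⟨f, hf, h1⟩ := GenIdeal.exists_isOne_mem_of_isOne_mul hBR
    (Lp (gaussSubalgebra (Lvl K) N (baseRing A K)) (jF (Lvl K) N) D).toAddSubgroup hM hϖmem
    (fun 𝔪 h𝔪 hmem => by
      obtain ⟨Q, hQ, hj, e⟩ := IdeleN4.exists_place_of_maximal_fin_of_pack P hρ 𝔪 h𝔪 hmem
      obtain ⟨r, g, hr, hg, hrg⟩ := hloc Q hQ hj
      exact ⟨r, g, fun h => hr (e ▸ h), hg, hrg⟩)
  exact ⟨f, hf, h1⟩

/-- **Global generator `≡ 1` of `ℒ₋(D)` from local generators** at the places of the special fibre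
on the chart at infinity. -/
theorem exists_gen_inf (P : LevelPack A N K)
    {ρ : ↥(Rinf (Lvl K) N (baseRing A K)) →+* Ft A N}
    (hρ : RhoData A N K (Rinf (Lvl K) N (baseRing A K)) (Fermat.Agent.N4F.C.jb N)⁻¹ ϖ ρ)
    (D : Divisor (Lvl K) (FF (Lvl K) N))
    (hloc : ∀ (Q : Place (Kap A) (Ft A N)) (hQ : ∀ x, ρ x ∈ Q.toValuationSubring),
      thetaFt A N (Fermat.Agent.N4F.C.jb N)⁻¹ ∈ Q.toValuationSubring →
      ∃ (r : ↥(Rinf (Lvl K) N (baseRing A K))) (g : FF (Lvl K) N), r ∉ closedPoint ρ Q hQ ∧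
        IsOne (algebraMap ↥(baseRing A K) (FF (Lvl K) N) ϖ)
          (gaussSubalgebra (Lvl K) N (baseRing A K)).toSubring g ∧
        (r : FF (Lvl K) N) * g ∈
          Lm (gaussSubalgebra (Lvl K) N (baseRing A K)) (jF (Lvl K) N) D) :
    ∃ f ∈ Lm (gaussSubalgebra (Lvl K) N (baseRing A K)) (jF (Lvl K) N) D,
      IsOne (algebraMap ↥(baseRing A K) (FF (Lvl K) N) ϖ)
        (gaussSubalgebra (Lvl K) N (baseRing A K)).toSubring f := by
  have hBW : ∀ x ∈ chartAlg ↥(baseRing A K) (FF (Lvl K) N) {(jF (Lvl K) N)⁻¹},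
      x ∈ gaussSubalgebra (Lvl K) N (baseRing A K) := fun x hx =>
    chartAlg_le_gaussSubalgebra (Lvl K) N (baseRing A K)
      (Set.singleton_subset_iff.mpr (jF_inv_mem_gaussSubalgebra (Lvl K) N (baseRing A K))) hx
  have hBR : (Rinf (Lvl K) N (baseRing A K)).toSubring ≤
      (gaussSubalgebra (Lvl K) N (baseRing A K)).toSubring := fun x hx => hBW x hx
  have hM : ∀ b ∈ (Rinf (Lvl K) N (baseRing A K)).toSubring,
      ∀ x ∈ (Lm (gaussSubalgebra (Lvl K) N (baseRing A K)) (jF (Lvl K) N) D).toAddSubgroup,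
      b * x ∈ (Lm (gaussSubalgebra (Lvl K) N (baseRing A K)) (jF (Lvl K) N) D).toAddSubgroup :=
    fun b hb x hx => chart_mul_mem_LD (jF (Lvl K) N)⁻¹ hBW hb hx
  have hϖmem : algebraMap ↥(baseRing A K) (FF (Lvl K) N) ϖ ∈
      (Rinf (Lvl K) N (baseRing A K)).toSubring :=
    Subalgebra.algebraMap_mem (Rinf (Lvl K) N (baseRing A K)) ϖ
  obtain ⟨f, hf, h1⟩ := GenIdeal.exists_isOne_mem_of_isOne_mul hBR
    (Lm (gaussSubalgebra (Lvl K) N (baseRing A K)) (jF (Lvl K) N) D).toAddSubgroup hM hϖmem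
    (fun 𝔪 h𝔪 hmem => by
      obtain ⟨Q, hQ, hj, e⟩ := IdeleN4.exists_place_of_maximal_inf_of_pack P hρ 𝔪 h𝔪 hmem
      obtain ⟨r, g, hr, hg, hrg⟩ := hloc Q hQ hj
      exact ⟨r, g, fun h => hr (e ▸ h), hg, hrg⟩)
  exact ⟨f, hf, h1⟩

/-- **The field `gens` of `CoordOfLines.LineSys`** for the line `GaussN4.lineOf hstar hϖ0 D rp rm` of a
divisor of the level, from the local generators on both charts. -/
theorem exists_gens_lineOf (P : LevelPack A N K)
    (hstar : StarStatement (Lvl K) N (baseRing A K)) (hϖ0 : ϖ ≠ 0)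
    {ρp : ↥(Rfin (Lvl K) N (baseRing A K)) →+* Ft A N}
    (hρp : RhoData A N K (Rfin (Lvl K) N (baseRing A K)) (Fermat.Agent.N4F.C.jb N) ϖ ρp)
    {ρm : ↥(Rinf (Lvl K) N (baseRing A K)) →+* Ft A N}
    (hρm : RhoData A N K (Rinf (Lvl K) N (baseRing A K)) (Fermat.Agent.N4F.C.jb N)⁻¹ ϖ ρm)
    (D : Divisor (Lvl K) (FF (Lvl K) N))
    (rp : ∀ x ∈ Lp (gaussSubalgebra (Lvl K) N (baseRing A K)) (jF (Lvl K) N) D,
      ∃ b ∈ Rfin (Lvl K) N (baseRing A K), ∃ r ∈ gaussSubalgebra (Lvl K) N (baseRing A K),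
        x = b + algebraMap ↥(baseRing A K) (FF (Lvl K) N) ϖ * r)
    (rm : ∀ x ∈ Lm (gaussSubalgebra (Lvl K) N (baseRing A K)) (jF (Lvl K) N) D,
      ∃ b ∈ Rinf (Lvl K) N (baseRing A K), ∃ r ∈ gaussSubalgebra (Lvl K) N (baseRing A K),
        x = b + algebraMap ↥(baseRing A K) (FF (Lvl K) N) ϖ * r)
    (hlocp : ∀ (Q : Place (Kap A) (Ft A N)) (hQ : ∀ x, ρp x ∈ Q.toValuationSubring),
      thetaFt A N (Fermat.Agent.N4F.C.jb N) ∈ Q.toValuationSubring →
      ∃ (r : ↥(Rfin (Lvl K) N (baseRing A K))) (g : FF (Lvl K) N), r ∉ closedPoint ρp Q hQ ∧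
        IsOne (algebraMap ↥(baseRing A K) (FF (Lvl K) N) ϖ)
          (gaussSubalgebra (Lvl K) N (baseRing A K)).toSubring g ∧
        (r : FF (Lvl K) N) * g ∈
          Lp (gaussSubalgebra (Lvl K) N (baseRing A K)) (jF (Lvl K) N) D)
    (hlocm : ∀ (Q : Place (Kap A) (Ft A N)) (hQ : ∀ x, ρm x ∈ Q.toValuationSubring),
      thetaFt A N (Fermat.Agent.N4F.C.jb N)⁻¹ ∈ Q.toValuationSubring →
      ∃ (r : ↥(Rinf (Lvl K) N (baseRing A K))) (g : FF (Lvl K) N), r ∉ closedPoint ρm Q hQ ∧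
        IsOne (algebraMap ↥(baseRing A K) (FF (Lvl K) N) ϖ)
          (gaussSubalgebra (Lvl K) N (baseRing A K)).toSubring g ∧
        (r : FF (Lvl K) N) * g ∈
          Lm (gaussSubalgebra (Lvl K) N (baseRing A K)) (jF (Lvl K) N) D) :
    ∃ fp ∈ (GaussN4.lineOf hstar hϖ0 D rp rm).Lp, ∃ fm ∈ (GaussN4.lineOf hstar hϖ0 D rp rm).Lm,
      IsOne (algebraMap ↥(baseRing A K) (FF (Lvl K) N) ϖ)
        (gaussSubalgebra (Lvl K) N (baseRing A K)).toSubring fp ∧
      IsOne (algebraMap ↥(baseRing A K) (FF (Lvl K) N) ϖ)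
        (gaussSubalgebra (Lvl K) N (baseRing A K)).toSubring fm := by
  obtain ⟨fp, hfp, h1p⟩ := exists_gen_fin P hρp D hlocp
  obtain ⟨fm, hfm, h1m⟩ := exists_gen_inf P hρm D hlocm
  exact ⟨fp, hfp, fm, hfm, h1p, h1m⟩

end Fermat.Agent.S19.Cech.GenAssemble
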