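/-
S19 / Čech-units route, leaf [GEN], sub-leaf (LG') (helper1, co-typist of helper13; dispatch #2297):
**local generators of the divisorial chart modules `Lp`, `Lm` at the closed points of the special
fibre**, in the exact shape of the hypothesis `h` of `GeneratorsAbs.exists_isOne_of_local`.

* `exists_local_generator` (abstract): `R ⊆ W` subalgebras of `F` (a chart and the Gauss ring),
  `ChartData ϖ ρ Q` on `R`, `t` the chart coordinate (`P ⊇ R` whenever `t ∈ 𝒪_P`), `D` a divisor of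
  local degree `0` at the closed point `𝔫` of `Q` whose points in the residue disc are rational:
  there are `s ∈ R ∖ 𝔫`, `f ∈ LD W (InChart t) D` and `r ∈ W` with `f = s + ϖ r`.
* `exists_local_generator_fin / _inf` : the same at a level `K` for the charts `Rfin`, `Rinf`, the
  divisor `levelDiv K D` of a zero-reduction divisor `D` of `ℚ̄·F_N` with `K`-rational support,
  and `Lp W j`, `Lm W j`.
* `exists_local_generator_fin_of_isMaximal / _inf_` : the quantifier over the maximal ideals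
  `𝔪 ∋ ϖ` of the chart (through `IdeleN4.exists_place_of_maximal_fin/_inf`), with the concrete Gauss
  ring `W_K = gaussSubalgebra (Lvl K) N (baseRing A K)`.
* **`exists_isOne_mem_Lp`, `exists_isOne_mem_Lm`** : the generators `f_± ∈ L_±(levelDiv K D)`,
  `f_± ≡ 1 mod ϖ W_K` (`GeneratorsAbs.exists_isOne_of_local` applied to the above).
-/
import Mathlib
import Fermat.Agent.S19.Cech.LocalEqChart
import Fermat.Agent.S19.Cech.DivModule
import Fermat.Agent.S19.Cech.LevelDiv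
import Fermat.Agent.S19.Cech.IdeleN4
import Fermat.Agent.S19.Cech.GaussN4
import Fermat.Agent.S19.Cech.GaussKer
import Fermat.Agent.S19.Cech.GeneratorsAbs

set_option autoImplicit false
set_option linter.unusedSectionVars false
set_option linter.style.haveILetI false

namespace Fermat.Agent.S19.Cech.GenLocal

open AlgebraicCurve IsLocalRing
open Fermat.Agent.S24.PlaceDeriv (ResidueTrivial)
open Fermat.Agent.N4.Cover
open Fermat.Agent.N4F.C.LocalMult
open Fermat.Agent.S19.Cech.LocalEq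
open Fermat.Agent.S19.Cech.LocalEqChart
open Fermat.Agent.S19.Cech.DivModule

/-! ### The abstract statement -/

section Abstract

variable {O K F k' F' : Type*}
  [CommRing O] [IsDomain O] [IsDiscreteValuationRing O]
  [Field K] [Algebra O K] [IsFractionRing O K]
  [Field F] [Algebra K F] [Algebra O F] [IsScalarTower O K F] [CharZero K]
  [Field k'] [Field F'] [Algebra k' F']

/-- **(LG'), abstract form.**  `R ⊆ W` a chart and the Gauss ring, `Q` a place of the special fibre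
on the chart, `𝔫` its closed point.  If the divisor `D` has local degree `0` at `𝔫` and its points
in the residue disc of `𝔫` are rational, then some `f ∈ LD W (InChart t) D` reduces to an element of
`R ∖ 𝔫`:  `f = s + ϖ r`, `s ∈ R ∖ 𝔫`, `r ∈ W`. -/
theorem exists_local_generator [HasPrincipalDivisors K F] (R W : Subalgebra O F)
    [IsNoetherianRing ↥R] [IsFractionRing ↥R F]
    {ϖ : O} {ρ : ↥R →+* F'} {Q : Place k' F'} (h : ChartData ϖ ρ Q)
    (hRW : R ≤ W) (hinv : ∀ b : R, ρ b ≠ 0 → ((b : F))⁻¹ ∈ W)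
    (t : F) (hRt : ∀ P : Place K F, InChart t P → ∀ x : R, (x : F) ∈ P.toValuationSubring)
    (D : Divisor K F)
    (hrat : ∀ v ∈ D.support, Contains (h.locRing F) v → ResidueTrivial v)
    (hdeg : localDeg (h.locRing F) D = 0) :
    ∃ s : R, s ∉ h.pt ∧ ∃ f ∈ LD W (InChart t) D, ∃ r ∈ W,
      f = (s : F) + algebraMap O F ϖ * r := by
  obtain ⟨s, g, hs, ⟨a, b, hb, hab⟩, -, hP⟩ := chart_exists_generator (K := K) h D hrat hdeg
  have hab' : (g - 1) * (b : F) = algebraMap O F ϖ * (a : F) := by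
    have : algebraMap (↥R) F (algebraMap O ↥R ϖ * a) = algebraMap O F ϖ * (a : F) := by
      rw [map_mul, ← IsScalarTower.algebraMap_apply O ↥R F]; rfl
    rw [← this]; exact hab
  have hb0 : (b : F) ≠ 0 := fun h0 => hb (by
    have : b = 0 := Subtype.ext h0
    rw [this, map_zero])
  -- `g = 1 + ϖ a / b`
  have hg : g = 1 + algebraMap O F ϖ * ((a : F) * (b : F)⁻¹) := by
    have : g - 1 = algebraMap O F ϖ * (a : F) * (b : F)⁻¹ := by
      rw [← hab', mul_assoc, mul_inv_cancel₀ hb0, mul_one]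
    rw [← mul_assoc, ← this]; ring
  have habW : (a : F) * (b : F)⁻¹ ∈ W := W.mul_mem (hRW a.2) (hinv b hb)
  have hg0 : g ≠ 0 := by
    rintro rfl
    apply hb
    have h1 : (b : F) = algebraMap (↥R) F (-(algebraMap O ↥R ϖ * a)) := by
      rw [map_neg, ← hab]
      show (b : F) = -((0 - 1) * (b : F))
      ring
    have h2 : b = -(algebraMap O ↥R ϖ * a) := Subtype.ext h1
    have h3 : algebraMap O ↥R ϖ * a ∈ RingHom.ker ρ := by
      rw [h.ker_eq]; exact Ideal.mul_mem_right _ _ (Ideal.mem_span_singleton_self _)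
    rw [h2, map_neg, (RingHom.mem_ker).1 h3, neg_zero]
  have hs0 : (s : F) ≠ 0 := fun h0 => hs (by
    have : s = 0 := Subtype.ext h0
    rw [this]; exact h.pt.zero_mem)
  refine ⟨s, hs, (s : F) * g, ?_, (s : F) * ((a : F) * (b : F)⁻¹), W.mul_mem (hRW s.2) habW, ?_⟩
  · rw [mem_LD_iff_ord (mul_ne_zero hs0 hg0)]
    refine ⟨?_, fun P hPt => hP P (hRt P hPt)⟩
    rw [hg]
    exact W.mul_mem (hRW s.2) (W.add_mem W.one_mem
      (W.mul_mem (W.algebraMap_mem ϖ) habW))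
  · rw [hg]; ring

end Abstract

/-! ### The two charts at a level -/

section Level

open ModularCurve
open Fermat.Agent.N4.Setting Fermat.Agent.S24
open Fermat.Agent.N4F.C Fermat.Agent.N4F.C.Main Fermat.Agent.N4F.C.Centre
  Fermat.Agent.N4F.C.Levels Fermat.Agent.N4F.C.LevelCharts
  Fermat.Agent.N4F.C.Formula Fermat.Agent.N4F.C.ChartFactsProof
  Fermat.Agent.S19.Cech.ClassDict Fermat.Agent.S19.Cech.LevelDiv

variable {A : ValuationSubring Qb} {N : ℕ} [NeZero N] {ℓ : ℕ}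
  (hℓ : ℓ.Prime) (hA : A.LiesOverPrime ℓ) (hℓN : ¬ ℓ ∣ N)
  {K : IntermediateField ℚ Qb} [IsDiscreteValuationRing ↥(baseRing A K)]
  [IsFractionRing ↥(baseRing A K) (Lvl K)]

variable {ϖ : ↥(baseRing A K)}

/-- The support of the push-down of a divisor with `K`-rational support is rational. -/
theorem residueTrivial_of_mem_support_levelDiv (D : Divisor Qb (Fb N))
    (hrat : ∀ P ∈ D.support, ResidueTrivial (restrictK N K P))
    {v : Place (Lvl K) (FF (Lvl K) N)} (hv : v ∈ (levelDiv K D).support) : ResidueTrivial v := by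
  obtain ⟨P, hP, rfl⟩ := exists_of_mem_support_levelDiv K D hv
  exact hrat P hP

include hℓ hA hℓN in
/-- **(LG'), finite chart at a level.** -/
theorem exists_local_generator_fin {ρ : ↥(Rfin (Lvl K) N (baseRing A K)) →+* Ft A N}
    (hρ : RhoData A N K (Rfin (Lvl K) N (baseRing A K)) (N4F.C.jb N) ϖ ρ)
    [IsNoetherianRing ↥(Rfin (Lvl K) N (baseRing A K))]
    [IsFractionRing ↥(Rfin (Lvl K) N (baseRing A K)) (FF (Lvl K) N)]
    [HasPrincipalDivisors (Lvl K) (FF (Lvl K) N)]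
    (W : Subalgebra ↥(baseRing A K) (FF (Lvl K) N))
    (hRW : Rfin (Lvl K) N (baseRing A K) ≤ W)
    (hinv : ∀ b : Rfin (Lvl K) N (baseRing A K), ρ b ≠ 0 → ((b : FF (Lvl K) N))⁻¹ ∈ W)
    (Q : Place (Kap A) (Ft A N)) (hQ : thetaFt A N (N4F.C.jb N) ∈ Q.toValuationSubring)
    (D : Divisor Qb (Fb N)) (hrat : ∀ P ∈ D.support, ResidueTrivial (restrictK N K P))
    (hDQ : Finsupp.mapDomain (rC hℓ hA hℓN) D Q = 0) :
    ∃ s : Rfin (Lvl K) N (baseRing A K), s ∉ closedPoint ρ Q (hρ.mem Q hQ) ∧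
      ∃ f ∈ Lp W (jF (Lvl K) N) (levelDiv K D), ∃ r ∈ W,
        f = (s : FF (Lvl K) N) + algebraMap ↥(baseRing A K) (FF (Lvl K) N) ϖ * r := by
  classical
  have hQ' : jt A N ∈ Q.toValuationSubring := by rw [← Centre.thetaFt_jb]; exact hQ
  have h := hρ.chartData Q hQ
  have hrat' := fun v hv => residueTrivial_of_mem_support_levelDiv (K := K) D hrat (v := v) hv
  have hdeg : localDeg (h.locRing (FF (Lvl K) N)) (levelDiv K D) = 0 := by
    rw [chart_localDeg_eq (K := Lvl K) h (levelDiv K D) hrat',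
      sum_levelDiv_centredAt_fin hℓ hA hℓN hρ Q hQ' D hrat, hDQ]
  exact exists_local_generator (K := Lvl K) _ W h hRW hinv (jF (Lvl K) N)
    (fun P hP x => mem_place_of_mem_chartAlg P (fun y hy => by
      rw [Set.mem_singleton_iff.1 hy]; exact hP) x.2)
    (levelDiv K D) (fun v hv _ => hrat' v hv) hdeg

include hℓ hA hℓN in
/-- **(LG'), chart at infinity at a level.** -/
theorem exists_local_generator_inf {ρ : ↥(Rinf (Lvl K) N (baseRing A K)) →+* Ft A N}
    (hρ : RhoData A N K (Rinf (Lvl K) N (baseRing A K)) (N4F.C.jb N)⁻¹ ϖ ρ)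
    [IsNoetherianRing ↥(Rinf (Lvl K) N (baseRing A K))]
    [IsFractionRing ↥(Rinf (Lvl K) N (baseRing A K)) (FF (Lvl K) N)]
    [HasPrincipalDivisors (Lvl K) (FF (Lvl K) N)]
    (W : Subalgebra ↥(baseRing A K) (FF (Lvl K) N))
    (hRW : Rinf (Lvl K) N (baseRing A K) ≤ W)
    (hinv : ∀ b : Rinf (Lvl K) N (baseRing A K), ρ b ≠ 0 → ((b : FF (Lvl K) N))⁻¹ ∈ W)
    (Q : Place (Kap A) (Ft A N)) (hQ : thetaFt A N (N4F.C.jb N)⁻¹ ∈ Q.toValuationSubring)
    (D : Divisor Qb (Fb N)) (hrat : ∀ P ∈ D.support, ResidueTrivial (restrictK N K P))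
    (hDQ : Finsupp.mapDomain (rC hℓ hA hℓN) D Q = 0) :
    ∃ s : Rinf (Lvl K) N (baseRing A K), s ∉ closedPoint ρ Q (hρ.mem Q hQ) ∧
      ∃ f ∈ Lm W (jF (Lvl K) N) (levelDiv K D), ∃ r ∈ W,
        f = (s : FF (Lvl K) N) + algebraMap ↥(baseRing A K) (FF (Lvl K) N) ϖ * r := by
  classical
  have Hfin := chartFacts_fin hℓ hA hℓN
  have Hinf := chartFacts_inf hℓ hA hℓN
  have hQ' : (jt A N)⁻¹ ∈ Q.toValuationSubring := by
    rw [← CentreLevel.thetaFt_jb_inv Hfin Hinf]; exact hQ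
  have h := hρ.chartData Q hQ
  have hrat' := fun v hv => residueTrivial_of_mem_support_levelDiv (K := K) D hrat (v := v) hv
  have hdeg : localDeg (h.locRing (FF (Lvl K) N)) (levelDiv K D) = 0 := by
    rw [chart_localDeg_eq (K := Lvl K) h (levelDiv K D) hrat',
      sum_levelDiv_centredAt_inf hℓ hA hℓN hρ Q hQ' D hrat, hDQ]
  exact exists_local_generator (K := Lvl K) _ W h hRW hinv (jF (Lvl K) N)⁻¹
    (fun P hP x => mem_place_of_mem_chartAlg P (fun y hy => by
      rw [Set.mem_singleton_iff.1 hy]; exact hP) x.2)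
    (levelDiv K D) (fun v hv _ => hrat' v hv) hdeg

end Level

/-! ### The concrete Gauss ring of a level: the generators `f_±` -/

section Gauss

open ModularCurve
open Fermat.Agent.N4.Setting Fermat.Agent.N4.Chart Fermat.Agent.S24
open Fermat.Agent.N4.FibreEmbedding
open Fermat.Agent.N4F.C Fermat.Agent.N4F.C.Main Fermat.Agent.N4F.C.Centre
  Fermat.Agent.N4F.C.Levels Fermat.Agent.N4F.C.LevelCharts
  Fermat.Agent.N4F.C.Formula Fermat.Agent.N4F.C.ChartFactsProof
  Fermat.Agent.S19.Cech.ClassDict Fermat.Agent.S19.Cech.LevelDiv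
  Fermat.Agent.S19.Cech.Cocycle

variable {A : ValuationSubring Qb} {N : ℕ} [NeZero N] {ℓ : ℕ}
  (hℓ : ℓ.Prime) (hA : A.LiesOverPrime ℓ) (hℓN : ¬ ℓ ∣ N)
  {K : IntermediateField ℚ Qb} [IsDiscreteValuationRing ↥(baseRing A K)]
  [IsFractionRing ↥(baseRing A K) (Lvl K)]

variable {ϖ : ↥(baseRing A K)}

/-- Shortcut instance (as in `GaussN4`). -/
noncomputable local instance instModuleFFLvl : Module ↥(baseRing A K) (FF (Lvl K) N) := Algebra.toModule

theorem rfin_le_gauss :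
    Rfin (Lvl K) N (baseRing A K) ≤ gaussSubalgebra (Lvl K) N (baseRing A K) :=
  chartAlg_le_gaussSubalgebra _ _ _
    (Set.singleton_subset_iff.2 (jF_mem_gaussSubalgebra (Lvl K) N (baseRing A K)))

theorem rinf_le_gauss :
    Rinf (Lvl K) N (baseRing A K) ≤ gaussSubalgebra (Lvl K) N (baseRing A K) :=
  chartAlg_le_gaussSubalgebra _ _ _
    (Set.singleton_subset_iff.2 (jF_inv_mem_gaussSubalgebra (Lvl K) N (baseRing A K)))

/-- An element of a level chart with nonzero reduction is a unit of the Gauss ring of the level. -/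
theorem inv_mem_gauss_of_rho_ne_zero {R : Subalgebra ↥(baseRing A K) (FF (Lvl K) N)} {gen : Fb N}
    {ρ : ↥R →+* Ft A N} (hρ : RhoData A N K R gen ϖ ρ)
    (hRW : R ≤ gaussSubalgebra (Lvl K) N (baseRing A K)) (b : R) (hb : ρ b ≠ 0) :
    ((b : FF (Lvl K) N))⁻¹ ∈ gaussSubalgebra (Lvl K) N (baseRing A K) := by
  refine GaussN4.inv_mem_gaussSubalgebra (Lvl K) N (baseRing A K) (hRW b.2) fun h0 => hb ?_
  apply Subtype.ext
  rw [hρ.coe_rho, (GaussKer.theta_eq_zero_iff_thetaBar_levK A N K (hRW b.2)).1 h0]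
  rfl

include hℓ hA hℓN in
/-- **(LG'), finite chart, quantified over the maximal ideals** `𝔪 ∋ ϖ` of `Rfin`. -/
theorem exists_local_generator_fin_of_isMaximal
    {ρ : ↥(Rfin (Lvl K) N (baseRing A K)) →+* Ft A N}
    (hρ : RhoData A N K (Rfin (Lvl K) N (baseRing A K)) (N4F.C.jb N) ϖ ρ)
    [IsNoetherianRing ↥(Rfin (Lvl K) N (baseRing A K))]
    [IsFractionRing ↥(Rfin (Lvl K) N (baseRing A K)) (FF (Lvl K) N)]
    [HasPrincipalDivisors (Lvl K) (FF (Lvl K) N)]
    (hN : IsUnit ((N : ℕ) : ↥(baseRing A K)))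
    (hres : Function.Surjective (IsLocalRing.ResidueField.map (baseIncl A K)))
    (D : Divisor Qb (Fb N)) (hrat : ∀ P ∈ D.support, ResidueTrivial (restrictK N K P))
    (hD : ∀ Q : Place (Kap A) (Ft A N), thetaFt A N (N4F.C.jb N) ∈ Q.toValuationSubring →
      Finsupp.mapDomain (rC hℓ hA hℓN) D Q = 0)
    (𝔪 : Ideal ↥(Rfin (Lvl K) N (baseRing A K))) (h𝔪 : 𝔪.IsMaximal)
    (hϖ : algebraMap ↥(baseRing A K) ↥(Rfin (Lvl K) N (baseRing A K)) ϖ ∈ 𝔪) :
    ∃ s : Rfin (Lvl K) N (baseRing A K), s ∉ 𝔪 ∧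
      ∃ f ∈ Lp (gaussSubalgebra (Lvl K) N (baseRing A K)) (jF (Lvl K) N) (levelDiv K D),
        ∃ r ∈ gaussSubalgebra (Lvl K) N (baseRing A K),
          f = (s : FF (Lvl K) N) + algebraMap ↥(baseRing A K) (FF (Lvl K) N) ϖ * r := by
  obtain ⟨Q, hQ, hQj, rfl⟩ := IdeleN4.exists_place_of_maximal_fin hρ hN hres 𝔪 h𝔪 hϖ
  exact exists_local_generator_fin hℓ hA hℓN hρ _ rfin_le_gauss
    (inv_mem_gauss_of_rho_ne_zero hρ rfin_le_gauss) Q hQj D hrat (hD Q hQj)

include hℓ hA hℓN in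
/-- **(LG'), chart at infinity, quantified over the maximal ideals** `𝔪 ∋ ϖ` of `Rinf`. -/
theorem exists_local_generator_inf_of_isMaximal
    {ρ : ↥(Rinf (Lvl K) N (baseRing A K)) →+* Ft A N}
    (hρ : RhoData A N K (Rinf (Lvl K) N (baseRing A K)) (N4F.C.jb N)⁻¹ ϖ ρ)
    [IsNoetherianRing ↥(Rinf (Lvl K) N (baseRing A K))]
    [IsFractionRing ↥(Rinf (Lvl K) N (baseRing A K)) (FF (Lvl K) N)]
    [HasPrincipalDivisors (Lvl K) (FF (Lvl K) N)]
    (hN : IsUnit ((N : ℕ) : ↥(baseRing A K)))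
    (hres : Function.Surjective (IsLocalRing.ResidueField.map (baseIncl A K)))
    (D : Divisor Qb (Fb N)) (hrat : ∀ P ∈ D.support, ResidueTrivial (restrictK N K P))
    (hD : ∀ Q : Place (Kap A) (Ft A N), thetaFt A N (N4F.C.jb N)⁻¹ ∈ Q.toValuationSubring →
      Finsupp.mapDomain (rC hℓ hA hℓN) D Q = 0)
    (𝔪 : Ideal ↥(Rinf (Lvl K) N (baseRing A K))) (h𝔪 : 𝔪.IsMaximal)
    (hϖ : algebraMap ↥(baseRing A K) ↥(Rinf (Lvl K) N (baseRing A K)) ϖ ∈ 𝔪) :
    ∃ s : Rinf (Lvl K) N (baseRing A K), s ∉ 𝔪 ∧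
      ∃ f ∈ Lm (gaussSubalgebra (Lvl K) N (baseRing A K)) (jF (Lvl K) N) (levelDiv K D),
        ∃ r ∈ gaussSubalgebra (Lvl K) N (baseRing A K),
          f = (s : FF (Lvl K) N) + algebraMap ↥(baseRing A K) (FF (Lvl K) N) ϖ * r := by
  obtain ⟨Q, hQ, hQj, rfl⟩ := IdeleN4.exists_place_of_maximal_inf hρ hN hres 𝔪 h𝔪 hϖ
  exact exists_local_generator_inf hℓ hA hℓN hρ _ rinf_le_gauss
    (inv_mem_gauss_of_rho_ne_zero hρ rinf_le_gauss) Q hQj D hrat (hD Q hQj)

include hℓ hA hℓN in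
/-- **The generator `f₊`.**  For a divisor `D` of `ℚ̄·F_N` with `K`-rational support and zero
reduction on the finite chart, `L₊(levelDiv K D)` contains an element `≡ 1 mod ϖ W_K`. -/
theorem exists_isOne_mem_Lp
    {ρ : ↥(Rfin (Lvl K) N (baseRing A K)) →+* Ft A N}
    (hρ : RhoData A N K (Rfin (Lvl K) N (baseRing A K)) (N4F.C.jb N) ϖ ρ)
    [IsNoetherianRing ↥(Rfin (Lvl K) N (baseRing A K))]
    [IsFractionRing ↥(Rfin (Lvl K) N (baseRing A K)) (FF (Lvl K) N)]
    [HasPrincipalDivisors (Lvl K) (FF (Lvl K) N)]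
    (hN : IsUnit ((N : ℕ) : ↥(baseRing A K)))
    (hres : Function.Surjective (IsLocalRing.ResidueField.map (baseIncl A K)))
    (D : Divisor Qb (Fb N)) (hrat : ∀ P ∈ D.support, ResidueTrivial (restrictK N K P))
    (hD : ∀ Q : Place (Kap A) (Ft A N), thetaFt A N (N4F.C.jb N) ∈ Q.toValuationSubring →
      Finsupp.mapDomain (rC hℓ hA hℓN) D Q = 0) :
    ∃ f ∈ Lp (gaussSubalgebra (Lvl K) N (baseRing A K)) (jF (Lvl K) N) (levelDiv K D),
      IsOne (algebraMap ↥(baseRing A K) (FF (Lvl K) N) ϖ)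
        (gaussSubalgebra (Lvl K) N (baseRing A K)).toSubring f := by
  have hB : (Rfin (Lvl K) N (baseRing A K)).toSubring ≤
      (gaussSubalgebra (Lvl K) N (baseRing A K)).toSubring := fun x hx => rfin_le_gauss hx
  have hϖB : algebraMap ↥(baseRing A K) (FF (Lvl K) N) ϖ ∈
      (Rfin (Lvl K) N (baseRing A K)).toSubring :=
    (Rfin (Lvl K) N (baseRing A K)).algebraMap_mem ϖ
  obtain ⟨f, hf, hf1⟩ := GeneratorsAbs.exists_isOne_of_local hB hϖB
    (Lp (gaussSubalgebra (Lvl K) N (baseRing A K)) (jF (Lvl K) N) (levelDiv K D)).toAddSubgroup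
    (fun b hb x hx => chart_mul_mem_LD (jF (Lvl K) N) (fun y hy => rfin_le_gauss hy) hb hx)
    (fun 𝔪 h𝔪 hϖ𝔪 => by
      obtain ⟨s, hs, f, hf, r, hr, hfr⟩ := exists_local_generator_fin_of_isMaximal hℓ hA hℓN hρ hN
        hres D hrat hD (show Ideal ↥(Rfin (Lvl K) N (baseRing A K)) from 𝔪) h𝔪 hϖ𝔪
      exact ⟨s, hs, f, hf, r, hr, hfr⟩)
  exact ⟨f, hf, hf1⟩

include hℓ hA hℓN in
/-- **The generator `f₋`.** -/
theorem exists_isOne_mem_Lm
    {ρ : ↥(Rinf (Lvl K) N (baseRing A K)) →+* Ft A N}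
    (hρ : RhoData A N K (Rinf (Lvl K) N (baseRing A K)) (N4F.C.jb N)⁻¹ ϖ ρ)
    [IsNoetherianRing ↥(Rinf (Lvl K) N (baseRing A K))]
    [IsFractionRing ↥(Rinf (Lvl K) N (baseRing A K)) (FF (Lvl K) N)]
    [HasPrincipalDivisors (Lvl K) (FF (Lvl K) N)]
    (hN : IsUnit ((N : ℕ) : ↥(baseRing A K)))
    (hres : Function.Surjective (IsLocalRing.ResidueField.map (baseIncl A K)))
    (D : Divisor Qb (Fb N)) (hrat : ∀ P ∈ D.support, ResidueTrivial (restrictK N K P))
    (hD : ∀ Q : Place (Kap A) (Ft A N), thetaFt A N (N4F.C.jb N)⁻¹ ∈ Q.toValuationSubring →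
      Finsupp.mapDomain (rC hℓ hA hℓN) D Q = 0) :
    ∃ f ∈ Lm (gaussSubalgebra (Lvl K) N (baseRing A K)) (jF (Lvl K) N) (levelDiv K D),
      IsOne (algebraMap ↥(baseRing A K) (FF (Lvl K) N) ϖ)
        (gaussSubalgebra (Lvl K) N (baseRing A K)).toSubring f := by
  have hB : (Rinf (Lvl K) N (baseRing A K)).toSubring ≤
      (gaussSubalgebra (Lvl K) N (baseRing A K)).toSubring := fun x hx => rinf_le_gauss hx
  have hϖB : algebraMap ↥(baseRing A K) (FF (Lvl K) N) ϖ ∈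
      (Rinf (Lvl K) N (baseRing A K)).toSubring :=
    (Rinf (Lvl K) N (baseRing A K)).algebraMap_mem ϖ
  obtain ⟨f, hf, hf1⟩ := GeneratorsAbs.exists_isOne_of_local hB hϖB
    (Lm (gaussSubalgebra (Lvl K) N (baseRing A K)) (jF (Lvl K) N) (levelDiv K D)).toAddSubgroup
    (fun b hb x hx => chart_mul_mem_LD (jF (Lvl K) N)⁻¹ (fun y hy => rinf_le_gauss hy) hb hx)
    (fun 𝔪 h𝔪 hϖ𝔪 => by
      obtain ⟨s, hs, f, hf, r, hr, hfr⟩ := exists_local_generator_inf_of_isMaximal hℓ hA hℓN hρ hN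
        hres D hrat hD (show Ideal ↥(Rinf (Lvl K) N (baseRing A K)) from 𝔪) h𝔪 hϖ𝔪
      exact ⟨s, hs, f, hf, r, hr, hfr⟩)
  exact ⟨f, hf, hf1⟩

end Gauss

end Fermat.Agent.S19.Cech.GenLocal
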