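/-
S19 / Čech route, leaf [GEN], final packaging [GenFinal] (helper2; helper22's re-cut #2362/#2364):
**the line `GaussN4.lineOf (levelDiv K D)` of a zero-reduction divisor with `K`-rational support has
generators `≡ 1 mod ϖ W_K` on both charts** — the field `gens` of `CoordOfLines.LineSys` at a level.

* `RedP A N K ϖ D`, `RedM A N K ϖ D` : the two reduction hypotheses `red_p`, `red_m` of
  `GaussN4.lineOf` at the level `K` (to be discharged by `GenRed` / `GenRedInf`), as named `Prop`s;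
* `RhoData.change_unif`, `exists_rhoData_of_irreducible` : the reduction `ρ` of a level chart for a
  PRESCRIBED uniformiser `ϖ` of `O_K` (all uniformisers generate the same ideal), so that both
  charts and the line can be taken with one and the same `ϖ`;
* `hasPrincipalDivisors_level`, `zeroRed_fin`, `zeroRed_inf`;
* **`exists_line_gens`** : for `D : Divisor ℚ̄ (ℚ̄ F_N)` with `K`-rational support and
  `mapDomain rC D = 0`, and ANY proofs `rp : RedP …`, `rm : RedM …`:
  `∃ fp ∈ (lineOf hstar _ (levelDiv K D) rp rm).Lp, ∃ fm ∈ (…).Lm, IsOne ϖ W_K fp ∧ IsOne ϖ W_K fm`;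
  `exists_line_gens_of_chartLevel` : the same from the two `ChartLevel`s of the level (the output
  of `MainFinal.levelHyp`) instead of the two `RhoData`;
* `exists_line_cocycle` : hence cocycles of every precision exist (`Line.exists_cocycle`).
-/
import Mathlib
import Fermat.Agent.S19.Cech.GenLocal

set_option autoImplicit false
set_option linter.unusedSectionVars false
set_option linter.style.haveILetI false

namespace Fermat.Agent.S19.Cech.GenFinal

open AlgebraicCurve IsLocalRing ModularCurve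
open Fermat.Agent.S24.PlaceDeriv (ResidueTrivial)
open Fermat.Agent.N4.Setting Fermat.Agent.N4.Chart Fermat.Agent.S24
open Fermat.Agent.N4.FibreEmbedding
open Fermat.Agent.N4F.C Fermat.Agent.N4F.C.Main Fermat.Agent.N4F.C.Centre
  Fermat.Agent.N4F.C.Levels Fermat.Agent.N4F.C.LevelCharts
  Fermat.Agent.N4F.C.Formula Fermat.Agent.N4F.C.ChartFactsProof
  Fermat.Agent.S19.Cech.ClassDict Fermat.Agent.S19.Cech.LevelDiv
  Fermat.Agent.S19.Cech.Cocycle Fermat.Agent.S19.Cech.DivModule

section Defs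

variable (A : ValuationSubring Qb) (N : ℕ) [NeZero N]
  (K : IntermediateField ℚ Qb) [IsDiscreteValuationRing ↥(baseRing A K)]
  [IsFractionRing ↥(baseRing A K) (Lvl K)]

/-- The hypothesis `red_p` of `GaussN4.lineOf` at the level `K`: every section of `𝒪(D)` on the
finite chart is congruent modulo `ϖ W_K` to an element of the chart `Rfin`. -/
def RedP (ϖ : ↥(baseRing A K)) (D : Divisor (Lvl K) (FF (Lvl K) N)) : Prop :=
  ∀ x ∈ Lp (gaussSubalgebra (Lvl K) N (baseRing A K)) (jF (Lvl K) N) D,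
    ∃ b ∈ Rfin (Lvl K) N (baseRing A K), ∃ r ∈ gaussSubalgebra (Lvl K) N (baseRing A K),
      x = b + algebraMap ↥(baseRing A K) (FF (Lvl K) N) ϖ * r

/-- The hypothesis `red_m` of `GaussN4.lineOf` at the level `K`. -/
def RedM (ϖ : ↥(baseRing A K)) (D : Divisor (Lvl K) (FF (Lvl K) N)) : Prop :=
  ∀ x ∈ Lm (gaussSubalgebra (Lvl K) N (baseRing A K)) (jF (Lvl K) N) D,
    ∃ b ∈ Rinf (Lvl K) N (baseRing A K), ∃ r ∈ gaussSubalgebra (Lvl K) N (baseRing A K),
      x = b + algebraMap ↥(baseRing A K) (FF (Lvl K) N) ϖ * r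

end Defs

section Rho

variable {A : ValuationSubring Qb} {N : ℕ} [NeZero N]
  {K : IntermediateField ℚ Qb} [IsDiscreteValuationRing ↥(baseRing A K)]
  {R : Subalgebra ↥(baseRing A K) (FF (Lvl K) N)} {gen : Fb N}

/-- Two uniformisers of `O_K` generate the same ideal of a chart. -/
theorem span_algebraMap_eq {ϖ ϖ' : ↥(baseRing A K)} (hϖ : Irreducible ϖ) (hϖ' : Irreducible ϖ') :
    Ideal.span {algebraMap ↥(baseRing A K) ↥R ϖ} =
      Ideal.span {algebraMap ↥(baseRing A K) ↥R ϖ'} := by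
  obtain ⟨u, hu⟩ := IsDiscreteValuationRing.associated_of_irreducible _ hϖ hϖ'
  rw [← hu, map_mul, Ideal.span_singleton_mul_right_unit ((u.isUnit).map _)]

/-- **Change of uniformiser** in the reduction data of a level chart. -/
theorem RhoData.change_unif {ϖ ϖ' : ↥(baseRing A K)} {ρ : ↥R →+* Ft A N}
    (h : RhoData A N K R gen ϖ ρ) (hϖ' : Irreducible ϖ') : RhoData A N K R gen ϖ' ρ := by
  have e := span_algebraMap_eq (R := R) h.irreducible hϖ'
  exact
    { irreducible := hϖ'
      lev_gauss := h.lev_gauss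
      rho_eq := h.rho_eq
      coe_rho := h.coe_rho
      dedekind := e ▸ h.dedekind
      ker_eq := h.ker_eq.trans e
      frac := h.frac
      mem := h.mem
      compat := h.compat }

/-- The reduction of a level chart, for a prescribed uniformiser. -/
theorem exists_rhoData_of_irreducible {Rt : Subalgebra ↥A (Fb N)}
    (hcl : ChartLevel A N K R Rt gen) {ϖ : ↥(baseRing A K)} (hϖ : Irreducible ϖ) :
    ∃ ρ : ↥R →+* Ft A N, RhoData A N K R gen ϖ ρ := by
  obtain ⟨ϖ₀, ρ, h⟩ := exists_rhoData hcl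
  exact ⟨ρ, RhoData.change_unif h hϖ⟩

end Rho

section Gens

variable {A : ValuationSubring Qb} {N : ℕ} [NeZero N] {ℓ : ℕ}
  (hℓ : ℓ.Prime) (hA : A.LiesOverPrime ℓ) (hℓN : ¬ ℓ ∣ N)
  {K : IntermediateField ℚ Qb} [IsDiscreteValuationRing ↥(baseRing A K)]
  [IsFractionRing ↥(baseRing A K) (Lvl K)]

variable {ϖ : ↥(baseRing A K)}

/-- Principal divisors have degree zero on the function field of a level. -/
theorem hasPrincipalDivisors_level (N : ℕ) [NeZero N] (K : IntermediateField ℚ Qb) :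
    HasPrincipalDivisors (Lvl K) (FF (Lvl K) N) := by
  haveI := Fermat.Agent.N4.ModPolySetting.finiteDimensional_FF (Lvl K) N
  exact Fermat.Agent.S24.hasPrincipalDivisors (jF (Lvl K) N)

include hℓ hA hℓN in
/-- **The field `gens` of `LineSys` at a level**, from the reductions `ρ₊`, `ρ₋` of the two charts:
the line of a zero-reduction divisor with `K`-rational support has generators `≡ 1 mod ϖ W_K` on
both charts.  `rp`, `rm` are ANY proofs of the reduction hypotheses of `GaussN4.lineOf`. -/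
theorem exists_line_gens (hstar : StarStatement (Lvl K) N (baseRing A K))
    {ρp : ↥(Rfin (Lvl K) N (baseRing A K)) →+* Ft A N}
    (hρp : RhoData A N K (Rfin (Lvl K) N (baseRing A K)) (N4F.C.jb N) ϖ ρp)
    {ρm : ↥(Rinf (Lvl K) N (baseRing A K)) →+* Ft A N}
    (hρm : RhoData A N K (Rinf (Lvl K) N (baseRing A K)) (N4F.C.jb N)⁻¹ ϖ ρm)
    [IsNoetherianRing ↥(Rfin (Lvl K) N (baseRing A K))]
    [IsFractionRing ↥(Rfin (Lvl K) N (baseRing A K)) (FF (Lvl K) N)]
    [IsNoetherianRing ↥(Rinf (Lvl K) N (baseRing A K))]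
    [IsFractionRing ↥(Rinf (Lvl K) N (baseRing A K)) (FF (Lvl K) N)]
    (hN : IsUnit ((N : ℕ) : ↥(baseRing A K)))
    (hres : Function.Surjective (IsLocalRing.ResidueField.map (baseIncl A K)))
    (hϖ0 : ϖ ≠ 0)
    (D : Divisor Qb (Fb N)) (hrat : ∀ P ∈ D.support, ResidueTrivial (restrictK N K P))
    (hD : Finsupp.mapDomain (rC hℓ hA hℓN) D = 0)
    (rp : RedP A N K ϖ (levelDiv K D)) (rm : RedM A N K ϖ (levelDiv K D)) :
    ∃ fp ∈ (GaussN4.lineOf hstar hϖ0 (levelDiv K D) rp rm).Lp,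
      ∃ fm ∈ (GaussN4.lineOf hstar hϖ0 (levelDiv K D) rp rm).Lm,
        IsOne (algebraMap ↥(baseRing A K) (FF (Lvl K) N) ϖ)
          (gaussSubalgebra (Lvl K) N (baseRing A K)).toSubring fp ∧
        IsOne (algebraMap ↥(baseRing A K) (FF (Lvl K) N) ϖ)
          (gaussSubalgebra (Lvl K) N (baseRing A K)).toSubring fm := by
  haveI := hasPrincipalDivisors_level N K
  obtain ⟨fp, hfp, h1p⟩ := GenLocal.exists_isOne_mem_Lp hℓ hA hℓN hρp hN hres D hrat
    (fun Q _ => by rw [hD]; rfl)
  obtain ⟨fm, hfm, h1m⟩ := GenLocal.exists_isOne_mem_Lm hℓ hA hℓN hρm hN hres D hrat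
    (fun Q _ => by rw [hD]; rfl)
  exact ⟨fp, hfp, fm, hfm, h1p, h1m⟩

include hℓ hA hℓN in
/-- The same from the two `ChartLevel`s of the level (`MainFinal.levelHyp`) and any uniformiser. -/
theorem exists_line_gens_of_chartLevel (hstar : StarStatement (Lvl K) N (baseRing A K))
    (hfin : ChartLevel A N K (Rfin (Lvl K) N (baseRing A K)) (RtFin A N) (N4F.C.jb N))
    (hinf : ChartLevel A N K (Rinf (Lvl K) N (baseRing A K)) (RtInf A N) (N4F.C.jb N)⁻¹)
    (hN : IsUnit ((N : ℕ) : ↥(baseRing A K)))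
    (hres : Function.Surjective (IsLocalRing.ResidueField.map (baseIncl A K)))
    (hϖ : Irreducible ϖ)
    (D : Divisor Qb (Fb N)) (hrat : ∀ P ∈ D.support, ResidueTrivial (restrictK N K P))
    (hD : Finsupp.mapDomain (rC hℓ hA hℓN) D = 0)
    (rp : RedP A N K ϖ (levelDiv K D)) (rm : RedM A N K ϖ (levelDiv K D)) :
    ∃ fp ∈ (GaussN4.lineOf hstar hϖ.ne_zero (levelDiv K D) rp rm).Lp,
      ∃ fm ∈ (GaussN4.lineOf hstar hϖ.ne_zero (levelDiv K D) rp rm).Lm,
        IsOne (algebraMap ↥(baseRing A K) (FF (Lvl K) N) ϖ)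
          (gaussSubalgebra (Lvl K) N (baseRing A K)).toSubring fp ∧
        IsOne (algebraMap ↥(baseRing A K) (FF (Lvl K) N) ϖ)
          (gaussSubalgebra (Lvl K) N (baseRing A K)).toSubring fm := by
  obtain ⟨ρp, hρp⟩ := exists_rhoData_of_irreducible hfin hϖ
  obtain ⟨ρm, hρm⟩ := exists_rhoData_of_irreducible hinf hϖ
  haveI := hfin.noeth
  haveI := hfin.frac
  haveI := hinf.noeth
  haveI := hinf.frac
  exact exists_line_gens hℓ hA hℓN hstar hρp hρm hN hres hϖ.ne_zero D hrat hD rp rm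

include hℓ hA hℓN in
/-- **Cocycles of every precision exist** for the line of a zero-reduction divisor with
`K`-rational support: generators `fp`, `fm` `≡ 1` and, for every `k`, `u` with
`IsCocycle k fp fm u`. -/
theorem exists_line_cocycle (hstar : StarStatement (Lvl K) N (baseRing A K))
    (hfin : ChartLevel A N K (Rfin (Lvl K) N (baseRing A K)) (RtFin A N) (N4F.C.jb N))
    (hinf : ChartLevel A N K (Rinf (Lvl K) N (baseRing A K)) (RtInf A N) (N4F.C.jb N)⁻¹)
    (hN : IsUnit ((N : ℕ) : ↥(baseRing A K)))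
    (hres : Function.Surjective (IsLocalRing.ResidueField.map (baseIncl A K)))
    (hϖ : Irreducible ϖ)
    (D : Divisor Qb (Fb N)) (hrat : ∀ P ∈ D.support, ResidueTrivial (restrictK N K P))
    (hD : Finsupp.mapDomain (rC hℓ hA hℓN) D = 0)
    (rp : RedP A N K ϖ (levelDiv K D)) (rm : RedM A N K ϖ (levelDiv K D)) :
    ∃ fp ∈ (GaussN4.lineOf hstar hϖ.ne_zero (levelDiv K D) rp rm).Lp,
      ∃ fm ∈ (GaussN4.lineOf hstar hϖ.ne_zero (levelDiv K D) rp rm).Lm,
        IsOne (algebraMap ↥(baseRing A K) (FF (Lvl K) N) ϖ)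
          (gaussSubalgebra (Lvl K) N (baseRing A K)).toSubring fp ∧
        IsOne (algebraMap ↥(baseRing A K) (FF (Lvl K) N) ϖ)
          (gaussSubalgebra (Lvl K) N (baseRing A K)).toSubring fm ∧
        ∀ k : ℕ, ∃ u, (GaussN4.lineOf hstar hϖ.ne_zero (levelDiv K D) rp rm).IsCocycle k fp fm u := by
  obtain ⟨fp, hfp, fm, hfm, h1p, h1m⟩ :=
    exists_line_gens_of_chartLevel hℓ hA hℓN hstar hfin hinf hN hres hϖ D hrat hD rp rm
  exact ⟨fp, hfp, fm, hfm, h1p, h1m, fun k =>
    Line.exists_cocycle (GaussN4.charts_of_star hstar hϖ.ne_zero hϖ.not_isUnit) _ hfp hfm h1m k⟩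

end Gens

end Fermat.Agent.S19.Cech.GenFinal
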