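/-
S19 [GEN], reduction half at infinity (helper1): `red_m_level`.

For a divisor `D` of `ℚ̄·F_N` with `K`-rational support and zero reduction on the chart at infinity of
the special fibre, every section `x ∈ L₋(levelDiv K D)` (a function of the level `K`, integral at the
generic point of the special fibre, with `div x + D ≥ 0` on the chart at infinity of the generic
fibre) is congruent modulo `ϖ W_K` to an element of the chart `Rinf` of the level:

  `x = b + ϖ r`,  `b ∈ Rinf`, `r ∈ W_K`.

This is VERBATIM the `red_m` argument of `GaussN4.lineOf` for the divisor `levelDiv K D`.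

Proof.  If `x̄ = 0` then `x ∈ ϖ W_K` (`GaussKer`).  Otherwise `levK x` is a Gauss unit of `ℚ̄·F_N`, so by
(RED₋) (`FibreRegular.thetaFt_mem_SigmaInf`, helper4) its reduction lies in `Σ^inf`; the reduction map
`Rinf → Σ^inf` of the level is onto (`ChartFactsProof.exists_thetaFt_lev_eq_inf`), whence `b ∈ Rinf`
with the same reduction, and `x - b ∈ ϖ W_K` (`GaussKer`).
-/
import Mathlib
import Fermat.Agent.S19.Geo.FibreRegular
import Fermat.Agent.S19.Cech.GenLocal
import Fermat.Agent.N4F.E.NormReduction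
import Fermat.Agent.N4F.C.ChartReduction
import Fermat.Agent.N4F.C.ChartFactsProof
import Fermat.Agent.N4F.C.LevelTheta

set_option autoImplicit false
set_option linter.unusedSectionVars false
set_option linter.style.haveILetI false
set_option synthInstance.maxHeartbeats 400000
set_option maxHeartbeats 800000

noncomputable section

namespace Fermat.Agent.S19.Cech.GenRedInf

open AlgebraicCurve IsLocalRing ModularCurve
open Fermat.Agent.S24.PlaceDeriv (ResidueTrivial)
open Fermat.Agent.N4.Setting Fermat.Agent.N4.Chart Fermat.Agent.S24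
open Fermat.Agent.N4.FibreEmbedding
open Fermat.Agent.N4F.C Fermat.Agent.N4F.C.Main Fermat.Agent.N4F.C.Centre
  Fermat.Agent.N4F.C.Levels Fermat.Agent.N4F.C.LevelCharts
  Fermat.Agent.N4F.C.Formula Fermat.Agent.N4F.C.ChartFactsProof
  Fermat.Agent.S19.Cech.ClassDict Fermat.Agent.S19.Cech.LevelDiv
  Fermat.Agent.S19.Cech.DivModule

variable {A : ValuationSubring Qb} {N : ℕ} [NeZero N] {ℓ : ℕ}
  (hℓ : ℓ.Prime) (hA : A.LiesOverPrime ℓ) (hℓN : ¬ ℓ ∣ N)
  {K : IntermediateField ℚ Qb} [IsDiscreteValuationRing ↥(baseRing A K)]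
  [IsFractionRing ↥(baseRing A K) (Lvl K)]

variable {ϖ : ↥(baseRing A K)}

/-- Shortcut instance (as in `GaussN4`). -/
noncomputable local instance instModuleFFLvl' :
    Module ↥(baseRing A K) (FF (Lvl K) N) := Algebra.toModule

/-- The reduction of (the lift to `ℚ̄·F_N` of) an element of the Gauss ring of a good level lies in the
function field of the special fibre. -/
theorem thetaBar_levK_mem_full (hN : IsUnit ((N : ℕ) : ↥(baseRing A K)))
    (hprime : (fibreIdeal (Lvl K) N (baseRing A K) (Rfin (Lvl K) N (baseRing A K))).IsPrime)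
    {x : FF (Lvl K) N} (hx : x ∈ gaussSubalgebra (Lvl K) N (baseRing A K)) :
    thetaBar A N (levK N K x) ∈ modularFunctionFieldFullC (Kap A) N := by
  rw [LevelTheta.thetaBar_levK A N K hx]
  have h := Fermat.Agent.N4F.E.NormReduction.theta_mem_full (Lvl K) N (baseRing A K)
    (fun y hy => ChartReduction.red_mem_full_of_isPrime (Lvl K) N (baseRing A K) hN hprime y hy)
    ⟨x, hx⟩
  exact (LevelTheta.ffK A N K ⟨_, h⟩).2

/-- An element of the Gauss ring of a good level with nonzero reduction lifts to a Gauss unit. -/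
theorem isGaussUnit_levK (hN : IsUnit ((N : ℕ) : ↥(baseRing A K)))
    (hprime : (fibreIdeal (Lvl K) N (baseRing A K) (Rfin (Lvl K) N (baseRing A K))).IsPrime)
    {x : FF (Lvl K) N} (hx : x ∈ gaussSubalgebra (Lvl K) N (baseRing A K))
    (h0 : thetaBar A N (levK N K x) ≠ 0) : IsGaussUnit A N (levK N K x) :=
  ⟨LevelTheta.levK_mem_gaussSub A N K hx, thetaBar_levK_mem_full hN hprime hx, h0⟩

/-- The order condition of `LD` at the level, read at a place of `ℚ̄·F_N`: for `x ≠ 0` with
`0 ≤ ord_v x + levelDiv K D v` at `v = P|_K`, one has `0 ≤ ord_P (levK x) + D P`. -/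
theorem ord_levK_add_nonneg (D : Divisor Qb (Fb N))
    (hrat : ∀ P ∈ D.support, ResidueTrivial (restrictK N K P)) {x : FF (Lvl K) N} (hx0 : x ≠ 0)
    (P : Place Qb (Fb N))
    (h : 0 ≤ (restrictK N K P).ord x + levelDiv K D (restrictK N K P)) :
    0 ≤ P.ord (levK N K x) + D P := by
  by_cases hP : P ∈ D.support
  · rw [ord_levK_restrictK N K P (hrat P hP) x, ← levelDiv_restrictK K D hrat P (hrat P hP)]
    exact h
  · have hDP : D P = 0 := Finsupp.notMem_support_iff.mp hP
    have hlv : levelDiv K D (restrictK N K P) = 0 := by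
      by_contra hne
      obtain ⟨P', hP', hPP'⟩ := exists_of_levelDiv_ne_zero K D hne
      have : P' = P := restrictK_injective_of_residueTrivial K (hrat P' hP') hPP'
      exact hP (this ▸ hP')
    rw [hlv, add_zero] at h
    rw [hDP, add_zero]
    have hx0' : levK N K x ≠ 0 := (map_ne_zero_iff _ (levK N K).toRingHom.injective).2 hx0
    have hmem : x ∈ (restrictK N K P).toValuationSubring :=
      (Fermat.Agent.S24.PlaceExtend.mem_iff_ord_nonneg _ hx0).2 h
    exact (Fermat.Agent.S24.PlaceExtend.mem_iff_ord_nonneg P hx0').1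
      ((mem_restrictK_iff N K P x).1 hmem)

include hℓ hA hℓN in
/-- **`red_m` at a good level**: VERBATIM the `red_m` argument of `GaussN4.lineOf` for
`levelDiv K D`. -/
theorem red_m_level (hN : IsUnit ((N : ℕ) : ↥(baseRing A K)))
    (hbij : Function.Bijective (IsLocalRing.ResidueField.map (baseIncl A K)))
    (hprimeFin : (fibreIdeal (Lvl K) N (baseRing A K) (Rfin (Lvl K) N (baseRing A K))).IsPrime)
    (hprimeInf : (fibreIdeal (Lvl K) N (baseRing A K) (Rinf (Lvl K) N (baseRing A K))).IsPrime)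
    (hdedInf : IsDedekindDomain (Rinf (Lvl K) N (baseRing A K) ⧸
      fibreIdeal (Lvl K) N (baseRing A K) (Rinf (Lvl K) N (baseRing A K))))
    (hϖ : Irreducible ϖ)
    (D : Divisor Qb (Fb N)) (hrat : ∀ P ∈ D.support, ResidueTrivial (restrictK N K P))
    (hD : ∀ Q : Place (Kap A) (Ft A N), thetaFt A N (N4F.C.jb N)⁻¹ ∈ Q.toValuationSubring →
      Finsupp.mapDomain (rC hℓ hA hℓN) D Q = 0) :
    ∀ x ∈ Lm (gaussSubalgebra (Lvl K) N (baseRing A K)) (jF (Lvl K) N) (levelDiv K D),
      ∃ b ∈ Rinf (Lvl K) N (baseRing A K), ∃ r ∈ gaussSubalgebra (Lvl K) N (baseRing A K),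
        x = b + algebraMap ↥(baseRing A K) (FF (Lvl K) N) ϖ * r := by
  intro x hx
  have hxW : x ∈ gaussSubalgebra (Lvl K) N (baseRing A K) := LD_le_W x hx
  by_cases h0 : thetaBar A N (levK N K x) = 0
  · obtain ⟨r, hr, hxr⟩ := GaussKer.exists_eq_mul_of_thetaBar_levK_eq_zero A N K hϖ hxW h0
    exact ⟨0, Subalgebra.zero_mem _, r, hr, by rw [zero_add]; exact hxr⟩
  · have hx0 : x ≠ 0 := by
      rintro rfl
      apply h0
      rw [map_zero]
      exact Fermat.Agent.N4F.C.thetaBar_zero
    have hf : IsGaussUnit A N (levK N K x) := isGaussUnit_levK hN hprimeFin hxW h0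
    have hord := ((mem_LD_iff_ord hx0).1 hx).2
    have hmemS : thetaFt A N (levK N K x) ∈ ChartFibre.SigmaInf (Kap A) N := by
      refine Fermat.Agent.S19.Geo.FibreRegular.thetaFt_mem_SigmaInf hℓ hA hℓN hf D hD fun P hP => ?_
      refine ord_levK_add_nonneg D hrat hx0 P (hord (restrictK N K P) ?_)
      show (jF (Lvl K) N)⁻¹ ∈ (restrictK N K P).toValuationSubring
      rw [mem_restrictK_iff, levK_jF_inv]
      exact (Fermat.Agent.S24.PlaceExtend.mem_iff_ord_nonneg P
        (inv_ne_zero (Centre.jb_ne_zero (N := N)))).2 hP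
    obtain ⟨b, hb⟩ := exists_thetaFt_lev_eq_inf A N (Lvl K) (baseRing A K) (baseIncl A K)
      (coe_baseIncl A K) hN hbij hprimeInf hdedInf hmemS
    have hbW : (b : FF (Lvl K) N) ∈ gaussSubalgebra (Lvl K) N (baseRing A K) :=
      GenLocal.rinf_le_gauss b.2
    have heq : thetaBar A N (levK N K x) = thetaBar A N (levK N K (b : FF (Lvl K) N)) := by
      rw [← coe_thetaFt_of_mem (thetaBar_levK_mem_full hN hprimeFin hxW),
        ← coe_thetaFt_of_mem (thetaBar_levK_mem_full hN hprimeFin hbW)]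
      exact congrArg _ hb.symm
    obtain ⟨r, hr, hxr⟩ := GaussKer.exists_eq_add_mul_of_thetaBar_levK_eq A N K hϖ hxW hbW heq
    exact ⟨b, b.2, r, hr, hxr⟩

include hℓ hA hℓN in
/-- `red_m_level` from a `LevelPack`. -/
theorem red_m_level_of_pack (P : LevelPack A N K) (hϖ : Irreducible ϖ)
    (D : Divisor Qb (Fb N)) (hrat : ∀ P ∈ D.support, ResidueTrivial (restrictK N K P))
    (hD : ∀ Q : Place (Kap A) (Ft A N), thetaFt A N (N4F.C.jb N)⁻¹ ∈ Q.toValuationSubring →
      Finsupp.mapDomain (rC hℓ hA hℓN) D Q = 0) :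
    ∀ x ∈ Lm (gaussSubalgebra (Lvl K) N (baseRing A K)) (jF (Lvl K) N) (levelDiv K D),
      ∃ b ∈ Rinf (Lvl K) N (baseRing A K), ∃ r ∈ gaussSubalgebra (Lvl K) N (baseRing A K),
        x = b + algebraMap ↥(baseRing A K) (FF (Lvl K) N) ϖ * r :=
  red_m_level hℓ hA hℓN P.hN P.hbij P.primeFin P.primeInf P.dedInf hϖ D hrat hD

end Fermat.Agent.S19.Cech.GenRedInf
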