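/-
S19 / Čech-units route, block CECH-2E (T) (helper21): **the idelic hypotheses `TwoChartSys` for two
charts with Dedekind special fibres glued along a common principal open.**

* Sections `PairAlg`, `Pair`, `PairRed`: a chart `R` (domain with fraction field `F`, prime element
  `ϖ`, reduction map `ρ : R → F'` as in `IdelePlaces.ChartRed`) and a principal open `R' = R[1/j]`
  (`ϖ ∤ j`), with the extended reduction `ρ' : R' → F'`: `R'` is again a chart (`chartRed_loc`), its
  closed points are the places `Q` on `R` at which `ρ j` is a unit (`onChart_loc_iff`), with the same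
  local rings (`locSub_closedPoint_loc`), and the local ring of the generic point of the special
  fibre is the same (`locSub_span_loc`).
* `twoChartSys`: charts `R₊`, `R₋` with `R₀ = R₊[1/j₊] = R₋[1/j₋]`, `j₊ j₋ = 1`, compatible
  reductions; closed points indexed by the places `Q` of `F'/k'`:
  `X₊ = {Q | ρ₊ j₊ ∈ 𝒪_Q}`, `X₋ = {Q | ρ₋ j₋ ∈ 𝒪_Q}`.
-/
import Mathlib
import Fermat.Agent.N4F.C.LocalMult
import Fermat.Agent.S19.Cech.Idele
import Fermat.Agent.S19.Cech.IdeleDedekind
import Fermat.Agent.S19.Cech.IdelePlaces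

set_option autoImplicit false
set_option linter.unusedSectionVars false
set_option linter.style.haveILetI false

namespace Fermat.Agent.S19.Cech.IdeleTwo

open AlgebraicCurve Fermat.Agent.N4F.C.LocalMult Fermat.Agent.S19.Cech.Idele
  Fermat.Agent.S19.Cech.IdeleDedekind Fermat.Agent.S19.Cech.IdelePlaces
  Fermat.Agent.S19.Cech.IdelePlaces.ChartRed

/-! ### Generalities on `locSub` -/

section Loc

variable {R F : Type*} [CommRing R] [IsDomain R] [Field F] [Algebra R F] [IsFractionRing R F]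

theorem locSub_congr {P Q : Ideal R} [P.IsPrime] [Q.IsPrime] (h : P = Q) :
    locSub (F := F) P = locSub (F := F) Q := by
  subst h
  rfl

end Loc

/-! ### A chart and a principal open of it -/

section PairAlg

variable {R R' : Type*} [CommRing R] [IsDomain R] [CommRing R'] [Algebra R R'] (j : R)
  [IsLocalization.Away j R']

include j in
theorem algebraMap_injective_away (hj0 : j ≠ 0) : Function.Injective (algebraMap R R') :=
  IsLocalization.injective (M := Submonoid.powers j) R'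
    (Submonoid.powers_le.2 (mem_nonZeroDivisors_of_ne_zero hj0))

include j in
theorem isDomain_loc (hj0 : j ≠ 0) : IsDomain R' :=
  IsLocalization.isDomain_of_le_nonZeroDivisors (M := Submonoid.powers j) R'
    (Submonoid.powers_le.2 (mem_nonZeroDivisors_of_ne_zero hj0))

include j in
theorem isNoetherianRing_loc [IsNoetherianRing R] : IsNoetherianRing R' :=
  IsLocalization.isNoetherianRing (Submonoid.powers j) R' inferInstance

variable {j} {ϖ : R}

/-- Divisibility by `ϖ` in the principal open, after clearing the poles. -/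
theorem dvd_loc_iff (hϖ : Prime ϖ) (hj : ¬ ϖ ∣ j) {x : R'} {n : ℕ} {a : R}
    (h : x * algebraMap R R' j ^ n = algebraMap R R' a) : algebraMap R R' ϖ ∣ x ↔ ϖ ∣ a := by
  have hj0 : j ≠ 0 := fun h => hj (h ▸ dvd_zero ϖ)
  have hu : IsUnit (algebraMap R R' j) := IsLocalization.Away.algebraMap_isUnit j
  constructor
  · rintro ⟨y, rfl⟩
    obtain ⟨m, c, hc⟩ := IsLocalization.Away.surj j y
    have h1 : algebraMap R R' (a * j ^ m) = algebraMap R R' (ϖ * c * j ^ n) := by
      rw [map_mul, map_mul, map_mul, ← h, ← hc, map_pow, map_pow]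
      ring
    have h2 : a * j ^ m = ϖ * c * j ^ n := algebraMap_injective_away (R' := R') j hj0 h1
    have h3 : ϖ ∣ a * j ^ m := ⟨c * j ^ n, by rw [h2]; ring⟩
    rcases hϖ.dvd_or_dvd h3 with h4 | h4
    · exact h4
    · exact absurd (hϖ.dvd_of_dvd_pow h4) hj
  · rintro ⟨b, rfl⟩
    obtain ⟨u, hu'⟩ := (hu.pow n).exists_right_inv
    refine ⟨algebraMap R R' b * u, ?_⟩
    calc x = x * (algebraMap R R' j ^ n * u) := by rw [hu', mul_one]
      _ = (x * algebraMap R R' j ^ n) * u := by ring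
      _ = algebraMap R R' ϖ * (algebraMap R R' b * u) := by rw [h, map_mul]; ring

theorem algebraMap_dvd_iff (hϖ : Prime ϖ) (hj : ¬ ϖ ∣ j) (r : R) :
    algebraMap R R' ϖ ∣ algebraMap R R' r ↔ ϖ ∣ r :=
  dvd_loc_iff (n := 0) hϖ hj (by rw [pow_zero, mul_one])

theorem prime_loc (hϖ : Prime ϖ) (hj : ¬ ϖ ∣ j) : Prime (algebraMap R R' ϖ) := by
  have hj0 : j ≠ 0 := fun h => hj (h ▸ dvd_zero ϖ)
  have hne : algebraMap R R' ϖ ≠ 0 := by
    intro h
    exact hϖ.ne_zero (algebraMap_injective_away (R' := R') j hj0 (by rw [h, map_zero]))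
  have hP : (Ideal.span {ϖ} : Ideal R).IsPrime := (Ideal.span_singleton_prime hϖ.ne_zero).2 hϖ
  have hd : Disjoint (Submonoid.powers j : Set R) (Ideal.span {ϖ} : Ideal R) := by
    rw [Set.disjoint_left]
    rintro _ ⟨n, rfl⟩ hmem
    exact hj (hϖ.dvd_of_dvd_pow (Ideal.mem_span_singleton.1 hmem))
  have h1 := IsLocalization.isPrime_of_isPrime_disjoint (Submonoid.powers j) R' _ hP hd
  rw [Ideal.map_span, Set.image_singleton] at h1
  exact (Ideal.span_singleton_prime hne).1 h1

/-- The special fibre of the principal open is again Dedekind. -/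
theorem isDedekindDomain_loc (hϖ : Prime ϖ) (hj : ¬ ϖ ∣ j)
    (hD : IsDedekindDomain (R ⧸ Ideal.span {ϖ})) :
    IsDedekindDomain (R' ⧸ Ideal.span {algebraMap R R' ϖ}) := by
  haveI := hD
  set I : Ideal R := Ideal.span {ϖ} with hI
  have hM : Algebra.algebraMapSubmonoid (R ⧸ I) (Submonoid.powers j) ≤ nonZeroDivisors (R ⧸ I) := by
    rintro _ ⟨_, ⟨n, rfl⟩, rfl⟩
    apply mem_nonZeroDivisors_of_ne_zero
    intro h0
    have h1 : j ^ n ∈ I := Ideal.Quotient.eq_zero_iff_mem.1 h0
    exact hj (hϖ.dvd_of_dvd_pow (Ideal.mem_span_singleton.1 h1))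
  haveI : IsDomain (R' ⧸ I.map (algebraMap R R')) :=
    IsLocalization.isDomain_of_le_nonZeroDivisors
      (M := Algebra.algebraMapSubmonoid (R ⧸ I) (Submonoid.powers j)) _ hM
  have h1 : IsDedekindDomain (R' ⧸ I.map (algebraMap R R')) :=
    IsLocalization.isDedekindDomain (R ⧸ I) hM _
  have h2 : I.map (algebraMap R R') = Ideal.span {algebraMap R R' ϖ} := by
    rw [hI, Ideal.map_span, Set.image_singleton]
  exact isDedekindDomain_of_equiv (Ideal.quotEquivOfEq h2)

end PairAlg

section Pair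

variable {R R' F : Type*} [CommRing R] [IsDomain R] [Field F] [Algebra R F] [IsFractionRing R F]
  [CommRing R'] [Algebra R' F] [Algebra R R'] [IsScalarTower R R' F] (j : R)
  [IsLocalization.Away j R']

/-- Clearing the poles along `j = 0`, inside `F`. -/
theorem exists_pow_mul_eq (x : R') :
    ∃ (n : ℕ) (a : R), algebraMap R' F x * algebraMap R F j ^ n = algebraMap R F a := by
  obtain ⟨n, a, ha⟩ := IsLocalization.Away.surj j x
  refine ⟨n, a, ?_⟩
  rw [IsScalarTower.algebraMap_apply R R' F, IsScalarTower.algebraMap_apply R R' F, ← ha, map_mul,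
    map_pow]

omit [IsDomain R] [IsFractionRing R F] in
theorem ringSub_le_loc : ringSub R F ≤ ringSub R' F := by
  rintro _ ⟨r, rfl⟩
  exact ⟨algebraMap R R' r, (IsScalarTower.algebraMap_apply R R' F r).symm⟩

include j in
theorem isFractionRing_loc (hj0 : j ≠ 0) : IsFractionRing R' F :=
  haveI := isDomain_loc (R' := R') j hj0
  IsFractionRing.isFractionRing_of_isDomain_of_isLocalization (Submonoid.powers j) R' F

variable {j}

/-- **The key lemma**: a prime `P'` of the principal open with contraction `P ∌ j` has the same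
local ring as `P`. -/
theorem locSub_eq_of_comap [IsDomain R'] [IsFractionRing R' F] (P : Ideal R) [P.IsPrime]
    (P' : Ideal R') [hP' : P'.IsPrime]
    (hi : ∀ r : R, algebraMap R R' r ∈ P' ↔ r ∈ P) (hjP : j ∉ P) :
    locSub (F := F) P' = locSub (F := F) P := by
  ext x
  rw [mem_locSub_iff, mem_locSub_iff]
  constructor
  · rintro ⟨a', s', hs', rfl⟩
    obtain ⟨n, a, ha⟩ := IsLocalization.Away.surj j a'
    obtain ⟨m, s, hs⟩ := IsLocalization.Away.surj j s'
    have hJ : algebraMap R F j ≠ 0 := by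
      intro h0
      have : j = 0 := IsFractionRing.injective R F (by rw [h0, map_zero])
      exact hjP (this ▸ P.zero_mem)
    have hs0 : algebraMap R' F s' ≠ 0 := by
      intro h0
      have : s' = 0 := IsFractionRing.injective R' F (by rw [h0, map_zero])
      exact hs' (this ▸ P'.zero_mem)
    have e1 : algebraMap R F a = algebraMap R' F a' * algebraMap R F j ^ n := by
      rw [IsScalarTower.algebraMap_apply R R' F a, ← ha, map_mul, map_pow,
        ← IsScalarTower.algebraMap_apply]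
    have e2 : algebraMap R F s = algebraMap R' F s' * algebraMap R F j ^ m := by
      rw [IsScalarTower.algebraMap_apply R R' F s, ← hs, map_mul, map_pow,
        ← IsScalarTower.algebraMap_apply]
    refine ⟨a * j ^ m, s * j ^ n, ?_, ?_⟩
    · rw [← hi, map_mul, ← hs, map_pow]
      intro hmem
      have hjP' : algebraMap R R' j ∉ P' := fun h => hjP ((hi j).1 h)
      rcases hP'.mem_or_mem hmem with h1 | h1
      · rcases hP'.mem_or_mem h1 with h2 | h2
        · exact hs' h2
        · exact hjP' (hP'.mem_of_pow_mem _ h2)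
      · exact hjP' (hP'.mem_of_pow_mem _ h1)
    · rw [map_mul, map_mul, map_pow, map_pow, e1, e2]
      field_simp
  · rintro ⟨a, s, hs, rfl⟩
    refine ⟨algebraMap R R' a, algebraMap R R' s, fun h => hs ((hi s).1 h), ?_⟩
    rw [← IsScalarTower.algebraMap_apply R R' F, ← IsScalarTower.algebraMap_apply R R' F]

end Pair

/-! ### The principal open as a chart with reduction map -/

section PairRed

variable {R R' F k' F' : Type*} [CommRing R] [IsDomain R] [Field F] [Algebra R F]
  [IsFractionRing R F] [CommRing R'] [Algebra R' F] [Algebra R R'] [IsScalarTower R R' F] {j : R}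
  [IsLocalization.Away j R'] [Field k'] [Field F'] [Algebra k' F']
  {ϖ : R} {ρ : R →+* F'} {ρ' : R' →+* F'}

omit [IsDomain R] in
theorem rho_ne_zero_of_not_dvd (H : ChartRed k' ϖ ρ) (hj : ¬ ϖ ∣ j) : ρ j ≠ 0 := by
  intro h0
  have h1 : j ∈ RingHom.ker ρ := h0
  rw [H.ker_eq, Ideal.mem_span_singleton] at h1
  exact hj h1

/-- The principal open `R[1/j]` is again a chart with reduction map. -/
theorem chartRed_loc (H : ChartRed k' ϖ ρ) (hρ' : ∀ r, ρ' (algebraMap R R' r) = ρ r)
    (hϖ : Prime ϖ) (hj : ¬ ϖ ∣ j) : ChartRed k' (algebraMap R R' ϖ) ρ' where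
  ker_eq := by
    ext x
    rw [RingHom.mem_ker, Ideal.mem_span_singleton]
    obtain ⟨n, a, ha⟩ := IsLocalization.Away.surj j x
    rw [dvd_loc_iff hϖ hj ha]
    have h1 : ρ' x * ρ j ^ n = ρ a := by rw [← hρ', ← hρ' a, ← ha, map_mul, map_pow]
    have hρj : ρ j ≠ 0 := rho_ne_zero_of_not_dvd H hj
    rw [← Ideal.mem_span_singleton, ← H.ker_eq, RingHom.mem_ker, ← h1]
    constructor
    · intro h
      rw [h, zero_mul]
    · intro h
      exact (mul_eq_zero.1 h).resolve_right (pow_ne_zero n hρj)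
  dedekind := isDedekindDomain_loc hϖ hj H.dedekind
  frac z := by
    obtain ⟨a, b, hb, hab⟩ := H.frac z
    exact ⟨algebraMap R R' a, algebraMap R R' b, by rwa [hρ'], by rw [hρ', hρ']; exact hab⟩
  const c := by
    obtain ⟨a, ha⟩ := H.const c
    exact ⟨algebraMap R R' a, by rw [hρ', ha]⟩

theorem not_mem_nonunits_of_inv_mem (Q : Place k' F') {x : F'} (hx0 : x ≠ 0)
    (hx : x⁻¹ ∈ Q.toValuationSubring) : x ∉ Q.toValuationSubring.nonunits := by
  rw [ValuationSubring.mem_nonunits_iff, not_lt]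
  have h1 : Q.toValuationSubring.valuation x⁻¹ ≤ 1 :=
    (ValuationSubring.valuation_le_one_iff _ _).2 hx
  rw [map_inv₀] at h1
  have h2 : Q.toValuationSubring.valuation x ≠ 0 := (Valuation.ne_zero_iff _).2 hx0
  exact (inv_le_one₀ (zero_lt_iff.2 h2)).1 h1

/-- The places on the principal open are the places on the chart at which `ρ j` is a unit. -/
theorem onChart_loc_iff (hρ' : ∀ r, ρ' (algebraMap R R' r) = ρ r) (Q : Place k' F') :
    OnChart ρ' Q ↔ OnChart ρ Q ∧ (ρ j)⁻¹ ∈ Q.toValuationSubring := by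
  have hu : IsUnit (algebraMap R R' j) := IsLocalization.Away.algebraMap_isUnit j
  obtain ⟨u, hu'⟩ := hu.exists_right_inv
  have h1 : ρ j * ρ' u = 1 := by rw [← hρ', ← map_mul, hu', map_one]
  have hinv : (ρ j)⁻¹ = ρ' u := (eq_inv_of_mul_eq_one_right h1).symm
  constructor
  · intro h
    exact ⟨fun r => hρ' r ▸ h (algebraMap R R' r), hinv ▸ h u⟩
  · rintro ⟨h, hj⟩ x
    obtain ⟨n, a, ha⟩ := IsLocalization.Away.surj j x
    have h2 : ρ' x * ρ j ^ n = ρ a := by rw [← hρ', ← hρ' a, ← ha, map_mul, map_pow]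
    have hρj : ρ j ≠ 0 := left_ne_zero_of_mul_eq_one h1
    have h3 : ρ' x = ρ a * (ρ j)⁻¹ ^ n := by
      rw [← h2, inv_pow, mul_assoc, mul_inv_cancel₀ (pow_ne_zero n hρj), mul_one]
    rw [h3]
    exact mul_mem (h a) (pow_mem hj n)

include j in
/-- A place on the principal open has the same local ring on the chart and on the principal
open. -/
theorem locSub_closedPoint_loc [IsDomain R'] [IsFractionRing R' F]
    (hρ' : ∀ r, ρ' (algebraMap R R' r) = ρ r) (Q : Place k' F') (h' : OnChart ρ' Q)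
    (h : OnChart ρ Q) :
    locSub (F := F) (closedPoint ρ' Q h') = locSub (F := F) (closedPoint ρ Q h) := by
  refine locSub_eq_of_comap (j := j) _ _ (fun r => ?_) ?_
  · rw [mem_closedPoint_iff, mem_closedPoint_iff, hρ']
  · rw [mem_closedPoint_iff]
    have hinv := ((onChart_loc_iff (j := j) hρ' Q).1 h').2
    have hu : IsUnit (algebraMap R R' j) := IsLocalization.Away.algebraMap_isUnit j
    have hρj : ρ j ≠ 0 := by
      rw [← hρ']
      exact (hu.map ρ').ne_zero
    exact not_mem_nonunits_of_inv_mem Q hρj hinv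

/-- The local ring of the generic point of the special fibre is the same for the chart and for
the principal open. -/
theorem locSub_span_loc [IsDomain R'] [IsFractionRing R' F] (hϖ : Prime ϖ) (hj : ¬ ϖ ∣ j)
    [(Ideal.span {ϖ}).IsPrime] [(Ideal.span {algebraMap R R' ϖ}).IsPrime] :
    locSub (F := F) (Ideal.span {algebraMap R R' ϖ}) = locSub (F := F) (Ideal.span {ϖ}) := by
  refine locSub_eq_of_comap (j := j) _ _ (fun r => ?_) ?_
  · rw [Ideal.mem_span_singleton, Ideal.mem_span_singleton, algebraMap_dvd_iff hϖ hj]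
  · rw [Ideal.mem_span_singleton]
    exact hj

end PairRed

/-! ### One chart, closed points indexed by places -/

section OneChart

variable {R F k' F' : Type*} [CommRing R] [IsDomain R] [IsNoetherianRing R] [Field F]
  [Algebra R F] [IsFractionRing R F] [Field k'] [Field F'] [Algebra k' F']
  {ϖ : R} {ρ : R →+* F'}

/-- **The idelic hypotheses for a chart, closed points indexed by the places on the chart.** -/
theorem chartSys_places (H : ChartRed k' ϖ ρ) [hP : (Ideal.span {ϖ}).IsPrime]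
    (hnf : ¬ IsField (R ⧸ Ideal.span {ϖ}))
    (Xc : Set (Place k' F')) (hX : ∀ Q, Q ∈ Xc ↔ OnChart ρ Q)
    (S : Place k' F' → Subring F)
    (hS : ∀ Q (hQ : OnChart ρ Q), S Q = locSub (F := F) (closedPoint ρ Q hQ)) :
    ChartSys (algebraMap R F ϖ) (locSub (F := F) (Ideal.span {ϖ})) (ringSub R F)
      (fun Q : Xc => S Q) := by
  set e : ↥Xc ≃ Pt R ϖ := (Equiv.subtypeEquivRight hX).trans (H.placeEquivPt hnf) with he
  have base := chartSys_comap_equiv e (chartSys (F := F) H.dedekind hnf)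
  have hfun : (fun y : ↥Xc => locSub (F := F) (e y).1) = fun Q : Xc => S Q := by
    funext Q
    have hQ : OnChart ρ Q.1 := (hX Q.1).1 Q.2
    rw [hS Q.1 hQ]
    exact locSub_congr (H.coe_placeEquivPt hnf ⟨Q.1, hQ⟩)
  rw [← hfun]
  exact base

end OneChart

/-! ### Two charts -/

section Two

variable {F k' F' : Type*} [Field F] [Field k'] [Field F'] [Algebra k' F']
  {Rp Rm R0 : Type*}
  [CommRing Rp] [IsDomain Rp] [IsNoetherianRing Rp] [Algebra Rp F] [IsFractionRing Rp F]
  [CommRing Rm] [IsDomain Rm] [IsNoetherianRing Rm] [Algebra Rm F] [IsFractionRing Rm F]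
  [CommRing R0] [Algebra R0 F]
  [Algebra Rp R0] [IsScalarTower Rp R0 F] [Algebra Rm R0] [IsScalarTower Rm R0 F]
  {jp : Rp} {jm : Rm} [IsLocalization.Away jp R0] [IsLocalization.Away jm R0]
  {ϖp : Rp} {ϖm : Rm} {ρp : Rp →+* F'} {ρm : Rm →+* F'}

/-- **The idelic hypotheses for two charts glued along a common principal open**, closed points
indexed by the places `Q` of the residue function field: `X₊ = {Q | ρ₊ j₊ ∈ 𝒪_Q}`,
`X₋ = {Q | ρ₋ j₋ ∈ 𝒪_Q}`. -/
theorem twoChartSys (Hp : ChartRed k' ϖp ρp) (Hm : ChartRed k' ϖm ρm)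
    (hϖp : Prime ϖp) (hϖm : Prime ϖm) (hjp : ¬ ϖp ∣ jp) (hjm : ¬ ϖm ∣ jm)
    (hϖ : algebraMap Rp R0 ϖp = algebraMap Rm R0 ϖm)
    (hjj : algebraMap Rp F jp * algebraMap Rm F jm = 1)
    (hmemp : ∀ Q : Place k' F', ρp jp ∈ Q.toValuationSubring → OnChart ρp Q)
    (hmemm : ∀ Q : Place k' F', ρm jm ∈ Q.toValuationSubring → OnChart ρm Q)
    (hcompat : ∀ (a s : Rp) (b : Rm),
      algebraMap Rm F b * algebraMap Rp F s = algebraMap Rp F a → ρm b * ρp s = ρp a)
    (hne : ∃ Q : Place k' F', ρp jp ∈ Q.toValuationSubring ∧ ρm jm ∈ Q.toValuationSubring)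
    (S : Place k' F' → Subring F)
    (hSp : ∀ Q (hQ : ρp jp ∈ Q.toValuationSubring),
      S Q = locSub (F := F) (closedPoint ρp Q (hmemp Q hQ)))
    (hSm : ∀ Q (hQ : ρm jm ∈ Q.toValuationSubring),
      S Q = locSub (F := F) (closedPoint ρm Q (hmemm Q hQ)))
    [hPp : (Ideal.span {ϖp}).IsPrime] :
    TwoChartSys (algebraMap Rp F ϖp) (locSub (F := F) (Ideal.span {ϖp})) (ringSub Rp F)
      (ringSub Rm F) (ringSub R0 F) S {Q | ρp jp ∈ Q.toValuationSubring}
      {Q | ρm jm ∈ Q.toValuationSubring} := by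
  have hjp0 : jp ≠ 0 := fun h => hjp (h ▸ dvd_zero ϖp)
  have hjm0 : jm ≠ 0 := fun h => hjm (h ▸ dvd_zero ϖm)
  haveI : IsDomain R0 := isDomain_loc (R' := R0) jp hjp0
  haveI : IsFractionRing R0 F := isFractionRing_loc (R' := R0) (F := F) jp hjp0
  haveI : IsNoetherianRing R0 := isNoetherianRing_loc (R' := R0) jp
  haveI hPm : (Ideal.span {ϖm}).IsPrime := (Ideal.span_singleton_prime hϖm.ne_zero).2 hϖm
  -- the uniformiser in the overlap
  have hϖ0 : Prime (algebraMap Rp R0 ϖp) := prime_loc hϖp hjp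
  haveI hP0 : (Ideal.span {algebraMap Rp R0 ϖp}).IsPrime :=
    (Ideal.span_singleton_prime hϖ0.ne_zero).2 hϖ0
  haveI hP0' : (Ideal.span {algebraMap Rm R0 ϖm}).IsPrime := hϖ ▸ hP0
  -- the reductions of `jp`, `jm` are inverse to each other
  have hρjj : ρm jm * ρp jp = 1 := by
    have := hcompat 1 jp jm (by rw [map_one, mul_comm]; exact hjj)
    rwa [map_one] at this
  have hρjp : ρp jp ≠ 0 := right_ne_zero_of_mul_eq_one hρjj
  have hinvp : (ρp jp)⁻¹ = ρm jm := (eq_inv_of_mul_eq_one_left hρjj).symm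
  have hinvm : (ρm jm)⁻¹ = ρp jp := (eq_inv_of_mul_eq_one_right hρjj).symm
  -- the reduction map on the overlap
  set ρ0 : R0 →+* F' := IsLocalization.Away.lift jp (g := ρp) hρjp.isUnit with hρ0
  have hρ0p : ∀ r, ρ0 (algebraMap Rp R0 r) = ρp r := fun r =>
    IsLocalization.Away.lift_eq jp hρjp.isUnit r
  have hρ0m : ∀ r, ρ0 (algebraMap Rm R0 r) = ρm r := by
    intro b
    obtain ⟨k, a, ha⟩ := IsLocalization.Away.surj jp (algebraMap Rm R0 b)
    have h1 : algebraMap Rm F b * algebraMap Rp F (jp ^ k) = algebraMap Rp F a := by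
      rw [IsScalarTower.algebraMap_apply Rm R0 F, IsScalarTower.algebraMap_apply Rp R0 F,
        IsScalarTower.algebraMap_apply Rp R0 F a, ← ha, map_mul, map_pow, map_pow]
    have h2 := hcompat a (jp ^ k) b h1
    have h3 : ρ0 (algebraMap Rm R0 b) * ρp (jp ^ k) = ρp a := by
      rw [← hρ0p a, ← ha, map_mul, map_pow, map_pow, hρ0p]
    have h4 : ρp (jp ^ k) ≠ 0 := by rw [map_pow]; exact pow_ne_zero k hρjp
    exact mul_right_cancel₀ h4 (h3.trans h2.symm)
  have H0 : ChartRed k' (algebraMap Rp R0 ϖp) ρ0 := chartRed_loc Hp hρ0p hϖp hjp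
  -- the sets of closed points
  have hXp : ∀ Q : Place k' F', Q ∈ {Q : Place k' F' | ρp jp ∈ Q.toValuationSubring} ↔
      OnChart ρp Q := fun Q => ⟨fun h => hmemp Q h, fun h => h jp⟩
  have hXm : ∀ Q : Place k' F', Q ∈ {Q : Place k' F' | ρm jm ∈ Q.toValuationSubring} ↔
      OnChart ρm Q := fun Q => ⟨fun h => hmemm Q h, fun h => h jm⟩
  have hX0 : ∀ Q : Place k' F', Q ∈ ({Q : Place k' F' | ρp jp ∈ Q.toValuationSubring} ∩
      {Q : Place k' F' | ρm jm ∈ Q.toValuationSubring}) ↔ OnChart ρ0 Q := by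
    intro Q
    rw [onChart_loc_iff (j := jp) hρ0p Q, hinvp]
    exact ⟨fun h => ⟨hmemp Q h.1, h.2⟩, fun h => ⟨h.1 jp, h.2⟩⟩
  -- the special fibres are not fields
  obtain ⟨Q₀, hQ₀p, hQ₀m⟩ := hne
  have hnfp : ¬ IsField (Rp ⧸ Ideal.span {ϖp}) := Hp.not_isField_of_onChart Q₀ (hmemp Q₀ hQ₀p)
  have hnfm : ¬ IsField (Rm ⧸ Ideal.span {ϖm}) := Hm.not_isField_of_onChart Q₀ (hmemm Q₀ hQ₀m)
  have hnf0 : ¬ IsField (R0 ⧸ Ideal.span {algebraMap Rp R0 ϖp}) :=
    H0.not_isField_of_onChart Q₀ ((hX0 Q₀).1 ⟨hQ₀p, hQ₀m⟩)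
  -- the local rings
  have hS0 : ∀ Q (hQ : OnChart ρ0 Q), S Q = locSub (F := F) (closedPoint ρ0 Q hQ) := by
    intro Q hQ
    have hQp : ρp jp ∈ Q.toValuationSubring := ((hX0 Q).2 hQ).1
    rw [hSp Q hQp]
    exact (locSub_closedPoint_loc (j := jp) hρ0p Q hQ (hmemp Q hQp)).symm
  -- the uniformiser and the generic local ring
  have hϖF0 : algebraMap R0 F (algebraMap Rp R0 ϖp) = algebraMap Rp F ϖp :=
    (IsScalarTower.algebraMap_apply Rp R0 F ϖp).symm
  have hϖFm : algebraMap Rm F ϖm = algebraMap Rp F ϖp := by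
    rw [IsScalarTower.algebraMap_apply Rm R0 F, ← hϖ, hϖF0]
  have hW0 : locSub (F := F) (Ideal.span {algebraMap Rp R0 ϖp}) =
      locSub (F := F) (Ideal.span {ϖp}) := locSub_span_loc (j := jp) hϖp hjp
  have hWm : locSub (F := F) (Ideal.span {ϖm}) = locSub (F := F) (Ideal.span {ϖp}) := by
    rw [← locSub_span_loc (R' := R0) (F := F) (j := jm) hϖm hjm, ← hW0]
    exact locSub_congr (by rw [hϖ])
  -- the three charts
  have cp := chartSys_places (F := F) Hp hnfp _ hXp S (fun Q hQ => hSp Q (hQ jp))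
  have cm := chartSys_places (F := F) Hm hnfm _ hXm S (fun Q hQ => hSm Q (hQ jm))
  have c0 := chartSys_places (F := F) H0 hnf0 _ hX0 S hS0
  rw [hϖFm, hWm] at cm
  rw [hϖF0, hW0] at c0
  refine ⟨cp, cm, c0, ringSub_le_loc, ringSub_le_loc, ?_, ?_⟩
  · apply mem_nonZeroDivisors_of_ne_zero
    intro h0
    exact hϖp.ne_zero (IsFractionRing.injective Rp F (by rw [h0, map_zero]))
  · intro n r hr v hv e
    rw [← hW0] at hv
    rw [← hϖF0] at e ⊢
    exact sat_locSub (F := F) hϖ0 n r hr v hv e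

end Two

end Fermat.Agent.S19.Cech.IdeleTwo
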