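/-
S19, Čech route, leaf [LHYP], Morph half (dispatch v2 / #2320; consumers: [SIT] `Geo/LevelSit.lean`,
`Geo/LevelSitMaps.lean`, `Geo/Instance.lean`): **the `Cech.Morph`s between the base-changed chart
situations of the levels**, in the shapes of `CoordFamily.Sit.IsBased / IsHom / IsTwist`.

Everything is one application of `ChangeBase.morph_chg` to `LevelBasis.chartHom_level`.

* `morph_level` : for ANY ring hom of base fields `f : K →+* K'` with `f O ⊆ O'` (level inclusion,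
  identity, or `σ ∈ D_A` on a Galois-stable level), any `O`-algebra `S`, `O'`-algebra `S'` and
  `φ : S →+* S'` over `oMap f`, and any frame `ε` in the overlap chart:
  `Morph 𝔪 (mapS S inclFin) (mapS S inclInf) (epsS S ε) 𝔪' (mapS S' inclFin') (mapS S' inclInf')
    (epsS S' (midMap f ∘ ε)) φ (chgFin …) (chgInf …) (chgMid …)`;
* `morph_level_frame` : the same with a prescribed target frame `ε'` (`midMap f (ε i) = ε' i`);
* `morph_based` : the `IsBased` shape (`φ = id`, `S` an algebra over both base rings);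
* `morph_quo` : `S = O ⧸ (ℓⁿ)`, `S' = O' ⧸ (ℓⁿ)`, `φ = RedTuple.quoMap (oMap f) ℓ n` (level inclusion
  `hlift`, Galois transport `hinertia`/`htwist`);
* `morph_red` : same level, `φ = RedTuple.quoRed : O ⧸ (ℓ^(n+1)) → O ⧸ (ℓⁿ)` (`hmono`);
* functoriality of the chart maps: `midMap_comp`, `midMap_id`, … (to compare frames:
  `midIncl (L ≤ L') ∘ midIncl (K₀ ≤ L) = midIncl (K₀ ≤ L')`, `σ_L ∘ incl = incl ∘ σ_{K₀}`).
-/
import Mathlib
import Fermat.Agent.S19.Cech.ChangeBase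
import Fermat.Agent.S19.Cech.LevelBasis
import Fermat.Agent.S19.Cech.RedTuple

set_option autoImplicit false

open ModularCurve AlgebraicCurve

noncomputable section

namespace Fermat.Agent.S19.Cech.LevelMorph

open Fermat.Agent.S19.Cech Fermat.Agent.S19.Cech.LevelBasis Fermat.Agent.S19.Cech.RedTuple
open Fermat.Agent.N4.Chart Fermat.Agent.N4.Setting Fermat.Agent.N4.BaseDescent
open TensorProduct

section General

variable {K K' : Type} [Field K] [Field K'] (f : K →+* K') (N : ℕ)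
  (O : Subring K) (O' : Subring K') (hOO' : ∀ a ∈ O, f a ∈ O')
variable {S S' : Type} [CommRing S] [CommRing S'] [Algebra ↥O S] [Algebra ↥O' S']
  (φ : S →+* S') (hφ : ∀ o, φ (algebraMap ↥O S o) = algebraMap ↥O' S' (oMap f O O' hOO' o))

/-- the base change `S ⊗ R^fin → S' ⊗ R'^fin` of the chart map -/
def chgFin : S ⊗[↥O] ↥(Rfin K N O) →+* S' ⊗[↥O'] ↥(Rfin K' N O') :=
  chgMap (oMap f O O' hOO') φ hφ (finMap f N O O' hOO')
    (chartHom_level f N O O' hOO').alg_p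

/-- the base change `S ⊗ R^inf → S' ⊗ R'^inf` of the chart map -/
def chgInf : S ⊗[↥O] ↥(Rinf K N O) →+* S' ⊗[↥O'] ↥(Rinf K' N O') :=
  chgMap (oMap f O O' hOO') φ hφ (infMap f N O O' hOO')
    (chartHom_level f N O O' hOO').alg_m

/-- the base change `S ⊗ R^mid → S' ⊗ R'^mid` of the chart map -/
def chgMid : S ⊗[↥O] ↥(Rmid K N O) →+* S' ⊗[↥O'] ↥(Rmid K' N O') :=
  chgMap (oMap f O O' hOO') φ hφ (midMap f N O O' hOO')
    (chartHom_level f N O O' hOO').alg_0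

@[simp] theorem chgFin_tmul (s : S) (x : ↥(Rfin K N O)) :
    chgFin f N O O' hOO' φ hφ (s ⊗ₜ[↥O] x) = φ s ⊗ₜ[↥O'] finMap f N O O' hOO' x :=
  chgMap_tmul _ _ _ _ _ _ _

@[simp] theorem chgInf_tmul (s : S) (x : ↥(Rinf K N O)) :
    chgInf f N O O' hOO' φ hφ (s ⊗ₜ[↥O] x) = φ s ⊗ₜ[↥O'] infMap f N O O' hOO' x :=
  chgMap_tmul _ _ _ _ _ _ _

@[simp] theorem chgMid_tmul (s : S) (x : ↥(Rmid K N O)) :
    chgMid f N O O' hOO' φ hφ (s ⊗ₜ[↥O] x) = φ s ⊗ₜ[↥O'] midMap f N O O' hOO' x :=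
  chgMap_tmul _ _ _ _ _ _ _

/-- **The morphism of chart situations along a map of levels**, with a prescribed target frame. -/
theorem morph_level_frame {g : ℕ} (ε : Fin g → ↥(Rmid K N O)) (ε' : Fin g → ↥(Rmid K' N O'))
    (hε : ∀ i, midMap f N O O' hOO' (ε i) = ε' i) {𝔪 : Ideal S} {𝔪' : Ideal S'}
    (hmem : ∀ s ∈ 𝔪, φ s ∈ 𝔪') :
    Morph 𝔪 (mapS S (inclFin K N O)) (mapS S (inclInf K N O)) (epsS S ε)
      𝔪' (mapS S' (inclFin K' N O')) (mapS S' (inclInf K' N O')) (epsS S' ε') φ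
      (chgFin f N O O' hOO' φ hφ) (chgInf f N O O' hOO' φ hφ) (chgMid f N O O' hOO' φ hφ) :=
  morph_chg (oMap f O O' hOO') φ hφ _ _ _ _ _ _
    (chartHom_level f N O O' hOO').comm_p (chartHom_level f N O O' hOO').comm_m hε hmem

/-- **The morphism of chart situations along a map of levels** (target frame = image frame). -/
theorem morph_level {g : ℕ} (ε : Fin g → ↥(Rmid K N O)) {𝔪 : Ideal S} {𝔪' : Ideal S'}
    (hmem : ∀ s ∈ 𝔪, φ s ∈ 𝔪') :
    Morph 𝔪 (mapS S (inclFin K N O)) (mapS S (inclInf K N O)) (epsS S ε)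
      𝔪' (mapS S' (inclFin K' N O')) (mapS S' (inclInf K' N O'))
      (epsS S' fun i => midMap f N O O' hOO' (ε i)) φ
      (chgFin f N O O' hOO' φ hφ) (chgInf f N O O' hOO' φ hφ) (chgMid f N O O' hOO' φ hφ) :=
  morph_level_frame f N O O' hOO' φ hφ ε _ (fun _ => rfl) hmem

/-- **`IsBased` shape**: `φ = id`, `S` an algebra over both base rings compatibly. -/
theorem morph_based {S : Type} [CommRing S] [Algebra ↥O S] [Algebra ↥O' S]
    (hcomp : ∀ o, (RingHom.id S) (algebraMap ↥O S o) = algebraMap ↥O' S (oMap f O O' hOO' o))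
    {g : ℕ} (ε : Fin g → ↥(Rmid K N O)) (ε' : Fin g → ↥(Rmid K' N O'))
    (hε : ∀ i, midMap f N O O' hOO' (ε i) = ε' i) (𝔪 : Ideal S) :
    Morph 𝔪 (mapS S (inclFin K N O)) (mapS S (inclInf K N O)) (epsS S ε)
      𝔪 (mapS S (inclFin K' N O')) (mapS S (inclInf K' N O')) (epsS S ε') (RingHom.id S)
      (chgFin f N O O' hOO' (RingHom.id S) hcomp) (chgInf f N O O' hOO' (RingHom.id S) hcomp)
      (chgMid f N O O' hOO' (RingHom.id S) hcomp) :=
  morph_level_frame f N O O' hOO' (RingHom.id S) hcomp ε ε' hε fun _ hs => hs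

/-! ### `S = O ⧸ (ℓⁿ)` -/

theorem quoMap_algebraMap (ℓ n : ℕ) (o : ↥O) :
    quoMap (oMap f O O' hOO') ℓ n (algebraMap ↥O (Quo ↥O ℓ n) o)
      = algebraMap ↥O' (Quo ↥O' ℓ n) (oMap f O O' hOO' o) :=
  quoMap_red (oMap f O O' hOO') n o

/-- **`IsHom` shape for a map of levels at a fixed precision** (`hlift`: `f` = level inclusion;
`hinertia`/`htwist`: `f = σ` on a Galois-stable level). -/
theorem morph_quo (ℓ n : ℕ) {g : ℕ} (ε : Fin g → ↥(Rmid K N O)) (ε' : Fin g → ↥(Rmid K' N O'))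
    (hε : ∀ i, midMap f N O O' hOO' (ε i) = ε' i) {𝔪 : Ideal (Quo ↥O ℓ n)}
    {𝔪' : Ideal (Quo ↥O' ℓ n)} (hmem : ∀ s ∈ 𝔪, quoMap (oMap f O O' hOO') ℓ n s ∈ 𝔪') :
    Morph 𝔪 (mapS (Quo ↥O ℓ n) (inclFin K N O)) (mapS (Quo ↥O ℓ n) (inclInf K N O))
      (epsS (Quo ↥O ℓ n) ε)
      𝔪' (mapS (Quo ↥O' ℓ n) (inclFin K' N O')) (mapS (Quo ↥O' ℓ n) (inclInf K' N O'))
      (epsS (Quo ↥O' ℓ n) ε') (quoMap (oMap f O O' hOO') ℓ n)
      (chgFin f N O O' hOO' _ (quoMap_algebraMap f O O' hOO' ℓ n))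
      (chgInf f N O O' hOO' _ (quoMap_algebraMap f O O' hOO' ℓ n))
      (chgMid f N O O' hOO' _ (quoMap_algebraMap f O O' hOO' ℓ n)) :=
  morph_level_frame f N O O' hOO' _ (quoMap_algebraMap f O O' hOO' ℓ n) ε ε' hε hmem

end General

/-! ### Functoriality of the chart maps -/

section Functoriality

variable {K K' K'' : Type} [Field K] [Field K'] [Field K''] (f : K →+* K') (f' : K' →+* K'')
  (N : ℕ) (O : Subring K) (O' : Subring K') (O'' : Subring K'')
  (hOO' : ∀ a ∈ O, f a ∈ O') (hOO'' : ∀ a ∈ O', f' a ∈ O'')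

theorem ffMap_ffMap (x : FF K N) : ffMap f' N (ffMap f N x) = ffMap (f'.comp f) N x :=
  Subtype.ext (ModularCurve.coeffMap_coeffMap f' f _)

theorem ffMap_id (x : FF K N) : ffMap (RingHom.id K) N x = x :=
  Subtype.ext (ModularCurve.coeffMap_id _)

omit hOO' hOO'' in
theorem comp_mem (hOO' : ∀ a ∈ O, f a ∈ O') (hOO'' : ∀ a ∈ O', f' a ∈ O'') (a : K) (ha : a ∈ O) :
    (f'.comp f) a ∈ O'' := hOO'' _ (hOO' a ha)

theorem oMap_comp (o : ↥O) :
    oMap f' O' O'' hOO'' (oMap f O O' hOO' o)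
      = oMap (f'.comp f) O O'' (comp_mem f f' O O' O'' hOO' hOO'') o := rfl

theorem finMap_comp (x : ↥(Rfin K N O)) :
    finMap f' N O' O'' hOO'' (finMap f N O O' hOO' x)
      = finMap (f'.comp f) N O O'' (comp_mem f f' O O' O'' hOO' hOO'') x :=
  Subtype.ext (ffMap_ffMap f f' N _)

theorem infMap_comp (x : ↥(Rinf K N O)) :
    infMap f' N O' O'' hOO'' (infMap f N O O' hOO' x)
      = infMap (f'.comp f) N O O'' (comp_mem f f' O O' O'' hOO' hOO'') x :=
  Subtype.ext (ffMap_ffMap f f' N _)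

theorem midMap_comp (x : ↥(Rmid K N O)) :
    midMap f' N O' O'' hOO'' (midMap f N O O' hOO' x)
      = midMap (f'.comp f) N O O'' (comp_mem f f' O O' O'' hOO' hOO'') x :=
  Subtype.ext (ffMap_ffMap f f' N _)

theorem oMap_id (o : ↥O) : oMap (RingHom.id K) O O (fun _ h => h) o = o := rfl

theorem finMap_id (x : ↥(Rfin K N O)) : finMap (RingHom.id K) N O O (fun _ h => h) x = x :=
  Subtype.ext (ffMap_id N _)

theorem infMap_id (x : ↥(Rinf K N O)) : infMap (RingHom.id K) N O O (fun _ h => h) x = x :=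
  Subtype.ext (ffMap_id N _)

theorem midMap_id (x : ↥(Rmid K N O)) : midMap (RingHom.id K) N O O (fun _ h => h) x = x :=
  Subtype.ext (ffMap_id N _)

/-- the chart maps only depend on the underlying map of fields -/
theorem midMap_congr {f₁ f₂ : K →+* K'} (h : f₁ = f₂) (h₁ : ∀ a ∈ O, f₁ a ∈ O')
    (h₂ : ∀ a ∈ O, f₂ a ∈ O') (x : ↥(Rmid K N O)) :
    midMap f₁ N O O' h₁ x = midMap f₂ N O O' h₂ x := by
  subst h; rfl

end Functoriality

/-! ### `hmono`: same level, precision `n + 1 → n` -/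

section Mono

variable {K : Type} [Field K] (N : ℕ) (O : Subring K) (ℓ n : ℕ)

theorem quoRed_algebraMap (o : ↥O) :
    quoRed ↥O ℓ n (algebraMap ↥O (Quo ↥O ℓ (n + 1)) o)
      = algebraMap ↥O (Quo ↥O ℓ n) (oMap (RingHom.id K) O O (fun _ h => h) o) :=
  quoRed_red n o

/-- **`IsHom` shape for the reduction of precision** at a fixed level. -/
theorem morph_red {g : ℕ} (ε : Fin g → ↥(Rmid K N O)) {𝔪 : Ideal (Quo ↥O ℓ (n + 1))}
    {𝔪' : Ideal (Quo ↥O ℓ n)} (hmem : ∀ s ∈ 𝔪, quoRed ↥O ℓ n s ∈ 𝔪') :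
    Morph 𝔪 (mapS (Quo ↥O ℓ (n + 1)) (inclFin K N O)) (mapS (Quo ↥O ℓ (n + 1)) (inclInf K N O))
      (epsS (Quo ↥O ℓ (n + 1)) ε)
      𝔪' (mapS (Quo ↥O ℓ n) (inclFin K N O)) (mapS (Quo ↥O ℓ n) (inclInf K N O))
      (epsS (Quo ↥O ℓ n) ε) (quoRed ↥O ℓ n)
      (chgFin (RingHom.id K) N O O (fun _ h => h) _ (quoRed_algebraMap O ℓ n))
      (chgInf (RingHom.id K) N O O (fun _ h => h) _ (quoRed_algebraMap O ℓ n))
      (chgMid (RingHom.id K) N O O (fun _ h => h) _ (quoRed_algebraMap O ℓ n)) :=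
  morph_level_frame (RingHom.id K) N O O (fun _ h => h) _ (quoRed_algebraMap O ℓ n) ε ε
    (fun i => midMap_id N O (ε i)) hmem

end Mono

end Fermat.Agent.S19.Cech.LevelMorph
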