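/-
S19, Čech route (helper19): **finite levels `L ⊇ Kmax A` over the maximal unramified level.**

`A ⊂ Q̄` a valuation subring over the prime `ℓ`, `K' = Kmax A` (fixed field of the inertia group),
`L ⊇ K'` an intermediate field, finite over `K'`; `O' = A ∩ K'`, `O_L = A ∩ L`.

* `incl`, the algebra structure `Lvl K' → Lvl L` (`lvlAlgebra`, a `def`: use `letI`);
* `isDiscreteValuationRing_baseRing` : `O_L` is a discrete valuation ring;
* `isIntegral_baseRing` : `O_L` is integral over `O'`;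
* `exists_residue` : `O_L = O' + 𝔪_{O_L}` (same residue field);
* `goodLevel` : `L` is a good level (`GoodBase`, algebraically closed residue field, good roots).
-/
import Mathlib
import Fermat.Agent.S19.Base.HenselKmax
import Fermat.Agent.N4F.C.LevelTargets

set_option autoImplicit false
set_option linter.unusedSectionVars false
set_option linter.style.haveILetI false

open Fermat.Agent.N4.BigDVR Fermat.Agent.N4.Setting
open Fermat.Agent.N4F.C.Levels Fermat.Agent.S36.Descent.UnramLevel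
open Fermat.Agent.S19.Base.HenselKmax Polynomial

noncomputable section

namespace Fermat.Agent.S19.Cech.LevelOverKmax

local notation "Qb" => AlgebraicClosure ℚ

variable (A : ValuationSubring Qb) (L : IntermediateField ℚ Qb) (hKL : Kmax A ≤ L)

/-- `Kmax A → L`. -/
def incl : Lvl (Kmax A) →+* Lvl L :=
  ((Lvl.toSub L).symm : ↥L →+* Lvl L).comp
    (((IntermediateField.inclusion hKL : ↥(Kmax A) →ₐ[ℚ] ↥L) : ↥(Kmax A) →+* ↥L).comp
      ((Lvl.toSub (Kmax A)) : Lvl (Kmax A) →+* ↥(Kmax A)))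

theorem algebraMap_incl (a : Lvl (Kmax A)) :
    algebraMap (Lvl L) Qb (incl A L hKL a) = algebraMap (Lvl (Kmax A)) Qb a := rfl

/-- The algebra structure `Lvl (Kmax A) → Lvl L`. -/
@[reducible] def lvlAlgebra : Algebra (Lvl (Kmax A)) (Lvl L) := (incl A L hKL).toAlgebra

theorem lvl_isScalarTower :
    letI := lvlAlgebra A L hKL
    IsScalarTower (Lvl (Kmax A)) (Lvl L) Qb := by
  letI := lvlAlgebra A L hKL
  exact IsScalarTower.of_algebraMap_eq fun a => (algebraMap_incl A L hKL a).symm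

theorem mem_baseRing_iff (K : IntermediateField ℚ Qb) (x : Lvl K) :
    x ∈ baseRing A K ↔ algebraMap (Lvl K) Qb x ∈ A := Iff.rfl

theorem incl_mem {a : Lvl (Kmax A)} (ha : a ∈ baseRing A (Kmax A)) :
    incl A L hKL a ∈ baseRing A L := by
  rw [mem_baseRing_iff, algebraMap_incl]
  exact ha

variable {ℓ : ℕ} (hℓ : ℓ.Prime) (hA : A.LiesOverPrime ℓ)
  (hfin : letI := lvlAlgebra A L hKL; FiniteDimensional (Lvl (Kmax A)) (Lvl L))

include hℓ hA hfin in
/-- `A ∩ L` is a discrete valuation ring. -/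
theorem isDiscreteValuationRing_baseRing : IsDiscreteValuationRing ↥(baseRing A L) := by
  letI := lvlAlgebra A L hKL
  haveI := lvl_isScalarTower A L hKL
  haveI : FiniteDimensional (Lvl (Kmax A)) (Lvl L) := hfin
  haveI : IsDiscreteValuationRing ↥(tr A (Lvl (Kmax A))) := (isUnramLevel_Kmax hℓ hA).dvr
  exact isDiscreteValuationRing_tr_of_finite A (Lvl (Kmax A)) (Lvl L)

/-- `O' → O_L`. -/
def inclBase : ↥(baseRing A (Kmax A)) →+* ↥(baseRing A L) :=
  ((incl A L hKL).comp (baseRing A (Kmax A)).subtype).codRestrict (baseRing A L)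
    (fun a => incl_mem A L hKL a.2)

@[simp] theorem coe_inclBase (a : ↥(baseRing A (Kmax A))) :
    ((inclBase A L hKL a : ↥(baseRing A L)) : Lvl L) = incl A L hKL (a : Lvl (Kmax A)) := rfl

/-- `trSubring A K` and `baseRing A K` are the same ring (`Lvl K` is definitionally `↥K`). -/
def baseEquiv (K : IntermediateField ℚ Qb) : ↥(trSubring A K) ≃+* ↥(baseRing A K) :=
  RingEquiv.refl _

/-- **`A ∩ L` is integral over `A ∩ Kmax A`.** -/
theorem exists_monic_eval₂ {c : Lvl L} (hc : c ∈ baseRing A L) :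
    ∃ P : Polynomial ↥(baseRing A (Kmax A)), P.Monic ∧
      P.eval₂ ((incl A L hKL).comp (baseRing A (Kmax A)).subtype) c = 0 := by
  have hx : algebraMap (Lvl L) Qb c ∈ A := hc
  obtain ⟨P, hPm, hP⟩ := exists_monic_of_mem hx
  refine ⟨P.map (baseEquiv A (Kmax A)).toRingHom, hPm.map _, (algebraMap (Lvl L) Qb).injective ?_⟩
  rw [map_zero, Polynomial.hom_eval₂, Polynomial.eval₂_map]
  have h1 : ((algebraMap (Lvl L) Qb).comp
      ((incl A L hKL).comp (baseRing A (Kmax A)).subtype)).comp (baseEquiv A (Kmax A)).toRingHom =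
      (algebraMap ↥(Kmax A) Qb).comp (trSubring A (Kmax A)).subtype := by
    ext a
    rfl
  rw [h1, ← Polynomial.eval₂_map, hP, ← aeval_def]
  exact minpoly.aeval _ _

local instance isAlgebraicQb_LO : Algebra.IsAlgebraic ℚ (AlgebraicClosure ℚ) :=
  AlgebraicClosure.isAlgebraic ℚ

include hℓ hA in
/-- **Same residue field**: every element of `A` is congruent modulo `𝔪_A` to an element of
`A ∩ Kmax A`. -/
theorem exists_sub_mem_nonunits {x : Qb} (hx : x ∈ A) :
    ∃ a : ↥(baseRing A (Kmax A)),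
      x - algebraMap (Lvl (Kmax A)) Qb (a : Lvl (Kmax A)) ∈ A.nonunits := by
  have hℓA : ((ℓ : ℕ) : Qb) ∈ A.nonunits := hA
  by_cases hxn : x ∈ A.nonunits
  · exact ⟨0, by simpa using hxn⟩
  · obtain ⟨ξ, hξgood, hsub⟩ := exists_goodRoot_sub_mem_nonunits A hℓ hℓA hx hxn
    have hξK : ξ ∈ Kmax A := (isUnramLevel_Kmax hℓ hA).roots ξ hξgood
    have hξA : ξ ∈ A := by
      have h1 : x - ξ ∈ A := ValuationSubring.nonunits_subset hsub
      have : ξ = x - (x - ξ) := by ring
      rw [this]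
      exact sub_mem hx h1
    exact ⟨⟨(Lvl.toSub (Kmax A)).symm ⟨ξ, hξK⟩, hξA⟩, hsub⟩

include hℓ hA hfin in
/-- **The data of the (possibly ramified) extension `O' ⊆ O_L` of discrete valuation rings**: a
uniformiser `ϖ` of `O_L` with `O_L = O' + ϖ O_L`, `ϖ ∣ ℓ` and `ℓ ∣ ϖ ^ e`. -/
theorem exists_uniformizer_data :
    ∃ ϖ : ↥(baseRing A L), ϖ ≠ 0 ∧
      (∀ c : ↥(baseRing A L), ∃ (a : ↥(baseRing A (Kmax A))) (c' : ↥(baseRing A L)),
        c = inclBase A L hKL a + ϖ * c') ∧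
      (∃ c : ↥(baseRing A L), ((ℓ : ℕ) : ↥(baseRing A L)) = ϖ * c) ∧
      (∃ (e : ℕ) (c : ↥(baseRing A L)), ϖ ^ e = ((ℓ : ℕ) : ↥(baseRing A L)) * c) := by
  haveI := isDiscreteValuationRing_baseRing A L hKL hℓ hA hfin
  obtain ⟨ϖ, hϖ⟩ := IsDiscreteValuationRing.exists_irreducible ↥(baseRing A L)
  have hmax : IsLocalRing.maximalIdeal ↥(baseRing A L) = Ideal.span {ϖ} := hϖ.maximalIdeal_eq
  -- elements with nonunit image lie in `(ϖ)`
  have key : ∀ c : ↥(baseRing A L), algebraMap (Lvl L) Qb (c : Lvl L) ∈ A.nonunits →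
      ∃ c' : ↥(baseRing A L), c = ϖ * c' := by
    intro c hc
    have h1 : c ∈ IsLocalRing.maximalIdeal ↥(baseRing A L) := by
      rw [IsLocalRing.mem_maximalIdeal, mem_nonunits_iff]
      intro hu
      obtain ⟨d, hd⟩ := hu.exists_right_inv
      have h2 : algebraMap (Lvl L) Qb (c : Lvl L) * algebraMap (Lvl L) Qb (d : Lvl L) = 1 := by
        rw [← map_mul]
        have := congrArg (fun z : ↥(baseRing A L) => algebraMap (Lvl L) Qb (z : Lvl L)) hd
        simpa using this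
      have hdA : algebraMap (Lvl L) Qb (d : Lvl L) ∈ A := d.2
      rw [ValuationSubring.mem_nonunits_iff] at hc
      have h3 : A.valuation (algebraMap (Lvl L) Qb (c : Lvl L) *
          algebraMap (Lvl L) Qb (d : Lvl L)) < 1 := by
        rw [map_mul]
        exact mul_lt_one_of_lt_of_le hc ((A.valuation_le_one_iff _).mpr hdA)
      rw [h2, map_one] at h3
      exact lt_irrefl _ h3
    rw [hmax, Ideal.mem_span_singleton'] at h1
    obtain ⟨c', hc'⟩ := h1
    exact ⟨c', by rw [← hc', mul_comm]⟩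
  refine ⟨ϖ, hϖ.ne_zero, ?_, ?_, ?_⟩
  · intro c
    obtain ⟨a, ha⟩ := exists_sub_mem_nonunits A hℓ hA (x := algebraMap (Lvl L) Qb (c : Lvl L)) c.2
    obtain ⟨c', hc'⟩ := key (c - inclBase A L hKL a) (by
      have : algebraMap (Lvl L) Qb ((c - inclBase A L hKL a : ↥(baseRing A L)) : Lvl L) =
          algebraMap (Lvl L) Qb (c : Lvl L) - algebraMap (Lvl (Kmax A)) Qb (a : Lvl (Kmax A)) := by
        rw [← algebraMap_incl A L hKL, ← map_sub]
        rfl
      rw [this]
      exact ha)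
    exact ⟨a, c', by rw [← hc']; ring⟩
  · apply key
    have : algebraMap (Lvl L) Qb (((ℓ : ℕ) : ↥(baseRing A L)) : Lvl L) = ((ℓ : ℕ) : Qb) := by
      simp
    rw [this]
    exact hA
  · have hℓ0 : ((ℓ : ℕ) : ↥(baseRing A L)) ≠ 0 := by
      intro h0
      have := congrArg (fun z : ↥(baseRing A L) => algebraMap (Lvl L) Qb (z : Lvl L)) h0
      simp only [ZeroMemClass.coe_zero, map_zero] at this
      have h2 : algebraMap (Lvl L) Qb (((ℓ : ℕ) : ↥(baseRing A L)) : Lvl L) = ((ℓ : ℕ) : Qb) := by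
        simp
      rw [h2] at this
      exact (Nat.cast_ne_zero.mpr hℓ.ne_zero) this
    obtain ⟨e, u, hu⟩ := IsDiscreteValuationRing.eq_unit_mul_pow_irreducible hℓ0 hϖ
    refine ⟨e, ((u⁻¹ : (↥(baseRing A L))ˣ) : ↥(baseRing A L)), ?_⟩
    rw [hu]
    have : (u : ↥(baseRing A L)) * ϖ ^ e * ((u⁻¹ : (↥(baseRing A L))ˣ) : ↥(baseRing A L)) =
        ϖ ^ e * ((u : ↥(baseRing A L)) * ((u⁻¹ : (↥(baseRing A L))ˣ) : ↥(baseRing A L))) := by ring
    rw [this, Units.mul_inv, mul_one]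

/-! ### `L` is a good level -/

include hℓ hA hKL in
theorem goodRoots_mem : ∀ ξ ∈ goodRoots A, ξ ∈ L := fun ξ hξ =>
  hKL ((isUnramLevel_Kmax hℓ hA).roots ξ hξ)

include hA in
/-- `ℓ` is not a unit of `A ∩ K`, for any `K`. -/
theorem not_isUnit_natCast (K : IntermediateField ℚ Qb) :
    ¬ IsUnit ((ℓ : ℕ) : ↥(baseRing A K)) := by
  intro hu
  obtain ⟨d, hd⟩ := hu.exists_right_inv
  have h1 : algebraMap (Lvl K) Qb (((ℓ : ℕ) : ↥(baseRing A K)) : Lvl K) = ((ℓ : ℕ) : Qb) := by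
    simp
  have h2 : ((ℓ : ℕ) : Qb) * algebraMap (Lvl K) Qb (d : Lvl K) = 1 := by
    rw [← h1, ← map_mul]
    have := congrArg (fun z : ↥(baseRing A K) => algebraMap (Lvl K) Qb (z : Lvl K)) hd
    simpa using this
  have hdA : algebraMap (Lvl K) Qb (d : Lvl K) ∈ A := d.2
  have hℓA : ((ℓ : ℕ) : Qb) ∈ A.nonunits := hA
  rw [ValuationSubring.mem_nonunits_iff] at hℓA
  have h3 : A.valuation (((ℓ : ℕ) : Qb) * algebraMap (Lvl K) Qb (d : Lvl K)) < 1 := by
    rw [map_mul]
    exact mul_lt_one_of_lt_of_le hℓA ((A.valuation_le_one_iff _).mpr hdA)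
  rw [h2, map_one] at h3
  exact lt_irrefl _ h3

include hℓ hA in
/-- Every level is a `GoodBase` as soon as `ℓ ∤ N`. -/
theorem goodBase (K : IntermediateField ℚ Qb) {N : ℕ} (hℓN : ¬ ℓ ∣ N) :
    GoodBase (Lvl K) N (baseRing A K) ℓ :=
  ⟨hℓ, hℓN, isFractionRing_trSubring A K, not_isUnit_natCast A hA K⟩

include hℓ hA hKL in
/-- The residue field of `A ∩ L` is algebraically closed. -/
theorem isAlgClosed_residueField [IsDiscreteValuationRing ↥(baseRing A L)] :
    IsAlgClosed (IsLocalRing.ResidueField ↥(baseRing A L)) :=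
  isAlgClosed_residueField_tr A (Lvl L) hℓ hA fun ξ hξ =>
    (Lvl.mem_range_iff L).mpr (goodRoots_mem A L hKL hℓ hA ξ hξ)

end Fermat.Agent.S19.Cech.LevelOverKmax
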