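/-
S19 / Čech route, leaf [LMON] (helper2; DAG v1.1 of helper22, board #2246): **monotonicity of the
level data in the level.**

`K ≤ K'` two subfields of `ℚ̄` (levels), `φ := ffMap (LevelBasis.lvlIncl hKK) N : F_K → F_{K'}` the
coefficientwise inclusion of the function fields of the levels (`levK_ffMap : lev_{K'} ∘ φ = lev_K`;
(M1) for the charts is `LevelBasis.ffMap_mem_Rfin/Rinf/Rmid`).  This file adds

* **(M1), Gauss rings**: `mem_gaussSubalgebra_iff_levK` (`W_K = {x ∈ F_K | lev x ∈ gaussSub A N}`: the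
  Gauss ring of a level is the trace of the Gauss ring over `A`), hence
  `ffMap_mem_gaussSubalgebra_iff` (`W_K ⊆ W_{K'}` and `W_{K'} ∩ F_K = W_K`);
* **places**: `ffMap_mem_restrictK_iff`, `residueTrivial_restrictK_of_le` (a place which is rational
  over `K` is rational over `K'`), `exists_eq_restrictK`, `levelDiv_restrictK_eq` (the push-down of a
  divisor with `K`-rational support takes the value `D P` at the restriction of EVERY place `P`);
* **(M3)**: `adicValuation_ffMap_le_iff` (the divisorial condition at the restrictions of a place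
  `P` of `ℚ̄ F_N` to the two levels are equivalent), `ffMap_mem_LD_iff`, and for the Gauss rings and
  the three charts of the `j`-line `ffMap_mem_Lp_iff`, `ffMap_mem_Lm_iff`, `ffMap_mem_L0_iff`:
  `φ f ∈ ℒ_?(K')(D) ↔ f ∈ ℒ_?(K)(D)` for `D` with `K`-rational support (monotonicity AND descent).

(M2) (`ϖ_K = u ϖ_{K'}^e`) is `DvrExt`; (M4) is `TransportAut.isCocycle_map` applied with
`ffMap_mem_L0_iff`.
-/
import Fermat.Agent.S19.Cech.DivModule
import Fermat.Agent.S19.Cech.LevelDiv
import Fermat.Agent.S19.Cech.LevelBasis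
import Fermat.Agent.N4F.C.LevelTheta

set_option autoImplicit false
set_option linter.unusedSectionVars false
set_option linter.style.haveILetI false
set_option synthInstance.maxHeartbeats 400000
set_option maxHeartbeats 800000

open ModularCurve AlgebraicCurve
open Fermat.Agent.N4.Setting Fermat.Agent.N4.Chart Fermat.Agent.S24
open Fermat.Agent.S24.PlaceDeriv (ResidueTrivial)

noncomputable section

namespace Fermat.Agent.S19.Cech.LineLevel

open Fermat.Agent.N4F.C Fermat.Agent.N4F.C.Levels Fermat.Agent.N4F.C.LevelCharts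
  Fermat.Agent.N4F.C.LevelTheta Fermat.Agent.N4.BaseDescent Fermat.Agent.N4.FibreEmbedding
  Fermat.Agent.S28.Gauss
  Fermat.Agent.S19.Cech.DivModule Fermat.Agent.S19.Cech.LevelDiv Fermat.Agent.S19.Cech.LevelBasis

/-! ### (M1): the Gauss rings -/

section Gauss

variable (A : ValuationSubring Qb) (N : ℕ) [NeZero N] (K : IntermediateField ℚ Qb)
  [IsDiscreteValuationRing ↥(baseRing A K)]

/-- **The Gauss ring of a level is the trace of the Gauss ring over `A`**:
`W_K = {x ∈ F_K | lev x ∈ gaussSub A N}`. -/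
theorem mem_gaussSubalgebra_iff_levK {x : FF (Lvl K) N} :
    x ∈ gaussSubalgebra (Lvl K) N (baseRing A K) ↔ levK N K x ∈ gaussSub A N := by
  refine ⟨levK_mem_gaussSub A N K, fun h => ?_⟩
  by_contra hx
  have hx0 : x ≠ 0 := fun h0 => hx (h0 ▸ (gaussSubalgebra (Lvl K) N (baseRing A K)).zero_mem)
  have hxL : (x : LaurentSeries (Lvl K)) ≠ 0 := fun h0 => hx0 (Subtype.ext h0)
  rcases mem_gaussRing_or_inv (A := ↥(baseRing A K)) (Q := Lvl K)
    (full_le_gaussField (Lvl K) N (baseRing A K) x.2) hxL with h1 | ⟨h1, h2⟩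
  · exact hx h1
  · have hinv : x⁻¹ ∈ gaussSubalgebra (Lvl K) N (baseRing A K) := h1
    have hθ : theta (Lvl K) N (baseRing A K) ⟨x⁻¹, hinv⟩ = 0 := by
      rw [theta_apply]
      exact h2
    have h3 := thetaBar_levK A N K hinv
    rw [hθ, map_zero] at h3
    have h4 := thetaBar_mul h (levK_mem_gaussSub A N K hinv)
    rw [h3, mul_zero, ← map_mul, mul_inv_cancel₀ hx0, map_one, thetaBar_one] at h4
    exact one_ne_zero h4

end Gauss

section GaussIncl

variable {K K' : IntermediateField ℚ Qb} (hKK : K ≤ K') (A : ValuationSubring Qb) (N : ℕ)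
  [NeZero N] [IsDiscreteValuationRing ↥(baseRing A K)] [IsDiscreteValuationRing ↥(baseRing A K')]

/-- **(M1)** `W_K ⊆ W_{K'}` and `W_{K'} ∩ F_K = W_K`. -/
theorem ffMap_mem_gaussSubalgebra_iff {x : FF (Lvl K) N} :
    ffMap (lvlIncl hKK) N x ∈ gaussSubalgebra (Lvl K') N (baseRing A K') ↔
      x ∈ gaussSubalgebra (Lvl K) N (baseRing A K) := by
  rw [mem_gaussSubalgebra_iff_levK, mem_gaussSubalgebra_iff_levK, levK_ffMap]

theorem ffMap_mem_gaussSubalgebra {x : FF (Lvl K) N}
    (hx : x ∈ gaussSubalgebra (Lvl K) N (baseRing A K)) :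
    ffMap (lvlIncl hKK) N x ∈ gaussSubalgebra (Lvl K') N (baseRing A K') :=
  (ffMap_mem_gaussSubalgebra_iff hKK A N).mpr hx

end GaussIncl

/-! ### Places of the two levels -/

section Places

variable {K K' : IntermediateField ℚ Qb} (hKK : K ≤ K') (N : ℕ) [NeZero N]

include hKK in
theorem range_levK_subset : Set.range (levK N K) ⊆ Set.range (levK N K') := by
  rintro _ ⟨x, rfl⟩
  exact ⟨ffMap (lvlIncl hKK) N x, levK_ffMap N hKK x⟩

theorem ffMap_lvlIncl_jF : ffMap (lvlIncl hKK) N (jF (Lvl K) N) = jF (Lvl K') N := ffMap_jF _ N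

theorem ffMap_lvlIncl_jF_inv :
    ffMap (lvlIncl hKK) N (jF (Lvl K) N)⁻¹ = (jF (Lvl K') N)⁻¹ := by
  rw [map_inv₀, ffMap_jF]

/-- Integrality at the restrictions of a place of `ℚ̄ F_N` to the two levels. -/
theorem ffMap_mem_restrictK_iff (P : Place Qb (Fb N)) (f : FF (Lvl K) N) :
    ffMap (lvlIncl hKK) N f ∈ (restrictK N K' P).toValuationSubring ↔
      f ∈ (restrictK N K P).toValuationSubring := by
  rw [mem_restrictK_iff, mem_restrictK_iff, levK_ffMap]

include hKK in
/-- **Rationality goes up**: a place which is rational over `K` is rational over `K' ⊇ K`. -/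
theorem residueTrivial_restrictK_of_le (P : Place Qb (Fb N))
    (h : ResidueTrivial (restrictK N K P)) : ResidueTrivial (restrictK N K' P) := by
  refine residueTrivial_of_extends (extends_restrictK N K' P) (residueTrivial_bar N P)
    {g | ∃ σ : Qb ≃ₐ[ℚ] Qb,
      (∀ a : Lvl K', σ (algebraMap (Lvl K') Qb a) = algebraMap (Lvl K') Qb a) ∧
      g = arithmeticGalois (modularFunctionFieldFull N) σ} ?_ ?_ ?_
  · rintro g ⟨σ, hσ, rfl⟩
    have hσK : ∀ a : Lvl K, σ (algebraMap (Lvl K) Qb a) = algebraMap (Lvl K) Qb a :=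
      fun a => hσ (lvlIncl hKK a)
    have hext : PlaceExtend.Extends Qb (levK N K) (restrictK N K P)
        (arithmeticGalois (modularFunctionFieldFull N) σ • P) := by
      intro f
      rw [SemilinearAut.smul_toValuationSubring,
        ValuationSubring.mem_pointwise_smul_iff_inv_smul_mem]
      have h1 : (arithmeticGalois (modularFunctionFieldFull N) σ)⁻¹ • levK N K f = levK N K f := by
        rw [inv_smul_eq_iff]
        exact (arithmeticGalois_smul_lev N (Lvl K) σ hσK f).symm
      rw [h1]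
      exact extends_restrictK N K P f
    exact (existsUnique_extendsK N K h).unique hext (extends_restrictK N K P)
  · rintro g ⟨σ, hσ, rfl⟩ f
    exact arithmeticGalois_smul_lev N (Lvl K') σ hσ f
  · intro c hc
    refine hasFixedField_lvl K' c fun σ hσ => ?_
    exact hc _ ⟨σ, hσ, rfl⟩

/-- Every place of a level is the restriction of a place of `ℚ̄ F_N`. -/
theorem exists_eq_restrictK (K : IntermediateField ℚ Qb) (v : Place (Lvl K) (FF (Lvl K) N)) :
    ∃ P : Place Qb (Fb N), v = restrictK N K P := by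
  obtain ⟨P, hP, -⟩ := exists_extendsK N K v
  exact ⟨P, eq_restrictK_of_extends N K hP⟩

/-- The value of the push-down of a divisor with `K`-rational support at the restriction of a place
outside the support. -/
theorem levelDiv_restrictK_of_notMem (K : IntermediateField ℚ Qb) (D : Divisor Qb (Fb N))
    (hrat : ∀ P ∈ D.support, ResidueTrivial (restrictK N K P)) {P : Place Qb (Fb N)}
    (hP : P ∉ D.support) : levelDiv K D (restrictK N K P) = 0 := by
  by_contra hne
  obtain ⟨P₀, hP₀, h⟩ := exists_of_levelDiv_ne_zero K D hne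
  exact hP (restrictK_injective_of_residueTrivial K (hrat P₀ hP₀) h ▸ hP₀)

/-- The value of the push-down of a divisor with `K`-rational support at the restriction of ANY
place `P` of `ℚ̄ F_N` is `D P`. -/
theorem levelDiv_restrictK_eq (K : IntermediateField ℚ Qb) (D : Divisor Qb (Fb N))
    (hrat : ∀ P ∈ D.support, ResidueTrivial (restrictK N K P)) (P : Place Qb (Fb N)) :
    levelDiv K D (restrictK N K P) = D P := by
  by_cases hP : P ∈ D.support
  · exact levelDiv_restrictK K D hrat P (hrat P hP)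
  · rw [levelDiv_restrictK_of_notMem N K D hrat hP, Finsupp.notMem_support_iff.mp hP]

end Places

/-! ### (M3): the divisorial modules -/

section Modules

open WithZero

variable {K K' : IntermediateField ℚ Qb} (hKK : K ≤ K') (N : ℕ) [NeZero N]

/-- **(M3), one place**: the divisorial conditions at the restrictions of `P` to `K` and to `K'`
are equivalent. -/
theorem adicValuation_ffMap_le_iff (D : Divisor Qb (Fb N))
    (hrat : ∀ P ∈ D.support, ResidueTrivial (restrictK N K P)) (P : Place Qb (Fb N))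
    {f : FF (Lvl K) N} :
    (restrictK N K' P).adicValuation (ffMap (lvlIncl hKK) N f) ≤
        exp (levelDiv K' D (restrictK N K' P)) ↔
      (restrictK N K P).adicValuation f ≤ exp (levelDiv K D (restrictK N K P)) := by
  have hrat' : ∀ P ∈ D.support, ResidueTrivial (restrictK N K' P) := fun P hP =>
    residueTrivial_restrictK_of_le hKK N P (hrat P hP)
  rw [levelDiv_restrictK_eq N K D hrat P, levelDiv_restrictK_eq N K' D hrat' P]
  by_cases hP : P ∈ D.support
  · rw [Place.adicValuation_le_exp_iff, Place.adicValuation_le_exp_iff,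
      ← ord_levK_restrictK N K' P (hrat' P hP), levK_ffMap,
      ord_levK_restrictK N K P (hrat P hP), map_eq_zero]
  · rw [Finsupp.notMem_support_iff.mp hP, exp_zero, ← DivModule.mem_place_iff,
      ← DivModule.mem_place_iff]
    exact ffMap_mem_restrictK_iff hKK N P f

variable (A : ValuationSubring Qb)

/-- **(M3), general form**: for subalgebras `W ⊆ F_K`, `W' ⊆ F_{K'}` with `φ⁻¹ W' = W`, conditions
`c, c'` on the places which correspond under restriction, and a divisor `D` with `K`-rational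
support: `φ f ∈ LD W' c' (D_{K'}) ↔ f ∈ LD W c (D_K)`. -/
theorem ffMap_mem_LD_iff {W : Subalgebra ↥(baseRing A K) (FF (Lvl K) N)}
    {W' : Subalgebra ↥(baseRing A K') (FF (Lvl K') N)}
    (hW : ∀ x, ffMap (lvlIncl hKK) N x ∈ W' ↔ x ∈ W)
    {c : Place (Lvl K) (FF (Lvl K) N) → Prop} {c' : Place (Lvl K') (FF (Lvl K') N) → Prop}
    (hc : ∀ P : Place Qb (Fb N), c' (restrictK N K' P) ↔ c (restrictK N K P))
    (D : Divisor Qb (Fb N)) (hrat : ∀ P ∈ D.support, ResidueTrivial (restrictK N K P))
    {f : FF (Lvl K) N} :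
    ffMap (lvlIncl hKK) N f ∈ LD W' c' (levelDiv K' D) ↔ f ∈ LD W c (levelDiv K D) := by
  rw [mem_LD_iff, mem_LD_iff, hW]
  refine and_congr_right fun _ => ⟨fun h v hv => ?_, fun h v' hv' => ?_⟩
  · obtain ⟨P, rfl⟩ := exists_eq_restrictK N K v
    exact (adicValuation_ffMap_le_iff hKK N D hrat P).mp (h _ ((hc P).mpr hv))
  · obtain ⟨P, rfl⟩ := exists_eq_restrictK N K' v'
    exact (adicValuation_ffMap_le_iff hKK N D hrat P).mpr (h _ ((hc P).mp hv'))

include hKK in
theorem inChart_restrictK_iff (P : Place Qb (Fb N)) :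
    InChart (jF (Lvl K') N) (restrictK N K' P) ↔ InChart (jF (Lvl K) N) (restrictK N K P) := by
  unfold InChart
  rw [← ffMap_lvlIncl_jF hKK N]
  exact ffMap_mem_restrictK_iff hKK N P _

include hKK in
theorem inChart_inv_restrictK_iff (P : Place Qb (Fb N)) :
    InChart (jF (Lvl K') N)⁻¹ (restrictK N K' P) ↔ InChart (jF (Lvl K) N)⁻¹ (restrictK N K P) := by
  unfold InChart
  rw [← ffMap_lvlIncl_jF_inv hKK N]
  exact ffMap_mem_restrictK_iff hKK N P _

include hKK in
theorem inBoth_restrictK_iff (P : Place Qb (Fb N)) :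
    InBoth (jF (Lvl K') N) (restrictK N K' P) ↔ InBoth (jF (Lvl K) N) (restrictK N K P) :=
  and_congr (inChart_restrictK_iff hKK N P) (inChart_inv_restrictK_iff hKK N P)

variable [IsDiscreteValuationRing ↥(baseRing A K)] [IsDiscreteValuationRing ↥(baseRing A K')]

/-- **(M3)** `φ f ∈ ℒ₊(K')(D) ↔ f ∈ ℒ₊(K)(D)`. -/
theorem ffMap_mem_Lp_iff (D : Divisor Qb (Fb N))
    (hrat : ∀ P ∈ D.support, ResidueTrivial (restrictK N K P)) {f : FF (Lvl K) N} :
    ffMap (lvlIncl hKK) N f ∈
        Lp (gaussSubalgebra (Lvl K') N (baseRing A K')) (jF (Lvl K') N) (levelDiv K' D) ↔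
      f ∈ Lp (gaussSubalgebra (Lvl K) N (baseRing A K)) (jF (Lvl K) N) (levelDiv K D) :=
  ffMap_mem_LD_iff hKK N A (fun _ => ffMap_mem_gaussSubalgebra_iff hKK A N)
    (inChart_restrictK_iff hKK N) D hrat

/-- **(M3)** `φ f ∈ ℒ₋(K')(D) ↔ f ∈ ℒ₋(K)(D)`. -/
theorem ffMap_mem_Lm_iff (D : Divisor Qb (Fb N))
    (hrat : ∀ P ∈ D.support, ResidueTrivial (restrictK N K P)) {f : FF (Lvl K) N} :
    ffMap (lvlIncl hKK) N f ∈
        Lm (gaussSubalgebra (Lvl K') N (baseRing A K')) (jF (Lvl K') N) (levelDiv K' D) ↔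
      f ∈ Lm (gaussSubalgebra (Lvl K) N (baseRing A K)) (jF (Lvl K) N) (levelDiv K D) :=
  ffMap_mem_LD_iff hKK N A (fun _ => ffMap_mem_gaussSubalgebra_iff hKK A N)
    (inChart_inv_restrictK_iff hKK N) D hrat

/-- **(M3)** `φ f ∈ ℒ₀(K')(D) ↔ f ∈ ℒ₀(K)(D)`. -/
theorem ffMap_mem_L0_iff (D : Divisor Qb (Fb N))
    (hrat : ∀ P ∈ D.support, ResidueTrivial (restrictK N K P)) {f : FF (Lvl K) N} :
    ffMap (lvlIncl hKK) N f ∈
        L0 (gaussSubalgebra (Lvl K') N (baseRing A K')) (jF (Lvl K') N) (levelDiv K' D) ↔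
      f ∈ L0 (gaussSubalgebra (Lvl K) N (baseRing A K)) (jF (Lvl K) N) (levelDiv K D) :=
  ffMap_mem_LD_iff hKK N A (fun _ => ffMap_mem_gaussSubalgebra_iff hKK A N)
    (inBoth_restrictK_iff hKK N) D hrat

end Modules

end Fermat.Agent.S19.Cech.LineLevel
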