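/-
S19 / Čech-units route, joint Č2, leaf [LEQ] part 3 (helper1):
**the local ring is cut out by its places**, and **change of the local parameter**.

Setting of `LocalEq.lean` (Layer 1 of `N4F/C/LocalMult`): `S` a noetherian local domain with
fraction field `F`, `π` (the image of a uniformiser of the DVR `O`) prime in `S`, `S / π` a principal
ideal ring.

* `exists_eq_algebraMap_of_forall_mem` : `x = a / b` (`π ∤ b`) lying in `𝒪_v` for all places
  `v ⊇ S` is an element of `S`  (`S = W ∩ ⋂_{v ⊇ S} 𝒪_v`, `W = S_(π)`).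
* `exists_isUnit_of_forall_ord_eq_zero` : a Gauss unit with `ord_v = 0` at all `v ⊇ S` is a unit
  of `S`.
* `exists_unit_mul_of_ord_le`, local generation: if `ord_v x + D v ≥ 0` on the disc then
  `x ∈ S · (linEq t D)⁻¹`.
* `localEq_change_param` : for a divisor of local degree `0`, two local parameters give the same
  local equation modulo `1 + π S`.
* Layer 2 (`LocalMult.ChartData`): `chart_exists_eq_mul_linEq_inv`, the stalk of `𝓛(D)` at a closed
  point of the chart is generated by `(linEq t D)⁻¹`.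
-/
import Mathlib
import Fermat.Agent.S19.Cech.LocalEqChart

set_option autoImplicit false
set_option linter.unusedSectionVars false
set_option linter.style.haveILetI false

namespace Fermat.Agent.S19.Cech.LocalEq2

open AlgebraicCurve IsLocalRing
open Fermat.Agent.S24.PlaceDeriv (ResidueTrivial)
open Fermat.Agent.S24.PlaceExtend (mem_iff_ord_nonneg ord_pos_of_mem_nonunits mem_nonunits_of_ord_pos)
open Fermat.Agent.N4.Cover
open Fermat.Agent.N4F.C.LocalMult
open Fermat.Agent.S19.Cech.LocalEq
open Fermat.Agent.S19.Cech.LocalEqChart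

section Layer1

variable {O K F S : Type*}
  [CommRing O] [IsDomain O] [IsDiscreteValuationRing O]
  [Field K] [Algebra O K] [IsFractionRing O K]
  [Field F] [Algebra K F] [Algebra O F] [IsScalarTower O K F]
  [CommRing S] [IsDomain S] [IsNoetherianRing S] [IsLocalRing S]
  [Algebra S F] [IsFractionRing S F] [Algebra O S] [IsScalarTower O S F]

variable {ϖ : O}

variable (hϖ : Irreducible ϖ) (hπ : Prime (algebraMap O S ϖ))
  (hPID : IsPrincipalIdealRing (S ⧸ Ideal.span {algebraMap O S ϖ}))

include hϖ hπ hPID in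
/-- Auxiliary form of `exists_eq_algebraMap_of_forall_mem`, by induction on the denominator. -/
theorem exists_eq_algebraMap_aux (b : S) : ∀ (a : S) (x : F), ¬ algebraMap O S ϖ ∣ b →
    x * algebraMap S F b = algebraMap S F a →
    (∀ v : Place K F, Contains S v → x ∈ v.toValuationSubring) →
    ∃ s : S, algebraMap S F s = x := by
  classical
  haveI : UniqueFactorizationMonoid S := LocalUFD.uniqueFactorizationMonoid hπ hPID
  have hinj : Function.Injective (algebraMap S F) := IsFractionRing.injective S F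
  induction b using UniqueFactorizationMonoid.induction_on_prime with
  | h₁ => intro a x hb; exact absurd (dvd_zero _) hb
  | h₂ u hu =>
    intro a x _ hx _
    obtain ⟨w, rfl⟩ := hu
    refine ⟨a * ((w⁻¹ : Sˣ) : S), ?_⟩
    have hw0 : algebraMap S F (w : S) ≠ 0 := fun h0 =>
      w.ne_zero (hinj (by rw [h0, map_zero]))
    rw [map_mul, ← hx, mul_assoc, ← map_mul, Units.mul_inv, map_one, mul_one]
  | h₃ b p hb0 hp ih =>
    intro a x hpb hx hv
    have hpπ : ¬ algebraMap O S ϖ ∣ p := fun h => hpb (Dvd.dvd.mul_right h b)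
    have hbπ : ¬ algebraMap O S ϖ ∣ b := fun h => hpb (Dvd.dvd.mul_left h p)
    have hpπ' : ¬ p ∣ algebraMap O S ϖ := fun h =>
      hpπ ((hp.dvd_prime_iff_associated hπ).1 h).symm.dvd
    -- `x p` has denominator `b`
    obtain ⟨s', hs'⟩ := ih a (x * algebraMap S F p) hbπ (by rw [← hx, map_mul]; ring)
      (fun v hcv => v.toValuationSubring.mul_mem _ _ (hv v hcv) (hcv p))
    -- the place of `p`
    obtain ⟨vp, hvp, hpvp⟩ := exists_place_of_prime_of_not_dvd (K := K) (F := F) hϖ hp hpπ'
    have hcp : centreIdeal hvp = Ideal.span {p} :=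
      centreIdeal_eq_span_of_mem hϖ hπ.not_isUnit hPID hvp hp hpvp
    have hs'm : s' ∈ centreIdeal hvp := by
      rw [mem_centreIdeal_iff, hs']
      exact mul_mem_nonunits vp (hv vp hvp) hpvp
    rw [hcp, Ideal.mem_span_singleton] at hs'm
    obtain ⟨s, rfl⟩ := hs'm
    refine ⟨s, ?_⟩
    have hp0 : algebraMap S F p ≠ 0 := fun h0 => hp.ne_zero (hinj (by rw [h0, map_zero]))
    rw [map_mul, mul_comm] at hs'
    exact mul_right_cancel₀ hp0 hs'

include hϖ hπ hPID in
/-- **`S = W ∩ ⋂_{v ⊇ S} 𝒪_v`.**  An element `x = a / b` of `F` with `π ∤ b` which lies in the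
valuation ring of every place containing `S` is an element of `S`. -/
theorem exists_eq_algebraMap_of_forall_mem {x : F}
    (hW : ∃ a b : S, ¬ algebraMap O S ϖ ∣ b ∧ x * algebraMap S F b = algebraMap S F a)
    (hv : ∀ v : Place K F, Contains S v → x ∈ v.toValuationSubring) :
    ∃ s : S, algebraMap S F s = x := by
  obtain ⟨a, b, hb, hab⟩ := hW
  exact exists_eq_algebraMap_aux hϖ hπ hPID b a x hb hab hv

include hϖ hπ hPID in
/-- A Gauss unit with order `0` at all places containing `S` is a unit of `S`. -/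
theorem exists_isUnit_of_forall_ord_eq_zero {x : F}
    (hx : IsGaussUnit (algebraMap O S ϖ) x)
    (hv : ∀ v : Place K F, Contains S v → v.ord x = 0) :
    ∃ u : S, IsUnit u ∧ algebraMap S F u = x := by
  have hx0 := hx.ne_zero
  obtain ⟨a, b, ha, hb, hab⟩ := hx
  obtain ⟨u, hu⟩ := exists_eq_algebraMap_of_forall_mem (K := K) hϖ hπ hPID ⟨a, b, hb, hab⟩
    (fun v hcv => (mem_iff_ord_nonneg v hx0).2 (by rw [hv v hcv]))
  obtain ⟨u', hu'⟩ := exists_eq_algebraMap_of_forall_mem (K := K) (x := x⁻¹) hϖ hπ hPID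
    ⟨b, a, ha, by rw [← hab, ← mul_assoc, inv_mul_cancel₀ hx0, one_mul]⟩
    (fun v hcv => (mem_iff_ord_nonneg v (inv_ne_zero hx0)).2 (by rw [v.ord_inv, hv v hcv, neg_zero]))
  refine ⟨u, IsUnit.of_mul_eq_one u' ?_, hu⟩
  apply IsFractionRing.injective S F
  rw [map_mul, hu, hu', mul_inv_cancel₀ hx0, map_one]

variable {t : S} (ht : Ideal.span {t, algebraMap O S ϖ} = maximalIdeal S)
  (htπ : ¬ algebraMap O S ϖ ∣ t)

include hϖ hπ hPID ht htπ in
/-- **Local generation.**  If `x = a / b` (`π ∤ b`) satisfies `0 ≤ ord_v x + D v` at all places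
`v ⊇ S` (with `D` supported, inside the disc, on rational points), then `x ∈ S · (linEq t D)⁻¹`. -/
theorem exists_eq_mul_linEq_inv (D : Place K F →₀ ℤ) {x : F} (hx0 : x ≠ 0)
    (hW : ∃ a b : S, ¬ algebraMap O S ϖ ∣ b ∧ x * algebraMap S F b = algebraMap S F a)
    (hv : ∀ v : Place K F, Contains S v → 0 ≤ v.ord x + discPart S D v) :
    ∃ s : S, x = algebraMap S F s * (linEq (O := O) t D)⁻¹ := by
  have hl0 := linEq_ne_zero hϖ hπ hPID ht htπ (F := F) D
  obtain ⟨a, b, hb, hab⟩ := hW
  obtain ⟨a', b', ha', hb', hab'⟩ := isGaussUnit_linEq hϖ hπ ht htπ (F := F) D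
  obtain ⟨s, hs⟩ := exists_eq_algebraMap_of_forall_mem (K := K) (x := x * linEq (O := O) t D)
    hϖ hπ hPID
    ⟨a * a', b * b', fun hd => (hπ.dvd_or_dvd hd).elim hb hb', by
      rw [map_mul, map_mul, ← hab, ← hab']; ring⟩
    (fun v hcv => (mem_iff_ord_nonneg v (mul_ne_zero hx0 hl0)).2 (by
      rw [v.ord_mul hx0 hl0, ord_linEq hϖ hπ hPID ht htπ D hcv]; exact hv v hcv))
  exact ⟨s, by rw [hs, mul_assoc, mul_inv_cancel₀ hl0, mul_one]⟩

variable {t' : S} (ht' : Ideal.span {t', algebraMap O S ϖ} = maximalIdeal S)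
  (htπ' : ¬ algebraMap O S ϖ ∣ t')

include hϖ hπ hPID ht htπ ht' htπ' in
/-- **Change of the local parameter.**  For a divisor of local degree `0` the local equations with
respect to two local parameters agree modulo `1 + π S`. -/
theorem localEq_change_param {D : Place K F →₀ ℤ} (hdeg : localDeg S D = 0) :
    ∃ s : S, localEq (O := O) (F := F) t' D =
      algebraMap S F (1 + algebraMap O S ϖ * s) * localEq (O := O) t D := by
  have h1 := localEq_mem hϖ hπ ht htπ (F := F) D
  have h2 := localEq_mem hϖ hπ ht' htπ' (F := F) D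
  have hε : OnePlusPiW (algebraMap O S ϖ)
      (localEq (O := O) (F := F) t' D * (localEq (O := O) (F := F) t D)⁻¹) := h2.mul hπ h1.inv
  obtain ⟨u, _, hu⟩ := exists_isUnit_of_forall_ord_eq_zero (K := K) hϖ hπ hPID
    (isGaussUnit_of_onePlusPiW hε) (fun v hcv => by
      rw [v.ord_mul h2.ne_zero (inv_ne_zero h1.ne_zero), v.ord_inv,
        ord_localEq hϖ hπ hPID ht htπ hdeg hcv, ord_localEq hϖ hπ hPID ht' htπ' hdeg hcv]
      ring)
  rw [← hu] at hε
  obtain ⟨s, rfl⟩ := exists_eq_of_onePlusPiW_algebraMap hπ hε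
  exact ⟨s, by rw [hu, mul_assoc, inv_mul_cancel₀ h1.ne_zero, mul_one]⟩

end Layer1

/-! ### Layer 2: a closed point of a chart -/

section Layer2

variable {O K F R k' F' : Type*}
  [CommRing O] [IsDomain O] [IsDiscreteValuationRing O]
  [Field K] [Algebra O K] [IsFractionRing O K]
  [Field F] [Algebra K F] [Algebra O F] [IsScalarTower O K F]
  [CommRing R] [IsDomain R] [IsNoetherianRing R] [Algebra R F] [IsFractionRing R F]
  [Algebra O R] [IsScalarTower O R F]
  [Field k'] [Field F'] [Algebra k' F']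

variable {ϖ : O} {ρ : R →+* F'} {Q : Place k' F'}

/-- An element of the chart with nonzero reduction is prime to `π` in the local ring. -/
theorem chart_not_dvd_of_rho_ne_zero (h : ChartData ϖ ρ Q) {b : R} (hb : ρ b ≠ 0) :
    ¬ algebraMap O (h.locRing F) ϖ ∣ algebraMap R (h.locRing F) b := by
  rw [← rho_ne_zero_iff (h.ker_rhoS (F := F)), h.rhoS_algebraMap, coe_rhoQ]
  exact hb

/-- A place containing the local ring contains the chart. -/
theorem chart_mem_of_contains (h : ChartData ϖ ρ Q) {P : Place K F}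
    (hP : Contains (h.locRing F) P) (x : R) : algebraMap R F x ∈ P.toValuationSubring := by
  rw [IsScalarTower.algebraMap_apply R (h.locRing F) F]
  exact hP _

include K in
/-- **Local generation on the chart.**  If `f = a / b` (`a, b ∈ R`, `b` with nonzero reduction)
satisfies `0 ≤ ord_P f + D P` at all places `P ⊇ R` containing the local ring `S = R_𝔫`, then
`f ∈ S · (linEq t D)⁻¹`: the exact local equation generates the stalk of `𝓛(D)` at `𝔫`. -/
theorem chart_exists_eq_mul_linEq_inv (h : ChartData ϖ ρ Q) {t : h.locRing F}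
    (ht : Ideal.span {t, algebraMap O (h.locRing F) ϖ} = maximalIdeal (h.locRing F))
    (htπ : ¬ algebraMap O (h.locRing F) ϖ ∣ t) (D : Place K F →₀ ℤ)
    (hrat : ∀ v ∈ D.support, Contains (h.locRing F) v → ResidueTrivial v) {f : F} (hf0 : f ≠ 0)
    (hW : ∃ a b : R, ρ b ≠ 0 ∧ f * algebraMap R F b = algebraMap R F a)
    (hf : ∀ P : Place K F, Contains (h.locRing F) P → 0 ≤ P.ord f + D P) :
    ∃ s : h.locRing F, f = algebraMap (h.locRing F) F s * (linEq (O := O) t D)⁻¹ := by
  classical
  obtain ⟨hπ, hPID⟩ := h.prime_and_pid K (F := F)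
  obtain ⟨a, b, hb, hab⟩ := hW
  refine exists_eq_mul_linEq_inv h.irreducible hπ hPID ht htπ D hf0
    ⟨algebraMap R (h.locRing F) a, algebraMap R (h.locRing F) b,
      chart_not_dvd_of_rho_ne_zero h hb, by
        rw [← IsScalarTower.algebraMap_apply R (h.locRing F) F,
          ← IsScalarTower.algebraMap_apply R (h.locRing F) F]; exact hab⟩ fun v hv => ?_
  by_cases hres : ResidueTrivial v
  · rw [discPart_apply D ⟨hv, hres⟩]; exact hf v hv
  · have h2 : D v = 0 := by
      by_contra hne
      exact hres (hrat v (Finsupp.mem_support_iff.2 hne) hv)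
    have h1 : discPart (h.locRing F) D v = 0 := by
      rw [discPart]; exact Finsupp.filter_apply_neg _ _ fun hd => hres hd.2
    have := hf v hv
    rw [h2] at this
    rw [h1]; exact this

end Layer2

end Fermat.Agent.S19.Cech.LocalEq2
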