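/-
S19 / Čech-units route, glue (helper21): **independence of the choice of the uniformiser.**

`Formula.ChartLevel.exists_rho` / `LevelDiv.exists_rhoData` produce, for each chart of a level, THEIR
OWN uniformiser `ϖ` of `O_K = baseRing A K`.  All the statements about `RhoData`, `Cocycle.IsOne` and
the lines `GaussN4.lineOf` depend on `ϖ` only through the ideal `ϖ O_K`:

* `RhoData.of_irreducible` : `RhoData … ϖ ρ → Irreducible ϖ' → RhoData … ϖ' ρ`;
* `exists_rhoData_of_irreducible` : the reduction map of a chart for a PRESCRIBED uniformiser;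
* `isOne_of_mul_unit`, `isOne_mul_unit_iff`, `isOne_algebraMap_of_irreducible` :
  `f ≡ 1 mod ϖ W ↔ f ≡ 1 mod ϖ' W`.
-/
import Mathlib
import Fermat.Agent.S19.Cech.LevelDiv
import Fermat.Agent.S19.Cech.Cocycle

set_option autoImplicit false
set_option linter.unusedSectionVars false
set_option linter.style.haveILetI false

open ModularCurve AlgebraicCurve
open Fermat.Agent.N4.Setting

namespace Fermat.Agent.S19.Cech.RhoDataUnif

open Fermat.Agent.N4F.C Fermat.Agent.N4F.C.Levels Fermat.Agent.N4F.C.LevelCharts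
  Fermat.Agent.N4F.C.Formula Fermat.Agent.N4.BigDVR
  Fermat.Agent.S19.Cech.LevelDiv Fermat.Agent.S19.Cech.Cocycle

/-! ### `IsOne` -/

section IsOne

variable {F : Type*} [CommRing F] {ϖ c d : F} {Rg : Subring F}

/-- `f ≡ 1 mod ϖ Rg → f ≡ 1 mod (c ϖ) Rg` for a unit `c` of `Rg`. -/
theorem isOne_of_mul_unit (hd : d ∈ Rg) (hcd : c * d = 1) {f : F} (h : IsOne ϖ Rg f) :
    IsOne (c * ϖ) Rg f := by
  obtain ⟨r, hr, rfl⟩ := h
  refine ⟨d * r, Rg.mul_mem hd hr, ?_⟩
  calc 1 + ϖ * r = 1 + (c * d) * (ϖ * r) := by rw [hcd, one_mul]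
    _ = 1 + c * ϖ * (d * r) := by ring

theorem isOne_mul_unit_iff (hc : c ∈ Rg) (hd : d ∈ Rg) (hcd : c * d = 1) {f : F} :
    IsOne (c * ϖ) Rg f ↔ IsOne ϖ Rg f := by
  refine ⟨fun h => ?_, isOne_of_mul_unit hd hcd⟩
  have h1 := isOne_of_mul_unit (ϖ := c * ϖ) (c := d) (d := c) hc (by rw [mul_comm, hcd]) h
  rwa [← mul_assoc, mul_comm d c, hcd, one_mul] at h1

end IsOne

/-! ### Uniformisers of a discrete valuation ring -/

section DVR

variable {O F : Type*} [CommRing O] [IsDomain O] [IsDiscreteValuationRing O] [CommRing F]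
  [Algebra O F]

/-- Two uniformisers differ by a unit. -/
theorem exists_unit_mul_eq {ϖ ϖ' : O} (hϖ : Irreducible ϖ) (hϖ' : Irreducible ϖ') :
    ∃ u : Oˣ, (u : O) * ϖ = ϖ' := by
  obtain ⟨u, hu⟩ := IsDiscreteValuationRing.associated_of_irreducible _ hϖ hϖ'
  exact ⟨u, by rw [← hu, mul_comm]⟩

theorem span_algebraMap_eq {R : Type*} [CommRing R] [Algebra O R] {ϖ ϖ' : O}
    (hϖ : Irreducible ϖ) (hϖ' : Irreducible ϖ') :
    Ideal.span {algebraMap O R ϖ} = Ideal.span {algebraMap O R ϖ'} := by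
  obtain ⟨u, hu⟩ := exists_unit_mul_eq hϖ hϖ'
  rw [← hu, map_mul, Ideal.span_singleton_mul_left_unit ((u.isUnit).map (algebraMap O R))]

/-- `f ≡ 1 mod ϖ W ↔ f ≡ 1 mod ϖ' W` for two uniformisers of `O`, `W` any subring containing the
image of `O`. -/
theorem isOne_algebraMap_of_irreducible {ϖ ϖ' : O} (hϖ : Irreducible ϖ) (hϖ' : Irreducible ϖ')
    {W : Subring F} (hW : ∀ a : O, algebraMap O F a ∈ W) {f : F} :
    IsOne (algebraMap O F ϖ') W f ↔ IsOne (algebraMap O F ϖ) W f := by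
  obtain ⟨u, hu⟩ := exists_unit_mul_eq hϖ hϖ'
  rw [← hu, map_mul]
  exact isOne_mul_unit_iff (hW _) (hW ((u⁻¹ : Oˣ) : O))
    (by rw [← map_mul, Units.mul_inv, map_one])

end DVR

/-! ### `RhoData` -/

section Rho

variable {A : ValuationSubring Qb} {N : ℕ} [NeZero N] {K : IntermediateField ℚ Qb}
  [IsDiscreteValuationRing ↥(baseRing A K)] {R : Subalgebra ↥(baseRing A K) (FF (Lvl K) N)}
  {gen : Fb N} {ϖ ϖ' : ↥(baseRing A K)} {ρ : ↥R →+* Ft A N}

/-- **The reduction data of a chart do not depend on the uniformiser.** -/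
theorem RhoData.of_irreducible (h : RhoData A N K R gen ϖ ρ) (hϖ' : Irreducible ϖ') :
    RhoData A N K R gen ϖ' ρ := by
  have e := span_algebraMap_eq (R := ↥R) h.irreducible hϖ'
  exact
    { irreducible := hϖ'
      lev_gauss := h.lev_gauss
      rho_eq := h.rho_eq
      coe_rho := h.coe_rho
      dedekind := e ▸ h.dedekind
      ker_eq := e ▸ h.ker_eq
      frac := h.frac
      mem := h.mem
      compat := h.compat }

/-- The reduction map of a level chart, for a prescribed uniformiser. -/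
theorem exists_rhoData_of_irreducible {Rt : Subalgebra ↥A (Fb N)}
    (hcl : ChartLevel A N K R Rt gen) (hϖ : Irreducible ϖ) : ∃ ρ, RhoData A N K R gen ϖ ρ := by
  obtain ⟨ϖ₀, ρ, h⟩ := exists_rhoData hcl
  exact ⟨ρ, RhoData.of_irreducible h hϖ⟩

end Rho

end Fermat.Agent.S19.Cech.RhoDataUnif
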