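/-
S19, Čech route, block CECH-3A (helper5): **the abstract core of the separation axiom (C6)**
("a class of `ker(red)` all of whose level-`n` Čech coordinates vanish is zero"), Mathlib only.

Everything is stated for `O`-SUBMODULES `Lp Lm ≤ L0` of one ambient `O`-module `𝓦`
(think `ℒ_±(D)`, `ℒ₀(D)` inside the Gauss ring `W` of the function field, `O` the discrete valuation
ring of a level), and `H¹ = L0 / (Lp + Lm)`.  Finite generation of quotients is expressed without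
quotient types:

* `RelFG S T` : `T ≤ S + span (finite set)` ("`T` is finitely generated over `S`");
  `RelFG.of_le`, `RelFG.trans`, `RelFG.mono_left`, `RelFG.anti_right`, `RelFG.sup`,
  `relFG_of_finite_quotient` (bridge from `Module.Finite O (↥T ⧸ N)`, the shape of
  `N4/IntClosureCech.cech_h1`), `relFG_of_finite_quotient_top` (the same for `T = ⊤`,
  literally the shape of `cech_h1`), `RelFG.of_linearMap` (a linear map `T → 𝓥` with finitely generated
  range and kernel inside `S`: the "leading coefficient at a rational point" step);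
* **(S2) dévissage** `RelFG.h1_of_sub` / `RelFG.h1_of_super` : if `Lp/Lp'`, `Lm/Lm'`, `L0/L0'` are
  finitely generated then `H¹(L')` is finitely generated iff `H¹(L)` is;
* **(S1) Mittag-Leffler** `exists_pow_smul_mem`, `exists_glue` : over a noetherian `O`, if `H¹` is
  finitely generated there is `n₀` such that a pair `(x, y) ∈ Lp × Lm` agreeing modulo
  `ϖ^(m+n₀) L0` can be corrected modulo `ϖ^m` to a pair agreeing exactly (`ϖ^{n₀}` kills the
  `ϖ`-power torsion of `H¹`);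
* **(S3) separation** `exists_global_section` : rings `Bp Bm ≤ B0` acting on `Lp Lm ≤ L0 ⊆ W`,
  `fp ∈ Lp`, `fm ∈ Lm` congruent to `1` modulo `ϖ`; if for every `m` the Čech cocycle
  `u_m` (`fp - u_m fm ∈ ϖ^m L0`) is trivial, i.e. `u_m = wp * wm * (1 + ϖ^m b)` with `wp ∈ Bpˣ`,
  `wm ∈ Bm`, `b ∈ B0`, `wp⁻¹ ≡ 1`, then there is a global section `h ∈ Lp ∩ Lm` with `h ≡ 1` modulo `ϖ`.
-/
import Mathlib

set_option autoImplicit false

namespace Fermat.Agent.S19.Cech.SepRel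

open Submodule

section RelFG

variable {O : Type*} [CommRing O] {𝓦 : Type*} [AddCommGroup 𝓦] [Module O 𝓦]

/-- `T` is finitely generated over `S`: `T ≤ S + span (finite set)`.  (For `S ≤ T` and `O`
noetherian this says that `T / S` is a finitely generated `O`-module.) -/
def RelFG (S T : Submodule O 𝓦) : Prop :=
  ∃ s : Finset 𝓦, T ≤ S ⊔ span O (↑s : Set 𝓦)

theorem RelFG.of_le {S T : Submodule O 𝓦} (h : T ≤ S) : RelFG S T :=
  ⟨∅, h.trans le_sup_left⟩

theorem RelFG.refl (S : Submodule O 𝓦) : RelFG S S := RelFG.of_le le_rfl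

theorem RelFG.trans {A B C : Submodule O 𝓦} (h₁ : RelFG A B) (h₂ : RelFG B C) : RelFG A C := by
  classical
  obtain ⟨s₁, hs₁⟩ := h₁
  obtain ⟨s₂, hs₂⟩ := h₂
  refine ⟨s₁ ∪ s₂, hs₂.trans ?_⟩
  rw [Finset.coe_union, span_union, ← sup_assoc]
  exact sup_le_sup_right hs₁ _

theorem RelFG.mono_left {A A' T : Submodule O 𝓦} (h : RelFG A T) (hA : A ≤ A') : RelFG A' T := by
  obtain ⟨s, hs⟩ := h
  exact ⟨s, hs.trans (sup_le_sup_right hA _)⟩

theorem RelFG.anti_right {S T T' : Submodule O 𝓦} (h : RelFG S T) (hT : T' ≤ T) : RelFG S T' := by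
  obtain ⟨s, hs⟩ := h
  exact ⟨s, hT.trans hs⟩

theorem RelFG.sup {A B A' B' : Submodule O 𝓦} (h : RelFG A B) (h' : RelFG A' B') :
    RelFG (A ⊔ A') (B ⊔ B') := by
  classical
  obtain ⟨s, hs⟩ := h
  obtain ⟨s', hs'⟩ := h'
  refine ⟨s ∪ s', ?_⟩
  rw [Finset.coe_union, span_union]
  refine sup_le (hs.trans ?_) (hs'.trans ?_)
  · exact sup_le (le_sup_left.trans le_sup_left) (le_sup_left.trans le_sup_right)
  · exact sup_le (le_sup_right.trans le_sup_left) (le_sup_right.trans le_sup_right)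

/-- A finitely generated submodule is finitely generated over anything. -/
theorem RelFG.of_fg {S T : Submodule O 𝓦} (h : T.FG) : RelFG S T := by
  obtain ⟨s, hs⟩ := h
  exact ⟨s, hs ▸ le_sup_right⟩

/-- Bridge from a finite quotient module: if `↥T ⧸ N` is a finite `O`-module then `T` is finitely
generated over (the image of) `N`. -/
theorem relFG_of_finite_quotient (T : Submodule O 𝓦) (N : Submodule O ↥T)
    [h : Module.Finite O (↥T ⧸ N)] : RelFG (N.map T.subtype) T := by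
  classical
  obtain ⟨s, hs⟩ := h.fg_top
  -- lift the generators
  have hsurj : Function.Surjective (N.mkQ) := N.mkQ_surjective
  choose! lift hlift using hsurj
  refine ⟨s.image fun q => ((lift q : ↥T) : 𝓦), ?_⟩
  intro x hx
  -- the class of `x` is a combination of the generators
  have hmem : N.mkQ ⟨x, hx⟩ ∈ span O (↑s : Set (↥T ⧸ N)) := by rw [hs]; exact mem_top
  -- `span s = map mkQ (span (lift '' s))`
  have hspan : span O (↑s : Set (↥T ⧸ N)) = (span O (lift '' (↑s : Set (↥T ⧸ N)))).map N.mkQ := by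
    rw [Submodule.map_span, ← Set.image_comp]
    congr 1
    ext q
    constructor
    · intro hq
      exact ⟨q, hq, hlift q⟩
    · rintro ⟨q', hq', rfl⟩
      simpa [hlift q'] using hq'
  rw [hspan] at hmem
  obtain ⟨v, hv, hvx⟩ := hmem
  have hker : (⟨x, hx⟩ : ↥T) - v ∈ N := by
    rw [← Submodule.Quotient.mk_eq_zero, Submodule.Quotient.mk_sub, sub_eq_zero]
    exact hvx.symm
  have hxv : x = ((⟨x, hx⟩ : ↥T) - v : ↥T) + (v : 𝓦) := by
    simp
  rw [hxv]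
  refine add_mem (mem_sup_left ?_) (mem_sup_right ?_)
  · exact ⟨_, hker, rfl⟩
  · have : (v : 𝓦) ∈ (span O (lift '' (↑s : Set (↥T ⧸ N)))).map T.subtype := ⟨v, hv, rfl⟩
    rw [Submodule.map_span, ← Set.image_comp] at this
    rw [Finset.coe_image]
    exact this

/-- The same for `T = ⊤` (the literal shape of `N4/IntClosureCech.cech_h1`:
`Module.Finite O (A0 ⧸ chartSum ip im)`). -/
theorem relFG_of_finite_quotient_top (N : Submodule O 𝓦) [h : Module.Finite O (𝓦 ⧸ N)] :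
    RelFG N ⊤ := by
  classical
  obtain ⟨s, hs⟩ := h.fg_top
  have hsurj : Function.Surjective (N.mkQ) := N.mkQ_surjective
  choose! lift hlift using hsurj
  refine ⟨s.image lift, ?_⟩
  intro x _
  have hmem : N.mkQ x ∈ span O (↑s : Set (𝓦 ⧸ N)) := by rw [hs]; exact mem_top
  have hspan : span O (↑s : Set (𝓦 ⧸ N)) = (span O (lift '' (↑s : Set (𝓦 ⧸ N)))).map N.mkQ := by
    rw [Submodule.map_span, ← Set.image_comp]
    congr 1
    ext q
    constructor
    · intro hq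
      exact ⟨q, hq, hlift q⟩
    · rintro ⟨q', hq', rfl⟩
      simpa [hlift q'] using hq'
  rw [hspan] at hmem
  obtain ⟨v, hv, hvx⟩ := hmem
  have hker : x - v ∈ N := by
    rw [← Submodule.Quotient.mk_eq_zero, Submodule.Quotient.mk_sub, sub_eq_zero]
    exact hvx.symm
  have hxv : x = (x - v) + v := by abel
  rw [hxv]
  refine add_mem (mem_sup_left hker) (mem_sup_right ?_)
  rw [Finset.coe_image]
  exact hv

/-- **One dévissage step, the geometric shape**: a linear map `λ : ↥T → 𝓥` whose kernel lies in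
`S` and whose range is contained in a finitely generated submodule of a noetherian module makes `T`
finitely generated over `S`.  (For `T = ℒ_?(D)`, `S = ℒ_?(D - P)`: `λ` = leading coefficient at the
rational point `P`, with values in `c⁻¹ • O_L`.) -/
theorem RelFG.of_linearMap {𝓥 : Type*} [AddCommGroup 𝓥] [Module O 𝓥] {S T : Submodule O 𝓦}
    (lam : ↥T →ₗ[O] 𝓥) (hker : ∀ x : ↥T, lam x = 0 → (x : 𝓦) ∈ S)
    (hrange : (LinearMap.range lam).FG) : RelFG S T := by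
  classical
  obtain ⟨s, hs⟩ := hrange
  have hsub : ∀ q ∈ s, ∃ x : ↥T, lam x = q := by
    intro q hq
    have : q ∈ LinearMap.range lam := by rw [← hs]; exact subset_span hq
    exact this
  choose! lift hlift using hsub
  refine ⟨s.image fun q => ((lift q : ↥T) : 𝓦), ?_⟩
  intro x hx
  have hmem : lam ⟨x, hx⟩ ∈ span O (↑s : Set 𝓥) := by rw [hs]; exact ⟨_, rfl⟩
  -- write `lam x` as a combination of the `q ∈ s`, and subtract the same combination of lifts
  obtain ⟨c, hc⟩ := (Submodule.mem_span_finset).1 hmem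
  obtain ⟨hcsupp, hc⟩ := hc
  set v : ↥T := ∑ q ∈ s, c q • lift q with hv
  have hlv : lam v = lam ⟨x, hx⟩ := by
    rw [hv, map_sum, ← hc]
    refine Finset.sum_congr rfl fun q hq => ?_
    rw [map_smul, hlift q hq]
  have hk : (((⟨x, hx⟩ : ↥T) - v : ↥T) : 𝓦) ∈ S := hker _ (by rw [map_sub, hlv, sub_self])
  have hxv : x = (((⟨x, hx⟩ : ↥T) - v : ↥T) : 𝓦) + (v : 𝓦) := by simp
  rw [hxv]
  refine add_mem (mem_sup_left hk) (mem_sup_right ?_)
  rw [hv, Submodule.coe_sum]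
  refine sum_mem fun q hq => ?_
  rw [Submodule.coe_smul]
  refine smul_mem _ _ (subset_span ?_)
  rw [Finset.coe_image]
  exact ⟨q, hq, rfl⟩

/-! ### (S2) dévissage of the finiteness of `H¹` -/

/-- If `H¹(L')` is finitely generated and `L0/L0'` is finitely generated, then `H¹(L)` is finitely
generated (`Lp' ≤ Lp`, `Lm' ≤ Lm`). -/
theorem RelFG.h1_of_sub {Lp Lm L0 Lp' Lm' L0' : Submodule O 𝓦}
    (h : RelFG (Lp' ⊔ Lm') L0') (h0 : RelFG L0' L0) (hp : Lp' ≤ Lp) (hm : Lm' ≤ Lm) :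
    RelFG (Lp ⊔ Lm) L0 :=
  (h.trans h0).mono_left (sup_le_sup hp hm)

/-- If `H¹(L)` is finitely generated and `Lp/Lp'`, `Lm/Lm'` are finitely generated, then `H¹(L')` is
finitely generated (`L0' ≤ L0`). -/
theorem RelFG.h1_of_super {Lp Lm L0 Lp' Lm' L0' : Submodule O 𝓦}
    (h : RelFG (Lp ⊔ Lm) L0) (hp : RelFG Lp' Lp) (hm : RelFG Lm' Lm) (h0 : L0' ≤ L0) :
    RelFG (Lp' ⊔ Lm') L0' :=
  ((hp.sup hm).trans h).anti_right h0

end RelFG

/-! ### (S1) Mittag-Leffler -/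

section MittagLeffler

variable {O : Type*} [CommRing O] [IsNoetherianRing O] {𝓦 : Type*} [AddCommGroup 𝓦] [Module O 𝓦]

/-- `ϖ^{n₀}` kills the `ϖ`-power torsion of `L0 / E` when `L0` is finitely generated over `E`. -/
theorem exists_pow_smul_mem (ϖ : O) {E L0 : Submodule O 𝓦} (h : RelFG E L0) :
    ∃ n₀ : ℕ, ∀ (k : ℕ) (z : 𝓦), z ∈ L0 → ϖ ^ (k + n₀) • z ∈ E → ϖ ^ n₀ • z ∈ E := by
  classical
  obtain ⟨s, hs⟩ := h
  set V : Submodule O 𝓦 := span O (↑s : Set 𝓦) with hV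
  have : IsNoetherian O ↥V := isNoetherian_span_of_finite O s.finite_toSet
  -- the ascending chain `M k = {v ∈ V | ϖ^k v ∈ E}`
  let M : ℕ → Submodule O ↥V := fun k => E.comap ((ϖ ^ k) • V.subtype)
  have hMmem : ∀ k (v : ↥V), v ∈ M k ↔ ϖ ^ k • (v : 𝓦) ∈ E := by
    intro k v
    simp [M, Submodule.mem_comap]
  have hmono : Monotone M := by
    refine monotone_nat_of_le_succ fun k v hv => ?_
    rw [hMmem] at hv ⊢
    rw [pow_succ', mul_smul]
    exact E.smul_mem _ hv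
  obtain ⟨n₀, hn₀⟩ := (monotone_stabilizes_iff_noetherian (R := O) (M := ↥V)).2 inferInstance
    ⟨M, hmono⟩
  refine ⟨n₀, fun k z hz hkz => ?_⟩
  obtain ⟨e, he, v, hv, rfl⟩ := Submodule.mem_sup.1 (hs hz)
  have hv' : (⟨v, hv⟩ : ↥V) ∈ M (k + n₀) := by
    rw [hMmem]
    have : ϖ ^ (k + n₀) • v = ϖ ^ (k + n₀) • (e + v) - ϖ ^ (k + n₀) • e := by
      rw [smul_add]; abel
    show ϖ ^ (k + n₀) • v ∈ E
    rw [this]
    exact sub_mem hkz (E.smul_mem _ he)
  have hstab : M n₀ = M (k + n₀) := hn₀ (k + n₀) (Nat.le_add_left _ _)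
  rw [← hstab, hMmem] at hv'
  rw [smul_add]
  exact add_mem (E.smul_mem _ he) hv'

/-- **(S1)**: if `H¹ = L0/(Lp + Lm)` is finitely generated, approximate sections glue: a pair
`(x, y) ∈ Lp × Lm` with `x - y ∈ ϖ^(m+n₀) L0` can be corrected modulo `ϖ^m` to a common element. -/
theorem exists_glue (ϖ : O) {Lp Lm L0 : Submodule O 𝓦} (h : RelFG (Lp ⊔ Lm) L0) :
    ∃ n₀ : ℕ, ∀ (m : ℕ) (x y z : 𝓦), x ∈ Lp → y ∈ Lm → z ∈ L0 → x - y = ϖ ^ (m + n₀) • z →
      ∃ a ∈ Lp, ∃ b ∈ Lm, x - ϖ ^ m • a = y + ϖ ^ m • b := by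
  obtain ⟨n₀, hn₀⟩ := exists_pow_smul_mem ϖ h
  refine ⟨n₀, fun m x y z hx hy hz hxyz => ?_⟩
  have h1 : ϖ ^ (m + n₀) • z ∈ Lp ⊔ Lm := by
    rw [← hxyz]
    exact sub_mem (mem_sup_left hx) (mem_sup_right hy)
  obtain ⟨a, ha, b, hb, hab⟩ := Submodule.mem_sup.1 (hn₀ m z hz h1)
  refine ⟨a, ha, b, hb, ?_⟩
  have h2 : x - y = ϖ ^ m • a + ϖ ^ m • b := by
    rw [hxyz, pow_add, mul_smul, ← hab, smul_add]
  have : x = y + (ϖ ^ m • a + ϖ ^ m • b) := by rw [← h2]; abel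
  rw [this]; abel

end MittagLeffler

/-! ### (S3) separation -/

section Separation

variable {O : Type*} [CommRing O] [IsNoetherianRing O] {W : Type*} [CommRing W] [Algebra O W]

/-- **(S3) separation.**  `Bp, Bm ≤ B0` subalgebras of `W` acting on the `O`-submodules
`Lp, Lm ≤ L0` of `W`; `fp ∈ Lp`, `fm ∈ Lm` congruent to `1` modulo `ϖ`; `H¹ = L0/(Lp+Lm)` finitely
generated.  If for every `m` the Čech cocycle of `(fp, fm)` modulo `ϖ^m` is trivial, i.e. there are a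
unit `wp` of `Bp` (inverse `wp'`, `wp' ≡ 1` mod `ϖ`), `wm ∈ Bm`, `b ∈ B0` with
`fp - wp * wm * (1 + ϖ^m b) * fm ∈ ϖ^m L0`, then there is `h ∈ Lp ∩ Lm` with `h ≡ 1` modulo `ϖ`. -/
theorem exists_global_section (ϖ : O) (Bp Bm B0 : Subalgebra O W) (Lp Lm L0 : Submodule O W)
    (hBp0 : Bp ≤ B0) (hBm0 : Bm ≤ B0)
    (hBpL : ∀ b ∈ Bp, ∀ x ∈ Lp, b * x ∈ Lp) (hBmL : ∀ b ∈ Bm, ∀ x ∈ Lm, b * x ∈ Lm)
    (hB0L : ∀ b ∈ B0, ∀ x ∈ L0, b * x ∈ L0) (hm0 : Lm ≤ L0)
    (hfg : RelFG (Lp ⊔ Lm) L0) {fp fm : W} (hfp : fp ∈ Lp) (hfm : fm ∈ Lm)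
    (hfp1 : ∃ c : W, fp = 1 + ϖ • c)
    (hcoc : ∀ m : ℕ, ∃ wp wp' wm b z : W, wp ∈ Bp ∧ wp' ∈ Bp ∧ wp * wp' = 1 ∧
      (∃ c : W, wp' = 1 + ϖ • c) ∧ wm ∈ Bm ∧ b ∈ B0 ∧ z ∈ L0 ∧
      fp - wp * wm * (1 + ϖ ^ m • b) * fm = ϖ ^ m • z) :
    ∃ h ∈ Lp ⊓ Lm, ∃ c : W, h = 1 + ϖ • c := by
  obtain ⟨n₀, hn₀⟩ := exists_glue ϖ hfg
  obtain ⟨wp, wp', wm, b, z, hwp, hwp', hinv, ⟨c', hc'⟩, hwm, hb, hz, heq⟩ := hcoc (1 + n₀)
  obtain ⟨c, hc⟩ := hfp1
  -- `x := wp' * fp ∈ Lp`, `y := wm * fm ∈ Lm`, `x - y = ϖ^(1+n₀) • z'`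
  set x : W := wp' * fp with hx
  set y : W := wm * fm with hy
  have hxL : x ∈ Lp := hBpL _ hwp' _ hfp
  have hyL : y ∈ Lm := hBmL _ hwm _ hfm
  set z' : W := wp' * z + wm * (b * fm) with hz'
  have hz'L : z' ∈ L0 := by
    refine add_mem (hB0L _ (hBp0 hwp') _ hz) (hB0L _ (hBm0 hwm) _ (hB0L _ hb _ (hm0 hfm)))
  have hxy : x - y = ϖ ^ (1 + n₀) • z' := by
    have h1 : x - y = wp' * (fp - wp * wm * (1 + ϖ ^ (1 + n₀) • b) * fm)
        + (wp * wp') * (wm * ((ϖ ^ (1 + n₀) • b) * fm)) + ((wp * wp') - 1) * (wm * fm) := by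
      rw [hx, hy]; ring
    rw [h1, heq, hinv, sub_self, zero_mul, add_zero, one_mul, hz']
    simp only [Algebra.smul_def]
    ring
  obtain ⟨a, ha, b', hb', hab⟩ := hn₀ 1 x y z' hxL hyL hz'L hxy
  refine ⟨x - ϖ ^ 1 • a, ⟨sub_mem hxL (Lp.smul_mem _ ha), ?_⟩, ?_⟩
  · rw [hab]
    exact add_mem hyL (Lm.smul_mem _ hb')
  · refine ⟨c' + c + ϖ • (c' * c) - a, ?_⟩
    rw [hx, hc', hc, pow_one]
    simp only [Algebra.smul_def]
    ring

end Separation

end Fermat.Agent.S19.Cech.SepRel
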