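/-
S19 / Čech-units route, leaf **[SEPW]** of the DAG v1, part 4 (helper5): the separation axiom (C6)
in the vocabulary of `CoordOfLines.lean` (helper3, [WIRE] part B): ONE situation
`(level L, precision n)` with its line system `Λ`, cocycle predicate `kappa Λ k`, its images
`kImage q0 (kappa Λ k)` in `C0` and the representatives `RepQb`.

* `exists_isOne_mem_of_repQb` : if the class `z` has a line `L` (`Λ z L`) whose `H¹` has
  `ϖ`-power torsion killed by `ϖ ^ n₀`, and SOME representative `a` of the coordinates of `z` in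
  the situation is `≡ 0` modulo `ℓⁿ A`, where the precision `k + 1` of the situation is `> n₀`,
  then `L` has a global generator `s ∈ Lp ⊓ Lm`, `s ≡ 1`.
* `eq_zero_of_repQb` : hence `z = 0`, as soon as lines with a global generator have trivial
  class (`DivModule.isPrincipal_of_mem` + the dictionary).
-/
import Fermat.Agent.S19.Cech.CoordOfLines
import Fermat.Agent.S19.Cech.SepWire

set_option autoImplicit false
set_option linter.unusedSectionVars false

namespace Fermat.Agent.S19.Cech.SepWireLines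

open Fermat.Agent.S19.Abs Fermat.Agent.S19.Coord Fermat.Agent.S19.Cech
open Fermat.Agent.S19.Cech.Cocycle Fermat.Agent.S19.Cech.CoordOfLines

variable {F : Type*} [CommRing F] [IsDomain F] {ϖ : F} {Bp Bm B0 Rg : Subring F}
variable {Jb : Type*} [AddCommGroup Jb]
variable {S : Type*} [CommRing S]
variable {Cp Cm C0 : Type*} [CommRing Cp] [CommRing Cm] [CommRing C0]
  [Algebra S Cp] [Algebra S Cm] [Algebra S C0]
variable {C : Charts ϖ Bp Bm B0 Rg} {𝔪 : Ideal S} {ip : Cp →ₐ[S] C0} {im : Cm →ₐ[S] C0} {k : ℕ}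
  {qp : Bp →+* Cp} {qm : Bm →+* Cm} {q0 : B0 →+* C0} {g : ℕ} {ε : Fin g → C0}
variable {ℓ n : ℕ} {A : ValuationSubring Qb}
variable {O : Type*} [CommRing O] {ι : O →+* Qb} {π : O →+* S}
variable {Λ : Jb → Line ϖ Bp Bm B0 Rg → Prop}

/-- the cocycle of a chosen pair of generators of a chosen line is a cocycle of the class -/
theorem kImage_of_isCocycle {z : Jb} {L : Line ϖ Bp Bm B0 Rg} (hL : Λ z L) {fp fm u : F}
    (hfp : fp ∈ L.Lp) (hfm : fm ∈ L.Lm) (h1p : IsOne ϖ Rg fp) (h1m : IsOne ϖ Rg fm)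
    (hc : L.IsCocycle (k + 1) fp fm u) : kImage q0 (kappa Λ k) z (q0 ⟨u, hc.1⟩) :=
  ⟨u, ⟨L, hL, fp, hfp, fm, hfm, h1p, h1m, hc⟩, hc.1, rfl⟩

/-- **(C6) in one situation.**  A representative `≡ 0` modulo `ℓⁿ A` of the coordinates of `z`, in
a situation of precision `k + 1 > n₀`, forces every line `L` of `z` with `H¹`-torsion bounded by
`n₀` to have a global generator. -/
theorem exists_isOne_mem_of_repQb (hΛ : LineSys C Λ) (T : Transport C 𝔪 ip im k qp qm q0)
    (Lf : SepWire.Lift C 𝔪 k qp qm q0) (H : Hyp 𝔪 ip im ε) (hB : BaseQuot ℓ n A ι π 𝔪)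
    {z : Jb} {L : Line ϖ Bp Bm B0 Rg} (hL : Λ z L) {n₀ : ℕ} (hT : SepWire.BoundedTorsion L n₀)
    (hk : n₀ < k + 1) {a : Fin g → Qb} (h : RepQb A H ι π (kImage q0 (kappa Λ k)) z a)
    (ha : ∀ i, a i ∈ lpow A ℓ n) : ∃ s ∈ L.Lp, s ∈ L.Lm ∧ IsOne ϖ Rg s := by
  obtain ⟨fp, hfp, fm, hfm, h1p, h1m⟩ := hΛ.gens hL
  obtain ⟨u, hc⟩ := L.exists_cocycle C hfp hfm h1m (k + 1)
  have hK : KImg 𝔪 ip im (kImage q0 (kappa Λ k)) := (hΛ.kSys k).kImg T
  have hcoord : H.coord (q0 ⟨u, hc.1⟩) = 0 :=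
    RepQb.coord_eq_zero hB hK h ha (kImage_of_isCocycle hL hfp hfm h1p h1m hc)
  exact SepWire.exists_isOne_mem_of_coord_eq_zero C T Lf H L hT hk hfp h1p hfm h1m hc hcoord

/-- **(C6) in one situation, conclusion `z = 0`.**  `hprinc` : a line of `z` with a global
generator has trivial class (for `L = lineOf D`: `DivModule.isPrincipal_of_mem` + dictionary);
`hfin` : the `ϖ`-power torsion of `H¹` of the lines is bounded (`SepWireDiv.exists_lineBoundedTorsion`).
The precision `k + 1` of the situation has to exceed the bound of ONE line of `z`. -/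
theorem eq_zero_of_repQb (hΛ : LineSys C Λ) (T : Transport C 𝔪 ip im k qp qm q0)
    (Lf : SepWire.Lift C 𝔪 k qp qm q0) (H : Hyp 𝔪 ip im ε) (hB : BaseQuot ℓ n A ι π 𝔪)
    (hprinc : ∀ z L, Λ z L → (∃ s ∈ L.Lp, s ∈ L.Lm ∧ IsOne ϖ Rg s) → z = 0)
    {z : Jb} {L : Line ϖ Bp Bm B0 Rg} (hL : Λ z L) {n₀ : ℕ} (hT : SepWire.BoundedTorsion L n₀)
    (hk : n₀ < k + 1) {a : Fin g → Qb} (h : RepQb A H ι π (kImage q0 (kappa Λ k)) z a)
    (ha : ∀ i, a i ∈ lpow A ℓ n) : z = 0 :=
  hprinc z L hL (exists_isOne_mem_of_repQb hΛ T Lf H hB hL hT hk h ha)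

end Fermat.Agent.S19.Cech.SepWireLines
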