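/-
S19, Čech route, block CECH-3A (helper6), complement to `Separation.lean`: the **approximation
(Mittag-Leffler) form** of the separation lemma.

With `H⁰ = Lp ⊓ Lm`, `H¹ = L0/(Lp + Lm)` as in `Separation.lean`: if the `π`-power torsion of `H¹`
is killed by `π ^ n₀` and `fp ∈ Lp`, `fm ∈ Lm` agree modulo `π ^ (n + n₀) L0`, then there is a
GLOBAL section `s ∈ Lp ⊓ Lm` with `s ≡ fp` modulo `π ^ n Lp` and `s ≡ fm` modulo `π ^ n Lm`.

Mathlib only.
-/
import Fermat.Agent.S19.Cech.Separation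

set_option autoImplicit false

namespace Fermat.Agent.S19.Cech.Separation

variable {O : Type*} [CommRing O] {E : Type*} [AddCommGroup E] [Module O E]

/-- **Approximation form.** A pair `(fp, fm)` compatible modulo `π ^ (n + n₀) L0` is approximated
modulo `π ^ n` by a global section. -/
theorem exists_global_approx (π : O) {Lp Lm L0 : Submodule O E} {n₀ : ℕ}
    (hT : BoundedTorsion π L0 (Lp ⊔ Lm) n₀) (n : ℕ)
    {fp fm z : E} (hfp : fp ∈ Lp) (hfm : fm ∈ Lm) (hz : z ∈ L0)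
    (h : fp - fm = π ^ (n + n₀) • z) :
    ∃ s : E, s ∈ Lp ∧ s ∈ Lm ∧ (∃ gp ∈ Lp, s - fp = π ^ n • gp) ∧ ∃ gm ∈ Lm, s - fm = π ^ n • gm := by
  have hmem : π ^ (n + n₀) • z ∈ Lp ⊔ Lm := by
    rw [← h]
    exact Submodule.sub_mem _ (Submodule.mem_sup_left hfp) (Submodule.mem_sup_right hfm)
  obtain ⟨gp, hgp, gm, hgm, hsum⟩ := Submodule.mem_sup.mp (hT (n + n₀) z hz hmem)
  have hpow : π ^ (n + n₀) • z = π ^ n • gp + π ^ n • gm := by
    rw [← smul_add, hsum, smul_smul, ← pow_add]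
  have hdiff : fp - fm = π ^ n • gp + π ^ n • gm := by rw [h, hpow]
  have hkey : fp - π ^ n • gp = fm + π ^ n • gm := by
    have h' : fp = fm + (π ^ n • gp + π ^ n • gm) := by
      rw [← hdiff]; abel
    rw [h']; abel
  refine ⟨fp - π ^ n • gp, Submodule.sub_mem _ hfp (Submodule.smul_mem _ _ hgp), ?_,
    ⟨-gp, Submodule.neg_mem _ hgp, ?_⟩, ⟨gm, hgm, ?_⟩⟩
  · rw [hkey]
    exact Submodule.add_mem _ hfm (Submodule.smul_mem _ _ hgm)
  · rw [smul_neg]; abel
  · rw [hkey]; abel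

/-- The same, from finite generation of `H¹` over a Noetherian base: one exponent `n₀` works for all
levels and all compatible pairs. -/
theorem exists_forall_global_approx [IsNoetherianRing O] (π : O) {Lp Lm L0 : Submodule O E}
    (hfg : H1FG Lp Lm L0) :
    ∃ n₀ : ℕ, ∀ (n : ℕ) (fp fm z : E), fp ∈ Lp → fm ∈ Lm → z ∈ L0 →
      fp - fm = π ^ (n + n₀) • z →
      ∃ s : E, s ∈ Lp ∧ s ∈ Lm ∧ (∃ gp ∈ Lp, s - fp = π ^ n • gp) ∧
        ∃ gm ∈ Lm, s - fm = π ^ n • gm := by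
  obtain ⟨n₀, hT⟩ := exists_boundedTorsion_of_h1FG π hfg
  exact ⟨n₀, fun n fp fm z hfp hfm hz h => exists_global_approx π hT n hfp hfm hz h⟩

end Fermat.Agent.S19.Cech.Separation
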