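/-
S19, Čech route: **the hypotheses of the deformation block for the modular two-chart model**
`Rfin K N O`, `Rinf K N O → Rmid K N O` (integral closures of `O[j]`, `O[j⁻¹]`, `O[j, j⁻¹]` in
`FF K N`) at a level `(K, O)`: `O ⊆ K` a discrete valuation ring with fraction field `K` of
characteristic `0`, `N` invertible in `O`, both special fibres integral (`StarStatement`).

* `h0_N4`        : `H⁰ = O`                       (`cech_h0`);
* `finite_N4`    : `H¹` is finitely generated     (`cech_h1`);
* `htf_N4`, `hnu_N4` : `Rmid` is `π`-torsion-free and `π` is not a unit of `Rmid`;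
* `fibreConst_N4`: `H⁰` of the special fibre is the residue field (`TorsionFree.FibreConst`): the two
  reductions `redFin x`, `redInf y` agree in `FF κ N`, lie in the integral closures of `κ[j̄]` and
  `κ[j̄⁻¹]`, hence are a constant (`cech_h0` over the residue field), and `ker red = π R`;
* `exists_hyp_N4`: there are `ε_1..ε_g ∈ Rmid` (lifts of a basis of `H¹`, which is FREE) such that
  helper9's `Hyp` holds for `S ⊗[O] R_?` for every `O`-algebra `S` and nilpotent ideal of `S`.
-/
import Mathlib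
import Fermat.Agent.N4F.C.ChartFibre
import Fermat.Agent.N4.IntClosureCech
import Fermat.Agent.N4.S18Glue.Prelim
import Fermat.Agent.S19.Cech.HypBaseChange

set_option autoImplicit false
set_option linter.unusedSectionVars false
set_option synthInstance.maxHeartbeats 400000
set_option maxHeartbeats 800000

namespace Fermat.Agent.S19.Cech.TorsionFreeN4

universe v

open TensorProduct ModularCurve Fermat.Agent.S28.Gauss Fermat.Agent.N4.Chart Fermat.Agent.N4.Setting
  Fermat.Agent.N4.FibreEmbedding Fermat.Agent.N4.IntClosure Fermat.Agent.N4.IntClosureCech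
  Fermat.Agent.N4.FormalFunctions Fermat.Agent.N4F.C.ChartFibre Fermat.Agent.N4.ChartFinite
  Fermat.Agent.S19.Cech Fermat.Agent.S19.Cech.BaseChange

variable (K : Type) [Field K] [CharZero K] (N : ℕ) [NeZero N] (O : Subring K)
  [IsDiscreteValuationRing ↥O] [IsFractionRing ↥O K]

set_option quotPrecheck false in
local notation "κ" => IsLocalRing.ResidueField ↥O

/-- `H⁰ = O` for the modular charts. -/
theorem h0_N4 (x : Rfin K N O) (y : Rinf K N O) (hxy : inclFin K N O x = inclInf K N O y) :
    ∃ a : ↥O, x = algebraMap ↥O (Rfin K N O) a ∧ y = algebraMap ↥O (Rinf K N O) a :=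
  cech_h0 (O := ↥O) (K := K) (F := FF K N) (jF K N)
    (Fermat.Agent.N4.FFAlgebraic.transcendental_jF K N)
    (Fermat.Agent.N4.S18Glue.algClosed_in_FF K N) x y hxy

/-- `H¹` is finitely generated for the modular charts. -/
theorem finite_N4 :
    Module.Finite ↥O (Rmid K N O ⧸ chartSum (inclFin K N O) (inclInf K N O)) := by
  have : FiniteDimensional (IntermediateField.adjoin K {jF K N}) (FF K N) :=
    Fermat.Agent.N4.ModPolySetting.finiteDimensional_FF K N
  exact cech_h1 (O := ↥O) (K := K) (F := FF K N) (jF K N)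
    (Fermat.Agent.N4.FFAlgebraic.transcendental_jF K N)

theorem pair_subset_gauss :
    ({jF K N, (jF K N)⁻¹} : Set (FF K N)) ⊆ (gaussSubalgebra K N O : Set (FF K N)) := by
  intro z hz
  rcases hz with rfl | hz
  · exact jF_mem_gaussSubalgebra K N O
  · rw [Set.mem_singleton_iff] at hz
    rw [hz]
    exact jF_inv_mem_gaussSubalgebra K N O

/-- The Gauss reduction on the overlap chart. -/
noncomputable abbrev rhoMid : Rmid K N O →+* LaurentSeries κ :=
  rho K N O (pair_subset_gauss K N O)

variable {π : ↥O} (hπ : Irreducible π)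

include hπ in
theorem rhoMid_pi : rhoMid K N O (algebraMap ↥O (Rmid K N O) π) = 0 := by
  rw [rho_algebraMap, residue_irreducible K O hπ, map_zero]

include hπ in
/-- `π` is not a unit of `Rmid`. -/
theorem hnu_N4 : ¬ IsUnit (algebraMap ↥O (Rmid K N O) π) := by
  intro hu
  have := hu.map (rhoMid K N O)
  rw [rhoMid_pi K N O hπ] at this
  exact not_isUnit_zero this

include hπ in
/-- `Rmid` is `π`-torsion-free. -/
theorem htf_N4 (z : Rmid K N O) (hz : algebraMap ↥O (Rmid K N O) π * z = 0) : z = 0 := by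
  rcases mul_eq_zero.1 hz with h | h
  · exfalso
    have h1 : algebraMap ↥O (FF K N) π = 0 := congrArg Subtype.val h
    exact algebraMap_ne_zero K N O hπ.ne_zero h1
  · exact h

/-- `theta` only depends on the underlying element (stated so that the kernel never has to compare
membership predicates). -/
theorem theta_congr' {x y : FF K N} (hx : x ∈ gaussSubalgebra K N O)
    (hy : y ∈ gaussSubalgebra K N O) (h : x = y) :
    theta K N O ⟨x, hx⟩ = theta K N O ⟨y, hy⟩ := by
  subst h; rfl

theorem rhoMid_inclFin (hN : IsUnit ((N : ℕ) : ↥O)) (x : Rfin K N O) :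
    rhoMid K N O (inclFin K N O x) = ((redFin K N O hN x : FF κ N) : LaurentSeries κ) := by
  rw [coe_redFin, rho_eq_theta]
  exact theta_congr' K N O _ _ (coe_chartIncl (sFin_subset K N) x)

theorem rhoMid_inclInf (hN : IsUnit ((N : ℕ) : ↥O)) (y : Rinf K N O) :
    rhoMid K N O (inclInf K N O y) = ((redInf K N O hN y : FF κ N) : LaurentSeries κ) := by
  rw [coe_redInf, rho_eq_theta]
  exact theta_congr' K N O _ _ (coe_chartIncl (sInf_subset K N) y)

include hπ in
/-- **`H⁰` of the special fibre of the modular two-chart model is the residue field.** -/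
theorem fibreConst_N4 (hN : IsUnit ((N : ℕ) : ↥O)) (hstar : StarStatement K N O) :
    TorsionFree.FibreConst π (inclFin K N O) (inclInf K N O) := by
  intro x y hxy
  -- the reductions agree
  have h1 : rhoMid K N O (inclFin K N O x) = rhoMid K N O (inclInf K N O y) := by
    obtain ⟨z, hz⟩ := Ideal.mem_span_singleton'.1 hxy
    have := congrArg (rhoMid K N O) hz
    rw [map_mul, rhoMid_pi K N O hπ, mul_zero, map_sub] at this
    exact (sub_eq_zero.1 this.symm)
  rw [rhoMid_inclFin K N O hN, rhoMid_inclInf K N O hN] at h1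
  have h2 : redFin K N O hN x = redInf K N O hN y := Subtype.ext h1
  -- the common reduction is a constant
  have hmemF : redFin K N O hN x ∈ SigmaFin κ N := redFin_mem_SigmaFin K N O hN x
  have hmemI : redFin K N O hN x ∈ SigmaInf κ N := h2 ▸ redInf_mem_SigmaInf K N O hN y
  obtain ⟨cbar, hcbar⟩ := mem_range_of_mem_chartAlg_of_mem_chartAlg_inv (O := κ) (K := κ)
    (F := FF κ N) (jF κ N) (Fermat.Agent.N4.FFAlgebraic.transcendental_jF κ N)
    (Fermat.Agent.N4.S18Glue.algClosed_in_FF κ N) hmemF hmemI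
  obtain ⟨c, rfl⟩ := IsLocalRing.residue_surjective cbar
  refine ⟨c, ?_, ?_⟩
  · rw [← fibreIdeal_eq_span K N O hπ, ← ker_redFin K N O hN hstar.1.isPrime, RingHom.mem_ker,
      map_sub, redFin_algebraMap, sub_eq_zero]
    exact hcbar.symm
  · rw [← fibreIdeal_eq_span K N O hπ, ← ker_redInf K N O hN hstar.2.isPrime, RingHom.mem_ker,
      map_sub, redInf_algebraMap, sub_eq_zero, ← h2]
    exact hcbar.symm

include hπ in
/-- `H¹` of the modular two-chart model is torsion-free. -/
theorem isTorsionFree_H1_N4 (hN : IsUnit ((N : ℕ) : ↥O)) (hstar : StarStatement K N O) :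
    Module.IsTorsionFree ↥O (Rmid K N O ⧸ chartSum (inclFin K N O) (inclInf K N O)) :=
  TorsionFree.isTorsionFree_quotient hπ (fibreConst_N4 K N O hπ hN hstar) (htf_N4 K N O hπ)

include hπ in
/-- `H¹` of the modular two-chart model is a free `O`-module of finite rank, with a basis lifted to
`Rmid`. -/
theorem exists_basis_lift_N4 (hN : IsUnit ((N : ℕ) : ↥O)) (hstar : StarStatement K N O) :
    ∃ (g : ℕ) (ε : Fin g → Rmid K N O)
      (b : Module.Basis (Fin g) ↥O (Rmid K N O ⧸ chartSum (inclFin K N O) (inclInf K N O))),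
      ∀ i, b i = Submodule.Quotient.mk (ε i) := by
  have := finite_N4 K N O
  exact TorsionFree.exists_basis_lift hπ (fibreConst_N4 K N O hπ hN hstar) (htf_N4 K N O hπ)

include hπ in
/-- **`Hyp` for a GIVEN family of basis lifts** (e.g. lifts coming from a smaller level). -/
theorem hyp_N4_of_basis {g : ℕ} (ε : Fin g → Rmid K N O)
    (b : Module.Basis (Fin g) ↥O (Rmid K N O ⧸ chartSum (inclFin K N O) (inclInf K N O)))
    (hb : ∀ i, b i = Submodule.Quotient.mk (ε i))
    (S : Type v) [CommRing S] [Algebra ↥O S] (𝔪 : Ideal S) {n : ℕ} (hn : 𝔪 ^ n = ⊥) :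
    Hyp 𝔪 (baseMap S (inclFin K N O)) (baseMap S (inclInf K N O))
      (fun i => (1 : S) ⊗ₜ[↥O] ε i) := by
  obtain ⟨hinj, hflat⟩ := HypBaseChange.pure_of_dvr hπ (htf_N4 K N O hπ) (hnu_N4 K N O hπ)
  exact HypBaseChange.hyp_baseChange S ε b hb (h0_N4 K N O) hinj 𝔪 hn

include hπ in
/-- **The deformation hypotheses for the modular two-chart model**, after every base change. -/
theorem exists_hyp_N4 (hN : IsUnit ((N : ℕ) : ↥O)) (hstar : StarStatement K N O) :
    ∃ (g : ℕ) (ε : Fin g → Rmid K N O),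
      ∀ (S : Type v) [CommRing S] [Algebra ↥O S] (𝔪 : Ideal S) (n : ℕ), 𝔪 ^ n = ⊥ →
        Hyp 𝔪 (baseMap S (inclFin K N O)) (baseMap S (inclInf K N O))
          (fun i => (1 : S) ⊗ₜ[↥O] ε i) := by
  have := finite_N4 K N O
  exact HypBaseChange.exists_hyp_of_dvr hπ (h0_N4 K N O) (fibreConst_N4 K N O hπ hN hstar)
    (htf_N4 K N O hπ) (hnu_N4 K N O hπ)

/-! ### The same at a good base `GoodBase K N O ℓ` (any good level, ramified or not) -/

section GoodBaseForm

variable (K : Type) [Field K] [CharZero K] (N : ℕ) [NeZero N] (O : Subring K)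
  [IsDiscreteValuationRing ↥O]

/-- **Q1 at every good level**: all the inputs of `TorsionFree` / `HypBaseChange` for the charts
`Rfin K N O`, `Rinf K N O → Rmid K N O`. -/
theorem q1_goodBase {ℓ : ℕ} (hG : GoodBase K N O ℓ) (hstar : StarStatement K N O)
    {π : ↥O} (hπ : Irreducible π) :
    (∀ (x : Rfin K N O) (y : Rinf K N O), inclFin K N O x = inclInf K N O y →
      ∃ a : ↥O, x = algebraMap ↥O (Rfin K N O) a ∧ y = algebraMap ↥O (Rinf K N O) a) ∧
    Module.Finite ↥O (Rmid K N O ⧸ chartSum (inclFin K N O) (inclInf K N O)) ∧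
    TorsionFree.FibreConst π (inclFin K N O) (inclInf K N O) ∧
    (∀ z : Rmid K N O, algebraMap ↥O (Rmid K N O) π * z = 0 → z = 0) ∧
    ¬ IsUnit (algebraMap ↥O (Rmid K N O) π) ∧
    Module.IsTorsionFree ↥O (Rmid K N O ⧸ chartSum (inclFin K N O) (inclInf K N O)) := by
  have := hG.frac
  have hN : IsUnit ((N : ℕ) : ↥O) :=
    Fermat.Agent.N4F.C.ChartReduction.isUnit_natCast_of_goodBase K N O hG
  exact ⟨h0_N4 K N O, finite_N4 K N O, fibreConst_N4 K N O hπ hN hstar, htf_N4 K N O hπ,
    hnu_N4 K N O hπ, isTorsionFree_H1_N4 K N O hπ hN hstar⟩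

/-- `Hyp` after every base change, at every good level, for given basis lifts. -/
theorem hyp_goodBase {ℓ : ℕ} (hG : GoodBase K N O ℓ) {π : ↥O} (hπ : Irreducible π)
    {g : ℕ} (ε : Fin g → Rmid K N O)
    (b : Module.Basis (Fin g) ↥O (Rmid K N O ⧸ chartSum (inclFin K N O) (inclInf K N O)))
    (hb : ∀ i, b i = Submodule.Quotient.mk (ε i))
    (S : Type v) [CommRing S] [Algebra ↥O S] (𝔪 : Ideal S) {n : ℕ} (hn : 𝔪 ^ n = ⊥) :
    Hyp 𝔪 (baseMap S (inclFin K N O)) (baseMap S (inclInf K N O))
      (fun i => (1 : S) ⊗ₜ[↥O] ε i) := by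
  have := hG.frac
  exact hyp_N4_of_basis K N O hπ ε b hb S 𝔪 hn

/-- Existence of basis lifts + `Hyp` at every good level. -/
theorem exists_hyp_goodBase {ℓ : ℕ} (hG : GoodBase K N O ℓ) (hstar : StarStatement K N O) :
    ∃ (g : ℕ) (ε : Fin g → Rmid K N O)
      (b : Module.Basis (Fin g) ↥O (Rmid K N O ⧸ chartSum (inclFin K N O) (inclInf K N O))),
      (∀ i, b i = Submodule.Quotient.mk (ε i)) ∧
      ∀ (S : Type v) [CommRing S] [Algebra ↥O S] (𝔪 : Ideal S) (n : ℕ), 𝔪 ^ n = ⊥ →
        Hyp 𝔪 (baseMap S (inclFin K N O)) (baseMap S (inclInf K N O))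
          (fun i => (1 : S) ⊗ₜ[↥O] ε i) := by
  have := hG.frac
  obtain ⟨π, hπ⟩ := IsDiscreteValuationRing.exists_irreducible ↥O
  have hN : IsUnit ((N : ℕ) : ↥O) :=
    Fermat.Agent.N4F.C.ChartReduction.isUnit_natCast_of_goodBase K N O hG
  obtain ⟨g, ε, b, hb⟩ := exists_basis_lift_N4 K N O hπ hN hstar
  exact ⟨g, ε, b, hb, fun S _ _ 𝔪 n hn => hyp_N4_of_basis K N O hπ ε b hb S 𝔪 hn⟩

end GoodBaseForm

end Fermat.Agent.S19.Cech.TorsionFreeN4
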